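/-
[P-FLAT] leaf S56-FLAT-ARCH of the S56 long shot (helper96, named by helper15, board 4264).

ARCHIMEDEAN PROPERTY of a valuation with `v p < 1` on a field algebraic over `ℚ`: every `x` with
`v x < 1` has `v x ^ n ≤ v p` for some `n`.  (The restriction of `v` to `ℚ` is the `p`-adic
valuation, which has rank one, and an algebraic extension does not change the rank; the proof below
is the direct computation: take a primitive integer polynomial killing `x`, let `j` be the least
index whose coefficient is prime to `p`; that term has valuation `v x ^ j`, the lower ones have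
valuation `≤ v p`, the higher ones valuation `< v x ^ j`.)

* `Arch.map_intCast_le_one`, `Arch.map_intCast_eq_one`, `Arch.map_intCast_le_of_dvd` : values of a
  valuation with `v p < 1` on integers.
* `Arch.exists_pow_le_of_isAlgebraic_int` : the general statement (any field of characteristic zero,
  any valuation, `x` algebraic over `ℤ`).
* `Arch.exists_pow_le_of_isAlgebraic` : the same for `x` algebraic over `ℚ`.
* `Arch.exists_pow_le_valuationSubring` : `ValuationSubring` form for a field algebraic over `ℚ`.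
* `Arch.exists_pow_le` : the frozen shape, `A : ValuationSubring (AlgebraicClosure ℚ)`, exactly as
  requested in 4264 (3).
* `Arch.exists_pow_lt`, `Arch.exists_pow_le_of_ne_zero` : the usual corollaries (strict form; any
  nonzero bound `y` in place of `p`).
-/
import Mathlib

set_option autoImplicit false

namespace Fermat.Agent.GP.Flat.Arch

open Polynomial

section General

variable {K : Type*} [Field K] {Γ₀ : Type*} [LinearOrderedCommGroupWithZero Γ₀]
  (v : Valuation K Γ₀)

/-- integers have valuation at most one. -/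
theorem map_intCast_le_one (a : ℤ) : v (a : K) ≤ 1 :=
  (Valuation.mem_integer_iff v _).mp (intCast_mem v.integer a)

/-- an integer prime to `p` is a unit for a valuation with `v p < 1`. -/
theorem map_intCast_eq_one {p : ℕ} (hp : p.Prime) (hvp : v (p : K) < 1) {a : ℤ}
    (ha : ¬ (p : ℤ) ∣ a) : v (a : K) = 1 := by
  have hcop : IsCoprime a (p : ℤ) :=
    ((Nat.prime_iff_prime_int.1 hp).coprime_iff_not_dvd.2 ha).symm
  obtain ⟨b, c, hbc⟩ := hcop
  -- b * a + c * p = 1
  have h1 : ((b : K) * (a : K)) = 1 - (c : K) * (p : K) := by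
    have : ((b * a + c * (p : ℤ) : ℤ) : K) = 1 := by rw [hbc]; simp
    push_cast at this
    linear_combination this
  have hlt : v ((c : K) * (p : K)) < 1 := by
    rw [v.map_mul]
    calc v (c : K) * v (p : K) ≤ 1 * v (p : K) := by
          gcongr
          exact map_intCast_le_one v c
      _ = v (p : K) := one_mul _
      _ < 1 := hvp
  have h2 : v ((b : K) * (a : K)) = 1 := by
    rw [h1]
    exact v.map_one_sub_of_lt hlt
  rw [v.map_mul] at h2
  refine le_antisymm (map_intCast_le_one v a) ?_
  calc (1 : Γ₀) = v (b : K) * v (a : K) := h2.symm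
    _ ≤ 1 * v (a : K) := by
        gcongr
        exact map_intCast_le_one v b
    _ = v (a : K) := one_mul _

/-- a multiple of `p` has valuation at most `v p`. -/
theorem map_intCast_le_of_dvd {p : ℕ} {a : ℤ} (ha : (p : ℤ) ∣ a) : v (a : K) ≤ v (p : K) := by
  obtain ⟨b, rfl⟩ := ha
  push_cast
  rw [v.map_mul]
  calc v (p : K) * v (b : K) ≤ v (p : K) * 1 := by
        gcongr
        exact map_intCast_le_one v b
    _ = v (p : K) := mul_one _

/-- **Archimedean property**, general form: `K` a field of characteristic zero, `v` a valuation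
with `v p < 1`, `x` algebraic over `ℤ` with `v x < 1`.  Then `v x ^ n ≤ v p` for some `n`. -/
theorem exists_pow_le_of_isAlgebraic_int [CharZero K] {p : ℕ} (hp : p.Prime)
    (hvp : v (p : K) < 1) {x : K} (hxalg : IsAlgebraic ℤ x) (hx : v x < 1) :
    ∃ n : ℕ, v x ^ n ≤ v (p : K) := by
  classical
  obtain ⟨f, hf0, hfx⟩ := hxalg
  set g := f.primPart with hg
  have hgprim : g.IsPrimitive := isPrimitive_primPart f
  have hgx : aeval x g = 0 := by
    rw [f.eq_C_content_mul_primPart, map_mul, aeval_C] at hfx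
    rcases mul_eq_zero.1 hfx with h | h
    · exfalso
      rw [eq_intCast, Int.cast_eq_zero] at h
      exact hf0 (content_eq_zero_iff.1 h)
    · exact h
  -- some coefficient is prime to `p`
  have hex : ∃ i, ¬ (p : ℤ) ∣ g.coeff i := by
    by_contra hcon
    have hall : ∀ i, (p : ℤ) ∣ g.coeff i := fun i => not_not.1 (not_exists.1 hcon i)
    have hdvd : C (p : ℤ) ∣ g := (C_dvd_iff_dvd_coeff _ _).2 hall
    exact (Nat.prime_iff_prime_int.1 hp).not_isUnit (hgprim _ hdvd)
  have hj : ¬ (p : ℤ) ∣ g.coeff (Nat.find hex) := Nat.find_spec hex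
  have hlow : ∀ i < Nat.find hex, (p : ℤ) ∣ g.coeff i :=
    fun i hi => not_not.1 (Nat.find_min hex hi)
  set j := Nat.find hex with hjdef
  refine ⟨j, ?_⟩
  by_contra hcon
  rw [not_le] at hcon
  have hpos : v x ^ j ≠ 0 := (lt_of_le_of_lt zero_le hcon).ne'
  have hjmem : j ∈ Finset.range (g.natDegree + 1) := by
    rw [Finset.mem_range]
    by_contra hnot
    rw [not_lt] at hnot
    exact hj (by rw [coeff_eq_zero_of_natDegree_lt (by omega)]; exact dvd_zero _)
  have hsum : ∑ i ∈ Finset.range (g.natDegree + 1), ((g.coeff i : ℤ) : K) * x ^ i = 0 := by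
    rw [← hgx, aeval_eq_sum_range]
    refine Finset.sum_congr rfl fun i _ => ?_
    rw [zsmul_eq_mul]
  rw [← Finset.add_sum_erase _ _ hjmem] at hsum
  have hmain : v (((g.coeff j : ℤ) : K) * x ^ j) = v x ^ j := by
    rw [v.map_mul, v.map_pow, map_intCast_eq_one v hp hvp hj, one_mul]
  have hrest : v (∑ i ∈ (Finset.range (g.natDegree + 1)).erase j, ((g.coeff i : ℤ) : K) * x ^ i)
      < v x ^ j := by
    refine v.map_sum_lt hpos fun i hi => ?_
    have hij : i ≠ j := (Finset.mem_erase.1 hi).1
    rw [v.map_mul, v.map_pow]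
    rcases lt_or_gt_of_ne hij with h | h
    · -- lower terms: the coefficient is divisible by `p`
      calc v ((g.coeff i : ℤ) : K) * v x ^ i ≤ v (p : K) * 1 := by
            gcongr
            · exact map_intCast_le_of_dvd v (hlow i h)
            · exact pow_le_one' hx.le i
        _ = v (p : K) := mul_one _
        _ < v x ^ j := hcon
    · -- higher terms
      obtain ⟨d, rfl⟩ : ∃ d, i = j + (d + 1) := ⟨i - j - 1, by omega⟩
      have hd : v x ^ (d + 1) < 1 := pow_lt_one' hx (Nat.succ_ne_zero d)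
      calc v ((g.coeff (j + (d + 1)) : ℤ) : K) * v x ^ (j + (d + 1))
          ≤ 1 * v x ^ (j + (d + 1)) := by
            gcongr
            exact map_intCast_le_one v _
        _ = v x ^ j * v x ^ (d + 1) := by rw [one_mul, pow_add]
        _ < v x ^ j * 1 := by
            exact mul_lt_mul_of_pos_left hd (zero_lt_iff.2 hpos)
        _ = v x ^ j := mul_one _
  have hneg : ((g.coeff j : ℤ) : K) * x ^ j
      = - ∑ i ∈ (Finset.range (g.natDegree + 1)).erase j, ((g.coeff i : ℤ) : K) * x ^ i :=
    eq_neg_of_add_eq_zero_left hsum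
  rw [hneg, v.map_neg] at hmain
  exact absurd hmain hrest.ne

/-- **Archimedean property** for `x` algebraic over `ℚ`. -/
theorem exists_pow_le_of_isAlgebraic [CharZero K] [Algebra ℚ K] {p : ℕ} (hp : p.Prime)
    (hvp : v (p : K) < 1) {x : K} (hxalg : IsAlgebraic ℚ x) (hx : v x < 1) :
    ∃ n : ℕ, v x ^ n ≤ v (p : K) :=
  exists_pow_le_of_isAlgebraic_int v hp hvp
    ((IsFractionRing.isAlgebraic_iff ℤ ℚ K).2 hxalg) hx

end General

section Corollaries

variable {K : Type*} [Field K] [CharZero K] {Γ₀ : Type*}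
  [LinearOrderedCommGroupWithZero Γ₀] (v : Valuation K Γ₀)

/-- strict form: `v x ^ n < v p` for some `n`. -/
theorem exists_pow_lt_of_isAlgebraic_int {p : ℕ} (hp : p.Prime) (hvp : v (p : K) < 1) {x : K}
    (hxalg : IsAlgebraic ℤ x) (hx : v x < 1) : ∃ n : ℕ, v x ^ n < v (p : K) := by
  obtain ⟨n, hn⟩ := exists_pow_le_of_isAlgebraic_int v hp hvp hxalg hx
  have hp0 : v (p : K) ≠ 0 := by
    rw [Ne, map_eq_zero]
    exact_mod_cast hp.ne_zero
  refine ⟨n + 1, ?_⟩
  rcases eq_or_ne (v x) 0 with h0 | h0
  · rw [h0, zero_pow (Nat.succ_ne_zero n)]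
    exact zero_lt_iff.2 hp0
  · calc v x ^ (n + 1) = v x ^ n * v x := pow_succ _ _
      _ < v x ^ n * 1 := mul_lt_mul_of_pos_left hx (zero_lt_iff.2 (pow_ne_zero n h0))
      _ = v x ^ n := mul_one _
      _ ≤ v (p : K) := hn

/-- strict form for `x` algebraic over `ℚ`. -/
theorem exists_pow_lt_of_isAlgebraic [Algebra ℚ K] {p : ℕ} (hp : p.Prime) (hvp : v (p : K) < 1)
    {x : K} (hxalg : IsAlgebraic ℚ x) (hx : v x < 1) : ∃ n : ℕ, v x ^ n < v (p : K) :=
  exists_pow_lt_of_isAlgebraic_int v hp hvp ((IsFractionRing.isAlgebraic_iff ℤ ℚ K).2 hxalg) hx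

end Corollaries

section Subring

variable {K : Type*} [Field K] [CharZero K] [Algebra ℚ K]

/-- `ValuationSubring` form, `x` algebraic over `ℚ`. -/
theorem exists_pow_le_valuationSubring_of_isAlgebraic (A : ValuationSubring K) {p : ℕ}
    (hp : p.Prime) (hpA : (p : K) ∈ A.nonunits) {x : K} (hxalg : IsAlgebraic ℚ x)
    (hx : A.valuation x < 1) : ∃ n : ℕ, A.valuation x ^ n ≤ A.valuation (p : K) :=
  exists_pow_le_of_isAlgebraic A.valuation hp (A.mem_nonunits_iff.1 hpA) hxalg hx

/-- `ValuationSubring` form for a field algebraic over `ℚ`. -/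
theorem exists_pow_le_valuationSubring [Algebra.IsAlgebraic ℚ K] (A : ValuationSubring K) {p : ℕ}
    (hp : p.Prime) (hpA : (p : K) ∈ A.nonunits) {x : K} (hx : A.valuation x < 1) :
    ∃ n : ℕ, A.valuation x ^ n ≤ A.valuation (p : K) :=
  exists_pow_le_valuationSubring_of_isAlgebraic A hp hpA (Algebra.IsAlgebraic.isAlgebraic x) hx

/-- strict `ValuationSubring` form for a field algebraic over `ℚ`. -/
theorem exists_pow_lt_valuationSubring [Algebra.IsAlgebraic ℚ K] (A : ValuationSubring K) {p : ℕ}
    (hp : p.Prime) (hpA : (p : K) ∈ A.nonunits) {x : K} (hx : A.valuation x < 1) :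
    ∃ n : ℕ, A.valuation x ^ n < A.valuation (p : K) :=
  exists_pow_lt_of_isAlgebraic A.valuation hp (A.mem_nonunits_iff.1 hpA)
    (Algebra.IsAlgebraic.isAlgebraic x) hx

end Subring

/-- **S56-FLAT-ARCH**, the frozen shape (board 4264 (3)): a valuation subring `A` of
`ℚ̄ = AlgebraicClosure ℚ` in which `p` is a nonunit is archimedean with respect to `p`. -/
theorem exists_pow_le (A : ValuationSubring (AlgebraicClosure ℚ)) {p : ℕ} (hp : p.Prime)
    (hpA : (p : AlgebraicClosure ℚ) ∈ A.nonunits) {x : AlgebraicClosure ℚ}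
    (hx : A.valuation x < 1) :
    ∃ n : ℕ, A.valuation x ^ n ≤ A.valuation (p : AlgebraicClosure ℚ) := by
  have h := (AlgebraicClosure.isAlgebraic ℚ).isAlgebraic x
  exact exists_pow_le_of_isAlgebraic_int A.valuation hp (A.mem_nonunits_iff.1 hpA)
    ((IsFractionRing.isAlgebraic_iff ℤ ℚ _).2 h) hx

/-- strict form of `exists_pow_le`. -/
theorem exists_pow_lt (A : ValuationSubring (AlgebraicClosure ℚ)) {p : ℕ} (hp : p.Prime)
    (hpA : (p : AlgebraicClosure ℚ) ∈ A.nonunits) {x : AlgebraicClosure ℚ}
    (hx : A.valuation x < 1) :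
    ∃ n : ℕ, A.valuation x ^ n < A.valuation (p : AlgebraicClosure ℚ) := by
  have h := (AlgebraicClosure.isAlgebraic ℚ).isAlgebraic x
  exact exists_pow_lt_of_isAlgebraic_int A.valuation hp (A.mem_nonunits_iff.1 hpA)
    ((IsFractionRing.isAlgebraic_iff ℤ ℚ _).2 h) hx

/-- the binder `(harch)` of `LiftFrozen.exists_point_lift` (board 4264 (1)), verbatim. -/
theorem harch (A : ValuationSubring (AlgebraicClosure ℚ)) {p : ℕ} (hp : p.Prime)
    (hpA : (p : AlgebraicClosure ℚ) ∈ A.nonunits) :
    ∀ x : AlgebraicClosure ℚ, A.valuation x < 1 →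
      ∃ n : ℕ, A.valuation x ^ n ≤ A.valuation (p : AlgebraicClosure ℚ) :=
  fun _ hx => exists_pow_le A hp hpA hx



end Fermat.Agent.GP.Flat.Arch
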