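/-
GATE-P (S56 long shot) / [P-FLAT-ORD] leaf (AI) (helper14).

For the points `X = Hom_alg(H, ℚ̄)` of a finite bialgebra `H` over a base `R₀ ⊂ A` (`A | p` a
valuation subring of `ℚ̄`), killed by `p ≥ 3`:

  **the augmentation image of the inertia group meets the inertia invariants trivially**,
  `(I_A - 1) X ∩ X^{I_A} = 0`.

Proof: `X' := {x : x ≡ counit mod 𝔪_A}` (the kernel of reduction) is a submonoid which contains
every `σ x · x⁻¹`, `σ ∈ I_A` (values of points are integral, inertia acts trivially on `A/𝔪_A`);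
an `I_A`-fixed element of `X'` has coordinates `x(h) - ε(h)` in `𝔪_A ∩ ℚ̄^{I_A} = p · (unramified
integers)` (helper26 `exists_zpow_unit_of_fixed`), so helper15's Lemma F
(`LemmaF.eq_one_of_pow_eq_one_of_le`) gives `x = 1`.

`aug_inter_inv` is the base-free form, `aug_inter_inv_frozen` the form in the shape of the frozen
`GaloisRepAdic.IsFlatAt` (base `GaloisRep.ratLocalizedAt p`, additive `V`, equivariant `e`).
-/
import Mathlib
import Fermat.Prelude.Def_GaloisRep_Flat
import Fermat.Agent.GP.Flat.LemmaF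
import Fermat.Agent.GL.Local.InertiaField
import Fermat.Agent.S05.Inertia

set_option autoImplicit false
set_option linter.unusedSectionVars false

open Fermat.Agent.Common_helper32
open Coalgebra WithConv

namespace Fermat.Agent.GP.Flat.AugInv

open Fermat.Agent.GP.Flat.LemmaF

section Base

variable {R₀ : Type*} [CommRing R₀] {H : Type*} [CommRing H] [Bialgebra R₀ H]
variable [Algebra R₀ Qb] (A : ValuationSubring Qb)

/-- An element of `ℚ̄` integral over a ring mapping into `A` lies in `A`. -/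
theorem mem_of_isIntegral (hR : ∀ r : R₀, algebraMap R₀ Qb r ∈ A) {x : Qb}
    (hx : IsIntegral R₀ x) : x ∈ A := by
  obtain ⟨P, hP, hPx⟩ := hx
  let φ : R₀ →+* A := (algebraMap R₀ Qb).codRestrict A.toSubring hR
  have hx' : IsIntegral A x := by
    refine ⟨P.map φ, hP.map φ, ?_⟩
    rw [Polynomial.eval₂_map]
    have : (algebraMap A Qb).comp φ = algebraMap R₀ Qb := by
      ext r; rfl
    rw [this]
    exact hPx
  obtain ⟨y, hy⟩ := (IsIntegrallyClosed.isIntegral_iff (R := A) (K := Qb)).1 hx'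
  rw [← hy]
  exact y.2

variable [Module.Finite R₀ H]

/-- Values of points are integral. -/
theorem apply_mem (hR : ∀ r : R₀, algebraMap R₀ Qb r ∈ A) (f : WithConv (H →ₐ[R₀] Qb)) (h : H) :
    f h ∈ A := by
  have hh : IsIntegral R₀ h := Algebra.IsIntegral.isIntegral h
  exact mem_of_isIntegral A hR (hh.map f.ofConv)

/-- the valuation of `A`. -/
local notation "v" => A.valuation

theorem val_le_one_of_mem {x : Qb} (hx : x ∈ A) : v x ≤ 1 := (A.valuation_le_one_iff x).2 hx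

theorem hint_of (hR : ∀ r : R₀, algebraMap R₀ Qb r ∈ A) (r : R₀) : v (algebraMap R₀ Qb r) ≤ 1 :=
  val_le_one_of_mem A (hR r)

/-- **Ideal property**: `𝔪`-valued linear maps times `A`-valued linear maps are `𝔪`-valued. -/
theorem convMul_lt_one (hR : ∀ r : R₀, algebraMap R₀ Qb r ∈ A)
    {a b : WithConv (H →ₗ[R₀] Qb)} (ha : ∀ h, v (a h) < 1) (hb : ∀ h, v (b h) ≤ 1) (h : H) :
    v ((a * b) h) < 1 := by
  obtain ⟨b₀, hmax⟩ := exists_max (v) (hint_of A hR) a.ofConv
  have h1 : v ((a * b) h) ≤ v (a b₀) * 1 := convMul_bdd (v) hmax hb h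
  rw [mul_one] at h1
  exact h1.trans_lt (ha b₀)

/-- `f ≡ g` pointwise modulo `𝔪_A`. -/
def Cong (f g : WithConv (H →ₐ[R₀] Qb)) : Prop := ∀ h, v (f h - g h) < 1

theorem cong_refl (f : WithConv (H →ₐ[R₀] Qb)) : Cong A f f := fun h => by
  rw [sub_self, map_zero]; exact zero_lt_one

theorem lin_sub_apply (f g : WithConv (H →ₐ[R₀] Qb)) (h : H) :
    (lin f - lin g : WithConv (H →ₗ[R₀] Qb)) h = f h - g h := rfl

/-- congruence is compatible with right multiplication. -/
theorem Cong.mul_right (hR : ∀ r : R₀, algebraMap R₀ Qb r ∈ A)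
    {f f' : WithConv (H →ₐ[R₀] Qb)} (hf : Cong A f f') (g : WithConv (H →ₐ[R₀] Qb)) :
    Cong A (f * g) (f' * g) := by
  intro h
  have key : (lin (f * g) - lin (f' * g) : WithConv (H →ₗ[R₀] Qb)) = (lin f - lin f') * lin g := by
    rw [lin_mul, lin_mul, sub_mul]
  rw [← lin_sub_apply, key]
  refine convMul_lt_one A hR (fun h' => ?_) (fun h' => ?_) h
  · rw [lin_sub_apply]; exact hf h'
  · rw [lin_apply]; exact val_le_one_of_mem A (apply_mem A hR g h')

theorem Cong.trans {f g k : WithConv (H →ₐ[R₀] Qb)} (h1 : Cong A f g) (h2 : Cong A g k) :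
    Cong A f k := by
  intro h
  have : f h - k h = (f h - g h) + (g h - k h) := by ring
  rw [this]
  exact lt_of_le_of_lt ((v).map_add _ _) (max_lt (h1 h) (h2 h))

theorem Cong.symm {f g : WithConv (H →ₐ[R₀] Qb)} (h1 : Cong A f g) : Cong A g f := by
  intro h
  rw [← neg_sub, Valuation.map_neg]
  exact h1 h

/-! ### The Galois action on points -/

/-- `σ • f = σ ∘ f` for `σ` fixing the image of `R₀`. -/
noncomputable def galAct (σ : GQ) (hσ : ∀ r : R₀, σ (algebraMap R₀ Qb r) = algebraMap R₀ Qb r)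
    (f : WithConv (H →ₐ[R₀] Qb)) : WithConv (H →ₐ[R₀] Qb) :=
  toConv
    { toRingHom := (σ : Qb →+* Qb).comp (f.ofConv : H →+* Qb)
      commutes' := fun r => by
        show σ (f.ofConv (algebraMap R₀ H r)) = algebraMap R₀ Qb r
        rw [AlgHom.commutes, hσ] }

theorem galAct_apply (σ : GQ) (hσ : ∀ r : R₀, σ (algebraMap R₀ Qb r) = algebraMap R₀ Qb r)
    (f : WithConv (H →ₐ[R₀] Qb)) (h : H) : galAct σ hσ f h = σ (f h) := rfl

/-- inertia moves points only inside their congruence class modulo `𝔪_A`. -/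
theorem cong_galAct (hR : ∀ r : R₀, algebraMap R₀ Qb r ∈ A) {σ : GQ}
    (hσI : σ ∈ A.inertiaSubgroupIn ℚ)
    (hσ : ∀ r : R₀, σ (algebraMap R₀ Qb r) = algebraMap R₀ Qb r)
    (f : WithConv (H →ₐ[R₀] Qb)) : Cong A (galAct σ hσ f) f := by
  intro h
  rw [galAct_apply]
  have := Fermat.Agent.S05.apply_sub_mem_nonunits_of_mem_inertiaSubgroupIn hσI (apply_mem A hR f h)
  exact A.mem_nonunits_iff.1 this

/-- **Key congruence**: for `σ` in the inertia group and `f * F = 1`, the element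
`(σ • f) * F` lies in the kernel of reduction. -/
theorem cong_galAct_mul (hR : ∀ r : R₀, algebraMap R₀ Qb r ∈ A) {σ : GQ}
    (hσI : σ ∈ A.inertiaSubgroupIn ℚ)
    (hσ : ∀ r : R₀, σ (algebraMap R₀ Qb r) = algebraMap R₀ Qb r)
    {f F : WithConv (H →ₐ[R₀] Qb)} (hfF : f * F = 1) : Cong A (galAct σ hσ f * F) 1 := by
  have := (cong_galAct A hR hσI hσ f).mul_right A hR F
  rwa [hfF] at this

theorem Cong.mul_one (hR : ∀ r : R₀, algebraMap R₀ Qb r ∈ A)
    {f g : WithConv (H →ₐ[R₀] Qb)} (hf : Cong A f 1) (hg : Cong A g 1) : Cong A (f * g) 1 := by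
  have h1 := hf.mul_right A hR g
  rw [one_mul] at h1
  exact h1.trans A hg

theorem Cong.pow_one (hR : ∀ r : R₀, algebraMap R₀ Qb r ∈ A)
    {f : WithConv (H →ₐ[R₀] Qb)} (hf : Cong A f 1) (n : ℕ) : Cong A (f ^ n) 1 := by
  induction n with
  | zero => rw [pow_zero]; exact cong_refl A 1
  | succ n ih => rw [pow_succ]; exact ih.mul_one A hR hf

/-! ### Inertia-fixed elements of `𝔪_A` are divisible by `p` -/

/-- (helper26 (U1)) an inertia-fixed element of `𝔪_A` has valuation `≤ v(p)`. -/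
theorem val_le_of_fixed {p : ℕ} (hp : p.Prime) (hA : (p : Qb) ∈ A.nonunits) {a : Qb}
    (ha : a ∈ A.nonunits) (hfix : ∀ σ ∈ A.inertiaSubgroupIn ℚ, σ a = a) :
    v a ≤ v (p : Qb) := by
  by_cases ha0 : a = 0
  · rw [ha0, map_zero]; exact bot_le
  obtain ⟨n, hn1, hn2⟩ :=
    Fermat.Agent.GL.Local.InertiaField.exists_zpow_unit_of_fixed A hp hA a ha0 hfix
  have hp0 : (p : Qb) ≠ 0 := Nat.cast_ne_zero.2 hp.ne_zero
  have hvp : v (p : Qb) < 1 := A.mem_nonunits_iff.1 hA
  have hva : v a < 1 := A.mem_nonunits_iff.1 ha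
  have hu : v (a / (p : Qb) ^ n) = 1 := by
    have h1 : v (a / (p : Qb) ^ n) ≤ 1 := (A.valuation_le_one_iff _).2 hn1
    have h2 : v (a / (p : Qb) ^ n)⁻¹ ≤ 1 := (A.valuation_le_one_iff _).2 hn2
    rw [map_inv₀] at h2
    have hne : v (a / (p : Qb) ^ n) ≠ 0 := by
      rw [Ne, map_eq_zero]
      exact div_ne_zero ha0 (zpow_ne_zero _ hp0)
    have h3 : 1 ≤ v (a / (p : Qb) ^ n) := by
      have := (inv_le_one₀ (zero_lt_iff.mpr hne)).1 h2
      exact this
    exact le_antisymm h1 h3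
  have hval : v a = v (p : Qb) ^ n := by
    rw [map_div₀, map_zpow₀] at hu
    have hne : v (p : Qb) ^ n ≠ 0 := zpow_ne_zero _ (by rwa [Ne, map_eq_zero])
    field_simp at hu
    exact hu
  have hn : 1 ≤ n := by
    by_contra hlt
    rw [not_le] at hlt
    have hn0 : n ≤ 0 := by omega
    obtain ⟨k, hk⟩ : ∃ k : ℕ, n = -(k : ℤ) := ⟨n.natAbs, by omega⟩
    rw [hval, hk, zpow_neg, zpow_natCast] at hva
    have h1 : v (p : Qb) ^ k ≤ 1 := pow_le_one' hvp.le k
    have hne : v (p : Qb) ^ k ≠ 0 := pow_ne_zero _ (by rwa [Ne, map_eq_zero])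
    have h2 : 1 ≤ (v (p : Qb) ^ k)⁻¹ := (one_le_inv₀ (zero_lt_iff.mpr hne)).2 h1
    exact absurd hva (not_lt.mpr h2)
  obtain ⟨m, hm⟩ : ∃ m : ℕ, n = (m : ℤ) + 1 := ⟨(n - 1).toNat, by omega⟩
  rw [hval, hm, zpow_add_one₀ (by rwa [Ne, map_eq_zero]), zpow_natCast]
  calc v (p : Qb) ^ m * v (p : Qb) ≤ 1 * v (p : Qb) := mul_le_mul' (pow_le_one' hvp.le m) le_rfl
    _ = v (p : Qb) := one_mul _

/-- An inertia-fixed `p`-torsion point in the kernel of reduction is trivial (`p ≥ 3`). -/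
theorem eq_one_of_cong_of_fixed {p : ℕ} (hp : p.Prime) (hp3 : 3 ≤ p)
    (hA : (p : Qb) ∈ A.nonunits) (hR : ∀ r : R₀, algebraMap R₀ Qb r ∈ A)
    (hσR : ∀ σ ∈ A.inertiaSubgroupIn ℚ, ∀ r : R₀, σ (algebraMap R₀ Qb r) = algebraMap R₀ Qb r)
    (x : WithConv (H →ₐ[R₀] Qb)) (hpow : x ^ p = 1) (hx : Cong A x 1)
    (hfix : ∀ σ ∈ A.inertiaSubgroupIn ℚ, ∀ h, σ (x h) = x h) : x = 1 := by
  have hp0 : (p : Qb) ≠ 0 := Nat.cast_ne_zero.2 hp.ne_zero
  have hvp : v (p : Qb) < 1 := A.mem_nonunits_iff.1 hA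
  refine eq_one_of_pow_eq_one_of_le (v) hp hp3 hp0 hvp (hint_of A hR) x hpow fun h => ?_
  have h1 : (1 : WithConv (H →ₐ[R₀] Qb)) h = algebraMap R₀ Qb (Coalgebra.counit h) :=
    AlgHom.convOne_apply h
  refine val_le_of_fixed A hp hA ?_ ?_
  · rw [A.mem_nonunits_iff, ← h1]
    exact hx h
  · intro σ hσ
    rw [map_sub, hfix σ hσ h, hσR σ hσ]

/-! ### The main theorem, base-free form -/

/-- **(AI)** `(I_A - 1) V ∩ V^{I_A} = 0` for the `p`-torsion points `V` of a finite bialgebra over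
a base `R₀ ⊂ A`, `A | p`, `p ≥ 3`. -/
theorem aug_inter_inv {p : ℕ} (hp : p.Prime) (hp3 : 3 ≤ p)
    (hA : (p : Qb) ∈ A.nonunits) (hR : ∀ r : R₀, algebraMap R₀ Qb r ∈ A)
    (hσR : ∀ (σ : GQ) (r : R₀), σ (algebraMap R₀ Qb r) = algebraMap R₀ Qb r)
    {V : Type*} [AddCommGroup V] (act : GQ → V → V)
    (e : WithConv (H →ₐ[R₀] Qb) ≃ V)
    (he_mul : ∀ f g, e (f * g) = e f + e g)
    (he_equiv : ∀ (σ : GQ) (f g : WithConv (H →ₐ[R₀] Qb)),
      (∀ h, g h = σ (f h)) → e g = act σ (e f))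
    (hV : ∀ u : V, p • u = 0) (w : V)
    (hw : w ∈ AddSubgroup.closure
      {u : V | ∃ σ ∈ A.inertiaSubgroupIn ℚ, ∃ u' : V, u = act σ u' - u'})
    (hfix : ∀ τ ∈ A.inertiaSubgroupIn ℚ, act τ w = w) : w = 0 := by
  have he1 : e 1 = 0 := by
    have := he_mul 1 1
    rw [mul_one] at this
    exact left_eq_add.mp this
  have hepow : ∀ (f : WithConv (H →ₐ[R₀] Qb)) (n : ℕ), e (f ^ n) = n • e f := by
    intro f n
    induction n with
    | zero => rw [pow_zero, zero_smul, he1]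
    | succ n ih => rw [pow_succ, he_mul, ih, succ_nsmul]
  have hpow : ∀ f : WithConv (H →ₐ[R₀] Qb), f ^ p = 1 := by
    intro f
    apply e.injective
    rw [hepow, hV, he1]
  have hneg : ∀ u : V, -u = (p - 1) • u := by
    intro u
    have h1 : (p - 1) • u + u = 0 := by
      rw [← succ_nsmul, Nat.sub_add_cancel hp.one_le]
      exact hV u
    exact (eq_neg_of_add_eq_zero_left h1).symm
  have hsymm_add : ∀ a b : V, e.symm (a + b) = e.symm a * e.symm b := by
    intro a b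
    apply e.injective
    rw [he_mul, e.apply_symm_apply, e.apply_symm_apply, e.apply_symm_apply]
  have hsymm_zero : e.symm 0 = 1 := by
    apply e.injective
    rw [e.apply_symm_apply, he1]
  have hsymm_neg : ∀ a : V, e.symm (-a) = e.symm a ^ (p - 1) := by
    intro a
    apply e.injective
    rw [hepow, e.apply_symm_apply, e.apply_symm_apply, hneg]
  have hact : ∀ (σ : GQ) (f : WithConv (H →ₐ[R₀] Qb)),
      e (galAct σ (hσR σ) f) = act σ (e f) := fun σ f =>
    he_equiv σ f _ fun h => galAct_apply σ (hσR σ) f h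
  -- the closure lies in the kernel of reduction
  have hcong : Cong A (e.symm w) 1 := by
    clear hfix
    induction hw using AddSubgroup.closure_induction with
    | mem u hu =>
      obtain ⟨σ, hσ, u', rfl⟩ := hu
      have hu' : e.symm (act σ u' - u') =
          galAct σ (hσR σ) (e.symm u') * e.symm u' ^ (p - 1) := by
        apply e.injective
        rw [e.apply_symm_apply, he_mul, hact, hepow, e.apply_symm_apply, ← hneg, sub_eq_add_neg]
      rw [hu']
      refine cong_galAct_mul A hR hσ (hσR σ) ?_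
      rw [← pow_succ', Nat.sub_add_cancel hp.one_le]
      exact hpow _
    | zero => rw [hsymm_zero]; exact cong_refl A 1
    | add a b _ _ ha hb => rw [hsymm_add]; exact ha.mul_one A hR hb
    | neg a _ ha => rw [hsymm_neg]; exact ha.pow_one A hR _
  have hfix' : ∀ σ ∈ A.inertiaSubgroupIn ℚ, ∀ h, σ (e.symm w h) = e.symm w h := by
    intro σ hσ h
    have h1 : galAct σ (hσR σ) (e.symm w) = e.symm w := by
      apply e.injective
      rw [hact, e.apply_symm_apply, hfix σ hσ]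
    rw [← galAct_apply σ (hσR σ), h1]
  have hx : e.symm w = 1 :=
    eq_one_of_cong_of_fixed A hp hp3 hA hR (fun σ _ r => hσR σ r) (e.symm w) (hpow _) hcong hfix'
  have : w = e 1 := by rw [← hx, e.apply_symm_apply]
  rw [this, he1]

end Base

section Frozen

/-- the localisation `ℤ_(p) ⊂ ℚ` maps into every valuation subring of `ℚ̄` over `p`. -/
theorem algebraMap_ratLocalizedAt_mem {p : ℕ} (hp : p.Prime) (A : ValuationSubring Qb)
    (hA : A.LiesOverPrime p) (r : GaloisRep.ratLocalizedAt p) :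
    algebraMap (GaloisRep.ratLocalizedAt p) Qb r ∈ A := by
  have h1 : algebraMap (GaloisRep.ratLocalizedAt p) Qb r = algebraMap ℚ Qb (r : ℚ) := rfl
  have hden : ¬ p ∣ (r : ℚ).den := by
    intro hdvd
    have hcop : (r : ℚ).den.Coprime p := r.2
    have := Nat.eq_one_of_dvd_coprimes hcop hdvd (dvd_refl p)
    exact hp.one_lt.ne' this
  have h2 : algebraMap ℚ Qb (r : ℚ) = ((r : ℚ).num : Qb) * (((r : ℚ).den : ℕ) : Qb)⁻¹ := by
    conv_lhs => rw [← Rat.num_div_den (r : ℚ)]
    rw [map_div₀, map_intCast, map_natCast, div_eq_mul_inv]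
  rw [h1, h2]
  exact A.mul_mem _ _ (intCast_mem A _)
    (Fermat.Agent.S05.natCast_inv_mem_of_not_dvd hp hA hden)

/-- every automorphism of `ℚ̄/ℚ` fixes the image of `ℤ_(p)`. -/
theorem apply_algebraMap_ratLocalizedAt {p : ℕ} (σ : GQ) (r : GaloisRep.ratLocalizedAt p) :
    σ (algebraMap (GaloisRep.ratLocalizedAt p) Qb r) =
      algebraMap (GaloisRep.ratLocalizedAt p) Qb r := by
  have h1 : algebraMap (GaloisRep.ratLocalizedAt p) Qb r = algebraMap ℚ Qb (r : ℚ) := rfl
  rw [h1, σ.commutes]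

/-- **(AI), frozen shape**: for `H`, `e` as in the frozen `GaloisRepAdic.IsFlatAt` (at a level
killed by `p ≥ 3`), the augmentation image `(I_A - 1)V` of inertia at `A | p` meets the
inertia-invariants `V^{I_A}` trivially.  (Neither flatness nor cocommutativity nor the antipode
is needed.) -/
theorem aug_inter_inv_frozen {p : ℕ} (hp : p.Prime) (hp3 : 3 ≤ p)
    {H : Type} [CommRing H] [Bialgebra (GaloisRep.ratLocalizedAt p) H]
    [Module.Finite (GaloisRep.ratLocalizedAt p) H]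
    {V : Type*} [AddCommGroup V] (act : GQ → V → V)
    (e : WithConv (H →ₐ[GaloisRep.ratLocalizedAt p] AlgebraicClosure ℚ) ≃ V)
    (he_mul : ∀ f g : WithConv (H →ₐ[GaloisRep.ratLocalizedAt p] AlgebraicClosure ℚ),
      e (f * g) = e f + e g)
    (he_equiv : ∀ (σ : AlgebraicClosure ℚ ≃ₐ[ℚ] AlgebraicClosure ℚ)
      (f g : WithConv (H →ₐ[GaloisRep.ratLocalizedAt p] AlgebraicClosure ℚ)),
      (∀ h : H, g h = σ (f h)) → e g = act σ (e f))
    (hV : ∀ u : V, p • u = 0)
    (A : ValuationSubring (AlgebraicClosure ℚ)) (hA : A.LiesOverPrime p) (w : V)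
    (hw : w ∈ AddSubgroup.closure
      {u : V | ∃ σ ∈ A.inertiaSubgroupIn ℚ, ∃ u' : V, u = act σ u' - u'})
    (hfix : ∀ τ ∈ A.inertiaSubgroupIn ℚ, act τ w = w) : w = 0 :=
  aug_inter_inv A hp hp3 hA (algebraMap_ratLocalizedAt_mem hp A hA)
    (fun σ r => apply_algebraMap_ratLocalizedAt σ r) act e he_mul he_equiv hV w hw hfix

/-- **(AI) for a flat deformation**: if `ρ` is flat at `p ≥ 3` (frozen `IsFlatAt`) and `I ∋ p`
is an ideal of finite index, then on the level-`I` quotient `V/IV` the augmentation image of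
inertia at `A | p` meets the inertia invariants trivially. -/
theorem aug_inter_inv_isFlatAt {R : Type} [CommRing R] [IsLocalRing R] (ρ : GaloisRepAdic R)
    {p : ℕ} (hp : p.Prime) (hp3 : 3 ≤ p) (hflat : ρ.IsFlatAt p) (I : Ideal R)
    (hI : Finite (R ⧸ I)) (hpI : (p : R) ∈ I)
    (A : ValuationSubring (AlgebraicClosure ℚ)) (hA : A.LiesOverPrime p)
    (w : ρ.V ⧸ (I • (⊤ : Submodule R ρ.V)))
    (hw : w ∈ AddSubgroup.closure
      {u | ∃ σ ∈ A.inertiaSubgroupIn ℚ, ∃ u', u = ρ.levelAction I σ u' - u'})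
    (hfix : ∀ τ ∈ A.inertiaSubgroupIn ℚ, ρ.levelAction I τ w = w) : w = 0 := by
  obtain ⟨_, hH⟩ := hflat
  obtain ⟨H, _, _, hfin, _, _, e, he_mul, he_equiv⟩ := hH I hI
  have := hfin
  refine aug_inter_inv_frozen hp hp3 (fun σ u => ρ.levelAction I σ u) e he_mul he_equiv ?_
    A hA w hw hfix
  intro u
  induction u using Submodule.Quotient.induction_on with
  | H x =>
    rw [← Submodule.Quotient.mk_smul, Submodule.Quotient.mk_eq_zero, ← Nat.cast_smul_eq_nsmul R]
    exact Submodule.smul_mem_smul hpI Submodule.mem_top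

end Frozen

end Fermat.Agent.GP.Flat.AugInv
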