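/-
GATE-P (S56 long shot) / [P-FLAT] leaf (AI), part 2 (helper14): the subgroup of CONNECTED points.

Continuation of `GP/Flat/AugInv.lean`.  For the points `V ≃ Hom_alg(H, ℚ̄)` of a finite bialgebra
over `R₀ ⊂ A` (`A | p`), killed by `p`:

* `connSubgroup` : the subgroup `W ⊂ V` of points congruent to the counit modulo `𝔪_A`
  ("connected points", `g(x) < 1` in helper90's notation);
* `aug_le_connSubgroup` : `(I_A - 1)V ⊂ W`, i.e. inertia acts trivially on `V/W`;
* `eq_zero_of_mem_connSubgroup_of_fixed` : `W^{I_A} = 0` (`p ≥ 3`; this is statement (b));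
* `act_mem_connSubgroup_iff` : `W` is stable under the decomposition group `D_A`;
* frozen-shape (`GaloisRep.ratLocalizedAt p`) and `GaloisRepAdic.IsFlatAt` forms.
-/
import Mathlib
import Fermat.Agent.GP.Flat.AugInv

set_option autoImplicit false
set_option linter.unusedSectionVars false

open Fermat.Agent.Common_helper32
open Coalgebra WithConv

namespace Fermat.Agent.GP.Flat.AugConn

open Fermat.Agent.GP.Flat.LemmaF Fermat.Agent.GP.Flat.AugInv

section Base

variable {R₀ : Type*} [CommRing R₀] {H : Type*} [CommRing H] [Bialgebra R₀ H]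
variable [Algebra R₀ Qb] (A : ValuationSubring Qb) [Module.Finite R₀ H]

/-- the valuation of `A`. -/
local notation "v" => A.valuation

/-- `Cong A x 1` unfolded: all coordinates `x h - ε h` lie in `𝔪_A`. -/
theorem cong_one_iff (x : WithConv (H →ₐ[R₀] Qb)) :
    Cong A x 1 ↔ ∀ h, v (x h - algebraMap R₀ Qb (Coalgebra.counit h)) < 1 := by
  have h1 : ∀ h, (1 : WithConv (H →ₐ[R₀] Qb)) h = algebraMap R₀ Qb (Coalgebra.counit h) :=
    fun h => AlgHom.convOne_apply h
  constructor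
  · intro hx h; rw [← h1]; exact hx h
  · intro hx h; rw [h1]; exact hx h

variable {V : Type*} [AddCommGroup V] (e : WithConv (H →ₐ[R₀] Qb) ≃ V)

theorem map_one_of_mul (he_mul : ∀ f g, e (f * g) = e f + e g) : e 1 = 0 := by
  have := he_mul 1 1
  rw [mul_one] at this
  exact left_eq_add.mp this

theorem map_pow_of_mul (he_mul : ∀ f g, e (f * g) = e f + e g)
    (f : WithConv (H →ₐ[R₀] Qb)) (n : ℕ) : e (f ^ n) = n • e f := by
  induction n with
  | zero => rw [pow_zero, zero_smul, map_one_of_mul e he_mul]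
  | succ n ih => rw [pow_succ, he_mul, ih, succ_nsmul]

theorem symm_zero_of_mul (he_mul : ∀ f g, e (f * g) = e f + e g) : e.symm 0 = 1 := by
  apply e.injective
  rw [e.apply_symm_apply, map_one_of_mul e he_mul]

theorem symm_add_of_mul (he_mul : ∀ f g, e (f * g) = e f + e g) (a b : V) :
    e.symm (a + b) = e.symm a * e.symm b := by
  apply e.injective
  rw [he_mul, e.apply_symm_apply, e.apply_symm_apply, e.apply_symm_apply]

theorem neg_eq_smul_of_kill {p : ℕ} (hp : p.Prime) (hV : ∀ u : V, p • u = 0) (u : V) :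
    -u = (p - 1) • u := by
  have h1 : (p - 1) • u + u = 0 := by
    rw [← succ_nsmul, Nat.sub_add_cancel hp.one_le]
    exact hV u
  exact (eq_neg_of_add_eq_zero_left h1).symm

theorem symm_neg_of_mul {p : ℕ} (hp : p.Prime) (he_mul : ∀ f g, e (f * g) = e f + e g)
    (hV : ∀ u : V, p • u = 0) (a : V) : e.symm (-a) = e.symm a ^ (p - 1) := by
  apply e.injective
  rw [map_pow_of_mul e he_mul, e.apply_symm_apply, e.apply_symm_apply,
    neg_eq_smul_of_kill hp hV]

/-- **The subgroup of connected points** `W = {w : e⁻¹ w ≡ ε mod 𝔪_A}`. -/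
def connSubgroup {p : ℕ} (hp : p.Prime) (hR : ∀ r : R₀, algebraMap R₀ Qb r ∈ A)
    (he_mul : ∀ f g, e (f * g) = e f + e g) (hV : ∀ u : V, p • u = 0) : AddSubgroup V where
  carrier := {w | Cong A (e.symm w) 1}
  zero_mem' := by
    show Cong A (e.symm 0) 1
    rw [symm_zero_of_mul e he_mul]; exact cong_refl A 1
  add_mem' := by
    intro a b ha hb
    show Cong A (e.symm (a + b)) 1
    rw [symm_add_of_mul e he_mul]; exact Cong.mul_one A hR ha hb
  neg_mem' := by
    intro a ha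
    show Cong A (e.symm (-a)) 1
    rw [symm_neg_of_mul e hp he_mul hV]; exact Cong.pow_one A hR ha _

theorem mem_connSubgroup_iff {p : ℕ} (hp : p.Prime) (hR : ∀ r : R₀, algebraMap R₀ Qb r ∈ A)
    (he_mul : ∀ f g, e (f * g) = e f + e g) (hV : ∀ u : V, p • u = 0) (w : V) :
    w ∈ connSubgroup A e hp hR he_mul hV ↔
      ∀ h, v (e.symm w h - algebraMap R₀ Qb (Coalgebra.counit h)) < 1 :=
  cong_one_iff A (e.symm w)

variable (act : GQ → V → V)

/-- **`(I_A - 1) V ⊂ W`**: inertia acts trivially on `V / W`. -/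
theorem act_sub_mem_connSubgroup {p : ℕ} (hp : p.Prime)
    (hR : ∀ r : R₀, algebraMap R₀ Qb r ∈ A)
    (hσR : ∀ (σ : GQ) (r : R₀), σ (algebraMap R₀ Qb r) = algebraMap R₀ Qb r)
    (he_mul : ∀ f g, e (f * g) = e f + e g)
    (he_equiv : ∀ (σ : GQ) (f g : WithConv (H →ₐ[R₀] Qb)),
      (∀ h, g h = σ (f h)) → e g = act σ (e f))
    (hV : ∀ u : V, p • u = 0) {σ : GQ} (hσ : σ ∈ A.inertiaSubgroupIn ℚ) (u : V) :
    act σ u - u ∈ connSubgroup A e hp hR he_mul hV := by
  show Cong A (e.symm (act σ u - u)) 1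
  have hpow : e.symm u ^ p = 1 := by
    apply e.injective
    rw [map_pow_of_mul e he_mul, hV, map_one_of_mul e he_mul]
  have hu' : e.symm (act σ u - u) = galAct σ (hσR σ) (e.symm u) * e.symm u ^ (p - 1) := by
    apply e.injective
    rw [e.apply_symm_apply, he_mul,
      he_equiv σ (e.symm u) _ fun h => galAct_apply σ (hσR σ) (e.symm u) h,
      map_pow_of_mul e he_mul, e.apply_symm_apply, ← neg_eq_smul_of_kill hp hV, sub_eq_add_neg]
  rw [hu']
  refine cong_galAct_mul A hR hσ (hσR σ) ?_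
  rw [← pow_succ', Nat.sub_add_cancel hp.one_le]
  exact hpow

theorem aug_le_connSubgroup {p : ℕ} (hp : p.Prime)
    (hR : ∀ r : R₀, algebraMap R₀ Qb r ∈ A)
    (hσR : ∀ (σ : GQ) (r : R₀), σ (algebraMap R₀ Qb r) = algebraMap R₀ Qb r)
    (he_mul : ∀ f g, e (f * g) = e f + e g)
    (he_equiv : ∀ (σ : GQ) (f g : WithConv (H →ₐ[R₀] Qb)),
      (∀ h, g h = σ (f h)) → e g = act σ (e f))
    (hV : ∀ u : V, p • u = 0) :
    AddSubgroup.closure {u : V | ∃ σ ∈ A.inertiaSubgroupIn ℚ, ∃ u' : V, u = act σ u' - u'} ≤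
      connSubgroup A e hp hR he_mul hV := by
  rw [AddSubgroup.closure_le]
  rintro u ⟨σ, hσ, u', rfl⟩
  exact act_sub_mem_connSubgroup A e act hp hR hσR he_mul he_equiv hV hσ u'

/-- **`W^{I_A} = 0`** (statement (b)), `p ≥ 3`. -/
theorem eq_zero_of_mem_connSubgroup_of_fixed {p : ℕ} (hp : p.Prime) (hp3 : 3 ≤ p)
    (hA : (p : Qb) ∈ A.nonunits) (hR : ∀ r : R₀, algebraMap R₀ Qb r ∈ A)
    (hσR : ∀ (σ : GQ) (r : R₀), σ (algebraMap R₀ Qb r) = algebraMap R₀ Qb r)
    (he_mul : ∀ f g, e (f * g) = e f + e g)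
    (he_equiv : ∀ (σ : GQ) (f g : WithConv (H →ₐ[R₀] Qb)),
      (∀ h, g h = σ (f h)) → e g = act σ (e f))
    (hV : ∀ u : V, p • u = 0) {w : V} (hw : w ∈ connSubgroup A e hp hR he_mul hV)
    (hfix : ∀ τ ∈ A.inertiaSubgroupIn ℚ, act τ w = w) : w = 0 := by
  have hpow : e.symm w ^ p = 1 := by
    apply e.injective
    rw [map_pow_of_mul e he_mul, hV, map_one_of_mul e he_mul]
  have hfix' : ∀ σ ∈ A.inertiaSubgroupIn ℚ, ∀ h, σ (e.symm w h) = e.symm w h := by
    intro σ hσ h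
    have h1 : galAct σ (hσR σ) (e.symm w) = e.symm w := by
      apply e.injective
      rw [he_equiv σ (e.symm w) _ fun h => galAct_apply σ (hσR σ) (e.symm w) h,
        e.apply_symm_apply, hfix σ hσ]
    rw [← galAct_apply σ (hσR σ), h1]
  have hx : e.symm w = 1 :=
    eq_one_of_cong_of_fixed A hp hp3 hA hR (fun σ _ r => hσR σ r) (e.symm w) hpow hw hfix'
  have : w = e 1 := by rw [← hx, e.apply_symm_apply]
  rw [this, map_one_of_mul e he_mul]

/-- `W` is stable under the decomposition group of `A`. -/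
theorem act_mem_connSubgroup_iff {p : ℕ} (hp : p.Prime)
    (hR : ∀ r : R₀, algebraMap R₀ Qb r ∈ A)
    (hσR : ∀ (σ : GQ) (r : R₀), σ (algebraMap R₀ Qb r) = algebraMap R₀ Qb r)
    (he_mul : ∀ f g, e (f * g) = e f + e g)
    (he_equiv : ∀ (σ : GQ) (f g : WithConv (H →ₐ[R₀] Qb)),
      (∀ h, g h = σ (f h)) → e g = act σ (e f))
    (hV : ∀ u : V, p • u = 0) {σ : GQ} (hσ : σ ∈ A.decompositionSubgroup ℚ) (w : V) :
    act σ w ∈ connSubgroup A e hp hR he_mul hV ↔ w ∈ connSubgroup A e hp hR he_mul hV := by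
  have hact : e.symm (act σ w) = galAct σ (hσR σ) (e.symm w) := by
    apply e.injective
    rw [e.apply_symm_apply,
      he_equiv σ (e.symm w) _ fun h => galAct_apply σ (hσR σ) (e.symm w) h, e.apply_symm_apply]
  have hiff : ∀ a : Qb, v (σ a) < 1 ↔ v a < 1 := by
    intro a
    rw [← A.mem_nonunits_iff, ← A.mem_nonunits_iff]
    by_cases ha : a = 0
    · subst ha; simp
    · have hσa : σ a ≠ 0 := by simpa using ha
      rw [Fermat.Agent.S05.mem_nonunits_iff_inv_notMem ha,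
        Fermat.Agent.S05.mem_nonunits_iff_inv_notMem hσa, ← map_inv₀]
      exact not_congr
        ⟨Fermat.Agent.S05.mem_of_apply_mem_of_mem_decompositionSubgroup hσ,
          Fermat.Agent.S05.apply_mem_of_mem_decompositionSubgroup hσ⟩
  rw [mem_connSubgroup_iff, mem_connSubgroup_iff, hact]
  refine forall_congr' fun h => ?_
  have key : σ (e.symm w h) - algebraMap R₀ Qb (Coalgebra.counit h) =
      σ (e.symm w h - algebraMap R₀ Qb (Coalgebra.counit h)) := by rw [map_sub, hσR]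
  rw [galAct_apply, key]
  exact hiff _

end Base

section Frozen

variable {p : ℕ} {H : Type} [CommRing H] [Bialgebra (GaloisRep.ratLocalizedAt p) H]
  [Module.Finite (GaloisRep.ratLocalizedAt p) H]
  {V : Type*} [AddCommGroup V]

/-- **connected points, frozen shape** (`R₀ = ℤ_(p)`). -/
noncomputable def connSubgroupFrozen (hp : p.Prime)
    (e : WithConv (H →ₐ[GaloisRep.ratLocalizedAt p] AlgebraicClosure ℚ) ≃ V)
    (he_mul : ∀ f g : WithConv (H →ₐ[GaloisRep.ratLocalizedAt p] AlgebraicClosure ℚ),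
      e (f * g) = e f + e g)
    (hV : ∀ u : V, p • u = 0)
    (A : ValuationSubring (AlgebraicClosure ℚ)) (hA : A.LiesOverPrime p) : AddSubgroup V :=
  connSubgroup A e hp (algebraMap_ratLocalizedAt_mem hp A hA) he_mul hV

theorem mem_connSubgroupFrozen_iff (hp : p.Prime)
    (e : WithConv (H →ₐ[GaloisRep.ratLocalizedAt p] AlgebraicClosure ℚ) ≃ V)
    (he_mul : ∀ f g : WithConv (H →ₐ[GaloisRep.ratLocalizedAt p] AlgebraicClosure ℚ),
      e (f * g) = e f + e g)
    (hV : ∀ u : V, p • u = 0)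
    (A : ValuationSubring (AlgebraicClosure ℚ)) (hA : A.LiesOverPrime p) (w : V) :
    w ∈ connSubgroupFrozen hp e he_mul hV A hA ↔
      ∀ h : H, A.valuation (e.symm w h -
        algebraMap (GaloisRep.ratLocalizedAt p) (AlgebraicClosure ℚ) (Coalgebra.counit h)) < 1 :=
  mem_connSubgroup_iff A e hp _ he_mul hV w

theorem act_sub_mem_connSubgroupFrozen (hp : p.Prime) (act : GQ → V → V)
    (e : WithConv (H →ₐ[GaloisRep.ratLocalizedAt p] AlgebraicClosure ℚ) ≃ V)
    (he_mul : ∀ f g : WithConv (H →ₐ[GaloisRep.ratLocalizedAt p] AlgebraicClosure ℚ),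
      e (f * g) = e f + e g)
    (he_equiv : ∀ (σ : AlgebraicClosure ℚ ≃ₐ[ℚ] AlgebraicClosure ℚ)
      (f g : WithConv (H →ₐ[GaloisRep.ratLocalizedAt p] AlgebraicClosure ℚ)),
      (∀ h : H, g h = σ (f h)) → e g = act σ (e f))
    (hV : ∀ u : V, p • u = 0)
    (A : ValuationSubring (AlgebraicClosure ℚ)) (hA : A.LiesOverPrime p)
    {σ : GQ} (hσ : σ ∈ A.inertiaSubgroupIn ℚ) (u : V) :
    act σ u - u ∈ connSubgroupFrozen hp e he_mul hV A hA :=
  act_sub_mem_connSubgroup A e act hp _ (fun σ r => apply_algebraMap_ratLocalizedAt σ r)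
    he_mul he_equiv hV hσ u

theorem eq_zero_of_mem_connSubgroupFrozen_of_fixed (hp : p.Prime) (hp3 : 3 ≤ p)
    (act : GQ → V → V)
    (e : WithConv (H →ₐ[GaloisRep.ratLocalizedAt p] AlgebraicClosure ℚ) ≃ V)
    (he_mul : ∀ f g : WithConv (H →ₐ[GaloisRep.ratLocalizedAt p] AlgebraicClosure ℚ),
      e (f * g) = e f + e g)
    (he_equiv : ∀ (σ : AlgebraicClosure ℚ ≃ₐ[ℚ] AlgebraicClosure ℚ)
      (f g : WithConv (H →ₐ[GaloisRep.ratLocalizedAt p] AlgebraicClosure ℚ)),
      (∀ h : H, g h = σ (f h)) → e g = act σ (e f))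
    (hV : ∀ u : V, p • u = 0)
    (A : ValuationSubring (AlgebraicClosure ℚ)) (hA : A.LiesOverPrime p)
    {w : V} (hw : w ∈ connSubgroupFrozen hp e he_mul hV A hA)
    (hfix : ∀ τ ∈ A.inertiaSubgroupIn ℚ, act τ w = w) : w = 0 :=
  eq_zero_of_mem_connSubgroup_of_fixed A e act hp hp3 hA _
    (fun σ r => apply_algebraMap_ratLocalizedAt σ r) he_mul he_equiv hV hw hfix

theorem act_mem_connSubgroupFrozen_iff (hp : p.Prime) (act : GQ → V → V)
    (e : WithConv (H →ₐ[GaloisRep.ratLocalizedAt p] AlgebraicClosure ℚ) ≃ V)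
    (he_mul : ∀ f g : WithConv (H →ₐ[GaloisRep.ratLocalizedAt p] AlgebraicClosure ℚ),
      e (f * g) = e f + e g)
    (he_equiv : ∀ (σ : AlgebraicClosure ℚ ≃ₐ[ℚ] AlgebraicClosure ℚ)
      (f g : WithConv (H →ₐ[GaloisRep.ratLocalizedAt p] AlgebraicClosure ℚ)),
      (∀ h : H, g h = σ (f h)) → e g = act σ (e f))
    (hV : ∀ u : V, p • u = 0)
    (A : ValuationSubring (AlgebraicClosure ℚ)) (hA : A.LiesOverPrime p)
    {σ : GQ} (hσ : σ ∈ A.decompositionSubgroup ℚ) (w : V) :
    act σ w ∈ connSubgroupFrozen hp e he_mul hV A hA ↔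
      w ∈ connSubgroupFrozen hp e he_mul hV A hA :=
  act_mem_connSubgroup_iff A e act hp _ (fun σ r => apply_algebraMap_ratLocalizedAt σ r)
    he_mul he_equiv hV hσ w

end Frozen

section IsFlatAt

/-- **Connected–étale package for a flat deformation** (`p ≥ 3`, `I ∋ p` of finite index):
there is a subgroup `W ⊂ V/IV` (the connected points) which is stable under the decomposition
group `D_A`, contains `(σ - 1)u` for every `σ ∈ I_A`, and has no nonzero `I_A`-fixed element. -/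
theorem exists_connSubgroup_of_isFlatAt {R : Type} [CommRing R] [IsLocalRing R]
    (ρ : GaloisRepAdic R) {p : ℕ} (hp : p.Prime) (hp3 : 3 ≤ p) (hflat : ρ.IsFlatAt p)
    (I : Ideal R) (hI : Finite (R ⧸ I)) (hpI : (p : R) ∈ I)
    (A : ValuationSubring (AlgebraicClosure ℚ)) (hA : A.LiesOverPrime p) :
    ∃ W : AddSubgroup (ρ.V ⧸ (I • (⊤ : Submodule R ρ.V))),
      (∀ σ ∈ A.decompositionSubgroup ℚ, ∀ w, ρ.levelAction I σ w ∈ W ↔ w ∈ W) ∧
      (∀ σ ∈ A.inertiaSubgroupIn ℚ, ∀ u, ρ.levelAction I σ u - u ∈ W) ∧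
      (∀ w ∈ W, (∀ τ ∈ A.inertiaSubgroupIn ℚ, ρ.levelAction I τ w = w) → w = 0) := by
  obtain ⟨_, hH⟩ := hflat
  obtain ⟨H, _, _, hfin, _, _, e, he_mul, he_equiv⟩ := hH I hI
  have := hfin
  have hV : ∀ u : ρ.V ⧸ (I • (⊤ : Submodule R ρ.V)), p • u = 0 := by
    intro u
    induction u using Submodule.Quotient.induction_on with
    | H x =>
      rw [← Submodule.Quotient.mk_smul, Submodule.Quotient.mk_eq_zero,
        ← Nat.cast_smul_eq_nsmul R]
      exact Submodule.smul_mem_smul hpI Submodule.mem_top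
  refine ⟨connSubgroupFrozen hp e he_mul hV A hA, ?_, ?_, ?_⟩
  · intro σ hσ w
    exact act_mem_connSubgroupFrozen_iff hp (fun σ u => ρ.levelAction I σ u) e he_mul he_equiv
      hV A hA hσ w
  · intro σ hσ u
    exact act_sub_mem_connSubgroupFrozen hp (fun σ u => ρ.levelAction I σ u) e he_mul he_equiv
      hV A hA hσ u
  · intro w hw hfix
    exact eq_zero_of_mem_connSubgroupFrozen_of_fixed hp hp3 (fun σ u => ρ.levelAction I σ u) e
      he_mul he_equiv hV A hA hw hfix

end IsFlatAt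

end Fermat.Agent.GP.Flat.AugConn
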