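/-
GATE-P (S56) / [P-FLAT] node S56-FLAT-ORDCOUNT, part (B) (helper47).

**The tangent cocycle of an ORDINARY first-order deformation is Borel-valued with unramified
diagonal**, in the function-cocycle language of `GP/Tan/Cocycle` (helper11) and
`GP/Loc/StrictOrdDim` (helper79).

`r : GQ →* M₂(k[ε])` continuous, `(ofMat r hr).IsOrdinaryAt p` (the FROZEN predicate), `P | p`,
`g ∈ GL₂(k)` ANY matrix whose first column lies in `(I_P - 1) V̄` (so that it spans the unique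
line on whose quotient inertia is trivial: the case `d = dim (I_P - 1) V̄ = 1`).  Then there are
`X ∈ M₂(k)` and functions `a f : GQ → k` with

* `r̄ = rfst r` upper triangular in the basis `g` on `D_P`, quotient character trivial on `I_P`;
* `tanCocycle r σ = bor g (a σ, f σ) + cob r̄ X σ` for `σ ∈ D_P`
  (`bor g (a, f) = g [[a, f], [0, -a]] g⁻¹`, `cob r̄ X σ = X - r̄ σ X r̄ σ⁻¹`);
* `a σ = 0` for `σ ∈ I_P`;
* `a τ = f τ = 0` whenever `r τ = 1` (peu ramifié part: fed by the Kummer-depth bound (iv)).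

Mathlib + Prelude + `GP/Tan/Cocycle` + `GP/Loc/StrictOrdDim` only.
-/
import Fermat.Agent.GP.Tan.Cocycle
import Fermat.Agent.GP.Loc.StrictOrdDim

set_option autoImplicit false

namespace Fermat.Agent.GP.Flat.OrdCocycle

open Matrix Fermat.Agent.S53_helper35 Fermat.Agent.GP.Tan.Cocycle
  Fermat.Agent.GP.Loc.StrictOrdDim

/-! ### the linear algebra core (over any field) -/

section Core

variable {k : Type*} [Field k]

theorem ne_zero_of_mulVec_eq_smul {R Rinv : Matrix (Fin 2) (Fin 2) k} {g₀ : Fin 2 → k} {α : k}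
    (hg₀ : g₀ ≠ 0) (h1 : Rinv * R = 1) (E1 : R.mulVec g₀ = α • g₀) : α ≠ 0 := by
  rintro rfl
  rw [zero_smul] at E1
  have h := congrArg Rinv.mulVec E1
  rw [Matrix.mulVec_mulVec, h1, Matrix.one_mulVec, Matrix.mulVec_zero] at h
  exact hg₀ h

theorem inv_mulVec_eq {R Rinv : Matrix (Fin 2) (Fin 2) k} {g₀ : Fin 2 → k} {α : k}
    (hg₀ : g₀ ≠ 0) (h1 : Rinv * R = 1) (E1 : R.mulVec g₀ = α • g₀) :
    Rinv.mulVec g₀ = α⁻¹ • g₀ := by
  have hα := ne_zero_of_mulVec_eq_smul hg₀ h1 E1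
  have h := congrArg Rinv.mulVec E1
  rw [Matrix.mulVec_mulVec, h1, Matrix.one_mulVec, Matrix.mulVec_smul] at h
  calc Rinv.mulVec g₀ = α⁻¹ • (α • Rinv.mulVec g₀) := by
        rw [smul_smul, inv_mul_cancel₀ hα, one_smul]
    _ = α⁻¹ • g₀ := by rw [← h]

/-- the `D_P`-computation: the corrected cocycle preserves the line `k g₀`. -/
theorem core_D {R Rinv Bm X : Matrix (Fin 2) (Fin 2) k} {g₀ y : Fin 2 → k} {α β : k}
    (hg₀ : g₀ ≠ 0) (h1 : Rinv * R = 1) (hX : X.mulVec g₀ = y)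
    (E1 : R.mulVec g₀ = α • g₀) (E2 : R.mulVec y + Bm.mulVec g₀ = α • y + β • g₀) :
    (Bm * Rinv - X + R * X * Rinv).mulVec g₀ = (α⁻¹ * β) • g₀ := by
  have hα := ne_zero_of_mulVec_eq_smul hg₀ h1 E1
  have hRinv := inv_mulVec_eq hg₀ h1 E1
  have hB : Bm.mulVec g₀ = α • y + β • g₀ - R.mulVec y := by
    rw [← E2]; abel
  rw [Matrix.add_mulVec, Matrix.sub_mulVec, ← Matrix.mulVec_mulVec, ← Matrix.mulVec_mulVec,
    ← Matrix.mulVec_mulVec, hRinv, Matrix.mulVec_smul, Matrix.mulVec_smul, Matrix.mulVec_smul,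
    hX, hB]
  funext i
  simp only [Pi.add_apply, Pi.sub_apply, Pi.smul_apply, smul_eq_mul]
  field_simp
  ring

/-- the `I_P`-computation: the corrected cocycle maps the second basis vector into `k g₀`. -/
theorem core_I {R Rinv Bm X : Matrix (Fin 2) (Fin 2) k} {g₀ g₁ y : Fin 2 → k} {α β γ δ : k}
    (hg₀ : g₀ ≠ 0) (h1 : Rinv * R = 1) (hX0 : X.mulVec g₀ = y) (hX1 : X.mulVec g₁ = 0)
    (E1 : R.mulVec g₀ = α • g₀) (E2 : R.mulVec y + Bm.mulVec g₀ = α • y + β • g₀)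
    (E3 : R.mulVec g₁ - g₁ = γ • g₀) (E4 : Bm.mulVec g₁ = γ • y + δ • g₀) :
    (Bm * Rinv - X + R * X * Rinv).mulVec g₁ = (δ - γ * α⁻¹ * β) • g₀ := by
  have hα := ne_zero_of_mulVec_eq_smul hg₀ h1 E1
  have hRinv := inv_mulVec_eq hg₀ h1 E1
  have hB : Bm.mulVec g₀ = α • y + β • g₀ - R.mulVec y := by
    rw [← E2]; abel
  have hR1 : R.mulVec g₁ = g₁ + γ • g₀ := by
    rw [← E3]; abel
  have hRinv1 : Rinv.mulVec g₁ = g₁ - (γ * α⁻¹) • g₀ := by
    have h := congrArg Rinv.mulVec hR1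
    rw [Matrix.mulVec_mulVec, h1, Matrix.one_mulVec, Matrix.mulVec_add, Matrix.mulVec_smul,
      hRinv, smul_smul] at h
    exact eq_sub_of_add_eq h.symm
  rw [Matrix.add_mulVec, Matrix.sub_mulVec, ← Matrix.mulVec_mulVec, ← Matrix.mulVec_mulVec,
    ← Matrix.mulVec_mulVec, hRinv1, Matrix.mulVec_sub, Matrix.mulVec_sub, Matrix.mulVec_smul,
    Matrix.mulVec_smul, hX0, hX1, E4, hB, Matrix.mulVec_sub, Matrix.mulVec_zero,
    Matrix.mulVec_smul]
  funext i
  simp only [Pi.add_apply, Pi.sub_apply, Pi.smul_apply, smul_eq_mul, Pi.zero_apply]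
  field_simp
  ring

/-- the `j`-th column of `g`. -/
def gcol (g : GL (Fin 2) k) (j : Fin 2) : Fin 2 → k := fun i => (g : Matrix (Fin 2) (Fin 2) k) i j

theorem gcol_eq_mulVec (g : GL (Fin 2) k) (j : Fin 2) :
    gcol g j = (g : Matrix (Fin 2) (Fin 2) k).mulVec (Pi.single j 1) := by
  funext i
  rw [Matrix.mulVec_single_one]
  rfl

theorem inv_mulVec_gcol (g : GL (Fin 2) k) (j : Fin 2) :
    ((g⁻¹ : GL (Fin 2) k) : Matrix (Fin 2) (Fin 2) k).mulVec (gcol g j) = Pi.single j 1 := by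
  rw [gcol_eq_mulVec, Matrix.mulVec_mulVec, ← Units.val_mul, inv_mul_cancel, Units.val_one,
    Matrix.one_mulVec]

theorem gcol_ne_zero (g : GL (Fin 2) k) (j : Fin 2) : gcol g j ≠ 0 := by
  intro h
  have h1 := inv_mulVec_gcol g j
  rw [h, Matrix.mulVec_zero] at h1
  have := congrFun h1 j
  simp at this

/-- entries of `g⁻¹ M g` from the action of `M` on the columns of `g`. -/
theorem conj_apply_of_mulVec (g : GL (Fin 2) k) (M : Matrix (Fin 2) (Fin 2) k) (j : Fin 2)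
    {s t : k} (h : M.mulVec (gcol g j) = s • gcol g 0 + t • gcol g 1) :
    (((g⁻¹ : GL (Fin 2) k) : Matrix (Fin 2) (Fin 2) k) * M * (g : Matrix (Fin 2) (Fin 2) k)) 0 j
        = s ∧
    (((g⁻¹ : GL (Fin 2) k) : Matrix (Fin 2) (Fin 2) k) * M * (g : Matrix (Fin 2) (Fin 2) k)) 1 j
        = t := by
  have key : (fun i => (((g⁻¹ : GL (Fin 2) k) : Matrix (Fin 2) (Fin 2) k) * M *
      (g : Matrix (Fin 2) (Fin 2) k)) i j) = s • Pi.single 0 1 + t • Pi.single 1 1 := by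
    have e : (fun i => (((g⁻¹ : GL (Fin 2) k) : Matrix (Fin 2) (Fin 2) k) * M *
        (g : Matrix (Fin 2) (Fin 2) k)) i j) =
        (((g⁻¹ : GL (Fin 2) k) : Matrix (Fin 2) (Fin 2) k) * M *
          (g : Matrix (Fin 2) (Fin 2) k)).mulVec (Pi.single j 1) := by
      rw [Matrix.mulVec_single_one]
      rfl
    rw [e, ← Matrix.mulVec_mulVec, ← Matrix.mulVec_mulVec, ← gcol_eq_mulVec, h,
      Matrix.mulVec_add, Matrix.mulVec_smul, Matrix.mulVec_smul, inv_mulVec_gcol,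
      inv_mulVec_gcol]
  constructor
  · have := congrFun key 0
    simpa using this
  · have := congrFun key 1
    simpa using this

/-- A trace-zero matrix which is upper triangular in the basis `g` is a `bor g`. -/
theorem eq_bor_of_conj (g : GL (Fin 2) k) (M : Matrix (Fin 2) (Fin 2) k) (htr : M.trace = 0)
    (h10 : (((g⁻¹ : GL (Fin 2) k) : Matrix (Fin 2) (Fin 2) k) * M *
      (g : Matrix (Fin 2) (Fin 2) k)) 1 0 = 0) :
    M = bor g ((((g⁻¹ : GL (Fin 2) k) : Matrix (Fin 2) (Fin 2) k) * M *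
        (g : Matrix (Fin 2) (Fin 2) k)) 0 0,
      (((g⁻¹ : GL (Fin 2) k) : Matrix (Fin 2) (Fin 2) k) * M *
        (g : Matrix (Fin 2) (Fin 2) k)) 0 1) := by
  set N := ((g⁻¹ : GL (Fin 2) k) : Matrix (Fin 2) (Fin 2) k) * M *
    (g : Matrix (Fin 2) (Fin 2) k) with hN
  have h1 : (g : Matrix (Fin 2) (Fin 2) k) * ((g⁻¹ : GL (Fin 2) k) : Matrix (Fin 2) (Fin 2) k)
      = 1 := by rw [← Units.val_mul, mul_inv_cancel, Units.val_one]
  have htrN : N.trace = 0 := by
    rw [hN, Matrix.trace_mul_cycle, h1, Matrix.one_mul, htr]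
  have h11 : N 1 1 = - N 0 0 := by
    rw [Matrix.trace_fin_two] at htrN
    linear_combination htrN
  have hNe : N = !![N 0 0, N 0 1; 0, -N 0 0] := by
    ext i j
    fin_cases i <;> fin_cases j <;> simp [h10, h11]
  have hM : M = (g : Matrix (Fin 2) (Fin 2) k) * N *
      ((g⁻¹ : GL (Fin 2) k) : Matrix (Fin 2) (Fin 2) k) := by
    rw [hN]
    calc M = ((g : Matrix (Fin 2) (Fin 2) k) *
          ((g⁻¹ : GL (Fin 2) k) : Matrix (Fin 2) (Fin 2) k)) * M *
          ((g : Matrix (Fin 2) (Fin 2) k) *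
          ((g⁻¹ : GL (Fin 2) k) : Matrix (Fin 2) (Fin 2) k)) := by
          rw [h1, Matrix.one_mul, Matrix.mul_one]
      _ = _ := by simp only [Matrix.mul_assoc]
  rw [bor_apply]
  conv_lhs => rw [hM, hNe]

end Core

/-! ### vectors over the dual numbers -/

section Vec

variable {k : Type} [Field k]

/-- componentwise `k`-part of a vector over `k[ε]` -/
def vfst (v : Fin 2 → DualNumber k) : Fin 2 → k := fun i => (v i).fst

/-- componentwise `ε`-part of a vector over `k[ε]` -/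
def vsnd (v : Fin 2 → DualNumber k) : Fin 2 → k := fun i => (v i).snd

/-- the constant vector -/
def cvec (w : Fin 2 → k) : Fin 2 → DualNumber k := fun i => TrivSqZeroExt.inl (w i)

@[simp] theorem vfst_cvec (w : Fin 2 → k) : vfst (cvec w) = w := by
  funext i; simp [vfst, cvec]

@[simp] theorem vsnd_cvec (w : Fin 2 → k) : vsnd (cvec w) = 0 := by
  funext i; simp [vsnd, cvec]

theorem vfst_mulVec (M : Matrix (Fin 2) (Fin 2) (DualNumber k)) (v : Fin 2 → DualNumber k) :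
    vfst (M.mulVec v) = (mfst M).mulVec (vfst v) := by
  funext i
  simp [vfst, Matrix.mulVec, dotProduct, Fin.sum_univ_two]

theorem vsnd_mulVec (M : Matrix (Fin 2) (Fin 2) (DualNumber k)) (v : Fin 2 → DualNumber k) :
    vsnd (M.mulVec v) = (mfst M).mulVec (vsnd v) + (msnd M).mulVec (vfst v) := by
  funext i
  simp only [vsnd, vfst, Matrix.mulVec, dotProduct, Fin.sum_univ_two, Pi.add_apply,
    TrivSqZeroExt.snd_add, TrivSqZeroExt.snd_mul, smul_eq_mul, MulOpposite.smul_eq_mul_unop,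
    MulOpposite.unop_op, mfst_apply, msnd_apply]
  ring

theorem vfst_smul (a : DualNumber k) (v : Fin 2 → DualNumber k) :
    vfst (a • v) = a.fst • vfst v := by
  funext i
  simp [vfst]

theorem vsnd_smul (a : DualNumber k) (v : Fin 2 → DualNumber k) :
    vsnd (a • v) = a.fst • vsnd v + a.snd • vfst v := by
  funext i
  simp only [vsnd, vfst, Pi.smul_apply, Pi.add_apply, smul_eq_mul, TrivSqZeroExt.snd_mul,
    MulOpposite.smul_eq_mul_unop, MulOpposite.unop_op]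

theorem vfst_sub (v w : Fin 2 → DualNumber k) : vfst (v - w) = vfst v - vfst w := by
  funext i; simp [vfst]

theorem vsnd_sub (v w : Fin 2 → DualNumber k) : vsnd (v - w) = vsnd v - vsnd w := by
  funext i; simp [vsnd]

end Vec

/-! ### the shape theorem -/

section Shape

variable {k : Type} [Field k]

/-- Inertia is contained in the decomposition group (Prelude's `inertiaSubgroupIn`). -/
theorem mem_decomposition_of_mem_inertia {P : ValuationSubring (AlgebraicClosure ℚ)} {σ : GQ}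
    (hσ : σ ∈ P.inertiaSubgroupIn ℚ) : σ ∈ P.decompositionSubgroup ℚ := by
  obtain ⟨τ, -, rfl⟩ := Subgroup.mem_map.1 hσ
  exact τ.2

/-- the matrix `X` with `X g₀ = y`, `X g₁ = 0` -/
def corrMat (g : GL (Fin 2) k) (y : Fin 2 → k) : Matrix (Fin 2) (Fin 2) k :=
  (Matrix.of fun i j => if j = 0 then y i else 0) *
    ((g⁻¹ : GL (Fin 2) k) : Matrix (Fin 2) (Fin 2) k)

theorem corrMat_mulVec_gcol_zero (g : GL (Fin 2) k) (y : Fin 2 → k) :
    (corrMat g y).mulVec (gcol g 0) = y := by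
  rw [corrMat, ← Matrix.mulVec_mulVec, inv_mulVec_gcol, Matrix.mulVec_single_one]
  funext i
  simp

theorem corrMat_mulVec_gcol_one (g : GL (Fin 2) k) (y : Fin 2 → k) :
    (corrMat g y).mulVec (gcol g 1) = 0 := by
  rw [corrMat, ← Matrix.mulVec_mulVec, inv_mulVec_gcol, Matrix.mulVec_single_one]
  funext i
  simp

/-- **Ordinary shape of the tangent cocycle**: existence of the data `(μ, y)` describing the
ordinary line in the coordinates of `g`, with the four vector equations `E1`–`E4`. -/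
theorem exists_line_data (r : GQ →* Matrix (Fin 2) (Fin 2) (DualNumber k)) (hr : MatCont r)
    {p : ℕ} (hord : (ofMat r hr).IsOrdinaryAt p)
    (P : ValuationSubring (AlgebraicClosure ℚ)) (hP : P.LiesOverPrime p)
    (g : GL (Fin 2) k)
    (hg : ∃ σ₀ ∈ P.inertiaSubgroupIn ℚ, ∃ w₀ : Fin 2 → k,
      (rfst r σ₀).mulVec w₀ - w₀ = gcol g 0) :
    ∃ y : Fin 2 → k,
      (∀ σ ∈ P.decompositionSubgroup ℚ, ∃ α β : k,
        (rfst r σ).mulVec (gcol g 0) = α • gcol g 0 ∧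
        (rfst r σ).mulVec y + (rsnd r σ).mulVec (gcol g 0) = α • y + β • gcol g 0) ∧
      (∀ σ ∈ P.inertiaSubgroupIn ℚ, ∃ γ δ : k,
        (rfst r σ).mulVec (gcol g 1) - gcol g 1 = γ • gcol g 0 ∧
        (rsnd r σ).mulVec (gcol g 1) = γ • y + δ • gcol g 0) := by
  obtain ⟨L, ⟨b, rfl⟩, hD, hI⟩ := hord P hP
  set u : Fin 2 → DualNumber k := b 0 with hu
  have hu_mem : u ∈ Submodule.span (DualNumber k) {u} := Submodule.mem_span_singleton_self u
  -- the scalar `μ`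
  obtain ⟨σ₀, hσ₀, w₀, hw₀⟩ := hg
  obtain ⟨a₀, ha₀⟩ := Submodule.mem_span_singleton.1 (hI σ₀ hσ₀ (cvec w₀))
  have hμ : gcol g 0 = a₀.fst • vfst u := by
    have ha₀' : (a₀ • u : Fin 2 → DualNumber k) = (r σ₀).mulVec (cvec w₀) - cvec w₀ := ha₀
    have h := congrArg vfst ha₀'
    rw [vfst_smul, vfst_sub, vfst_mulVec, vfst_cvec] at h
    rw [h, ← hw₀]
    rfl
  have hμ0 : a₀.fst ≠ 0 := by
    intro h0
    rw [h0, zero_smul] at hμ
    exact gcol_ne_zero g 0 hμ
  set μ : k := a₀.fst with hμdef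
  refine ⟨μ • vsnd u, fun σ hσ => ?_, fun σ hσ => ?_⟩
  · obtain ⟨a, ha⟩ := Submodule.mem_span_singleton.1 (hD σ hσ u hu_mem)
    have ha' : (a • u : Fin 2 → DualNumber k) = (r σ).mulVec u := ha
    have h1 := congrArg vfst ha'
    have h2 := congrArg vsnd ha'
    rw [vfst_smul, vfst_mulVec] at h1
    rw [vsnd_smul, vsnd_mulVec] at h2
    have h1' : (rfst r σ).mulVec (vfst u) = a.fst • vfst u := h1.symm
    have h2' : (rfst r σ).mulVec (vsnd u) + (rsnd r σ).mulVec (vfst u) =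
        a.fst • vsnd u + a.snd • vfst u := h2.symm
    refine ⟨a.fst, a.snd, ?_, ?_⟩
    · rw [hμ, Matrix.mulVec_smul, h1', smul_comm]
    · rw [hμ, Matrix.mulVec_smul, Matrix.mulVec_smul, ← smul_add, h2', smul_add,
        smul_comm μ a.fst, smul_comm μ a.snd]
  · obtain ⟨a, ha⟩ := Submodule.mem_span_singleton.1 (hI σ hσ (cvec (gcol g 1)))
    have ha' : (a • u : Fin 2 → DualNumber k) =
        (r σ).mulVec (cvec (gcol g 1)) - cvec (gcol g 1) := ha
    have h1 := congrArg vfst ha'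
    have h2 := congrArg vsnd ha'
    rw [vfst_smul, vfst_sub, vfst_mulVec, vfst_cvec] at h1
    rw [vsnd_smul, vsnd_sub, vsnd_mulVec, vsnd_cvec, vfst_cvec, Matrix.mulVec_zero, zero_add,
      sub_zero] at h2
    have h1' : (rfst r σ).mulVec (gcol g 1) - gcol g 1 = a.fst • vfst u := h1.symm
    have h2' : (rsnd r σ).mulVec (gcol g 1) = a.fst • vsnd u + a.snd • vfst u := h2.symm
    refine ⟨a.fst * μ⁻¹, a.snd * μ⁻¹, ?_, ?_⟩
    · rw [h1', hμ, smul_smul, mul_assoc, inv_mul_cancel₀ hμ0, mul_one]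
    · rw [h2', hμ, smul_smul, smul_smul, mul_assoc, mul_assoc, inv_mul_cancel₀ hμ0, mul_one,
        mul_one]

/-- the corrected cocycle `c - cob r̄ X`, conjugated into the basis `g` -/
noncomputable def corrConj (r : GQ →* Matrix (Fin 2) (Fin 2) (DualNumber k)) (g : GL (Fin 2) k)
    (X : Matrix (Fin 2) (Fin 2) k) (σ : GQ) : Matrix (Fin 2) (Fin 2) k :=
  ((g⁻¹ : GL (Fin 2) k) : Matrix (Fin 2) (Fin 2) k) *
    (tanCocycle r σ - cob (rfst r) X σ) * (g : Matrix (Fin 2) (Fin 2) k)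

theorem trace_cob (r : GQ →* Matrix (Fin 2) (Fin 2) (DualNumber k))
    (X : Matrix (Fin 2) (Fin 2) k) (σ : GQ) : (cob (rfst r) X σ).trace = 0 := by
  rw [cob_apply, Matrix.trace_sub, Matrix.trace_mul_cycle, rfst_inv_mul, Matrix.one_mul, sub_self]

/-- **Ordinary shape of the tangent cocycle.** -/
theorem exists_ord_cocycle (r : GQ →* Matrix (Fin 2) (Fin 2) (DualNumber k)) (hr : MatCont r)
    {p : ℕ} (hord : (ofMat r hr).IsOrdinaryAt p)
    (htr : ∀ σ, Matrix.trace (tanCocycle r σ) = 0)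
    (P : ValuationSubring (AlgebraicClosure ℚ)) (hP : P.LiesOverPrime p)
    (g : GL (Fin 2) k)
    (hg : ∃ σ₀ ∈ P.inertiaSubgroupIn ℚ, ∃ w₀ : Fin 2 → k,
      (rfst r σ₀).mulVec w₀ - w₀ = gcol g 0) :
    ∃ (X : Matrix (Fin 2) (Fin 2) k) (a f : GQ → k),
      (∀ σ ∈ P.decompositionSubgroup ℚ, conjBy g (rfst r) σ 1 0 = 0) ∧
      (∀ σ ∈ P.inertiaSubgroupIn ℚ, conjBy g (rfst r) σ 1 1 = 1) ∧
      (∀ σ ∈ P.decompositionSubgroup ℚ,
        tanCocycle r σ = bor g (a σ, f σ) + cob (rfst r) X σ) ∧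
      (∀ σ ∈ P.inertiaSubgroupIn ℚ, a σ = 0) ∧
      (∀ τ : GQ, r τ = 1 → a τ = 0 ∧ f τ = 0) := by
  obtain ⟨y, hD, hI⟩ := exists_line_data r hr hord P hP g hg
  set X := corrMat g y with hX
  have hX0 := corrMat_mulVec_gcol_zero g y
  have hX1 := corrMat_mulVec_gcol_one g y
  have hg₀ := gcol_ne_zero g 0
  -- the corrected cocycle in explicit form
  have hc' : ∀ σ, tanCocycle r σ - cob (rfst r) X σ =
      rsnd r σ * rfst r σ⁻¹ - X + rfst r σ * X * rfst r σ⁻¹ := by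
    intro σ
    rw [cob_apply]
    unfold tanCocycle
    abel
  have htr' : ∀ σ, (tanCocycle r σ - cob (rfst r) X σ).trace = 0 := by
    intro σ
    rw [Matrix.trace_sub, htr, trace_cob, sub_zero]
  -- upper triangularity on `D_P`
  have h10 : ∀ σ ∈ P.decompositionSubgroup ℚ, corrConj r g X σ 1 0 = 0 := by
    intro σ hσ
    obtain ⟨α, β, E1, E2⟩ := hD σ hσ
    have h := core_D hg₀ (rfst_inv_mul r σ) hX0 E1 E2
    rw [← hc'] at h
    have h' : (tanCocycle r σ - cob (rfst r) X σ).mulVec (gcol g 0) =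
        (α⁻¹ * β) • gcol g 0 + (0 : k) • gcol g 1 := by
      rw [h, zero_smul, add_zero]
    exact (conj_apply_of_mulVec g _ 0 h').2
  have h11 : ∀ σ ∈ P.inertiaSubgroupIn ℚ, corrConj r g X σ 1 1 = 0 := by
    intro σ hσ
    obtain ⟨α, β, E1, E2⟩ := hD σ (mem_decomposition_of_mem_inertia hσ)
    obtain ⟨γ, δ, E3, E4⟩ := hI σ hσ
    have h := core_I hg₀ (rfst_inv_mul r σ) hX0 hX1 E1 E2 E3 E4
    rw [← hc'] at h
    have h' : (tanCocycle r σ - cob (rfst r) X σ).mulVec (gcol g 1) =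
        (δ - γ * α⁻¹ * β) • gcol g 0 + (0 : k) • gcol g 1 := by
      rw [h, zero_smul, add_zero]
    exact (conj_apply_of_mulVec g _ 1 h').2
  have hg1 : (g : Matrix (Fin 2) (Fin 2) k) * ((g⁻¹ : GL (Fin 2) k) : Matrix (Fin 2) (Fin 2) k)
      = 1 := by rw [← Units.val_mul, mul_inv_cancel, Units.val_one]
  have htrc : ∀ σ, (corrConj r g X σ).trace = 0 := by
    intro σ
    rw [corrConj, Matrix.trace_mul_cycle, hg1, Matrix.one_mul, htr']
  have hshape : ∀ σ ∈ P.decompositionSubgroup ℚ,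
      tanCocycle r σ = bor g (corrConj r g X σ 0 0, corrConj r g X σ 0 1) +
        cob (rfst r) X σ := by
    intro σ hσ
    have := eq_bor_of_conj g (tanCocycle r σ - cob (rfst r) X σ) (htr' σ) (h10 σ hσ)
    rw [← sub_eq_iff_eq_add]
    exact this
  refine ⟨X, fun σ => corrConj r g X σ 0 0, fun σ => corrConj r g X σ 0 1, ?_, ?_, hshape, ?_, ?_⟩
  · intro σ hσ
    obtain ⟨α, β, E1, -⟩ := hD σ hσ
    have h' : (rfst r σ).mulVec (gcol g 0) = α • gcol g 0 + (0 : k) • gcol g 1 := by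
      rw [E1, zero_smul, add_zero]
    exact (conj_apply_of_mulVec g _ 0 h').2
  · intro σ hσ
    obtain ⟨γ, δ, E3, -⟩ := hI σ hσ
    have h' : (rfst r σ).mulVec (gcol g 1) = γ • gcol g 0 + (1 : k) • gcol g 1 := by
      rw [one_smul, ← E3]; abel
    exact (conj_apply_of_mulVec g _ 1 h').2
  · intro σ hσ
    have h1 := h11 σ hσ
    have h2 := htrc σ
    rw [Matrix.trace_fin_two, h1, add_zero] at h2
    exact h2
  · intro τ hτ
    have hc : tanCocycle r τ = 0 := tanCocycle_eq_zero_of_eq_one r hτ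
    have hτ' : r τ⁻¹ = 1 := by
      have := map_mul r τ⁻¹ τ
      rw [inv_mul_cancel, map_one, hτ, mul_one] at this
      exact this.symm
    have hcob : cob (rfst r) X τ = 0 := by
      rw [cob_apply, rfst_apply, rfst_apply, hτ, hτ', mfst_one, Matrix.one_mul, Matrix.mul_one,
        sub_self]
    have h0 : corrConj r g X τ = 0 := by
      rw [corrConj, hc, hcob, sub_zero, Matrix.mul_zero, Matrix.zero_mul]
    show corrConj r g X τ 0 0 = 0 ∧ corrConj r g X τ 0 1 = 0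
    rw [h0]
    exact ⟨rfl, rfl⟩

/-- the coboundary of a scalar matrix vanishes, so `X` may be made trace-free. -/
theorem cob_sub_scalar (r : GQ →* Matrix (Fin 2) (Fin 2) (DualNumber k))
    (X : Matrix (Fin 2) (Fin 2) k) (t : k) :
    cob (rfst r) (X - t • (1 : Matrix (Fin 2) (Fin 2) k)) = cob (rfst r) X := by
  funext σ
  rw [cob_apply, cob_apply, Matrix.mul_sub, Matrix.sub_mul, Matrix.mul_smul, Matrix.smul_mul,
    Matrix.mul_one, rfst_mul_inv]
  abel

/-- **Ordinary shape of the tangent cocycle**, with a trace-zero correction matrix (`2 ≠ 0`). -/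
theorem exists_ord_cocycle_trace_zero (h2 : (2 : k) ≠ 0)
    (r : GQ →* Matrix (Fin 2) (Fin 2) (DualNumber k)) (hr : MatCont r)
    {p : ℕ} (hord : (ofMat r hr).IsOrdinaryAt p)
    (htr : ∀ σ, Matrix.trace (tanCocycle r σ) = 0)
    (P : ValuationSubring (AlgebraicClosure ℚ)) (hP : P.LiesOverPrime p)
    (g : GL (Fin 2) k)
    (hg : ∃ σ₀ ∈ P.inertiaSubgroupIn ℚ, ∃ w₀ : Fin 2 → k,
      (rfst r σ₀).mulVec w₀ - w₀ = gcol g 0) :
    ∃ (X : Matrix (Fin 2) (Fin 2) k) (a f : GQ → k), X.trace = 0 ∧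
      (∀ σ ∈ P.decompositionSubgroup ℚ, conjBy g (rfst r) σ 1 0 = 0) ∧
      (∀ σ ∈ P.inertiaSubgroupIn ℚ, conjBy g (rfst r) σ 1 1 = 1) ∧
      (∀ σ ∈ P.decompositionSubgroup ℚ,
        tanCocycle r σ = bor g (a σ, f σ) + cob (rfst r) X σ) ∧
      (∀ σ ∈ P.inertiaSubgroupIn ℚ, a σ = 0) ∧
      (∀ τ : GQ, r τ = 1 → a τ = 0 ∧ f τ = 0) := by
  obtain ⟨X, a, f, h1, h2', h3, h4, h5⟩ := exists_ord_cocycle r hr hord htr P hP g hg
  refine ⟨X - (X.trace / 2) • (1 : Matrix (Fin 2) (Fin 2) k), a, f, ?_, h1, h2', ?_, h4, h5⟩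
  · rw [Matrix.trace_sub, Matrix.trace_smul, Matrix.trace_one, Fintype.card_fin, smul_eq_mul]
    push_cast
    field_simp
    ring
  · intro σ hσ
    rw [cob_sub_scalar]
    exact h3 σ hσ

end Shape

end Fermat.Agent.GP.Flat.OrdCocycle
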