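/-
GATE-P (S56) / [P-FLAT] node S56-FLAT-ORDCOUNT, part (A) (helper47).

The DIMENSION COUNT for the ORDINARY-FLAT local condition at `p` (case `d = dim (I - 1) V̄ = 1` of
the case split of the flat block), as pure linear algebra on explicit cocycles, in the language
of `GP/Loc/StrictOrdDim` (helper79): `r : D →* M₂(k)` upper triangular in the basis `g`,
`cob r X σ = X - r σ X r σ⁻¹`, `bor g (u, t) = g [[u, t], [0, -u]] g⁻¹`.

`bval g (a, f) σ = bor g (a σ, f σ)` is the `B⁰`-valued function attached to a pair of functions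
`a f : D → k` (`a` = diagonal part, `f` = `N`-part).  If `ZB` is ANY finite-dimensional space of
pairs `(a, f)` such that

* the diagonal parts `a` span a space of dimension `≤ 1` (unramified additive characters of `D_p`),
* the pairs `(0, f) ∈ ZB` form a space of dimension `≤ 2` (the `N`-valued cocycles which are
  peu ramifié: one coboundary direction and one class),
* `ZB` contains `(0, f)` whenever `nval g f` is the coboundary of a trace-zero matrix,

and `π` is ANY linear map killing the coboundaries of trace-zero matrices, then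

  `dim π(bval g ZB) ≤ dim (ad⁰)^D + 1`,

which is the bound `dim L_p ≤ h⁰(D_p, ad⁰ρ̄) + 1` needed in the Greenberg–Wiles count, and
`#π(bval g ZB) ≤ #(ad⁰)^D · #k` for finite `k`.  Mathlib + `GP/Loc/StrictOrdDim` only.
-/
import Fermat.Agent.GP.Loc.StrictOrdDim

set_option autoImplicit false

namespace Fermat.Agent.GP.Flat.OrdCount

open Matrix Module Fermat.Agent.GP.Loc.StrictOrdDim

variable {D : Type*} {k : Type*} [Field k]

/-- The `B⁰`-valued function attached to the pair `(a, f)` in the basis `g`: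
`σ ↦ g * [[a σ, f σ], [0, - a σ]] * g⁻¹`. -/
def bval (g : GL (Fin 2) k) :
    ((D → k) × (D → k)) →ₗ[k] (D → Matrix (Fin 2) (Fin 2) k) where
  toFun af σ := bor g (af.1 σ, af.2 σ)
  map_add' x y := by
    funext σ
    simp only [Prod.fst_add, Prod.snd_add, Pi.add_apply]
    rw [← map_add]
    rfl
  map_smul' c x := by
    funext σ
    simp only [Prod.smul_fst, Prod.smul_snd, Pi.smul_apply, RingHom.id_apply]
    rw [← map_smul]
    rfl

@[simp] theorem bval_apply (g : GL (Fin 2) k) (af : (D → k) × (D → k)) (σ : D) :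
    bval g af σ = bor g (af.1 σ, af.2 σ) := rfl

/-- A pair with vanishing diagonal part is `N`-valued. -/
theorem bval_zero_left (g : GL (Fin 2) k) (f : D → k) :
    bval g ((0 : D → k), f) = nval g f := by
  funext σ
  rw [bval_apply, nval_apply, bor_apply]
  have e : (!![(0 : k), f σ; 0, -(0 : k)] : Matrix (Fin 2) (Fin 2) k) = f σ • E12 k := by
    ext i j
    fin_cases i <;> fin_cases j <;> simp [E12]
  show (g : Matrix (Fin 2) (Fin 2) k) * !![(0 : D → k) σ, f σ; 0, -((0 : D → k) σ)] * _ = _
  rw [Pi.zero_apply, e, Matrix.mul_smul, Matrix.smul_mul]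

/-- An abstract rank count: `Ψ` kills the range of `Φ : k² → Z`. -/
theorem finrank_range_add_two_le {Z H : Type*} [AddCommGroup Z] [Module k Z] [Module.Finite k Z]
    [AddCommGroup H] [Module k H] (Ψ : Z →ₗ[k] H) (Φ : (k × k) →ₗ[k] Z)
    (h : LinearMap.range Φ ≤ LinearMap.ker Ψ) :
    finrank k (LinearMap.range Ψ) + 2 ≤ finrank k Z + finrank k (LinearMap.ker Φ) := by
  have h1 := LinearMap.finrank_range_add_finrank_ker Ψ
  have h2 := LinearMap.finrank_range_add_finrank_ker Φ
  have h3 : finrank k (LinearMap.range Φ) ≤ finrank k (LinearMap.ker Ψ) :=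
    Submodule.finrank_mono h
  have h4 : finrank k (k × k) = 2 := by
    rw [Module.finrank_prod, Module.finrank_self]
  omega

variable [Group D]

/-- **The dimension count**, general form: `dim π(bval g ZB) + 2 ≤ dim ZB + dim (ad⁰)^D`. -/
theorem finrank_map_bval_add_two_le (r : D →* Matrix (Fin 2) (Fin 2) k) (g : GL (Fin 2) k)
    (hut : ∀ σ, conjBy g r σ 1 0 = 0)
    (ZB : Submodule k ((D → k) × (D → k))) [Module.Finite k ZB]
    (hZB : ∀ f : D → k,
      (∃ X : Matrix (Fin 2) (Fin 2) k, X.trace = 0 ∧ nval g f = cob r X) →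
        ((0 : D → k), f) ∈ ZB)
    {H : Type*} [AddCommGroup H] [Module k H] (π : (D → Matrix (Fin 2) (Fin 2) k) →ₗ[k] H)
    (hπ : ∀ X : Matrix (Fin 2) (Fin 2) k, X.trace = 0 → π (cob r X) = 0) :
    finrank k ((ZB.map (bval g)).map π) + 2 ≤ finrank k ZB + finrank k (inv0 r) := by
  classical
  set Ψ : ZB →ₗ[k] H := (π ∘ₗ bval g) ∘ₗ ZB.subtype with hΨ
  have hrange : LinearMap.range Ψ = (ZB.map (bval g)).map π := by
    rw [hΨ, LinearMap.range_comp, Submodule.range_subtype, Submodule.map_comp]
  have hmem : ∀ ut : k × k, ((0 : D → k), fB g r ut) ∈ ZB := fun ut =>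
    hZB _ ⟨bor g ut, trace_bor g ut, (cob_bor g r hut ut).symm⟩
  set Φ : (k × k) →ₗ[k] ZB :=
    ((LinearMap.inr k (D → k) (D → k)) ∘ₗ fB g r).codRestrict ZB hmem with hΦ
  have hΦker : LinearMap.range Φ ≤ LinearMap.ker Ψ := by
    rintro _ ⟨ut, rfl⟩
    rw [LinearMap.mem_ker]
    show π (bval g ((0 : D → k), fB g r ut)) = 0
    rw [bval_zero_left, ← cob_bor g r hut ut]
    exact hπ _ (trace_bor g ut)
  have hkerle : finrank k (LinearMap.ker Φ) ≤ finrank k (inv0 r) := by
    have hin : ∀ x : LinearMap.ker Φ, bor g (x : k × k) ∈ inv0 r := by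
      rintro ⟨ut, hut'⟩
      have h0 : fB g r ut = 0 := by
        have h := congrArg (fun z : ZB => (z : (D → k) × (D → k)).2) (LinearMap.mem_ker.1 hut')
        exact h
      have hc : cob r (bor g ut) = 0 := by rw [cob_bor g r hut ut, h0, map_zero]
      exact ⟨trace_bor g ut, comm_of_cob_eq_zero hc⟩
    let ι : LinearMap.ker Φ →ₗ[k] inv0 r :=
      ((bor g) ∘ₗ (LinearMap.ker Φ).subtype).codRestrict (inv0 r) hin
    have hι : Function.Injective ι := by
      intro x y hxy
      have : bor g (x : k × k) = bor g (y : k × k) := congrArg Subtype.val hxy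
      exact Subtype.ext (bor_injective g this)
    exact LinearMap.finrank_le_finrank_of_injective hι
  have := finrank_range_add_two_le Ψ Φ hΦker
  rw [← hrange]
  omega

omit [Group D] in
/-- `dim ZB ≤ dim (diagonal parts) + dim {(0, f) ∈ ZB}`. -/
theorem finrank_le_fst_add_ker (ZB : Submodule k ((D → k) × (D → k))) [Module.Finite k ZB] :
    finrank k ZB ≤ finrank k (ZB.map (LinearMap.fst k (D → k) (D → k))) +
      finrank k ↥(ZB ⊓ LinearMap.ker (LinearMap.fst k (D → k) (D → k))) := by
  set F : ZB →ₗ[k] (D → k) := (LinearMap.fst k (D → k) (D → k)) ∘ₗ ZB.subtype with hF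
  have h1 := LinearMap.finrank_range_add_finrank_ker F
  have hr : LinearMap.range F = ZB.map (LinearMap.fst k (D → k) (D → k)) := by
    rw [hF, LinearMap.range_comp, Submodule.range_subtype]
  have hk : finrank k (LinearMap.ker F) ≤
      finrank k ↥(ZB ⊓ LinearMap.ker (LinearMap.fst k (D → k) (D → k))) := by
    have hin : ∀ x : LinearMap.ker F, ((x : ZB) : (D → k) × (D → k)) ∈
        ZB ⊓ LinearMap.ker (LinearMap.fst k (D → k) (D → k)) := by
      rintro ⟨⟨x, hx⟩, hx'⟩
      exact ⟨hx, LinearMap.mem_ker.1 hx'⟩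
    let ι : LinearMap.ker F →ₗ[k] ↥(ZB ⊓ LinearMap.ker (LinearMap.fst k (D → k) (D → k))) :=
      (ZB.subtype ∘ₗ (LinearMap.ker F).subtype).codRestrict _ hin
    have hι : Function.Injective ι := by
      intro x y hxy
      have h := congrArg Subtype.val hxy
      have h' : ((x : ZB) : (D → k) × (D → k)) = ((y : ZB) : (D → k) × (D → k)) := h
      exact Subtype.ext (Subtype.ext h')
    have : Module.Finite k ↥(ZB ⊓ LinearMap.ker (LinearMap.fst k (D → k) (D → k))) :=
      Module.Finite.of_injective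
        (Submodule.inclusion (inf_le_left : ZB ⊓ LinearMap.ker (LinearMap.fst k (D → k) (D → k)) ≤ ZB))
        (Submodule.inclusion_injective _)
    exact LinearMap.finrank_le_finrank_of_injective hι
  rw [← hr]
  omega

/-- **`dim L_p^{ord} ≤ h⁰(D_p, ad⁰ρ̄) + 1`**, given the two cohomological inputs: the diagonal parts
span at most a line (unramified characters) and the `N`-valued members of `ZB` span at most a
plane (peu ramifié `N`-cocycles: one coboundary direction and one class). -/
theorem finrank_map_bval_le (r : D →* Matrix (Fin 2) (Fin 2) k) (g : GL (Fin 2) k)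
    (hut : ∀ σ, conjBy g r σ 1 0 = 0)
    (ZB : Submodule k ((D → k) × (D → k))) [Module.Finite k ZB]
    (hdiag : finrank k (ZB.map (LinearMap.fst k (D → k) (D → k))) ≤ 1)
    (hN : finrank k ↥(ZB ⊓ LinearMap.ker (LinearMap.fst k (D → k) (D → k))) ≤ 2)
    (hZB : ∀ f : D → k,
      (∃ X : Matrix (Fin 2) (Fin 2) k, X.trace = 0 ∧ nval g f = cob r X) →
        ((0 : D → k), f) ∈ ZB)
    {H : Type*} [AddCommGroup H] [Module k H] (π : (D → Matrix (Fin 2) (Fin 2) k) →ₗ[k] H)
    (hπ : ∀ X : Matrix (Fin 2) (Fin 2) k, X.trace = 0 → π (cob r X) = 0) :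
    finrank k ((ZB.map (bval g)).map π) ≤ finrank k (inv0 r) + 1 := by
  have h1 := finrank_map_bval_add_two_le r g hut ZB hZB π hπ
  have h2 := finrank_le_fst_add_ker ZB
  omega

/-- Cardinality form of `finrank_map_bval_le` for a finite field `k`:
`#L_p^{ord} ≤ #(ad⁰)^D · #k`. -/
theorem card_map_bval_le [Finite k] (r : D →* Matrix (Fin 2) (Fin 2) k) (g : GL (Fin 2) k)
    (hut : ∀ σ, conjBy g r σ 1 0 = 0)
    (ZB : Submodule k ((D → k) × (D → k))) [Module.Finite k ZB]
    (hdiag : finrank k (ZB.map (LinearMap.fst k (D → k) (D → k))) ≤ 1)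
    (hN : finrank k ↥(ZB ⊓ LinearMap.ker (LinearMap.fst k (D → k) (D → k))) ≤ 2)
    (hZB : ∀ f : D → k,
      (∃ X : Matrix (Fin 2) (Fin 2) k, X.trace = 0 ∧ nval g f = cob r X) →
        ((0 : D → k), f) ∈ ZB)
    {H : Type*} [AddCommGroup H] [Module k H] (π : (D → Matrix (Fin 2) (Fin 2) k) →ₗ[k] H)
    (hπ : ∀ X : Matrix (Fin 2) (Fin 2) k, X.trace = 0 → π (cob r X) = 0) :
    Nat.card ((ZB.map (bval g)).map π) ≤ Nat.card (inv0 r) * Nat.card k := by
  have h := finrank_map_bval_le r g hut ZB hdiag hN hZB π hπ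
  have : Module.Finite k ((ZB.map (bval g)).map π) := by
    rw [← Submodule.map_comp]
    exact Module.Finite.map ZB _
  rw [Module.natCard_eq_pow_finrank (K := k) (V := ((ZB.map (bval g)).map π)),
    Module.natCard_eq_pow_finrank (K := k) (V := inv0 r), ← pow_succ]
  exact Nat.pow_le_pow_right Nat.card_pos h

end Fermat.Agent.GP.Flat.OrdCount
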