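/-
GATE-P (S56) / [P-FLAT] node S56-FLAT-ORDCOUNT, part (C) (helper47).

**The ordinary-flat local condition at `p` on function cocycles** (case `d = dim (I_P - 1) V̄ = 1`).

`P | p` a valuation subring of `ℚ̄`, `D_P`, `I_P` the FROZEN decomposition / inertia groups.

* `peuSub P p` : the subgroup of `I_P` fixing every `p`-th root of every `1 + p z`, `z` an integer
  of `K' = ℚ̄^{I_P}(μ_p)` (it only depends on `P` and `p`);  `= Gal(ℚ̄ / K'(√[p](1 + p O_{K'})))`.
* `ZB P p r g` : the `k`-space of pairs `(a, f)` of functions on `D_P` such that `bval g (a, f)` is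
  a 1-cocycle for `ad r`, of finite level, `a = 0` on `I_P`, `f = 0` on `peuSub P p`.
* `finrank_map_fst_ZB_le_one` (**hdiag**): the diagonal parts span at most a line (Frobenius
  generates `D_P / I_P` at every finite level: helper67 `GP/Loc/FrobGen`).
* `exists_mem_ZB_of_ordinary` : the tangent cocycle of an ORDINARY lift `t` (frozen
  `IsOrdinaryAt`) which is trivial on `peuSub P p` is `bval g x + cob X` on `D_P` with `x ∈ ZB`.
* `card_Lmax_le` : `#π(bval g ZB) ≤ #(ad⁰)^{D_P} · #k`, given the single remaining input `hN`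
  (the `N`-valued members of `ZB` embed into `k²`).
-/
import Fermat.Agent.GP.Flat.OrdCount
import Fermat.Agent.GP.Flat.OrdCocycle
import Fermat.Agent.GP.Loc.FrobGen

set_option autoImplicit false

namespace Fermat.Agent.GP.Flat.OrdLocal

open Matrix Module Fermat.Agent.S53_helper35 Fermat.Agent.GP.Tan.Cocycle
  Fermat.Agent.GP.Loc.StrictOrdDim Fermat.Agent.GP.Flat.OrdCount Fermat.Agent.GP.Flat.OrdCocycle

local notation "Qb" => AlgebraicClosure ℚ

/-! ### open normal subgroups below a finite level -/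

/-- every finite extension of `ℚ` inside `ℚ̄` is fixed by an open normal subgroup of `G_ℚ`. -/
theorem exists_open_normal_le (L : IntermediateField ℚ Qb) [FiniteDimensional ℚ L] :
    ∃ H : Subgroup GQ, H.Normal ∧ IsOpen (H : Set GQ) ∧ ∀ g ∈ H, ∀ x ∈ L, g x = x := by
  let N : IntermediateField ℚ Qb := IntermediateField.normalClosure ℚ L Qb
  have hQb : Normal ℚ Qb := IsAlgClosure.normal ℚ Qb
  have hN : Normal ℚ N := _root_.normalClosure.normal ℚ L Qb
  have hfd : FiniteDimensional ℚ N :=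
    _root_.normalClosure.is_finiteDimensional ℚ L Qb
  have hgal : IsGalois ℚ N := ⟨⟩
  refine ⟨N.fixingSubgroup, (InfiniteGalois.normal_iff_isGalois N).mpr hgal,
    IntermediateField.fixingSubgroup_isOpen N, fun g hg x hx => ?_⟩
  exact (IntermediateField.mem_fixingSubgroup_iff N g).mp hg x (IntermediateField.le_normalClosure L hx)

/-! ### the peu ramifié subgroup -/

section Peu

variable (P : ValuationSubring Qb) (p : ℕ)

/-- The subgroup of `I_P` fixing all `p`-th roots of the elements `1 + p z`, `z` an integer of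
`K' = ℚ̄^{I_P}(μ_p)`. -/
def peuSub : Subgroup GQ where
  carrier := {τ | τ ∈ P.inertiaSubgroupIn ℚ ∧ ∀ w z : Qb, z ∈ P →
    (∀ σ ∈ P.inertiaSubgroupIn ℚ, (∀ μ : Qb, μ ^ p = 1 → σ μ = μ) → σ z = z) →
    w ^ p = 1 + (p : Qb) * z → τ w = w}
  mul_mem' := by
    rintro τ τ' ⟨h1, h2⟩ ⟨h1', h2'⟩
    refine ⟨mul_mem h1 h1', fun w z hz hfix hw => ?_⟩
    rw [AlgEquiv.mul_apply, h2' w z hz hfix hw, h2 w z hz hfix hw]
  one_mem' := ⟨one_mem _, fun w z _ _ _ => rfl⟩
  inv_mem' := by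
    rintro τ ⟨h1, h2⟩
    refine ⟨inv_mem h1, fun w z hz hfix hw => ?_⟩
    have h := h2 w z hz hfix hw
    calc τ⁻¹ w = τ⁻¹ (τ w) := by rw [h]
      _ = w := by
        show (τ⁻¹ * τ) w = w
        rw [inv_mul_cancel]; rfl

theorem mem_peuSub_iff (τ : GQ) : τ ∈ peuSub P p ↔ τ ∈ P.inertiaSubgroupIn ℚ ∧
    ∀ w z : Qb, z ∈ P →
      (∀ σ ∈ P.inertiaSubgroupIn ℚ, (∀ μ : Qb, μ ^ p = 1 → σ μ = μ) → σ z = z) →
      w ^ p = 1 + (p : Qb) * z → τ w = w := Iff.rfl

theorem peuSub_le_inertia : peuSub P p ≤ P.inertiaSubgroupIn ℚ := fun _ h => h.1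

/-- elements of the peu ramifié subgroup fix the `p`-th roots of unity. -/
theorem apply_root_of_unity_of_mem_peuSub {τ : GQ} (hτ : τ ∈ peuSub P p) {μ : Qb}
    (hμ : μ ^ p = 1) : τ μ = μ :=
  hτ.2 μ 0 P.zero_mem (fun σ _ _ => map_zero σ) (by rw [hμ, mul_zero, add_zero])

end Peu

/-! ### the space `ZB` -/

section ZB

variable {k : Type} [Field k] (P : ValuationSubring Qb) (p : ℕ)
  (r : GQ →* Matrix (Fin 2) (Fin 2) k) (g : GL (Fin 2) k)

/-- the decomposition group as a type -/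
abbrev DP : Type := ↥(P.decompositionSubgroup ℚ)

/-- restriction of `r` to `D_P` -/
noncomputable def rD : DP P →* Matrix (Fin 2) (Fin 2) k := r.comp (P.decompositionSubgroup ℚ).subtype

@[simp] theorem rD_apply (σ : DP P) : rD P r σ = r (σ : GQ) := rfl

/-- a function on `D_P` has finite level -/
def IsFinLevel {β : Type*} (c : DP P → β) : Prop :=
  ∃ L : IntermediateField ℚ Qb, FiniteDimensional ℚ L ∧
    ∀ σ s : DP P, (∀ x ∈ L, (s : GQ) x = x) → c (σ * s) = c σ

theorem IsFinLevel.add {β : Type*} [Add β] {c c' : DP P → β} (h : IsFinLevel P c)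
    (h' : IsFinLevel P c') : IsFinLevel P (c + c') := by
  obtain ⟨L, hL, hc⟩ := h
  obtain ⟨L', hL', hc'⟩ := h'
  refine ⟨L ⊔ L', IntermediateField.finiteDimensional_sup L L', fun σ s hs => ?_⟩
  rw [Pi.add_apply, Pi.add_apply, hc σ s (fun x hx => hs x (le_sup_left (a := L) hx)),
    hc' σ s (fun x hx => hs x (le_sup_right (b := L') hx))]

omit [Field k] in
theorem IsFinLevel.smul {β : Type*} [SMul k β] {c : DP P → β} (h : IsFinLevel P c) (a : k) :
    IsFinLevel P (a • c) := by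
  obtain ⟨L, hL, hc⟩ := h
  exact ⟨L, hL, fun σ s hs => by rw [Pi.smul_apply, Pi.smul_apply, hc σ s hs]⟩

theorem isFinLevel_zero {β : Type*} [Zero β] : IsFinLevel P (0 : DP P → β) :=
  ⟨⊥, inferInstance, fun _ _ _ => rfl⟩

/-- The space of pairs `(a, f)` on `D_P`: Borel-valued cocycles of finite level, unramified
diagonal part, peu ramifié `N`-part. -/
def ZB : Submodule k ((DP P → k) × (DP P → k)) where
  carrier := {x |
    (∀ σ τ : DP P, bval g x (σ * τ) =
      bval g x σ + rD P r σ * bval g x τ * rD P r σ⁻¹) ∧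
    IsFinLevel P x.1 ∧ IsFinLevel P x.2 ∧
    (∀ σ : DP P, (σ : GQ) ∈ P.inertiaSubgroupIn ℚ → x.1 σ = 0) ∧
    (∀ σ : DP P, (σ : GQ) ∈ peuSub P p → x.2 σ = 0)}
  add_mem' := by
    rintro x y ⟨h1, h2, h3, h4, h5⟩ ⟨h1', h2', h3', h4', h5'⟩
    refine ⟨fun σ τ => ?_, h2.add P h2', h3.add P h3', fun σ hσ => ?_, fun σ hσ => ?_⟩
    · rw [map_add, Pi.add_apply, Pi.add_apply, Pi.add_apply, h1, h1', Matrix.mul_add,
        Matrix.add_mul]
      abel
    · rw [Prod.fst_add, Pi.add_apply, h4 σ hσ, h4' σ hσ, add_zero]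
    · rw [Prod.snd_add, Pi.add_apply, h5 σ hσ, h5' σ hσ, add_zero]
  zero_mem' := by
    refine ⟨fun σ τ => ?_, isFinLevel_zero P, isFinLevel_zero P, fun _ _ => rfl, fun _ _ => rfl⟩
    rw [map_zero, Pi.zero_apply, Pi.zero_apply, Pi.zero_apply, Matrix.mul_zero, Matrix.zero_mul,
      add_zero]
  smul_mem' := by
    rintro c x ⟨h1, h2, h3, h4, h5⟩
    refine ⟨fun σ τ => ?_, h2.smul P c, h3.smul P c, fun σ hσ => ?_, fun σ hσ => ?_⟩
    · rw [map_smul, Pi.smul_apply, Pi.smul_apply, Pi.smul_apply, h1, Matrix.mul_smul,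
        Matrix.smul_mul, smul_add]
    · rw [Prod.smul_fst, Pi.smul_apply, h4 σ hσ, smul_zero]
    · rw [Prod.smul_snd, Pi.smul_apply, h5 σ hσ, smul_zero]

theorem mem_ZB_iff (x : (DP P → k) × (DP P → k)) : x ∈ ZB P p r g ↔
    (∀ σ τ : DP P, bval g x (σ * τ) =
      bval g x σ + rD P r σ * bval g x τ * rD P r σ⁻¹) ∧
    IsFinLevel P x.1 ∧ IsFinLevel P x.2 ∧
    (∀ σ : DP P, (σ : GQ) ∈ P.inertiaSubgroupIn ℚ → x.1 σ = 0) ∧
    (∀ σ : DP P, (σ : GQ) ∈ peuSub P p → x.2 σ = 0) := Iff.rfl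

/-! ### conjugating a Borel matrix -/

omit P p r in
/-- `r σ * bor g (u, t) * r σ⁻¹ = bor g (u, t - fB g r (u, t) σ)` for `r` upper triangular in the
basis `g`: conjugation preserves the diagonal part. -/
theorem conj_bor {D : Type*} [Group D] (r : D →* Matrix (Fin 2) (Fin 2) k)
    (hut : ∀ σ, conjBy g r σ 1 0 = 0) (ut : k × k) (σ : D) :
    r σ * bor g ut * r σ⁻¹ = bor g (ut.1, ut.2 - fB g r ut σ) := by
  have h1 := congrFun (cob_bor g r hut ut) σ
  rw [cob_apply, nval_apply] at h1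
  have h2 : bor g ((0 : k), fB g r ut σ) = fB g r ut σ •
      ((g : Matrix (Fin 2) (Fin 2) k) * E12 k *
        ((g⁻¹ : GL (Fin 2) k) : Matrix (Fin 2) (Fin 2) k)) := by
    have := congrFun (bval_zero_left (D := Unit) g (fun _ => fB g r ut σ)) ()
    rw [bval_apply, nval_apply] at this
    exact this
  have h3 : (ut.1, ut.2 - fB g r ut σ) = ut - ((0 : k), fB g r ut σ) := by
    ext <;> simp
  rw [h3, map_sub, h2, ← h1]
  abel

/-- the diagonal part of a member of `ZB` is additive. -/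
theorem fst_mul_of_mem_ZB (hut : ∀ σ : DP P, conjBy g (rD P r) σ 1 0 = 0)
    {x : (DP P → k) × (DP P → k)} (hx : x ∈ ZB P p r g) (σ τ : DP P) :
    x.1 (σ * τ) = x.1 σ + x.1 τ := by
  have h := hx.1 σ τ
  rw [bval_apply, bval_apply, bval_apply, conj_bor g (rD P r) hut, ← map_add] at h
  have := bor_injective g h
  exact congrArg Prod.fst this

theorem fst_one_of_mem_ZB (hut : ∀ σ : DP P, conjBy g (rD P r) σ 1 0 = 0)
    {x : (DP P → k) × (DP P → k)} (hx : x ∈ ZB P p r g) : x.1 1 = 0 := by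
  have h := fst_mul_of_mem_ZB P p r g hut hx 1 1
  rw [mul_one] at h
  exact left_eq_add.mp h

theorem fst_pow_of_mem_ZB (hut : ∀ σ : DP P, conjBy g (rD P r) σ 1 0 = 0)
    {x : (DP P → k) × (DP P → k)} (hx : x ∈ ZB P p r g) (σ : DP P) (n : ℕ) :
    x.1 (σ ^ n) = n • x.1 σ := by
  induction n with
  | zero => rw [pow_zero, zero_smul]; exact fst_one_of_mem_ZB P p r g hut hx
  | succ n ih => rw [pow_succ, fst_mul_of_mem_ZB P p r g hut hx, ih, succ_nsmul]

/-- finite level: the diagonal part vanishes on elements fixing the level. -/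
theorem fst_eq_zero_of_fixes (hut : ∀ σ : DP P, conjBy g (rD P r) σ 1 0 = 0)
    {x : (DP P → k) × (DP P → k)} (hx : x ∈ ZB P p r g) {L : IntermediateField ℚ Qb}
    (hL : ∀ σ s : DP P, (∀ y ∈ L, (s : GQ) y = y) → x.1 (σ * s) = x.1 σ) (s : DP P)
    (hs : ∀ y ∈ L, (s : GQ) y = y) : x.1 s = 0 := by
  have h := hL 1 s hs
  rw [one_mul, fst_one_of_mem_ZB P p r g hut hx] at h
  exact h

/-- **hdiag, pointwise form**: a diagonal part vanishing at a Frobenius element vanishes. -/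
theorem fst_eq_zero_of_frob {q : ℕ} (hq : q.Prime) (hA : (q : Qb) ∈ P.nonunits) {φ : GQ}
    (hφ : P.IsFrobeniusAt φ q) (hut : ∀ σ : DP P, conjBy g (rD P r) σ 1 0 = 0)
    {x : (DP P → k) × (DP P → k)} (hx : x ∈ ZB P p r g)
    (h0 : x.1 ⟨φ, hφ.mem_decompositionSubgroup⟩ = 0) : x.1 = 0 := by
  funext σ
  obtain ⟨L, hLfd, hL⟩ := hx.2.1
  obtain ⟨H, hn, hopen, hH⟩ := exists_open_normal_le L
  obtain ⟨n, τ, hτ, h, hh, hσ⟩ :=
    Fermat.Agent.GP.Loc.FrobGen.exists_eq_pow_mul_mul P hq hA hφ H hn hopen σ.2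
  have hτD : τ ∈ P.decompositionSubgroup ℚ := mem_decomposition_of_mem_inertia hτ
  have hφD := hφ.mem_decompositionSubgroup
  have hhD : h ∈ P.decompositionSubgroup ℚ := by
    have : h = (φ ^ n * τ)⁻¹ * (σ : GQ) := by rw [hσ, inv_mul_cancel_left]
    rw [this]
    exact mul_mem (inv_mem (mul_mem (pow_mem hφD n) hτD)) σ.2
  have hσ' : σ = (⟨φ, hφD⟩ : DP P) ^ n * ⟨τ, hτD⟩ * ⟨h, hhD⟩ := by
    apply Subtype.ext
    rw [hσ]
    rfl
  rw [hσ', fst_mul_of_mem_ZB P p r g hut hx, fst_mul_of_mem_ZB P p r g hut hx,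
    fst_pow_of_mem_ZB P p r g hut hx, h0, smul_zero, zero_add, hx.2.2.2.1 ⟨τ, hτD⟩ hτ, zero_add,
    Pi.zero_apply]
  exact fst_eq_zero_of_fixes P p r g hut hx hL ⟨h, hhD⟩ (fun y hy => hH h hh y hy)

/-- **hdiag**: the diagonal parts of `ZB` span at most a line. -/
theorem finrank_map_fst_ZB_le_one {q : ℕ} (hq : q.Prime) (hA : (q : Qb) ∈ P.nonunits)
    (hut : ∀ σ : DP P, conjBy g (rD P r) σ 1 0 = 0) :
    Module.Finite k ((ZB P p r g).map (LinearMap.fst k (DP P → k) (DP P → k))) ∧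
    finrank k ((ZB P p r g).map (LinearMap.fst k (DP P → k) (DP P → k))) ≤ 1 := by
  obtain ⟨φ, hφ⟩ := Fermat.Agent.Common_helper32.exists_isFrobeniusAt_of_liesOver P q hq hA
  let ev : ((ZB P p r g).map (LinearMap.fst k (DP P → k) (DP P → k))) →ₗ[k] k :=
    (LinearMap.proj (⟨φ, hφ.mem_decompositionSubgroup⟩ : DP P)) ∘ₗ (Submodule.subtype _)
  have hev : Function.Injective ev := by
    rw [← LinearMap.ker_eq_bot, LinearMap.ker_eq_bot']
    rintro ⟨a, ha⟩ h0
    obtain ⟨x, hx, rfl⟩ := ha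
    apply Subtype.ext
    exact fst_eq_zero_of_frob P p r g hq hA hφ hut hx h0
  have hfin : Module.Finite k ((ZB P p r g).map (LinearMap.fst k (DP P → k) (DP P → k))) :=
    Module.Finite.of_injective ev hev
  refine ⟨hfin, ?_⟩
  have := LinearMap.finrank_le_finrank_of_injective hev
  rwa [Module.finrank_self] at this

/-! ### coboundaries are members of `ZB` -/

omit P p r g in
/-- the coboundary of `X` is a cocycle. -/
theorem cob_mul {D : Type*} [Group D] (r : D →* Matrix (Fin 2) (Fin 2) k)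
    (X : Matrix (Fin 2) (Fin 2) k) (σ τ : D) :
    cob r X (σ * τ) = cob r X σ + r σ * cob r X τ * r σ⁻¹ := by
  rw [cob_apply, cob_apply, cob_apply, map_mul, _root_.mul_inv_rev, map_mul, Matrix.mul_sub,
    Matrix.sub_mul]
  simp only [Matrix.mul_assoc]
  abel

/-- `N`-valued coboundaries of trace-zero matrices lie in `ZB` (when `r` has finite level and is
trivial on the peu ramifié subgroup). -/
theorem zero_mk_mem_ZB_of_cob
    (hrL : ∃ L : IntermediateField ℚ Qb, FiniteDimensional ℚ L ∧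
      ∀ s : GQ, (∀ y ∈ L, s y = y) → r s = 1)
    (hrpeu : ∀ τ ∈ peuSub P p, r τ = 1)
    (f : DP P → k) (X : Matrix (Fin 2) (Fin 2) k) (hf : nval g f = cob (rD P r) X) :
    ((0 : DP P → k), f) ∈ ZB P p r g := by
  have hrinv : ∀ s : GQ, r s = 1 → r s⁻¹ = 1 := by
    intro s hs
    have := map_mul r s⁻¹ s
    rw [inv_mul_cancel, map_one, hs, mul_one] at this
    exact this.symm
  have hfσ : ∀ σ : DP P, bor g ((0 : k), f σ) = cob (rD P r) X σ := by
    intro σ
    have h1 := congrFun hf σ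
    have h2 := congrFun (bval_zero_left g f) σ
    rw [bval_apply] at h2
    rw [← h1, ← h2]
    rfl
  refine ⟨fun σ τ => ?_, isFinLevel_zero P, ?_, fun _ _ => rfl, fun σ hσ => ?_⟩
  · rw [bval_zero_left, hf, cob_mul]
  · obtain ⟨L, hL, hr1⟩ := hrL
    refine ⟨L, hL, fun σ s hs => ?_⟩
    have h1 : r (s : GQ) = 1 := hr1 _ hs
    have h2 := hfσ (σ * s)
    have h3 := hfσ σ
    have hs1 : rD P r s = 1 := h1
    have hs2 : rD P r s⁻¹ = 1 := hrinv _ h1
    have h4 : cob (rD P r) X (σ * s) = cob (rD P r) X σ := by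
      rw [cob_mul, cob_apply (rD P r) X s, hs1, hs2, Matrix.one_mul, Matrix.mul_one, sub_self,
        Matrix.mul_zero, Matrix.zero_mul, add_zero]
    rw [h4, ← h3] at h2
    have := bor_injective g h2
    exact congrArg Prod.snd this
  · have h1 : r (σ : GQ) = 1 := hrpeu _ hσ
    have h2 := hfσ σ
    have hs1 : rD P r σ = 1 := h1
    have hs2 : rD P r σ⁻¹ = 1 := hrinv _ h1
    rw [cob_apply, hs1, hs2, Matrix.one_mul, Matrix.mul_one, sub_self] at h2
    have h3 : bor g ((0 : k), f σ) = bor g ((0 : k), (0 : k)) := by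
      rw [h2]
      have : ((0 : k), (0 : k)) = (0 : k × k) := rfl
      rw [this, map_zero]
    exact congrArg Prod.snd (bor_injective g h3)

/-! ### the count -/

/-- **`#L_p^{ord} ≤ #H⁰(D_P, ad⁰) · #k`** for the ordinary-flat local condition, given the single
remaining input `hN` (the `N`-valued members of `ZB` embed into `k²`: one coboundary direction and
one peu ramifié class). -/
theorem card_Lmax_le [Finite k] {q : ℕ} (hq : q.Prime) (hA : (q : Qb) ∈ P.nonunits)
    (hut : ∀ σ : DP P, conjBy g (rD P r) σ 1 0 = 0)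
    (hrL : ∃ L : IntermediateField ℚ Qb, FiniteDimensional ℚ L ∧
      ∀ s : GQ, (∀ y ∈ L, s y = y) → r s = 1)
    (hrpeu : ∀ τ ∈ peuSub P p, r τ = 1)
    (hN : ∃ ℓ : ↥(ZB P p r g ⊓ LinearMap.ker (LinearMap.fst k (DP P → k) (DP P → k))) →ₗ[k]
      (Fin 2 → k), Function.Injective ℓ)
    {H : Type*} [AddCommGroup H] [Module k H]
    (π : (DP P → Matrix (Fin 2) (Fin 2) k) →ₗ[k] H)
    (hπ : ∀ X : Matrix (Fin 2) (Fin 2) k, X.trace = 0 → π (cob (rD P r) X) = 0) :
    Nat.card (((ZB P p r g).map (bval g)).map π) ≤ Nat.card (inv0 (rD P r)) * Nat.card k := by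
  obtain ⟨ℓ, hℓ⟩ := hN
  obtain ⟨hfin1, hdiag⟩ := finrank_map_fst_ZB_le_one P p r g hq hA hut
  have hfinN : Module.Finite k
      ↥(ZB P p r g ⊓ LinearMap.ker (LinearMap.fst k (DP P → k) (DP P → k))) :=
    Module.Finite.of_injective ℓ hℓ
  have hNle : finrank k
      ↥(ZB P p r g ⊓ LinearMap.ker (LinearMap.fst k (DP P → k) (DP P → k))) ≤ 2 := by
    have := LinearMap.finrank_le_finrank_of_injective hℓ
    simpa using this
  -- finite-dimensionality of `ZB`
  have hfinZB : Module.Finite k (ZB P p r g) := by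
    set F : ZB P p r g →ₗ[k] (DP P → k) :=
      (LinearMap.fst k (DP P → k) (DP P → k)) ∘ₗ (ZB P p r g).subtype with hF
    have hr : LinearMap.range F = (ZB P p r g).map (LinearMap.fst k (DP P → k) (DP P → k)) := by
      rw [hF, LinearMap.range_comp, Submodule.range_subtype]
    have hin : ∀ x : LinearMap.ker F, ((x : ZB P p r g) : (DP P → k) × (DP P → k)) ∈
        ZB P p r g ⊓ LinearMap.ker (LinearMap.fst k (DP P → k) (DP P → k)) := by
      rintro ⟨⟨x, hx⟩, hx'⟩
      exact ⟨hx, LinearMap.mem_ker.1 hx'⟩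
    let ι : LinearMap.ker F →ₗ[k]
        ↥(ZB P p r g ⊓ LinearMap.ker (LinearMap.fst k (DP P → k) (DP P → k))) :=
      ((ZB P p r g).subtype ∘ₗ (LinearMap.ker F).subtype).codRestrict _ hin
    have hι : Function.Injective ι := by
      intro x y hxy
      have h := congrArg Subtype.val hxy
      have h' : ((x : ZB P p r g) : (DP P → k) × (DP P → k)) =
          ((y : ZB P p r g) : (DP P → k) × (DP P → k)) := h
      exact Subtype.ext (Subtype.ext h')
    have hk : Module.Finite k (LinearMap.ker F) := Module.Finite.of_injective ι hι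
    have hq' : Module.Finite k (ZB P p r g ⧸ LinearMap.ker F) := by
      have e := F.quotKerEquivRange
      have : Module.Finite k (LinearMap.range F) := by rw [hr]; exact hfin1
      exact Module.Finite.equiv e.symm
    exact Module.Finite.of_submodule_quotient (LinearMap.ker F)
  exact card_map_bval_le (rD P r) g hut (ZB P p r g) hdiag hNle
    (fun f ⟨X, _, hf⟩ => zero_mk_mem_ZB_of_cob P p r g hrL hrpeu f X hf) π hπ

/-! ### ordinary lifts land in `ZB` -/

omit r in
/-- **The tangent cocycle of an ordinary lift is in the ordinary-flat local condition.**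
`t` a continuous lift to `k[ε]` with (frozen) `IsOrdinaryAt p`, trace-zero tangent cocycle, and
trivial on the peu ramifié subgroup (the output of the Kummer-depth bound (iv)); `g` any matrix
whose first column lies in `(I_P - 1) V̄`.  Then on `D_P` the tangent cocycle is
`bval g x + cob r̄ X` with `x ∈ ZB P p r̄ g` and `X` trace-free. -/
theorem exists_mem_ZB_of_ordinary (h2 : (2 : k) ≠ 0)
    (t : GQ →* Matrix (Fin 2) (Fin 2) (DualNumber k)) (ht : MatCont t)
    (hord : (ofMat t ht).IsOrdinaryAt p)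
    (htr : ∀ σ, Matrix.trace (tanCocycle t σ) = 0)
    (hP : P.LiesOverPrime p)
    (hg : ∃ σ₀ ∈ P.inertiaSubgroupIn ℚ, ∃ w₀ : Fin 2 → k,
      (rfst t σ₀).mulVec w₀ - w₀ = gcol g 0)
    (hpeu : ∀ τ ∈ peuSub P p, t τ = 1) :
    (∀ σ : DP P, conjBy g (rD P (rfst t)) σ 1 0 = 0) ∧
    (∀ σ : DP P, (σ : GQ) ∈ P.inertiaSubgroupIn ℚ → conjBy g (rD P (rfst t)) σ 1 1 = 1) ∧
    ∃ (X : Matrix (Fin 2) (Fin 2) k) (x : (DP P → k) × (DP P → k)), X.trace = 0 ∧
      x ∈ ZB P p (rfst t) g ∧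
      ∀ σ : DP P, tanCocycle t (σ : GQ) = bval g x σ + cob (rD P (rfst t)) X σ := by
  obtain ⟨X, a, f, hX, hD, hI, hshape, haI, h1⟩ :=
    exists_ord_cocycle_trace_zero h2 t ht hord htr P hP g hg
  refine ⟨fun σ => hD σ σ.2, fun σ hσ => hI σ hσ, X,
    (fun σ => a (σ : GQ), fun σ => f (σ : GQ)), hX, ?_, fun σ => hshape σ σ.2⟩
  -- the corrected cocycle on `D_P`
  have hc : ∀ σ : DP P, bor g (a (σ : GQ), f (σ : GQ)) =
      tanCocycle t (σ : GQ) - cob (rD P (rfst t)) X σ := by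
    intro σ
    have := hshape σ σ.2
    rw [this]
    show _ = _ + cob (rfst t) X (σ : GQ) - cob (rfst t) X (σ : GQ)
    rw [add_sub_cancel_right]
  obtain ⟨L, hL, hL1⟩ := exists_eq_one_of_matCont t ht
  have htinv : ∀ s : GQ, t s = 1 → t s⁻¹ = 1 := by
    intro s hs
    have := map_mul t s⁻¹ s
    rw [inv_mul_cancel, map_one, hs, mul_one] at this
    exact this.symm
  -- level-constancy of the corrected cocycle
  have hlev : ∀ σ s : DP P, (∀ y ∈ L, (s : GQ) y = y) →
      bor g (a ((σ * s : DP P) : GQ), f ((σ * s : DP P) : GQ)) =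
        bor g (a (σ : GQ), f (σ : GQ)) := by
    intro σ s hs
    have hs1 : t (s : GQ) = 1 := hL1 _ hs
    have hs2 : t ((s : GQ)⁻¹) = 1 := htinv _ hs1
    rw [hc, hc]
    have e1 : tanCocycle t ((σ * s : DP P) : GQ) = tanCocycle t (σ : GQ) := by
      show tanCocycle t ((σ : GQ) * (s : GQ)) = _
      rw [tanCocycle_mul, tanCocycle_eq_zero_of_eq_one t hs1, Matrix.mul_zero, Matrix.zero_mul,
        add_zero]
    have e2 : cob (rD P (rfst t)) X (σ * s) = cob (rD P (rfst t)) X σ := by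
      rw [cob_mul, cob_apply (rD P (rfst t)) X s]
      have k1 : rD P (rfst t) s = 1 := by
        show mfst (t (s : GQ)) = 1
        rw [hs1, mfst_one]
      have k2 : rD P (rfst t) s⁻¹ = 1 := by
        show mfst (t ((s : GQ)⁻¹)) = 1
        rw [hs2, mfst_one]
      rw [k1, k2, Matrix.one_mul, Matrix.mul_one, sub_self, Matrix.mul_zero, Matrix.zero_mul,
        add_zero]
    rw [e1, e2]
  refine ⟨fun σ τ => ?_, ⟨L, hL, fun σ s hs => ?_⟩, ⟨L, hL, fun σ s hs => ?_⟩,
    fun σ hσ => haI σ hσ, fun σ hσ => (h1 _ (hpeu _ hσ)).2⟩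
  · -- cocycle identity
    rw [bval_apply, bval_apply, bval_apply]
    show bor g (a ((σ * τ : DP P) : GQ), f ((σ * τ : DP P) : GQ)) =
      bor g (a (σ : GQ), f (σ : GQ)) +
        rD P (rfst t) σ * bor g (a (τ : GQ), f (τ : GQ)) * rD P (rfst t) σ⁻¹
    rw [hc, hc, hc, cob_mul]
    have e1 : tanCocycle t ((σ * τ : DP P) : GQ) = tanCocycle t (σ : GQ) +
        rD P (rfst t) σ * tanCocycle t (τ : GQ) * rD P (rfst t) σ⁻¹ := by
      show tanCocycle t ((σ : GQ) * (τ : GQ)) = _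
      rw [tanCocycle_mul]
      rfl
    rw [e1, Matrix.mul_sub, Matrix.sub_mul]
    abel
  · exact congrArg Prod.fst (bor_injective g (hlev σ s hs))
  · exact congrArg Prod.snd (bor_injective g (hlev σ s hs))

end ZB

end Fermat.Agent.GP.Flat.OrdLocal
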