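/-
GATE-P (S56) / [P-FLAT] node S56-FLAT-ORDCOUNT, part (D0) (helper47): the SHARED DEFINITIONS of the
`ρ̄`-independent Kummer frame of the ordinary-flat count.

`P | p` a valuation subring of `ℚ̄`, `D_P` the frozen decomposition group (`DP P`, acting on `ℚ̄`).

* `ordG P p : Subgroup (DP P)` : the elements of the inertia group `I_P` fixing `μ_p`
  (`= Gal(ℚ̄ / ℚ_p^{nr}(ζ_p))`).
* `ordK P p : Subfield ℚ̄` : its fixed field (`ℚ_p^{nr}(ζ_p) ∩ ℚ̄`).
* `mem_ordK_iff` (= the frame binder `hK` of helper75's `SSChain`), `ordG_normal`,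
  `conj_mem_ordG`, `zeta_mem_ordK`, `hiso` (`D_P` acts by isometries: helper26 `DvrInst/Isometry`),
  `horb` (finite orbits).
-/
import Fermat.Agent.GP.Flat.OrdLocal
import Fermat.Agent.GP.Flat.DvrInst.Isometry

set_option autoImplicit false

namespace Fermat.Agent.GP.Flat.OrdFrame

open Fermat.Agent.S53_helper35 Fermat.Agent.GP.Flat.OrdLocal

local notation "Qb" => AlgebraicClosure ℚ

variable (P : ValuationSubring Qb) (p : ℕ)

/-- `I' = {σ ∈ I_P | σ fixes μ_p}` as a subgroup of `D_P`. -/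
def ordG : Subgroup (DP P) where
  carrier := {σ | (σ : GQ) ∈ P.inertiaSubgroupIn ℚ ∧ ∀ μ : Qb, μ ^ p = 1 → (σ : GQ) μ = μ}
  mul_mem' := by
    rintro σ τ ⟨h1, h2⟩ ⟨h1', h2'⟩
    refine ⟨mul_mem h1 h1', fun μ hμ => ?_⟩
    show (σ : GQ) ((τ : GQ) μ) = μ
    rw [h2' μ hμ, h2 μ hμ]
  one_mem' := ⟨one_mem _, fun _ _ => rfl⟩
  inv_mem' := by
    rintro σ ⟨h1, h2⟩
    refine ⟨inv_mem h1, fun μ hμ => ?_⟩
    have h := h2 μ hμ
    calc ((σ⁻¹ : DP P) : GQ) μ = (σ : GQ)⁻¹ ((σ : GQ) μ) := by rw [h]; rfl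
      _ = μ := by
        show ((σ : GQ)⁻¹ * (σ : GQ)) μ = μ
        rw [inv_mul_cancel]; rfl

theorem mem_ordG_iff (σ : DP P) : σ ∈ ordG P p ↔
    (σ : GQ) ∈ P.inertiaSubgroupIn ℚ ∧ ∀ μ : Qb, μ ^ p = 1 → (σ : GQ) μ = μ := Iff.rfl

/-- `K = ℚ̄^{I'}`. -/
def ordK : Subfield Qb where
  carrier := {x | ∀ σ ∈ ordG P p, σ • x = x}
  mul_mem' hx hy σ hσ := by rw [smul_mul', hx σ hσ, hy σ hσ]
  one_mem' σ _ := smul_one σ
  add_mem' hx hy σ hσ := by rw [smul_add, hx σ hσ, hy σ hσ]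
  zero_mem' σ _ := smul_zero σ
  neg_mem' hx σ hσ := by rw [smul_neg, hx σ hσ]
  inv_mem' x hx σ hσ := by rw [smul_inv'', hx σ hσ]

/-- the frame binder `hK` of `SSChain`. -/
theorem mem_ordK_iff (x : Qb) : x ∈ ordK P p ↔ ∀ g ∈ ordG P p, g • x = x := Iff.rfl

theorem smul_def (σ : DP P) (x : Qb) : σ • x = (σ : GQ) x := rfl

/-- `p`-th roots of unity lie in `K`. -/
theorem zeta_mem_ordK {ζ : Qb} (hζ : ζ ^ p = 1) : ζ ∈ ordK P p := fun _ hσ => hσ.2 ζ hζ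

/-- `D_P` normalises `I'`. -/
theorem conj_mem_ordG (d : DP P) {g : DP P} (hg : g ∈ ordG P p) : d * g * d⁻¹ ∈ ordG P p := by
  refine ⟨?_, fun μ hμ => ?_⟩
  · obtain ⟨g', hg', heq⟩ := hg.1
    have hgg : g' = g := Subtype.ext heq
    rw [hgg] at hg'
    have hn : (P.inertiaSubgroup ℚ).Normal := by
      unfold ValuationSubring.inertiaSubgroup
      infer_instance
    exact ⟨d * g * d⁻¹, hn.conj_mem g hg' d, rfl⟩
  · -- `d⁻¹ μ` is again a `p`-th root of unity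
    have h1 : ((d⁻¹ : DP P) : GQ) μ ^ p = 1 := by
      rw [← map_pow, hμ, map_one]
    show (d : GQ) ((g : GQ) (((d⁻¹ : DP P) : GQ) μ)) = μ
    rw [hg.2 _ h1]
    show ((d : GQ) * (d : GQ)⁻¹) μ = μ
    rw [mul_inv_cancel]; rfl

theorem conj_mem_ordG' (d : DP P) {g : DP P} (hg : g ∈ ordG P p) : d⁻¹ * g * d ∈ ordG P p := by
  have := conj_mem_ordG P p d⁻¹ hg
  rwa [inv_inv] at this

instance ordG_normal : (ordG P p).Normal := ⟨fun _ hg d => conj_mem_ordG P p d hg⟩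

/-- the frame binder `hiso`: `D_P` acts by isometries of `P.valuation`. -/
theorem hiso (d : DP P) (x : Qb) : P.valuation (d • x) = P.valuation x :=
  Fermat.Agent.GP.Flat.DvrInst.valuation_apply_eq (A := P) d.2 x

/-- the frame binder `horb`: finite orbits. -/
theorem horb (x : Qb) : (Set.range fun g : ordG P p => g • x).Finite := by
  have hx : IsIntegral ℚ x := Algebra.IsIntegral.isIntegral x
  refine ((minpoly ℚ x).rootSet_finite Qb).subset ?_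
  rintro _ ⟨g, rfl⟩
  rw [Polynomial.mem_rootSet]
  refine ⟨minpoly.ne_zero hx, ?_⟩
  show Polynomial.aeval (((g : DP P) : GQ) x) (minpoly ℚ x) = 0
  rw [Polynomial.aeval_algEquiv]
  simp [minpoly.aeval]

end Fermat.Agent.GP.Flat.OrdFrame
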