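/-
GATE-P (S56) / [P-FLAT] node S56-FLAT-ORDFRAMEINST (helper93, named by helper47 board 4403):
the `ℚ̄`-INSTANCE of the remaining binders of helper75's `SSChain` frame for the ordinary-flat
count, on helper47's shared definitions `GP/Flat/OrdFrame.lean`:

`Ω := ℚ̄`, `v := P.valuation`, `D := DP P` (the decomposition group), `G := ordG P p`
(`= I_P ∩ Fix μ_p`), `K := ordK P p` (`= ℚ̄^G = K₀(ζ_p)`, `K₀` the inertia field of `P`).

* `ordK_le_adjoin` : `ordK P p ⊆ K₀(ζ)` (infinite Galois correspondence over `K₀`);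
* `hdisc` : the value group of `K` is generated by `v (ζ - 1)` (helper26 `TameZeta`);
* `hperf` : the residue field of `K` is perfect (it is the residue field of `P`, helper26 (U2));
* `exists_sigma1`, `hσres` : an inertia element with `σ₁ ζ = ζ ^ 2`; inertia acts trivially on
  the residue field;
* `exists_frob`, `hφres` : a Frobenius element of `D_P`.
-/
import Fermat.Agent.GP.Flat.OrdFrame
import Fermat.Agent.GL.Local.TameZeta
import Fermat.Agent.GP.Loc.WildInertia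

set_option autoImplicit false

namespace Fermat.Agent.GP.Flat.OrdFrame

open Fermat.Agent.S53_helper35 Fermat.Agent.GP.Flat.OrdLocal
open Fermat.Agent.GL.Local.InertiaField IntermediateField

local notation "Qb" => AlgebraicClosure ℚ

variable (P : ValuationSubring Qb) {p : ℕ} (hp : p.Prime) (hP : (p : Qb) ∈ P.nonunits)
variable {ζ : Qb} (hζ : IsPrimitiveRoot ζ p)

/-- inertia elements lie in the decomposition group. -/
theorem mem_decomposition_of_mem_inertia {σ : GQ} (hσ : σ ∈ P.inertiaSubgroupIn ℚ) :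
    σ ∈ P.decompositionSubgroup ℚ := by
  obtain ⟨g, -, rfl⟩ := hσ
  exact g.2

/-- elements of the inertia field lie in `K`. -/
theorem mem_ordK_of_mem_inertiaField {x : Qb} (hx : x ∈ inertiaField P) : x ∈ ordK P p :=
  fun σ hσ => (mem_inertiaField_iff P x).1 hx (σ : GQ) hσ.1

include hp hζ in
/-- every `p`-th root of unity is a power of `ζ`, hence fixed by whatever fixes `ζ`. -/
theorem apply_eq_of_apply_zeta {σ : GQ} (hσ : σ ζ = ζ) {μ : Qb} (hμ : μ ^ p = 1) : σ μ = μ := by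
  have : NeZero p := ⟨hp.ne_zero⟩
  obtain ⟨i, -, rfl⟩ := hζ.eq_pow_of_pow_eq_one hμ
  rw [map_pow, hσ]

include hp hζ in
/-- `K = ℚ̄^{I'} ⊆ K₀(ζ)`. -/
theorem ordK_le_adjoin {x : Qb} (hx : x ∈ ordK P p) : x ∈ (inertiaField P)⟮ζ⟯ := by
  set E : IntermediateField (inertiaField P) Qb := (inertiaField P)⟮ζ⟯ with hE
  have hgal : IsGalois (inertiaField P) Qb := inferInstance
  have hfix : IntermediateField.fixedField E.fixingSubgroup = E :=
    InfiniteGalois.fixedField_fixingSubgroup E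
  rw [← hfix]
  rintro ⟨τ, hτ⟩
  -- `τ` restricted to `ℚ` is in `I'`
  set σ : GQ := τ.restrictScalars ℚ with hσ
  have hσI : σ ∈ P.inertiaSubgroupIn ℚ := by
    rw [← fixingSubgroup_inertiaField, IntermediateField.mem_fixingSubgroup_iff]
    intro y hy
    exact τ.commutes ⟨y, hy⟩
  have hσζ : σ ζ = ζ := by
    have := (IntermediateField.mem_fixingSubgroup_iff E τ).1 hτ ζ
      (IntermediateField.mem_adjoin_simple_self _ ζ)
    exact this
  have hσG : (⟨σ, mem_decomposition_of_mem_inertia P hσI⟩ : DP P) ∈ ordG P p :=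
    ⟨hσI, fun μ hμ => apply_eq_of_apply_zeta hp hζ hσζ hμ⟩
  exact hx _ hσG

include hp hP hζ in
/-- **`hdisc`**: the value group of `K` is generated by `v (ζ - 1)`. -/
theorem hdisc : ∀ x ∈ ordK P p, x ≠ 0 →
    ∃ n : ℤ, P.valuation x = P.valuation (ζ - 1) ^ n := by
  intro x hx hx0
  obtain ⟨n, hn⟩ := exists_valuation_eq_zpow_of_mem_adjoin_zeta P hp hP hζ
    (ordK_le_adjoin P hp hζ hx) hx0
  exact ⟨n, by rw [hn, Valuation.map_sub_swap]⟩

include hp hP in
/-- **`hperf`**: the residue field of `K` is perfect. -/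
theorem hperf : ∀ a ∈ ordK P p, P.valuation a ≤ 1 →
    ∃ b ∈ ordK P p, P.valuation b ≤ 1 ∧ P.valuation (b ^ p - a) < 1 := by
  intro a _ ha
  obtain ⟨c, hc⟩ := IsAlgClosed.exists_pow_nat_eq a hp.pos
  have hc1 : P.valuation c ≤ 1 := by
    by_contra hlt
    rw [not_le] at hlt
    have : 1 < P.valuation c ^ p := one_lt_pow₀ hlt hp.ne_zero
    rw [← map_pow, hc] at this
    exact absurd ha (not_le.mpr this)
  have hcP : c ∈ P := (P.valuation_le_one_iff c).1 hc1
  obtain ⟨b, hb⟩ := exists_baseRing_sub_mem_nonunits P hp hP c hcP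
  have hbP : ((b : inertiaField P) : Qb) ∈ P := b.2
  refine ⟨((b : inertiaField P) : Qb), mem_ordK_of_mem_inertiaField P (b : inertiaField P).2,
    (P.valuation_le_one_iff _).2 hbP, ?_⟩
  -- `b ^ p - c ^ p = (b - c) * d`
  obtain ⟨d, hd⟩ := sub_dvd_pow_sub_pow (⟨((b : inertiaField P) : Qb), hbP⟩ : P) ⟨c, hcP⟩ p
  have hd' : ((b : inertiaField P) : Qb) ^ p - c ^ p = (((b : inertiaField P) : Qb) - c) * (d : Qb) := by
    have := congrArg (fun z : P => (z : Qb)) hd
    simpa using this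
  rw [← hc, hd', map_mul]
  have h1 : P.valuation (((b : inertiaField P) : Qb) - c) < 1 := by
    rw [Valuation.map_sub_swap]
    exact P.mem_nonunits_iff.1 hb
  have h2 : P.valuation (d : Qb) ≤ 1 := (P.valuation_le_one_iff _).2 d.2
  calc P.valuation (((b : inertiaField P) : Qb) - c) * P.valuation (d : Qb)
      ≤ P.valuation (((b : inertiaField P) : Qb) - c) * 1 := by gcongr
    _ < 1 := by rwa [mul_one]

include hp hP hζ in
/-- **`exists_sigma1`**: an inertia element acting on `ζ` through `2 ≠ 0, 1` (`p` odd). -/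
theorem exists_sigma1 (hp2 : p ≠ 2) :
    ∃ σ₁ : DP P, (σ₁ : GQ) ∈ P.inertiaSubgroupIn ℚ ∧
      ∃ c : ℕ, σ₁ • ζ = ζ ^ c ∧ (c : ZMod p) ≠ 0 ∧ (c : ZMod p) ≠ 1 := by
  have h2 : ¬ p ∣ 2 := by
    intro h
    exact hp2 ((Nat.prime_dvd_prime_iff_eq hp Nat.prime_two).1 h)
  obtain ⟨σ, hσ, hσζ⟩ := exists_mem_inertia_apply_zeta P hp hP hζ h2
  have : Fact p.Prime := ⟨hp⟩
  refine ⟨⟨σ, mem_decomposition_of_mem_inertia P hσ⟩, hσ, 2, hσζ, ?_, ?_⟩
  · rw [Ne, ZMod.natCast_eq_zero_iff]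
    exact h2
  · intro h
    have h1 : ((2 : ℕ) : ZMod p) - ((1 : ℕ) : ZMod p) = 0 := by rw [h]; simp
    have h3 : ((1 : ℕ) : ZMod p) = 0 := by
      have : ((2 : ℕ) : ZMod p) - ((1 : ℕ) : ZMod p) = ((1 : ℕ) : ZMod p) := by push_cast; ring
      rw [← this]; exact h1
    rw [ZMod.natCast_eq_zero_iff] at h3
    exact hp.one_lt.ne' (Nat.dvd_one.1 h3)

/-- **`hσres`**: inertia acts trivially on the residue field. -/
theorem hσres (σ : DP P) (hσ : (σ : GQ) ∈ P.inertiaSubgroupIn ℚ) :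
    ∀ a : Qb, P.valuation a ≤ 1 → P.valuation (σ • a - a) < 1 := by
  intro a ha
  have haP : a ∈ P := (P.valuation_le_one_iff a).1 ha
  exact P.mem_nonunits_iff.1 (((mem_inertiaSubgroupIn_iff_forall P (σ : GQ)).1 hσ).2 a haP)

/-- **`hφres`** for a Frobenius element. -/
theorem hφres (φ : DP P) (hφ : P.IsFrobeniusAt (φ : GQ) p) :
    ∀ a : Qb, P.valuation a ≤ 1 → P.valuation (φ • a - a ^ p) < 1 := by
  intro a ha
  have haP : a ∈ P := (P.valuation_le_one_iff a).1 ha
  exact P.mem_nonunits_iff.1 (Fermat.Agent.GP.Loc.WildInertia.frobenius_sub_pow_mem (A := P) hφ haP)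

include hp hP hζ in
/-- **`exists_frob`**: a Frobenius element of `D_P`, with its action on `ζ` and on the residue
field. -/
theorem exists_frob :
    ∃ φ : DP P, P.IsFrobeniusAt (φ : GQ) p ∧ (∃ cφ : ℕ, φ • ζ = ζ ^ cφ) ∧
      ∀ a : Qb, P.valuation a ≤ 1 → P.valuation (φ • a - a ^ p) < 1 := by
  obtain ⟨φ, hφ⟩ := Fermat.Agent.Common_helper32.exists_isFrobeniusAt_of_liesOver P p hp hP
  have hp0 : p ≠ 0 := hp.ne_zero
  have : NeZero p := ⟨hp0⟩
  have h1 : (φ ζ) ^ p = 1 := by rw [← map_pow, hζ.pow_eq_one, map_one]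
  obtain ⟨i, -, hi⟩ := hζ.eq_pow_of_pow_eq_one h1
  exact ⟨⟨φ, hφ.mem_decompositionSubgroup⟩, hφ, ⟨i, hi.symm⟩,
    hφres P ⟨φ, hφ.mem_decompositionSubgroup⟩ hφ⟩

include hp hP hζ in
/-- `hlam`: `ζ - 1` lies in the maximal ideal. -/
theorem hlam : P.valuation (ζ - 1) < 1 := by
  rw [Valuation.map_sub_swap]
  exact P.mem_nonunits_iff.1 (one_sub_zeta_mem_nonunits P hp hP hζ)

include hP in
/-- `hvp`: `v p < 1`. -/
theorem hvp : P.valuation (p : Qb) < 1 := P.mem_nonunits_iff.1 hP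

include hp hζ in
/-- `ζ - 1 ≠ 0`. -/
theorem zeta_sub_one_ne_zero : ζ - 1 ≠ 0 := by
  have := one_sub_zeta_ne_zero hp hζ
  intro h
  apply this
  rw [← neg_sub, h, neg_zero]

end Fermat.Agent.GP.Flat.OrdFrame
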