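/-
GATE-P (S56) / [P-FLAT] node S56-FLAT-ORDCOUNT, part (C') (helper47).

`OrdLocal.lean` with the peu ramifié condition on the `N`-part replaced by membership in an
ARBITRARY `k`-subspace `W` of functions on `D_P` (the frozen decomposition group of `P | p`).

* `ZBg P r g W` : pairs `(a, f)` on `D_P` with `bval g (a, f)` a 1-cocycle for `ad r`, of finite
  level, `a = 0` on `I_P`, `f ∈ W`.
* `finrank_map_fst_ZBg_le_one` (**hdiag**).
* `card_Lmax_le` : `#π(bval g ZBg) ≤ #(ad⁰)^{D_P} · #k` given `hN` (the `N`-valued members embed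
  into `k²`) and `hcobW` (`N`-valued coboundaries of trace-zero matrices have `N`-part in `W`).
* `exists_mem_ZBg_of_ordinary` : the tangent cocycle of an ORDINARY lift `t` (frozen
  `IsOrdinaryAt`) is `bval g x + cob X` on `D_P` with `x ∈ ZBg`, provided (`hW`) every `N`-part
  of a finite-level Borel cocycle vanishing where `t = 1` lies in `W`.
-/
import Fermat.Agent.GP.Flat.OrdLocal

set_option autoImplicit false

namespace Fermat.Agent.GP.Flat.OrdLocalGen

open Matrix Module Fermat.Agent.S53_helper35 Fermat.Agent.GP.Tan.Cocycle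
  Fermat.Agent.GP.Loc.StrictOrdDim Fermat.Agent.GP.Flat.OrdCount Fermat.Agent.GP.Flat.OrdCocycle
  Fermat.Agent.GP.Flat.OrdLocal

local notation "Qb" => AlgebraicClosure ℚ

section ZBg

variable {k : Type} [Field k] (P : ValuationSubring Qb)
  (r : GQ →* Matrix (Fin 2) (Fin 2) k) (g : GL (Fin 2) k) (W : Submodule k (DP P → k))

/-- The space of pairs `(a, f)` on `D_P`: Borel-valued cocycles of finite level, unramified
diagonal part, peu ramifié `N`-part. -/
def ZBg : Submodule k ((DP P → k) × (DP P → k)) where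
  carrier := {x |
    (∀ σ τ : DP P, bval g x (σ * τ) =
      bval g x σ + rD P r σ * bval g x τ * rD P r σ⁻¹) ∧
    IsFinLevel P x.1 ∧ IsFinLevel P x.2 ∧
    (∀ σ : DP P, (σ : GQ) ∈ P.inertiaSubgroupIn ℚ → x.1 σ = 0) ∧
    x.2 ∈ W}
  add_mem' := by
    rintro x y ⟨h1, h2, h3, h4, h5⟩ ⟨h1', h2', h3', h4', h5'⟩
    refine ⟨fun σ τ => ?_, h2.add P h2', h3.add P h3', fun σ hσ => ?_, W.add_mem h5 h5'⟩
    · rw [map_add, Pi.add_apply, Pi.add_apply, Pi.add_apply, h1, h1', Matrix.mul_add,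
        Matrix.add_mul]
      abel
    · rw [Prod.fst_add, Pi.add_apply, h4 σ hσ, h4' σ hσ, add_zero]
  zero_mem' := by
    refine ⟨fun σ τ => ?_, isFinLevel_zero P, isFinLevel_zero P, fun _ _ => rfl, W.zero_mem⟩
    rw [map_zero, Pi.zero_apply, Pi.zero_apply, Pi.zero_apply, Matrix.mul_zero, Matrix.zero_mul,
      add_zero]
  smul_mem' := by
    rintro c x ⟨h1, h2, h3, h4, h5⟩
    refine ⟨fun σ τ => ?_, h2.smul P c, h3.smul P c, fun σ hσ => ?_, W.smul_mem c h5⟩
    · rw [map_smul, Pi.smul_apply, Pi.smul_apply, Pi.smul_apply, h1, Matrix.mul_smul,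
        Matrix.smul_mul, smul_add]
    · rw [Prod.smul_fst, Pi.smul_apply, h4 σ hσ, smul_zero]

theorem mem_ZBg_iff (x : (DP P → k) × (DP P → k)) : x ∈ ZBg P r g W ↔
    (∀ σ τ : DP P, bval g x (σ * τ) =
      bval g x σ + rD P r σ * bval g x τ * rD P r σ⁻¹) ∧
    IsFinLevel P x.1 ∧ IsFinLevel P x.2 ∧
    (∀ σ : DP P, (σ : GQ) ∈ P.inertiaSubgroupIn ℚ → x.1 σ = 0) ∧
    x.2 ∈ W := Iff.rfl

/-- the diagonal part of a member of `ZB` is additive. -/
theorem fst_mul_of_mem_ZBg (hut : ∀ σ : DP P, conjBy g (rD P r) σ 1 0 = 0)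
    {x : (DP P → k) × (DP P → k)} (hx : x ∈ ZBg P r g W) (σ τ : DP P) :
    x.1 (σ * τ) = x.1 σ + x.1 τ := by
  have h := hx.1 σ τ
  rw [bval_apply, bval_apply, bval_apply, conj_bor g (rD P r) hut, ← map_add] at h
  have := bor_injective g h
  exact congrArg Prod.fst this

theorem fst_one_of_mem_ZBg (hut : ∀ σ : DP P, conjBy g (rD P r) σ 1 0 = 0)
    {x : (DP P → k) × (DP P → k)} (hx : x ∈ ZBg P r g W) : x.1 1 = 0 := by
  have h := fst_mul_of_mem_ZBg P r g W hut hx 1 1
  rw [mul_one] at h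
  exact left_eq_add.mp h

theorem fst_pow_of_mem_ZBg (hut : ∀ σ : DP P, conjBy g (rD P r) σ 1 0 = 0)
    {x : (DP P → k) × (DP P → k)} (hx : x ∈ ZBg P r g W) (σ : DP P) (n : ℕ) :
    x.1 (σ ^ n) = n • x.1 σ := by
  induction n with
  | zero => rw [pow_zero, zero_smul]; exact fst_one_of_mem_ZBg P r g W hut hx
  | succ n ih => rw [pow_succ, fst_mul_of_mem_ZBg P r g W hut hx, ih, succ_nsmul]

/-- finite level: the diagonal part vanishes on elements fixing the level. -/
theorem fst_eq_zero_of_fixes (hut : ∀ σ : DP P, conjBy g (rD P r) σ 1 0 = 0)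
    {x : (DP P → k) × (DP P → k)} (hx : x ∈ ZBg P r g W) {L : IntermediateField ℚ Qb}
    (hL : ∀ σ s : DP P, (∀ y ∈ L, (s : GQ) y = y) → x.1 (σ * s) = x.1 σ) (s : DP P)
    (hs : ∀ y ∈ L, (s : GQ) y = y) : x.1 s = 0 := by
  have h := hL 1 s hs
  rw [one_mul, fst_one_of_mem_ZBg P r g W hut hx] at h
  exact h

/-- **hdiag, pointwise form**: a diagonal part vanishing at a Frobenius element vanishes. -/
theorem fst_eq_zero_of_frob {q : ℕ} (hq : q.Prime) (hA : (q : Qb) ∈ P.nonunits) {φ : GQ}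
    (hφ : P.IsFrobeniusAt φ q) (hut : ∀ σ : DP P, conjBy g (rD P r) σ 1 0 = 0)
    {x : (DP P → k) × (DP P → k)} (hx : x ∈ ZBg P r g W)
    (h0 : x.1 ⟨φ, hφ.mem_decompositionSubgroup⟩ = 0) : x.1 = 0 := by
  funext σ
  obtain ⟨L, hLfd, hL⟩ := hx.2.1
  obtain ⟨H, hn, hopen, hH⟩ := exists_open_normal_le L
  obtain ⟨n, τ, hτ, h, hh, hσ⟩ :=
    Fermat.Agent.GP.Loc.FrobGen.exists_eq_pow_mul_mul P hq hA hφ H hn hopen σ.2
  have hτD : τ ∈ P.decompositionSubgroup ℚ := mem_decomposition_of_mem_inertia hτ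
  have hφD := hφ.mem_decompositionSubgroup
  have hhD : h ∈ P.decompositionSubgroup ℚ := by
    have : h = (φ ^ n * τ)⁻¹ * (σ : GQ) := by rw [hσ, inv_mul_cancel_left]
    rw [this]
    exact mul_mem (inv_mem (mul_mem (pow_mem hφD n) hτD)) σ.2
  have hσ' : σ = (⟨φ, hφD⟩ : DP P) ^ n * ⟨τ, hτD⟩ * ⟨h, hhD⟩ := by
    apply Subtype.ext
    rw [hσ]
    rfl
  rw [hσ', fst_mul_of_mem_ZBg P r g W hut hx, fst_mul_of_mem_ZBg P r g W hut hx,
    fst_pow_of_mem_ZBg P r g W hut hx, h0, smul_zero, zero_add, hx.2.2.2.1 ⟨τ, hτD⟩ hτ, zero_add,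
    Pi.zero_apply]
  exact fst_eq_zero_of_fixes P r g W hut hx hL ⟨h, hhD⟩ (fun y hy => hH h hh y hy)

/-- **hdiag**: the diagonal parts of `ZB` span at most a line. -/
theorem finrank_map_fst_ZBg_le_one {q : ℕ} (hq : q.Prime) (hA : (q : Qb) ∈ P.nonunits)
    (hut : ∀ σ : DP P, conjBy g (rD P r) σ 1 0 = 0) :
    Module.Finite k ((ZBg P r g W).map (LinearMap.fst k (DP P → k) (DP P → k))) ∧
    finrank k ((ZBg P r g W).map (LinearMap.fst k (DP P → k) (DP P → k))) ≤ 1 := by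
  obtain ⟨φ, hφ⟩ := Fermat.Agent.Common_helper32.exists_isFrobeniusAt_of_liesOver P q hq hA
  let ev : ((ZBg P r g W).map (LinearMap.fst k (DP P → k) (DP P → k))) →ₗ[k] k :=
    (LinearMap.proj (⟨φ, hφ.mem_decompositionSubgroup⟩ : DP P)) ∘ₗ (Submodule.subtype _)
  have hev : Function.Injective ev := by
    rw [← LinearMap.ker_eq_bot, LinearMap.ker_eq_bot']
    rintro ⟨a, ha⟩ h0
    obtain ⟨x, hx, rfl⟩ := ha
    apply Subtype.ext
    exact fst_eq_zero_of_frob P r g W hq hA hφ hut hx h0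
  have hfin : Module.Finite k ((ZBg P r g W).map (LinearMap.fst k (DP P → k) (DP P → k))) :=
    Module.Finite.of_injective ev hev
  refine ⟨hfin, ?_⟩
  have := LinearMap.finrank_le_finrank_of_injective hev
  rwa [Module.finrank_self] at this

/-! ### coboundaries are members of `ZB` -/

/-- `N`-valued coboundaries of trace-zero matrices lie in `ZB` (when `r` has finite level and is
the `N`-part lies in `W`). -/
theorem zero_mk_mem_ZBg_of_cob
    (hrL : ∃ L : IntermediateField ℚ Qb, FiniteDimensional ℚ L ∧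
      ∀ s : GQ, (∀ y ∈ L, s y = y) → r s = 1)
    (f : DP P → k) (hfW : f ∈ W) (X : Matrix (Fin 2) (Fin 2) k)
    (hf : nval g f = cob (rD P r) X) :
    ((0 : DP P → k), f) ∈ ZBg P r g W := by
  have hrinv : ∀ s : GQ, r s = 1 → r s⁻¹ = 1 := by
    intro s hs
    have := map_mul r s⁻¹ s
    rw [inv_mul_cancel, map_one, hs, mul_one] at this
    exact this.symm
  have hfσ : ∀ σ : DP P, bor g ((0 : k), f σ) = cob (rD P r) X σ := by
    intro σ
    have h1 := congrFun hf σ
    have h2 := congrFun (bval_zero_left g f) σ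
    rw [bval_apply] at h2
    rw [← h1, ← h2]
    rfl
  refine ⟨fun σ τ => ?_, isFinLevel_zero P, ?_, fun _ _ => rfl, hfW⟩
  · rw [bval_zero_left, hf, cob_mul]
  · obtain ⟨L, hL, hr1⟩ := hrL
    refine ⟨L, hL, fun σ s hs => ?_⟩
    have h1 : r (s : GQ) = 1 := hr1 _ hs
    have h2 := hfσ (σ * s)
    have h3 := hfσ σ
    have hs1 : rD P r s = 1 := h1
    have hs2 : rD P r s⁻¹ = 1 := hrinv _ h1
    have h4 : cob (rD P r) X (σ * s) = cob (rD P r) X σ := by
      rw [cob_mul, cob_apply (rD P r) X s, hs1, hs2, Matrix.one_mul, Matrix.mul_one, sub_self,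
        Matrix.mul_zero, Matrix.zero_mul, add_zero]
    rw [h4, ← h3] at h2
    have := bor_injective g h2
    exact congrArg Prod.snd this

/-! ### the count -/

/-- **`#L_p^{ord} ≤ #H⁰(D_P, ad⁰) · #k`** for the ordinary-flat local condition, given the single
remaining input `hN` (the `N`-valued members of `ZB` embed into `k²`: one coboundary direction and
one peu ramifié class). -/
theorem card_Lmax_le [Finite k] {q : ℕ} (hq : q.Prime) (hA : (q : Qb) ∈ P.nonunits)
    (hut : ∀ σ : DP P, conjBy g (rD P r) σ 1 0 = 0)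
    (hrL : ∃ L : IntermediateField ℚ Qb, FiniteDimensional ℚ L ∧
      ∀ s : GQ, (∀ y ∈ L, s y = y) → r s = 1)
    (hcobW : ∀ (f : DP P → k) (X : Matrix (Fin 2) (Fin 2) k), X.trace = 0 →
      nval g f = cob (rD P r) X → f ∈ W)
    (hN : ∃ ℓ : ↥(ZBg P r g W ⊓ LinearMap.ker (LinearMap.fst k (DP P → k) (DP P → k))) →ₗ[k]
      (Fin 2 → k), Function.Injective ℓ)
    {H : Type*} [AddCommGroup H] [Module k H]
    (π : (DP P → Matrix (Fin 2) (Fin 2) k) →ₗ[k] H)
    (hπ : ∀ X : Matrix (Fin 2) (Fin 2) k, X.trace = 0 → π (cob (rD P r) X) = 0) :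
    Nat.card (((ZBg P r g W).map (bval g)).map π) ≤ Nat.card (inv0 (rD P r)) * Nat.card k := by
  obtain ⟨ℓ, hℓ⟩ := hN
  obtain ⟨hfin1, hdiag⟩ := finrank_map_fst_ZBg_le_one P r g W hq hA hut
  have hfinN : Module.Finite k
      ↥(ZBg P r g W ⊓ LinearMap.ker (LinearMap.fst k (DP P → k) (DP P → k))) :=
    Module.Finite.of_injective ℓ hℓ
  have hNle : finrank k
      ↥(ZBg P r g W ⊓ LinearMap.ker (LinearMap.fst k (DP P → k) (DP P → k))) ≤ 2 := by
    have := LinearMap.finrank_le_finrank_of_injective hℓ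
    simpa using this
  -- finite-dimensionality of `ZB`
  have hfinZB : Module.Finite k (ZBg P r g W) := by
    set F : ZBg P r g W →ₗ[k] (DP P → k) :=
      (LinearMap.fst k (DP P → k) (DP P → k)) ∘ₗ (ZBg P r g W).subtype with hF
    have hr : LinearMap.range F = (ZBg P r g W).map (LinearMap.fst k (DP P → k) (DP P → k)) := by
      rw [hF, LinearMap.range_comp, Submodule.range_subtype]
    have hin : ∀ x : LinearMap.ker F, ((x : ZBg P r g W) : (DP P → k) × (DP P → k)) ∈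
        ZBg P r g W ⊓ LinearMap.ker (LinearMap.fst k (DP P → k) (DP P → k)) := by
      rintro ⟨⟨x, hx⟩, hx'⟩
      exact ⟨hx, LinearMap.mem_ker.1 hx'⟩
    let ι : LinearMap.ker F →ₗ[k]
        ↥(ZBg P r g W ⊓ LinearMap.ker (LinearMap.fst k (DP P → k) (DP P → k))) :=
      ((ZBg P r g W).subtype ∘ₗ (LinearMap.ker F).subtype).codRestrict _ hin
    have hι : Function.Injective ι := by
      intro x y hxy
      have h := congrArg Subtype.val hxy
      have h' : ((x : ZBg P r g W) : (DP P → k) × (DP P → k)) =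
          ((y : ZBg P r g W) : (DP P → k) × (DP P → k)) := h
      exact Subtype.ext (Subtype.ext h')
    have hk : Module.Finite k (LinearMap.ker F) := Module.Finite.of_injective ι hι
    have hq' : Module.Finite k (ZBg P r g W ⧸ LinearMap.ker F) := by
      have e := F.quotKerEquivRange
      have : Module.Finite k (LinearMap.range F) := by rw [hr]; exact hfin1
      exact Module.Finite.equiv e.symm
    exact Module.Finite.of_submodule_quotient (LinearMap.ker F)
  exact card_map_bval_le (rD P r) g hut (ZBg P r g W) hdiag hNle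
    (fun f ⟨X, hX, hf⟩ => zero_mk_mem_ZBg_of_cob P r g W hrL f (hcobW f X hX hf) X hf) π hπ

/-! ### ordinary lifts land in `ZB` -/

omit r in
/-- **The tangent cocycle of an ordinary lift is in the ordinary-flat local condition.**
`t` a continuous lift to `k[ε]` with (frozen) `IsOrdinaryAt p`, trace-zero tangent cocycle; `g` any
matrix whose first column lies in `(I_P - 1) V̄`; `hW` says that `W` contains the `N`-parts of all
finite-level Borel cocycles vanishing where `t = 1`.  Then on `D_P` the tangent cocycle is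
`bval g x + cob r̄ X` with `x ∈ ZBg P r̄ g W` and `X` trace-free. -/
theorem exists_mem_ZBg_of_ordinary (p : ℕ) (h2 : (2 : k) ≠ 0)
    (t : GQ →* Matrix (Fin 2) (Fin 2) (DualNumber k)) (ht : MatCont t)
    (hord : (ofMat t ht).IsOrdinaryAt p)
    (htr : ∀ σ, Matrix.trace (tanCocycle t σ) = 0)
    (hP : P.LiesOverPrime p)
    (hg : ∃ σ₀ ∈ P.inertiaSubgroupIn ℚ, ∃ w₀ : Fin 2 → k,
      (rfst t σ₀).mulVec w₀ - w₀ = gcol g 0)
    (hW : ∀ x : (DP P → k) × (DP P → k),
      (∀ σ τ : DP P, bval g x (σ * τ) =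
        bval g x σ + rD P (rfst t) σ * bval g x τ * rD P (rfst t) σ⁻¹) →
      IsFinLevel P x.1 → IsFinLevel P x.2 →
      (∀ σ : DP P, (σ : GQ) ∈ P.inertiaSubgroupIn ℚ → x.1 σ = 0) →
      (∀ τ : DP P, t (τ : GQ) = 1 → x.2 τ = 0) → x.2 ∈ W) :
    (∀ σ : DP P, conjBy g (rD P (rfst t)) σ 1 0 = 0) ∧
    (∀ σ : DP P, (σ : GQ) ∈ P.inertiaSubgroupIn ℚ → conjBy g (rD P (rfst t)) σ 1 1 = 1) ∧
    ∃ (X : Matrix (Fin 2) (Fin 2) k) (x : (DP P → k) × (DP P → k)), X.trace = 0 ∧
      x ∈ ZBg P (rfst t) g W ∧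
      ∀ σ : DP P, tanCocycle t (σ : GQ) = bval g x σ + cob (rD P (rfst t)) X σ := by
  obtain ⟨X, a, f, hX, hD, hI, hshape, haI, h1⟩ :=
    exists_ord_cocycle_trace_zero h2 t ht hord htr P hP g hg
  refine ⟨fun σ => hD σ σ.2, fun σ hσ => hI σ hσ, X,
    (fun σ => a (σ : GQ), fun σ => f (σ : GQ)), hX, ?_, fun σ => hshape σ σ.2⟩
  -- the corrected cocycle on `D_P`
  have hc : ∀ σ : DP P, bor g (a (σ : GQ), f (σ : GQ)) =
      tanCocycle t (σ : GQ) - cob (rD P (rfst t)) X σ := by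
    intro σ
    have := hshape σ σ.2
    rw [this]
    show _ = _ + cob (rfst t) X (σ : GQ) - cob (rfst t) X (σ : GQ)
    rw [add_sub_cancel_right]
  obtain ⟨L, hL, hL1⟩ := exists_eq_one_of_matCont t ht
  have htinv : ∀ s : GQ, t s = 1 → t s⁻¹ = 1 := by
    intro s hs
    have := map_mul t s⁻¹ s
    rw [inv_mul_cancel, map_one, hs, mul_one] at this
    exact this.symm
  -- level-constancy of the corrected cocycle
  have hlev : ∀ σ s : DP P, (∀ y ∈ L, (s : GQ) y = y) →
      bor g (a ((σ * s : DP P) : GQ), f ((σ * s : DP P) : GQ)) =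
        bor g (a (σ : GQ), f (σ : GQ)) := by
    intro σ s hs
    have hs1 : t (s : GQ) = 1 := hL1 _ hs
    have hs2 : t ((s : GQ)⁻¹) = 1 := htinv _ hs1
    rw [hc, hc]
    have e1 : tanCocycle t ((σ * s : DP P) : GQ) = tanCocycle t (σ : GQ) := by
      show tanCocycle t ((σ : GQ) * (s : GQ)) = _
      rw [tanCocycle_mul, tanCocycle_eq_zero_of_eq_one t hs1, Matrix.mul_zero, Matrix.zero_mul,
        add_zero]
    have e2 : cob (rD P (rfst t)) X (σ * s) = cob (rD P (rfst t)) X σ := by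
      rw [cob_mul, cob_apply (rD P (rfst t)) X s]
      have k1 : rD P (rfst t) s = 1 := by
        show mfst (t (s : GQ)) = 1
        rw [hs1, mfst_one]
      have k2 : rD P (rfst t) s⁻¹ = 1 := by
        show mfst (t ((s : GQ)⁻¹)) = 1
        rw [hs2, mfst_one]
      rw [k1, k2, Matrix.one_mul, Matrix.mul_one, sub_self, Matrix.mul_zero, Matrix.zero_mul,
        add_zero]
    rw [e1, e2]
  have hcoc : ∀ σ τ : DP P,
      bval g ((fun σ : DP P => a (σ : GQ)), (fun σ : DP P => f (σ : GQ))) (σ * τ) =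
      bval g ((fun σ : DP P => a (σ : GQ)), (fun σ : DP P => f (σ : GQ))) σ +
        rD P (rfst t) σ *
          bval g ((fun σ : DP P => a (σ : GQ)), (fun σ : DP P => f (σ : GQ))) τ *
          rD P (rfst t) σ⁻¹ := by
    intro σ τ
    -- cocycle identity
    rw [bval_apply, bval_apply, bval_apply]
    show bor g (a ((σ * τ : DP P) : GQ), f ((σ * τ : DP P) : GQ)) =
      bor g (a (σ : GQ), f (σ : GQ)) +
        rD P (rfst t) σ * bor g (a (τ : GQ), f (τ : GQ)) * rD P (rfst t) σ⁻¹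
    rw [hc, hc, hc, cob_mul]
    have e1 : tanCocycle t ((σ * τ : DP P) : GQ) = tanCocycle t (σ : GQ) +
        rD P (rfst t) σ * tanCocycle t (τ : GQ) * rD P (rfst t) σ⁻¹ := by
      show tanCocycle t ((σ : GQ) * (τ : GQ)) = _
      rw [tanCocycle_mul]
      rfl
    rw [e1, Matrix.mul_sub, Matrix.sub_mul]
    abel
  have hl1 : IsFinLevel P (fun σ : DP P => a (σ : GQ)) :=
    ⟨L, hL, fun σ s hs => congrArg Prod.fst (bor_injective g (hlev σ s hs))⟩
  have hl2 : IsFinLevel P (fun σ : DP P => f (σ : GQ)) :=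
    ⟨L, hL, fun σ s hs => congrArg Prod.snd (bor_injective g (hlev σ s hs))⟩
  exact ⟨hcoc, hl1, hl2, fun σ hσ => haI σ hσ,
    hW _ hcoc hl1 hl2 (fun σ hσ => haI σ hσ) (fun τ hτ => (h1 _ hτ).2)⟩


end ZBg

end Fermat.Agent.GP.Flat.OrdLocalGen
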