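/-
GATE-P / S56 [P-FLAT] S56-FLAT-SS-KUMMER (helper75): the KUMMER SIDE of the local flat count, in
abstract group-action form (plugs into the "henselian inside `Qb`" framework with `G := G_K ≤ D_A`
acting on `Ω := Qb`; no closedness of `G`, no `IntermediateField`).

* `zpw ζ c := ζ ^ c.val` for `c : ZMod p`, `zpw_add`, `zpw_zero`, `zpw_ne_zero`.
* **`kummer_exists`** (Hilbert 90 for `μ_p`, Poincaré series): `G` acts on the field `Ω` with finite
  orbits, `ζ ^ p = 1` fixed by `G`, `χ : G → ZMod p` additive and of finite level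
  (`χ g = 0` as soon as `g` fixes a finite set `s` pointwise) ⟹ `∃ y ≠ 0, ∀ g, g • y = ζ^(χ g) * y`.
* `kummer_pow_fixed` : then `y ^ p` is `G`-fixed (lies in `K = Ω^G`).
* `kummer_unique` : two generators for the same `χ` differ by a `G`-fixed factor.
* `kummer_mul`, `kummer_inv` : generators multiply (`χ + χ'`) and invert (`-χ`).
* `kummer_injective` : `ζ` primitive, `y ^ p = w ^ p` with `w` fixed ⟹ `χ = 0`.
* `kummer_conj` : `G ≤ D`, `δ ∈ D`, `δ • ζ = ζ ^ c` ⟹ `δ • y` is a generator for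
  `g ↦ c * χ (δ⁻¹ g δ)`.
* **`hensel_pth_root`** : `G` acts by isometries of `v`, fixes `u`, `u` has a `p`-th root in
  `Ω`, `v (u - 1) < v (ζ - 1) ^ p` ⟹ `u` has a `G`-FIXED `p`-th root `y` with `v (y - 1) < v (ζ - 1)`
  (units of level `> e'` are `p`-th powers in `K = Ω^G`: hypothesis `hhens` of
  `GP/Ram/UnitFiltTop.isPow_iff_top`).
* `hperf_of_periodic` : hypothesis `hperf` of `GP/Ram/UnitFilt.level_raise` from Frobenius
  periodicity of the residue classes.
-/
import Fermat.Agent.GP.Ram.KummerBreak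

set_option autoImplicit false

namespace Fermat.Agent.GP.Flat.SSKummer

open Finset

variable {Ω : Type*} [Field Ω] {p : ℕ} [hp : Fact p.Prime]

/-- `ζ ^ c` for `c : ZMod p`. -/
def zpw (ζ : Ω) (c : ZMod p) : Ω := ζ ^ c.val

theorem zpw_zero (ζ : Ω) : zpw ζ (0 : ZMod p) = 1 := by
  simp [zpw]

theorem zpw_add {ζ : Ω} (hζ : ζ ^ p = 1) (a b : ZMod p) : zpw ζ (a + b) = zpw ζ a * zpw ζ b := by
  unfold zpw
  rw [ZMod.val_add, ← pow_add, ← pow_eq_pow_mod _ hζ]

theorem zpw_ne_zero {ζ : Ω} (hζ : ζ ^ p = 1) (a : ZMod p) : zpw ζ a ≠ 0 := by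
  have hζ0 : ζ ≠ 0 := by
    intro h0
    rw [h0, zero_pow hp.out.ne_zero] at hζ
    exact zero_ne_one hζ
  exact pow_ne_zero _ hζ0

omit hp in
theorem zpw_pow {ζ : Ω} (hζ : ζ ^ p = 1) (a : ZMod p) : zpw ζ a ^ p = 1 := by
  unfold zpw
  rw [← pow_mul, mul_comm, pow_mul, hζ, one_pow]

theorem zpw_neg_mul {ζ : Ω} (hζ : ζ ^ p = 1) (a : ZMod p) : zpw ζ (-a) * zpw ζ a = 1 := by
  rw [← zpw_add hζ, neg_add_cancel, zpw_zero]

section Action

variable {G : Type*} [Group G] [MulSemiringAction G Ω] {ζ : Ω}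

omit hp in
theorem smul_zpw (hζG : ∀ g : G, g • ζ = ζ) (g : G) (a : ZMod p) : g • zpw ζ a = zpw ζ a := by
  unfold zpw
  rw [smul_pow', hζG]

/-- additive maps kill `1` and commute with inverses. -/
theorem chi_one {χ : G → ZMod p} (hχ : ∀ g g', χ (g * g') = χ g + χ g') : χ 1 = 0 := by
  have := hχ 1 1
  rw [mul_one] at this
  exact left_eq_add.mp this

theorem chi_inv {χ : G → ZMod p} (hχ : ∀ g g', χ (g * g') = χ g + χ g') (g : G) :
    χ g⁻¹ = -χ g := by
  have := hχ g⁻¹ g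
  rw [inv_mul_cancel, chi_one hχ] at this
  exact eq_neg_of_add_eq_zero_left this.symm

/-- **Hilbert 90 for `μ_p`** (Kummer generators), for a group acting with finite orbits and a
character of finite level. -/
theorem kummer_exists (hζ : ζ ^ p = 1) (hζG : ∀ g : G, g • ζ = ζ)
    (horb : ∀ x : Ω, (Set.range fun g : G => g • x).Finite)
    (χ : G → ZMod p) (hχ : ∀ g g', χ (g * g') = χ g + χ g')
    (hlev : ∃ s : Finset Ω, ∀ g : G, (∀ x ∈ s, g • x = x) → χ g = 0) :
    ∃ y : Ω, y ≠ 0 ∧ ∀ g : G, g • y = zpw ζ (χ g) * y := by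
  classical
  obtain ⟨s, hs⟩ := hlev
  -- a finite `G`-stable set containing `s`
  set S : Set Ω := ⋃ x ∈ s, Set.range (fun g : G => g • x) with hS
  have hSfin : S.Finite := Set.Finite.biUnion s.finite_toSet (fun x _ => horb x)
  have hsS : ∀ x ∈ s, x ∈ S := fun x hx =>
    Set.mem_biUnion (Finset.mem_coe.mpr hx) ⟨1, one_smul G x⟩
  have hstab : ∀ (g : G) (x : Ω), x ∈ S → g • x ∈ S := by
    intro g x hx
    rw [hS, Set.mem_iUnion₂] at hx ⊢
    obtain ⟨x₀, hx₀, g', rfl⟩ := hx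
    exact ⟨x₀, hx₀, g * g', mul_smul g g' x₀⟩
  have : Finite S := hSfin.to_subtype
  -- restrictions to `S`
  let F : G → (S → S) := fun g x => ⟨g • x.1, hstab g x.1 x.2⟩
  have hFmul : ∀ g g', F (g * g') = F g ∘ F g' := by
    intro g g'; funext x; apply Subtype.ext
    simp only [F, Function.comp_apply, mul_smul]
  have hχF : ∀ g g', F g = F g' → χ g = χ g' := by
    intro g g' h
    have hfix : ∀ x ∈ s, (g⁻¹ * g') • x = x := by
      intro x hx
      have h1 := congrFun h ⟨x, hsS x hx⟩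
      have h' : g • x = g' • x := congrArg Subtype.val h1
      rw [mul_smul, ← h', inv_smul_smul]
    have h0 := hs _ hfix
    rw [hχ, chi_inv hχ] at h0
    exact (neg_add_eq_zero.mp h0)
  -- the monoid generated by `S` and the restricted homs
  let M : Submonoid Ω := Submonoid.closure S
  let r : G → (M →* Ω) := fun g =>
    ((MulSemiringAction.toRingHom G Ω g : Ω →+* Ω) : Ω →* Ω).comp M.subtype
  have hr_apply : ∀ g (m : M), r g m = g • (m : Ω) := fun g m => rfl
  have hrF : ∀ g g', F g = F g' → r g = r g' := by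
    intro g g' h
    have hEq : Set.EqOn ((MulSemiringAction.toRingHom G Ω g : Ω →+* Ω) : Ω →* Ω)
        ((MulSemiringAction.toRingHom G Ω g' : Ω →+* Ω) : Ω →* Ω)
        (Submonoid.closure S : Submonoid Ω) :=
      MonoidHom.eqOn_closureM (fun x hx => congrArg Subtype.val (congrFun h ⟨x, hx⟩))
    ext m
    exact hEq m.2
  have hFr : ∀ g g', r g = r g' → F g = F g' := by
    intro g g' h; funext x; apply Subtype.ext
    exact DFunLike.congr_fun h ⟨x.1, Submonoid.subset_closure x.2⟩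
  -- the finite index set
  let Q := Set.range F
  have : Finite Q := Subtype.finite
  let _ : Fintype Q := Fintype.ofFinite Q
  let rep : Q → G := fun q => Classical.choose q.2
  have hrep : ∀ q : Q, F (rep q) = q.1 := fun q => Classical.choose_spec q.2
  have hinj : Function.Injective (fun q : Q => r (rep q)) := by
    intro q q' h
    apply Subtype.ext
    rw [← hrep q, ← hrep q']
    exact hFr _ _ h
  have hli : LinearIndependent Ω (fun q : Q => (r (rep q) : M → Ω)) :=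
    (linearIndependent_monoidHom M Ω).comp _ hinj
  let a : Q → Ω := fun q => zpw ζ (-χ (rep q))
  have ha : ∀ q, a q ≠ 0 := fun q => zpw_ne_zero hζ _
  have hne : ∃ m : M, ∑ q : Q, a q * r (rep q) m ≠ 0 := by
    by_contra hcon
    push Not at hcon
    have h0 : ∑ q : Q, a q • (r (rep q) : M → Ω) = 0 := by
      funext m
      rw [Finset.sum_apply]
      simpa using hcon m
    have := (Fintype.linearIndependent_iff.mp hli) a h0 ⟨F 1, 1, rfl⟩
    exact ha _ this
  obtain ⟨θ, hθ⟩ := hne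
  refine ⟨∑ q : Q, a q * (rep q • (θ : Ω)), hθ, ?_⟩
  intro g
  -- the permutation of `Q` induced by `g`
  let π : Q → Q := fun q => ⟨F g ∘ q.1, by
    obtain ⟨g', hg'⟩ := q.2
    exact ⟨g * g', by rw [hFmul, hg']⟩⟩
  have hπ : Function.Bijective π := by
    refine Function.bijective_iff_has_inverse.mpr ⟨fun q => ⟨F g⁻¹ ∘ q.1, ?_⟩, ?_, ?_⟩
    · obtain ⟨g', hg'⟩ := q.2
      exact ⟨g⁻¹ * g', by rw [hFmul, hg']⟩
    · intro q
      apply Subtype.ext
      show F g⁻¹ ∘ (F g ∘ q.1) = q.1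
      rw [← Function.comp_assoc, ← hFmul, inv_mul_cancel]
      funext x; apply Subtype.ext; simp [F]
    · intro q
      apply Subtype.ext
      show F g ∘ (F g⁻¹ ∘ q.1) = q.1
      rw [← Function.comp_assoc, ← hFmul, mul_inv_cancel]
      funext x; apply Subtype.ext; simp [F]
  have hFπ : ∀ q : Q, F (g * rep q) = F (rep (π q)) := by
    intro q
    rw [hFmul, hrep q, hrep (π q)]
  rw [Finset.smul_sum, Finset.mul_sum]
  refine Fintype.sum_bijective π hπ _ _ fun q => ?_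
  have h1 : (g * rep q) • (θ : Ω) = rep (π q) • (θ : Ω) := by
    have := DFunLike.congr_fun (hrF _ _ (hFπ q)) θ
    exact this
  have h2 : χ (rep (π q)) = χ g + χ (rep q) := by
    rw [← hχF _ _ (hFπ q), hχ]
  have h3 : zpw ζ (-χ (rep q)) = zpw ζ (χ g) * a (π q) := by
    show zpw ζ (-χ (rep q)) = zpw ζ (χ g) * zpw ζ (-χ (rep (π q)))
    rw [h2, ← zpw_add hζ]
    congr 1
    ring
  show g • (zpw ζ (-χ (rep q)) * rep q • (θ : Ω)) = zpw ζ (χ g) * (a (π q) * rep (π q) • (θ : Ω))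
  rw [smul_mul', smul_zpw hζG, ← mul_smul, h1, h3, mul_assoc]

omit hp in
/-- `y ^ p` is `G`-fixed. -/
theorem kummer_pow_fixed (hζ : ζ ^ p = 1) {χ : G → ZMod p} {y : Ω}
    (hy : ∀ g : G, g • y = zpw ζ (χ g) * y) (g : G) : g • (y ^ p) = y ^ p := by
  rw [smul_pow', hy, mul_pow, zpw_pow hζ, one_mul]

/-- two Kummer generators for the same character differ by a `G`-fixed factor. -/
theorem kummer_unique (hζ : ζ ^ p = 1) {χ : G → ZMod p} {y y' : Ω}
    (hy : ∀ g : G, g • y = zpw ζ (χ g) * y) (hy' : ∀ g : G, g • y' = zpw ζ (χ g) * y') (g : G) :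
    g • (y' / y) = y' / y := by
  have h0 := zpw_ne_zero hζ (χ g)
  rw [div_eq_mul_inv, smul_mul', smul_inv'', hy, hy', mul_inv]
  field_simp

/-- Kummer generators multiply. -/
theorem kummer_mul (hζ : ζ ^ p = 1) {χ χ' : G → ZMod p} {y y' : Ω}
    (hy : ∀ g : G, g • y = zpw ζ (χ g) * y) (hy' : ∀ g : G, g • y' = zpw ζ (χ' g) * y') (g : G) :
    g • (y * y') = zpw ζ (χ g + χ' g) * (y * y') := by
  rw [smul_mul', hy, hy', zpw_add hζ]
  ring

/-- Kummer generators invert. -/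
theorem kummer_inv (hζ : ζ ^ p = 1) {χ : G → ZMod p} {y : Ω}
    (hy : ∀ g : G, g • y = zpw ζ (χ g) * y) (g : G) :
    g • y⁻¹ = zpw ζ (-χ g) * y⁻¹ := by
  have h0 := zpw_ne_zero hζ (χ g)
  have h1 := zpw_neg_mul hζ (χ g)
  rw [smul_inv'', hy, mul_inv, eq_inv_of_mul_eq_one_left h1]

/-- the Kummer map is injective: a generator whose `p`-th power is the `p`-th power of a fixed
element belongs to the trivial character. -/
theorem kummer_injective (hζ : IsPrimitiveRoot ζ p) (hζG : ∀ g : G, g • ζ = ζ)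
    {χ : G → ZMod p} {y w : Ω} (hy0 : y ≠ 0)
    (hy : ∀ g : G, g • y = zpw ζ (χ g) * y) (hw : ∀ g : G, g • w = w) (h : y ^ p = w ^ p)
    (g : G) : χ g = 0 := by
  have : NeZero p := ⟨hp.out.ne_zero⟩
  have hw0 : w ≠ 0 := by
    intro h0
    rw [h0, zero_pow hp.out.ne_zero] at h
    exact hy0 (pow_eq_zero_iff hp.out.ne_zero |>.mp h)
  have h1 : (y / w) ^ p = 1 := by rw [div_pow, h, div_self (pow_ne_zero _ hw0)]
  obtain ⟨i, -, hi⟩ := hζ.eq_pow_of_pow_eq_one h1
  have hyw : y = ζ ^ i * w := by rw [hi]; field_simp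
  have hfix : g • y = y := by rw [hyw, smul_mul', smul_pow', hζG, hw]
  have h2 : zpw ζ (χ g) = 1 := by
    have := hy g
    rw [hfix] at this
    exact (mul_right_cancel₀ hy0 (this.symm.trans (one_mul y).symm))
  have h3 : p ∣ (χ g).val := (hζ.pow_eq_one_iff_dvd _).mp h2
  have h4 : (χ g).val = 0 := Nat.eq_zero_of_dvd_of_lt h3 (ZMod.val_lt _)
  exact (ZMod.val_eq_zero _).mp h4

end Action

/-! ### Conjugation equivariance -/

section Conj

variable {D : Type*} [Group D] [MulSemiringAction D Ω] {ζ : Ω}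

theorem zpw_natCast_mul (hζ : ζ ^ p = 1) (c : ℕ) (a : ZMod p) :
    zpw ζ ((c : ZMod p) * a) = (ζ ^ c) ^ a.val := by
  unfold zpw
  rw [ZMod.val_mul, ZMod.val_natCast, ← pow_eq_pow_mod _ hζ, pow_mul, ← pow_eq_pow_mod _ hζ]

/-- **Equivariance of Kummer generators**: if `y` is a generator for `χ` on the subgroup `G` and
`δ` normalises `G`, `δ • ζ = ζ ^ c`, then `δ • y` is a generator for `g ↦ c * χ (δ⁻¹ g δ)`. -/
theorem kummer_conj (hζ : ζ ^ p = 1) (G : Subgroup D) (χ : D → ZMod p) {y : Ω}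
    (hy : ∀ g ∈ G, g • y = zpw ζ (χ g) * y) (δ : D) (hδG : ∀ g ∈ G, δ⁻¹ * g * δ ∈ G)
    {c : ℕ} (hδζ : δ • ζ = ζ ^ c) :
    ∀ g ∈ G, g • (δ • y) = zpw ζ ((c : ZMod p) * χ (δ⁻¹ * g * δ)) * (δ • y) := by
  intro g hg
  have h1 : g • (δ • y) = δ • ((δ⁻¹ * g * δ) • y) := by
    rw [← mul_smul, ← mul_smul]
    congr 1
    group
  rw [h1, hy _ (hδG g hg), smul_mul', zpw_natCast_mul hζ]
  congr 1
  unfold zpw
  rw [smul_pow', hδζ]

end Conj

/-! ### Hensel for `p`-th roots near `1` -/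

section Hensel

open Fermat.Agent.GP.Ram.KummerBreak

variable {G : Type*} [Group G] [MulSemiringAction G Ω] {ζ : Ω}
  {Γ₀ : Type*} [LinearOrderedCommGroupWithZero Γ₀] (v : Valuation Ω Γ₀)

/-- **Hensel for `p`-th roots**: a `G`-fixed unit of level `> e'` has a `G`-fixed `p`-th root close
to `1`, as soon as it has a `p`-th root at all and `G` acts by isometries. -/
theorem hensel_pth_root (hζ : IsPrimitiveRoot ζ p) (hiso : ∀ (g : G) (x : Ω), v (g • x) = v x)
    {u : Ω} (huG : ∀ g : G, g • u = u)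
    (hroot : ∃ y : Ω, y ^ p = u) (hu : v (u - 1) < v (ζ - 1) ^ p) :
    ∃ y : Ω, y ^ p = u ∧ v (y - 1) < v (ζ - 1) ∧ ∀ g : G, g • y = y := by
  classical
  have : NeZero p := ⟨hp.out.ne_zero⟩
  obtain ⟨y₀, hy₀⟩ := hroot
  have hlam1 : v (ζ - 1) ≤ 1 :=
    v.map_sub_le (le_of_eq (val_zeta v hζ)) (le_of_eq v.map_one)
  -- some factor of `y₀ ^ p - 1 = ∏ (y₀ - μ)` is small
  have hprod : y₀ ^ p - 1 = ∏ μ ∈ Polynomial.nthRootsFinset p (1 : Ω), (y₀ - μ) := by
    have := hζ.pow_sub_pow_eq_prod_sub_mul y₀ 1 hp.out.pos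
    simpa using this
  have hex : ∃ μ ∈ Polynomial.nthRootsFinset p (1 : Ω), v (y₀ - μ) < v (ζ - 1) := by
    by_contra hcon
    push Not at hcon
    have hle : v (ζ - 1) ^ p ≤ v (y₀ ^ p - 1) := by
      rw [hprod, map_prod]
      calc v (ζ - 1) ^ p = ∏ _μ ∈ Polynomial.nthRootsFinset p (1 : Ω), v (ζ - 1) := by
            rw [Finset.prod_const, hζ.card_nthRootsFinset]
        _ ≤ ∏ μ ∈ Polynomial.nthRootsFinset p (1 : Ω), v (y₀ - μ) :=
            Finset.prod_le_prod' hcon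
    rw [hy₀] at hle
    exact absurd hu (not_lt.mpr hle)
  obtain ⟨μ, hμ, hμv⟩ := hex
  have hμp : μ ^ p = 1 := (Polynomial.mem_nthRootsFinset hp.out.pos (1 : Ω)).mp hμ
  have hμ0 : μ ≠ 0 := by
    intro h0
    rw [h0, zero_pow hp.out.ne_zero] at hμp
    exact zero_ne_one hμp
  have hvμ : v μ = 1 :=
    eq_one_of_pow_eq_one hp.out.ne_zero (by rw [← v.map_pow, hμp, v.map_one])
  -- normalise
  set y : Ω := y₀ * μ⁻¹ with hydef
  have hyp : y ^ p = u := by rw [hydef, mul_pow, inv_pow, hμp, inv_one, mul_one, hy₀]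
  have hyv : v (y - 1) < v (ζ - 1) := by
    have : y - 1 = (y₀ - μ) * μ⁻¹ := by rw [hydef]; field_simp
    rw [this, map_mul, map_inv₀, hvμ, inv_one, mul_one]
    exact hμv
  have hvy : v y = 1 := by
    have : y = 1 + (y - 1) := by ring
    rw [this]
    exact v.map_one_add_of_lt (lt_of_lt_of_le hyv hlam1)
  have hy0 : y ≠ 0 := by
    intro h0; rw [h0, v.map_zero] at hvy; exact zero_ne_one hvy
  refine ⟨y, hyp, hyv, fun g => ?_⟩
  -- `g • y` is another root close to `1`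
  have hgp : (g • y / y) ^ p = 1 := by
    rw [div_pow, ← smul_pow', hyp, huG, div_self]
    rw [← hyp]; exact pow_ne_zero _ hy0
  obtain ⟨j, hj, hjeq⟩ := hζ.eq_pow_of_pow_eq_one hgp
  have hgy : g • y = ζ ^ j * y := by rw [hjeq]; field_simp
  by_cases hpj : p ∣ j
  · obtain ⟨m, rfl⟩ := hpj
    rw [hgy, pow_mul, hζ.pow_eq_one, one_pow, one_mul]
  · exfalso
    have h1 : v (g • y - y) < v (ζ - 1) := by
      have : g • y - y = (g • y - 1) - (y - 1) := by ring
      rw [this]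
      refine v.map_sub_lt ?_ hyv
      have : g • y - 1 = g • (y - 1) := by rw [smul_sub, smul_one]
      rw [this, hiso]
      exact hyv
    have h2 : v (g • y - y) = v (ζ - 1) := by
      have : g • y - y = (ζ ^ j - 1) * y := by rw [hgy]; ring
      rw [this, map_mul, hvy, mul_one, val_zeta_pow_sub_one v hζ hpj]
    rw [h2] at h1
    exact lt_irrefl _ h1

omit hp in
/-- hypothesis `hperf` of `UnitFilt.level_raise` from Frobenius periodicity of residue classes. -/
theorem hperf_of_periodic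
    (hper : ∀ a : Ω, v a ≤ 1 → ∃ n : ℕ, 0 < n ∧ v (a ^ (p ^ n) - a) < 1) :
    ∀ a : Ω, v a ≤ 1 → ∃ b : Ω, v b ≤ 1 ∧ v (b ^ p - a) < 1 := by
  intro a ha
  obtain ⟨n, hn, h⟩ := hper a ha
  refine ⟨a ^ (p ^ (n - 1)), ?_, ?_⟩
  · rw [v.map_pow]; exact pow_le_one₀ zero_le ha
  · rw [← pow_mul, ← pow_succ, Nat.sub_add_cancel hn]
    exact h

end Hensel

end Fermat.Agent.GP.Flat.SSKummer
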