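/-
GATE-P / S56 [P-FLAT] S56-FLAT-SSCHAIN (helper75) = part (C) of helper50's SSASM split (board 4175):
the SCALAR CHAIN LEMMAS for Kummer characters, on `GP/Ram/UnitFilt`, `GP/Ram/UnitFiltTop` and
`GP/Flat/SSKummer`.

Frame: a group `D` acting on a field `Ω` by `v`-isometries, `G ≤ D` a subgroup, `K ≤ Ω` the
subfield of `G`-fixed elements, `ζ ∈ K` a primitive `p`-th root of unity, `χ : D → ZMod p` (only
`χ|G` matters).

* `IsGen χ y`   : `y ≠ 0` and `g • y = ζ ^ χ(g) * y` for `g ∈ G` (Kummer generator).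
* `Lev γ χ`     : every generator `y` has `v (y^p w^p - 1) ≤ γ` for some `w ∈ K^×`
  (`χ` has level `≥ γ`; helper50's `H_i` is `γ = v π ^ i`, `BOUNDED` is `γ = v p`).
* `SLev γ χ`    : the same with `< γ`.
* `LC ϖ χ a`    : `a` represents the leading coefficient of `χ` at the level `v ϖ`.

Theorems: `exists_isGen`, `lev_of_exists`, `slev_of_exists`, `lev_mono`, `lev_zero`, `lev_add`,
`lev_sub` (the `Lev γ` are subgroups), `lc_exists`, `lc_unique` (levels prime to `p` below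
`e'`), `lc_add`, `lc_sub`, `lc_ker`, `slev_of_pdiv` (levels divisible by `p`), `lc_top_unique`,
`lc_top_ker`, `slev_top_zero` (top level `e'`), `lc_conj` (Galois equivariance),
`lev_succ_of_slev` (discreteness).
-/
import Fermat.Agent.GP.Ram.UnitFiltTop
import Fermat.Agent.GP.Flat.SSKummer

set_option autoImplicit false
set_option linter.unusedSectionVars false

namespace Fermat.Agent.GP.Flat.SSChain

open Fermat.Agent.GP.Ram.KummerBreak Fermat.Agent.GP.Ram.UnitFilt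
  Fermat.Agent.GP.Ram.UnitFiltTop Fermat.Agent.GP.Flat.SSKummer

variable {Ω : Type*} [Field Ω] {Γ₀ : Type*} [LinearOrderedCommGroupWithZero Γ₀]
  (v : Valuation Ω Γ₀) {p : ℕ} [hp : Fact p.Prime]

/-! ### `K`-relative forms of the unit-filtration lemmas -/

section Rel

variable (K : Subfield Ω)

/-- `UnitFilt.val_sub_one_lt_of_eq_pow_mul` with the "not a `p`-th power" hypothesis only for the
relevant value `v (w - 1)`. -/
theorem val_sub_one_lt_of_eq_pow_mul' (hvp : v (p : Ω) < 1) {Γ : Γ₀} (hΓ1 : Γ < 1)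
    {u u' w : Ω} (h1 : v (w - 1) ^ p ≠ Γ) (h2 : v (p : Ω) ^ p < Γ ^ (p - 1))
    (hu : v (u - 1) ≤ Γ) (hu' : v (u' - 1) < Γ) (h : u = w ^ p * u') : v (u - 1) < Γ := by
  have hu'1 : v (u' - 1) < 1 := lt_trans hu' hΓ1
  have hu'0 : u' ≠ 0 := by
    have := val_eq_one_of_sub_one_lt v hu'1
    intro h0; rw [h0, v.map_zero] at this; exact zero_ne_one this
  have hwp_eq : w ^ p = u / u' := by rw [h]; field_simp
  have hwp : v (w ^ p - 1) ≤ Γ := by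
    rw [hwp_eq]
    exact val_div_sub_one_le v hΓ1 hu (le_of_lt hu')
  rcases lt_or_eq_of_le hwp with hlt | heq
  · rw [h]
    exact val_mul_sub_one_lt v hlt hu' (le_of_lt hΓ1)
  · exfalso
    have hz : v (w - 1) < 1 :=
      val_sub_one_lt_one_of_pow v hvp (lt_of_le_of_lt hwp hΓ1)
    set δ := v (w - 1) with hδ
    have hp1 : p - 1 + 1 = p := Nat.sub_add_cancel hp.out.one_le
    rcases lt_trichotomy (v (p : Ω) * δ) (δ ^ p) with hc | hc | hc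
    · exact h1 ((val_pow_sub_one_of_lt v hz hc).1.symm.trans heq)
    · have hle : Γ ≤ δ ^ p := by rw [← heq]; exact val_pow_sub_one_le_of_eq v hz hc.symm
      have hδpos : 0 < δ := by
        rcases eq_or_lt_of_le (zero_le (a := δ)) with h0 | h0
        · exfalso
          rw [← h0] at hle
          rw [zero_pow hp.out.ne_zero] at hle
          have : Γ = 0 := le_antisymm hle zero_le
          rw [this] at h2
          rw [zero_pow (Nat.sub_ne_zero_of_lt hp.out.one_lt)] at h2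
          exact not_lt_zero h2
        · exact h0
      have hδp : δ ^ (p - 1) = v (p : Ω) := by
        have : δ ^ (p - 1) * δ = v (p : Ω) * δ := by rw [← pow_succ, hp1]; exact hc.symm
        exact mul_right_cancel₀ (ne_of_gt hδpos) this
      have : Γ ^ (p - 1) ≤ v (p : Ω) ^ p := by
        calc Γ ^ (p - 1) ≤ (δ ^ p) ^ (p - 1) := pow_le_pow_left₀ zero_le hle _
          _ = (δ ^ (p - 1)) ^ p := by rw [← pow_mul, ← pow_mul, mul_comm]
          _ = v (p : Ω) ^ p := by rw [hδp]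
      exact absurd h2 (not_lt.mpr this)
    · have hΓeq : Γ = v (p : Ω) * δ := heq.symm.trans (val_pow_sub_one_of_gt v hz hc)
      have hδpos : 0 < δ := by
        rcases eq_or_lt_of_le (zero_le (a := δ)) with h0 | h0
        · exfalso
          rw [hΓeq, ← h0, mul_zero, zero_pow (Nat.sub_ne_zero_of_lt hp.out.one_lt)] at h2
          exact not_lt_zero h2
        · exact h0
      have hδp : δ ^ (p - 1) < v (p : Ω) := by
        have : δ ^ (p - 1) * δ < v (p : Ω) * δ := by rw [← pow_succ, hp1]; exact hc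
        exact lt_of_mul_lt_mul_right this zero_le
      have : Γ ^ (p - 1) < v (p : Ω) ^ p := by
        rw [hΓeq, mul_pow]
        calc v (p : Ω) ^ (p - 1) * δ ^ (p - 1) < v (p : Ω) ^ (p - 1) * v (p : Ω) := by
              refine mul_lt_mul_of_pos_left hδp ?_
              have hvp0 : 0 < v (p : Ω) := lt_of_le_of_lt zero_le hδp
              exact pow_pos hvp0 _
          _ = v (p : Ω) ^ p := by rw [← pow_succ, hp1]
      exact absurd h2 (not_lt.mpr (le_of_lt this))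

/-- `UnitFilt.level_raise` inside a subfield `K`. -/
theorem level_raise_rel
    (hperf : ∀ a ∈ K, v a ≤ 1 → ∃ b ∈ K, v b ≤ 1 ∧ v (b ^ p - a) < 1)
    {u ϖ : Ω} (huK : u ∈ K) (hϖK : ϖ ∈ K) (hϖ0 : ϖ ≠ 0) (hϖ1 : v ϖ < 1)
    (h : v (p : Ω) * v ϖ < v ϖ ^ p) (hu : v (u - 1) ≤ v ϖ ^ p) :
    ∃ w ∈ K, v (w - 1) ≤ v ϖ ∧ v (u * w ^ p - 1) < v ϖ ^ p := by
  have hperf' : ∀ a : K, (v.comap K.subtype) a ≤ 1 →
      ∃ b : K, (v.comap K.subtype) b ≤ 1 ∧ (v.comap K.subtype) (b ^ p - a) < 1 := by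
    intro a ha
    obtain ⟨b, hbK, hb1, hb2⟩ := hperf a.1 a.2 ha
    exact ⟨⟨b, hbK⟩, hb1, hb2⟩
  obtain ⟨w, hw1, hw2⟩ := level_raise (p := p) (v.comap K.subtype) hperf'
    (u := ⟨u, huK⟩) (ϖ := ⟨ϖ, hϖK⟩) (by intro h0; exact hϖ0 (congrArg Subtype.val h0))
    hϖ1 h hu
  exact ⟨w.1, w.2, hw1, hw2⟩

/-- `UnitFiltTop.top_injective` inside a subfield `K`. -/
theorem top_injective_rel {ζ : Ω} (hζ : IsPrimitiveRoot ζ p) (hζK : ζ ∈ K)
    (hlam : v (ζ - 1) < 1) {u u' w : Ω} (huK : u ∈ K) (hu'K : u' ∈ K) (hwK : w ∈ K)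
    (hu : v (u - 1) ≤ v (ζ - 1) ^ p) (hu' : v (u' - 1) < v (ζ - 1) ^ p) (h : u = w ^ p * u') :
    ∃ x ∈ K, v x ≤ 1 ∧ v ((u - 1) / (ζ - 1) ^ p - (x ^ p - x)) < 1 := by
  have hζ' : IsPrimitiveRoot (⟨ζ, hζK⟩ : K) p :=
    IsPrimitiveRoot.of_map_of_injective (f := K.subtype) hζ K.subtype_injective
  obtain ⟨x, hx1, hx2⟩ := top_injective (p := p) (v.comap K.subtype) hζ' hlam
    (u := ⟨u, huK⟩) (u' := ⟨u', hu'K⟩) (w := ⟨w, hwK⟩) hu hu' (Subtype.ext h)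
  exact ⟨x.1, x.2, hx1, hx2⟩

end Rel

/-! ### The frame -/

section Frame

variable {D : Type*} [Group D] [MulSemiringAction D Ω] (G : Subgroup D) (K : Subfield Ω) (ζ : Ω)

/-- `y` is a Kummer generator for the character `χ|G`. -/
def IsGen (χ : D → ZMod p) (y : Ω) : Prop :=
  y ≠ 0 ∧ ∀ g ∈ G, g • y = zpw ζ (χ g) * y

/-- `χ` has level `≥ γ`: every Kummer generator is, up to `K^×`, a `p`-th root of a unit `u` with
`v (u - 1) ≤ γ`. -/
def Lev (γ : Γ₀) (χ : D → ZMod p) : Prop :=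
  ∀ y, IsGen G ζ χ y → ∃ w ∈ K, w ≠ 0 ∧ v (y ^ p * w ^ p - 1) ≤ γ

/-- `χ` has level `> γ`. -/
def SLev (γ : Γ₀) (χ : D → ZMod p) : Prop :=
  ∀ y, IsGen G ζ χ y → ∃ w ∈ K, w ≠ 0 ∧ v (y ^ p * w ^ p - 1) < γ

/-- `a` represents the leading coefficient of `χ` at the level `v ϖ`. -/
def LC (ϖ : Ω) (χ : D → ZMod p) (a : Ω) : Prop :=
  ∃ y w, IsGen G ζ χ y ∧ w ∈ K ∧ w ≠ 0 ∧ v (y ^ p * w ^ p - 1) ≤ v ϖ ∧
    v ((y ^ p * w ^ p - 1) / ϖ - a) < 1

variable {G K ζ}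
variable (hK : ∀ x, x ∈ K ↔ ∀ g ∈ G, g • x = x) (hζ : IsPrimitiveRoot ζ p) (hζK : ζ ∈ K)

include hK hζ hζK

theorem zeta_fixed : ∀ g ∈ G, g • ζ = ζ := (hK ζ).mp hζK

/-- the `p`-th power of a generator lies in `K`. -/
theorem gen_pow_mem {χ : D → ZMod p} {y : Ω} (hy : IsGen G ζ χ y) : y ^ p ∈ K := by
  rw [hK]
  intro g hg
  rw [smul_pow', hy.2 g hg, mul_pow, zpw_pow hζ.pow_eq_one, one_mul]

/-- two generators differ by an element of `K^×`. -/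
theorem gen_div_mem {χ : D → ZMod p} {y y' : Ω} (hy : IsGen G ζ χ y) (hy' : IsGen G ζ χ y') :
    y' / y ∈ K ∧ y' / y ≠ 0 := by
  refine ⟨?_, div_ne_zero hy'.1 hy.1⟩
  rw [hK]
  intro g hg
  have h0 := zpw_ne_zero hζ.pow_eq_one (χ g)
  rw [div_eq_mul_inv, smul_mul', smul_inv'', hy.2 g hg, hy'.2 g hg, mul_inv]
  field_simp

theorem isGen_mul {χ χ' : D → ZMod p} {y y' : Ω} (hy : IsGen G ζ χ y) (hy' : IsGen G ζ χ' y') :
    IsGen G ζ (fun g => χ g + χ' g) (y * y') := by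
  refine ⟨mul_ne_zero hy.1 hy'.1, fun g hg => ?_⟩
  rw [smul_mul', hy.2 g hg, hy'.2 g hg, zpw_add hζ.pow_eq_one]
  ring

theorem isGen_div {χ χ' : D → ZMod p} {y y' : Ω} (hy : IsGen G ζ χ y) (hy' : IsGen G ζ χ' y') :
    IsGen G ζ (fun g => χ g - χ' g) (y / y') := by
  refine ⟨div_ne_zero hy.1 hy'.1, fun g hg => ?_⟩
  have h0 := zpw_ne_zero hζ.pow_eq_one (χ' g)
  have h1 : zpw ζ (χ g - χ' g) * zpw ζ (χ' g) = zpw ζ (χ g) := by
    rw [← zpw_add hζ.pow_eq_one, sub_add_cancel]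
  rw [div_eq_mul_inv, smul_mul', smul_inv'', hy.2 g hg, hy'.2 g hg, mul_inv, ← h1]
  field_simp

theorem isGen_mul_mem {χ : D → ZMod p} {y t : Ω} (hy : IsGen G ζ χ y) (ht : t ∈ K) (ht0 : t ≠ 0) :
    IsGen G ζ χ (y * t) := by
  refine ⟨mul_ne_zero hy.1 ht0, fun g hg => ?_⟩
  rw [smul_mul', hy.2 g hg, (hK t).mp ht g hg, mul_assoc]

/-- one generator suffices for `Lev`. -/
theorem lev_of_exists {γ : Γ₀} {χ : D → ZMod p}
    (h : ∃ y w, IsGen G ζ χ y ∧ w ∈ K ∧ w ≠ 0 ∧ v (y ^ p * w ^ p - 1) ≤ γ) :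
    Lev v G K ζ γ χ := by
  obtain ⟨y, w, hy, hwK, hw0, hle⟩ := h
  intro y' hy'
  obtain ⟨htK, ht0⟩ := gen_div_mem hK hζ hζK hy hy'
  refine ⟨w / (y' / y), K.div_mem hwK htK, div_ne_zero hw0 ht0, ?_⟩
  have : y' ^ p * (w / (y' / y)) ^ p = y ^ p * w ^ p := by
    have hy0 := hy.1
    have hy'0 := hy'.1
    rw [div_div_eq_mul_div, div_pow, mul_pow]
    field_simp
  rw [this]
  exact hle

/-- one generator suffices for `SLev`. -/
theorem slev_of_exists {γ : Γ₀} {χ : D → ZMod p}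
    (h : ∃ y w, IsGen G ζ χ y ∧ w ∈ K ∧ w ≠ 0 ∧ v (y ^ p * w ^ p - 1) < γ) :
    SLev v G K ζ γ χ := by
  obtain ⟨y, w, hy, hwK, hw0, hle⟩ := h
  intro y' hy'
  obtain ⟨htK, ht0⟩ := gen_div_mem hK hζ hζK hy hy'
  refine ⟨w / (y' / y), K.div_mem hwK htK, div_ne_zero hw0 ht0, ?_⟩
  have : y' ^ p * (w / (y' / y)) ^ p = y ^ p * w ^ p := by
    have hy0 := hy.1
    have hy'0 := hy'.1
    rw [div_div_eq_mul_div, div_pow, mul_pow]
    field_simp
  rw [this]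
  exact hle

theorem SLev.lev {γ : Γ₀} {χ : D → ZMod p} (h : SLev v G K ζ γ χ) : Lev v G K ζ γ χ := by
  intro y hy
  obtain ⟨w, hwK, hw0, hlt⟩ := h y hy
  exact ⟨w, hwK, hw0, le_of_lt hlt⟩

/-- a character of level `≥ v ϖ` has a leading coefficient there (as soon as it has a generator). -/
theorem lc_exists {ϖ : Ω} (hϖK : ϖ ∈ K) {χ : D → ZMod p}
    (hlev : Lev v G K ζ (v ϖ) χ) (hgen : ∃ y, IsGen G ζ χ y) : ∃ a ∈ K, LC v G K ζ ϖ χ a := by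
  obtain ⟨y, hy⟩ := hgen
  obtain ⟨w, hwK, hw0, hle⟩ := hlev y hy
  refine ⟨(y ^ p * w ^ p - 1) / ϖ, ?_, y, w, hy, hwK, hw0, hle, ?_⟩
  · exact K.div_mem (K.sub_mem (K.mul_mem (gen_pow_mem hK hζ hζK hy) (K.pow_mem hwK p)) K.one_mem)
      hϖK
  · rw [sub_self, v.map_zero]; exact zero_lt_one

/-- existence of a Kummer generator (`SSKummer.kummer_exists` for the subgroup `G`). -/
theorem exists_isGen (horb : ∀ x : Ω, (Set.range fun g : G => g • x).Finite)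
    {χ : D → ZMod p} (hχ : ∀ g ∈ G, ∀ g' ∈ G, χ (g * g') = χ g + χ g')
    (hlev : ∃ s : Finset Ω, ∀ g ∈ G, (∀ x ∈ s, g • x = x) → χ g = 0) :
    ∃ y, IsGen G ζ χ y := by
  obtain ⟨s, hs⟩ := hlev
  obtain ⟨y, hy0, hy⟩ := kummer_exists (G := G) (p := p) hζ.pow_eq_one
    (fun g => zeta_fixed hK hζ hζK g.1 g.2) horb (fun g : G => χ g.1)
    (fun g g' => hχ g.1 g.2 g'.1 g'.2) ⟨s, fun g hg => hs g.1 g.2 hg⟩
  exact ⟨y, hy0, fun g hg => hy ⟨g, hg⟩⟩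

theorem lev_mono {γ γ' : Γ₀} (hγ : γ ≤ γ') {χ : D → ZMod p} (h : Lev v G K ζ γ χ) :
    Lev v G K ζ γ' χ := by
  intro y hy
  obtain ⟨w, hwK, hw0, hle⟩ := h y hy
  exact ⟨w, hwK, hw0, hle.trans hγ⟩

theorem lev_zero {γ : Γ₀} : Lev v G K ζ γ (fun _ => (0 : ZMod p)) := by
  refine lev_of_exists v hK hζ hζK ⟨1, 1, ⟨one_ne_zero, fun g _ => ?_⟩, K.one_mem, one_ne_zero, ?_⟩
  · rw [smul_one, zpw_zero, one_mul]
  · simp

theorem lev_add {γ : Γ₀} (hγ : γ ≤ 1) {χ χ' : D → ZMod p} (h : Lev v G K ζ γ χ)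
    (h' : Lev v G K ζ γ χ') (hgen : ∃ y, IsGen G ζ χ y) (hgen' : ∃ y, IsGen G ζ χ' y) :
    Lev v G K ζ γ (fun g => χ g + χ' g) := by
  obtain ⟨y, hy⟩ := hgen
  obtain ⟨y', hy'⟩ := hgen'
  obtain ⟨w, hwK, hw0, hle⟩ := h y hy
  obtain ⟨w', hw'K, hw'0, hle'⟩ := h' y' hy'
  refine lev_of_exists v hK hζ hζK ⟨y * y', w * w', isGen_mul hK hζ hζK hy hy',
    K.mul_mem hwK hw'K, mul_ne_zero hw0 hw'0, ?_⟩
  have : (y * y') ^ p * (w * w') ^ p - 1 = (y ^ p * w ^ p) * (y' ^ p * w' ^ p) - 1 := by ring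
  rw [this]; exact val_mul_sub_one_le v hγ hle hle'

theorem lev_sub {γ : Γ₀} (hγ : γ < 1) {χ χ' : D → ZMod p} (h : Lev v G K ζ γ χ)
    (h' : Lev v G K ζ γ χ') (hgen : ∃ y, IsGen G ζ χ y) (hgen' : ∃ y, IsGen G ζ χ' y) :
    Lev v G K ζ γ (fun g => χ g - χ' g) := by
  obtain ⟨y, hy⟩ := hgen
  obtain ⟨y', hy'⟩ := hgen'
  obtain ⟨w, hwK, hw0, hle⟩ := h y hy
  obtain ⟨w', hw'K, hw'0, hle'⟩ := h' y' hy'
  have hy'0 := hy'.1
  refine lev_of_exists v hK hζ hζK ⟨y / y', w / w', isGen_div hK hζ hζK hy hy',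
    K.div_mem hwK hw'K, div_ne_zero hw0 hw'0, ?_⟩
  have : (y / y') ^ p * (w / w') ^ p - 1 = (y ^ p * w ^ p) / (y' ^ p * w' ^ p) - 1 := by
    rw [div_pow, div_pow]; field_simp
  rw [this]; exact val_div_sub_one_le v hγ hle hle'

/-! ### Levels prime to `p` below `e'` -/

/-- **Uniqueness of the leading coefficient** at a level `v ϖ` which is not a `p`-th power in the
value group of `K` and lies above the Hensel bound. -/
theorem lc_unique {ϖ : Ω} (hϖ0 : ϖ ≠ 0) (hϖ1 : v ϖ < 1) (hvp : v (p : Ω) < 1)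
    (hnp : ∀ x ∈ K, v x ^ p ≠ v ϖ) (h2 : v (p : Ω) ^ p < v ϖ ^ (p - 1))
    {χ : D → ZMod p} {a a' : Ω} (ha : LC v G K ζ ϖ χ a) (ha' : LC v G K ζ ϖ χ a') :
    v (a - a') < 1 := by
  obtain ⟨y, w, hy, hwK, hw0, hle, hlt⟩ := ha
  obtain ⟨y', w', hy', hw'K, hw'0, hle', hlt'⟩ := ha'
  obtain ⟨htK, ht0⟩ := gen_div_mem hK hζ hζK hy hy'
  have hy0 := hy.1
  have hy'0 := hy'.1
  have hpos : 0 < v ϖ := v.pos_iff.mpr hϖ0
  set u := y ^ p * w ^ p with hu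
  set u' := y' ^ p * w' ^ p with hu'
  set z := (y' / y) * w' / w with hz
  have hzK : z ∈ K := K.div_mem (K.mul_mem htK hw'K) hwK
  have huz : u' = z ^ p * u := by
    rw [hz, hu, hu', div_pow, mul_pow, div_pow]; field_simp
  have hvu : v u = 1 := val_eq_one_of_sub_one_lt v (lt_of_le_of_lt hle hϖ1)
  have hu0 : u ≠ 0 := by
    intro h0; rw [h0, v.map_zero] at hvu; exact zero_ne_one hvu
  have hzp : v (z ^ p - 1) ≤ v ϖ := by
    have : z ^ p = u' / u := by rw [huz]; field_simp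
    rw [this]; exact val_div_sub_one_le v hϖ1 hle' hle
  have hzp' : v (z ^ p - 1) < v ϖ :=
    val_sub_one_lt_of_eq_pow_mul' v hvp hϖ1 (hnp _ (K.sub_mem hzK K.one_mem)) h2 hzp
      (by rw [sub_self, v.map_zero]; exact hpos) (by rw [mul_one])
  have hdiff : v (u' - u) < v ϖ := by
    have : u' - u = u * (z ^ p - 1) := by rw [huz]; ring
    rw [this, map_mul, hvu, one_mul]; exact hzp'
  have hmid : v ((u - 1) / ϖ - (u' - 1) / ϖ) < 1 := by
    have : (u - 1) / ϖ - (u' - 1) / ϖ = -(u' - u) / ϖ := by field_simp; ring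
    rw [this, map_div₀, Valuation.map_neg, div_lt_one₀ hpos]; exact hdiff
  have : a - a' = -((u - 1) / ϖ - a) + ((u - 1) / ϖ - (u' - 1) / ϖ) + ((u' - 1) / ϖ - a') := by
    ring
  rw [this]
  exact v.map_add_lt (v.map_add_lt (by rw [Valuation.map_neg]; exact hlt) hmid) hlt'

/-- the leading coefficient is additive in the character. -/
theorem lc_add {ϖ : Ω} (hϖ0 : ϖ ≠ 0) (hϖ1 : v ϖ < 1) {χ χ' : D → ZMod p} {a a' : Ω}
    (ha : LC v G K ζ ϖ χ a) (ha' : LC v G K ζ ϖ χ' a') :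
    LC v G K ζ ϖ (fun g => χ g + χ' g) (a + a') := by
  obtain ⟨y, w, hy, hwK, hw0, hle, hlt⟩ := ha
  obtain ⟨y', w', hy', hw'K, hw'0, hle', hlt'⟩ := ha'
  have hpos : 0 < v ϖ := v.pos_iff.mpr hϖ0
  have hprod : (y * y') ^ p * (w * w') ^ p - 1 = (y ^ p * w ^ p) * (y' ^ p * w' ^ p) - 1 := by ring
  refine ⟨y * y', w * w', isGen_mul hK hζ hζK hy hy', K.mul_mem hwK hw'K, mul_ne_zero hw0 hw'0,
    ?_, ?_⟩
  · rw [hprod]; exact val_mul_sub_one_le v (le_of_lt hϖ1) hle hle'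
  · rw [hprod]
    set u := y ^ p * w ^ p with hu
    set u' := y' ^ p * w' ^ p with hu'
    have : (u * u' - 1) / ϖ - (a + a') =
        ((u - 1) / ϖ - a) + ((u' - 1) / ϖ - a') + (u - 1) * (u' - 1) / ϖ := by
      field_simp; ring
    rw [this]
    refine v.map_add_lt (v.map_add_lt hlt hlt') ?_
    rw [map_div₀, map_mul, div_lt_one₀ hpos]
    calc v (u - 1) * v (u' - 1) ≤ v ϖ * v (u' - 1) := mul_le_mul' hle le_rfl
      _ < v ϖ * 1 := mul_lt_mul_of_pos_left (lt_of_le_of_lt hle' hϖ1) hpos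
      _ = v ϖ := mul_one _

/-- the leading coefficient of a difference. -/
theorem lc_sub {ϖ : Ω} (hϖ0 : ϖ ≠ 0) (hϖ1 : v ϖ < 1) {χ χ' : D → ZMod p} {a a' : Ω}
    (ha : LC v G K ζ ϖ χ a) (ha' : LC v G K ζ ϖ χ' a') :
    LC v G K ζ ϖ (fun g => χ g - χ' g) (a - a') := by
  obtain ⟨y, w, hy, hwK, hw0, hle, hlt⟩ := ha
  obtain ⟨y', w', hy', hw'K, hw'0, hle', hlt'⟩ := ha'
  have hpos : 0 < v ϖ := v.pos_iff.mpr hϖ0
  have hy'0 := hy'.1
  set u := y ^ p * w ^ p with hu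
  set u' := y' ^ p * w' ^ p with hu'
  have hvu' : v u' = 1 := val_eq_one_of_sub_one_lt v (lt_of_le_of_lt hle' hϖ1)
  have hu'0 : u' ≠ 0 := by
    intro h0; rw [h0, v.map_zero] at hvu'; exact zero_ne_one hvu'
  have hquot : (y / y') ^ p * (w / w') ^ p - 1 = u / u' - 1 := by
    rw [hu, hu', div_pow, div_pow]; field_simp
  refine ⟨y / y', w / w', isGen_div hK hζ hζK hy hy', K.div_mem hwK hw'K, div_ne_zero hw0 hw'0,
    ?_, ?_⟩
  · rw [hquot]; exact val_div_sub_one_le v hϖ1 hle hle'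
  · rw [hquot]
    -- `v a' ≤ 1`, `v a ≤ 1`
    have hA : v ((u - 1) / ϖ) ≤ 1 := by rw [map_div₀]; exact (div_le_one₀ hpos).mpr hle
    have hA' : v ((u' - 1) / ϖ) ≤ 1 := by rw [map_div₀]; exact (div_le_one₀ hpos).mpr hle'
    have hva : v a ≤ 1 := by
      have : a = (u - 1) / ϖ - ((u - 1) / ϖ - a) := by ring
      rw [this]; exact v.map_sub_le hA (le_of_lt hlt)
    have hva' : v a' ≤ 1 := by
      have : a' = (u' - 1) / ϖ - ((u' - 1) / ϖ - a') := by ring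
      rw [this]; exact v.map_sub_le hA' (le_of_lt hlt')
    have hinv : v (u'⁻¹ - 1) < 1 := by
      rw [val_inv_sub_one v (lt_of_le_of_lt hle' hϖ1)]
      exact lt_of_le_of_lt hle' hϖ1
    have : (u / u' - 1) / ϖ - (a - a') =
        (((u - 1) / ϖ - a) - ((u' - 1) / ϖ - a')) * u'⁻¹ + (a - a') * (u'⁻¹ - 1) := by
      field_simp; ring
    rw [this]
    refine v.map_add_lt ?_ ?_
    · rw [map_mul, map_inv₀, hvu', inv_one, mul_one]
      exact v.map_sub_lt hlt hlt'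
    · rw [map_mul]
      calc v (a - a') * v (u'⁻¹ - 1) ≤ 1 * v (u'⁻¹ - 1) :=
            mul_le_mul' (v.map_sub_le hva hva') le_rfl
        _ = v (u'⁻¹ - 1) := one_mul _
        _ < 1 := hinv

/-- a vanishing leading coefficient means strictly higher level. -/
theorem lc_ker {ϖ : Ω} (hϖ0 : ϖ ≠ 0) {χ : D → ZMod p} {a : Ω}
    (ha : LC v G K ζ ϖ χ a) (ha0 : v a < 1) : SLev v G K ζ (v ϖ) χ := by
  obtain ⟨y, w, hy, hwK, hw0, hle, hlt⟩ := ha
  have hpos : 0 < v ϖ := v.pos_iff.mpr hϖ0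
  refine slev_of_exists v hK hζ hζK ⟨y, w, hy, hwK, hw0, ?_⟩
  have : v ((y ^ p * w ^ p - 1) / ϖ) < 1 := by
    have h : (y ^ p * w ^ p - 1) / ϖ = ((y ^ p * w ^ p - 1) / ϖ - a) + a := by ring
    rw [h]; exact v.map_add_lt hlt ha0
  rwa [map_div₀, div_lt_one₀ hpos] at this

/-- conversely a character of strictly higher level has leading coefficient `0`. -/
theorem lc_zero_of_slev {ϖ : Ω} (hϖ0 : ϖ ≠ 0) {χ : D → ZMod p}
    (h : SLev v G K ζ (v ϖ) χ) (hgen : ∃ y, IsGen G ζ χ y) : LC v G K ζ ϖ χ 0 := by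
  obtain ⟨y, hy⟩ := hgen
  obtain ⟨w, hwK, hw0, hlt⟩ := h y hy
  have hpos : 0 < v ϖ := v.pos_iff.mpr hϖ0
  refine ⟨y, w, hy, hwK, hw0, le_of_lt hlt, ?_⟩
  rw [sub_zero, map_div₀, div_lt_one₀ hpos]
  exact hlt

/-! ### Levels divisible by `p` -/

/-- at a level `v ϖ ^ p` below `e'` nothing happens (perfect residue field). -/
theorem slev_of_pdiv (hperf : ∀ a ∈ K, v a ≤ 1 → ∃ b ∈ K, v b ≤ 1 ∧ v (b ^ p - a) < 1)
    {ϖ : Ω} (hϖK : ϖ ∈ K) (hϖ0 : ϖ ≠ 0) (hϖ1 : v ϖ < 1) (h : v (p : Ω) * v ϖ < v ϖ ^ p)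
    {χ : D → ZMod p} (hlev : Lev v G K ζ (v ϖ ^ p) χ) : SLev v G K ζ (v ϖ ^ p) χ := by
  intro y hy
  obtain ⟨w, hwK, hw0, hle⟩ := hlev y hy
  have huK : y ^ p * w ^ p ∈ K := K.mul_mem (gen_pow_mem hK hζ hζK hy) (K.pow_mem hwK p)
  obtain ⟨w₁, hw₁K, hw₁1, hw₁2⟩ := level_raise_rel v K hperf huK hϖK hϖ0 hϖ1 h hle
  have hw₁0 : w₁ ≠ 0 := by
    have := val_eq_one_of_sub_one_lt v (lt_of_le_of_lt hw₁1 hϖ1)
    intro h0; rw [h0, v.map_zero] at this; exact zero_ne_one this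
  refine ⟨w * w₁, K.mul_mem hwK hw₁K, mul_ne_zero hw0 hw₁0, ?_⟩
  have : y ^ p * (w * w₁) ^ p - 1 = y ^ p * w ^ p * w₁ ^ p - 1 := by ring
  rw [this]; exact hw₁2

/-! ### The top level `e'` -/

/-- at the top level the leading coefficient is well defined modulo `℘(κ)`. -/
theorem lc_top_unique (hlam : v (ζ - 1) < 1) {χ : D → ZMod p} {a a' : Ω}
    (ha : LC v G K ζ ((ζ - 1) ^ p) χ a) (ha' : LC v G K ζ ((ζ - 1) ^ p) χ a') :
    ∃ x ∈ K, v x ≤ 1 ∧ v ((a' - a) - (x ^ p - x)) < 1 := by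
  obtain ⟨y, w, hy, hwK, hw0, hle, hlt⟩ := ha
  obtain ⟨y', w', hy', hw'K, hw'0, hle', hlt'⟩ := ha'
  obtain ⟨htK, ht0⟩ := gen_div_mem hK hζ hζK hy hy'
  have hy0 := hy.1
  have hy'0 := hy'.1
  have hl0 : (ζ - 1) ^ p ≠ 0 := pow_ne_zero _ (lam_ne_zero hζ)
  have hΓ1 : v ((ζ - 1) ^ p) < 1 := by
    rw [v.map_pow]; exact val_lam_pow_lt_one (p := p) v hlam
  have hpos : 0 < v ((ζ - 1) ^ p) := v.pos_iff.mpr hl0
  set u := y ^ p * w ^ p with hu
  set u' := y' ^ p * w' ^ p with hu'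
  set z := (y' / y) * w' / w with hz
  have hzK : z ∈ K := K.div_mem (K.mul_mem htK hw'K) hwK
  have huz : u' = z ^ p * u := by
    rw [hz, hu, hu', div_pow, mul_pow, div_pow]; field_simp
  have hvu : v u = 1 := val_eq_one_of_sub_one_lt v (lt_of_le_of_lt hle hΓ1)
  have hu0 : u ≠ 0 := by
    intro h0; rw [h0, v.map_zero] at hvu; exact zero_ne_one hvu
  have hzp : v (z ^ p - 1) ≤ v ((ζ - 1) ^ p) := by
    have : z ^ p = u' / u := by rw [huz]; field_simp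
    rw [this]; exact val_div_sub_one_le v hΓ1 hle' hle
  obtain ⟨x, hxK, hx1, hx2⟩ := top_injective_rel v K hζ hζK hlam (K.pow_mem hzK p) K.one_mem hzK
    (by rw [← v.map_pow]; exact hzp)
    (by rw [sub_self, v.map_zero, ← v.map_pow]; exact hpos) (by rw [mul_one])
  refine ⟨x, hxK, hx1, ?_⟩
  have : (a' - a) - (x ^ p - x) =
      -((u' - 1) / (ζ - 1) ^ p - a') + ((u - 1) / (ζ - 1) ^ p - a) +
        ((z ^ p - 1) / (ζ - 1) ^ p - (x ^ p - x)) + (u - 1) * (z ^ p - 1) / (ζ - 1) ^ p := by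
    rw [huz]; field_simp; ring
  rw [this]
  refine v.map_add_lt (v.map_add_lt (v.map_add_lt ?_ hlt) hx2) ?_
  · rw [Valuation.map_neg]; exact hlt'
  · rw [map_div₀, map_mul, div_lt_one₀ hpos]
    calc v (u - 1) * v (z ^ p - 1) ≤ v ((ζ - 1) ^ p) * v (z ^ p - 1) := mul_le_mul' hle le_rfl
      _ < v ((ζ - 1) ^ p) * 1 := mul_lt_mul_of_pos_left (lt_of_le_of_lt hzp hΓ1) hpos
      _ = v ((ζ - 1) ^ p) := mul_one _

/-- at the top level a leading coefficient in `℘(κ)` means strictly higher level. -/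
theorem lc_top_ker (hlam : v (ζ - 1) < 1) {χ : D → ZMod p} {a x : Ω}
    (ha : LC v G K ζ ((ζ - 1) ^ p) χ a) (hxK : x ∈ K) (hx1 : v x ≤ 1)
    (hx : v (a - (x ^ p - x)) < 1) : SLev v G K ζ (v (ζ - 1) ^ p) χ := by
  obtain ⟨y, w, hy, hwK, hw0, hle, hlt⟩ := ha
  have hlx : v ((ζ - 1) * x) < 1 := by
    rw [map_mul]
    calc v (ζ - 1) * v x ≤ v (ζ - 1) * 1 := mul_le_mul' le_rfl hx1
      _ = v (ζ - 1) := mul_one _
      _ < 1 := hlam
  have h10 : (1 + (ζ - 1) * x) ≠ 0 := by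
    have := v.map_one_add_of_lt hlx
    intro h0; rw [h0, v.map_zero] at this; exact zero_ne_one this
  have h1K : (1 + (ζ - 1) * x) ∈ K :=
    K.add_mem K.one_mem (K.mul_mem (K.sub_mem hζK K.one_mem) hxK)
  have hraise := top_level_raise (u := y ^ p * w ^ p) v hζ hlam hx1 (by
    have : (y ^ p * w ^ p - 1) / (ζ - 1) ^ p - (x ^ p - x) =
        ((y ^ p * w ^ p - 1) / (ζ - 1) ^ p - a) + (a - (x ^ p - x)) := by ring
    rw [this]; exact v.map_add_lt hlt hx)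
  refine slev_of_exists v hK hζ hζK ⟨y, w / (1 + (ζ - 1) * x), hy, K.div_mem hwK h1K,
    div_ne_zero hw0 h10, ?_⟩
  have : y ^ p * (w / (1 + (ζ - 1) * x)) ^ p - 1 =
      y ^ p * w ^ p / (1 + (ζ - 1) * x) ^ p - 1 := by
    rw [div_pow]; field_simp
  rw [this]; exact hraise

/-- **above the top level there is nothing**: a character of level `> e'` is trivial on `G`. -/
theorem slev_top_zero (hiso : ∀ g ∈ G, ∀ x : Ω, v (g • x) = v x) {χ : D → ZMod p}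
    (h : SLev v G K ζ (v (ζ - 1) ^ p) χ) (hgen : ∃ y, IsGen G ζ χ y) : ∀ g ∈ G, χ g = 0 := by
  obtain ⟨y, hy⟩ := hgen
  obtain ⟨w, hwK, hw0, hlt⟩ := h y hy
  have hyw : IsGen G ζ χ (y * w) := isGen_mul_mem hK hζ hζK hy hwK hw0
  have hpow : (y * w) ^ p = y ^ p * w ^ p := mul_pow _ _ _
  have huK : y ^ p * w ^ p ∈ K := K.mul_mem (gen_pow_mem hK hζ hζK hy) (K.pow_mem hwK p)
  obtain ⟨y₁, hy₁p, -, hy₁G⟩ := hensel_pth_root (G := G) (p := p) v hζ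
    (fun g x => hiso g.1 g.2 x) (u := y ^ p * w ^ p)
    (fun g => (hK _).mp huK g.1 g.2) ⟨y * w, hpow⟩ hlt
  intro g hg
  exact kummer_injective (G := G) (χ := fun g : G => χ g.1) hζ
    (fun g => zeta_fixed hK hζ hζK g.1 g.2) hyw.1 (fun g => hyw.2 g.1 g.2) hy₁G
    (hpow.trans hy₁p.symm) ⟨g, hg⟩

/-! ### Galois equivariance -/

/-- **equivariance of the leading coefficient** under an element `δ` normalising `G`. -/
theorem lc_conj (hiso : ∀ (d : D) (x : Ω), v (d • x) = v x) {ϖ : Ω} (hϖ0 : ϖ ≠ 0)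
    (δ : D) (hδG : ∀ g ∈ G, δ⁻¹ * g * δ ∈ G) {c : ℕ} (hδζ : δ • ζ = ζ ^ c)
    {χ : D → ZMod p} {a : Ω} (ha : LC v G K ζ ϖ χ a) :
    LC v G K ζ ϖ (fun g => (c : ZMod p) * χ (δ⁻¹ * g * δ)) (δ • a * (δ • ϖ / ϖ)) := by
  obtain ⟨y, w, hy, hwK, hw0, hle, hlt⟩ := ha
  have hδϖ0 : δ • ϖ ≠ 0 := fun h0 => hϖ0 ((smul_eq_zero_iff_eq δ).mp h0)
  have hu : (δ • y) ^ p * (δ • w) ^ p - 1 = δ • (y ^ p * w ^ p - 1) := by
    rw [smul_sub, smul_mul', smul_pow', smul_pow', smul_one]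
  refine ⟨δ • y, δ • w,
    ⟨fun h0 => hy.1 ((smul_eq_zero_iff_eq δ).mp h0),
      kummer_conj hζ.pow_eq_one G χ hy.2 δ hδG hδζ⟩, ?_,
    fun h0 => hw0 ((smul_eq_zero_iff_eq δ).mp h0), ?_, ?_⟩
  · rw [hK]
    intro g hg
    have h1 : g • (δ • w) = δ • ((δ⁻¹ * g * δ) • w) := by
      rw [← mul_smul, ← mul_smul]
      congr 1
      group
    rw [h1, (hK w).mp hwK _ (hδG g hg)]
  · rw [hu, hiso]; exact hle
  · rw [hu]
    have h1 : δ • ((y ^ p * w ^ p - 1) / ϖ - a) =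
        δ • (y ^ p * w ^ p - 1) / δ • ϖ - δ • a := by
      rw [smul_sub, div_eq_mul_inv, smul_mul', smul_inv'', ← div_eq_mul_inv]
    have : δ • (y ^ p * w ^ p - 1) / ϖ - δ • a * (δ • ϖ / ϖ) =
        δ • ((y ^ p * w ^ p - 1) / ϖ - a) * (δ • ϖ / ϖ) := by
      rw [h1]
      field_simp
    rw [this, map_mul, hiso, map_div₀, hiso, div_self (ne_of_gt (v.pos_iff.mpr hϖ0)), mul_one]
    exact hlt

/-! ### Discreteness -/

/-- with a discrete value group on `K`, level `> i` is level `≥ i + 1`. -/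
theorem lev_succ_of_slev {π : Ω} (hπ0 : π ≠ 0) (hπ1 : v π < 1)
    (hdisc : ∀ x ∈ K, x ≠ 0 → ∃ n : ℤ, v x = v π ^ n) {i : ℕ} {χ : D → ZMod p}
    (h : SLev v G K ζ (v π ^ i) χ) : Lev v G K ζ (v π ^ (i + 1)) χ := by
  intro y hy
  obtain ⟨w, hwK, hw0, hlt⟩ := h y hy
  refine ⟨w, hwK, hw0, ?_⟩
  have hpos : 0 < v π := v.pos_iff.mpr hπ0
  by_cases h0 : y ^ p * w ^ p - 1 = 0
  · rw [h0, v.map_zero]; exact zero_le
  · have hmem : y ^ p * w ^ p - 1 ∈ K :=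
      K.sub_mem (K.mul_mem (gen_pow_mem hK hζ hζK hy) (K.pow_mem hwK p)) K.one_mem
    obtain ⟨n, hn⟩ := hdisc _ hmem h0
    rw [hn] at hlt ⊢
    rw [← zpow_natCast, zpow_lt_zpow_iff_right_of_lt_one₀ hpos hπ1] at hlt
    rw [← zpow_natCast, zpow_le_zpow_iff_right_of_lt_one₀ hpos hπ1]
    push_cast
    omega

end Frame

end Fermat.Agent.GP.Flat.SSChain
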