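/-
GATE-P (S56) / [P-FLAT] node S56-FLAT-ORDCOUNT, part (D) (helper47): the **bounded (peu ramifié)
`N`-part condition in helper75's `SSChain` language**, on the `ρ̄`-independent frame
`G = ordG P p = I_P ∩ Fix(μ_p) ≤ D = D_P`, `K = ordK P p = ℚ̄^G`, `v = P.valuation`.

* `KBon P p S` : the consumer form of the Kummer-depth bound (iv) (= helper50's (E) VERBATIM on this
  frame): every `y ≠ 0` with `y ^ p ∈ K` which is fixed by `G ∩ S` has `y ^ p ∈ (1 + p 𝒪) K^{× p}`.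
* `BddN P p ζ hζ : Submodule k (DP P → k)` : functions additive on `G`, of finite level, all of
  whose `𝔽_p`-components have `Lev (v p)`.
* `snd_mul_of_cocycle` : the cocycle identity on the `N`-part.
* `mem_BddN_of_cocycle` : the `N`-part of a finite-level Borel cocycle vanishing on `S` is in `BddN`
  (given `KBon S`).
* `hcobW_of_KBon`, `hW_of_KBon` : the two binders of `OrdLocalGen` for `W := BddN`.
* `card_Lmax_le_bdd`, `exists_mem_ZBg_bdd_of_ordinary` : `OrdLocalGen` instantiated.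
-/
import Fermat.Agent.GP.Flat.OrdLocalGen
import Fermat.Agent.GP.Flat.OrdFrame
import Fermat.Agent.GP.Flat.SSChain

set_option autoImplicit false

namespace Fermat.Agent.GP.Flat.OrdBdd

open Matrix Module Fermat.Agent.S53_helper35 Fermat.Agent.GP.Tan.Cocycle
  Fermat.Agent.GP.Loc.StrictOrdDim Fermat.Agent.GP.Flat.OrdCount Fermat.Agent.GP.Flat.OrdCocycle
  Fermat.Agent.GP.Flat.OrdLocal Fermat.Agent.GP.Flat.OrdLocalGen Fermat.Agent.GP.Flat.OrdFrame
  Fermat.Agent.GP.Flat.SSChain Fermat.Agent.GP.Flat.SSKummer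

local notation "Qb" => AlgebraicClosure ℚ

/-! ### finite levels as finite sets -/

/-- a finite extension of `ℚ` inside `ℚ̄` is fixed as soon as a finite set is. -/
theorem exists_finset_fixing (L : IntermediateField ℚ Qb) [FiniteDimensional ℚ L] :
    ∃ s : Finset Qb, ∀ g : GQ, (∀ x ∈ s, g x = x) → ∀ y ∈ L, g y = y := by
  classical
  let b := Module.finBasis ℚ L
  refine ⟨Finset.univ.image (fun i => ((b i : L) : Qb)), fun g hg y hy => ?_⟩
  have h1 : (⟨y, hy⟩ : L) = ∑ i, (b.repr ⟨y, hy⟩ i) • b i := (b.sum_repr _).symm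
  have h2 : y = ∑ i, (b.repr ⟨y, hy⟩ i) • ((b i : L) : Qb) := by
    have h3 : y = (((⟨y, hy⟩ : L)) : Qb) := rfl
    conv_lhs => rw [h3, h1]
    rw [IntermediateField.coe_sum]
    rfl
  rw [h2, map_sum]
  refine Finset.sum_congr rfl (fun i _ => ?_)
  rw [Algebra.smul_def, map_mul, AlgEquiv.commutes,
    hg _ (Finset.mem_image_of_mem _ (Finset.mem_univ i))]

section Frame

variable {k : Type} [Field k] (P : ValuationSubring Qb) (p : ℕ) [hp : Fact p.Prime] (ζ : Qb)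

/-- finite level, `Finset` form, on `ordG`. -/
def HasFinLev (f : DP P → k) : Prop :=
  ∃ s : Finset Qb, ∀ g ∈ ordG P p, (∀ x ∈ s, g • x = x) → f g = 0

omit hp in
theorem hasFinLev_of_isFinLevel {f : DP P → k} (hf : IsFinLevel P f) (h1 : f 1 = 0) :
    HasFinLev P p f := by
  obtain ⟨L, hL, hf⟩ := hf
  obtain ⟨s, hs⟩ := exists_finset_fixing L
  refine ⟨s, fun g _ hg => ?_⟩
  have := hf 1 g (fun y hy => hs (g : GQ) hg y hy)
  rw [one_mul, h1] at this
  exact this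

/-- **The Kummer-depth bound (iv), consumer form**: every Kummer element over `K` which is fixed by
`G ∩ S` is a `p`-th root of an element of `(1 + p 𝒪) K^{× p}`. -/
def KBon (S : Set GQ) : Prop :=
  ∀ y : Qb, y ≠ 0 → (∀ g ∈ ordG P p, g • (y ^ p) = y ^ p) →
    (∀ g ∈ ordG P p, (g : GQ) ∈ S → g • y = y) →
    ∃ w ∈ ordK P p, w ≠ 0 ∧ P.valuation (y ^ p * w ^ p - 1) ≤ P.valuation (p : Qb)

omit hp in
theorem KBon.mono {S S' : Set GQ} (h : S ⊆ S') (hS : KBon P p S) : KBon P p S' :=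
  fun y hy0 hyp hy => hS y hy0 hyp (fun g hg hgS => hy g hg (h hgS))

variable {ζ}

/-- a character vanishing on `G ∩ S` has level `≥ v p`. -/
theorem lev_of_KBon (hζ : IsPrimitiveRoot ζ p) {S : Set GQ} (hS : KBon P p S)
    {χ : DP P → ZMod p} (hχ : ∀ g ∈ ordG P p, (g : GQ) ∈ S → χ g = 0) :
    Lev P.valuation (ordG P p) (ordK P p) ζ (P.valuation (p : Qb)) χ := by
  intro y hy
  have hyp : y ^ p ∈ ordK P p :=
    gen_pow_mem (mem_ordK_iff P p) hζ (zeta_mem_ordK P p hζ.pow_eq_one) hy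
  refine hS y hy.1 (fun g hg => hyp g hg) (fun g hg hgS => ?_)
  rw [hy.2 g hg, hχ g hg hgS, zpw_zero, one_mul]

omit hp in
theorem val_p_le_one : P.valuation (p : Qb) ≤ 1 := by
  rw [ValuationSubring.valuation_le_one_iff]
  exact natCast_mem P p

/-- **the bounded `N`-parts**: additive on `G`, finite level, every `𝔽_p`-component of level
`≥ v p`. -/
def BddN (hζ : IsPrimitiveRoot ζ p) : Submodule k (DP P → k) where
  carrier := {f | (∀ g ∈ ordG P p, ∀ g' ∈ ordG P p, f (g * g') = f g + f g') ∧ HasFinLev P p f ∧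
    ∀ ℓ : k →+ ZMod p, Lev P.valuation (ordG P p) (ordK P p) ζ (P.valuation (p : Qb))
      (fun g => ℓ (f g))}
  add_mem' := by
    classical
    rintro f f' ⟨h1, ⟨s, hs⟩, h3⟩ ⟨h1', ⟨s', hs'⟩, h3'⟩
    refine ⟨fun g hg g' hg' => ?_, ⟨s ∪ s', fun g hg hfix => ?_⟩, fun ℓ => ?_⟩
    · rw [Pi.add_apply, Pi.add_apply, Pi.add_apply, h1 g hg g' hg', h1' g hg g' hg']
      abel
    · rw [Pi.add_apply, hs g hg (fun x hx => hfix x (Finset.mem_union_left _ hx)),
        hs' g hg (fun x hx => hfix x (Finset.mem_union_right _ hx)), add_zero]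
    · have hK := mem_ordK_iff P p
      have hζK := zeta_mem_ordK P p hζ.pow_eq_one
      have hgen : ∀ (f : DP P → k), (∀ g ∈ ordG P p, ∀ g' ∈ ordG P p, f (g * g') = f g + f g') →
          (∃ s : Finset Qb, ∀ g ∈ ordG P p, (∀ x ∈ s, g • x = x) → f g = 0) →
          ∃ y, IsGen (ordG P p) ζ (fun g => ℓ (f g)) y := by
        intro f hadd ⟨s, hs⟩
        refine exists_isGen hK hζ hζK (horb P p) (fun g hg g' hg' => ?_) ⟨s, fun g hg hfix => ?_⟩
        · rw [hadd g hg g' hg', map_add]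
        · rw [hs g hg hfix, map_zero]
      have := lev_add P.valuation hK hζ hζK (val_p_le_one P p) (h3 ℓ) (h3' ℓ)
        (hgen f h1 ⟨s, hs⟩) (hgen f' h1' ⟨s', hs'⟩)
      have e : (fun g => ℓ ((f + f') g)) = fun g => ℓ (f g) + ℓ (f' g) := by
        funext g
        rw [Pi.add_apply, map_add]
      rw [e]
      exact this
  zero_mem' := by
    refine ⟨fun g _ g' _ => by simp, ⟨∅, fun g _ _ => rfl⟩, fun ℓ => ?_⟩
    have e : (fun g : DP P => ℓ ((0 : DP P → k) g)) = fun _ => (0 : ZMod p) := by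
      funext g
      rw [Pi.zero_apply, map_zero]
    rw [e]
    exact lev_zero P.valuation (mem_ordK_iff P p) hζ (zeta_mem_ordK P p hζ.pow_eq_one)
  smul_mem' := by
    rintro c f ⟨h1, ⟨s, hs⟩, h3⟩
    refine ⟨fun g hg g' hg' => ?_, ⟨s, fun g hg hfix => ?_⟩, fun ℓ => ?_⟩
    · rw [Pi.smul_apply, Pi.smul_apply, Pi.smul_apply, h1 g hg g' hg', smul_add]
    · rw [Pi.smul_apply, hs g hg hfix, smul_zero]
    · exact h3 (ℓ.comp (AddMonoidHom.mulLeft c))

theorem mem_BddN_iff (hζ : IsPrimitiveRoot ζ p) (f : DP P → k) : f ∈ BddN P p hζ ↔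
    (∀ g ∈ ordG P p, ∀ g' ∈ ordG P p, f (g * g') = f g + f g') ∧ HasFinLev P p f ∧
    ∀ ℓ : k →+ ZMod p, Lev P.valuation (ordG P p) (ordK P p) ζ (P.valuation (p : Qb))
      (fun g => ℓ (f g)) := Iff.rfl

end Frame

/-! ### the cocycle identity on the `N`-part -/

section Cocycle

variable {k : Type} [Field k] (P : ValuationSubring Qb)
  (r : GQ →* Matrix (Fin 2) (Fin 2) k) (g : GL (Fin 2) k)

/-- the `N`-part of a Borel cocycle: `f(στ) = f σ + ψ(σ) f τ - 2 a(τ) b(σ)`. -/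
theorem snd_mul_of_cocycle (hut : ∀ σ : DP P, conjBy g (rD P r) σ 1 0 = 0)
    {x : (DP P → k) × (DP P → k)}
    (hcoc : ∀ σ τ : DP P, bval g x (σ * τ) =
      bval g x σ + rD P r σ * bval g x τ * rD P r σ⁻¹) (σ τ : DP P) :
    x.2 (σ * τ) = x.2 σ +
      x.2 τ * (conjBy g (rD P r) σ 0 0 * conjBy g (rD P r) σ⁻¹ 1 1) -
      2 * x.1 τ * (conjBy g (rD P r) σ 0 1 * conjBy g (rD P r) σ⁻¹ 1 1) := by
  have h := hcoc σ τ
  rw [bval_apply, bval_apply, bval_apply, conj_bor g (rD P r) hut, ← map_add] at h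
  have h2 := congrArg Prod.snd (bor_injective g h)
  simp only [Prod.snd_add] at h2
  rw [h2]
  show x.2 σ + (x.2 τ - (x.2 τ * (1 - conjBy g (rD P r) σ 0 0 * conjBy g (rD P r) σ⁻¹ 1 1) +
    2 * x.1 τ * (conjBy g (rD P r) σ 0 1 * conjBy g (rD P r) σ⁻¹ 1 1))) = _
  ring

/-- the diagonal entry `T₀₀` of an upper triangular matrix with `T₁₁ = 1` is the determinant. -/
theorem conjBy_zero_zero_eq_det {D : Type*} [Group D] (ρ : D →* Matrix (Fin 2) (Fin 2) k) (σ : D)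
    (h10 : conjBy g ρ σ 1 0 = 0) (h11 : conjBy g ρ σ 1 1 = 1) :
    conjBy g ρ σ 0 0 = (ρ σ).det := by
  have h : (conjBy g ρ σ).det = (ρ σ).det := by
    unfold conjBy
    exact Matrix.det_units_conj' g (ρ σ)
  rw [← h, Matrix.det_fin_two, h10, h11, mul_one, mul_zero, sub_zero]

variable (p : ℕ) [hp : Fact p.Prime] {ζ : Qb} (hζ : IsPrimitiveRoot ζ p)

/-- **The `N`-part of a finite-level Borel cocycle vanishing on `S` is bounded**, given the
Kummer-depth bound on `S`. -/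
theorem mem_BddN_of_cocycle {S : Set GQ} (hS : KBon P p S)
    (hut : ∀ σ : DP P, conjBy g (rD P r) σ 1 0 = 0)
    (hI : ∀ σ : DP P, (σ : GQ) ∈ P.inertiaSubgroupIn ℚ → conjBy g (rD P r) σ 1 1 = 1)
    (h00 : ∀ σ ∈ ordG P p, conjBy g (rD P r) σ 0 0 = 1)
    {x : (DP P → k) × (DP P → k)}
    (hcoc : ∀ σ τ : DP P, bval g x (σ * τ) =
      bval g x σ + rD P r σ * bval g x τ * rD P r σ⁻¹)
    (hfin : IsFinLevel P x.2)
    (hx1 : ∀ σ : DP P, (σ : GQ) ∈ P.inertiaSubgroupIn ℚ → x.1 σ = 0)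
    (hxS : ∀ τ : DP P, (τ : GQ) ∈ S → x.2 τ = 0) : x.2 ∈ BddN P p hζ := by
  have hadd : ∀ σ ∈ ordG P p, ∀ τ ∈ ordG P p, x.2 (σ * τ) = x.2 σ + x.2 τ := by
    intro σ hσ τ hτ
    have hσinv : ((σ⁻¹ : DP P) : GQ) ∈ P.inertiaSubgroupIn ℚ := ((ordG P p).inv_mem hσ).1
    rw [snd_mul_of_cocycle P r g hut hcoc, h00 σ hσ, hI σ⁻¹ hσinv, hx1 τ hτ.1]
    ring
  have h1 : x.2 1 = 0 := by
    have := hadd 1 (one_mem _) 1 (one_mem _)
    rw [mul_one] at this
    exact left_eq_add.mp this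
  refine ⟨hadd, hasFinLev_of_isFinLevel P p hfin h1, fun ℓ => ?_⟩
  refine lev_of_KBon P p hζ hS (fun τ _ hτS => ?_)
  rw [hxS τ hτS, map_zero]

end Cocycle

/-! ### `OrdLocalGen` at `W := BddN` -/

section Inst

variable {k : Type} [Field k] (P : ValuationSubring Qb)
  (r : GQ →* Matrix (Fin 2) (Fin 2) k) (g : GL (Fin 2) k)
  (p : ℕ) [hp : Fact p.Prime] {ζ : Qb} (hζ : IsPrimitiveRoot ζ p)

/-- binder `hcobW` of `OrdLocalGen.card_Lmax_le` for `W := BddN`, from the Kummer-depth bound of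
`r` itself. -/
theorem hcobW_of_KBon (hS : KBon P p {τ : GQ | r τ = 1})
    (hut : ∀ σ : DP P, conjBy g (rD P r) σ 1 0 = 0)
    (hI : ∀ σ : DP P, (σ : GQ) ∈ P.inertiaSubgroupIn ℚ → conjBy g (rD P r) σ 1 1 = 1)
    (h00 : ∀ σ ∈ ordG P p, conjBy g (rD P r) σ 0 0 = 1)
    (hrL : ∃ L : IntermediateField ℚ Qb, FiniteDimensional ℚ L ∧
      ∀ s : GQ, (∀ y ∈ L, s y = y) → r s = 1)
    (f : DP P → k) (X : Matrix (Fin 2) (Fin 2) k) (_hX : X.trace = 0)
    (hf : nval g f = cob (rD P r) X) : f ∈ BddN P p hζ := by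
  have hmem := zero_mk_mem_ZBg_of_cob P r g ⊤ hrL f Submodule.mem_top X hf
  refine mem_BddN_of_cocycle P r g p hζ hS hut hI h00 (x := ((0 : DP P → k), f)) hmem.1
    hmem.2.2.1 (fun _ _ => rfl) (fun τ hτ => ?_)
  have h1 : r (τ : GQ) = 1 := hτ
  have h2 : rD P r τ = 1 := h1
  have h3 : rD P r τ⁻¹ = 1 := by
    have := map_mul (rD P r) τ⁻¹ τ
    rw [inv_mul_cancel, map_one, h2, mul_one] at this
    exact this.symm
  have h4 : bor g ((0 : k), f τ) = bor g ((0 : k), (0 : k)) := by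
    have e1 := congrFun (bval_zero_left g f) τ
    rw [bval_apply] at e1
    have e2 : bor g ((0 : k), (0 : k)) = 0 := by
      have : ((0 : k), (0 : k)) = (0 : k × k) := rfl
      rw [this, map_zero]
    have e3 : nval g f τ = 0 := by
      rw [hf, cob_apply, h2, h3, Matrix.one_mul, Matrix.mul_one, sub_self]
    exact e1.trans (e3.trans e2.symm)
  exact congrArg Prod.snd (bor_injective g h4)

/-- **the count** `OrdLocalGen.card_Lmax_le` at `W := BddN`: the only remaining binder is `hN`. -/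
theorem card_Lmax_le_bdd [Finite k] {q : ℕ} (hq : q.Prime) (hA : (q : Qb) ∈ P.nonunits)
    (hS : KBon P p {τ : GQ | r τ = 1})
    (hut : ∀ σ : DP P, conjBy g (rD P r) σ 1 0 = 0)
    (hI : ∀ σ : DP P, (σ : GQ) ∈ P.inertiaSubgroupIn ℚ → conjBy g (rD P r) σ 1 1 = 1)
    (h00 : ∀ σ ∈ ordG P p, conjBy g (rD P r) σ 0 0 = 1)
    (hrL : ∃ L : IntermediateField ℚ Qb, FiniteDimensional ℚ L ∧
      ∀ s : GQ, (∀ y ∈ L, s y = y) → r s = 1)
    (hN : ∃ ℓ : ↥(ZBg P r g (BddN P p hζ) ⊓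
        LinearMap.ker (LinearMap.fst k (DP P → k) (DP P → k))) →ₗ[k] (Fin 2 → k),
      Function.Injective ℓ)
    {H : Type*} [AddCommGroup H] [Module k H]
    (π : (DP P → Matrix (Fin 2) (Fin 2) k) →ₗ[k] H)
    (hπ : ∀ X : Matrix (Fin 2) (Fin 2) k, X.trace = 0 → π (cob (rD P r) X) = 0) :
    Nat.card (((ZBg P r g (BddN P p hζ)).map (bval g)).map π) ≤
      Nat.card (inv0 (rD P r)) * Nat.card k :=
  OrdLocalGen.card_Lmax_le P r g (BddN P p hζ) hq hA hut hrL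
    (hcobW_of_KBon P r g p hζ hS hut hI h00 hrL) hN π hπ

omit r in
/-- **membership** `OrdLocalGen.exists_mem_ZBg_of_ordinary` at `W := BddN`: the tangent cocycle of
an ordinary lift `t` satisfying the Kummer-depth bound is `bval g x + cob X` with `x ∈ ZBg … BddN`. -/
theorem exists_mem_ZBg_bdd_of_ordinary (h2 : (2 : k) ≠ 0)
    (t : GQ →* Matrix (Fin 2) (Fin 2) (DualNumber k)) (ht : MatCont t)
    (hord : (ofMat t ht).IsOrdinaryAt p)
    (htr : ∀ σ, Matrix.trace (tanCocycle t σ) = 0)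
    (hP : P.LiesOverPrime p)
    (hg : ∃ σ₀ ∈ P.inertiaSubgroupIn ℚ, ∃ w₀ : Fin 2 → k,
      (rfst t σ₀).mulVec w₀ - w₀ = gcol g 0)
    (hS : KBon P p {τ : GQ | t τ = 1})
    (hdet1 : ∀ σ ∈ ordG P p, (rfst t (σ : GQ)).det = 1) :
    (∀ σ : DP P, conjBy g (rD P (rfst t)) σ 1 0 = 0) ∧
    (∀ σ : DP P, (σ : GQ) ∈ P.inertiaSubgroupIn ℚ → conjBy g (rD P (rfst t)) σ 1 1 = 1) ∧
    ∃ (X : Matrix (Fin 2) (Fin 2) k) (x : (DP P → k) × (DP P → k)), X.trace = 0 ∧
      x ∈ ZBg P (rfst t) g (BddN P p hζ) ∧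
      ∀ σ : DP P, tanCocycle t (σ : GQ) = bval g x σ + cob (rD P (rfst t)) X σ := by
  obtain ⟨hut, hI, -⟩ := exists_mem_ZBg_of_ordinary P g ⊤ p h2 t ht hord htr hP hg
    (fun _ _ _ _ _ _ => Submodule.mem_top)
  have h00 : ∀ σ ∈ ordG P p, conjBy g (rD P (rfst t)) σ 0 0 = 1 := by
    intro σ hσ
    rw [conjBy_zero_zero_eq_det g (rD P (rfst t)) σ (hut σ) (hI σ hσ.1)]
    exact hdet1 σ hσ
  exact exists_mem_ZBg_of_ordinary P g (BddN P p hζ) p h2 t ht hord htr hP hg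
    (fun x hcoc _ hfin2 hx1 hxS =>
      mem_BddN_of_cocycle P (rfst t) g p hζ hS hut hI h00 hcoc hfin2 hx1 (fun τ hτ => hxS τ hτ))

end Inst

end Fermat.Agent.GP.Flat.OrdBdd
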