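/-
GATE-P (S56) / [P-FLAT] node S56-FLAT-ORDCOUNT, part (D') (helper47): `OrdBdd` with the
**finite-level consumer form `KBsub` of the Kummer-depth bound (iv)** (the shape helper14's `KbOrd`
proves: the Kummer element `y` lies in the field cut out by the EXACT kernel of `t` and `μ_p`).

* `kerMu P p τ : Subgroup (DP P)` : `{σ ∈ D_P | τ σ = 1 ∧ σ fixes μ_p}` (normal in `D_P`).
* `KBsub P p T` : every `y ≠ 0` fixed by `T` with `y ^ p ∈ ordK` has `y ^ p ∈ (1 + p 𝒪)(ordK^×)^p`.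
* `lev_of_KBsub` : a character additive on `T ⊔ ordG`, of finite level, trivial on `T` has
  `Lev (v p)` on the frame `(ordG, ordK)` (Kummer generator on the finite-level frame
  `T ⊔ ordG`: helper75 `exists_isGen`).
* `mem_BddN_of_cocycle_sub`, `hcobW_of_KBsub`, `card_Lmax_le_bdd'`,
  `exists_mem_ZBg_bdd_of_ordinary'` : the statements of `OrdBdd` with `KBsub`.
-/
import Fermat.Agent.GP.Flat.OrdBdd

set_option autoImplicit false

namespace Fermat.Agent.GP.Flat.OrdKb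

open Matrix Module Fermat.Agent.S53_helper35 Fermat.Agent.GP.Tan.Cocycle
  Fermat.Agent.GP.Loc.StrictOrdDim Fermat.Agent.GP.Flat.OrdCount Fermat.Agent.GP.Flat.OrdCocycle
  Fermat.Agent.GP.Flat.OrdLocal Fermat.Agent.GP.Flat.OrdLocalGen Fermat.Agent.GP.Flat.OrdFrame
  Fermat.Agent.GP.Flat.OrdBdd Fermat.Agent.GP.Flat.SSChain Fermat.Agent.GP.Flat.SSKummer

open scoped Pointwise

local notation "Qb" => AlgebraicClosure ℚ

section Defs

variable (P : ValuationSubring Qb) (p : ℕ)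

/-- `{σ ∈ D_P | τ σ = 1 ∧ σ fixes μ_p}`. -/
def kerMu {M : Type*} [Monoid M] (τ : GQ →* M) : Subgroup (DP P) where
  carrier := {σ | τ (σ : GQ) = 1 ∧ ∀ μ : Qb, μ ^ p = 1 → (σ : GQ) μ = μ}
  mul_mem' := by
    rintro σ σ' ⟨h1, h2⟩ ⟨h1', h2'⟩
    refine ⟨?_, fun μ hμ => ?_⟩
    · show τ ((σ : GQ) * (σ' : GQ)) = 1
      rw [map_mul, h1, h1', mul_one]
    · show (σ : GQ) ((σ' : GQ) μ) = μ
      rw [h2' μ hμ, h2 μ hμ]
  one_mem' := ⟨map_one τ, fun _ _ => rfl⟩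
  inv_mem' := by
    rintro σ ⟨h1, h2⟩
    refine ⟨?_, fun μ hμ => ?_⟩
    · have := map_mul τ ((σ : GQ)⁻¹) (σ : GQ)
      rw [inv_mul_cancel, map_one, h1, mul_one] at this
      exact this.symm
    · have h := h2 μ hμ
      calc ((σ⁻¹ : DP P) : GQ) μ = (σ : GQ)⁻¹ ((σ : GQ) μ) := by rw [h]; rfl
        _ = μ := by
          show ((σ : GQ)⁻¹ * (σ : GQ)) μ = μ
          rw [inv_mul_cancel]; rfl

theorem mem_kerMu_iff {M : Type*} [Monoid M] (τ : GQ →* M) (σ : DP P) :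
    σ ∈ kerMu P p τ ↔ τ (σ : GQ) = 1 ∧ ∀ μ : Qb, μ ^ p = 1 → (σ : GQ) μ = μ := Iff.rfl

instance kerMu_normal {M : Type*} [Monoid M] (τ : GQ →* M) : (kerMu P p τ).Normal := by
  refine ⟨fun n hn d => ⟨?_, fun μ hμ => ?_⟩⟩
  · have hinv : τ ((d : GQ)) * τ ((d : GQ)⁻¹) = 1 := by
      rw [← map_mul, mul_inv_cancel, map_one]
    show τ ((d : GQ) * (n : GQ) * (d : GQ)⁻¹) = 1
    rw [map_mul, map_mul, hn.1, mul_one, hinv]
  · have h1 : ((d⁻¹ : DP P) : GQ) μ ^ p = 1 := by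
      rw [← map_pow, hμ, map_one]
    show (d : GQ) ((n : GQ) (((d⁻¹ : DP P) : GQ) μ)) = μ
    rw [hn.2 _ h1]
    show ((d : GQ) * (d : GQ)⁻¹) μ = μ
    rw [mul_inv_cancel]; rfl

theorem kerMu_le_of_imp {M M' : Type*} [Monoid M] [Monoid M'] (τ : GQ →* M) (τ' : GQ →* M')
    (h : ∀ σ : GQ, τ σ = 1 → τ' σ = 1) : kerMu P p τ ≤ kerMu P p τ' :=
  fun _ hσ => ⟨h _ hσ.1, hσ.2⟩

/-- **The Kummer-depth bound (iv), finite-level consumer form.** -/
def KBsub (T : Subgroup (DP P)) : Prop :=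
  ∀ y : Qb, y ≠ 0 → (∀ τ ∈ T, τ • y = y) → y ^ p ∈ ordK P p →
    ∃ w ∈ ordK P p, w ≠ 0 ∧ P.valuation (y ^ p * w ^ p - 1) ≤ P.valuation (p : Qb)

theorem KBsub.mono {T T' : Subgroup (DP P)} (h : T ≤ T') (hT : KBsub P p T) : KBsub P p T' :=
  fun y hy0 hy hyp => hT y hy0 (fun τ hτ => hy τ (h hτ)) hyp

/-- the fixed subfield of a subgroup of `D_P`. -/
def fixSub (H : Subgroup (DP P)) : Subfield Qb where
  carrier := {x | ∀ σ ∈ H, σ • x = x}
  mul_mem' hx hy σ hσ := by rw [smul_mul', hx σ hσ, hy σ hσ]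
  one_mem' σ _ := smul_one σ
  add_mem' hx hy σ hσ := by rw [smul_add, hx σ hσ, hy σ hσ]
  zero_mem' σ _ := smul_zero σ
  neg_mem' hx σ hσ := by rw [smul_neg, hx σ hσ]
  inv_mem' x hx σ hσ := by rw [smul_inv'', hx σ hσ]

theorem mem_fixSub_iff (H : Subgroup (DP P)) (x : Qb) :
    x ∈ fixSub P H ↔ ∀ g ∈ H, g • x = x := Iff.rfl

/-- finite orbits. -/
theorem horbH (H : Subgroup (DP P)) (x : Qb) : (Set.range fun g : H => g • x).Finite := by
  have hx : IsIntegral ℚ x := Algebra.IsIntegral.isIntegral x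
  refine ((minpoly ℚ x).rootSet_finite Qb).subset ?_
  rintro _ ⟨g, rfl⟩
  rw [Polynomial.mem_rootSet]
  refine ⟨minpoly.ne_zero hx, ?_⟩
  show Polynomial.aeval (((g : DP P) : GQ) x) (minpoly ℚ x) = 0
  rw [Polynomial.aeval_algEquiv]
  simp [minpoly.aeval]

end Defs

section Lev

variable (P : ValuationSubring Qb) (p : ℕ) [hp : Fact p.Prime] {ζ : Qb}

/-- **a character additive on the finite-level group `T ⊔ ordG`, trivial on `T`, has level
`≥ v p`**, given the finite-level Kummer-depth bound for `T`. -/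
theorem lev_of_KBsub (hζ : IsPrimitiveRoot ζ p) (T : Subgroup (DP P))
    (hTμ : ∀ τ ∈ T, ∀ μ : Qb, μ ^ p = 1 → (τ : GQ) μ = μ) (hKB : KBsub P p T)
    {χ : DP P → ZMod p}
    (hadd : ∀ g ∈ T ⊔ ordG P p, ∀ g' ∈ T ⊔ ordG P p, χ (g * g') = χ g + χ g')
    (hlev : ∃ s : Finset Qb, ∀ g ∈ T ⊔ ordG P p, (∀ x ∈ s, g • x = x) → χ g = 0)
    (hT : ∀ τ ∈ T, χ τ = 0) :
    Lev P.valuation (ordG P p) (ordK P p) ζ (P.valuation (p : Qb)) χ := by
  have hK₁ : ∀ x, x ∈ fixSub P (T ⊔ ordG P p) ↔ ∀ g ∈ T ⊔ ordG P p, g • x = x := fun _ => Iff.rfl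
  have hstab : T ⊔ ordG P p ≤ MulAction.stabilizer (DP P) ζ := by
    refine sup_le (fun τ hτ => ?_) (fun g hg => ?_)
    · exact hTμ τ hτ ζ hζ.pow_eq_one
    · exact hg.2 ζ hζ.pow_eq_one
  have hζK₁ : ζ ∈ fixSub P (T ⊔ ordG P p) := fun g hg => hstab hg
  obtain ⟨y, hy⟩ := exists_isGen hK₁ hζ hζK₁ (horbH P (T ⊔ ordG P p)) hadd hlev
  have hyT : ∀ τ ∈ T, τ • y = y := fun τ hτ => by
    rw [hy.2 τ (Subgroup.mem_sup_left hτ), hT τ hτ, zpw_zero, one_mul]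
  have hyp1 : y ^ p ∈ fixSub P (T ⊔ ordG P p) := gen_pow_mem hK₁ hζ hζK₁ hy
  have hyp : y ^ p ∈ ordK P p := fun g hg => hyp1 g (Subgroup.mem_sup_right hg)
  obtain ⟨w, hw, hw0, hle⟩ := hKB y hy.1 hyT hyp
  exact lev_of_exists P.valuation (mem_ordK_iff P p) hζ (zeta_mem_ordK P p hζ.pow_eq_one)
    ⟨y, w, ⟨hy.1, fun g hg => hy.2 g (Subgroup.mem_sup_right hg)⟩, hw, hw0, hle⟩

end Lev

section Cocycle

variable {k : Type} [Field k] (P : ValuationSubring Qb)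
  (r : GQ →* Matrix (Fin 2) (Fin 2) k) (g : GL (Fin 2) k)
  (p : ℕ) [hp : Fact p.Prime] {ζ : Qb} (hζ : IsPrimitiveRoot ζ p)

omit hp in
/-- `conjBy g r σ = 1` when `r σ = 1`. -/
theorem conjBy_eq_one {D : Type*} [Group D] (ρ : D →* Matrix (Fin 2) (Fin 2) k) {σ : D}
    (h : ρ σ = 1) : conjBy g ρ σ = 1 := by
  unfold conjBy
  rw [h, Matrix.mul_one, ← Units.val_mul, inv_mul_cancel, Units.val_one]

/-- **The `N`-part of a finite-level Borel cocycle vanishing on `T` is bounded**, given the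
finite-level Kummer-depth bound for the normal subgroup `T ≤ ker r ∩ Fix(μ_p)`. -/
theorem mem_BddN_of_cocycle_sub (T : Subgroup (DP P)) [hTn : T.Normal]
    (hTμ : ∀ τ ∈ T, ∀ μ : Qb, μ ^ p = 1 → (τ : GQ) μ = μ) (hKB : KBsub P p T)
    (hTr : ∀ τ ∈ T, r (τ : GQ) = 1)
    (hut : ∀ σ : DP P, conjBy g (rD P r) σ 1 0 = 0)
    (hI : ∀ σ : DP P, (σ : GQ) ∈ P.inertiaSubgroupIn ℚ → conjBy g (rD P r) σ 1 1 = 1)
    (h00 : ∀ σ ∈ ordG P p, conjBy g (rD P r) σ 0 0 = 1)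
    {x : (DP P → k) × (DP P → k)}
    (hcoc : ∀ σ τ : DP P, bval g x (σ * τ) =
      bval g x σ + rD P r σ * bval g x τ * rD P r σ⁻¹)
    (hfin : IsFinLevel P x.2)
    (hx1 : ∀ σ : DP P, (σ : GQ) ∈ P.inertiaSubgroupIn ℚ → x.1 σ = 0)
    (hxT : ∀ τ ∈ T, x.2 τ = 0) : x.2 ∈ BddN P p hζ := by
  -- additivity on `ordG`
  have hadd : ∀ σ ∈ ordG P p, ∀ τ ∈ ordG P p, x.2 (σ * τ) = x.2 σ + x.2 τ := by
    intro σ hσ τ hτ
    have hσinv : ((σ⁻¹ : DP P) : GQ) ∈ P.inertiaSubgroupIn ℚ := ((ordG P p).inv_mem hσ).1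
    rw [snd_mul_of_cocycle P r g hut hcoc, h00 σ hσ, hI σ⁻¹ hσinv, hx1 τ hτ.1]
    ring
  have h1 : x.2 1 = 0 := by
    have := hadd 1 (one_mem _) 1 (one_mem _)
    rw [mul_one] at this
    exact left_eq_add.mp this
  -- left invariance under `T`
  have hleft : ∀ n ∈ T, ∀ σ : DP P, x.2 (n * σ) = x.2 σ := by
    intro n hn σ
    have e1 : conjBy g (rD P r) n = 1 := conjBy_eq_one g (rD P r) (hTr n hn)
    have e2 : conjBy g (rD P r) n⁻¹ = 1 := conjBy_eq_one g (rD P r) (hTr n⁻¹ (T.inv_mem hn))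
    rw [snd_mul_of_cocycle P r g hut hcoc, e1, e2, hxT n hn]
    simp
  -- additivity on `T ⊔ ordG`
  have haddH : ∀ a ∈ T ⊔ ordG P p, ∀ a' ∈ T ⊔ ordG P p, x.2 (a * a') = x.2 a + x.2 a' := by
    intro a ha a' ha'
    have hset : ((T ⊔ ordG P p : Subgroup (DP P)) : Set (DP P)) = (T : Set (DP P)) * (ordG P p : Set (DP P)) :=
      Subgroup.normal_mul T (ordG P p)
    have ha2 : a ∈ (T : Set (DP P)) * (ordG P p : Set (DP P)) := by rw [← hset]; exact ha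
    have ha2' : a' ∈ (T : Set (DP P)) * (ordG P p : Set (DP P)) := by rw [← hset]; exact ha'
    obtain ⟨n, hn, h, hh, rfl⟩ := Set.mem_mul.mp ha2
    obtain ⟨n', hn', h', hh', rfl⟩ := Set.mem_mul.mp ha2'
    have e : n * h * (n' * h') = n * ((h * n' * h⁻¹) * (h * h')) := by group
    rw [e, hleft n hn, hleft _ (hTn.conj_mem n' hn' h), hadd h hh h' hh', hleft n hn,
      hleft n' hn']
  -- finite level on all of `D_P`
  obtain ⟨s, hs⟩ : ∃ s : Finset Qb, ∀ a : DP P, (∀ y ∈ s, a • y = y) → x.2 a = 0 := by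
    obtain ⟨L, hL, hf⟩ := hfin
    obtain ⟨s, hs⟩ := exists_finset_fixing L
    refine ⟨s, fun a ha => ?_⟩
    have := hf 1 a (fun y hy => hs (a : GQ) ha y hy)
    rw [one_mul, h1] at this
    exact this
  refine ⟨hadd, ⟨s, fun a _ ha => hs a ha⟩, fun ℓ => ?_⟩
  refine lev_of_KBsub P p hζ T hTμ hKB (fun a ha a' ha' => ?_) ⟨s, fun a _ ha => ?_⟩
    (fun τ hτ => ?_)
  · rw [haddH a ha a' ha', map_add]
  · rw [hs a ha, map_zero]
  · rw [hxT τ hτ, map_zero]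

/-- binder `hcobW` of `OrdLocalGen.card_Lmax_le` for `W := BddN`, from the finite-level
Kummer-depth bound of `r` itself. -/
theorem hcobW_of_KBsub (hKB : KBsub P p (kerMu P p r))
    (hut : ∀ σ : DP P, conjBy g (rD P r) σ 1 0 = 0)
    (hI : ∀ σ : DP P, (σ : GQ) ∈ P.inertiaSubgroupIn ℚ → conjBy g (rD P r) σ 1 1 = 1)
    (h00 : ∀ σ ∈ ordG P p, conjBy g (rD P r) σ 0 0 = 1)
    (hrL : ∃ L : IntermediateField ℚ Qb, FiniteDimensional ℚ L ∧
      ∀ s : GQ, (∀ y ∈ L, s y = y) → r s = 1)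
    (f : DP P → k) (X : Matrix (Fin 2) (Fin 2) k) (_hX : X.trace = 0)
    (hf : nval g f = cob (rD P r) X) : f ∈ BddN P p hζ := by
  have hmem := zero_mk_mem_ZBg_of_cob P r g ⊤ hrL f Submodule.mem_top X hf
  refine mem_BddN_of_cocycle_sub P r g p hζ (kerMu P p r) (fun τ hτ => hτ.2) hKB
    (fun τ hτ => hτ.1) hut hI h00 (x := ((0 : DP P → k), f)) hmem.1
    hmem.2.2.1 (fun _ _ => rfl) (fun τ hτ => ?_)
  have h2 : rD P r τ = 1 := hτ.1
  have h3 : rD P r τ⁻¹ = 1 := by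
    have := map_mul (rD P r) τ⁻¹ τ
    rw [inv_mul_cancel, map_one, h2, mul_one] at this
    exact this.symm
  have h4 : bor g ((0 : k), f τ) = bor g ((0 : k), (0 : k)) := by
    have e1 := congrFun (bval_zero_left g f) τ
    rw [bval_apply] at e1
    have e2 : bor g ((0 : k), (0 : k)) = 0 := by
      have : ((0 : k), (0 : k)) = (0 : k × k) := rfl
      rw [this, map_zero]
    have e3 : nval g f τ = 0 := by
      rw [hf, cob_apply, h2, h3, Matrix.one_mul, Matrix.mul_one, sub_self]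
    exact e1.trans (e3.trans e2.symm)
  exact congrArg Prod.snd (bor_injective g h4)

/-- **the count** at `W := BddN` with the finite-level bound: the only remaining binder is `hN`. -/
theorem card_Lmax_le_bdd' [Finite k] {q : ℕ} (hq : q.Prime) (hA : (q : Qb) ∈ P.nonunits)
    (hKB : KBsub P p (kerMu P p r))
    (hut : ∀ σ : DP P, conjBy g (rD P r) σ 1 0 = 0)
    (hI : ∀ σ : DP P, (σ : GQ) ∈ P.inertiaSubgroupIn ℚ → conjBy g (rD P r) σ 1 1 = 1)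
    (h00 : ∀ σ ∈ ordG P p, conjBy g (rD P r) σ 0 0 = 1)
    (hrL : ∃ L : IntermediateField ℚ Qb, FiniteDimensional ℚ L ∧
      ∀ s : GQ, (∀ y ∈ L, s y = y) → r s = 1)
    (hN : ∃ ℓ : ↥(ZBg P r g (BddN P p hζ) ⊓
        LinearMap.ker (LinearMap.fst k (DP P → k) (DP P → k))) →ₗ[k] (Fin 2 → k),
      Function.Injective ℓ)
    {H : Type*} [AddCommGroup H] [Module k H]
    (π : (DP P → Matrix (Fin 2) (Fin 2) k) →ₗ[k] H)
    (hπ : ∀ X : Matrix (Fin 2) (Fin 2) k, X.trace = 0 → π (cob (rD P r) X) = 0) :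
    Nat.card (((ZBg P r g (BddN P p hζ)).map (bval g)).map π) ≤
      Nat.card (inv0 (rD P r)) * Nat.card k :=
  OrdLocalGen.card_Lmax_le P r g (BddN P p hζ) hq hA hut hrL
    (hcobW_of_KBsub P r g p hζ hKB hut hI h00 hrL) hN π hπ

omit r in
/-- **membership** at `W := BddN` with the finite-level bound. -/
theorem exists_mem_ZBg_bdd_of_ordinary' (h2 : (2 : k) ≠ 0)
    (t : GQ →* Matrix (Fin 2) (Fin 2) (DualNumber k)) (ht : MatCont t)
    (hord : (ofMat t ht).IsOrdinaryAt p)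
    (htr : ∀ σ, Matrix.trace (tanCocycle t σ) = 0)
    (hP : P.LiesOverPrime p)
    (hg : ∃ σ₀ ∈ P.inertiaSubgroupIn ℚ, ∃ w₀ : Fin 2 → k,
      (rfst t σ₀).mulVec w₀ - w₀ = gcol g 0)
    (hKB : KBsub P p (kerMu P p t))
    (hdet1 : ∀ σ ∈ ordG P p, (rfst t (σ : GQ)).det = 1) :
    (∀ σ : DP P, conjBy g (rD P (rfst t)) σ 1 0 = 0) ∧
    (∀ σ : DP P, (σ : GQ) ∈ P.inertiaSubgroupIn ℚ → conjBy g (rD P (rfst t)) σ 1 1 = 1) ∧
    ∃ (X : Matrix (Fin 2) (Fin 2) k) (x : (DP P → k) × (DP P → k)), X.trace = 0 ∧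
      x ∈ ZBg P (rfst t) g (BddN P p hζ) ∧
      ∀ σ : DP P, tanCocycle t (σ : GQ) = bval g x σ + cob (rD P (rfst t)) X σ := by
  obtain ⟨hut, hI, -⟩ := exists_mem_ZBg_of_ordinary P g ⊤ p h2 t ht hord htr hP hg
    (fun _ _ _ _ _ _ => Submodule.mem_top)
  have h00 : ∀ σ ∈ ordG P p, conjBy g (rD P (rfst t)) σ 0 0 = 1 := by
    intro σ hσ
    rw [conjBy_zero_zero_eq_det g (rD P (rfst t)) σ (hut σ) (hI σ hσ.1)]
    exact hdet1 σ hσ
  have hTr : ∀ τ ∈ kerMu P p t, rfst t (τ : GQ) = 1 := by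
    intro τ hτ
    show mfst (t (τ : GQ)) = 1
    rw [hτ.1, mfst_one]
  exact exists_mem_ZBg_of_ordinary P g (BddN P p hζ) p h2 t ht hord htr hP hg
    (fun x hcoc _ hfin2 hx1 hxS =>
      mem_BddN_of_cocycle_sub P (rfst t) g p hζ (kerMu P p t) (fun τ hτ => hτ.2) hKB hTr
        hut hI h00 hcoc hfin2 hx1 (fun τ hτ => hxS τ hτ.1))

omit r hp in
/-- the bound for `r̄` follows from the bound for any lift. -/
theorem KBsub_rfst (t : GQ →* Matrix (Fin 2) (Fin 2) (DualNumber k))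
    (hKB : KBsub P p (kerMu P p t)) : KBsub P p (kerMu P p (rfst t)) := by
  refine KBsub.mono P p (kerMu_le_of_imp P p t (rfst t) (fun σ hσ => ?_)) hKB
  show mfst (t σ) = 1
  rw [hσ, mfst_one]

end Cocycle

end Fermat.Agent.GP.Flat.OrdKb
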