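/-
GATE-P (S56) / [P-FLAT] node S56-FLAT-ORDCOUNT, part (E) (helper47): **the binder `hN` of the
ordinary-flat count** (`ZBg ⊓ ker fst` embeds into `k²`) from

* the one-character chain count on the frame `(ordG, ordK)` in generator form (`hgen`: the
  output shape of helper46's `S56-FLAT-ORD-NCOUNT`), and
* the `B¹`-kernel lemma: an `N`-valued cocycle `f` (for the character `ψ = χ₀ / χ₁` of `D_P`)
  which vanishes on `ordG` and at an inertia element `σ₁` with `ψ(σ₁) ≠ 1` vanishes identically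
  (`D_P / ordG` is abelian: commutators with `σ₁` lie in `ordG`).

* `psi g ρ` : the character `σ ↦ T₀₀(σ) T₁₁(σ⁻¹)` of an upper triangular `ρ`.
* `snd_mul_of_mem`, `snd_conj_of_mem` : cocycle identity / `D_P`-equivariance of the `N`-part of
  members of `ZBg ⊓ ker fst`.
* `comm_mem_ordG` : `d σ d⁻¹ σ⁻¹ ∈ ordG` for `σ ∈ I_P`.
* `snd_eq_zero_of_vanish` (`B¹`-kernel), `hN_of_gen`.
-/
import Fermat.Agent.GP.Flat.OrdKb

set_option autoImplicit false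

namespace Fermat.Agent.GP.Flat.OrdN

open Matrix Module Fermat.Agent.S53_helper35 Fermat.Agent.GP.Tan.Cocycle
  Fermat.Agent.GP.Loc.StrictOrdDim Fermat.Agent.GP.Flat.OrdCount Fermat.Agent.GP.Flat.OrdCocycle
  Fermat.Agent.GP.Flat.OrdLocal Fermat.Agent.GP.Flat.OrdLocalGen Fermat.Agent.GP.Flat.OrdFrame
  Fermat.Agent.GP.Flat.OrdBdd

local notation "Qb" => AlgebraicClosure ℚ

/-! ### the characters of an upper triangular representation -/

section Tri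

variable {k : Type*} [Field k] {D : Type*} [Group D] (g : GL (Fin 2) k)
  (ρ : D →* Matrix (Fin 2) (Fin 2) k)

theorem conjBy_mul (σ τ : D) : conjBy g ρ (σ * τ) = conjBy g ρ σ * conjBy g ρ τ := by
  unfold conjBy
  have h1 : (g : Matrix (Fin 2) (Fin 2) k) * ((g⁻¹ : GL (Fin 2) k) : Matrix (Fin 2) (Fin 2) k) = 1 := by
    rw [← Units.val_mul, mul_inv_cancel, Units.val_one]
  rw [map_mul]
  calc ((g⁻¹ : GL (Fin 2) k) : Matrix (Fin 2) (Fin 2) k) * (ρ σ * ρ τ) * (g : Matrix (Fin 2) (Fin 2) k)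
      = ((g⁻¹ : GL (Fin 2) k) : Matrix (Fin 2) (Fin 2) k) * ρ σ * 1 * ρ τ *
          (g : Matrix (Fin 2) (Fin 2) k) := by
        simp only [Matrix.mul_one, Matrix.mul_assoc]
    _ = _ := by
        rw [← h1]
        simp only [Matrix.mul_assoc]

theorem conjBy_one : conjBy g ρ 1 = 1 := by
  unfold conjBy
  rw [map_one, Matrix.mul_one, ← Units.val_mul, inv_mul_cancel, Units.val_one]

variable (hut : ∀ σ, conjBy g ρ σ 1 0 = 0)
include hut

theorem conjBy_zero_zero_mul (σ τ : D) :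
    conjBy g ρ (σ * τ) 0 0 = conjBy g ρ σ 0 0 * conjBy g ρ τ 0 0 := by
  rw [conjBy_mul, Matrix.mul_apply, Fin.sum_univ_two, hut τ, mul_zero, add_zero]

theorem conjBy_one_one_mul (σ τ : D) :
    conjBy g ρ (σ * τ) 1 1 = conjBy g ρ σ 1 1 * conjBy g ρ τ 1 1 := by
  rw [conjBy_mul, Matrix.mul_apply, Fin.sum_univ_two, hut σ, zero_mul, zero_add]

/-- the character `ψ = χ₀ / χ₁`. -/
def psi (σ : D) : k := conjBy g ρ σ 0 0 * conjBy g ρ σ⁻¹ 1 1

omit hut in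
theorem psi_def (σ : D) : psi g ρ σ = conjBy g ρ σ 0 0 * conjBy g ρ σ⁻¹ 1 1 := rfl

theorem psi_mul (σ τ : D) : psi g ρ (σ * τ) = psi g ρ σ * psi g ρ τ := by
  unfold psi
  rw [conjBy_zero_zero_mul g ρ hut, _root_.mul_inv_rev, conjBy_one_one_mul g ρ hut]
  ring

omit hut in
theorem psi_one : psi g ρ 1 = 1 := by
  unfold psi
  rw [inv_one, conjBy_one]
  simp

theorem psi_mul_inv (σ : D) : psi g ρ σ * psi g ρ σ⁻¹ = 1 := by
  rw [← psi_mul g ρ hut, mul_inv_cancel, psi_one]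

end Tri

/-! ### commutators with inertia elements -/

section Comm

variable (P : ValuationSubring Qb) (p : ℕ)

/-- every Galois element acts on `μ_p` by a power map. -/
theorem exists_pow_apply {ζ : Qb} (hp : 0 < p) (hζ : IsPrimitiveRoot ζ p) (σ : GQ) :
    ∃ n : ℕ, ∀ μ : Qb, μ ^ p = 1 → σ μ = μ ^ n := by
  have h1 : (σ ζ) ^ p = 1 := by rw [← map_pow, hζ.pow_eq_one, map_one]
  have : NeZero p := ⟨hp.ne'⟩
  obtain ⟨n, -, hn⟩ := hζ.eq_pow_of_pow_eq_one h1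
  refine ⟨n, fun μ hμ => ?_⟩
  obtain ⟨j, -, hj⟩ := hζ.eq_pow_of_pow_eq_one hμ
  rw [← hj, map_pow, ← hn, ← pow_mul, ← pow_mul, mul_comm]

/-- the action on `μ_p` is abelian. -/
theorem mul_apply_root_comm {ζ : Qb} (hp : 0 < p) (hζ : IsPrimitiveRoot ζ p) (σ τ : GQ) {μ : Qb}
    (hμ : μ ^ p = 1) : (σ * τ) μ = (τ * σ) μ := by
  obtain ⟨n, hn⟩ := exists_pow_apply p hp hζ σ
  obtain ⟨m, hm⟩ := exists_pow_apply p hp hζ τ
  show σ (τ μ) = τ (σ μ)
  rw [hm μ hμ, hn μ hμ, map_pow, map_pow, hn μ hμ, hm μ hμ, ← pow_mul, ← pow_mul, mul_comm]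

/-- **`D_P / ordG` is abelian over inertia**: `d σ d⁻¹ σ⁻¹ ∈ ordG` for `σ ∈ I_P`. -/
theorem comm_mem_ordG {ζ : Qb} (hp : 0 < p) (hζ : IsPrimitiveRoot ζ p) (d σ : DP P)
    (hσ : (σ : GQ) ∈ P.inertiaSubgroupIn ℚ) : d * σ * d⁻¹ * σ⁻¹ ∈ ordG P p := by
  refine ⟨?_, fun μ hμ => ?_⟩
  · -- `I_P` is normal in `D_P`
    obtain ⟨σ', hσ', heq⟩ := hσ
    have hgg : σ' = σ := Subtype.ext heq
    rw [hgg] at hσ'
    have hn : (P.inertiaSubgroup ℚ).Normal := by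
      unfold ValuationSubring.inertiaSubgroup
      infer_instance
    exact ⟨d * σ * d⁻¹ * σ⁻¹, mul_mem (hn.conj_mem σ hσ' d) (inv_mem hσ'), rfl⟩
  · -- `ν := (σ d)⁻¹ μ` is a `p`-th root of unity and `(d σ) ν = (σ d) ν = μ`
    set ν : Qb := ((σ : GQ) * (d : GQ))⁻¹ μ with hν
    have hν1 : ν ^ p = 1 := by rw [hν, ← map_pow, hμ, map_one]
    have h1 : ((σ : GQ) * (d : GQ)) ν = μ := by
      rw [hν]
      show (((σ : GQ) * (d : GQ)) * ((σ : GQ) * (d : GQ))⁻¹) μ = μ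
      rw [mul_inv_cancel]; rfl
    have h2 : ((d * σ * d⁻¹ * σ⁻¹ : DP P) : GQ) μ = ((d : GQ) * (σ : GQ)) ν := by
      rw [hν]
      show ((d : GQ) * (σ : GQ) * (d : GQ)⁻¹ * (σ : GQ)⁻¹) μ =
        (((d : GQ) * (σ : GQ)) * ((σ : GQ) * (d : GQ))⁻¹) μ
      rw [_root_.mul_inv_rev]
      simp only [mul_assoc]
    rw [h2, mul_apply_root_comm p hp hζ (d : GQ) (σ : GQ) hν1, h1]

end Comm

/-! ### the `N`-parts of `ZBg ⊓ ker fst` -/

section NPart

variable {k : Type} [Field k] (P : ValuationSubring Qb)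
  (r : GQ →* Matrix (Fin 2) (Fin 2) k) (g : GL (Fin 2) k)
  (W : Submodule k (DP P → k))

variable (hut : ∀ σ : DP P, conjBy g (rD P r) σ 1 0 = 0)
include hut

/-- the cocycle identity for the `N`-part of a member of `ZBg ⊓ ker fst`. -/
theorem snd_mul_of_mem {x : (DP P → k) × (DP P → k)} (hx : x ∈ ZBg P r g W) (hx1 : x.1 = 0)
    (σ τ : DP P) : x.2 (σ * τ) = x.2 σ + x.2 τ * psi g (rD P r) σ := by
  rw [snd_mul_of_cocycle P r g hut hx.1 σ τ, hx1, psi_def]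
  simp

theorem snd_one_of_mem {x : (DP P → k) × (DP P → k)} (hx : x ∈ ZBg P r g W) (hx1 : x.1 = 0) :
    x.2 1 = 0 := by
  have := snd_mul_of_mem P r g W hut hx hx1 1 1
  rw [mul_one, psi_one, mul_one] at this
  exact left_eq_add.mp this

/-- `D_P`-equivariance on a subgroup where `ψ = 1`. -/
theorem snd_conj_of_mem {x : (DP P → k) × (DP P → k)} (hx : x ∈ ZBg P r g W) (hx1 : x.1 = 0)
    (d h : DP P) (hh : psi g (rD P r) h = 1) :
    x.2 (d * h * d⁻¹) = psi g (rD P r) d * x.2 h := by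
  have e1 := snd_mul_of_mem P r g W hut hx hx1 (d * h) d⁻¹
  have e2 := snd_mul_of_mem P r g W hut hx hx1 d h
  have e3 := snd_mul_of_mem P r g W hut hx hx1 d d⁻¹
  rw [mul_inv_cancel, snd_one_of_mem P r g W hut hx hx1] at e3
  rw [e1, e2, psi_mul g (rD P r) hut, hh, mul_one]
  linear_combination (-1 : k) * e3

end NPart

/-! ### the `B¹`-kernel lemma and `hN` -/

section HN

variable {k : Type} [Field k] (P : ValuationSubring Qb)
  (r : GQ →* Matrix (Fin 2) (Fin 2) k) (g : GL (Fin 2) k)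
  (p : ℕ) [hp : Fact p.Prime] {ζ : Qb} (hζ : IsPrimitiveRoot ζ p)
  (W : Submodule k (DP P → k))

variable (hut : ∀ σ : DP P, conjBy g (rD P r) σ 1 0 = 0)
  (hI : ∀ σ : DP P, (σ : GQ) ∈ P.inertiaSubgroupIn ℚ → conjBy g (rD P r) σ 1 1 = 1)
  (h00 : ∀ σ ∈ ordG P p, conjBy g (rD P r) σ 0 0 = 1)

include hI h00 in
omit hp in
/-- `ψ = 1` on `ordG`. -/
theorem psi_eq_one_of_mem_ordG {h : DP P} (hh : h ∈ ordG P p) : psi g (rD P r) h = 1 := by
  rw [psi_def, h00 h hh, hI h⁻¹ ((ordG P p).inv_mem hh).1, mul_one]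

include hut hI h00 hζ in
/-- **`B¹`-kernel**: the `N`-part of a member of `ZBg ⊓ ker fst` vanishing on `ordG` and at an
inertia element `σ₁` with `ψ(σ₁) ≠ 1` vanishes identically. -/
theorem snd_eq_zero_of_vanish {x : (DP P → k) × (DP P → k)} (hx : x ∈ ZBg P r g W)
    (hx1 : x.1 = 0) (σ₁ : DP P) (hσ₁ : (σ₁ : GQ) ∈ P.inertiaSubgroupIn ℚ)
    (hψ : psi g (rD P r) σ₁ ≠ 1) (h0 : ∀ h ∈ ordG P p, x.2 h = 0) (h1 : x.2 σ₁ = 0) :
    x.2 = 0 := by
  funext d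
  have hc : d * σ₁ * d⁻¹ * σ₁⁻¹ ∈ ordG P p := comm_mem_ordG P p hp.out.pos hζ d σ₁ hσ₁
  have e : d * σ₁ = (d * σ₁ * d⁻¹ * σ₁⁻¹) * (σ₁ * d) := by group
  have e1 := snd_mul_of_mem P r g W hut hx hx1 d σ₁
  have e2 := snd_mul_of_mem P r g W hut hx hx1 (d * σ₁ * d⁻¹ * σ₁⁻¹) (σ₁ * d)
  have e3 := snd_mul_of_mem P r g W hut hx hx1 σ₁ d
  rw [← e, h0 _ hc, psi_eq_one_of_mem_ordG P r g p hI h00 hc, mul_one, zero_add, e3, h1,
    zero_add, e1, h1, zero_mul, add_zero] at e2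
  -- `x.2 d = x.2 d * ψ σ₁`
  have h3 : x.2 d * (1 - psi g (rD P r) σ₁) = 0 := by linear_combination e2
  rcases mul_eq_zero.mp h3 with h | h
  · exact h
  · exact absurd (sub_eq_zero.mp h).symm hψ

include hut hI h00 hζ in
/-- **the binder `hN`** from the generator form of the one-character chain count. -/
theorem hN_of_gen (σ₁ : DP P) (hσ₁ : (σ₁ : GQ) ∈ P.inertiaSubgroupIn ℚ)
    (hψ : psi g (rD P r) σ₁ ≠ 1)
    (hgen : ∃ F₀ : DP P → k, ∀ F : DP P → k, F ∈ W →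
      (∀ d h : DP P, h ∈ ordG P p → F (d * h * d⁻¹) = psi g (rD P r) d * F h) →
      ∃ c : k, ∀ h ∈ ordG P p, F h = c * F₀ h) :
    ∃ ℓ : ↥(ZBg P r g W ⊓
        LinearMap.ker (LinearMap.fst k (DP P → k) (DP P → k))) →ₗ[k] (Fin 2 → k),
      Function.Injective ℓ := by
  classical
  obtain ⟨F₀, hF₀⟩ := hgen
  -- a point of `ordG` detecting `F₀`
  obtain ⟨h₀, hh₀, hdet⟩ : ∃ h₀ ∈ ordG P p, F₀ h₀ = 0 → ∀ h ∈ ordG P p, F₀ h = 0 := by
    by_cases hex : ∀ h ∈ ordG P p, F₀ h = 0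
    · exact ⟨1, one_mem _, fun _ => hex⟩
    · rw [not_forall] at hex
      obtain ⟨h, hh⟩ := hex
      rw [Classical.not_imp] at hh
      exact ⟨h, hh.1, fun h0 => absurd h0 hh.2⟩
  let pts : Fin 2 → DP P := ![h₀, σ₁]
  let ev : Fin 2 → ((DP P → k) × (DP P → k)) →ₗ[k] k := fun i =>
    (LinearMap.proj (pts i)) ∘ₗ (LinearMap.snd k (DP P → k) (DP P → k))
  refine ⟨(LinearMap.pi ev) ∘ₗ (Submodule.subtype _), ?_⟩
  rw [← LinearMap.ker_eq_bot, LinearMap.ker_eq_bot']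
  rintro ⟨x, hx, hxk⟩ hℓ
  have hx1 : x.1 = 0 := LinearMap.mem_ker.mp hxk
  have hv : ∀ i, x.2 (pts i) = 0 := fun i => congrFun hℓ i
  have hv0 : x.2 h₀ = 0 := hv 0
  have hv1 : x.2 σ₁ = 0 := hv 1
  obtain ⟨c, hc⟩ := hF₀ x.2 hx.2.2.2.2 (fun d h hh =>
    snd_conj_of_mem P r g W hut hx hx1 d h (psi_eq_one_of_mem_ordG P r g p hI h00 hh))
  have h0 : ∀ h ∈ ordG P p, x.2 h = 0 := by
    intro h hh
    have e := hc h₀ hh₀
    rw [hv0] at e
    rcases mul_eq_zero.mp e.symm with hc0 | hF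
    · rw [hc h hh, hc0, zero_mul]
    · rw [hc h hh, hdet hF h hh, mul_zero]
  have h2 := snd_eq_zero_of_vanish P r g p hζ W hut hI h00 hx hx1 σ₁ hσ₁ hψ h0 hv1
  apply Subtype.ext
  exact Prod.ext hx1 h2

end HN

end Fermat.Agent.GP.Flat.OrdN
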