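import Mathlib

/-!
# GATE-P / S56 [P-FLAT] — S56-FLAT-EIGENCOUNT, part 1: Lemma (EC)   (helper25)

Mathlib-only orphan.  The finite-field core of the supersingular / tame eigen-count
`dim_k (BB(-1) ⊗ ad⁰)^Δ ≤ 1`.

**Setting.**  `F` a finite field, `q = #F`; `κ` a finite field extension of `F`; `k` ANY field with
a ring map `ι : F →+* k`; `u : κ`, `u ≠ 0`; `c : k`.

`IsEC ι u c g` says that `g : κ → k` is additive, `F`-semilinear along `ι`
(`g (μ a) = ι μ * g a`) and satisfies the twisted-Frobenius eigen-equation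
`g (u * a ^ q) = c * g a`.

**Lemma (EC)** (`IsEC.mul_eq_mul`): any two such `g₁ g₂` are proportional,
`g₁ a * g₂ b = g₁ b * g₂ a`.  Consequences: `IsEC.exists_generator`, `finrank_ecSubmodule_le_one`.

**Proof.**  Put `Ω = AlgebraicClosure k`, an `F`-algebra through `ι`.  The `n = [κ : F]`
`F`-embeddings `τ : κ → Ω` are an `Ω`-basis of `Hom_F(κ, Ω)` (Dedekind independence + count).  For
`G = ∑ y_τ τ` the eigen-equation reads `c * y (τ ∘ Frob) = y τ * τ u` (`repr_rec`); Frobenius
permutes the embeddings transitively, so a solution with one vanishing coordinate is zero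
(`eq_zero_of_repr_eq_zero`), and two solutions are proportional (`core`).

**Use.**  `K ⊇ ℚ_{p²}(π)` the tame splitting field, `Δ = I ⋊ ⟨φ⟩`, `I = ⟨τ⟩`; on the graded piece
`gr^i ≅ κ` of the unit filtration `τ` acts by `a ↦ λ^i a` and `φ²` by `a ↦ u_i a^{p²}`
(`F = 𝔽_{p²}`, `q = p²`); for the level-one case `e = p - 1` take `F = 𝔽_p`, `q = p` and `φ`.
The `χ`-component of a `Δ`-invariant is a member of `E(u_i, c)`.
-/

namespace Fermat.Agent.GP.Flat.EigenCount

open Module FiniteField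

section Core

variable {F κ Ω : Type*} [Field F] [Fintype F] [Field κ] [Finite κ] [Algebra F κ]
  [Field Ω] [Algebra F Ω]

/-- The `F`-linear operator `a ↦ u * a ^ q` on `κ` (`q = #F`). -/
noncomputable def twFrob (u : κ) : κ →ₗ[F] κ :=
  LinearMap.mulLeft F u ∘ₗ (frobeniusAlgHom F κ).toLinearMap

omit [Finite κ] in
lemma twFrob_apply (u a : κ) : twFrob (F := F) u a = u * a ^ Fintype.card F := rfl

/-- Precomposition with Frobenius, as a permutation of the embeddings. -/
noncomputable def frobPerm : (κ →ₐ[F] Ω) ≃ (κ →ₐ[F] Ω) where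
  toFun τ := τ.comp (frobeniusAlgEquivOfAlgebraic F κ : κ →ₐ[F] κ)
  invFun τ := τ.comp ((frobeniusAlgEquivOfAlgebraic F κ).symm : κ →ₐ[F] κ)
  left_inv τ := by
    ext a
    show τ ((frobeniusAlgEquivOfAlgebraic F κ) ((frobeniusAlgEquivOfAlgebraic F κ).symm a)) = τ a
    rw [AlgEquiv.apply_symm_apply]
  right_inv τ := by
    ext a
    show τ ((frobeniusAlgEquivOfAlgebraic F κ).symm ((frobeniusAlgEquivOfAlgebraic F κ) a)) = τ a
    rw [AlgEquiv.symm_apply_apply]

lemma frobPerm_apply (τ : κ →ₐ[F] Ω) (a : κ) :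
    frobPerm τ a = τ (a ^ Fintype.card F) := rfl

lemma frobPerm_iterate_apply (τ : κ →ₐ[F] Ω) (i : ℕ) (a : κ) :
    (frobPerm^[i] τ) a = τ (a ^ Fintype.card F ^ i) := by
  induction i generalizing τ with
  | zero => simp
  | succ i ih =>
    rw [Function.iterate_succ_apply, ih, frobPerm_apply, ← pow_mul, ← pow_succ]

variable [IsAlgClosed Ω]

/-- Frobenius acts transitively on the embeddings `κ → Ω`. -/
lemma exists_iterate_eq (j τ : κ →ₐ[F] Ω) : ∃ i : ℕ, frobPerm^[i] j = τ := by
  have hinj : Function.Injective fun i : Fin (finrank F κ) => (frobPerm^[i.1] j : κ →ₐ[F] Ω) := by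
    intro a b hab
    apply (bijective_frobeniusAlgEquivOfAlgebraic_pow F κ).1
    ext x
    have h := DFunLike.congr_fun hab x
    simp only [frobPerm_iterate_apply] at h
    have h' := j.toRingHom.injective h
    simpa [AlgEquiv.coe_pow, coe_frobeniusAlgEquivOfAlgebraic_iterate] using h'
  have hbij := (Fintype.bijective_iff_injective_and_card _).2
    ⟨hinj, by rw [Fintype.card_fin, AlgHom.card]⟩
  obtain ⟨i, hi⟩ := hbij.2 τ
  exact ⟨i.1, hi⟩

/-- The `F`-embeddings `κ → Ω` form an `Ω`-basis of `Hom_F(κ, Ω)`. -/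
noncomputable def homBasis : Basis (κ →ₐ[F] Ω) Ω (κ →ₗ[F] Ω) :=
  haveI : Nonempty (κ →ₐ[F] Ω) := ⟨IsAlgClosed.lift⟩
  basisOfLinearIndependentOfCardEqFinrank (linearIndependent_toLinearMap F κ Ω)
    (by rw [AlgHom.card, finrank_linearMap_self])

lemma homBasis_apply (τ : κ →ₐ[F] Ω) : homBasis τ = τ.toLinearMap := by
  simp [homBasis]

/-- Coefficient recursion: if `G ∘ T_u = c • G` then the coordinates `y` of `G` in the basis of
embeddings satisfy `c * y (τ ∘ Frob) = y τ * τ u`. -/
lemma repr_rec (u : κ) (c : Ω) (G : κ →ₗ[F] Ω) (hG : G ∘ₗ twFrob u = c • G)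
    (τ : κ →ₐ[F] Ω) :
    c * homBasis.repr G (frobPerm τ) = homBasis.repr G τ * τ u := by
  have h1 : G = ∑ σ, homBasis.repr G σ • homBasis σ := (homBasis.sum_repr G).symm
  have h2 : G ∘ₗ twFrob u =
      ∑ σ, (homBasis.repr G (frobPerm.symm σ) * (frobPerm.symm σ) u) • homBasis σ := by
    rw [← Equiv.sum_comp (frobPerm (F := F) (κ := κ) (Ω := Ω))]
    ext a
    rw [LinearMap.comp_apply]
    conv_lhs => rw [h1]
    simp only [LinearMap.sum_apply, LinearMap.smul_apply, homBasis_apply,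
      AlgHom.toLinearMap_apply, twFrob_apply, map_mul, frobPerm_apply, smul_eq_mul, mul_assoc,
      Equiv.symm_apply_apply]
  have h3 := congrArg (fun H => homBasis.repr H (frobPerm τ)) hG
  simp only [h2, Basis.repr_sum_self, map_smul, Finsupp.coe_smul, Pi.smul_apply, smul_eq_mul,
    Equiv.symm_apply_apply] at h3
  exact h3.symm

/-- A solution of `G ∘ T_u = c • G` (with `u ≠ 0`) one of whose coordinates vanishes is zero. -/
lemma eq_zero_of_repr_eq_zero (u : κ) (hu : u ≠ 0) (c : Ω) (G : κ →ₗ[F] Ω)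
    (hG : G ∘ₗ twFrob u = c • G) (j : κ →ₐ[F] Ω) (hj : homBasis.repr G j = 0) : G = 0 := by
  have hτu : ∀ τ : κ →ₐ[F] Ω, τ u ≠ 0 := fun τ => by
    rwa [Ne, map_eq_zero_iff τ τ.toRingHom.injective]
  have hall : ∀ τ : κ →ₐ[F] Ω, homBasis.repr G τ = 0 := by
    by_cases hc : c = 0
    · intro τ
      have := repr_rec u c G hG τ
      rw [hc, zero_mul] at this
      exact (mul_eq_zero.1 this.symm).resolve_right (hτu τ)
    · have hiter : ∀ i : ℕ, homBasis.repr G (frobPerm^[i] j) = 0 := by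
        intro i
        induction i with
        | zero => simpa using hj
        | succ i ih =>
          have := repr_rec u c G hG (frobPerm^[i] j)
          rw [ih, zero_mul] at this
          rw [Function.iterate_succ_apply']
          exact (mul_eq_zero.1 this).resolve_left hc
      intro τ
      obtain ⟨i, rfl⟩ := exists_iterate_eq j τ
      exact hiter i
  apply homBasis.repr.injective
  ext τ
  simp [hall τ]

/-- **Core of (EC)**: over an algebraically closed `Ω ⊇ F`, any two `F`-linear maps `κ → Ω` with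
`G (u * a ^ q) = c * G a` are proportional. -/
theorem core (u : κ) (hu : u ≠ 0) (c : Ω) (G₁ G₂ : κ →ₗ[F] Ω)
    (h₁ : G₁ ∘ₗ twFrob u = c • G₁) (h₂ : G₂ ∘ₗ twFrob u = c • G₂) (a b : κ) :
    G₁ a * G₂ b = G₁ b * G₂ a := by
  let j : κ →ₐ[F] Ω := IsAlgClosed.lift
  set y := homBasis.repr G₁ j with hy
  set z := homBasis.repr G₂ j with hz
  have h₃ : (z • G₁ - y • G₂) ∘ₗ twFrob u = c • (z • G₁ - y • G₂) := by
    rw [LinearMap.sub_comp, LinearMap.smul_comp, LinearMap.smul_comp, h₁, h₂, smul_sub,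
      smul_comm c z, smul_comm c y]
  have h0 : z • G₁ - y • G₂ = 0 := by
    apply eq_zero_of_repr_eq_zero u hu c _ h₃ j
    simp only [map_sub, map_smul, Finsupp.coe_sub, Finsupp.coe_smul, Pi.sub_apply,
      Pi.smul_apply, smul_eq_mul, ← hy, ← hz]
    ring
  have h0a := LinearMap.congr_fun h0 a
  have h0b := LinearMap.congr_fun h0 b
  simp only [LinearMap.sub_apply, LinearMap.smul_apply, smul_eq_mul, LinearMap.zero_apply,
    sub_eq_zero] at h0a h0b
  by_cases hy0 : y = 0
  · have hG₁ : G₁ = 0 := eq_zero_of_repr_eq_zero u hu c G₁ h₁ j hy0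
    simp [hG₁]
  · have ha : G₂ a = z / y * G₁ a := by field_simp; linear_combination -h0a
    have hb : G₂ b = z / y * G₁ b := by field_simp; linear_combination -h0b
    rw [ha, hb]; ring

end Core


section Wrapper

variable {F κ k : Type*} [Field F] [Fintype F] [Field κ] [Finite κ] [Algebra F κ] [Field k]

/-- **The eigen-space `E(u, c)`**: `g : κ → k` is additive, `F`-semilinear along `ι : F →+* k`, and
satisfies the twisted-Frobenius eigen-equation `g (u * a ^ q) = c * g a` (`q = #F`). -/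
structure IsEC (ι : F →+* k) (u : κ) (c : k) (g : κ → k) : Prop where
  add : ∀ a b, g (a + b) = g a + g b
  smul : ∀ (μ : F) (a : κ), g (algebraMap F κ μ * a) = ι μ * g a
  frob : ∀ a, g (u * a ^ Fintype.card F) = c * g a

/-- **Lemma (EC)**: the space `E(u, c)` has rank `≤ 1`: any two members are proportional. -/
theorem IsEC.mul_eq_mul {ι : F →+* k} {u : κ} (hu : u ≠ 0) {c : k} {g₁ g₂ : κ → k}
    (h₁ : IsEC ι u c g₁) (h₂ : IsEC ι u c g₂) (a b : κ) :
    g₁ a * g₂ b = g₁ b * g₂ a := by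
  let _ : Algebra F (AlgebraicClosure k) :=
    ((algebraMap k (AlgebraicClosure k)).comp ι).toAlgebra
  have hsm : ∀ (μ : F) (x : AlgebraicClosure k),
      μ • x = algebraMap k (AlgebraicClosure k) (ι μ) * x := fun μ x => by
    rw [Algebra.smul_def]; rfl
  let mk : ∀ g : κ → k, IsEC ι u c g → κ →ₗ[F] AlgebraicClosure k := fun g h =>
    { toFun := fun a => algebraMap k (AlgebraicClosure k) (g a)
      map_add' := fun a b => by rw [h.add, map_add]
      map_smul' := fun μ a => by
        rw [Algebra.smul_def, h.smul, map_mul, RingHom.id_apply, hsm] }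
  have hmk : ∀ (g : κ → k) (h : IsEC ι u c g),
      mk g h ∘ₗ twFrob u = algebraMap k (AlgebraicClosure k) c • mk g h := fun g h => by
    ext a
    show algebraMap k (AlgebraicClosure k) (g (u * a ^ Fintype.card F)) =
      algebraMap k (AlgebraicClosure k) c * algebraMap k (AlgebraicClosure k) (g a)
    rw [h.frob, map_mul]
  have key := core u hu (algebraMap k (AlgebraicClosure k) c) (mk g₁ h₁) (mk g₂ h₂)
    (hmk g₁ h₁) (hmk g₂ h₂) a b
  apply (algebraMap k (AlgebraicClosure k)).injective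
  rw [map_mul, map_mul]
  exact key


namespace IsEC

variable {ι : F →+* k} {u : κ} {c : k} {g g₁ g₂ : κ → k}

omit [Finite κ] in
lemma map_zero (h : IsEC ι u c g) : g 0 = 0 := by
  have := h.add 0 0
  rw [add_zero] at this
  exact left_eq_add.1 this

omit [Finite κ] in
/-- The zero map is in `E(u, c)`. -/
lemma zero : IsEC ι u c (fun _ => (0 : k)) :=
  ⟨fun _ _ => by simp, fun _ _ => by simp, fun _ => by simp⟩

omit [Finite κ] in
/-- `E(u, c)` is stable under sums. -/
lemma add_fun (h₁ : IsEC ι u c g₁) (h₂ : IsEC ι u c g₂) : IsEC ι u c (fun a => g₁ a + g₂ a) :=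
  ⟨fun a b => by rw [h₁.add, h₂.add]; ring, fun μ a => by rw [h₁.smul, h₂.smul]; ring,
    fun a => by rw [h₁.frob, h₂.frob]; ring⟩

omit [Finite κ] in
/-- `E(u, c)` is stable under scalars from `k`. -/
lemma const_mul (h : IsEC ι u c g) (t : k) : IsEC ι u c (fun a => t * g a) :=
  ⟨fun a b => by rw [h.add]; ring, fun μ a => by rw [h.smul]; ring,
    fun a => by rw [h.frob]; ring⟩

omit [Finite κ] in
/-- Semilinearity along `ι` only needs to be checked on a ring generator `μ₀` of `F`
(e.g. `μ₀ = λ ^ i` for the tame action `a ↦ λ ^ i * a`). -/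
lemma of_closure {μ₀ : F} (hgen : Subring.closure ({μ₀} : Set F) = ⊤)
    (hadd : ∀ a b, g (a + b) = g a + g b)
    (hμ₀ : ∀ a, g (algebraMap F κ μ₀ * a) = ι μ₀ * g a)
    (hfrob : ∀ a, g (u * a ^ Fintype.card F) = c * g a) : IsEC ι u c g := by
  have h0 : g 0 = 0 := by
    have := hadd 0 0
    rw [add_zero] at this
    exact left_eq_add.1 this
  have hneg : ∀ a, g (-a) = -g a := fun a => by
    have := hadd a (-a)
    rw [add_neg_cancel, h0] at this
    exact eq_neg_of_add_eq_zero_right this.symm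
  refine ⟨hadd, fun μ => ?_, hfrob⟩
  have hμ : μ ∈ Subring.closure ({μ₀} : Set F) := hgen ▸ Subring.mem_top μ
  induction hμ using Subring.closure_induction with
  | mem x hx =>
    rw [Set.mem_singleton_iff] at hx
    subst hx
    exact hμ₀
  | zero => intro a; simp [h0]
  | one => intro a; simp
  | add x y _ _ hx hy => intro a; rw [_root_.map_add, add_mul, hadd, hx, hy, _root_.map_add, add_mul]
  | neg x _ hx => intro a; rw [_root_.map_neg, neg_mul, hneg, hx, _root_.map_neg, neg_mul]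
  | mul x y _ _ hx hy => intro a; rw [_root_.map_mul, mul_assoc, hx, hy, _root_.map_mul, mul_assoc]

/-- For `c = 0` (and `u ≠ 0`) the space `E(u, 0)` is zero. -/
lemma eq_zero_of_c_eq_zero (hu : u ≠ 0) (h : IsEC ι u 0 g) (a : κ) : g a = 0 := by
  have hq : 0 < Fintype.card F := Fintype.card_pos
  obtain ⟨b, hb⟩ := (frobeniusAlgEquivOfAlgebraic F κ).surjective (u⁻¹ * a)
  rw [coe_frobeniusAlgEquivOfAlgebraic] at hb
  have := h.frob b
  rw [zero_mul] at this
  have hb' : b ^ Fintype.card F = u⁻¹ * a := hb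
  rwa [hb', mul_inv_cancel_left₀ hu] at this

/-- **(EC), generator form**: there is one `g₀ ∈ E(u, c)` of which every member is a
`k`-multiple. -/
theorem exists_generator (ι : F →+* k) {u : κ} (hu : u ≠ 0) (c : k) :
    ∃ g₀ : κ → k, IsEC ι u c g₀ ∧
      ∀ g : κ → k, IsEC ι u c g → ∃ t : k, ∀ a, g a = t * g₀ a := by
  by_cases hex : ∃ g₀ : κ → k, IsEC ι u c g₀ ∧ ∃ a₀, g₀ a₀ ≠ 0
  · obtain ⟨g₀, hg₀, a₀, ha₀⟩ := hex
    refine ⟨g₀, hg₀, fun g hg => ⟨g a₀ / g₀ a₀, fun a => ?_⟩⟩
    have := hg.mul_eq_mul hu hg₀ a a₀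
    field_simp
    linear_combination this
  · refine ⟨fun _ => 0, zero, fun g hg => ⟨0, fun a => ?_⟩⟩
    by_contra hne
    exact hex ⟨g, hg, a, by simpa using hne⟩

end IsEC

/-- `E(u, c)` as a `k`-submodule of the function space `κ → k`. -/
def ecSubmodule (ι : F →+* k) (u : κ) (c : k) : Submodule k (κ → k) where
  carrier := {g | IsEC ι u c g}
  add_mem' := fun h₁ h₂ => h₁.add_fun h₂
  zero_mem' := IsEC.zero
  smul_mem' := fun t _ h => h.const_mul t

omit [Finite κ] in
lemma mem_ecSubmodule {ι : F →+* k} {u : κ} {c : k} {g : κ → k} :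
    g ∈ ecSubmodule ι u c ↔ IsEC ι u c g := Iff.rfl

/-- **(EC), dimension form**: `dim_k E(u, c) ≤ 1`. -/
theorem finrank_ecSubmodule_le_one (ι : F →+* k) {u : κ} (hu : u ≠ 0) (c : k) :
    Module.finrank k (ecSubmodule ι u c) ≤ 1 := by
  obtain ⟨g₀, hg₀, hgen⟩ := IsEC.exists_generator ι hu c
  refine finrank_le_one (⟨g₀, hg₀⟩ : ecSubmodule ι u c) fun w => ?_
  obtain ⟨t, ht⟩ := hgen w.1 w.2
  refine ⟨t, Subtype.ext (funext fun a => ?_)⟩
  simp [ht a]

end Wrapper

end Fermat.Agent.GP.Flat.EigenCount
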