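import Mathlib
import Fermat.Agent.GP.Flat.EigenCountEC

/-!
# GATE-P / S56 [P-FLAT] — S56-FLAT-EIGENCOUNT, part 2: cyclicity of the twisted Frobenius and the
co-direction of Lemma (EC)   (helper25)

Orphan on top of `EigenCountEC` (Mathlib only).

* `exists_cyclic_vector` : an endomorphism of a finite-dimensional space whose minimal polynomial has
  degree `dim V` has a cyclic vector (PID structure theorem, as in Mathlib's normal basis theorem).
* `exists_cyclic_vector'`, `exists_cyclic_functional` : spanning forms, from linear independence of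
  `1, T, …, T^(n-1)`.
* `linearIndependent_twFrob_pow` : for `u ≠ 0` the powers of `T_u : a ↦ u * a ^ q` on `κ`
  (`q = #F`, `n = [κ : F]`) are `F`-linearly independent (Dedekind), hence `T_u` is a CYCLIC operator:
  `exists_cyclic_vector_twFrob`, `exists_cyclic_functional_twFrob`.
* `IsCoEC F u c f` : `f : k → κ` additive, `F`-linear, `f (c * x) = u * f x ^ q` — the shape of the
  `ψ`-component of a `Δ`-map `M^∨(1) → gr^i ⊂ κ` in the Kummer picture `Hom_Δ(M^∨(1), BB)`.
* `IsCoEC.exists_generator` / `IsCoEC.card_le` : **(EC), co-direction**: for `[k : F] < ∞` every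
  member is `x ↦ f₀ (t * x)`; for `k` finite `#E'(u, c) ≤ #k`.
* `IsEC.card_le` : `#E(u, c) ≤ #k` for the Hom direction of part 1.
-/

namespace Fermat.Agent.GP.Flat.EigenCount

open Module Polynomial FiniteField

section Cyclic

variable {K V : Type*} [Field K] [AddCommGroup V] [Module K V] [FiniteDimensional K V]

/-- **Cyclic vector.**  An endomorphism `T` of a finite-dimensional space whose minimal polynomial
has degree `n = dim V` has a cyclic vector: `x, T x, …, T^(n-1) x` are linearly independent. -/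
theorem exists_cyclic_vector (T : Module.End K V) (n : ℕ)
    (hT : (minpoly K T).natDegree = n) :
    ∃ x : V, LinearIndependent K (fun i : Fin n => (T ^ i.1) x) := by
  obtain ⟨x, hx⟩ := Module.exists_ker_toSpanSingleton_eq_annihilator K[X] (AEval' T)
  obtain ⟨x, rfl⟩ := (AEval'.of T).surjective x
  rw [← span_minpoly_eq_annihilator] at hx
  refine ⟨x, Fintype.linearIndependent_iff.2 fun c hc i => ?_⟩
  -- the polynomial with coefficients `c`
  let P : K[X] := ∑ j : Fin n, monomial j.1 (c j)
  have hPdeg : P.degree < (n : ℕ) :=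
    mem_degreeLT.1 (Submodule.sum_mem _ fun j _ =>
      mem_degreeLT.2 ((degree_monomial_le _ _).trans_lt (by exact_mod_cast j.2)))
  have hPx : P • AEval'.of T x = 0 := by
    have h1 : P • AEval'.of T x = AEval'.of T (aeval T P x) := rfl
    have h2 : aeval T P x = ∑ j : Fin n, c j • (T ^ j.1) x := by
      simp only [P, map_sum, aeval_monomial, LinearMap.sum_apply]
      refine Finset.sum_congr rfl fun j _ => ?_
      simp [Module.algebraMap_end_apply]
    rw [h1, h2, hc, map_zero]
  have hmem : P ∈ Ideal.span {minpoly K T} := by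
    rw [← hx]; exact LinearMap.mem_ker.2 hPx
  obtain ⟨Q, hQ⟩ := Ideal.mem_span_singleton.1 hmem
  have hP0 : P = 0 := by
    by_contra hne
    have h1 : (minpoly K T).natDegree ≤ P.natDegree := natDegree_le_of_dvd ⟨Q, hQ⟩ hne
    have h2 : P.natDegree < n := (natDegree_lt_iff_degree_lt hne).2 hPdeg
    omega
  have hcoeff : P.coeff i.1 = c i := by
    simp only [P, finsetSum_coeff, coeff_monomial]
    rw [Finset.sum_eq_single i]
    · simp
    · intro j _ hji
      rw [if_neg]
      exact fun h => hji (Fin.ext h)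
    · intro h; exact absurd (Finset.mem_univ i) h
  rw [← hcoeff, hP0, coeff_zero]

omit [FiniteDimensional K V] in
/-- If `1, x, …, x^(n-1)` are linearly independent then the minimal polynomial has degree `≥ n`. -/
theorem le_natDegree_minpoly_of_linearIndependent {A : Type*} [Ring A] [Algebra K A] (x : A)
    (hx : IsIntegral K x) (n : ℕ) (h : LinearIndependent K (fun i : Fin n => x ^ i.1)) :
    n ≤ (minpoly K x).natDegree := by
  by_contra hlt
  have hlt : (minpoly K x).natDegree < n := not_le.1 hlt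
  have hsum := (minpoly K x).as_sum_range' n hlt
  have h0 : ∑ i : Fin n, (minpoly K x).coeff i.1 • x ^ i.1 = 0 := by
    have h1 := minpoly.aeval K x
    rw [hsum, map_sum, Finset.sum_range] at h1
    simpa [aeval_monomial, Algebra.smul_def] using h1
  have h2 := Fintype.linearIndependent_iff.1 h _ h0 ⟨_, hlt⟩
  have h3 : (minpoly K x).coeff (minpoly K x).natDegree = 1 := (minpoly.monic hx).leadingCoeff
  rw [h3] at h2
  exact one_ne_zero h2

theorem natDegree_minpoly_eq_of_linearIndependent (T : Module.End K V) (n : ℕ)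
    (hn : finrank K V = n) (hT : LinearIndependent K (fun i : Fin n => T ^ i.1)) :
    (minpoly K T).natDegree = n := by
  apply le_antisymm
  · have h1 := natDegree_le_of_dvd (LinearMap.minpoly_dvd_charpoly T)
      (LinearMap.charpoly_monic T).ne_zero
    rwa [LinearMap.charpoly_natDegree, hn] at h1
  · exact le_natDegree_minpoly_of_linearIndependent T (LinearMap.isIntegral T) _ hT

omit [FiniteDimensional K V] in
lemma transpose_pow (T : Module.End K V) (i : ℕ) :
    (Module.Dual.transpose (R := K) T : Module.End K (Module.Dual K V)) ^ i =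
      Module.Dual.transpose (R := K) (T ^ i) := by
  induction i with
  | zero => rfl
  | succ i ih =>
    rw [pow_succ', ih, pow_succ]
    rfl

omit [FiniteDimensional K V] in
lemma transpose_injective :
    Function.Injective (Module.Dual.transpose (R := K) (M := V) (M' := V)) := by
  intro S S' h
  ext v
  rw [← sub_eq_zero, ← Module.forall_dual_apply_eq_zero_iff K]
  intro φ
  have := LinearMap.congr_fun (LinearMap.congr_fun h φ) v
  simp only [Module.Dual.transpose_apply, LinearMap.comp_apply] at this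
  rw [map_sub, this, sub_self]

/-- **Cyclic vector**, spanning form. -/
theorem exists_cyclic_vector' (T : Module.End K V)
    (hT : LinearIndependent K (fun i : Fin (finrank K V) => T ^ i.1)) :
    ∃ x : V, ∀ {W : Type*} [AddCommGroup W] [Module K W] (g : V →ₗ[K] W),
      (∀ i : ℕ, g ((T ^ i) x) = 0) → g = 0 := by
  obtain ⟨x, hx⟩ := exists_cyclic_vector T _
    (natDegree_minpoly_eq_of_linearIndependent T _ rfl hT)
  refine ⟨x, fun {W} _ _ g hg => ?_⟩
  have hspan := hx.span_eq_top_of_card_eq_finrank' (by simp)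
  apply LinearMap.ext_on_range hspan
  intro i
  simpa using hg i.1

omit [FiniteDimensional K V] in
lemma linearIndependent_transpose_pow (T : Module.End K V) (n : ℕ)
    (hT : LinearIndependent K (fun i : Fin n => T ^ i.1)) :
    LinearIndependent K (fun i : Fin n =>
      (Module.Dual.transpose (R := K) T : Module.End K (Module.Dual K V)) ^ i.1) := by
  refine (Fintype.linearIndependent_iff (R := K) (M := Module.End K (Module.Dual K V))).2 ?_
  intro c hc
  apply (Fintype.linearIndependent_iff (R := K) (M := Module.End K V)).1 hT c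
  apply transpose_injective (K := K) (V := V)
  rw [map_sum, map_zero, ← hc]
  refine Finset.sum_congr rfl fun i _ => ?_
  rw [map_smul, transpose_pow]

/-- **Cyclic functional**: a functional `ℓ` such that `y = 0` as soon as `ℓ (T^i y) = 0` for all
`i`. -/
theorem exists_cyclic_functional (T : Module.End K V)
    (hT : LinearIndependent K (fun i : Fin (finrank K V) => T ^ i.1)) :
    ∃ ℓ : Module.Dual K V, ∀ y : V, (∀ i : ℕ, ℓ ((T ^ i) y) = 0) → y = 0 := by
  have hT' := linearIndependent_transpose_pow T _ hT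
  obtain ⟨ℓ, hℓ⟩ := exists_cyclic_vector
    (Module.Dual.transpose (R := K) T : Module.End K (Module.Dual K V)) (finrank K V)
    (natDegree_minpoly_eq_of_linearIndependent _ _ Subspace.dual_finrank_eq hT')
  refine ⟨ℓ, fun y hy => ?_⟩
  have hspan := hℓ.span_eq_top_of_card_eq_finrank' (by simp)
  rw [← Module.forall_dual_apply_eq_zero_iff K]
  intro φ
  have hφ : φ ∈ Submodule.span K (Set.range fun i : Fin (finrank K V) =>
      ((Module.Dual.transpose (R := K) T : Module.End K (Module.Dual K V)) ^ i.1) ℓ) := by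
    rw [hspan]; trivial
  induction hφ using Submodule.span_induction with
  | mem ψ hψ =>
    obtain ⟨i, rfl⟩ := hψ
    show (((Module.Dual.transpose (R := K) T : Module.End K (Module.Dual K V)) ^ i.1) ℓ) y = 0
    rw [transpose_pow, Module.Dual.transpose_apply, LinearMap.comp_apply]
    exact hy i.1
  | zero => rfl
  | add ψ₁ ψ₂ _ _ h₁ h₂ => rw [LinearMap.add_apply, h₁, h₂, add_zero]
  | smul t ψ _ h => rw [LinearMap.smul_apply, h, smul_zero]

end Cyclic

section TwFrobPow

variable {F κ : Type*} [Field F] [Fintype F] [Field κ] [Algebra F κ]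

/-- The partial norms `N_i(u) = u * u^q * ⋯ * u^(q^(i-1))`. -/
def twNorm (F : Type*) [Fintype F] {κ : Type*} [Field κ] (u : κ) : ℕ → κ
  | 0 => 1
  | i + 1 => u * twNorm F u i ^ Fintype.card F

omit [Field F] [Algebra F κ] in
lemma twNorm_ne_zero {u : κ} (hu : u ≠ 0) (i : ℕ) : twNorm F u i ≠ 0 := by
  induction i with
  | zero => exact one_ne_zero
  | succ i ih => exact mul_ne_zero hu (pow_ne_zero _ ih)

lemma twFrob_pow_apply (u a : κ) (i : ℕ) :
    (twFrob (F := F) u ^ i) a = twNorm F u i * a ^ Fintype.card F ^ i := by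
  induction i with
  | zero => simp [twNorm]
  | succ i ih =>
    rw [pow_succ', Module.End.mul_apply, ih, twFrob_apply, twNorm, mul_pow, ← pow_mul, ← pow_succ,
      mul_assoc]

variable [Finite κ]

/-- The powers `T^0, …, T^(n-1)` of `T = twFrob u` (`u ≠ 0`, `n = [κ : F]`) are `F`-linearly
independent (Dedekind independence of the Frobenius powers). -/
theorem linearIndependent_twFrob_pow {u : κ} (hu : u ≠ 0) :
    LinearIndependent F (fun i : Fin (finrank F κ) => twFrob (F := F) u ^ i.1) := by
  have hD : LinearIndependent κ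
      (fun i : Fin (finrank F κ) => ((frobeniusAlgHom F κ ^ i.1 : κ →ₐ[F] κ)).toLinearMap) :=
    (linearIndependent_toLinearMap F κ κ).comp _ (bijective_frobeniusAlgHom_pow F κ).1
  refine Fintype.linearIndependent_iff.2 fun c hc i => ?_
  have h0 : ∑ j : Fin (finrank F κ), (algebraMap F κ (c j) * twNorm F u j.1) •
      ((frobeniusAlgHom F κ ^ j.1 : κ →ₐ[F] κ)).toLinearMap = 0 := by
    ext a
    have := LinearMap.congr_fun hc a
    simp only [LinearMap.sum_apply, LinearMap.smul_apply, twFrob_pow_apply, LinearMap.zero_apply]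
      at this
    simp only [LinearMap.sum_apply, LinearMap.smul_apply, AlgHom.toLinearMap_apply,
      AlgHom.coe_pow, coe_frobeniusAlgHom, pow_iterate, LinearMap.zero_apply, smul_eq_mul]
    rw [← this]
    refine Finset.sum_congr rfl fun j _ => ?_
    rw [Algebra.smul_def, mul_assoc]
  have h1 := Fintype.linearIndependent_iff.1 hD _ h0 i
  have h2 := (mul_eq_zero.1 h1).resolve_right (twNorm_ne_zero hu i.1)
  exact (map_eq_zero_iff _ (algebraMap F κ).injective).1 h2

/-- **`T = twFrob u` is a cyclic operator** (`u ≠ 0`): there is `v : κ` such that a linear map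
vanishing on all `T^i v` is zero. -/
theorem exists_cyclic_vector_twFrob {u : κ} (hu : u ≠ 0) :
    ∃ v : κ, ∀ {W : Type*} [AddCommGroup W] [Module F W] (g : κ →ₗ[F] W),
      (∀ i : ℕ, g ((twFrob (F := F) u ^ i) v) = 0) → g = 0 :=
  haveI := Module.finite_of_finite F (M := κ)
  exists_cyclic_vector' _ (linearIndependent_twFrob_pow hu)

/-- **Cyclic functional for `T = twFrob u`** (`u ≠ 0`). -/
theorem exists_cyclic_functional_twFrob {u : κ} (hu : u ≠ 0) :
    ∃ ℓ : Module.Dual F κ, ∀ y : κ, (∀ i : ℕ, ℓ ((twFrob (F := F) u ^ i) y) = 0) → y = 0 :=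
  haveI := Module.finite_of_finite F (M := κ)
  exists_cyclic_functional _ (linearIndependent_twFrob_pow hu)

end TwFrobPow

section CoEC

variable {F κ k : Type*} [Field F] [Fintype F] [Field κ] [Finite κ] [Algebra F κ]
  [Field k] [Algebra F k]

omit [Fintype F] in
/-- `Hom_F(k, F)` is one-dimensional over `k`: every functional is `l₀ (t * ·)` for any fixed
nonzero `l₀`. -/
lemma dual_eq_comp_mulLeft [FiniteDimensional F k] {l₀ : Module.Dual F k} (h₀ : l₀ ≠ 0)
    (l : Module.Dual F k) : ∃ t : k, l = l₀ ∘ₗ LinearMap.mulLeft F t := by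
  let Φ : k →ₗ[F] Module.Dual F k :=
    { toFun := fun t => l₀ ∘ₗ LinearMap.mulLeft F t
      map_add' := fun s t => by ext x; simp [add_mul]
      map_smul' := fun μ t => by ext x; simp }
  have hinj : Function.Injective Φ := by
    rw [← LinearMap.ker_eq_bot, LinearMap.ker_eq_bot']
    intro t ht
    by_contra hne
    apply h₀
    ext x
    have := LinearMap.congr_fun ht (t⁻¹ * x)
    simpa [Φ, mul_inv_cancel_left₀ hne] using this
  have hsurj : Function.Surjective Φ :=
    (LinearMap.injective_iff_surjective_of_finrank_eq_finrank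
      (Subspace.dual_finrank_eq (K := F) (V := k)).symm).1 hinj
  obtain ⟨t, ht⟩ := hsurj l
  exact ⟨t, ht.symm⟩

/-- **Core of (EC), co-direction**: the `F`-linear maps `f : k → κ` intertwining multiplication by
`c` on `k` with `T_u` on `κ` are all of the form `f₀ (t * ·)` for one `f₀`. -/
theorem coCore [FiniteDimensional F k] {u : κ} (hu : u ≠ 0) (c : k) :
    ∃ f₀ : k →ₗ[F] κ, f₀ ∘ₗ LinearMap.mulLeft F c = twFrob u ∘ₗ f₀ ∧
      ∀ f : k →ₗ[F] κ, f ∘ₗ LinearMap.mulLeft F c = twFrob u ∘ₗ f →
        ∃ t : k, f = f₀ ∘ₗ LinearMap.mulLeft F t := by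
  obtain ⟨ℓ, hℓ⟩ := exists_cyclic_functional_twFrob (F := F) hu
  have hinj : ∀ f : k →ₗ[F] κ, f ∘ₗ LinearMap.mulLeft F c = twFrob u ∘ₗ f →
      ℓ ∘ₗ f = 0 → f = 0 := by
    intro f hf h0
    have hpow : ∀ (i : ℕ) (x : k), (twFrob (F := F) u ^ i) (f x) = f (c ^ i * x) := by
      intro i
      induction i with
      | zero => intro x; simp
      | succ i ih =>
        intro x
        rw [pow_succ', Module.End.mul_apply, ih, pow_succ', mul_assoc]
        exact (LinearMap.congr_fun hf (c ^ i * x)).symm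
    ext x
    rw [LinearMap.zero_apply]
    apply hℓ (f x)
    intro i
    rw [hpow]
    exact LinearMap.congr_fun h0 _
  have hscale : ∀ (f : k →ₗ[F] κ) (t : k), f ∘ₗ LinearMap.mulLeft F c = twFrob u ∘ₗ f →
      (f ∘ₗ LinearMap.mulLeft F t) ∘ₗ LinearMap.mulLeft F c =
        twFrob u ∘ₗ (f ∘ₗ LinearMap.mulLeft F t) := by
    intro f t hf
    ext x
    have := LinearMap.congr_fun hf (t * x)
    simp only [LinearMap.comp_apply, LinearMap.mulLeft_apply] at this ⊢
    rw [← this, mul_left_comm]
  by_cases hex : ∃ f₀ : k →ₗ[F] κ, f₀ ∘ₗ LinearMap.mulLeft F c = twFrob u ∘ₗ f₀ ∧ ℓ ∘ₗ f₀ ≠ 0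
  · obtain ⟨f₀, hf₀, hne⟩ := hex
    refine ⟨f₀, hf₀, fun f hf => ?_⟩
    obtain ⟨t, ht⟩ := dual_eq_comp_mulLeft hne (ℓ ∘ₗ f)
    refine ⟨t, ?_⟩
    have hd : (f - f₀ ∘ₗ LinearMap.mulLeft F t) ∘ₗ LinearMap.mulLeft F c =
        twFrob u ∘ₗ (f - f₀ ∘ₗ LinearMap.mulLeft F t) := by
      rw [LinearMap.sub_comp, LinearMap.comp_sub, hf, hscale f₀ t hf₀]
    have := hinj _ hd (by rw [LinearMap.comp_sub, ht, LinearMap.comp_assoc, sub_self])
    exact sub_eq_zero.1 this
  · refine ⟨0, by simp, fun f hf => ⟨0, ?_⟩⟩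
    have : ℓ ∘ₗ f = 0 := by
      by_contra h
      exact hex ⟨f, hf, h⟩
    rw [hinj f hf this]; simp

variable (F) in
/-- **The co-eigen-space `E'(u, c)`**: `f : k → κ` additive, `F`-linear, and intertwining
multiplication by `c` with the twisted Frobenius: `f (c * x) = u * f x ^ q` (`q = #F`). -/
structure IsCoEC (u : κ) (c : k) (f : k → κ) : Prop where
  add : ∀ x y, f (x + y) = f x + f y
  smul : ∀ (μ : F) (x : k), f (algebraMap F k μ * x) = algebraMap F κ μ * f x
  frob : ∀ x, f (c * x) = u * f x ^ Fintype.card F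

omit [Finite κ] in
/-- `E'(u, c)` is stable under `f ↦ f (t * ·)`. -/
lemma IsCoEC.comp_mul {u : κ} {c : k} {f : k → κ} (h : IsCoEC F u c f) (t : k) :
    IsCoEC F u c (fun x => f (t * x)) :=
  ⟨fun x y => by rw [mul_add, h.add], fun μ x => by rw [mul_left_comm, h.smul],
    fun x => by rw [mul_left_comm, h.frob]⟩

/-- **Lemma (EC), co-direction, generator form** (`k` finite-dimensional over `F`): there is one
`f₀ ∈ E'(u, c)` such that every member is `x ↦ f₀ (t * x)` for some `t : k`. -/
theorem IsCoEC.exists_generator [FiniteDimensional F k] {u : κ} (hu : u ≠ 0) (c : k) :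
    ∃ f₀ : k → κ, IsCoEC F u c f₀ ∧
      ∀ f : k → κ, IsCoEC F u c f → ∃ t : k, ∀ x, f x = f₀ (t * x) := by
  obtain ⟨f₀, hf₀, hgen⟩ := coCore (F := F) (k := k) hu c
  have toLin : ∀ f : k → κ, IsCoEC F u c f →
      ∃ L : k →ₗ[F] κ, (∀ x, L x = f x) ∧
        L ∘ₗ LinearMap.mulLeft F c = twFrob u ∘ₗ L := by
    intro f hf
    refine ⟨{ toFun := f, map_add' := hf.add, map_smul' := fun μ x => (by
      rw [Algebra.smul_def, hf.smul, RingHom.id_apply, Algebra.smul_def]) }, fun _ => rfl, ?_⟩
    ext x
    exact hf.frob x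
  refine ⟨fun x => f₀ x, ⟨fun x y => map_add f₀ x y, fun μ x => ?_, fun x => ?_⟩, fun f hf => ?_⟩
  · rw [← Algebra.smul_def, map_smul, Algebra.smul_def]
  · exact LinearMap.congr_fun hf₀ x
  · obtain ⟨L, hL, hLc⟩ := toLin f hf
    obtain ⟨t, ht⟩ := hgen L hLc
    exact ⟨t, fun x => by rw [← hL, ht]; rfl⟩

/-- **(EC), co-direction, cardinality form** (`k` finite): `#E'(u, c) ≤ #k`. -/
theorem IsCoEC.card_le [Finite k] {u : κ} (hu : u ≠ 0) (c : k) :
    Nat.card {f : k → κ // IsCoEC F u c f} ≤ Nat.card k := by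
  have := Module.finite_of_finite F (M := k)
  obtain ⟨f₀, hf₀, hgen⟩ := IsCoEC.exists_generator (F := F) (k := k) hu c
  refine Nat.card_le_card_of_surjective
    (fun t : k => (⟨fun x => f₀ (t * x), hf₀.comp_mul t⟩ : {f : k → κ // IsCoEC F u c f})) ?_
  rintro ⟨f, hf⟩
  obtain ⟨t, ht⟩ := hgen f hf
  exact ⟨t, Subtype.ext (funext fun x => (ht x).symm)⟩

omit [Algebra F k] in
/-- **(EC), Hom direction, cardinality form** (`k` finite): `#E(u, c) ≤ #k`. -/
theorem IsEC.card_le [Finite k] (ι : F →+* k) {u : κ} (hu : u ≠ 0) (c : k) :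
    Nat.card {g : κ → k // IsEC ι u c g} ≤ Nat.card k := by
  obtain ⟨g₀, hg₀, hgen⟩ := IsEC.exists_generator ι hu c
  refine Nat.card_le_card_of_surjective
    (fun t : k => (⟨fun a => t * g₀ a, hg₀.const_mul t⟩ : {g : κ → k // IsEC ι u c g})) ?_
  rintro ⟨g, hg⟩
  obtain ⟨t, ht⟩ := hgen g hg
  exact ⟨t, Subtype.ext (funext fun a => (ht a).symm)⟩

end CoEC

end Fermat.Agent.GP.Flat.EigenCount
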