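/-
GATE-P (S56) / [P-FLAT] node S56-FLAT-ORD-NCOUNT, file 1 of 4 (helper46; leaf named by helper47,
board 4321): prerequisites of the abstract one-character chain count `OrdNCount.exists_generator`.

* `Kap v`, `res v` : the residue field of a valuation `v` on a field, with a TOTAL residue map
  (`res v a = 0` if `v a > 1`), and its arithmetic on integral elements;
* `frobFix κ p m` : the finite subfield `{a | a ^ (p ^ m) = a}` of a field of characteristic `p`;
* `Frame v G K ζ` : the SSChain frame at `e = p - 1` bundled as a structure, with the numerical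
  consequences used by `SSChain.lc_unique` (`hnp`, `h2`, `hlam`, ...);
* congruence lemmas: `IsGen`, `Lev`, `SLev`, `LC` only depend on `χ|G`; `lc_val_le_one`,
  `lc_of_close`.
-/
import Fermat.Agent.GP.Flat.SSChain
import Fermat.Agent.GP.Flat.EigenCountCyc

set_option autoImplicit false
set_option linter.unusedSectionVars false

namespace Fermat.Agent.GP.Flat.OrdNCount


/-! ### The residue field of a valuation, with a total residue map -/

section Res

variable {Ω : Type*} [Field Ω] {Γ₀ : Type*} [LinearOrderedCommGroupWithZero Γ₀]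
  (v : Valuation Ω Γ₀)

/-- the residue field of `v`. -/
abbrev Kap : Type _ := IsLocalRing.ResidueField v.valuationSubring

/-- the (total) residue map: the class of `a` if `v a ≤ 1`, and `0` otherwise. -/
noncomputable def res (a : Ω) : Kap v :=
  if h : v a ≤ 1 then
    IsLocalRing.residue v.valuationSubring ⟨a, (Valuation.mem_valuationSubring_iff v a).mpr h⟩
  else 0

theorem res_of_le {a : Ω} (h : v a ≤ 1) :
    res v a = IsLocalRing.residue v.valuationSubring
      ⟨a, (Valuation.mem_valuationSubring_iff v a).mpr h⟩ := dif_pos h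

theorem res_eq_zero_iff {a : Ω} (h : v a ≤ 1) : res v a = 0 ↔ v a < 1 := by
  rw [res_of_le v h, IsLocalRing.residue_eq_zero_iff, ValuationSubring.valuation_lt_one_iff]
  exact ((Valuation.isEquiv_valuation_valuationSubring v).lt_one_iff_lt_one).symm

theorem res_add {a b : Ω} (ha : v a ≤ 1) (hb : v b ≤ 1) : res v (a + b) = res v a + res v b := by
  rw [res_of_le v ha, res_of_le v hb, res_of_le v (v.map_add_le ha hb), ← map_add]
  rfl

theorem res_sub {a b : Ω} (ha : v a ≤ 1) (hb : v b ≤ 1) : res v (a - b) = res v a - res v b := by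
  rw [res_of_le v ha, res_of_le v hb, res_of_le v (v.map_sub_le ha hb), ← map_sub]
  rfl

theorem res_mul {a b : Ω} (ha : v a ≤ 1) (hb : v b ≤ 1) : res v (a * b) = res v a * res v b := by
  have hab : v (a * b) ≤ 1 := by
    rw [map_mul]; exact mul_le_one' ha hb
  rw [res_of_le v ha, res_of_le v hb, res_of_le v hab, ← map_mul]
  rfl

theorem res_one : res v 1 = 1 := by
  rw [res_of_le v (le_of_eq v.map_one), ← map_one (IsLocalRing.residue v.valuationSubring)]
  rfl

theorem res_zero : res v 0 = 0 := by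
  rw [res_of_le v (by rw [v.map_zero]; exact zero_le_one),
    ← map_zero (IsLocalRing.residue v.valuationSubring)]
  rfl

theorem res_pow {a : Ω} (ha : v a ≤ 1) (n : ℕ) : res v (a ^ n) = res v a ^ n := by
  induction n with
  | zero => rw [pow_zero, pow_zero, res_one]
  | succ n ih =>
    rw [pow_succ, pow_succ, res_mul v (by rw [v.map_pow]; exact pow_le_one₀ zero_le ha) ha, ih]

theorem res_eq_res_iff {a b : Ω} (ha : v a ≤ 1) (hb : v b ≤ 1) :
    res v a = res v b ↔ v (a - b) < 1 := by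
  rw [← sub_eq_zero, ← res_sub v ha hb, res_eq_zero_iff v (v.map_sub_le ha hb)]

theorem res_natCast (n : ℕ) : res v (n : Ω) = (n : Kap v) := by
  induction n with
  | zero => rw [Nat.cast_zero, Nat.cast_zero, res_zero]
  | succ n ih =>
    have hn : v (n : Ω) ≤ 1 := by
      have := (Valuation.mem_valuationSubring_iff v (n : Ω)).mp (natCast_mem _ n)
      exact this
    rw [Nat.cast_succ, Nat.cast_succ, res_add v hn (le_of_eq v.map_one), ih, res_one]

end Res



/-! ### The finite subfield fixed by a power of Frobenius -/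

section FrobFix

variable (κ : Type*) [Field κ] (p : ℕ) [hp : Fact p.Prime] [CharP κ p]

/-- `{a | a ^ (p ^ m) = a}` as a subfield. -/
def frobFix (m : ℕ) : Subfield κ where
  carrier := {a | a ^ (p ^ m) = a}
  mul_mem' {a b} ha hb := by
    show (a * b) ^ (p ^ m) = a * b
    rw [mul_pow, show a ^ (p ^ m) = a from ha, show b ^ (p ^ m) = b from hb]
  one_mem' := one_pow _
  add_mem' {a b} ha hb := by
    show (a + b) ^ (p ^ m) = a + b
    rw [add_pow_char_pow, show a ^ (p ^ m) = a from ha, show b ^ (p ^ m) = b from hb]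
  zero_mem' := zero_pow (pow_ne_zero _ hp.out.ne_zero)
  neg_mem' {a} ha := by
    show (-a) ^ (p ^ m) = -a
    have h0 : (-a) + a = 0 := neg_add_cancel a
    have h1 : ((-a) + a) ^ (p ^ m) = (-a) ^ (p ^ m) + a ^ (p ^ m) := add_pow_char_pow (-a) a p m
    rw [h0, zero_pow (pow_ne_zero _ hp.out.ne_zero), show a ^ (p ^ m) = a from ha] at h1
    exact eq_neg_of_add_eq_zero_left h1.symm
  inv_mem' a ha := by
    show a⁻¹ ^ (p ^ m) = a⁻¹
    rw [inv_pow, show a ^ (p ^ m) = a from ha]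

theorem mem_frobFix {m : ℕ} {a : κ} : a ∈ frobFix κ p m ↔ a ^ (p ^ m) = a := Iff.rfl

instance finite_frobFix (m : ℕ) [NeZero m] : Finite (frobFix κ p m) := by
  have hpm : 1 < p ^ m := Nat.one_lt_pow (NeZero.ne m) hp.out.one_lt
  have hne : (Polynomial.X ^ (p ^ m) - Polynomial.X : Polynomial κ) ≠ 0 :=
    FiniteField.X_pow_card_sub_X_ne_zero κ hpm
  have hfin : {a : κ | a ^ (p ^ m) = a}.Finite := by
    refine (Polynomial.finite_setOfPred_isRoot hne).subset fun a ha => ?_
    show Polynomial.IsRoot _ a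
    rw [Polynomial.IsRoot.def, Polynomial.eval_sub, Polynomial.eval_pow, Polynomial.eval_X]
    exact sub_eq_zero.mpr ha
  exact hfin.to_subtype

instance charP_frobFix (m : ℕ) : CharP (frobFix κ p m) p :=
  RingHom.charP (frobFix κ p m).subtype (frobFix κ p m).subtype_injective p

end FrobFix



open Fermat.Agent.GP.Flat.SSChain Fermat.Agent.GP.Flat.SSKummer
  Fermat.Agent.GP.Ram.KummerBreak Fermat.Agent.GP.Ram.UnitFilt Fermat.Agent.GP.Ram.UnitFiltTop

/-! ### The frame -/

section Frame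

variable {Ω : Type*} [Field Ω] {Γ₀ : Type*} [LinearOrderedCommGroupWithZero Γ₀]
  (v : Valuation Ω Γ₀) {p : ℕ} [hp : Fact p.Prime]
  {D : Type*} [Group D] [MulSemiringAction D Ω] (G : Subgroup D) (K : Subfield Ω) (ζ : Ω)

/-- the SSChain frame at `e = p - 1`: `K` = fixed field of `G`, `ζ ∈ K`, `v p < 1`, finite orbits,
isometries, value group of `K` generated by `v (ζ - 1)` (the perfectness of the residue field is
NOT needed: between the levels `p - 1` and `e' = p` there is no level divisible by `p`). -/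
structure Frame : Prop where
  hK : ∀ x, x ∈ K ↔ ∀ g ∈ G, g • x = x
  hζ : IsPrimitiveRoot ζ p
  hζK : ζ ∈ K
  hvp : v (p : Ω) < 1
  horb : ∀ x : Ω, (Set.range fun g : G => g • x).Finite
  hiso : ∀ (d : D) (x : Ω), v (d • x) = v x
  hdisc : ∀ x ∈ K, x ≠ 0 → ∃ n : ℤ, v x = v (ζ - 1) ^ n

variable {v G K ζ}

namespace Frame

variable (fr : Frame (p := p) v G K ζ)
include fr

theorem lam_ne : ζ - 1 ≠ 0 := lam_ne_zero fr.hζ

theorem val_p : v (p : Ω) = v (ζ - 1) ^ (p - 1) := val_p_eq v fr.hζ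

theorem val_lam_pos' : 0 < v (ζ - 1) := v.pos_iff.mpr fr.lam_ne

theorem val_p_pos : 0 < v (p : Ω) := by
  rw [fr.val_p]; exact pow_pos fr.val_lam_pos' _

theorem p_ne : (p : Ω) ≠ 0 := v.pos_iff.mp fr.val_p_pos

theorem hlam : v (ζ - 1) < 1 := by
  by_contra h
  have h1 : 1 ≤ v (ζ - 1) := not_lt.mp h
  have h2 : 1 ≤ v (ζ - 1) ^ (p - 1) := one_le_pow₀ h1
  rw [← fr.val_p] at h2
  exact absurd fr.hvp (not_lt.mpr h2)

theorem p_mem : (p : Ω) ∈ K := natCast_mem K p

theorem lam_mem : ζ - 1 ∈ K := K.sub_mem fr.hζK K.one_mem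

/-- `v p` is not a `p`-th power in the value group of `K`. -/
theorem hnp : ∀ x ∈ K, v x ^ p ≠ v (p : Ω) := by
  intro x hx h
  by_cases hx0 : x = 0
  · rw [hx0, v.map_zero, zero_pow hp.out.ne_zero] at h
    exact absurd h.symm (ne_of_gt fr.val_p_pos)
  · obtain ⟨n, hn⟩ := fr.hdisc x hx hx0
    rw [hn, fr.val_p, ← zpow_natCast, ← zpow_mul, ← zpow_natCast] at h
    have h1 := (zpow_right_inj₀ fr.val_lam_pos' (ne_of_lt fr.hlam)).mp h
    have hp2 : 2 ≤ p := hp.out.two_le
    have h3 : ((p - 1 : ℕ) : ℤ) = (p : ℤ) - 1 := by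
      rw [Nat.cast_sub hp.out.one_le]; simp
    rw [h3] at h1
    have hdvd : (p : ℤ) ∣ (p : ℤ) - 1 := ⟨n, by rw [← h1]; ring⟩
    have : (p : ℤ) ∣ 1 := by
      have := Dvd.dvd.sub (dvd_refl (p : ℤ)) hdvd
      simpa using this
    have := Int.le_of_dvd one_pos this
    omega

theorem h2 : v (p : Ω) ^ p < v (p : Ω) ^ (p - 1) := by
  have hp1 : p - 1 + 1 = p := Nat.sub_add_cancel hp.out.one_le
  calc v (p : Ω) ^ p = v (p : Ω) ^ (p - 1) * v (p : Ω) := by rw [← pow_succ, hp1]
    _ < v (p : Ω) ^ (p - 1) * 1 :=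
        mul_lt_mul_of_pos_left fr.hvp (pow_pos fr.val_p_pos _)
    _ = v (p : Ω) ^ (p - 1) := mul_one _

theorem val_natCast_le (n : ℕ) : v (n : Ω) ≤ 1 := val_natCast_le_one v n

theorem val_intCast_le (n : ℤ) : v (n : Ω) ≤ 1 := val_intCast_le_one v n

/-- an integer multiple of `p` has valuation `< 1`. -/
theorem val_lt_one_of_dvd {z : ℤ} (h : (p : ℤ) ∣ z) : v (z : Ω) < 1 := by
  obtain ⟨j, rfl⟩ := h
  push_cast
  rw [map_mul]
  calc v (p : Ω) * v (j : Ω) ≤ v (p : Ω) * 1 := mul_le_mul' le_rfl (fr.val_intCast_le j)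
    _ = v (p : Ω) := mul_one _
    _ < 1 := fr.hvp

end Frame

/-! ### Characters: congruence on `G` -/

section Congr

variable {χ χ' : D → ZMod p}

theorem isGen_congr (h : ∀ g ∈ G, χ g = χ' g) {y : Ω} (hy : IsGen G ζ χ y) : IsGen G ζ χ' y :=
  ⟨hy.1, fun g hg => by rw [← h g hg]; exact hy.2 g hg⟩

theorem lev_congr (h : ∀ g ∈ G, χ g = χ' g) {γ : Γ₀} (hl : Lev v G K ζ γ χ) :
    Lev v G K ζ γ χ' :=
  fun y hy => hl y (isGen_congr (fun g hg => (h g hg).symm) hy)

theorem slev_congr (h : ∀ g ∈ G, χ g = χ' g) {γ : Γ₀} (hl : SLev v G K ζ γ χ) :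
    SLev v G K ζ γ χ' :=
  fun y hy => hl y (isGen_congr (fun g hg => (h g hg).symm) hy)

theorem lc_congr (h : ∀ g ∈ G, χ g = χ' g) {ϖ a : Ω} (hl : LC v G K ζ ϖ χ a) :
    LC v G K ζ ϖ χ' a := by
  obtain ⟨y, w, hy, hw⟩ := hl
  exact ⟨y, w, isGen_congr h hy, hw⟩

/-- a leading coefficient is integral. -/
theorem lc_val_le_one {ϖ a : Ω} (hϖ0 : ϖ ≠ 0) (hl : LC v G K ζ ϖ χ a) : v a ≤ 1 := by
  obtain ⟨y, w, -, -, -, hle, hlt⟩ := hl
  have hpos : 0 < v ϖ := v.pos_iff.mpr hϖ0
  have hA : v ((y ^ p * w ^ p - 1) / ϖ) ≤ 1 := by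
    rw [map_div₀]; exact (div_le_one₀ hpos).mpr hle
  have : a = (y ^ p * w ^ p - 1) / ϖ - ((y ^ p * w ^ p - 1) / ϖ - a) := by ring
  rw [this]; exact v.map_sub_le hA (le_of_lt hlt)

/-- a leading coefficient can be changed modulo the maximal ideal. -/
theorem lc_of_close {ϖ a a' : Ω} (hl : LC v G K ζ ϖ χ a) (h : v (a - a') < 1) :
    LC v G K ζ ϖ χ a' := by
  obtain ⟨y, w, hy, hwK, hw0, hle, hlt⟩ := hl
  refine ⟨y, w, hy, hwK, hw0, hle, ?_⟩
  have : (y ^ p * w ^ p - 1) / ϖ - a' = ((y ^ p * w ^ p - 1) / ϖ - a) + (a - a') := by ring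
  rw [this]; exact v.map_add_lt hlt h

end Congr

end Frame


end Fermat.Agent.GP.Flat.OrdNCount
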