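/-
GATE-P (S56) / [P-FLAT] node S56-FLAT-ORD-NCOUNT, file 2 of 4 (helper46): bounded characters
`IsBChar`, the residue class `lcRes` of the leading coefficient at the level `v p` (well defined by
`SSChain.lc_unique`), its additivity and its Frobenius equivariance `lcRes_frob`.
-/
import Fermat.Agent.GP.Flat.OrdNCountBase

set_option autoImplicit false
set_option linter.unusedSectionVars false

namespace Fermat.Agent.GP.Flat.OrdNCount

open Fermat.Agent.GP.Flat.SSChain Fermat.Agent.GP.Flat.SSKummer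
  Fermat.Agent.GP.Ram.KummerBreak Fermat.Agent.GP.Ram.UnitFilt Fermat.Agent.GP.Ram.UnitFiltTop

section Char

variable {Ω : Type*} [Field Ω] {Γ₀ : Type*} [LinearOrderedCommGroupWithZero Γ₀]
  {v : Valuation Ω Γ₀} {p : ℕ} [hp : Fact p.Prime]
  {D : Type*} [Group D] [MulSemiringAction D Ω] {G : Subgroup D} {K : Subfield Ω} {ζ : Ω}

/-- characters of `G` (as functions on `D`) which are additive, of finite level and BOUNDED
(level `≥ v p`, i.e. Kummer generators in `(1 + p O_K) K^{×p}`). -/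
structure IsBChar (v : Valuation Ω Γ₀) (G : Subgroup D) (K : Subfield Ω) (ζ : Ω)
    (χ : D → ZMod p) : Prop where
  add : ∀ g ∈ G, ∀ g' ∈ G, χ (g * g') = χ g + χ g'
  lev : ∃ s : Finset Ω, ∀ g ∈ G, (∀ x ∈ s, g • x = x) → χ g = 0
  bdd : Lev v G K ζ (v (p : Ω)) χ

variable (fr : Frame (p := p) v G K ζ)

namespace IsBChar

variable {χ χ' : D → ZMod p}

include fr in
theorem exists_isGen (h : IsBChar v G K ζ χ) : ∃ y, IsGen G ζ χ y :=
  SSChain.exists_isGen fr.hK fr.hζ fr.hζK fr.horb h.add h.lev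

include fr in
theorem exists_lc (h : IsBChar v G K ζ χ) : ∃ a ∈ K, LC v G K ζ (p : Ω) χ a :=
  lc_exists v fr.hK fr.hζ fr.hζK fr.p_mem h.bdd (h.exists_isGen fr)

theorem congr (hc : ∀ g ∈ G, χ g = χ' g) (h : IsBChar v G K ζ χ) : IsBChar v G K ζ χ' := by
  refine ⟨fun g hg g' hg' => ?_, ?_, lev_congr hc h.bdd⟩
  · rw [← hc _ (G.mul_mem hg hg'), ← hc g hg, ← hc g' hg']; exact h.add g hg g' hg'
  · obtain ⟨s, hs⟩ := h.lev
    exact ⟨s, fun g hg hx => by rw [← hc g hg]; exact hs g hg hx⟩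

include fr in
theorem zero : IsBChar v G K ζ (fun _ : D => (0 : ZMod p)) :=
  ⟨fun _ _ _ _ => (add_zero 0).symm, ⟨∅, fun _ _ _ => rfl⟩, lev_zero v fr.hK fr.hζ fr.hζK⟩

include fr in
theorem sub (h : IsBChar v G K ζ χ) (h' : IsBChar v G K ζ χ') :
    IsBChar v G K ζ (fun g => χ g - χ' g) := by
  classical
  refine ⟨fun g hg g' hg' => ?_, ?_, ?_⟩
  · rw [h.add g hg g' hg', h'.add g hg g' hg']; ring
  · obtain ⟨s, hs⟩ := h.lev
    obtain ⟨s', hs'⟩ := h'.lev
    refine ⟨s ∪ s', fun g hg hx => ?_⟩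
    rw [hs g hg fun x hxs => hx x (Finset.mem_union_left _ hxs),
      hs' g hg fun x hxs => hx x (Finset.mem_union_right _ hxs), sub_zero]
  · exact lev_sub v fr.hK fr.hζ fr.hζK fr.hvp h.bdd h'.bdd (h.exists_isGen fr) (h'.exists_isGen fr)

end IsBChar

/-! ### The residue of the leading coefficient at the level `v p` -/

open Classical in
/-- the class in the residue field of the leading coefficient of `χ` at the level `v p`
(`0` if there is none). -/
noncomputable def lcRes (v : Valuation Ω Γ₀) (G : Subgroup D) (K : Subfield Ω) (ζ : Ω)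
    (χ : D → ZMod p) : Kap v :=
  if h : ∃ a, LC v G K ζ (p : Ω) χ a then res v (Classical.choose h) else 0

variable {χ χ' : D → ZMod p}

include fr in
theorem lcRes_eq {a : Ω} (ha : LC v G K ζ (p : Ω) χ a) : lcRes v G K ζ χ = res v a := by
  have hex : ∃ a, LC v G K ζ (p : Ω) χ a := ⟨a, ha⟩
  have hch := Classical.choose_spec hex
  unfold lcRes
  rw [dif_pos hex, res_eq_res_iff v (lc_val_le_one fr.p_ne hch) (lc_val_le_one fr.p_ne ha)]
  exact lc_unique v fr.hK fr.hζ fr.hζK fr.p_ne fr.hvp fr.hvp fr.hnp fr.h2 hch ha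

include fr in
theorem lcRes_congr (hc : ∀ g ∈ G, χ g = χ' g) : lcRes v G K ζ χ = lcRes v G K ζ χ' := by
  by_cases hex : ∃ a, LC v G K ζ (p : Ω) χ a
  · obtain ⟨a, ha⟩ := hex
    rw [lcRes_eq fr ha, lcRes_eq fr (lc_congr hc ha)]
  · have hex' : ¬ ∃ a, LC v G K ζ (p : Ω) χ' a := fun ⟨a, ha⟩ =>
      hex ⟨a, lc_congr (fun g hg => (hc g hg).symm) ha⟩
    unfold lcRes
    rw [dif_neg hex, dif_neg hex']

include fr in
theorem lcRes_add (h : IsBChar v G K ζ χ) (h' : IsBChar v G K ζ χ') :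
    lcRes v G K ζ (fun g => χ g + χ' g) = lcRes v G K ζ χ + lcRes v G K ζ χ' := by
  obtain ⟨a, -, ha⟩ := h.exists_lc fr
  obtain ⟨a', -, ha'⟩ := h'.exists_lc fr
  rw [lcRes_eq fr ha, lcRes_eq fr ha',
    lcRes_eq fr (lc_add v fr.hK fr.hζ fr.hζK fr.p_ne fr.hvp ha ha'),
    res_add v (lc_val_le_one fr.p_ne ha) (lc_val_le_one fr.p_ne ha')]

include fr in
theorem lcRes_sub (h : IsBChar v G K ζ χ) (h' : IsBChar v G K ζ χ') :
    lcRes v G K ζ (fun g => χ g - χ' g) = lcRes v G K ζ χ - lcRes v G K ζ χ' := by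
  obtain ⟨a, -, ha⟩ := h.exists_lc fr
  obtain ⟨a', -, ha'⟩ := h'.exists_lc fr
  rw [lcRes_eq fr ha, lcRes_eq fr ha',
    lcRes_eq fr (lc_sub v fr.hK fr.hζ fr.hζK fr.p_ne fr.hvp ha ha'),
    res_sub v (lc_val_le_one fr.p_ne ha) (lc_val_le_one fr.p_ne ha')]

/-- `δ • n = n` for natural numbers. -/
theorem smul_natCast' (δ : D) (n : ℕ) : δ • (n : Ω) = (n : Ω) :=
  map_natCast (MulSemiringAction.toRingHom D Ω δ) n

include fr in
/-- **Frobenius equivariance** of the leading coefficient at the level `v p`. -/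
theorem lcRes_frob (φ : D) (hφG : ∀ g ∈ G, φ⁻¹ * g * φ ∈ G) {cφ : ℕ} (hφζ : φ • ζ = ζ ^ cφ)
    (hφres : ∀ a ∈ K, v a ≤ 1 → v (φ • a - a ^ p) < 1) (h : IsBChar v G K ζ χ) :
    lcRes v G K ζ (fun g => (cφ : ZMod p) * χ (φ⁻¹ * g * φ)) = lcRes v G K ζ χ ^ p := by
  obtain ⟨a, haK, ha⟩ := h.exists_lc fr
  have ha1 : v a ≤ 1 := lc_val_le_one fr.p_ne ha
  have hconj := lc_conj v fr.hK fr.hζ fr.hζK fr.hiso fr.p_ne φ hφG hφζ ha
  rw [smul_natCast', div_self fr.p_ne, mul_one] at hconj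
  have hφa : v (φ • a) ≤ 1 := by rw [fr.hiso]; exact ha1
  rw [lcRes_eq fr hconj, lcRes_eq fr ha, ← res_pow v ha1,
    res_eq_res_iff v hφa (by rw [v.map_pow]; exact pow_le_one₀ zero_le ha1)]
  exact hφres a haK ha1

end Char

end Fermat.Agent.GP.Flat.OrdNCount
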