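/-
GATE-P (S56) / [P-FLAT] node S56-FLAT-ORD-NCOUNT, file 3 of 4 (helper46): step (B2) of board 4321 —
a bounded character which is invariant under the twisted conjugation by an inertia element and
whose leading coefficient at the level `v p` vanishes is trivial on `G`
(levels `p - 1 → p = e'` (top) `→ > e'`).
-/
import Fermat.Agent.GP.Flat.OrdNCountChar

set_option autoImplicit false
set_option linter.unusedSectionVars false

namespace Fermat.Agent.GP.Flat.OrdNCount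

open Fermat.Agent.GP.Flat.SSChain Fermat.Agent.GP.Flat.SSKummer
  Fermat.Agent.GP.Ram.KummerBreak Fermat.Agent.GP.Ram.UnitFilt Fermat.Agent.GP.Ram.UnitFiltTop

section Ker

variable {Ω : Type*} [Field Ω] {Γ₀ : Type*} [LinearOrderedCommGroupWithZero Γ₀]
  {v : Valuation Ω Γ₀} {p : ℕ} [hp : Fact p.Prime]
  {D : Type*} [Group D] [MulSemiringAction D Ω] {G : Subgroup D} {K : Subfield Ω} {ζ : Ω}

variable (fr : Frame (p := p) v G K ζ)

include fr in
/-- an integer which vanishes in `ZMod p` has valuation `< 1`. -/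
theorem Frame.val_lt_one_of_zmod {z : ℤ} (h : (z : ZMod p) = 0) : v (z : Ω) < 1 :=
  fr.val_lt_one_of_dvd ((ZMod.intCast_zmod_eq_zero_iff_dvd z p).mp h)

include fr in
/-- **(B2)**: a bounded character, invariant under the twisted conjugation by an inertia element
`σ₁` acting on `ζ` through `c ≠ 1`, whose leading coefficient at the level `v p` vanishes, is
trivial on `G`. -/
theorem eq_zero_of_lcRes_eq_zero (σ₁ : D) (hσG : ∀ g ∈ G, σ₁⁻¹ * g * σ₁ ∈ G) {c : ℕ}
    (hσζ : σ₁ • ζ = ζ ^ c) (hc1 : (c : ZMod p) ≠ 1)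
    (hσres : ∀ a, v a ≤ 1 → v (σ₁ • a - a) < 1)
    {χ : D → ZMod p} (h : IsBChar v G K ζ χ)
    (hinv : ∀ g ∈ G, (c : ZMod p) * χ (σ₁⁻¹ * g * σ₁) = χ g)
    (h0 : lcRes v G K ζ χ = 0) : ∀ g ∈ G, χ g = 0 := by
  have hK := fr.hK
  have hζ := fr.hζ
  have hζK := fr.hζK
  have hgen := h.exists_isGen fr
  -- level `> p - 1`
  obtain ⟨a, -, ha⟩ := h.exists_lc fr
  have ha1 : v a ≤ 1 := lc_val_le_one fr.p_ne ha
  rw [lcRes_eq fr ha, res_eq_zero_iff v ha1] at h0
  have hs : SLev v G K ζ (v (p : Ω)) χ := lc_ker v hK hζ hζK fr.p_ne ha h0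
  rw [fr.val_p] at hs
  -- level `≥ p`
  have hl : Lev v G K ζ (v (ζ - 1) ^ (p - 1 + 1)) χ :=
    lev_succ_of_slev v hK hζ hζK fr.lam_ne fr.hlam fr.hdisc hs
  rw [Nat.sub_add_cancel hp.out.one_le, ← v.map_pow] at hl
  have hϖ0 : (ζ - 1) ^ p ≠ 0 := pow_ne_zero _ fr.lam_ne
  obtain ⟨b, -, hb⟩ := lc_exists v hK hζ hζK (K.pow_mem fr.lam_mem p) hl hgen
  have hb1 : v b ≤ 1 := lc_val_le_one hϖ0 hb
  -- the conjugate leading coefficient
  have hconj := lc_congr hinv (lc_conj v hK hζ hζK fr.hiso hϖ0 σ₁ hσG hσζ hb)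
  obtain ⟨x, hxK, hx1, hx⟩ := lc_top_unique v hK hζ hζK fr.hlam hb hconj
  -- the twist ratio
  set s : Ω := ∑ i ∈ Finset.range c, ζ ^ i with hs_def
  have hratio : σ₁ • ((ζ - 1) ^ p) / (ζ - 1) ^ p = s ^ p := by
    rw [smul_pow', smul_sub, smul_one, hσζ, ← mul_geom_sum, mul_pow]
    field_simp
    rfl
  have hsc : v (s ^ p - (c : Ω)) < 1 := val_twist_ratio_pow_sub v hζ fr.hlam c
  have hsp1 : v (s ^ p) ≤ 1 := by
    have : s ^ p = (s ^ p - (c : Ω)) + (c : Ω) := by ring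
    rw [this]; exact v.map_add_le (le_of_lt hsc) (fr.val_natCast_le c)
  rw [hratio] at hx
  have hcb : v (σ₁ • b * s ^ p - (c : Ω) * b) < 1 := by
    have : σ₁ • b * s ^ p - (c : Ω) * b = (σ₁ • b - b) * s ^ p + b * (s ^ p - (c : Ω)) := by ring
    rw [this]
    refine v.map_add_lt ?_ ?_
    · rw [map_mul]
      calc v (σ₁ • b - b) * v (s ^ p) ≤ v (σ₁ • b - b) * 1 := mul_le_mul' le_rfl hsp1
        _ = v (σ₁ • b - b) := mul_one _
        _ < 1 := hσres b hb1
    · rw [map_mul]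
      calc v b * v (s ^ p - (c : Ω)) ≤ 1 * v (s ^ p - (c : Ω)) := mul_le_mul' hb1 le_rfl
        _ = v (s ^ p - (c : Ω)) := one_mul _
        _ < 1 := hsc
  have hx' : v (((c : Ω) - 1) * b - (x ^ p - x)) < 1 := by
    have : ((c : Ω) - 1) * b - (x ^ p - x) =
        ((σ₁ • b * s ^ p - b) - (x ^ p - x)) - (σ₁ • b * s ^ p - (c : Ω) * b) := by ring
    rw [this]; exact v.map_sub_lt hx hcb
  -- divide by `c - 1` in `F_p`
  set m : ℕ := (((c : ZMod p) - 1)⁻¹).val with hm_def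
  have hmc : (m : ZMod p) * ((c : ZMod p) - 1) = 1 := by
    rw [hm_def, ZMod.natCast_val, ZMod.cast_id', id_eq]
    exact inv_mul_cancel₀ (sub_ne_zero.mpr hc1)
  have hz1 : v ((1 : Ω) - (m : Ω) * ((c : Ω) - 1)) < 1 := by
    have := fr.val_lt_one_of_zmod (z := 1 - (m : ℤ) * ((c : ℤ) - 1)) (by
      push_cast; rw [hmc, sub_self])
    push_cast at this
    exact this
  have hz2 : v ((m : Ω) ^ p - (m : Ω)) < 1 := by
    have := fr.val_lt_one_of_zmod (z := (m : ℤ) ^ p - (m : ℤ)) (by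
      push_cast; rw [ZMod.pow_card, sub_self])
    push_cast at this
    exact this
  have hxp1 : v (x ^ p) ≤ 1 := by rw [v.map_pow]; exact pow_le_one₀ zero_le hx1
  have hfin : v (b - (((m : Ω) * x) ^ p - (m : Ω) * x)) < 1 := by
    have : b - (((m : Ω) * x) ^ p - (m : Ω) * x) =
        ((1 : Ω) - (m : Ω) * ((c : Ω) - 1)) * b
          + (m : Ω) * (((c : Ω) - 1) * b - (x ^ p - x))
          - ((m : Ω) ^ p - (m : Ω)) * x ^ p := by ring
    rw [this]
    refine v.map_sub_lt (v.map_add_lt ?_ ?_) ?_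
    · rw [map_mul]
      calc v ((1 : Ω) - (m : Ω) * ((c : Ω) - 1)) * v b
          ≤ v ((1 : Ω) - (m : Ω) * ((c : Ω) - 1)) * 1 := mul_le_mul' le_rfl hb1
        _ = _ := mul_one _
        _ < 1 := hz1
    · rw [map_mul]
      calc v (m : Ω) * v (((c : Ω) - 1) * b - (x ^ p - x))
          ≤ 1 * v (((c : Ω) - 1) * b - (x ^ p - x)) := mul_le_mul' (fr.val_natCast_le m) le_rfl
        _ = _ := one_mul _
        _ < 1 := hx'
    · rw [map_mul]
      calc v ((m : Ω) ^ p - (m : Ω)) * v (x ^ p)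
          ≤ v ((m : Ω) ^ p - (m : Ω)) * 1 := mul_le_mul' le_rfl hxp1
        _ = _ := mul_one _
        _ < 1 := hz2
  have hx₁K : (m : Ω) * x ∈ K := K.mul_mem (natCast_mem K m) hxK
  have hx₁1 : v ((m : Ω) * x) ≤ 1 := by
    rw [map_mul]; exact mul_le_one' (fr.val_natCast_le m) hx1
  have hstop : SLev v G K ζ (v (ζ - 1) ^ p) χ :=
    lc_top_ker v hK hζ hζK fr.hlam hb hx₁K hx₁1 hfin
  exact slev_top_zero v hK hζ hζK (fun g _ x => fr.hiso g x) hstop hgen

end Ker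

end Fermat.Agent.GP.Flat.OrdNCount
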