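/-
GATE-P (S56) / [P-FLAT] node S56-FLAT-ORD-NCOUNT, file 4 of 4 (helper46; leaf named by helper47,
board 4321 §3): the abstract one-character chain count for the ORDINARY branch.

Frame (verbatim `SSChain`, `e = p - 1`): `v : Valuation Ω Γ₀`, `D` acting on `Ω` by isometries,
`G ≤ D` with fixed field `K ∋ ζ` (primitive `p`-th root of unity), value group of `K` generated by
`v (ζ - 1)`; `σ₁` (inertia: trivial on the residue field, `σ₁ ζ = ζ ^ c`, `c ≢ 1`) and `φ`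
(Frobenius: `φ a ≡ a ^ p` on `O_K`, `φ ζ = ζ ^ cφ`) with `δ⁻¹ G δ ⊆ G`; `k` a finite field of
characteristic `p`, `ψφ ∈ k^×`.

* `IsNChar p v G K ζ σ₁ c φ ψφ F` : `F : D → k` additive on `G`, of finite level, BOUNDED
  (`∀ ℓ : k →+ ZMod p`, `SSChain.Lev v G K ζ (v p) (ℓ ∘ F)`), `F (σ₁ g σ₁⁻¹) = c F g`,
  `F (φ g φ⁻¹) = ψφ F g` on `G`.
* **`exists_generator`** : `∃ F₀, IsNChar … F₀ ∧ ∀ F, IsNChar … F → ∃ t : k, ∀ g ∈ G, F g = t * F₀ g`.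
* `exists_generator_of_frame` : the same with the frame bundled (`Frame v G K ζ`).
* `exists_generator_frobEigen` : (EC) for a BIG residue field `κ` (any field of characteristic `p`):
  the additive `f : k → κ` with `f (c' x) = f x ^ p` are all `f₀ (t ·)` (values lie in the finite
  subfield `frobFix κ p (orderOf c')`, then helper25's `IsCoEC.exists_generator`).

Proof (4321): `Φ_F x := lcRes (l₀ (x F ·))` (residue of the leading coefficient at the level `v p`,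
`l₀ : k →+ F_p`, `l₀ 1 ≠ 0`) is additive in `x`, `Φ_F (c' x) = Φ_F x ^ p` (`c' = cφ ψφ⁻¹`,
`lcRes_frob`), `Φ_{sF} x = Φ_F (s x)`, and `Φ_F = 0 ⟹ F|G = 0` (`eq_zero_of_lcRes_eq_zero`, (B2)).
-/
import Fermat.Agent.GP.Flat.OrdNCountKer
set_option autoImplicit false
set_option linter.unusedSectionVars false

namespace Fermat.Agent.GP.Flat.OrdNCount

open Fermat.Agent.GP.Flat.EigenCount Fermat.Agent.GP.Flat.SSChain Fermat.Agent.GP.Flat.SSKummer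
  Fermat.Agent.GP.Ram.KummerBreak Fermat.Agent.GP.Ram.UnitFilt Fermat.Agent.GP.Ram.UnitFiltTop

section NChar

variable {Ω : Type*} [Field Ω] {Γ₀ : Type*} [LinearOrderedCommGroupWithZero Γ₀]
  {v : Valuation Ω Γ₀} {p : ℕ} [hp : Fact p.Prime]
  {D : Type*} [Group D] [MulSemiringAction D Ω] {G : Subgroup D} {K : Subfield Ω} {ζ : Ω}
  {k : Type*} [Field k]

variable (p) in
/-- the `N`-parts: `F : D → k` additive on `G`, of finite level, BOUNDED (every `ℓ ∘ F` has level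
`≥ v p`), and eigen for the conjugations by `σ₁` (eigenvalue `c`) and `φ` (eigenvalue `ψφ`). -/
structure IsNChar (v : Valuation Ω Γ₀) (G : Subgroup D) (K : Subfield Ω) (ζ : Ω)
    (σ₁ : D) (c : ℕ) (φ : D) (ψφ : k) (F : D → k) : Prop where
  add : ∀ g ∈ G, ∀ g' ∈ G, F (g * g') = F g + F g'
  lev : ∃ s : Finset Ω, ∀ g ∈ G, (∀ x ∈ s, g • x = x) → F g = 0
  bdd : ∀ ℓ : k →+ ZMod p, Lev v G K ζ (v (p : Ω)) (fun g => ℓ (F g))
  conjσ : ∀ g ∈ G, F (σ₁ * g * σ₁⁻¹) = (c : k) * F g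
  conjφ : ∀ g ∈ G, F (φ * g * φ⁻¹) = ψφ * F g

theorem map_natCast_mul' (ℓ : k →+ ZMod p) (n : ℕ) (z : k) :
    ℓ ((n : k) * z) = (n : ZMod p) * ℓ z := by
  have h1 : (n : k) * z = n • z := (nsmul_eq_mul n z).symm
  have h2 : (n : ZMod p) * ℓ z = n • ℓ z := (nsmul_eq_mul n (ℓ z)).symm
  rw [h1, h2, map_nsmul]

/-- `ℓ_x := l₀ (x * ·)`. -/
def lx (l₀ : k →+ ZMod p) (x : k) : k →+ ZMod p := l₀.comp (AddMonoidHom.mulLeft x)

theorem lx_apply (l₀ : k →+ ZMod p) (x z : k) : lx l₀ x z = l₀ (x * z) := rfl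

variable (fr : Frame (p := p) v G K ζ)

namespace IsNChar

variable {σ₁ : D} {c : ℕ} {φ : D} {cφ : ℕ} {ψφ : k} {F F' : D → k}

theorem bchar (h : IsNChar p v G K ζ σ₁ c φ ψφ F) (ℓ : k →+ ZMod p) :
    IsBChar v G K ζ (fun g => ℓ (F g)) := by
  refine ⟨fun g hg g' hg' => by rw [h.add g hg g' hg', map_add], ?_, h.bdd ℓ⟩
  obtain ⟨s, hs⟩ := h.lev
  exact ⟨s, fun g hg hx => by rw [hs g hg hx, map_zero]⟩

theorem invσ (hσG : ∀ g ∈ G, σ₁⁻¹ * g * σ₁ ∈ G) (h : IsNChar p v G K ζ σ₁ c φ ψφ F)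
    (ℓ : k →+ ZMod p) : ∀ g ∈ G, (c : ZMod p) * ℓ (F (σ₁⁻¹ * g * σ₁)) = ℓ (F g) := by
  intro g hg
  have h1 := h.conjσ _ (hσG g hg)
  have h2 : σ₁ * (σ₁⁻¹ * g * σ₁) * σ₁⁻¹ = g := by group
  rw [h2] at h1
  rw [h1, map_natCast_mul']

include fr in
theorem frob (hφG : ∀ g ∈ G, φ⁻¹ * g * φ ∈ G) (hφζ : φ • ζ = ζ ^ cφ)
    (hφres : ∀ a ∈ K, v a ≤ 1 → v (φ • a - a ^ p) < 1) (hψ : ψφ ≠ 0)
    (h : IsNChar p v G K ζ σ₁ c φ ψφ F) (ℓ : k →+ ZMod p) :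
    lcRes v G K ζ (fun g => ℓ ((cφ : k) * ψφ⁻¹ * F g)) = lcRes v G K ζ (fun g => ℓ (F g)) ^ p := by
  rw [← lcRes_frob fr φ hφG hφζ hφres (h.bchar ℓ)]
  refine lcRes_congr fr fun g hg => ?_
  have h1 := h.conjφ _ (hφG g hg)
  have h2 : φ * (φ⁻¹ * g * φ) * φ⁻¹ = g := by group
  rw [h2] at h1
  rw [h1, mul_assoc, inv_mul_cancel_left₀ hψ, map_natCast_mul']

include fr in
theorem zero : IsNChar p v G K ζ σ₁ c φ ψφ (fun _ : D => (0 : k)) := by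
  refine ⟨fun _ _ _ _ => (add_zero 0).symm, ⟨∅, fun _ _ _ => rfl⟩, fun ℓ => ?_,
    fun _ _ => (mul_zero _).symm, fun _ _ => (mul_zero _).symm⟩
  have h0 : (fun _ : D => ℓ (0 : k)) = fun _ => (0 : ZMod p) := by
    funext _; exact map_zero ℓ
  rw [h0]
  exact lev_zero v fr.hK fr.hζ fr.hζK

include fr in
theorem sub (h : IsNChar p v G K ζ σ₁ c φ ψφ F) (h' : IsNChar p v G K ζ σ₁ c φ ψφ F') :
    IsNChar p v G K ζ σ₁ c φ ψφ (fun g => F g - F' g) := by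
  classical
  refine ⟨fun g hg g' hg' => ?_, ?_, fun ℓ => ?_, fun g hg => ?_, fun g hg => ?_⟩
  · rw [h.add g hg g' hg', h'.add g hg g' hg']; ring
  · obtain ⟨s, hs⟩ := h.lev
    obtain ⟨s', hs'⟩ := h'.lev
    refine ⟨s ∪ s', fun g hg hx => ?_⟩
    rw [hs g hg fun x hxs => hx x (Finset.mem_union_left _ hxs),
      hs' g hg fun x hxs => hx x (Finset.mem_union_right _ hxs), sub_zero]
  · have h1 := ((h.bchar ℓ).sub fr (h'.bchar ℓ)).bdd
    have h2 : (fun g => ℓ (F g - F' g)) = fun g => ℓ (F g) - ℓ (F' g) := by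
      funext g; exact map_sub ℓ _ _
    rw [h2]; exact h1
  · rw [h.conjσ g hg, h'.conjσ g hg, mul_sub]
  · rw [h.conjφ g hg, h'.conjφ g hg, mul_sub]

theorem smul (h : IsNChar p v G K ζ σ₁ c φ ψφ F) (s : k) :
    IsNChar p v G K ζ σ₁ c φ ψφ (fun g => s * F g) := by
  refine ⟨fun g hg g' hg' => ?_, ?_, fun ℓ => h.bdd (lx ℓ s), fun g hg => ?_, fun g hg => ?_⟩
  · rw [h.add g hg g' hg', mul_add]
  · obtain ⟨t, ht⟩ := h.lev
    exact ⟨t, fun g hg hx => by rw [ht g hg hx, mul_zero]⟩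
  · rw [h.conjσ g hg, mul_left_comm]
  · rw [h.conjφ g hg, mul_left_comm]

end IsNChar

/-- `Φ_F (x)` := the residue of the leading coefficient of `l₀ (x * F ·)` at the level `v p`. -/
noncomputable def Phi (v : Valuation Ω Γ₀) (G : Subgroup D) (K : Subfield Ω) (ζ : Ω)
    (l₀ : k →+ ZMod p) (F : D → k) (x : k) : Kap v :=
  lcRes v G K ζ (fun g => l₀ (x * F g))

variable {σ₁ : D} {c : ℕ} {φ : D} {cφ : ℕ} {ψφ : k} {F F' : D → k} (l₀ : k →+ ZMod p)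

include fr in
theorem Phi_add (h : IsNChar p v G K ζ σ₁ c φ ψφ F) (x y : k) :
    Phi v G K ζ l₀ F (x + y) = Phi v G K ζ l₀ F x + Phi v G K ζ l₀ F y := by
  have h1 := lcRes_add fr (h.bchar (lx l₀ x)) (h.bchar (lx l₀ y))
  have h2 : (fun g => l₀ ((x + y) * F g)) = fun g => lx l₀ x (F g) + lx l₀ y (F g) := by
    funext g; rw [add_mul, map_add]; rfl
  unfold Phi; rw [h2]; exact h1

include fr in
theorem Phi_sub (h : IsNChar p v G K ζ σ₁ c φ ψφ F) (h' : IsNChar p v G K ζ σ₁ c φ ψφ F')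
    (x : k) :
    Phi v G K ζ l₀ (fun g => F g - F' g) x = Phi v G K ζ l₀ F x - Phi v G K ζ l₀ F' x := by
  have h1 := lcRes_sub fr (h.bchar (lx l₀ x)) (h'.bchar (lx l₀ x))
  have h2 : (fun g => l₀ (x * (F g - F' g))) = fun g => lx l₀ x (F g) - lx l₀ x (F' g) := by
    funext g; rw [mul_sub, map_sub]; rfl
  unfold Phi; rw [h2]; exact h1

theorem Phi_smul (s x : k) :
    Phi v G K ζ l₀ (fun g => s * F g) x = Phi v G K ζ l₀ F (s * x) := by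
  have h2 : (fun g => l₀ (x * (s * F g))) = fun g => l₀ (s * x * F g) := by
    funext g; rw [mul_left_comm, mul_assoc]
  unfold Phi; rw [h2]

include fr in
theorem Phi_frob (hφG : ∀ g ∈ G, φ⁻¹ * g * φ ∈ G) (hφζ : φ • ζ = ζ ^ cφ)
    (hφres : ∀ a ∈ K, v a ≤ 1 → v (φ • a - a ^ p) < 1) (hψ : ψφ ≠ 0)
    (h : IsNChar p v G K ζ σ₁ c φ ψφ F) (x : k) :
    Phi v G K ζ l₀ F ((cφ : k) * ψφ⁻¹ * x) = Phi v G K ζ l₀ F x ^ p := by
  have h1 := h.frob fr hφG hφζ hφres hψ (lx l₀ x)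
  have h2 : (fun g => l₀ ((cφ : k) * ψφ⁻¹ * x * F g)) =
      fun g => lx l₀ x ((cφ : k) * ψφ⁻¹ * F g) := by
    funext g; rw [lx_apply, mul_left_comm x, mul_assoc ((cφ : k) * ψφ⁻¹)]
  unfold Phi; rw [h2]; exact h1

include fr in
/-- **injectivity**: `Φ_F = 0` implies `F|G = 0`. -/
theorem eq_zero_of_Phi_eq_zero (hσG : ∀ g ∈ G, σ₁⁻¹ * g * σ₁ ∈ G)
    (hσζ : σ₁ • ζ = ζ ^ c) (hc1 : (c : ZMod p) ≠ 1)
    (hσres : ∀ a, v a ≤ 1 → v (σ₁ • a - a) < 1) (hl₀ : l₀ 1 ≠ 0)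
    (h : IsNChar p v G K ζ σ₁ c φ ψφ F) (h0 : ∀ x, Phi v G K ζ l₀ F x = 0) :
    ∀ g ∈ G, F g = 0 := by
  intro g hg
  by_contra hne
  have := eq_zero_of_lcRes_eq_zero fr σ₁ hσG hσζ hc1 hσres (h.bchar (lx l₀ (F g)⁻¹))
    (h.invσ hσG (lx l₀ (F g)⁻¹)) (h0 (F g)⁻¹) g hg
  rw [lx_apply, inv_mul_cancel₀ hne] at this
  exact hl₀ this

end NChar


section FrobEigen

variable {p : ℕ} [hp : Fact p.Prime] (κ : Type*) [Field κ] [CharP κ p]
  {k : Type*} [Field k] [Finite k] [CharP k p]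

omit hp [CharP κ p] [Finite k] [CharP k p] in
theorem map_zero_of_add {f : k → κ} (hadd : ∀ x y, f (x + y) = f x + f y) : f 0 = 0 := by
  have h := hadd 0 0
  rw [add_zero] at h
  exact left_eq_add.mp h

omit hp [CharP κ p] [Finite k] [CharP k p] in
theorem map_natCast_mul_of_add {f : k → κ} (hadd : ∀ x y, f (x + y) = f x + f y) (n : ℕ) (x : k) :
    f ((n : k) * x) = (n : κ) * f x := by
  induction n with
  | zero => rw [Nat.cast_zero, Nat.cast_zero, zero_mul, zero_mul, map_zero_of_add κ hadd]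
  | succ n ih => rw [Nat.cast_succ, Nat.cast_succ, add_mul, add_mul, one_mul, one_mul, hadd, ih]

omit [CharP κ p] [Finite k] [CharP k p] in
theorem map_pow_mul_of_frob {c' : k} {f : k → κ} (hfrob : ∀ x, f (c' * x) = f x ^ p) (i : ℕ)
    (x : k) : f (c' ^ i * x) = f x ^ (p ^ i) := by
  induction i with
  | zero => rw [pow_zero, pow_zero, one_mul, pow_one]
  | succ i ih => rw [pow_succ' c', mul_assoc, hfrob, ih, ← pow_mul, ← pow_succ]

/-- **(EC) with a big residue field**: the additive maps `f : k → κ` (`k` finite, `κ` ANY field of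
characteristic `p`) with `f (c' * x) = f x ^ p` are all of the form `f₀ (t * ·)` for one `f₀`. -/
theorem exists_generator_frobEigen {c' : k} (hc' : c' ≠ 0) :
    ∃ f₀ : k → κ, (∀ x y, f₀ (x + y) = f₀ x + f₀ y) ∧ (∀ x, f₀ (c' * x) = f₀ x ^ p) ∧
      ∀ f : k → κ, (∀ x y, f (x + y) = f x + f y) → (∀ x, f (c' * x) = f x ^ p) →
        ∃ t : k, ∀ x, f x = f₀ (t * x) := by
  classical
  set m : ℕ := orderOf (Units.mk0 c' hc') with hm_def
  have hm : 0 < m := orderOf_pos _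
  have hcm : c' ^ m = 1 := by
    have h1 := pow_orderOf_eq_one (Units.mk0 c' hc')
    have h2 := congrArg Units.val h1
    rw [Units.val_pow_eq_pow_val, Units.val_mk0, Units.val_one] at h2
    exact h2
  have : NeZero m := ⟨hm.ne'⟩
  have hmem : ∀ f : k → κ, (∀ x, f (c' * x) = f x ^ p) → ∀ x, f x ∈ frobFix κ p m := by
    intro f hf x
    rw [mem_frobFix, ← map_pow_mul_of_frob κ hf, hcm, one_mul]
  let _ : Algebra (ZMod p) k := ZMod.algebra k p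
  let _ : Algebra (ZMod p) (frobFix κ p m) := ZMod.algebra _ p
  have hco : ∀ f : k → frobFix κ p m, (∀ x y, f (x + y) = f x + f y) →
      (∀ x, f (c' * x) = f x ^ p) → IsCoEC (ZMod p) (1 : frobFix κ p m) c' f := by
    intro f hadd hfrob
    refine ⟨hadd, fun μ x => ?_, fun x => ?_⟩
    · rw [← ZMod.natCast_zmod_val μ, map_natCast, map_natCast]
      exact map_natCast_mul_of_add _ hadd _ x
    · rw [ZMod.card, one_mul, hfrob]
  obtain ⟨g₀, hg₀, hgen⟩ := IsCoEC.exists_generator (F := ZMod p) (κ := frobFix κ p m) (k := k)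
    (u := 1) one_ne_zero c'
  refine ⟨fun x => (g₀ x : κ), fun x y => ?_, fun x => ?_, fun f hadd hfrob => ?_⟩
  · show ((g₀ (x + y) : frobFix κ p m) : κ) = (g₀ x : κ) + (g₀ y : κ)
    rw [hg₀.add, Subfield.coe_add]
  · show ((g₀ (c' * x) : frobFix κ p m) : κ) = (g₀ x : κ) ^ p
    rw [hg₀.frob, ZMod.card, one_mul, SubmonoidClass.coe_pow]
  · obtain ⟨t, ht⟩ := hgen (fun x => ⟨f x, hmem f hfrob x⟩)
      (hco _ (fun x y => Subtype.ext (by rw [Subfield.coe_add]; exact hadd x y))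
        (fun x => Subtype.ext (by rw [SubmonoidClass.coe_pow]; exact hfrob x)))
    exact ⟨t, fun x => congrArg Subtype.val (ht x)⟩

end FrobEigen

section Main

variable {Ω : Type*} [Field Ω] {Γ₀ : Type*} [LinearOrderedCommGroupWithZero Γ₀]
  {v : Valuation Ω Γ₀} {p : ℕ} [hp : Fact p.Prime]
  {D : Type*} [Group D] [MulSemiringAction D Ω] {G : Subgroup D} {K : Subfield Ω} {ζ : Ω}
  {k : Type*} [Field k] [Finite k] [CharP k p]
  {σ₁ : D} {c : ℕ} {φ : D} {cφ : ℕ} {ψφ : k}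

/-- the residue field of the frame has characteristic `p`. -/
theorem Frame.charP_kap (fr : Frame (p := p) v G K ζ) : CharP (Kap v) p :=
  (CharP.charP_iff_prime_eq_zero hp.out).mpr (by
    rw [← res_natCast v p, res_eq_zero_iff v (fr.val_natCast_le p)]; exact fr.hvp)

/-- `φ • ζ = ζ ^ cφ` forces `p ∤ cφ`. -/
theorem Frame.natCast_ne_zero_of_smul_zeta (fr : Frame (p := p) v G K ζ)
    (hφζ : φ • ζ = ζ ^ cφ) : (cφ : k) ≠ 0 := by
  intro h0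
  have hdvd : p ∣ cφ := (CharP.cast_eq_zero_iff k p cφ).mp h0
  obtain ⟨j, rfl⟩ := hdvd
  rw [pow_mul, fr.hζ.pow_eq_one, one_pow] at hφζ
  have h1 : φ • ζ = φ • (1 : Ω) := by rw [hφζ, smul_one]
  have h2 : ζ = 1 := MulAction.injective φ h1
  exact fr.hζ.ne_one hp.out.one_lt h2

/-- **S56-FLAT-ORD-NCOUNT, frame form**: the `N`-parts form an (at most) one-dimensional family:
there is one `F₀` such that every `N`-part agrees on `G` with a `k`-multiple of `F₀`. -/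
theorem exists_generator_of_frame (fr : Frame (p := p) v G K ζ)
    (hσG : ∀ g ∈ G, σ₁⁻¹ * g * σ₁ ∈ G) (hσζ : σ₁ • ζ = ζ ^ c) (hc1 : (c : ZMod p) ≠ 1)
    (hσres : ∀ a, v a ≤ 1 → v (σ₁ • a - a) < 1)
    (hφG : ∀ g ∈ G, φ⁻¹ * g * φ ∈ G) (hφζ : φ • ζ = ζ ^ cφ)
    (hφres : ∀ a ∈ K, v a ≤ 1 → v (φ • a - a ^ p) < 1) (hψ : ψφ ≠ 0) :
    ∃ F₀ : D → k, IsNChar p v G K ζ σ₁ c φ ψφ F₀ ∧
      ∀ F : D → k, IsNChar p v G K ζ σ₁ c φ ψφ F → ∃ t : k, ∀ g ∈ G, F g = t * F₀ g := by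
  classical
  have : CharP (Kap v) p := fr.charP_kap
  -- a functional `l₀ : k → F_p` with `l₀ 1 ≠ 0`
  let _ : Algebra (ZMod p) k := ZMod.algebra k p
  obtain ⟨L₀, hL₀⟩ := Module.Projective.exists_dual_ne_zero (ZMod p) (one_ne_zero : (1 : k) ≠ 0)
  obtain ⟨l₀, hl₀⟩ : ∃ l₀ : k →+ ZMod p, l₀ 1 ≠ 0 := ⟨L₀.toAddMonoidHom, hL₀⟩
  -- the Frobenius multiplier
  have hc' : (cφ : k) * ψφ⁻¹ ≠ 0 :=
    mul_ne_zero (fr.natCast_ne_zero_of_smul_zeta hφζ) (inv_ne_zero hψ)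
  obtain ⟨f₀, hf₀add, -, hgen⟩ := exists_generator_frobEigen (p := p) (Kap v) hc'
  have key : ∀ F : D → k, IsNChar p v G K ζ σ₁ c φ ψφ F →
      ∃ t : k, ∀ x, Phi v G K ζ l₀ F x = f₀ (t * x) := fun F hF =>
    hgen _ (Phi_add fr l₀ hF) (Phi_frob fr l₀ hφG hφζ hφres hψ hF)
  have inj : ∀ F : D → k, IsNChar p v G K ζ σ₁ c φ ψφ F →
      (∀ x, Phi v G K ζ l₀ F x = 0) → ∀ g ∈ G, F g = 0 := fun F hF h0 =>
    eq_zero_of_Phi_eq_zero fr l₀ hσG hσζ hc1 hσres hl₀ hF h0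
  by_cases hex : ∃ F₁ : D → k, IsNChar p v G K ζ σ₁ c φ ψφ F₁ ∧ ∃ x, Phi v G K ζ l₀ F₁ x ≠ 0
  · obtain ⟨F₁, hF₁, x₁, hx₁⟩ := hex
    obtain ⟨t₁, ht₁⟩ := key F₁ hF₁
    have ht₁0 : t₁ ≠ 0 := by
      intro h0
      apply hx₁
      rw [ht₁, h0, zero_mul, map_zero_of_add _ hf₀add]
    refine ⟨F₁, hF₁, fun F hF => ?_⟩
    obtain ⟨t, ht⟩ := key F hF
    refine ⟨t * t₁⁻¹, fun g hg => ?_⟩
    have hsm := hF₁.smul (t * t₁⁻¹)
    have hzero : ∀ x, Phi v G K ζ l₀ (fun g => F g - t * t₁⁻¹ * F₁ g) x = 0 := by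
      intro x
      rw [Phi_sub fr l₀ hF hsm, Phi_smul, ht, ht₁, sub_eq_zero]
      congr 1
      field_simp
    exact sub_eq_zero.mp (inj _ (hF.sub fr hsm) hzero g hg)
  · refine ⟨fun _ => 0, IsNChar.zero fr, fun F hF => ⟨0, fun g hg => ?_⟩⟩
    rw [zero_mul]
    refine inj F hF (fun x => ?_) g hg
    by_contra hne
    exact hex ⟨F, hF, x, hne⟩

/-- `v p < 1` as soon as some isometry `σ₁` with `σ₁ ζ = ζ ^ c`, `c ≢ 1`, acts trivially on the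
residue field. -/
theorem val_p_lt_one_of_inertia (hζ : IsPrimitiveRoot ζ p) (hσζ : σ₁ • ζ = ζ ^ c)
    (hc1 : (c : ZMod p) ≠ 1) (hσres : ∀ a, v a ≤ 1 → v (σ₁ • a - a) < 1) : v (p : Ω) < 1 := by
  have hvζ : v ζ = 1 := Fermat.Agent.GP.Ram.KummerBreak.val_zeta v hζ
  have h1 : v (ζ ^ c - ζ) < 1 := by
    have := hσres ζ (le_of_eq hvζ)
    rwa [hσζ] at this
  have hcop : (c + (p - 1)).Coprime p := by
    rw [Nat.coprime_comm, hp.out.coprime_iff_not_dvd, ← ZMod.natCast_eq_zero_iff]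
    intro h0
    apply hc1
    have hp1 : ((p - 1 : ℕ) : ZMod p) = -1 := by
      rw [Nat.cast_sub hp.out.one_le, ZMod.natCast_self, Nat.cast_one, zero_sub]
    rw [Nat.cast_add, hp1] at h0
    exact (add_neg_eq_zero.mp h0)
  have hη : IsPrimitiveRoot (ζ ^ (c + (p - 1))) p := hζ.pow_of_coprime _ hcop
  have hval : v (ζ ^ (c + (p - 1)) - 1) < 1 := by
    have hp1 : p - 1 + 1 = p := Nat.sub_add_cancel hp.out.one_le
    have : ζ ^ (c + (p - 1)) - 1 = ζ ^ (p - 1) * (ζ ^ c - ζ) := by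
      have hz : ζ ^ (p - 1) * ζ = 1 := by rw [← pow_succ, hp1, hζ.pow_eq_one]
      rw [mul_sub, hz, pow_add, mul_comm]
    rw [this, map_mul, v.map_pow, hvζ, one_pow, one_mul]
    exact h1
  rw [Fermat.Agent.GP.Ram.KummerBreak.val_p_eq v hη]
  exact pow_lt_one₀ zero_le hval (Nat.sub_ne_zero_of_lt hp.out.one_lt)

/-- **S56-FLAT-ORD-NCOUNT** (board 4321 §3, helper47's statement; `IsNChar p v G K ζ σ₁ c φ ψφ F`).
Only ONE direction of the normalisation (`δ⁻¹ G δ ⊆ G`) is needed, and none of `p ≠ 2`, `c ≢ 0`,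
`hperf` (perfect residue field); `v p < 1` follows from `hσres`. -/
theorem exists_generator (hK : ∀ x, x ∈ K ↔ ∀ g ∈ G, g • x = x) (hζ : IsPrimitiveRoot ζ p)
    (hζK : ζ ∈ K) (horb : ∀ x : Ω, (Set.range fun g : G => g • x).Finite)
    (hiso : ∀ (d : D) (x : Ω), v (d • x) = v x)
    (hdisc : ∀ x ∈ K, x ≠ 0 → ∃ n : ℤ, v x = v (ζ - 1) ^ n)
    (hσG : ∀ g ∈ G, σ₁⁻¹ * g * σ₁ ∈ G) (hσζ : σ₁ • ζ = ζ ^ c) (hc1 : (c : ZMod p) ≠ 1)
    (hσres : ∀ a, v a ≤ 1 → v (σ₁ • a - a) < 1)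
    (hφG : ∀ g ∈ G, φ⁻¹ * g * φ ∈ G) (hφζ : φ • ζ = ζ ^ cφ)
    (hφres : ∀ a ∈ K, v a ≤ 1 → v (φ • a - a ^ p) < 1) (hψ : ψφ ≠ 0) :
    ∃ F₀ : D → k, IsNChar p v G K ζ σ₁ c φ ψφ F₀ ∧
      ∀ F : D → k, IsNChar p v G K ζ σ₁ c φ ψφ F → ∃ t : k, ∀ g ∈ G, F g = t * F₀ g :=
  exists_generator_of_frame
    ⟨hK, hζ, hζK, val_p_lt_one_of_inertia hζ hσζ hc1 hσres, horb, hiso, hdisc⟩
    hσG hσζ hc1 hσres hφG hφζ hφres hψ

end Main

end Fermat.Agent.GP.Flat.OrdNCount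

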