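/-
GATE-P (S56) / [P-FLAT] node S56-FLAT-ORD-HGEN (helper46): the binder `hgen` of helper47's
`OrdN.hN_of_gen` (with `W := OrdBdd.BddN`) DISCHARGED from the abstract one-character chain count
`OrdNCount.exists_generator` on the frame `(D_P, ordG P p, ordK P p, P.valuation)` instantiated by
helper47 (`OrdFrame`) and helper93 (`OrdFrameInst`).

* `hgen_of_sigma1` : the binder `hgen` VERBATIM, from an inertia element `σ₁` with `σ₁ ζ = ζ ^ c`,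
  `c ≢ 1 (p)`, `ψ(σ₁) = c` in `k` (the Frobenius `φ`, `cφ`, `ψφ := ψ(φ)` are chosen inside).
* `hN_of_sigma1` : the binder `hN` of the ordinary-flat count (`ZBg ⊓ ker fst ↪ k²`) from the
  same data.
-/
import Fermat.Agent.GP.Flat.OrdNCount
import Fermat.Agent.GP.Flat.OrdN
import Fermat.Agent.GP.Flat.OrdFrameInst

set_option autoImplicit false

namespace Fermat.Agent.GP.Flat.OrdHGen

open Matrix Module Fermat.Agent.S53_helper35 Fermat.Agent.GP.Tan.Cocycle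
  Fermat.Agent.GP.Loc.StrictOrdDim Fermat.Agent.GP.Flat.OrdCount Fermat.Agent.GP.Flat.OrdCocycle
  Fermat.Agent.GP.Flat.OrdLocal Fermat.Agent.GP.Flat.OrdLocalGen Fermat.Agent.GP.Flat.OrdFrame
  Fermat.Agent.GP.Flat.OrdBdd Fermat.Agent.GP.Flat.OrdN

local notation "Qb" => AlgebraicClosure ℚ

variable {k : Type} [Field k] [Finite k] (P : ValuationSubring Qb)
  (r : GQ →* Matrix (Fin 2) (Fin 2) k) (g : GL (Fin 2) k)
  (p : ℕ) [hp : Fact p.Prime] [CharP k p] {ζ : Qb} (hζ : IsPrimitiveRoot ζ p)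
  (hP : (p : Qb) ∈ P.nonunits)
  (hut : ∀ σ : DP P, conjBy g (rD P r) σ 1 0 = 0)

include hP hut in
/-- **the binder `hgen` of `OrdN.hN_of_gen`** for `W := BddN`. -/
theorem hgen_of_sigma1 (σ₁ : DP P) (hσ₁ : (σ₁ : GQ) ∈ P.inertiaSubgroupIn ℚ) {c : ℕ}
    (hσζ : σ₁ • ζ = ζ ^ c) (hc1 : (c : ZMod p) ≠ 1) (hpsi : psi g (rD P r) σ₁ = (c : k)) :
    ∃ F₀ : DP P → k, ∀ F : DP P → k, F ∈ BddN P p hζ →
      (∀ d h : DP P, h ∈ ordG P p → F (d * h * d⁻¹) = psi g (rD P r) d * F h) →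
      ∃ c : k, ∀ h ∈ ordG P p, F h = c * F₀ h := by
  obtain ⟨φ, -, ⟨cφ, hφζ⟩, hφres⟩ := exists_frob P hp.out hP hζ
  have hψ : psi g (rD P r) φ ≠ 0 :=
    left_ne_zero_of_mul_eq_one (psi_mul_inv g (rD P r) hut φ)
  obtain ⟨F₀, -, hF₀⟩ := OrdNCount.exists_generator (v := P.valuation) (p := p)
    (G := ordG P p) (K := ordK P p) (ζ := ζ) (k := k) (σ₁ := σ₁) (c := c) (φ := φ) (cφ := cφ)
    (ψφ := psi g (rD P r) φ)
    (mem_ordK_iff P p) hζ (zeta_mem_ordK P p hζ.pow_eq_one) (horb P p) (hiso P)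
    (hdisc P hp.out hP hζ)
    (fun _ hh => conj_mem_ordG' P p σ₁ hh) hσζ hc1 (hσres P σ₁ hσ₁)
    (fun _ hh => conj_mem_ordG' P p φ hh) hφζ (fun a _ ha => hφres a ha) hψ
  refine ⟨F₀, fun F hF heq => hF₀ F ⟨hF.1, hF.2.1, hF.2.2, fun h hh => ?_, fun h hh => heq φ h hh⟩⟩
  rw [heq σ₁ h hh, hpsi]

include hP hut in
/-- **the binder `hN` of the ordinary-flat count** (`OrdKb.card_Lmax_le_bdd'`,
`OrdLocalCond.localCond_ord`) from an inertia element `σ₁` with `σ₁ ζ = ζ ^ c`, `c ≢ 1 (p)`,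
`ψ(σ₁) = c`. -/
theorem hN_of_sigma1
    (hI : ∀ σ : DP P, (σ : GQ) ∈ P.inertiaSubgroupIn ℚ → conjBy g (rD P r) σ 1 1 = 1)
    (h00 : ∀ σ ∈ ordG P p, conjBy g (rD P r) σ 0 0 = 1)
    (σ₁ : DP P) (hσ₁ : (σ₁ : GQ) ∈ P.inertiaSubgroupIn ℚ) {c : ℕ}
    (hσζ : σ₁ • ζ = ζ ^ c) (hc1 : (c : ZMod p) ≠ 1) (hpsi : psi g (rD P r) σ₁ = (c : k)) :
    ∃ ℓ : ↥(ZBg P r g (BddN P p hζ) ⊓
        LinearMap.ker (LinearMap.fst k (DP P → k) (DP P → k))) →ₗ[k] (Fin 2 → k),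
      Function.Injective ℓ := by
  have hck : psi g (rD P r) σ₁ ≠ 1 := by
    rw [hpsi]
    intro h
    apply hc1
    have h' : ((c : ℕ) : k) = ((1 : ℕ) : k) := by rw [h, Nat.cast_one]
    have h2 := (ZMod.natCast_eq_natCast_iff c 1 p).mpr ((CharP.natCast_eq_natCast k p).mp h')
    rwa [Nat.cast_one] at h2
  exact hN_of_gen P r g p hζ (BddN P p hζ) hut hI h00 σ₁ hσ₁ hck
    (hgen_of_sigma1 P r g p hζ hP hut σ₁ hσ₁ hσζ hc1 hpsi)

end Fermat.Agent.GP.Flat.OrdHGen
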