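/-
GATE-P (S56) / [P-FLAT] node S56-FLAT-ORD-LOCALCOND, FINAL file (helper90).

**The ORDINARY branch of the flat local condition at `p`, binder-free**:

  `localCond_ord_final : OrdShape ρbar (padicPlace p) →
     LocalCond ρbar b p N emb p (fun ρ => ρ.DetIsCyclotomic p ∧ ρ.IsFlatAt p) d`

from `localCond_ord_of_hgen` (`OrdLocalCondKb`: `hKB` discharged by helper14 `KbOrd` + helper15
`Pm.hlift`) and helper46's `OrdHGen.hgen_of_sigma1` for the last binder `hgen`.
-/
import Fermat.Agent.GP.Flat.OrdLocalCondKb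
import Fermat.Agent.GP.Flat.OrdHGen

set_option autoImplicit false
set_option linter.unusedSectionVars false

namespace Fermat.Agent.GP.Flat.OrdLocalCond

open IsLocalRing Fermat.Agent.S53_helper35 Matrix Module Fermat.Agent.GP.Tan.Cocycle
  Fermat.Agent.GC.Prof Fermat.Agent.GC.Places Fermat.Agent.GC.Local.KR
  Fermat.Agent.GP.Core Fermat.Agent.GP.Flat.SSHlcPinned
  Fermat.Agent.GP.Flat.FlatLocalCond

local notation "Qb" => AlgebraicClosure ℚ

section Contract

variable {𝒪 : Type} [CommRing 𝒪] [IsLocalRing 𝒪]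
  (ρbar : ResidualGaloisRep (ResidueField 𝒪))
  (b : Module.Basis (Fin 2) (ResidueField 𝒪) ρbar.V)
  (p : ℕ) [Fact p.Prime]
  {N : Rep (ZMod p) S53_helper35.GQ}
  {emb : N →+ Matrix (Fin 2) (Fin 2) (ResidueField 𝒪)}
  [IsDiscrete (levelQ p) (Rep.res (localGaloisToGlobal p) N)]

/-- **S56-FLAT-ORD-LOCALCOND, binder-free.**  The ordinary branch of the flat local condition
at `p`. -/
theorem localCond_ord_final [Finite (ResidueField 𝒪)] (hp2 : p ≠ 2)
    (hdet : (GaloisRepAdic.ofResidualGaloisRep ρbar).DetIsCyclotomic p)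
    (h : GlobModel N (toMatRes ρbar b) emb)
    (d : ℕ) (hk : Nat.card (ResidueField 𝒪) = p ^ d)
    (hord : OrdShape ρbar (padicPlace p)) :
    LocalCond ρbar b p N emb p (fun ρ => ρ.DetIsCyclotomic p ∧ ρ.IsFlatAt p) d := by
  have hpr : p.Prime := Fact.out
  have hne : NeZero ((p : ℕ) : Qb) := ⟨by exact_mod_cast hpr.ne_zero⟩
  obtain ⟨ζ, hζ⟩ : ∃ ζ : Qb, IsPrimitiveRoot ζ p :=
    HasEnoughRootsOfUnity.exists_primitiveRoot Qb p
  have hPl : ((p : ℕ) : Qb) ∈ (padicPlace p).nonunits :=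
    Fermat.Agent.GP.Loc.PadicPlace.padicPlace_liesOverPrime p
  have hchar : CharP (ResidueField 𝒪) p :=
    Fermat.Agent.GP.Flat.CasesFrozen.charP_of_detIsCyclotomic ρbar p hdet
  refine localCond_ord_of_hgen ρbar b p hp2 hdet h hζ d hk ?_ hord
  intro g hut _ _ σ₁ hσ₁ c hσζ _ hc1 hpsi
  exact Fermat.Agent.GP.Flat.OrdHGen.hgen_of_sigma1 (padicPlace p) (toMatRes ρbar b) g p hζ hPl
    hut σ₁ hσ₁ hσζ hc1 hpsi

end Contract

end Fermat.Agent.GP.Flat.OrdLocalCond
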