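/-
GATE-P (S56) / [P-FLAT] node S56-FLAT-LOCALCOND, TOP file (helper90).

**The flat local condition at `p` WITHOUT the hypothesis "`ρbar` is flat"** (the frozen S56 does not
assume it; helper39's `Core.FlatGate` is stated without it):

* `isFlatAt_ofResidual_of_lift` : a flat matrix lift `t` of `r̄ = toMatRes ρbar b` to `k[ε]` forces
  `ρbar` itself to be flat (helper11 `residual_transfer` + `isFlatAt_baseChangeAlong_of_surjective`);
* `localCond_flat_of_ss` : `LocalCond ρbar b p N emb p (DetIsCyclotomic ∧ IsFlatAt) d` with the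
  ORDINARY branch discharged (`OrdLocalCondFinal.localCond_ord_final`) and ONE binder: the
  level-two branch `hss : ρbar flat → SSShape ρbar p (padicPlace p) → LocalCond …`.
  By cases on the existence of a flat lift: if there is none, `L = ⊥`.
-/
import Fermat.Agent.GP.Flat.OrdLocalCondFinal
import Fermat.Agent.GP.Core.Wlog

set_option autoImplicit false
set_option linter.unusedSectionVars false

namespace Fermat.Agent.GP.Flat.FlatLocalCond

open IsLocalRing Fermat.Agent.S53_helper35 Matrix Module Fermat.Agent.GP.Tan.Cocycle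
  Fermat.Agent.GC.Prof Fermat.Agent.GC.Places Fermat.Agent.GC.Local.KR
  Fermat.Agent.GP.Core Fermat.Agent.GP.Flat.SSHlcPinned

section Top

variable {𝒪 : Type} [CommRing 𝒪] [IsDomain 𝒪] [IsDiscreteValuationRing 𝒪]
  [IsAdicComplete (maximalIdeal 𝒪) 𝒪]
  (ρbar : ResidualGaloisRep (ResidueField 𝒪))
  (b : Module.Basis (Fin 2) (ResidueField 𝒪) ρbar.V)
  (p : ℕ) [Fact p.Prime]

/-- **a flat first-order lift forces `ρbar` to be flat.** -/
theorem isFlatAt_ofResidual_of_lift
    (t : GQ →* Matrix (Fin 2) (Fin 2) (DualNumber (ResidueField 𝒪))) (ht : MatCont t)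
    (hfst : rfst t = toMatRes ρbar b) (hflat : (ofMat t ht).IsFlatAt p) :
    (GaloisRepAdic.ofResidualGaloisRep ρbar).IsFlatAt p :=
  Fermat.Agent.GP.Tan.residual_transfer (𝒪 := 𝒪)
    (fun _ _ _ ρ => ρ.IsFlatAt p)
    (fun _ _ _ _ _ _ φ hφ hsurj _ hρ =>
      Fermat.Agent.GP.Tan.isFlatAt_baseChangeAlong_of_surjective φ hφ hsurj hρ)
    (fun _ _ _ _ _ he hρ => Fermat.Agent.GP.Tan.isFlatAt_of_isEquiv he hρ)
    ρbar (Fermat.Agent.GP.Core.Wlog.isLift_ofMat b t ht hfst) hflat

variable {N : Rep (ZMod p) S53_helper35.GQ}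
  {emb : N →+ Matrix (Fin 2) (Fin 2) (ResidueField 𝒪)}
  [IsDiscrete (levelQ p) (Rep.res (localGaloisToGlobal p) N)]

/-- **S56-FLAT-LOCALCOND, top form.**  The flat local condition at `p` for a `ρbar` NOT assumed
flat; the ordinary branch is a theorem, the level-two branch is the one binder. -/
theorem localCond_flat_of_ss [Finite (ResidueField 𝒪)] (hp2 : p ≠ 2)
    (hdet : (GaloisRepAdic.ofResidualGaloisRep ρbar).DetIsCyclotomic p)
    (hsplit : ∀ σ : Fermat.Agent.Common_helper32.GQ, ∃ α β : ResidueField 𝒪,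
      LinearMap.charpoly (ρbar.ρ σ) =
        (Polynomial.X - Polynomial.C α) * (Polynomial.X - Polynomial.C β))
    (h : GlobModel N (toMatRes ρbar b) emb)
    (d : ℕ) (hk : Nat.card (ResidueField 𝒪) = p ^ d)
    (hss : (GaloisRepAdic.ofResidualGaloisRep ρbar).IsFlatAt p →
      SSShape ρbar p (padicPlace p) →
      LocalCond ρbar b p N emb p (fun ρ => ρ.DetIsCyclotomic p ∧ ρ.IsFlatAt p) d) :
    LocalCond ρbar b p N emb p (fun ρ => ρ.DetIsCyclotomic p ∧ ρ.IsFlatAt p) d := by
  by_cases hex : ∃ (t : GQ →* Matrix (Fin 2) (Fin 2) (DualNumber (ResidueField 𝒪)))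
      (ht : MatCont t), rfst t = toMatRes ρbar b ∧ (ofMat t ht).IsFlatAt p
  · obtain ⟨t, ht, hfst, hfl⟩ := hex
    have hflat := isFlatAt_ofResidual_of_lift ρbar b p t ht hfst hfl
    exact localCond_flat_of_branches ρbar b p N emb hp2 hdet hflat hsplit d
      (Fermat.Agent.GP.Flat.OrdLocalCond.localCond_ord_final ρbar b p hp2 hdet h d hk)
      (hss hflat)
  · refine ⟨⊥, inferInstance, ?_, ?_⟩
    · rw [finrank_bot]
      exact Nat.zero_le _
    · rintro t ht hfst ⟨ρ, ⟨-, hρflat⟩, hρe⟩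
      exact absurd ⟨t, ht, hfst, Fermat.Agent.GP.Tan.isFlatAt_of_isEquiv hρe hρflat⟩ hex

end Top

end Fermat.Agent.GP.Flat.FlatLocalCond
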