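/-
GATE-P / S56 [P-FLAT] S56-FLAT-SSCHAINVEC (helper75): the VECTOR PACKAGING of `GP/Flat/SSChain`
in the shape of helper50's `SSAsm.chain_card`.

Frame: `𝔊` acts on the field `Ω` (`𝔊 = G_ℚ`, `Ω = Qb`), `Dd GK : Subgroup 𝔊` (`D_A` and `G_K`),
`K` the field of `GK`-fixed elements, `N` an additive group with an action `act : 𝔊 → N →+ N`
(only `act δ`, `δ ∈ Dd`, matters), `ℓ : N →+ ZMod p` the functionals.

* `chi ℓ h := fun g => ℓ (h g)`.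
* `IsAdm h` : `h : 𝔊 → N` vanishes off `GK`, is additive on `GK`, `Dd`-equivariant
  (`h (δ g δ⁻¹) = act δ (h g)`) and of finite level.
* `HLev γ` : admissible `h` all of whose characters `chi ℓ h` have level `≥ γ`; `hSub γ` : it is an
  `AddSubgroup` of `𝔊 → N` (`γ < 1`).
* `IsRes res` : `res : Ω → κ` is a residue map on `O_K = {x ∈ K | v x ≤ 1}`.
* `lcFun res ϖ h ℓ : κ` : the leading coefficient of `chi ℓ h` at the level `v ϖ` (by choice);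
  `lcFun_spec`, `lcFun_eq_of_lc`, `lcFun_add_fun`, `lcFun_add`, `lcFun_tw` (twisted equivariance),
  `lcFun_fibre` (fibres are cosets of the next step), under a uniqueness hypothesis `U` supplied by
  `SSChain.lc_unique`.
* `slev_of_pdiv_vec` : levels divisible by `p`.
* top level: `top_add_fun`, `top_add`, `top_tw`, `top_fibre` (all modulo `℘ κ = {z^p - z}`),
  `eq_zero_of_slev_top`.
-/
import Fermat.Agent.GP.Flat.SSChain

set_option autoImplicit false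
set_option linter.unusedSectionVars false

namespace Fermat.Agent.GP.Flat.SSChainVec

open Fermat.Agent.GP.Ram.KummerBreak Fermat.Agent.GP.Ram.UnitFilt
  Fermat.Agent.GP.Ram.UnitFiltTop Fermat.Agent.GP.Flat.SSKummer Fermat.Agent.GP.Flat.SSChain

variable {Ω : Type*} [Field Ω] {Γ₀ : Type*} [LinearOrderedCommGroupWithZero Γ₀]
  (v : Valuation Ω Γ₀) {p : ℕ} [hp : Fact p.Prime]
  {𝔊 : Type*} [Group 𝔊] [MulSemiringAction 𝔊 Ω] (Dd GK : Subgroup 𝔊) (K : Subfield Ω) (ζ : Ω)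
  {N : Type*} [AddCommGroup N] (act : 𝔊 → N →+ N)

/-- the character `ℓ ∘ h`. -/
def chi (ℓ : N →+ ZMod p) (h : 𝔊 → N) : 𝔊 → ZMod p := fun g => ℓ (h g)

variable (Ω) in
/-- admissible maps: supported on `GK`, additive on `GK`, `Dd`-equivariant, of finite level. -/
def IsAdm (h : 𝔊 → N) : Prop :=
  (∀ g, g ∉ GK → h g = 0) ∧ (∀ g ∈ GK, ∀ g' ∈ GK, h (g * g') = h g + h g') ∧
  (∀ δ ∈ Dd, ∀ g ∈ GK, h (δ * g * δ⁻¹) = act δ (h g)) ∧
  ∃ s : Finset Ω, ∀ g ∈ GK, (∀ x ∈ s, g • x = x) → h g = 0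

theorem isAdm_zero : IsAdm Ω Dd GK act (0 : 𝔊 → N) :=
  ⟨fun _ _ => rfl, fun _ _ _ _ => by simp, fun δ _ g _ => by simp, ∅, fun _ _ _ => rfl⟩

variable {Dd GK act}

theorem IsAdm.add {h h' : 𝔊 → N} (hh : IsAdm Ω Dd GK act h) (hh' : IsAdm Ω Dd GK act h') :
    IsAdm Ω Dd GK act (h + h') := by
  classical
  obtain ⟨h1, h2, h3, s, h4⟩ := hh
  obtain ⟨h1', h2', h3', s', h4'⟩ := hh'
  refine ⟨fun g hg => ?_, fun g hg g' hg' => ?_, fun δ hδ g hg => ?_, s ∪ s', fun g hg hfix => ?_⟩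
  · simp [h1 g hg, h1' g hg]
  · simp only [Pi.add_apply, h2 g hg g' hg', h2' g hg g' hg']; abel
  · simp only [Pi.add_apply, h3 δ hδ g hg, h3' δ hδ g hg, map_add]
  · simp only [Pi.add_apply]
    rw [h4 g hg (fun x hx => hfix x (Finset.mem_union_left _ hx)),
      h4' g hg (fun x hx => hfix x (Finset.mem_union_right _ hx)), add_zero]

theorem IsAdm.neg {h : 𝔊 → N} (hh : IsAdm Ω Dd GK act h) : IsAdm Ω Dd GK act (-h) := by
  obtain ⟨h1, h2, h3, s, h4⟩ := hh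
  refine ⟨fun g hg => ?_, fun g hg g' hg' => ?_, fun δ hδ g hg => ?_, s, fun g hg hfix => ?_⟩
  · simp [h1 g hg]
  · simp only [Pi.neg_apply, h2 g hg g' hg']; abel
  · simp only [Pi.neg_apply, h3 δ hδ g hg, map_neg]
  · simp only [Pi.neg_apply, h4 g hg hfix, neg_zero]

variable (Dd GK act)

/-- admissible maps all of whose characters have level `≥ γ`. -/
def HLev (γ : Γ₀) : Set (𝔊 → N) :=
  {h | IsAdm Ω Dd GK act h ∧ ∀ ℓ : N →+ ZMod p, Lev v GK K ζ γ (chi ℓ h)}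

variable {Dd GK K ζ act}
variable (hK : ∀ x, x ∈ K ↔ ∀ g ∈ GK, g • x = x) (hζ : IsPrimitiveRoot ζ p) (hζK : ζ ∈ K)
  (horb : ∀ x : Ω, (Set.range fun g : GK => g • x).Finite)

include hK hζ hζK horb

/-- characters of admissible maps have Kummer generators. -/
theorem exists_isGen_chi {h : 𝔊 → N} (hh : IsAdm Ω Dd GK act h) (ℓ : N →+ ZMod p) :
    ∃ y, IsGen GK ζ (chi ℓ h) y := by
  obtain ⟨-, h2, -, s, h4⟩ := hh
  refine exists_isGen hK hζ hζK horb (χ := chi ℓ h) (fun g hg g' hg' => ?_) ⟨s, fun g hg hfix => ?_⟩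
  · show ℓ (h (g * g')) = ℓ (h g) + ℓ (h g')
    rw [h2 g hg g' hg', map_add]
  · show ℓ (h g) = 0
    rw [h4 g hg hfix, map_zero]

omit hK hζ hζK horb in
theorem chi_add_fun (ℓ : N →+ ZMod p) (h h' : 𝔊 → N) :
    chi ℓ (h + h') = fun g => chi ℓ h g + chi ℓ h' g := by
  funext g; simp [chi]

omit hK hζ hζK horb in
theorem chi_neg_add_fun (ℓ : N →+ ZMod p) (h h' : 𝔊 → N) :
    chi ℓ (-h' + h) = fun g => chi ℓ h g - chi ℓ h' g := by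
  funext g; simp [chi]; ring

omit hK hζ hζK horb in
theorem chi_add (ℓ ℓ' : N →+ ZMod p) (h : 𝔊 → N) :
    chi (ℓ + ℓ') h = fun g => chi ℓ h g + chi ℓ' h g := by
  funext g; simp [chi]

omit hK hζ hζK horb in
theorem chi_zero (ℓ : N →+ ZMod p) : chi ℓ (0 : 𝔊 → N) = fun _ => 0 := by
  funext g; simp [chi]

/-- `HLev γ` as an additive subgroup of `𝔊 → N` (`γ < 1`). -/
def hSub {γ : Γ₀} (hγ : γ < 1) : AddSubgroup (𝔊 → N) where
  carrier := HLev (p := p) v Dd GK K ζ act γ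
  zero_mem' := ⟨isAdm_zero (Ω := Ω) Dd GK act, fun ℓ => by
    rw [chi_zero]; exact lev_zero v hK hζ hζK⟩
  add_mem' := by
    rintro h h' ⟨hh, hl⟩ ⟨hh', hl'⟩
    refine ⟨hh.add hh', fun ℓ => ?_⟩
    rw [chi_add_fun]
    exact lev_add v hK hζ hζK (le_of_lt hγ) (hl ℓ) (hl' ℓ)
      (exists_isGen_chi hK hζ hζK horb hh ℓ) (exists_isGen_chi hK hζ hζK horb hh' ℓ)
  neg_mem' := by
    rintro h ⟨hh, hl⟩
    refine ⟨hh.neg, fun ℓ => ?_⟩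
    have : chi ℓ (-h) = fun g => (fun _ : 𝔊 => (0 : ZMod p)) g - chi ℓ h g := by
      funext g; simp [chi]
    rw [this]
    exact lev_sub v hK hζ hζK hγ (lev_zero v hK hζ hζK) (hl ℓ)
      ⟨1, one_ne_zero, fun g _ => by rw [smul_one, zpw_zero, one_mul]⟩
      (exists_isGen_chi hK hζ hζK horb hh ℓ)

theorem mem_hSub {γ : Γ₀} (hγ : γ < 1) (h : 𝔊 → N) :
    h ∈ hSub v hK hζ hζK horb (Dd := Dd) (act := act) hγ ↔ h ∈ HLev (p := p) v Dd GK K ζ act γ := Iff.rfl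

/-! ### Residue maps -/

section Res

variable {κ : Type*} [Field κ] (res : Ω → κ)

variable (K) in
/-- `res : Ω → κ` is a residue map on `O_K = {x ∈ K | v x ≤ 1}`: additive, multiplicative, with
kernel the maximal ideal. -/
def IsRes : Prop :=
  (∀ x ∈ K, ∀ y ∈ K, v x ≤ 1 → v y ≤ 1 → res (x + y) = res x + res y) ∧
  (∀ x ∈ K, ∀ y ∈ K, v x ≤ 1 → v y ≤ 1 → res (x * y) = res x * res y) ∧
  (∀ x ∈ K, v x ≤ 1 → (res x = 0 ↔ v x < 1))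

omit hK hζ hζK horb in
theorem IsRes.zero {res : Ω → κ} (hres : IsRes v K res) : res 0 = 0 :=
  (hres.2.2 0 K.zero_mem (by simp)).mpr (by simp)

omit hK hζ hζK horb in
theorem IsRes.neg {res : Ω → κ} (hres : IsRes v K res) {x : Ω} (hx : x ∈ K) (hx1 : v x ≤ 1) :
    res (-x) = -res x := by
  have h := hres.1 x hx (-x) (K.neg_mem hx) hx1 (by rwa [Valuation.map_neg])
  rw [add_neg_cancel, hres.zero] at h
  exact eq_neg_of_add_eq_zero_right h.symm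

omit hK hζ hζK horb in
theorem IsRes.eq_iff {res : Ω → κ} (hres : IsRes v K res) {x y : Ω} (hx : x ∈ K) (hy : y ∈ K)
    (hx1 : v x ≤ 1) (hy1 : v y ≤ 1) : res x = res y ↔ v (x - y) < 1 := by
  have h1 : res (x - y) = res x - res y := by
    rw [sub_eq_add_neg, hres.1 x hx (-y) (K.neg_mem hy) hx1 (by rwa [Valuation.map_neg]),
      hres.neg v hy hy1, sub_eq_add_neg]
  rw [← hres.2.2 (x - y) (K.sub_mem hx hy) (v.map_sub_le hx1 hy1), h1, sub_eq_zero]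

omit hK hζ hζK horb in
theorem IsRes.one {res : Ω → κ} (hres : IsRes v K res) : res 1 = 1 := by
  have h1 := hres.2.1 1 K.one_mem 1 K.one_mem (le_of_eq v.map_one) (le_of_eq v.map_one)
  rw [mul_one] at h1
  have h0 : res 1 ≠ 0 := by
    intro h0
    have := (hres.2.2 1 K.one_mem (le_of_eq v.map_one)).mp h0
    rw [v.map_one] at this
    exact lt_irrefl _ this
  exact (mul_right_cancel₀ h0 (h1.symm.trans (one_mul _).symm)).symm ▸ rfl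

omit hK hζ hζK horb in
theorem IsRes.natCast {res : Ω → κ} (hres : IsRes v K res) (n : ℕ) : res (n : Ω) = (n : κ) := by
  induction n with
  | zero => simpa using hres.zero v
  | succ n ih =>
    rw [Nat.cast_succ, Nat.cast_succ,
      hres.1 _ (natCast_mem K n) 1 K.one_mem (val_natCast_le_one v n) (le_of_eq v.map_one), ih,
      hres.one v]

omit hK hζ hζK horb in
theorem IsRes.pow {res : Ω → κ} (hres : IsRes v K res) {x : Ω} (hx : x ∈ K) (hx1 : v x ≤ 1)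
    (n : ℕ) : res (x ^ n) = res x ^ n := by
  induction n with
  | zero => simpa using hres.one v
  | succ n ih =>
    rw [pow_succ, pow_succ, hres.2.1 _ (K.pow_mem hx n) x hx
      (by rw [v.map_pow]; exact pow_le_one₀ zero_le hx1) hx1, ih]

omit hK hζ hζK horb in
theorem IsRes.sub {res : Ω → κ} (hres : IsRes v K res) {x y : Ω} (hx : x ∈ K) (hy : y ∈ K)
    (hx1 : v x ≤ 1) (hy1 : v y ≤ 1) : res (x - y) = res x - res y := by
  rw [sub_eq_add_neg, hres.1 x hx (-y) (K.neg_mem hy) hx1 (by rwa [Valuation.map_neg]),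
    hres.neg v hy hy1, sub_eq_add_neg]

omit hK hζ hζK horb in
/-- `res (x ^ p - x) = ℘ (res x)`. -/
theorem IsRes.artinSchreier {res : Ω → κ} (hres : IsRes v K res) {x : Ω} (hx : x ∈ K)
    (hx1 : v x ≤ 1) : res (x ^ p - x) = res x ^ p - res x := by
  rw [hres.sub v (K.pow_mem hx p) hx (by rw [v.map_pow]; exact pow_le_one₀ zero_le hx1) hx1,
    hres.pow v hx hx1]

end Res

/-! ### The leading-coefficient map -/

omit hK hζ hζK horb in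
theorem LC.val_le_one {ϖ : Ω} (hϖ0 : ϖ ≠ 0) {χ : 𝔊 → ZMod p} {a : Ω}
    (ha : LC v GK K ζ ϖ χ a) : v a ≤ 1 := by
  obtain ⟨y, w, -, -, -, hle, hlt⟩ := ha
  have hpos : 0 < v ϖ := v.pos_iff.mpr hϖ0
  have hA : v ((y ^ p * w ^ p - 1) / ϖ) ≤ 1 := by
    rw [map_div₀]; exact (div_le_one₀ hpos).mpr hle
  have : a = (y ^ p * w ^ p - 1) / ϖ - ((y ^ p * w ^ p - 1) / ϖ - a) := by ring
  rw [this]; exact v.map_sub_le hA (le_of_lt hlt)

omit hK hζ hζK horb in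
theorem LC.congr {ϖ : Ω} {χ χ' : 𝔊 → ZMod p} (hχ : ∀ g ∈ GK, χ g = χ' g) {a : Ω}
    (ha : LC v GK K ζ ϖ χ a) : LC v GK K ζ ϖ χ' a := by
  obtain ⟨y, w, hy, hw⟩ := ha
  exact ⟨y, w, ⟨hy.1, fun g hg => by rw [← hχ g hg]; exact hy.2 g hg⟩, hw⟩

/-- `SSChain.lc_conj` with the isometry hypothesis only for the element `δ`. -/
theorem lc_conj' {ϖ : Ω} (hϖ0 : ϖ ≠ 0) (δ : 𝔊) (hisoδ : ∀ x : Ω, v (δ • x) = v x)
    (hδG : ∀ g ∈ GK, δ⁻¹ * g * δ ∈ GK) {c : ℕ} (hδζ : δ • ζ = ζ ^ c)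
    {χ : 𝔊 → ZMod p} {a : Ω} (ha : LC v GK K ζ ϖ χ a) :
    LC v GK K ζ ϖ (fun g => (c : ZMod p) * χ (δ⁻¹ * g * δ)) (δ • a * (δ • ϖ / ϖ)) := by
  obtain ⟨y, w, hy, hwK, hw0, hle, hlt⟩ := ha
  have hδϖ0 : δ • ϖ ≠ 0 := fun h0 => hϖ0 ((smul_eq_zero_iff_eq δ).mp h0)
  have hu : (δ • y) ^ p * (δ • w) ^ p - 1 = δ • (y ^ p * w ^ p - 1) := by
    rw [smul_sub, smul_mul', smul_pow', smul_pow', smul_one]
  refine ⟨δ • y, δ • w,
    ⟨fun h0 => hy.1 ((smul_eq_zero_iff_eq δ).mp h0),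
      kummer_conj hζ.pow_eq_one GK χ hy.2 δ hδG hδζ⟩, ?_,
    fun h0 => hw0 ((smul_eq_zero_iff_eq δ).mp h0), ?_, ?_⟩
  · rw [hK]
    intro g hg
    have h1 : g • (δ • w) = δ • ((δ⁻¹ * g * δ) • w) := by
      rw [← mul_smul, ← mul_smul]
      congr 1
      group
    rw [h1, (hK w).mp hwK _ (hδG g hg)]
  · rw [hu, hisoδ]; exact hle
  · rw [hu]
    have h1 : δ • ((y ^ p * w ^ p - 1) / ϖ - a) =
        δ • (y ^ p * w ^ p - 1) / δ • ϖ - δ • a := by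
      rw [smul_sub, div_eq_mul_inv, smul_mul', smul_inv'', ← div_eq_mul_inv]
    have : δ • (y ^ p * w ^ p - 1) / ϖ - δ • a * (δ • ϖ / ϖ) =
        δ • ((y ^ p * w ^ p - 1) / ϖ - a) * (δ • ϖ / ϖ) := by
      rw [h1]
      field_simp
    rw [this, map_mul, hisoδ, map_div₀, hisoδ, div_self (ne_of_gt (v.pos_iff.mpr hϖ0)), mul_one]
    exact hlt

/-- an element normalising `GK` preserves `K`. -/
theorem smul_mem_K (δ : 𝔊) (hδG : ∀ g ∈ GK, δ⁻¹ * g * δ ∈ GK) {x : Ω} (hx : x ∈ K) :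
    δ • x ∈ K := by
  rw [hK]
  intro g hg
  have h1 : g • (δ • x) = δ • ((δ⁻¹ * g * δ) • x) := by
    rw [← mul_smul, ← mul_smul]
    congr 1
    group
  rw [h1, (hK x).mp hx _ (hδG g hg)]

omit hK hζ hζK horb in
/-- the twisted action on functionals: `tw act c δ ℓ = c • (ℓ ∘ act δ⁻¹)`. -/
def tw (act : 𝔊 → N →+ N) (c : ℕ) (δ : 𝔊) (ℓ : N →+ ZMod p) : N →+ ZMod p :=
  (AddMonoidHom.mulLeft (c : ZMod p)).comp (ℓ.comp (act δ⁻¹))

omit hK hζ hζK horb in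
theorem tw_apply (c : ℕ) (δ : 𝔊) (ℓ : N →+ ZMod p) (n : N) :
    tw act c δ ℓ n = (c : ZMod p) * ℓ (act δ⁻¹ n) := rfl

/-- `chi (tw ℓ) h` is the conjugated character on `GK`. -/
theorem chi_tw {h : 𝔊 → N} (hh : IsAdm Ω Dd GK act h) {δ : 𝔊} (hδD : δ ∈ Dd) (c : ℕ)
    (ℓ : N →+ ZMod p) :
    ∀ g ∈ GK, (c : ZMod p) * chi ℓ h (δ⁻¹ * g * δ) = chi (tw act c δ ℓ) h g := by
  intro g hg
  show (c : ZMod p) * ℓ (h (δ⁻¹ * g * δ)) = (c : ZMod p) * ℓ (act δ⁻¹ (h g))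
  have := hh.2.2.1 δ⁻¹ (Dd.inv_mem hδD) g hg
  rw [inv_inv] at this
  rw [this]

section LcFun

variable {κ : Type*} [Field κ] (res : Ω → κ)

variable (GK K ζ) in
open Classical in
/-- the leading coefficient of `chi ℓ h` at the level `v ϖ`, as an element of `κ` (by choice of a
representative; `0` if there is none). -/
noncomputable def lcFun (ϖ : Ω) (h : 𝔊 → N) (ℓ : N →+ ZMod p) : κ :=
  if hex : ∃ a, a ∈ K ∧ LC v GK K ζ ϖ (chi ℓ h) a then res (Classical.choose hex) else 0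

variable {ϖ : Ω} (hϖK : ϖ ∈ K) (hϖ0 : ϖ ≠ 0) (hϖ1 : v ϖ < 1)

include hϖK hϖ0 hϖ1

theorem lcFun_spec {h : 𝔊 → N} (hh : h ∈ HLev (p := p) v Dd GK K ζ act (v ϖ))
    (ℓ : N →+ ZMod p) :
    ∃ a, a ∈ K ∧ LC v GK K ζ ϖ (chi ℓ h) a ∧ lcFun v GK K ζ res ϖ h ℓ = res a := by
  obtain ⟨a, haK, ha⟩ := lc_exists v hK hζ hζK hϖK (hh.2 ℓ)
    (exists_isGen_chi hK hζ hζK horb hh.1 ℓ)
  have hex : ∃ a, a ∈ K ∧ LC v GK K ζ ϖ (chi ℓ h) a := ⟨a, haK, ha⟩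
  refine ⟨Classical.choose hex, (Classical.choose_spec hex).1, (Classical.choose_spec hex).2, ?_⟩
  unfold lcFun
  rw [dif_pos hex]

variable (hres : IsRes v K res)
  (U : ∀ (χ : 𝔊 → ZMod p) (a a' : Ω), LC v GK K ζ ϖ χ a → LC v GK K ζ ϖ χ a' → v (a - a') < 1)

include hres U

theorem lcFun_eq_of_lc {h : 𝔊 → N} {ℓ : N →+ ZMod p} {a : Ω} (haK : a ∈ K)
    (ha : LC v GK K ζ ϖ (chi ℓ h) a) : lcFun v GK K ζ res ϖ h ℓ = res a := by
  have hex : ∃ a, a ∈ K ∧ LC v GK K ζ ϖ (chi ℓ h) a := ⟨a, haK, ha⟩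
  unfold lcFun
  rw [dif_pos hex]
  obtain ⟨h0K, h0⟩ := Classical.choose_spec hex
  exact (hres.eq_iff v h0K haK (LC.val_le_one v hϖ0 h0) (LC.val_le_one v hϖ0 ha)).mpr
    (U _ _ _ h0 ha)

/-- additivity in the functional. -/
theorem lcFun_add_fun {h : 𝔊 → N} (hh : h ∈ HLev (p := p) v Dd GK K ζ act (v ϖ))
    (ℓ ℓ' : N →+ ZMod p) :
    lcFun v GK K ζ res ϖ h (ℓ + ℓ') =
      lcFun v GK K ζ res ϖ h ℓ + lcFun v GK K ζ res ϖ h ℓ' := by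
  obtain ⟨a, haK, ha, hae⟩ := lcFun_spec v hK hζ hζK horb res hϖK hϖ0 hϖ1 hh ℓ
  obtain ⟨a', ha'K, ha', ha'e⟩ := lcFun_spec v hK hζ hζK horb res hϖK hϖ0 hϖ1 hh ℓ'
  have hsum := lc_add v hK hζ hζK hϖ0 hϖ1 ha ha'
  rw [← chi_add] at hsum
  rw [lcFun_eq_of_lc v hK hζ hζK horb res hϖK hϖ0 hϖ1 hres U (K.add_mem haK ha'K) hsum, hae, ha'e]
  exact hres.1 a haK a' ha'K (LC.val_le_one v hϖ0 ha) (LC.val_le_one v hϖ0 ha')

/-- additivity in `h`. -/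
theorem lcFun_add {h h' : 𝔊 → N} (hh : h ∈ HLev (p := p) v Dd GK K ζ act (v ϖ))
    (hh' : h' ∈ HLev (p := p) v Dd GK K ζ act (v ϖ)) (ℓ : N →+ ZMod p) :
    lcFun v GK K ζ res ϖ (h + h') ℓ =
      lcFun v GK K ζ res ϖ h ℓ + lcFun v GK K ζ res ϖ h' ℓ := by
  obtain ⟨a, haK, ha, hae⟩ := lcFun_spec v hK hζ hζK horb res hϖK hϖ0 hϖ1 hh ℓ
  obtain ⟨a', ha'K, ha', ha'e⟩ := lcFun_spec v hK hζ hζK horb res hϖK hϖ0 hϖ1 hh' ℓ
  have hsum := lc_add v hK hζ hζK hϖ0 hϖ1 ha ha'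
  rw [← chi_add_fun] at hsum
  rw [lcFun_eq_of_lc v hK hζ hζK horb res hϖK hϖ0 hϖ1 hres U (K.add_mem haK ha'K) hsum, hae, ha'e]
  exact hres.1 a haK a' ha'K (LC.val_le_one v hϖ0 ha) (LC.val_le_one v hϖ0 ha')

omit U in
/-- **fibres are cosets of the next step**: equal leading coefficients ⟹ the difference has
strictly higher level. -/
theorem lcFun_fibre {h h' : 𝔊 → N} (hh : h ∈ HLev (p := p) v Dd GK K ζ act (v ϖ))
    (hh' : h' ∈ HLev (p := p) v Dd GK K ζ act (v ϖ))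
    (heq : ∀ ℓ : N →+ ZMod p, lcFun v GK K ζ res ϖ h ℓ = lcFun v GK K ζ res ϖ h' ℓ)
    (ℓ : N →+ ZMod p) : SLev v GK K ζ (v ϖ) (chi ℓ (-h' + h)) := by
  obtain ⟨a, haK, ha, hae⟩ := lcFun_spec v hK hζ hζK horb res hϖK hϖ0 hϖ1 hh ℓ
  obtain ⟨a', ha'K, ha', ha'e⟩ := lcFun_spec v hK hζ hζK horb res hϖK hϖ0 hϖ1 hh' ℓ
  have hdiff := lc_sub v hK hζ hζK hϖ0 hϖ1 ha ha'
  rw [← chi_neg_add_fun] at hdiff
  refine lc_ker v hK hζ hζK hϖ0 hdiff ?_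
  have := heq ℓ
  rw [hae, ha'e] at this
  exact (hres.eq_iff v haK ha'K (LC.val_le_one v hϖ0 ha) (LC.val_le_one v hϖ0 ha')).mp this

/-- **twisted equivariance** of the leading-coefficient map. -/
theorem lcFun_tw {h : 𝔊 → N} (hh : h ∈ HLev (p := p) v Dd GK K ζ act (v ϖ)) (δ : 𝔊)
    (hδD : δ ∈ Dd) (hisoδ : ∀ x : Ω, v (δ • x) = v x) (hδG : ∀ g ∈ GK, δ⁻¹ * g * δ ∈ GK)
    {c : ℕ} (hδζ : δ • ζ = ζ ^ c) (actκ : κ → κ)
    (hresδ : ∀ x ∈ K, v x ≤ 1 → res (δ • x) = actκ (res x)) (ℓ : N →+ ZMod p) :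
    lcFun v GK K ζ res ϖ h (tw act c δ ℓ) =
      actκ (lcFun v GK K ζ res ϖ h ℓ) * res (δ • ϖ / ϖ) := by
  obtain ⟨a, haK, ha, hae⟩ := lcFun_spec v hK hζ hζK horb res hϖK hϖ0 hϖ1 hh ℓ
  have hconj := lc_conj' v hK hζ hζK horb hϖ0 δ hisoδ hδG hδζ ha
  have hLC := LC.congr v (chi_tw hK hζ hζK horb hh.1 hδD c ℓ) hconj
  have hδaK : δ • a ∈ K := smul_mem_K hK hζ hζK horb δ hδG haK
  have hεK : δ • ϖ / ϖ ∈ K := K.div_mem (smul_mem_K hK hζ hζK horb δ hδG hϖK) hϖK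
  have hva : v a ≤ 1 := LC.val_le_one v hϖ0 ha
  have hvε : v (δ • ϖ / ϖ) ≤ 1 := by
    rw [map_div₀, hisoδ, div_self (ne_of_gt (v.pos_iff.mpr hϖ0))]
  rw [lcFun_eq_of_lc v hK hζ hζK horb res hϖK hϖ0 hϖ1 hres U (K.mul_mem hδaK hεK) hLC,
    hres.2.1 _ hδaK _ hεK (by rw [hisoδ]; exact hva) hvε, hresδ a haK hva, hae]

end LcFun

/-! ### Levels divisible by `p`, discreteness -/

theorem slev_of_pdiv_vec (hperf : ∀ a ∈ K, v a ≤ 1 → ∃ b ∈ K, v b ≤ 1 ∧ v (b ^ p - a) < 1)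
    {ϖ : Ω} (hϖK : ϖ ∈ K) (hϖ0 : ϖ ≠ 0) (hϖ1 : v ϖ < 1) (hlt : v (p : Ω) * v ϖ < v ϖ ^ p)
    {h : 𝔊 → N} (hh : h ∈ HLev (p := p) v Dd GK K ζ act (v ϖ ^ p)) (ℓ : N →+ ZMod p) :
    SLev v GK K ζ (v ϖ ^ p) (chi ℓ h) :=
  slev_of_pdiv v hK hζ hζK hperf hϖK hϖ0 hϖ1 hlt (hh.2 ℓ)

/-- with a discrete value group on `K`: strictly higher level at every functional ⟹ membership in
the next step of the chain. -/
theorem mem_hLev_succ {π : Ω} (hπ0 : π ≠ 0) (hπ1 : v π < 1)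
    (hdisc : ∀ x ∈ K, x ≠ 0 → ∃ n : ℤ, v x = v π ^ n) {i : ℕ} {h : 𝔊 → N}
    (hadm : IsAdm Ω Dd GK act h) (hs : ∀ ℓ : N →+ ZMod p, SLev v GK K ζ (v π ^ i) (chi ℓ h)) :
    h ∈ HLev (p := p) v Dd GK K ζ act (v π ^ (i + 1)) :=
  ⟨hadm, fun ℓ => lev_succ_of_slev v hK hζ hζK hπ0 hπ1 hdisc (hs ℓ)⟩

/-! ### The top level -/

section Top

variable {κ : Type*} [Field κ] (res : Ω → κ) (hres : IsRes v K res) (hlam : v (ζ - 1) < 1)

include hres hlam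

theorem top_mem {h : 𝔊 → N} (hh : h ∈ HLev (p := p) v Dd GK K ζ act (v (ζ - 1) ^ p)) :
    h ∈ HLev (p := p) v Dd GK K ζ act (v ((ζ - 1) ^ p)) := by
  rw [v.map_pow]; exact hh

/-- top level: additivity in the functional modulo `℘ κ`. -/
theorem top_add_fun {h : 𝔊 → N} (hh : h ∈ HLev (p := p) v Dd GK K ζ act (v (ζ - 1) ^ p))
    (ℓ ℓ' : N →+ ZMod p) :
    ∃ z : κ, lcFun v GK K ζ res ((ζ - 1) ^ p) h (ℓ + ℓ') -
      (lcFun v GK K ζ res ((ζ - 1) ^ p) h ℓ + lcFun v GK K ζ res ((ζ - 1) ^ p) h ℓ') =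
        z ^ p - z := by
  have hl0 : (ζ - 1) ^ p ≠ 0 := pow_ne_zero _ (lam_ne_zero hζ)
  have hlK : (ζ - 1) ^ p ∈ K := K.pow_mem (K.sub_mem hζK K.one_mem) p
  have hl1 : v ((ζ - 1) ^ p) < 1 := by rw [v.map_pow]; exact val_lam_pow_lt_one (p := p) v hlam
  have hh' := top_mem v hK hζ hζK horb res hres hlam hh
  obtain ⟨a, haK, ha, hae⟩ := lcFun_spec v hK hζ hζK horb res hlK hl0 hl1 hh' ℓ
  obtain ⟨a', ha'K, ha', ha'e⟩ := lcFun_spec v hK hζ hζK horb res hlK hl0 hl1 hh' ℓ'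
  obtain ⟨a₂, ha₂K, ha₂, ha₂e⟩ := lcFun_spec v hK hζ hζK horb res hlK hl0 hl1 hh' (ℓ + ℓ')
  have hsum := lc_add v hK hζ hζK hl0 hl1 ha ha'
  rw [← chi_add] at hsum
  obtain ⟨x, hxK, hx1, hx⟩ := lc_top_unique v hK hζ hζK hlam hsum ha₂
  refine ⟨res x, ?_⟩
  have hva := LC.val_le_one v hl0 ha
  have hva' := LC.val_le_one v hl0 ha'
  have hva₂ := LC.val_le_one v hl0 ha₂
  have hxp : v (x ^ p - x) ≤ 1 :=
    v.map_sub_le (by rw [v.map_pow]; exact pow_le_one₀ zero_le hx1) hx1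
  have := (hres.eq_iff v (K.sub_mem ha₂K (K.add_mem haK ha'K))
    (K.sub_mem (K.pow_mem hxK p) hxK) (v.map_sub_le hva₂ (v.map_add_le hva hva')) hxp).mpr hx
  rw [hres.sub v ha₂K (K.add_mem haK ha'K) hva₂ (v.map_add_le hva hva'),
    hres.1 a haK a' ha'K hva hva', hres.artinSchreier v hxK hx1] at this
  rw [ha₂e, hae, ha'e]
  exact this

/-- top level: additivity in `h` modulo `℘ κ`. -/
theorem top_add {h h' : 𝔊 → N} (hh : h ∈ HLev (p := p) v Dd GK K ζ act (v (ζ - 1) ^ p))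
    (hh' : h' ∈ HLev (p := p) v Dd GK K ζ act (v (ζ - 1) ^ p))
    (hsum : h + h' ∈ HLev (p := p) v Dd GK K ζ act (v (ζ - 1) ^ p)) (ℓ : N →+ ZMod p) :
    ∃ z : κ, lcFun v GK K ζ res ((ζ - 1) ^ p) (h + h') ℓ -
      (lcFun v GK K ζ res ((ζ - 1) ^ p) h ℓ + lcFun v GK K ζ res ((ζ - 1) ^ p) h' ℓ) =
        z ^ p - z := by
  have hl0 : (ζ - 1) ^ p ≠ 0 := pow_ne_zero _ (lam_ne_zero hζ)
  have hlK : (ζ - 1) ^ p ∈ K := K.pow_mem (K.sub_mem hζK K.one_mem) p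
  have hl1 : v ((ζ - 1) ^ p) < 1 := by rw [v.map_pow]; exact val_lam_pow_lt_one (p := p) v hlam
  obtain ⟨a, haK, ha, hae⟩ := lcFun_spec v hK hζ hζK horb res hlK hl0 hl1
    (top_mem v hK hζ hζK horb res hres hlam hh) ℓ
  obtain ⟨a', ha'K, ha', ha'e⟩ := lcFun_spec v hK hζ hζK horb res hlK hl0 hl1
    (top_mem v hK hζ hζK horb res hres hlam hh') ℓ
  obtain ⟨a₂, ha₂K, ha₂, ha₂e⟩ := lcFun_spec v hK hζ hζK horb res hlK hl0 hl1
    (top_mem v hK hζ hζK horb res hres hlam hsum) ℓ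
  have hs := lc_add v hK hζ hζK hl0 hl1 ha ha'
  rw [← chi_add_fun] at hs
  obtain ⟨x, hxK, hx1, hx⟩ := lc_top_unique v hK hζ hζK hlam hs ha₂
  refine ⟨res x, ?_⟩
  have hva := LC.val_le_one v hl0 ha
  have hva' := LC.val_le_one v hl0 ha'
  have hva₂ := LC.val_le_one v hl0 ha₂
  have hxp : v (x ^ p - x) ≤ 1 :=
    v.map_sub_le (by rw [v.map_pow]; exact pow_le_one₀ zero_le hx1) hx1
  have := (hres.eq_iff v (K.sub_mem ha₂K (K.add_mem haK ha'K))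
    (K.sub_mem (K.pow_mem hxK p) hxK) (v.map_sub_le hva₂ (v.map_add_le hva hva')) hxp).mpr hx
  rw [hres.sub v ha₂K (K.add_mem haK ha'K) hva₂ (v.map_add_le hva hva'),
    hres.1 a haK a' ha'K hva hva', hres.artinSchreier v hxK hx1] at this
  rw [ha₂e, hae, ha'e]
  exact this

/-- top level: the fibres of the class modulo `℘ κ` are cosets of the next step. -/
theorem top_fibre (hsurj : ∀ z : κ, ∃ x ∈ K, v x ≤ 1 ∧ res x = z) {h h' : 𝔊 → N}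
    (hh : h ∈ HLev (p := p) v Dd GK K ζ act (v (ζ - 1) ^ p))
    (hh' : h' ∈ HLev (p := p) v Dd GK K ζ act (v (ζ - 1) ^ p))
    (heq : ∀ ℓ : N →+ ZMod p, ∃ z : κ, lcFun v GK K ζ res ((ζ - 1) ^ p) h ℓ -
      lcFun v GK K ζ res ((ζ - 1) ^ p) h' ℓ = z ^ p - z)
    (ℓ : N →+ ZMod p) : SLev v GK K ζ (v (ζ - 1) ^ p) (chi ℓ (-h' + h)) := by
  have hl0 : (ζ - 1) ^ p ≠ 0 := pow_ne_zero _ (lam_ne_zero hζ)
  have hlK : (ζ - 1) ^ p ∈ K := K.pow_mem (K.sub_mem hζK K.one_mem) p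
  have hl1 : v ((ζ - 1) ^ p) < 1 := by rw [v.map_pow]; exact val_lam_pow_lt_one (p := p) v hlam
  obtain ⟨a, haK, ha, hae⟩ := lcFun_spec v hK hζ hζK horb res hlK hl0 hl1
    (top_mem v hK hζ hζK horb res hres hlam hh) ℓ
  obtain ⟨a', ha'K, ha', ha'e⟩ := lcFun_spec v hK hζ hζK horb res hlK hl0 hl1
    (top_mem v hK hζ hζK horb res hres hlam hh') ℓ
  have hdiff := lc_sub v hK hζ hζK hl0 hl1 ha ha'
  rw [← chi_neg_add_fun] at hdiff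
  obtain ⟨z, hz⟩ := heq ℓ
  obtain ⟨x, hxK, hx1, rfl⟩ := hsurj z
  have hva := LC.val_le_one v hl0 ha
  have hva' := LC.val_le_one v hl0 ha'
  have hxp : v (x ^ p - x) ≤ 1 :=
    v.map_sub_le (by rw [v.map_pow]; exact pow_le_one₀ zero_le hx1) hx1
  refine lc_top_ker v hK hζ hζK hlam hdiff hxK hx1 ?_
  refine (hres.eq_iff v (K.sub_mem haK ha'K) (K.sub_mem (K.pow_mem hxK p) hxK)
    (v.map_sub_le hva hva') hxp).mp ?_
  rw [hres.sub v haK ha'K hva hva', hres.artinSchreier v hxK hx1, ← hae, ← ha'e]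
  exact hz

/-- top level: twisted equivariance modulo `℘ κ` (the twist is the cyclotomic character). -/
theorem top_tw {h : 𝔊 → N} (hh : h ∈ HLev (p := p) v Dd GK K ζ act (v (ζ - 1) ^ p)) (δ : 𝔊)
    (hδD : δ ∈ Dd) (hisoδ : ∀ x : Ω, v (δ • x) = v x) (hδG : ∀ g ∈ GK, δ⁻¹ * g * δ ∈ GK)
    {c : ℕ} (hδζ : δ • ζ = ζ ^ c) (actκ : κ → κ)
    (hresδ : ∀ x ∈ K, v x ≤ 1 → res (δ • x) = actκ (res x)) (ℓ : N →+ ZMod p) :
    ∃ z : κ, lcFun v GK K ζ res ((ζ - 1) ^ p) h (tw act c δ ℓ) -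
      actκ (lcFun v GK K ζ res ((ζ - 1) ^ p) h ℓ) * (c : κ) = z ^ p - z := by
  have hl0 : (ζ - 1) ^ p ≠ 0 := pow_ne_zero _ (lam_ne_zero hζ)
  have hlK : (ζ - 1) ^ p ∈ K := K.pow_mem (K.sub_mem hζK K.one_mem) p
  have hl1 : v ((ζ - 1) ^ p) < 1 := by rw [v.map_pow]; exact val_lam_pow_lt_one (p := p) v hlam
  have hh' := top_mem v hK hζ hζK horb res hres hlam hh
  obtain ⟨a, haK, ha, hae⟩ := lcFun_spec v hK hζ hζK horb res hlK hl0 hl1 hh' ℓ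
  obtain ⟨a₂, ha₂K, ha₂, ha₂e⟩ := lcFun_spec v hK hζ hζK horb res hlK hl0 hl1 hh'
    (tw act c δ ℓ)
  have hconj := lc_conj' v hK hζ hζK horb hl0 δ hisoδ hδG hδζ ha
  have hLC := LC.congr v (chi_tw hK hζ hζK horb hh.1 hδD c ℓ) hconj
  obtain ⟨x, hxK, hx1, hx⟩ := lc_top_unique v hK hζ hζK hlam hLC ha₂
  refine ⟨res x, ?_⟩
  have hδaK : δ • a ∈ K := smul_mem_K hK hζ hζK horb δ hδG haK
  have hεK : δ • (ζ - 1) ^ p / (ζ - 1) ^ p ∈ K :=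
    K.div_mem (smul_mem_K hK hζ hζK horb δ hδG hlK) hlK
  have hva : v a ≤ 1 := LC.val_le_one v hl0 ha
  have hva₂ : v a₂ ≤ 1 := LC.val_le_one v hl0 ha₂
  have hvε : v (δ • (ζ - 1) ^ p / (ζ - 1) ^ p) ≤ 1 := by
    rw [map_div₀, hisoδ, div_self (ne_of_gt (v.pos_iff.mpr hl0))]
  have hvδa : v (δ • a) ≤ 1 := by rw [hisoδ]; exact hva
  -- `res ε = c`
  have hε : res (δ • (ζ - 1) ^ p / (ζ - 1) ^ p) = (c : κ) := by
    have hratio : δ • (ζ - 1) ^ p / (ζ - 1) ^ p = (∑ i ∈ Finset.range c, ζ ^ i) ^ p := by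
      rw [smul_pow', ← div_pow, smul_sub, smul_one, hδζ, ← geom_sum_mul]
      congr 1
      field_simp [lam_ne_zero hζ]
    rw [← hres.natCast v c]
    refine (hres.eq_iff v hεK (natCast_mem K c) hvε (val_natCast_le_one v c)).mpr ?_
    rw [hratio]
    exact val_twist_ratio_pow_sub v hζ hlam c
  have hxp : v (x ^ p - x) ≤ 1 :=
    v.map_sub_le (by rw [v.map_pow]; exact pow_le_one₀ zero_le hx1) hx1
  have hprodK := K.mul_mem hδaK hεK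
  have hvprod : v (δ • a * (δ • (ζ - 1) ^ p / (ζ - 1) ^ p)) ≤ 1 := by
    rw [map_mul]
    calc v (δ • a) * v (δ • (ζ - 1) ^ p / (ζ - 1) ^ p) ≤ 1 * 1 := mul_le_mul' hvδa hvε
      _ = 1 := one_mul 1
  have := (hres.eq_iff v (K.sub_mem ha₂K hprodK) (K.sub_mem (K.pow_mem hxK p) hxK)
    (v.map_sub_le hva₂ hvprod) hxp).mpr hx
  rw [hres.sub v ha₂K hprodK hva₂ hvprod, hres.2.1 _ hδaK _ hεK hvδa hvε, hresδ a haK hva, hε,
    hres.artinSchreier v hxK hx1] at this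
  rw [ha₂e, hae]
  exact this

omit hres in
/-- **above the top level there is nothing.** -/
theorem eq_zero_of_slev_top (hiso : ∀ g ∈ GK, ∀ x : Ω, v (g • x) = v x)
    (hsep : ∀ n : N, (∀ ℓ : N →+ ZMod p, ℓ n = 0) → n = 0) {h : 𝔊 → N}
    (hadm : IsAdm Ω Dd GK act h)
    (hs : ∀ ℓ : N →+ ZMod p, SLev v GK K ζ (v (ζ - 1) ^ p) (chi ℓ h)) : h = 0 := by
  funext g
  by_cases hg : g ∈ GK
  · refine hsep _ fun ℓ => ?_
    exact slev_top_zero v hK hζ hζK hiso (hs ℓ) (exists_isGen_chi hK hζ hζK horb hadm ℓ) g hg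
  · exact hadm.1 g hg

end Top

end Fermat.Agent.GP.Flat.SSChainVec
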