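import Mathlib

/-!
# GATE-P / S56 [P-FLAT] — S56-FLAT-EIGENCOUNT, part 3: index arithmetic   (helper25)

Mathlib-only orphan.  Irreducible tame type `ρ̄|_I = θ^a ⊕ θ^(pa)` (`θ = ω₂` of order `p² - 1`,
`a` ARBITRARY odd — automatic from `a ≡ 1 mod p - 1`): `ad⁰|_I = 1 ⊕ θ^(a(p-1)) ⊕ θ^(-a(p-1))`,
`ω = θ^(p+1)`.  In the Kummer window `e = p² - 1 ≤ i < e' = p² + p` the graded piece `gr^i` carries
the characters `θ^i, θ^(ip)`; `M^∨(1)` carries `θ^(p+1)` (the `δ`-line) and `θ^((p+1) ± a(p-1))`.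

* `idx_add`, `idx_sub`, `idx_mul_add`, `idx_mul_sub`: a `χ^{±1}`-line meets level `i` only for
  `i = p² + 1`, and only if `a ≡ ∓1 mod (p + 1)` (resp. `±1` for the Frobenius-twisted match).
* `idx_delta`, `idx_delta_mul`: the `δ`-line meets only the top level `i = p² + p`.
* `zpow` forms for an element `θ` of order `p² - 1` in a group.
-/

namespace Fermat.Agent.GP.Flat.EigenCount

/-- **Index lemma, `+` sign.**  `p ≥ 3`, `a` odd.  If a level `i` in the Kummer window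
`p² - 1 ≤ i < p² + p` satisfies `i ≡ (p + 1) + a (p - 1) mod p² - 1`, then `i = p² + 1` and
`a ≡ -1 mod p + 1`. -/
theorem idx_add {p a i : ℤ} (hp : 3 ≤ p) (ha : Odd a) (h1 : p ^ 2 - 1 ≤ i) (h2 : i < p ^ 2 + p)
    (hi : i ≡ (p + 1) + a * (p - 1) [ZMOD p ^ 2 - 1]) :
    i = p ^ 2 + 1 ∧ a ≡ -1 [ZMOD p + 1] := by
  obtain ⟨k, hk⟩ := hi.dvd
  -- `i - (p² - 1) - 2 = (p - 1) * m`
  set m : ℤ := 1 + a - (p + 1) * (k + 1) with hm
  have hr : i - (p ^ 2 - 1) - 2 = (p - 1) * m := by rw [hm]; linear_combination -hk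
  have hm0 : m ≤ 0 := by
    by_contra hcon
    have : 1 ≤ m := by omega
    nlinarith
  have hm1 : -1 ≤ m := by
    by_contra hcon
    have : m ≤ -2 := by omega
    nlinarith
  have hcases : m = 0 ∨ m = -1 := by omega
  rcases hcases with h0 | h0
  · refine ⟨by rw [h0, mul_zero] at hr; linarith, ?_⟩
    have : a + 1 = (p + 1) * (k + 1) := by rw [hm] at h0; linarith
    exact Int.modEq_of_dvd ⟨-(k + 1), by linear_combination -this⟩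
  · exfalso
    have hp3 : p = 3 := by
      rw [h0] at hr
      nlinarith
    subst hp3
    obtain ⟨b, hb⟩ := ha
    rw [hm] at h0
    omega

/-- **Index lemma, `-` sign**: `i ≡ (p + 1) - a (p - 1)` forces `i = p² + 1`, `a ≡ 1 mod p + 1`. -/
theorem idx_sub {p a i : ℤ} (hp : 3 ≤ p) (ha : Odd a) (h1 : p ^ 2 - 1 ≤ i) (h2 : i < p ^ 2 + p)
    (hi : i ≡ (p + 1) - a * (p - 1) [ZMOD p ^ 2 - 1]) :
    i = p ^ 2 + 1 ∧ a ≡ 1 [ZMOD p + 1] := by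
  have hi' : i ≡ (p + 1) + (-a) * (p - 1) [ZMOD p ^ 2 - 1] := by
    have : (p + 1) + (-a) * (p - 1) = (p + 1) - a * (p - 1) := by ring
    rw [this]; exact hi
  obtain ⟨h, h'⟩ := idx_add hp ha.neg h1 h2 hi'
  exact ⟨h, by simpa using h'.neg⟩

/-- Multiplying a level by `p` (the Frobenius-twisted character `θ^(ip)`) swaps the two signs. -/
lemma modEq_of_mul_p {p i t t' : ℤ} (hi : i * p ≡ t [ZMOD p ^ 2 - 1])
    (ht : t * p ≡ t' [ZMOD p ^ 2 - 1]) : i ≡ t' [ZMOD p ^ 2 - 1] := by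
  have h1 : i * p * p ≡ t * p [ZMOD p ^ 2 - 1] := hi.mul_right p
  have h2 : i * p * p ≡ i [ZMOD p ^ 2 - 1] :=
    (Int.modEq_of_dvd ⟨-i, by ring⟩)
  exact h2.symm.trans (h1.trans ht)

/-- **Index lemma, Frobenius twist, `+` sign**: `i p ≡ (p + 1) + a (p - 1)` forces `i = p² + 1`,
`a ≡ 1 mod p + 1`. -/
theorem idx_mul_add {p a i : ℤ} (hp : 3 ≤ p) (ha : Odd a) (h1 : p ^ 2 - 1 ≤ i)
    (h2 : i < p ^ 2 + p) (hi : i * p ≡ (p + 1) + a * (p - 1) [ZMOD p ^ 2 - 1]) :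
    i = p ^ 2 + 1 ∧ a ≡ 1 [ZMOD p + 1] :=
  idx_sub hp ha h1 h2 (modEq_of_mul_p hi (Int.modEq_of_dvd ⟨-(1 + a), by ring⟩))

/-- **Index lemma, Frobenius twist, `-` sign**: `i p ≡ (p + 1) - a (p - 1)` forces `i = p² + 1`,
`a ≡ -1 mod p + 1`. -/
theorem idx_mul_sub {p a i : ℤ} (hp : 3 ≤ p) (ha : Odd a) (h1 : p ^ 2 - 1 ≤ i)
    (h2 : i < p ^ 2 + p) (hi : i * p ≡ (p + 1) - a * (p - 1) [ZMOD p ^ 2 - 1]) :
    i = p ^ 2 + 1 ∧ a ≡ -1 [ZMOD p + 1] :=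
  idx_add hp ha h1 h2 (modEq_of_mul_p hi (Int.modEq_of_dvd ⟨-(1 - a), by ring⟩))

/-- **Index lemma, `δ`-line**: in the closed window `p² - 1 ≤ i ≤ p² + p` the character
`ω = θ^(p+1)` occurs only at the top level `i = p² + p` (the unramified class). -/
theorem idx_delta {p i : ℤ} (hp : 3 ≤ p) (h1 : p ^ 2 - 1 ≤ i) (h2 : i ≤ p ^ 2 + p)
    (hi : i ≡ p + 1 [ZMOD p ^ 2 - 1]) : i = p ^ 2 + p := by
  obtain ⟨k, hk⟩ := hi.dvd
  have hpp : 0 ≤ p ^ 2 - 1 := by nlinarith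
  have hk0 : k ≤ -1 := by
    by_contra hcon
    have h0 : 0 ≤ k := by omega
    have h3 : 0 ≤ (p ^ 2 - 1) * k := mul_nonneg hpp h0
    nlinarith
  have hk1 : -1 ≤ k := by
    by_contra hcon
    have h0 : k ≤ -2 := by omega
    have h3 : (p ^ 2 - 1) * k ≤ (p ^ 2 - 1) * (-2) := mul_le_mul_of_nonneg_left h0 hpp
    nlinarith
  have : k = -1 := le_antisymm hk0 hk1
  subst this
  linarith

/-- `δ`-line, Frobenius-twisted form. -/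
theorem idx_delta_mul {p i : ℤ} (hp : 3 ≤ p) (h1 : p ^ 2 - 1 ≤ i) (h2 : i ≤ p ^ 2 + p)
    (hi : i * p ≡ p + 1 [ZMOD p ^ 2 - 1]) : i = p ^ 2 + p :=
  idx_delta hp h1 h2 (modEq_of_mul_p hi (Int.modEq_of_dvd ⟨-1, by ring⟩))

/-- The level `p² + 1` does carry `θ²`. -/
lemma idx_level : ∀ p : ℤ, p ^ 2 + 1 ≡ 2 [ZMOD p ^ 2 - 1] := fun p =>
  Int.modEq_of_dvd ⟨-1, by ring⟩

section Group

variable {G : Type*} [Group G]

/-- `zpow` form of `idx_add` / `idx_sub`: `θ` of order `p² - 1`. -/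
theorem idx_zpow_add {θ : G} {p a i : ℤ} (hord : (orderOf θ : ℤ) = p ^ 2 - 1) (hp : 3 ≤ p)
    (ha : Odd a) (h1 : p ^ 2 - 1 ≤ i) (h2 : i < p ^ 2 + p)
    (hi : θ ^ i = θ ^ (p + 1) * (θ ^ (p - 1)) ^ a) : i = p ^ 2 + 1 ∧ a ≡ -1 [ZMOD p + 1] := by
  refine idx_add hp ha h1 h2 ?_
  rw [← hord, ← zpow_eq_zpow_iff_modEq, hi, ← zpow_mul, ← zpow_add, mul_comm a]

theorem idx_zpow_sub {θ : G} {p a i : ℤ} (hord : (orderOf θ : ℤ) = p ^ 2 - 1) (hp : 3 ≤ p)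
    (ha : Odd a) (h1 : p ^ 2 - 1 ≤ i) (h2 : i < p ^ 2 + p)
    (hi : θ ^ i * (θ ^ (p - 1)) ^ a = θ ^ (p + 1)) : i = p ^ 2 + 1 ∧ a ≡ 1 [ZMOD p + 1] := by
  refine idx_sub hp ha h1 h2 ?_
  rw [← hord, ← zpow_eq_zpow_iff_modEq, sub_eq_add_neg, zpow_add, ← hi, ← zpow_mul, mul_assoc,
    ← zpow_add, mul_comm a, add_neg_cancel, zpow_zero, mul_one]

theorem idx_zpow_delta {θ : G} {p i : ℤ} (hord : (orderOf θ : ℤ) = p ^ 2 - 1) (hp : 3 ≤ p)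
    (h1 : p ^ 2 - 1 ≤ i) (h2 : i ≤ p ^ 2 + p) (hi : θ ^ i = θ ^ (p + 1)) : i = p ^ 2 + p :=
  idx_delta hp h1 h2 (by rw [← hord, ← zpow_eq_zpow_iff_modEq, hi])

end Group

end Fermat.Agent.GP.Flat.EigenCount
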