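import Mathlib
import Fermat.Agent.GP.Flat.EigenCountIdx

/-!
# GATE-P / S56 [P-FLAT] — S56-FLAT-EIGENCOUNT, part 5: index arithmetic for a tame splitting field of
ramification `e = (p² - 1) / d`   (helper25)

If `K` is the exact splitting field of `ρ̄|_I` (plus `μ_p`), its ramification index is
`e = ord(c|_I) = (p² - 1) / d` with `d ∣ p + 1`; put `m = (p + 1) / d`, so `e = m (p - 1)`,
`e' = p e / (p - 1) = e + m`, `ω = θ_K^m`, `c = θ_K^a'`, `ad⁰|_I = 1 ⊕ θ_K^(± a' (p - 1))`.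
The window is `e ≤ i < e + m`.  Multiplying by `d` reduces to the full field (`EigenCountIdx`):
a `χ^{±1}`-line meets a level only if `d = 1`, and then `i = p² + 1`, `a' ≡ ∓1 mod p + 1`.
The `δ`-line meets only the top level `i = e + m`.
-/

namespace Fermat.Agent.GP.Flat.EigenCount

/-- General ramification `e = m (p - 1)`, `d m = p + 1`; `+` sign. -/
theorem idx_gen_add {p a i d m : ℤ} (hp : 3 ≤ p) (hd : 0 < d) (hdm : d * m = p + 1)
    (ha : Odd (a * d)) (h1 : m * (p - 1) ≤ i) (h2 : i < m * (p - 1) + m)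
    (hi : i ≡ m + a * (p - 1) [ZMOD m * (p - 1)]) :
    d = 1 ∧ i = p ^ 2 + 1 ∧ a ≡ -1 [ZMOD p + 1] := by
  have hde : d * (m * (p - 1)) = p ^ 2 - 1 := by
    have : d * (m * (p - 1)) = (d * m) * (p - 1) := by ring
    rw [this, hdm]; ring
  -- the index in the full field
  have hI : d * (i - m * (p - 1)) + (p ^ 2 - 1) ≡ (p + 1) + (a * d) * (p - 1) [ZMOD p ^ 2 - 1] := by
    obtain ⟨t, ht⟩ := hi.dvd
    refine Int.modEq_of_dvd ⟨t, ?_⟩
    linear_combination d * ht + ((p - 1) - 1 + (p - 1) * t) * hdm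
  have hI1 : p ^ 2 - 1 ≤ d * (i - m * (p - 1)) + (p ^ 2 - 1) := by nlinarith
  have hI2 : d * (i - m * (p - 1)) + (p ^ 2 - 1) < p ^ 2 + p := by nlinarith
  obtain ⟨hlev, hmod⟩ := idx_add hp ha hI1 hI2 hI
  have hdr : d * (i - m * (p - 1)) = 2 := by linarith
  -- `a * d` odd forces `d` odd; `d ∣ 2` then gives `d = 1`
  have hdodd : Odd d := by
    rcases Int.even_or_odd d with hev | hod
    · exact absurd (hev.mul_left a) (Int.not_even_iff_odd.2 ha)
    · exact hod
  have hd1 : d = 1 := by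
    have hdvd : d ∣ 2 := ⟨_, hdr.symm⟩
    have hle : d ≤ 2 := Int.le_of_dvd (by norm_num) hdvd
    obtain ⟨b, hb⟩ := hdodd
    omega
  subst hd1
  refine ⟨rfl, ?_, by simpa using hmod⟩
  have hm : m = p + 1 := by linarith
  subst hm
  nlinarith

/-- General ramification; `-` sign. -/
theorem idx_gen_sub {p a i d m : ℤ} (hp : 3 ≤ p) (hd : 0 < d) (hdm : d * m = p + 1)
    (ha : Odd (a * d)) (h1 : m * (p - 1) ≤ i) (h2 : i < m * (p - 1) + m)
    (hi : i ≡ m - a * (p - 1) [ZMOD m * (p - 1)]) :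
    d = 1 ∧ i = p ^ 2 + 1 ∧ a ≡ 1 [ZMOD p + 1] := by
  have hi' : i ≡ m + (-a) * (p - 1) [ZMOD m * (p - 1)] := by
    have : m + (-a) * (p - 1) = m - a * (p - 1) := by ring
    rw [this]; exact hi
  have ha' : Odd (-a * d) := by
    have : -a * d = -(a * d) := by ring
    rw [this]; exact ha.neg
  obtain ⟨h, h', h''⟩ := idx_gen_add hp hd hdm ha' h1 h2 hi'
  exact ⟨h, h', by simpa using h''.neg⟩

/-- General ramification, `δ`-line: `ω = θ_K^m` occurs in the closed window `e ≤ i ≤ e + m` only at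
the top level (here `m ≥ 1`, `e = m (p - 1)`, `p ≥ 3`). -/
theorem idx_gen_delta {p i m : ℤ} (hp : 3 ≤ p) (hm : 0 < m) (h1 : m * (p - 1) ≤ i)
    (h2 : i ≤ m * (p - 1) + m) (hi : i ≡ m [ZMOD m * (p - 1)]) : i = m * (p - 1) + m := by
  obtain ⟨t, ht⟩ := hi.dvd
  have he : 0 < m * (p - 1) := by nlinarith
  have ht0 : t ≤ -1 := by
    by_contra hcon
    have h0 : 0 ≤ t := by omega
    have h3 : 0 ≤ m * (p - 1) * t := mul_nonneg he.le h0
    nlinarith
  have ht1 : -1 ≤ t := by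
    by_contra hcon
    have h0 : t ≤ -2 := by omega
    have h3 : m * (p - 1) * t ≤ m * (p - 1) * (-2) := mul_le_mul_of_nonneg_left h0 he.le
    nlinarith
  have : t = -1 := le_antisymm ht0 ht1
  subst this
  linarith

end Fermat.Agent.GP.Flat.EigenCount
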