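/-
GATE-P / S56 node S56-FLAT-CASES, file 2 (helper36).  The case split for `ρ̄|D_P` at `P | p`.

`k` a field of characteristic `p`, `V` a `k`-space, `r : G_ℚ →* End_k V` of finite level, `A | p` a
valuation subring of `ℚ̄`, `I = A.inertiaSubgroupIn ℚ`, `D = A.decompositionSubgroup ℚ`.
`aug r A = (I - 1) V`, `d = finrank (aug r A)`.

* (C1) `exists_ne_one_of_det`, `aug_ne_bot_of_det` : `det r = ω` on `I`, `p` odd ⟹ `d ≠ 0`.
* (C2) `ordinary_of_finrank_aug_eq_one` : `d = 1` ⟹ ordinary shape (`L = aug` is a `D`-stable line, `I`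
  acts trivially on `V / L` and through `det` on `L`).  No flatness needed.
* (C3) `eq_one_of_mem_wildInertiaAt` : `V` irreducible under `D` ⟹ the wild inertia group acts
  trivially; `commute_of_irreducible` (`r(I)` commutative), `exists_coprime_pow_eq_one_of_irreducible`
  (every `r s`, `s ∈ I`, has order prime to `p`), `conj_eq_pow_of_irreducible` (tame relation).
* (C0/C5) `cases_of_tameWeight` : `dim V = 2`, `det r = ω` on `I`, `p` odd and the tame-weight input
  (helper90 S56-FLAT-TAMEWEIGHT (L5): on a `D`-stable line inside `(I-1)V` inertia acts through `det`)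
  ⟹ ordinary shape ∨ (`(I-1)V = V` and `V` is `D`-irreducible).
-/
import Mathlib
import Fermat.Prelude.Def_GaloisRep_Residual
import Fermat.Agent.GP.Loc.WildInertia
import Fermat.Agent.GL.Local.TameZeta
import Fermat.Agent.GC.PT.RepDevissage

set_option autoImplicit false

open Fermat.Agent.Common_helper32 Fermat.Agent.GP.Loc.WildInertia Module

namespace Fermat.Agent.GP.Flat.Cases

variable {k : Type} [Field k] {V : Type} [AddCommGroup V] [Module k V]
variable (r : GQ →* Module.End k V) (A : ValuationSubring Qb)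

/-! ### Generalities -/

theorem inv_apply_apply (g : GQ) (v : V) : r g⁻¹ (r g v) = v := by
  rw [← Module.End.mul_apply, ← map_mul, inv_mul_cancel, map_one, Module.End.one_apply]

theorem apply_inv_apply (g : GQ) (v : V) : r g (r g⁻¹ v) = v := by
  rw [← Module.End.mul_apply, ← map_mul, mul_inv_cancel, map_one, Module.End.one_apply]

theorem conj_apply (g s : GQ) (v : V) : r (g * s * g⁻¹) (r g v) = r g (r s v) := by
  rw [map_mul, map_mul, Module.End.mul_apply, Module.End.mul_apply, inv_apply_apply]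

/-- a finite normal level of `r`. -/
theorem exists_level (hr : GaloisFactorsThroughFiniteLevel r) :
    ∃ (E : IntermediateField ℚ Qb) (_ : FiniteDimensional ℚ E) (_ : Normal ℚ E),
      ∀ σ : GQ, (∀ x ∈ E, σ x = x) → r σ = 1 := by
  obtain ⟨L₀, hfin, h1⟩ := hr
  have : FiniteDimensional ℚ L₀ := hfin
  exact ⟨IntermediateField.normalClosure ℚ L₀ Qb, normalClosure.is_finiteDimensional ℚ L₀ Qb,
    normalClosure.normal ℚ L₀ Qb,
    fun σ hσ => h1 σ fun x hx => hσ x (IntermediateField.le_normalClosure L₀ hx)⟩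

/-- `r` has finite image. -/
theorem finite_range (E : IntermediateField ℚ Qb) [FiniteDimensional ℚ E] [Normal ℚ E]
    (hlevel : ∀ σ : GQ, (∀ x ∈ E, σ x = x) → r σ = 1) : (Set.range r).Finite := by
  classical
  let f : (E ≃ₐ[ℚ] E) → Module.End k V := fun g =>
    if h : ∃ σ : GQ, AlgEquiv.restrictNormalHom E σ = g then r h.choose else 1
  refine (Set.finite_range f).subset ?_
  rintro _ ⟨σ, rfl⟩
  refine ⟨AlgEquiv.restrictNormalHom E σ, ?_⟩
  have hex : ∃ σ' : GQ, AlgEquiv.restrictNormalHom E σ' = AlgEquiv.restrictNormalHom E σ :=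
    ⟨σ, rfl⟩
  show (if h : ∃ σ' : GQ, AlgEquiv.restrictNormalHom E σ' = AlgEquiv.restrictNormalHom E σ
    then r h.choose else 1) = r σ
  rw [dif_pos hex]
  have hc := hex.choose_spec
  set σ' := hex.choose with hσ'
  -- `σ'⁻¹ σ` fixes `E`
  have hfix : ∀ x ∈ E, (σ'⁻¹ * σ) x = x := by
    intro x hx
    have h1 : AlgEquiv.restrictNormalHom E (σ'⁻¹ * σ) = 1 := by
      rw [map_mul, map_inv, hc, inv_mul_cancel]
    have h2 := AlgEquiv.restrictNormal_commutes (σ'⁻¹ * σ) E ⟨x, hx⟩
    have h3 : (σ'⁻¹ * σ).restrictNormal E = 1 := h1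
    rw [h3] at h2
    exact h2.symm
  have h4 := hlevel _ hfix
  rw [map_mul] at h4
  have h5 : r σ' * (r σ'⁻¹ * r σ) = r σ' := by rw [h4, mul_one]
  rw [← mul_assoc, ← map_mul, mul_inv_cancel, map_one, one_mul] at h5
  exact h5.symm

/-! ### The augmentation submodule `(I - 1) V` -/

/-- `(I - 1) V`. -/
def aug : Submodule k V :=
  Submodule.span k {w | ∃ s ∈ A.inertiaSubgroupIn ℚ, ∃ v : V, w = r s v - v}

variable {A}

theorem sub_mem_aug {s : GQ} (hs : s ∈ A.inertiaSubgroupIn ℚ) (v : V) : r s v - v ∈ aug r A :=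
  Submodule.subset_span ⟨s, hs, v, rfl⟩

theorem aug_le {L : Submodule k V} (h : ∀ s ∈ A.inertiaSubgroupIn ℚ, ∀ v : V, r s v - v ∈ L) :
    aug r A ≤ L := by
  refine Submodule.span_le.2 ?_
  rintro _ ⟨s, hs, v, rfl⟩
  exact h s hs v

/-- `(I - 1) V` is stable under the decomposition group. -/
theorem aug_stable {g : GQ} (hg : g ∈ A.decompositionSubgroup ℚ) {w : V} (hw : w ∈ aug r A) :
    r g w ∈ aug r A := by
  unfold aug at hw
  induction hw using Submodule.span_induction with
  | mem w hw =>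
    obtain ⟨s, hs, v, rfl⟩ := hw
    have e : r g (r s v - v) = r (g * s * g⁻¹) (r g v) - r g v := by
      rw [map_sub, conj_apply]
    rw [e]
    exact sub_mem_aug r (conj_mem_inertia hg hs) _
  | zero => rw [map_zero]; exact Submodule.zero_mem _
  | add x y _ _ hx hy => rw [map_add]; exact Submodule.add_mem _ hx hy
  | smul c x _ hx => rw [map_smul]; exact Submodule.smul_mem _ _ hx

theorem aug_eq_bot_iff : aug r A = ⊥ ↔ ∀ s ∈ A.inertiaSubgroupIn ℚ, r s = 1 := by
  constructor
  · intro h s hs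
    refine LinearMap.ext fun v => ?_
    have := sub_mem_aug r hs v
    rw [h, Submodule.mem_bot, sub_eq_zero] at this
    rw [this, Module.End.one_apply]
  · intro h
    rw [eq_bot_iff]
    refine aug_le r fun s hs v => ?_
    rw [h s hs, Module.End.one_apply, sub_self]
    exact Submodule.zero_mem _

/-! ### (C1) `d ≠ 0` -/

/-- **(C1)** if `det r` is the mod `p` cyclotomic character on inertia and `p` is odd then inertia
acts nontrivially. -/
theorem exists_ne_one_of_det {p : ℕ} (hp : p.Prime) (hp2 : p ≠ 2) (hA : A.LiesOverPrime p)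
    (hdet : ∀ σ ∈ A.inertiaSubgroupIn ℚ, ∀ a : ℕ, (∀ μ : Qb, μ ^ p = 1 → σ μ = μ ^ a) →
      LinearMap.det (r σ) = (a : k)) :
    ∃ s ∈ A.inertiaSubgroupIn ℚ, r s ≠ 1 := by
  have : NeZero (p : Qb) := ⟨Nat.cast_ne_zero.mpr hp.ne_zero⟩
  have : NeZero p := ⟨hp.ne_zero⟩
  obtain ⟨ζ, hζ⟩ := HasEnoughRootsOfUnity.exists_primitiveRoot Qb p
  have h2 : ¬ p ∣ 2 := by
    intro h
    exact hp2 ((Nat.prime_dvd_prime_iff_eq hp Nat.prime_two).1 h)
  obtain ⟨s, hs, hsζ⟩ := Fermat.Agent.GL.Local.InertiaField.exists_mem_inertia_apply_zeta A hp hA hζ h2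
  refine ⟨s, hs, fun h1 => ?_⟩
  have hd := hdet s hs 2 (by
    intro μ hμ
    obtain ⟨i, -, rfl⟩ := hζ.eq_pow_of_pow_eq_one hμ
    rw [map_pow, hsζ, ← pow_mul, ← pow_mul, mul_comm])
  rw [h1, map_one] at hd
  have h4 : (1 : k) = 0 := by
    have h3 : ((2 : ℕ) : k) = 1 + 1 := by norm_num
    rw [h3] at hd
    linear_combination (-1 : k) * hd
  exact one_ne_zero h4

theorem aug_ne_bot_of_det {p : ℕ} (hp : p.Prime) (hp2 : p ≠ 2) (hA : A.LiesOverPrime p)
    (hdet : ∀ σ ∈ A.inertiaSubgroupIn ℚ, ∀ a : ℕ, (∀ μ : Qb, μ ^ p = 1 → σ μ = μ ^ a) →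
      LinearMap.det (r σ) = (a : k)) : aug r A ≠ ⊥ := by
  intro h
  obtain ⟨s, hs, hne⟩ := exists_ne_one_of_det r hp hp2 hA hdet
  exact hne ((aug_eq_bot_iff r).1 h s hs)

/-! ### Lines in a plane -/

section Plane

variable (hV : finrank k V = 2)

include hV in
theorem finrank_eq_one_of_ne_bot_of_ne_top {L : Submodule k V} (h0 : L ≠ ⊥) (h1 : L ≠ ⊤) :
    finrank k L = 1 := by
  have : Module.Finite k V := Module.finite_of_finrank_pos (by omega)
  have h2 : 0 < finrank k L := Nat.pos_of_ne_zero fun h => h0 (Submodule.finrank_eq_zero.1 h)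
  have h3 : finrank k L < finrank k V := Submodule.finrank_lt h1
  omega

include hV in
/-- an endomorphism of a plane stabilising a line is triangular. -/
theorem exists_triangular {L : Submodule k V} (hL : finrank k L = 1) (g : Module.End k V)
    (hg : ∀ v ∈ L, g v ∈ L) :
    ∃ c d : k, (∀ v ∈ L, g v = c • v) ∧ (∀ v, g v - d • v ∈ L) ∧ LinearMap.det g = c * d ∧
      ∀ d' : k, (∀ v, g v - d' • v ∈ L) → d' = d := by
  classical
  have hfin : Module.Finite k V := Module.finite_of_finrank_pos (by omega)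
  -- a generator of `L`
  obtain ⟨⟨e₁, he₁L⟩, he₁0, hspan⟩ := finrank_eq_one_iff'.1 hL
  have he₁ : e₁ ≠ 0 := fun h => he₁0 (Subtype.ext h)
  have hLe : ∀ v ∈ L, ∃ c : k, c • e₁ = v := by
    intro v hv
    obtain ⟨c, hc⟩ := hspan ⟨v, hv⟩
    exact ⟨c, congrArg Subtype.val hc⟩
  -- a vector outside `L`
  have hLtop : L ≠ ⊤ := by
    intro h
    rw [h, finrank_top, hV] at hL
    omega
  obtain ⟨e₂, he₂⟩ : ∃ e₂ : V, e₂ ∉ L := by
    by_contra hcon
    apply hLtop
    rw [eq_top_iff]
    intro v _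
    by_contra hv
    exact hcon ⟨v, hv⟩
  have hli : LinearIndependent k ![e₁, e₂] := by
    rw [LinearIndependent.pair_iff]
    intro s t hst
    have ht : t = 0 := by
      by_contra ht
      apply he₂
      have : e₂ = (-(t⁻¹ * s)) • e₁ := by
        have h1 : t • e₂ = -(s • e₁) := eq_neg_of_add_eq_zero_right hst
        have h2 : e₂ = t⁻¹ • (t • e₂) := by rw [smul_smul, inv_mul_cancel₀ ht, one_smul]
        rw [h2, h1, smul_neg, smul_smul, neg_smul]
      rw [this]
      exact L.smul_mem _ he₁L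
    rw [ht, zero_smul, add_zero] at hst
    exact ⟨(smul_eq_zero.1 hst).resolve_right he₁, ht⟩
  let b : Basis (Fin 2) k V := basisOfLinearIndependentOfCardEqFinrank hli (by simp [hV])
  have hb0 : b 0 = e₁ := by simp [b]
  have hb1 : b 1 = e₂ := by simp [b]
  -- coordinates
  obtain ⟨c, hc⟩ := hLe (g e₁) (hg e₁ he₁L)
  set t := b.repr (g e₂) 0 with ht
  set d := b.repr (g e₂) 1 with hd
  have hge₂ : g e₂ = t • e₁ + d • e₂ := by
    have := b.sum_repr (g e₂)
    rw [Fin.sum_univ_two, hb0, hb1] at this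
    exact this.symm
  have hcL : ∀ v ∈ L, g v = c • v := by
    intro v hv
    obtain ⟨a, rfl⟩ := hLe v hv
    rw [map_smul, ← hc, smul_comm]
  have hdL : ∀ v, g v - d • v ∈ L := by
    intro v
    have hv := b.sum_repr v
    rw [Fin.sum_univ_two, hb0, hb1] at hv
    set x := b.repr v 0
    set y := b.repr v 1
    have : g v - d • v = (x * c + y * t - d * x) • e₁ := by
      rw [← hv, map_add, map_smul, map_smul, ← hc, hge₂]
      simp only [smul_add, smul_smul, add_smul, sub_smul]
      rw [mul_comm d y]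
      abel
    rw [this]
    exact L.smul_mem _ he₁L
  refine ⟨c, d, hcL, hdL, ?_, ?_⟩
  · rw [← LinearMap.det_toMatrix b, Matrix.det_fin_two]
    have h00 : LinearMap.toMatrix b b g 0 0 = c := by
      rw [LinearMap.toMatrix_apply, hb0, ← hc, map_smul, ← hb0, b.repr_self]
      simp
    have h10 : LinearMap.toMatrix b b g 1 0 = 0 := by
      rw [LinearMap.toMatrix_apply, hb0, ← hc, map_smul, ← hb0, b.repr_self]
      simp
    have h11 : LinearMap.toMatrix b b g 1 1 = d := by
      rw [LinearMap.toMatrix_apply, hb1]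
    rw [h00, h10, h11, mul_zero, sub_zero]
  · intro d' hd'
    have h1 := L.sub_mem (hdL e₂) (hd' e₂)
    have h2 : g e₂ - d • e₂ - (g e₂ - d' • e₂) = (d' - d) • e₂ := by
      rw [sub_smul]
      abel
    rw [h2] at h1
    by_contra hne
    apply he₂
    have h3 : e₂ = (d' - d)⁻¹ • ((d' - d) • e₂) := by
      rw [smul_smul, inv_mul_cancel₀ (sub_ne_zero.2 hne), one_smul]
    rw [h3]
    exact L.smul_mem _ h1

end Plane

/-! ### (C2) the ordinary shape -/

/-- **(C2)** `dim (I-1)V = 1` ⟹ ordinary shape: `L = (I-1)V` is a `D`-stable line, inertia acts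
trivially on `V / L` and through the determinant on `L`. -/
theorem ordinary_of_finrank_aug_eq_one (hV : finrank k V = 2) (h1 : finrank k (aug r A) = 1) :
    (∀ g ∈ A.decompositionSubgroup ℚ, ∀ v ∈ aug r A, r g v ∈ aug r A) ∧
    (∀ s ∈ A.inertiaSubgroupIn ℚ, ∀ v : V, r s v - v ∈ aug r A) ∧
    (∀ s ∈ A.inertiaSubgroupIn ℚ, ∀ v ∈ aug r A, r s v = LinearMap.det (r s) • v) := by
  refine ⟨fun g hg v hv => aug_stable r hg hv, fun s hs v => sub_mem_aug r hs v,
    fun s hs v hv => ?_⟩
  have hsD := Fermat.Agent.S05.mem_decompositionSubgroup_of_mem_inertiaSubgroupIn hs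
  obtain ⟨c, d, hc, hd, hdet, huniq⟩ := exists_triangular hV h1 (r s)
    (fun v hv => aug_stable r hsD hv)
  have hd1 : (1 : k) = d := huniq 1 (fun v => by rw [one_smul]; exact sub_mem_aug r hs v)
  rw [hdet, ← hd1, mul_one]
  exact hc v hv

/-! ### (C3) irreducible ⟹ tame -/

section Irreducible

variable {p : ℕ} (hp : p.Prime) (hA : A.LiesOverPrime p) [CharP k p]
variable (E : IntermediateField ℚ Qb) [FiniteDimensional ℚ E] [Normal ℚ E]
variable (hlevel : ∀ σ : GQ, (∀ x ∈ E, σ x = x) → r σ = 1)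
variable (hirr : ∀ L : Submodule k V,
  (∀ g ∈ A.decompositionSubgroup ℚ, ∀ v ∈ L, r g v ∈ L) → L = ⊥ ∨ L = ⊤)

include hp hA hlevel hirr in
/-- **(C3)** if `V ≠ 0` is irreducible under the decomposition group then the wild inertia group
(at any finite normal level of `r`) acts trivially. -/
theorem eq_one_of_mem_wildInertiaAt [Nontrivial V] {s : GQ} (hs : s ∈ wildInertiaAt A E) :
    r s = 1 := by
  have : Fact p.Prime := ⟨hp⟩
  -- the submodule of vectors fixed by the wild inertia group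
  let F : Submodule k V :=
    { carrier := {v | ∀ s ∈ wildInertiaAt A E, r s v = v}
      add_mem' := fun {a b} ha hb s hs => by rw [map_add, ha s hs, hb s hs]
      zero_mem' := fun s _ => map_zero _
      smul_mem' := fun c {a} ha s hs => by rw [map_smul, ha s hs] }
  have hFst : ∀ g ∈ A.decompositionSubgroup ℚ, ∀ v ∈ F, r g v ∈ F := by
    intro g hg v hv s hs
    have h1 : g⁻¹ * s * g⁻¹⁻¹ ∈ wildInertiaAt A E :=
      conj_mem_wildInertiaAt hp hA (inv_mem hg) hs
    have h2 := hv _ h1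
    rw [inv_inv] at h2
    have h3 : r s (r g v) = r g (r (g⁻¹ * s * g) v) := by
      rw [map_mul, map_mul, Module.End.mul_apply, Module.End.mul_apply, apply_inv_apply]
    rw [h3, h2]
  -- a nonzero fixed vector
  have hFne : F ≠ ⊥ := by
    let ρW : Representation k ↥(wildInertiaAt A E) V := r.comp (wildInertiaAt A E).subtype
    have : Nontrivial ↑(Rep.of ρW) := inferInstanceAs (Nontrivial V)
    have hfin : (Set.range (Rep.of ρW).ρ).Finite := by
      refine (finite_range r E hlevel).subset ?_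
      rintro _ ⟨g, rfl⟩
      exact ⟨g.1, rfl⟩
    have hpow : ∀ g : ↥(wildInertiaAt A E), ∃ n : ℕ, (Rep.of ρW).ρ (g ^ p ^ n) = 1 := by
      intro g
      obtain ⟨b, hb⟩ := exists_pow_eq_one_of_wildOn hp hA r E hlevel g.2.2
      refine ⟨b, ?_⟩
      show r ((g ^ p ^ b : ↥(wildInertiaAt A E)) : GQ) = 1
      rw [SubgroupClass.coe_pow, map_pow]
      exact hb
    obtain ⟨w, hw0, hw⟩ :=
      Fermat.Agent.GC.PT.RepDevissage.exists_fixed_vector p (Rep.of ρW) hfin hpow
    intro hbot
    have hwF : (w : V) ∈ F := fun s hs => hw ⟨s, hs⟩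
    rw [hbot, Submodule.mem_bot] at hwF
    exact hw0 hwF
  have hFtop : F = ⊤ := (hirr F hFst).resolve_left hFne
  refine LinearMap.ext fun v => ?_
  have hv : v ∈ F := by rw [hFtop]; exact Submodule.mem_top
  rw [hv s hs, Module.End.one_apply]

include hp hA hlevel hirr in
/-- the image of inertia is commutative. -/
theorem commute_of_irreducible [Nontrivial V] {s t : GQ} (hs : s ∈ A.inertiaSubgroupIn ℚ)
    (ht : t ∈ A.inertiaSubgroupIn ℚ) : r s * r t = r t * r s := by
  have h := eq_one_of_mem_wildInertiaAt r hp hA E hlevel hirr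
    (commutator_mem_wildInertiaAt hp hA E hs ht)
  have e : s * t = (s * t * s⁻¹ * t⁻¹) * (t * s) := by group
  rw [← map_mul, e, map_mul, h, one_mul, map_mul]

include hp hA hlevel hirr in
/-- every element of the image of inertia has order prime to `p` (so it is semisimple). -/
theorem exists_coprime_pow_eq_one_of_irreducible [Nontrivial V] {s : GQ}
    (hs : s ∈ A.inertiaSubgroupIn ℚ) : ∃ m : ℕ, m.Coprime p ∧ 0 < m ∧ r s ^ m = 1 := by
  obtain ⟨m, hm, hm0, hw⟩ := exists_coprime_pow_wildOn hp hA E hs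
  refine ⟨m, hm, hm0, ?_⟩
  rw [← map_pow]
  exact eq_one_of_mem_wildInertiaAt r hp hA E hlevel hirr ⟨pow_mem hs m, hw⟩

include hp hA hlevel hirr in
/-- the tame relation: `r (φ τ φ⁻¹) = r τ ^ N` if `φ ∈ D` acts as `a ↦ a ^ N` on the residue
field. -/
theorem conj_eq_pow_of_irreducible [Nontrivial V] {φ : GQ} (hφ : φ ∈ A.decompositionSubgroup ℚ)
    {N : ℕ} (hfr : ∀ a ∈ A, φ a - a ^ N ∈ A.nonunits) {τ : GQ}
    (hτ : τ ∈ A.inertiaSubgroupIn ℚ) : r (φ * τ * φ⁻¹) = r τ ^ N := by
  have h := eq_one_of_mem_wildInertiaAt r hp hA E hlevel hirr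
    (tame_relation_mem hp hA E hφ hfr hτ)
  have e : φ * τ * φ⁻¹ = (φ * τ * φ⁻¹ * (τ ^ N)⁻¹) * τ ^ N := by group
  rw [e, map_mul, h, one_mul, map_pow]

end Irreducible

/-! ### (C0/C5) the case split -/

/-- **Case split.** `dim V = 2`, `det r = ω` on inertia, `p` odd, and the tame-weight input: on a
`D`-stable line inside `(I-1)V` inertia acts through `det`.  Then either `(I-1)V` is a line (ordinary
shape, see `ordinary_of_finrank_aug_eq_one`) or `(I-1)V = V` and `V` is irreducible under `D`. -/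
theorem cases_of_tameWeight {p : ℕ} (hp : p.Prime) (hp2 : p ≠ 2) (hA : A.LiesOverPrime p)
    (hV : finrank k V = 2)
    (hdet : ∀ σ ∈ A.inertiaSubgroupIn ℚ, ∀ a : ℕ, (∀ μ : Qb, μ ^ p = 1 → σ μ = μ ^ a) →
      LinearMap.det (r σ) = (a : k))
    (hTW : ∀ L : Submodule k V, finrank k L = 1 →
      (∀ g ∈ A.decompositionSubgroup ℚ, ∀ v ∈ L, r g v ∈ L) → L ≤ aug r A →
      ∀ s ∈ A.inertiaSubgroupIn ℚ, ∀ v ∈ L, r s v = LinearMap.det (r s) • v) :
    finrank k (aug r A) = 1 ∨
      (aug r A = ⊤ ∧ ∀ L : Submodule k V,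
        (∀ g ∈ A.decompositionSubgroup ℚ, ∀ v ∈ L, r g v ∈ L) → L = ⊥ ∨ L = ⊤) := by
  by_cases h1 : finrank k (aug r A) = 1
  · exact Or.inl h1
  refine Or.inr ?_
  have h0 : aug r A ≠ ⊥ := aug_ne_bot_of_det r hp hp2 hA hdet
  have htop : aug r A = ⊤ := by
    by_contra hne
    exact h1 (finrank_eq_one_of_ne_bot_of_ne_top hV h0 hne)
  refine ⟨htop, fun L hL => ?_⟩
  by_contra hcon
  rw [not_or] at hcon
  have hL1 : finrank k L = 1 := finrank_eq_one_of_ne_bot_of_ne_top hV hcon.1 hcon.2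
  have hact := hTW L hL1 hL (by rw [htop]; exact le_top)
  -- inertia acts trivially on `V / L`, so `(I-1)V ≤ L`
  have hle : aug r A ≤ L := by
    refine aug_le r fun s hs v => ?_
    have hsD := Fermat.Agent.S05.mem_decompositionSubgroup_of_mem_inertiaSubgroupIn hs
    obtain ⟨c, d, hc, hd, hdt, -⟩ := exists_triangular hV hL1 (r s) (fun v hv => hL s hsD v hv)
    -- `c = det = c * d`, `c ≠ 0`
    obtain ⟨⟨e₁, he₁L⟩, he₁0, -⟩ := finrank_eq_one_iff'.1 hL1
    have he₁ : e₁ ≠ 0 := fun h => he₁0 (Subtype.ext h)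
    have h2 : c • e₁ = LinearMap.det (r s) • e₁ := by rw [← hc e₁ he₁L, hact s hs e₁ he₁L]
    have h3 : c = LinearMap.det (r s) := by
      have := sub_eq_zero.2 h2
      rw [← sub_smul] at this
      exact sub_eq_zero.1 ((smul_eq_zero.1 this).resolve_right he₁)
    have hc0 : c ≠ 0 := by
      intro hc0
      have h4 : LinearMap.det (r s) * LinearMap.det (r s⁻¹) = 1 := by
        rw [← map_mul, ← map_mul, mul_inv_cancel, map_one, map_one]
      rw [← h3, hc0, zero_mul] at h4
      exact zero_ne_one h4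
    have hd1 : d = 1 := by
      have h5 : c * d = c * 1 := by rw [mul_one, ← hdt, ← h3]
      exact mul_left_cancel₀ hc0 h5
    have := hd v
    rwa [hd1, one_smul] at this
  rw [htop] at hle
  exact hcon.2 (eq_top_iff.2 hle)

end Fermat.Agent.GP.Flat.Cases
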