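/-
GATE-P / S56 node S56-FLAT-CASES, file 3 (helper36).  The irreducible case: `ρ̄|I_P = ψ ⊕ ψ^p`.

`k` a field of characteristic `p`, `V` a plane over `k`, `r : G_ℚ →* End_k V` of finite level,
`A | p`, `I`, `D` the inertia and decomposition groups of `A`, `V` irreducible under `D`,
`φ ∈ D` acting as `a ↦ a ^ p` on the residue field of `A` (a Frobenius element), and

* `heig`  : every `r σ`, `σ ∈ D`, has an eigenvalue in `k` (from the frozen `hsplit`,
  see `exists_eigen_of_charpoly`);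
* `hFG`   : `D = ⟨φ⟩ I` modulo the kernel of `r` (hypothesis form of helper67's `FrobGen`).

Then (`exists_level_two_basis`) there are independent `e₀ e₁` with `r s e₀ = ψ s • e₀`,
`r s e₁ = ψ s ^ p • e₁`, `ψ s ^ p ^ 2 = ψ s` for `s ∈ I`, `ψ ^ p ≠ ψ`, `r φ e₁ = e₀`, `r φ e₀ = x • e₁`;
and (`pow_eq_one_of_irreducible`) `r s ^ (p ^ 2 - 1) = 1` for `s ∈ I` : the splitting field of `ρ̄|D_P`
is tamely ramified with `e ∣ p² - 1`.
-/
import Mathlib
import Fermat.Agent.GP.Flat.Cases

set_option autoImplicit false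

open Fermat.Agent.Common_helper32 Fermat.Agent.GP.Loc.WildInertia Fermat.Agent.GP.Flat.Cases
open Module Polynomial

namespace Fermat.Agent.GP.Flat.Level2

variable {k : Type} [Field k] {V : Type} [AddCommGroup V] [Module k V]
variable (r : GQ →* Module.End k V) {A : ValuationSubring Qb}

/-! ### Generalities -/

theorem apply_injective (g : GQ) : Function.Injective (r g) := fun x y h => by
  have := congrArg (r g⁻¹) h
  rwa [inv_apply_apply, inv_apply_apply] at this

theorem inv_stable [Module.Finite k V] (g : GQ) {L : Submodule k V} (h : ∀ v ∈ L, r g v ∈ L) :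
    ∀ v ∈ L, r g⁻¹ v ∈ L := by
  intro v hv
  have hinj : Function.Injective ((r g).restrict h) := by
    intro x y hxy
    have h1 : r g x = r g y := congrArg Subtype.val hxy
    exact Subtype.ext (apply_injective r g h1)
  obtain ⟨w, hw⟩ := LinearMap.surjective_of_injective hinj ⟨v, hv⟩
  have h2 : r g w = v := congrArg Subtype.val hw
  rw [← h2, inv_apply_apply]
  exact w.2

/-- the stabiliser of a submodule. -/
def stab (L : Submodule k V) : Subgroup GQ where
  carrier := {g | (∀ v ∈ L, r g v ∈ L) ∧ ∀ v ∈ L, r g⁻¹ v ∈ L}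
  mul_mem' := fun {a b} ha hb =>
    ⟨fun v hv => by rw [map_mul, Module.End.mul_apply]; exact ha.1 _ (hb.1 v hv),
      fun v hv => by rw [mul_inv_rev, map_mul, Module.End.mul_apply]; exact hb.2 _ (ha.2 v hv)⟩
  one_mem' := ⟨fun v hv => by rw [map_one, Module.End.one_apply]; exact hv,
    fun v hv => by rw [inv_one, map_one, Module.End.one_apply]; exact hv⟩
  inv_mem' := fun {a} ha => ⟨ha.2, fun v hv => by rw [inv_inv]; exact ha.1 v hv⟩

/-- if `D = ⟨φ⟩ I` modulo `ker r`, a submodule stable under `φ` and `I` is stable under `D`. -/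
theorem stable_of_frobGen [Module.Finite k V] {φ : GQ}
    (hFG : ∀ g ∈ A.decompositionSubgroup ℚ, ∃ n : ℤ, ∃ i ∈ A.inertiaSubgroupIn ℚ,
      r g = r (φ ^ n * i))
    {L : Submodule k V} (hφL : ∀ v ∈ L, r φ v ∈ L)
    (hIL : ∀ s ∈ A.inertiaSubgroupIn ℚ, ∀ v ∈ L, r s v ∈ L) :
    ∀ g ∈ A.decompositionSubgroup ℚ, ∀ v ∈ L, r g v ∈ L := by
  intro g hg v hv
  obtain ⟨n, i, hi, hgi⟩ := hFG g hg
  rw [hgi]
  have hφ : φ ∈ stab r L := ⟨hφL, inv_stable r φ hφL⟩
  have hi' : i ∈ stab r L := ⟨hIL i hi, inv_stable r i (hIL i hi)⟩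
  exact (mul_mem (zpow_mem hφ n) hi').1 v hv

theorem span_singleton_stable {g : Module.End k V} {v : V} {c : k} (h : g v = c • v) :
    ∀ w ∈ Submodule.span k {v}, g w ∈ Submodule.span k {v} := by
  intro w hw
  obtain ⟨a, rfl⟩ := Submodule.mem_span_singleton.1 hw
  rw [map_smul, h, smul_smul]
  exact Submodule.smul_mem _ _ (Submodule.mem_span_singleton_self v)

theorem pow_apply_eigen {g : Module.End k V} {v : V} {c : k} (h : g v = c • v) (n : ℕ) :
    (g ^ n) v = c ^ n • v := by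
  induction n with
  | zero => rw [pow_zero, pow_zero, Module.End.one_apply, one_smul]
  | succ n ih => rw [pow_succ, Module.End.mul_apply, h, map_smul, ih, smul_smul, pow_succ, mul_comm]

/-- the frozen `hsplit` gives an eigenvector. -/
theorem exists_eigen_of_charpoly [Module.Finite k V] {g : Module.End k V} {α β : k}
    (h : LinearMap.charpoly g = (X - C α) * (X - C β)) : ∃ v : V, v ≠ 0 ∧ g v = α • v := by
  have hroot : (LinearMap.charpoly g).IsRoot α := by
    rw [h, IsRoot.def, eval_mul, eval_sub, eval_X, eval_C, sub_self, zero_mul]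
  have hev := (Module.End.hasEigenvalue_iff_isRoot_charpoly g α).2 hroot
  obtain ⟨v, hv⟩ := hev.exists_hasEigenvector
  exact ⟨v, hv.2, hv.apply_eq_smul⟩

/-! ### The level-two shape -/

section Main

variable {p : ℕ} (hp : p.Prime) (hA : A.LiesOverPrime p) [CharP k p]
variable (hV : finrank k V = 2)
variable (E : IntermediateField ℚ Qb) [FiniteDimensional ℚ E] [Normal ℚ E]
variable (hlevel : ∀ σ : GQ, (∀ x ∈ E, σ x = x) → r σ = 1)
variable (hirr : ∀ L : Submodule k V,
  (∀ g ∈ A.decompositionSubgroup ℚ, ∀ v ∈ L, r g v ∈ L) → L = ⊥ ∨ L = ⊤)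
variable (heig : ∀ σ ∈ A.decompositionSubgroup ℚ, ∃ α : k, ∃ v : V, v ≠ 0 ∧ r σ v = α • v)
variable {φ : GQ} (hφ : φ ∈ A.decompositionSubgroup ℚ)
variable (hfr : ∀ a ∈ A, φ a - a ^ p ∈ A.nonunits)
variable (hFG : ∀ g ∈ A.decompositionSubgroup ℚ, ∃ n : ℤ, ∃ i ∈ A.inertiaSubgroupIn ℚ,
  r g = r (φ ^ n * i))

include hV hirr hFG in
/-- an irreducible plane has no line stable under `φ` and `I`. -/
theorem no_stable_line {v : V} (hv : v ≠ 0)
    (h1 : ∀ w ∈ Submodule.span k {v}, r φ w ∈ Submodule.span k {v})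
    (h2 : ∀ s ∈ A.inertiaSubgroupIn ℚ, ∀ w ∈ Submodule.span k {v}, r s w ∈ Submodule.span k {v}) :
    False := by
  have hfin : Module.Finite k V := Module.finite_of_finrank_pos (by omega)
  rcases hirr _ (stable_of_frobGen r hFG h1 h2) with h | h
  · have : v ∈ Submodule.span k {v} := Submodule.mem_span_singleton_self v
    rw [h, Submodule.mem_bot] at this
    exact hv this
  · have h3 : finrank k (Submodule.span k {v}) = 1 := finrank_span_singleton hv
    rw [h, finrank_top, hV] at h3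
    omega

include hp hA hV hlevel hirr heig hφ hfr hFG in
/-- **(C4)** the level-two shape of an irreducible `ρ̄|D_P`. -/
theorem exists_level_two_basis :
    ∃ e₀ e₁ : V, LinearIndependent k ![e₀, e₁] ∧
      (∀ s ∈ A.inertiaSubgroupIn ℚ, ∃ c : k,
        r s e₀ = c • e₀ ∧ r s e₁ = c ^ p • e₁ ∧ c ^ p ^ 2 = c) ∧
      (∃ s ∈ A.inertiaSubgroupIn ℚ, ∃ c : k, r s e₀ = c • e₀ ∧ c ^ p ≠ c) ∧
      r φ e₁ = e₀ ∧ ∃ x : k, x ≠ 0 ∧ r φ e₀ = x • e₁ := by
  classical
  have hfin : Module.Finite k V := Module.finite_of_finrank_pos (by omega)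
  have hnt : Nontrivial V := Module.nontrivial_of_finrank_pos (R := k) (by omega)
  have hID : ∀ s ∈ A.inertiaSubgroupIn ℚ, s ∈ A.decompositionSubgroup ℚ := fun s hs =>
    Fermat.Agent.S05.mem_decompositionSubgroup_of_mem_inertiaSubgroupIn hs
  -- Step 1: a non-scalar element of `r(I)`
  have hns : ∃ s₀ ∈ A.inertiaSubgroupIn ℚ, ∀ c : k, r s₀ ≠ c • (1 : Module.End k V) := by
    by_contra hcon
    have hsc : ∀ s ∈ A.inertiaSubgroupIn ℚ, ∃ c : k, r s = c • (1 : Module.End k V) := by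
      intro s hs
      by_contra h
      exact hcon ⟨s, hs, fun c hc => h ⟨c, hc⟩⟩
    obtain ⟨α, v, hv0, hv⟩ := heig φ hφ
    refine no_stable_line r hV hirr hFG hv0 (span_singleton_stable hv) (fun s hs => ?_)
    obtain ⟨c, hc⟩ := hsc s hs
    refine span_singleton_stable (c := c) ?_
    rw [hc, LinearMap.smul_apply, Module.End.one_apply]
  obtain ⟨s₀, hs₀, hns⟩ := hns
  -- Step 2: an eigenline of `r s₀`, stable under `r(I)`
  obtain ⟨α, u, hu0, hu⟩ := heig s₀ (hID s₀ hs₀)
  set L₁ : Submodule k V := Module.End.eigenspace (r s₀) α with hL₁def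
  have hL₁bot : L₁ ≠ ⊥ := by
    intro h
    have : u ∈ L₁ := Module.End.mem_eigenspace_iff.2 hu
    rw [h, Submodule.mem_bot] at this
    exact hu0 this
  have hL₁top : L₁ ≠ ⊤ := by
    intro h
    apply hns α
    refine LinearMap.ext fun v => ?_
    have : v ∈ L₁ := by rw [h]; exact Submodule.mem_top
    rw [Module.End.mem_eigenspace_iff.1 this, LinearMap.smul_apply, Module.End.one_apply]
  have hL₁ : finrank k L₁ = 1 := finrank_eq_one_of_ne_bot_of_ne_top hV hL₁bot hL₁top
  obtain ⟨⟨v₁, hv₁L⟩, hv₁0', hspan⟩ := finrank_eq_one_iff'.1 hL₁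
  have hv₁0 : v₁ ≠ 0 := fun h => hv₁0' (Subtype.ext h)
  have hv₁α : r s₀ v₁ = α • v₁ := Module.End.mem_eigenspace_iff.1 hv₁L
  have ha : ∀ s ∈ A.inertiaSubgroupIn ℚ, ∃ a : k, r s v₁ = a • v₁ := by
    intro s hs
    have hmem : r s v₁ ∈ L₁ := by
      rw [hL₁def, Module.End.mem_eigenspace_iff]
      have hc := commute_of_irreducible r hp hA E hlevel hirr hs₀ hs
      have h1 : r s₀ (r s v₁) = (r s₀ * r s) v₁ := rfl
      rw [h1, hc, Module.End.mul_apply, hv₁α, map_smul]
    obtain ⟨a, ha⟩ := hspan ⟨r s v₁, hmem⟩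
    exact ⟨a, (congrArg Subtype.val ha).symm⟩
  -- Step 3: `w = r φ v₁`
  set w : V := r φ v₁ with hw
  have hw0 : w ≠ 0 := by
    intro h
    apply hv₁0
    apply apply_injective r φ
    rw [← hw, h, map_zero]
  have hφinvI : ∀ s ∈ A.inertiaSubgroupIn ℚ, φ⁻¹ * s * φ ∈ A.inertiaSubgroupIn ℚ := by
    intro s hs
    have := conj_mem_inertia (inv_mem hφ) hs
    rwa [inv_inv] at this
  have hconj : ∀ (s : GQ) (v : V), r s (r φ v) = r φ (r (φ⁻¹ * s * φ) v) := by
    intro s v
    rw [map_mul, map_mul, Module.End.mul_apply, Module.End.mul_apply, apply_inv_apply]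
  have hb : ∀ s ∈ A.inertiaSubgroupIn ℚ, ∃ b : k, r s w = b • w := by
    intro s hs
    obtain ⟨a, ha'⟩ := ha _ (hφinvI s hs)
    exact ⟨a, by rw [hw, hconj, ha', map_smul]⟩
  have hIstable_v : ∀ s ∈ A.inertiaSubgroupIn ℚ, ∀ z ∈ Submodule.span k {v₁},
      r s z ∈ Submodule.span k {v₁} := fun s hs => by
    obtain ⟨a, ha'⟩ := ha s hs
    exact span_singleton_stable ha'
  have hIstable_w : ∀ s ∈ A.inertiaSubgroupIn ℚ, ∀ z ∈ Submodule.span k {w},
      r s z ∈ Submodule.span k {w} := fun s hs => by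
    obtain ⟨b, hb'⟩ := hb s hs
    exact span_singleton_stable hb'
  have hli : LinearIndependent k ![w, v₁] := by
    rw [LinearIndependent.pair_iff]
    intro x y hxy
    have hx : x = 0 := by
      by_contra hx
      have hwv : r φ v₁ = (-(x⁻¹ * y)) • v₁ := by
        have h1 : x • w = -(y • v₁) := eq_neg_of_add_eq_zero_left hxy
        have h2 : w = x⁻¹ • (x • w) := by rw [smul_smul, inv_mul_cancel₀ hx, one_smul]
        rw [← hw, h2, h1, smul_neg, smul_smul, neg_smul]
      exact no_stable_line r hV hirr hFG hv₁0 (span_singleton_stable hwv) hIstable_v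
    rw [hx, zero_smul, zero_add] at hxy
    exact ⟨hx, (smul_eq_zero.1 hxy).resolve_right hv₁0⟩
  let B : Basis (Fin 2) k V := basisOfLinearIndependentOfCardEqFinrank hli (by simp [hV])
  have hB0 : B 0 = w := by simp [B]
  have hB1 : B 1 = v₁ := by simp [B]
  obtain ⟨b₀, hb₀⟩ := hb s₀ hs₀
  have hb₀α : b₀ ≠ α := by
    intro h
    apply hns α
    refine B.ext fun i => ?_
    fin_cases i
    · show r s₀ (B 0) = (α • (1 : Module.End k V)) (B 0)
      rw [hB0, hb₀, h, LinearMap.smul_apply, Module.End.one_apply]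
    · show r s₀ (B 1) = (α • (1 : Module.End k V)) (B 1)
      rw [hB1, hv₁α, LinearMap.smul_apply, Module.End.one_apply]
  -- Step 4: `r φ w ∈ k v₁`
  have hφw : ∃ x : k, x ≠ 0 ∧ r φ w = x • v₁ := by
    have hexp : r φ w = B.repr (r φ w) 0 • w + B.repr (r φ w) 1 • v₁ := by
      have := B.sum_repr (r φ w)
      rw [Fin.sum_univ_two, hB0, hB1] at this
      exact this.symm
    set x := B.repr (r φ w) 0 with hx
    set y := B.repr (r φ w) 1 with hy
    obtain ⟨c', hc'⟩ := hb _ (hφinvI s₀ hs₀)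
    have heigen : r s₀ (r φ w) = c' • r φ w := by rw [hconj, hc', map_smul]
    rw [hexp, map_add, map_smul, map_smul, hb₀, hv₁α] at heigen
    have h0 : (x * b₀ - c' * x) • w + (y * α - c' * y) • v₁ = 0 := by
      have e : (x * b₀ - c' * x) • w + (y * α - c' * y) • v₁ =
          (x • b₀ • w + y • α • v₁) - c' • (x • w + y • v₁) := by
        simp only [smul_add, smul_smul, sub_smul]
        abel
      rw [e, heigen, sub_self]
    obtain ⟨h1, h2⟩ := LinearIndependent.pair_iff.1 hli _ _ h0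
    have hx0 : x = 0 := by
      by_contra hxne
      have hc1 : b₀ = c' := by
        have : x * (b₀ - c') = 0 := by rw [mul_sub, mul_comm x c']; exact h1
        exact sub_eq_zero.1 ((mul_eq_zero.1 this).resolve_left hxne)
      have hy0 : y = 0 := by
        by_contra hyne
        have : y * (α - c') = 0 := by rw [mul_sub, mul_comm y c']; exact h2
        have h3 : α = c' := sub_eq_zero.1 ((mul_eq_zero.1 this).resolve_left hyne)
        exact hb₀α (hc1.trans h3.symm)
      rw [hy0, zero_smul, add_zero] at hexp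
      exact no_stable_line r hV hirr hFG hw0 (span_singleton_stable hexp) hIstable_w
    rw [hx0, zero_smul, zero_add] at hexp
    refine ⟨y, ?_, hexp⟩
    intro hy0
    rw [hy0, zero_smul] at hexp
    apply hw0
    apply apply_injective r φ
    rw [hexp, map_zero]
  obtain ⟨x, hx0, hφw⟩ := hφw
  -- Step 5: the characters
  have htame : ∀ s ∈ A.inertiaSubgroupIn ℚ, r (φ * s * φ⁻¹) = r s ^ p := fun s hs =>
    conj_eq_pow_of_irreducible r hp hA E hlevel hirr hφ hfr hs
  have hrel : ∀ s ∈ A.inertiaSubgroupIn ℚ, ∀ a b : k, r s v₁ = a • v₁ → r s w = b • w →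
      b ^ p = a ∧ a ^ p = b := by
    intro s hs a b ha' hb'
    constructor
    · have h1 : r (φ * s * φ⁻¹) w = a • w := by rw [hw, conj_apply, ha', map_smul]
      rw [htame s hs, pow_apply_eigen hb'] at h1
      exact smul_left_injective k hw0 h1
    · have h2 : r (φ * s * φ⁻¹) (r φ w) = b • r φ w := by rw [conj_apply, hb', map_smul]
      rw [htame s hs, hφw, map_smul, pow_apply_eigen ha', smul_smul, smul_smul] at h2
      have h3 : x * a ^ p = b * x := smul_left_injective k hv₁0 h2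
      rw [mul_comm b x] at h3
      exact mul_left_cancel₀ hx0 h3
  refine ⟨w, v₁, hli, ?_, ?_, rfl, x, hx0, hφw⟩
  · intro s hs
    obtain ⟨a, ha'⟩ := ha s hs
    obtain ⟨b, hb'⟩ := hb s hs
    obtain ⟨hba, hab⟩ := hrel s hs a b ha' hb'
    exact ⟨b, hb', by rw [hba]; exact ha', by rw [pow_two, pow_mul, hba, hab]⟩
  · obtain ⟨hba, -⟩ := hrel s₀ hs₀ α b₀ hv₁α hb₀
    exact ⟨s₀, hs₀, b₀, hb₀, by rw [hba]; exact fun h => hb₀α h.symm⟩

include hp hA hV hlevel hirr heig hφ hfr hFG in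
/-- tameness of level two: `r s ^ (p² - 1) = 1` on inertia. -/
theorem pow_eq_one_of_irreducible {s : GQ} (hs : s ∈ A.inertiaSubgroupIn ℚ) :
    r s ^ (p ^ 2 - 1) = 1 := by
  obtain ⟨e₀, e₁, hli, hch, -, -, -⟩ :=
    exists_level_two_basis r hp hA hV E hlevel hirr heig hφ hfr hFG
  obtain ⟨c, h0, h1, hc⟩ := hch s hs
  let B : Basis (Fin 2) k V := basisOfLinearIndependentOfCardEqFinrank hli (by simp [hV])
  have hB0 : B 0 = e₀ := by simp [B]
  have hB1 : B 1 = e₁ := by simp [B]
  have hpow : r s ^ p ^ 2 = r s := by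
    refine B.ext fun i => ?_
    fin_cases i
    · show (r s ^ p ^ 2) (B 0) = r s (B 0)
      rw [hB0, pow_apply_eigen h0, hc, h0]
    · show (r s ^ p ^ 2) (B 1) = r s (B 1)
      rw [hB1, pow_apply_eigen h1, ← pow_mul, mul_comm, pow_mul, hc, h1]
  have hpos : 1 ≤ p ^ 2 := Nat.one_le_pow _ _ hp.pos
  have e : r s ^ (p ^ 2 - 1) = r s⁻¹ * r s ^ p ^ 2 := by
    have h2 : p ^ 2 = (p ^ 2 - 1) + 1 := by omega
    have h3 : r s⁻¹ * r s = 1 := by rw [← map_mul, inv_mul_cancel, map_one]
    conv_rhs => rw [h2, pow_succ', ← mul_assoc, h3, one_mul]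
  rw [e, hpow, ← map_mul, inv_mul_cancel, map_one]

end Main

end Fermat.Agent.GP.Flat.Level2
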