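/-
GATE-P / S56 node S56-FLAT-CASES, file 4 (helper36).  The case split in the FROZEN shape.

`ρbar : ResidualGaloisRep k` with the frozen `hdet` (`DetIsCyclotomic p`) and `hsplit`, `p` odd,
`A | p`.  `FrobGen` (helper67) discharges the hypothesis `D = ⟨φ⟩ I` of `Level2`.

* `frobGen_of_level` : `φ` a Frobenius at `A`, `E` a finite normal level of `r` ⟹
  `∀ g ∈ D, ∃ n : ℤ, ∃ i ∈ I, r g = r (φ ^ n * i)`.
* `exists_level_two_basis_of_frobenius`, `pow_eq_one_of_frobenius` : `Level2` without `hFG`.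
* `cases_frozen` : ordinary shape ∨ level-two shape, for the frozen `ρbar`, with the tame-weight input
  `hTW` (helper90 S56-FLAT-TAMEWEIGHT (L5)) as the only binder.
-/
import Mathlib
import Fermat.Agent.GP.Flat.Level2
import Fermat.Agent.GP.Loc.FrobGen
import Fermat.Agent.GP.Loc.GlobH0
import Fermat.Agent.Common_helper32.FrobeniusExists

set_option autoImplicit false

open Fermat.Agent.Common_helper32 Fermat.Agent.GP.Loc.WildInertia Fermat.Agent.GP.Flat.Cases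
open Fermat.Agent.GP.Flat.Level2 Module Polynomial

namespace Fermat.Agent.GP.Flat.CasesFrozen

section General

variable {k : Type} [Field k] {V : Type} [AddCommGroup V] [Module k V]
variable (r : GQ →* Module.End k V) {A : ValuationSubring Qb}
variable {p : ℕ} (hp : p.Prime) (hA : A.LiesOverPrime p)
variable (E : IntermediateField ℚ Qb) [FiniteDimensional ℚ E] [Normal ℚ E]
variable (hlevel : ∀ σ : GQ, (∀ x ∈ E, σ x = x) → r σ = 1)

omit [FiniteDimensional ℚ E] in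
include hlevel in
/-- `r` only depends on the restriction to a level. -/
theorem eq_of_restrictNormalHom_eq {σ τ : GQ}
    (h : AlgEquiv.restrictNormalHom E σ = AlgEquiv.restrictNormalHom E τ) : r σ = r τ := by
  have hfix : ∀ x ∈ E, (τ⁻¹ * σ) x = x := by
    intro x hx
    have h1 : AlgEquiv.restrictNormalHom E (τ⁻¹ * σ) = 1 := by
      rw [map_mul, map_inv, h, inv_mul_cancel]
    have h2 := AlgEquiv.restrictNormal_commutes (τ⁻¹ * σ) E ⟨x, hx⟩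
    have h3 : (τ⁻¹ * σ).restrictNormal E = 1 := h1
    rw [h3] at h2
    exact h2.symm
  have h4 := hlevel _ hfix
  rw [map_mul] at h4
  have h5 : r τ * (r τ⁻¹ * r σ) = r τ := by rw [h4, mul_one]
  rw [← mul_assoc, ← map_mul, mul_inv_cancel, map_one, one_mul] at h5
  exact h5

include hp hA hlevel in
/-- **FrobGen** at the level of `r`: `D = ⟨φ⟩ I` modulo `ker r`. -/
theorem frobGen_of_level {φ : GQ} (hφ : A.IsFrobeniusAt φ p) :
    ∀ g ∈ A.decompositionSubgroup ℚ, ∃ n : ℤ, ∃ i ∈ A.inertiaSubgroupIn ℚ,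
      r g = r (φ ^ n * i) := by
  intro g hg
  have hgal : IsGalois ℚ E := ⟨⟩
  obtain ⟨n, τ, hτ, h⟩ :=
    Fermat.Agent.GP.Loc.FrobGen.exists_restrictNormalHom_eq E A hp hA hφ hg
  refine ⟨(n : ℤ), τ, hτ, ?_⟩
  rw [zpow_natCast]
  exact eq_of_restrictNormalHom_eq r E hlevel h

variable [CharP k p] (hV : finrank k V = 2)
variable (hirr : ∀ L : Submodule k V,
  (∀ g ∈ A.decompositionSubgroup ℚ, ∀ v ∈ L, r g v ∈ L) → L = ⊥ ∨ L = ⊤)
variable (heig : ∀ σ ∈ A.decompositionSubgroup ℚ, ∃ α : k, ∃ v : V, v ≠ 0 ∧ r σ v = α • v)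

include hp hA hV hlevel hirr heig in
/-- `Level2.exists_level_two_basis` with `FrobGen` discharged. -/
theorem exists_level_two_basis_of_frobenius {φ : GQ} (hφ : A.IsFrobeniusAt φ p) :
    ∃ e₀ e₁ : V, LinearIndependent k ![e₀, e₁] ∧
      (∀ s ∈ A.inertiaSubgroupIn ℚ, ∃ c : k,
        r s e₀ = c • e₀ ∧ r s e₁ = c ^ p • e₁ ∧ c ^ p ^ 2 = c) ∧
      (∃ s ∈ A.inertiaSubgroupIn ℚ, ∃ c : k, r s e₀ = c • e₀ ∧ c ^ p ≠ c) ∧
      r φ e₁ = e₀ ∧ ∃ x : k, x ≠ 0 ∧ r φ e₀ = x • e₁ :=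
  exists_level_two_basis r hp hA hV E hlevel hirr heig hφ.mem_decompositionSubgroup
    (fun _ ha => frobenius_sub_pow_mem hφ ha) (frobGen_of_level r hp hA E hlevel hφ)

include hp hA hV hlevel hirr heig in
/-- tameness of level two, with `FrobGen` discharged. -/
theorem pow_eq_one_of_frobenius {s : GQ} (hs : s ∈ A.inertiaSubgroupIn ℚ) :
    r s ^ (p ^ 2 - 1) = 1 := by
  obtain ⟨φ, hφ⟩ := exists_isFrobeniusAt_of_liesOver A p hp hA
  exact pow_eq_one_of_irreducible r hp hA hV E hlevel hirr heig hφ.mem_decompositionSubgroup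
    (fun _ ha => frobenius_sub_pow_mem hφ ha) (frobGen_of_level r hp hA E hlevel hφ) hs

end General

/-! ### The frozen shape -/

section Frozen

variable {k : Type} [Field k] (ρbar : ResidualGaloisRep k) (p : ℕ) [Fact p.Prime]

/-- `k` has characteristic `p`. -/
theorem charP_of_detIsCyclotomic
    (hdet : (GaloisRepAdic.ofResidualGaloisRep ρbar).DetIsCyclotomic p) : CharP k p := by
  have h0 := Fermat.Agent.GP.Loc.GlobH0.natCast_p_eq_zero ρbar p hdet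
  have h2 := CharP.ringChar_of_prime_eq_zero (Fact.out : p.Prime) h0
  exact h2 ▸ ringChar.charP k

/-- **S56-FLAT-CASES, frozen shape.**  For the frozen `ρbar` (`hdet`, `hsplit`), `p` odd, `A | p`,
and the tame-weight input `hTW`: either the ordinary shape or the level-two shape. -/
theorem cases_frozen (hp2 : p ≠ 2)
    (hdet : (GaloisRepAdic.ofResidualGaloisRep ρbar).DetIsCyclotomic p)
    (hsplit : ∀ σ : GQ, ∃ α β : k, LinearMap.charpoly (ρbar.ρ σ) = (X - C α) * (X - C β))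
    (A : ValuationSubring Qb) (hA : A.LiesOverPrime p)
    (hTW : ∀ L : Submodule k ρbar.V, finrank k L = 1 →
      (∀ g ∈ A.decompositionSubgroup ℚ, ∀ v ∈ L, ρbar.ρ g v ∈ L) → L ≤ aug ρbar.ρ A →
      ∀ s ∈ A.inertiaSubgroupIn ℚ, ∀ v ∈ L, ρbar.ρ s v = LinearMap.det (ρbar.ρ s) • v) :
    (finrank k (aug ρbar.ρ A) = 1 ∧
      (∀ g ∈ A.decompositionSubgroup ℚ, ∀ v ∈ aug ρbar.ρ A, ρbar.ρ g v ∈ aug ρbar.ρ A) ∧
      (∀ s ∈ A.inertiaSubgroupIn ℚ, ∀ v : ρbar.V, ρbar.ρ s v - v ∈ aug ρbar.ρ A) ∧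
      (∀ s ∈ A.inertiaSubgroupIn ℚ, ∀ v ∈ aug ρbar.ρ A,
        ρbar.ρ s v = LinearMap.det (ρbar.ρ s) • v)) ∨
    (aug ρbar.ρ A = ⊤ ∧
      (∀ L : Submodule k ρbar.V,
        (∀ g ∈ A.decompositionSubgroup ℚ, ∀ v ∈ L, ρbar.ρ g v ∈ L) → L = ⊥ ∨ L = ⊤) ∧
      (∀ s ∈ A.inertiaSubgroupIn ℚ, ρbar.ρ s ^ (p ^ 2 - 1) = 1) ∧
      ∃ φ : GQ, A.IsFrobeniusAt φ p ∧ ∃ e₀ e₁ : ρbar.V, LinearIndependent k ![e₀, e₁] ∧
        (∀ s ∈ A.inertiaSubgroupIn ℚ, ∃ c : k,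
          ρbar.ρ s e₀ = c • e₀ ∧ ρbar.ρ s e₁ = c ^ p • e₁ ∧ c ^ p ^ 2 = c) ∧
        (∃ s ∈ A.inertiaSubgroupIn ℚ, ∃ c : k, ρbar.ρ s e₀ = c • e₀ ∧ c ^ p ≠ c) ∧
        ρbar.ρ φ e₁ = e₀ ∧ ∃ x : k, x ≠ 0 ∧ ρbar.ρ φ e₀ = x • e₁) := by
  have hp : p.Prime := Fact.out
  have hchar : CharP k p := charP_of_detIsCyclotomic ρbar p hdet
  have hV : finrank k ρbar.V = 2 := ρbar.finrank_eq
  have hdet' : ∀ σ ∈ A.inertiaSubgroupIn ℚ, ∀ a : ℕ, (∀ μ : Qb, μ ^ p = 1 → σ μ = μ ^ a) →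
      LinearMap.det (ρbar.ρ σ) = (a : k) := fun σ _ a ha =>
    Fermat.Agent.GP.Loc.GlobH0.det_eq_natCast ρbar p hdet σ a ha
  rcases cases_of_tameWeight ρbar.ρ hp hp2 hA hV hdet' hTW with h1 | ⟨htop, hirr⟩
  · exact Or.inl ⟨h1, ordinary_of_finrank_aug_eq_one ρbar.ρ hV h1⟩
  · refine Or.inr ⟨htop, hirr, ?_⟩
    obtain ⟨E, hEfin, hEn, hlevel⟩ := exists_level ρbar.ρ ρbar.factorsThroughFiniteLevel
    have heig : ∀ σ ∈ A.decompositionSubgroup ℚ, ∃ α : k, ∃ v : ρbar.V,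
        v ≠ 0 ∧ ρbar.ρ σ v = α • v := by
      intro σ _
      obtain ⟨α, β, h⟩ := hsplit σ
      obtain ⟨v, hv0, hv⟩ := exists_eigen_of_charpoly h
      exact ⟨α, v, hv0, hv⟩
    obtain ⟨φ, hφ⟩ := exists_isFrobeniusAt_of_liesOver A p hp hA
    exact ⟨fun s hs => pow_eq_one_of_frobenius ρbar.ρ hp hA E hlevel hV hirr heig hs,
      φ, hφ, exists_level_two_basis_of_frobenius ρbar.ρ hp hA E hlevel hV hirr heig hφ⟩

end Frozen

end Fermat.Agent.GP.Flat.CasesFrozen
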