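/-
GATE-P (S56 long shot) / LEMMA F (helper15): injectivity of reduction modulo `𝔞^{>1/(p-1)}` on the
points of a finite flat commutative group scheme killed by `p`, proved by CARTIER DUALITY:
a point is a group-like element `y` of the convolution algebra `Hom(H, K)`; `[p] y = 1` means
`y ^ p = 1`; if `y = 1 + z` with `|z| < |p|^{1/(p-1)}` then in `0 = p z + C(p,2) z² + … + z ^ p`
the term `p z` strictly dominates, so `z = 0`.  No formal groups, no l.c.i., no PD-exponential.
Mathlib only.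
-/
import Mathlib

set_option autoImplicit false

namespace Fermat.Agent.GP.Flat.LemmaF

open Coalgebra TensorProduct WithConv

section Linear

variable {R₀ : Type*} [CommRing R₀] {H : Type*} [AddCommGroup H] [Module R₀ H] [Coalgebra R₀ H]
variable {K : Type*} [Field K] [Algebra R₀ K]
variable {Γ₀ : Type*} [LinearOrderedCommGroupWithZero Γ₀] (v : Valuation K Γ₀)

/-- Convolution is submultiplicative for the sup-valuation on the lattice `H`. -/
theorem convMul_bdd {f g : WithConv (H →ₗ[R₀] K)} {γ δ : Γ₀}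
    (hf : ∀ h, v (f h) ≤ γ) (hg : ∀ h, v (g h) ≤ δ) (h : H) : v ((f * g) h) ≤ γ * δ := by
  rw [(ℛ R₀ h).convMul_apply]
  refine v.map_sum_le fun i _ => ?_
  rw [map_mul]
  exact mul_le_mul' (hf _) (hg _)

/-- Powers: `|z ^ (k+1)| ≤ |z| ^ (k+1)`. -/
theorem convPow_bdd {z : WithConv (H →ₗ[R₀] K)} {γ : Γ₀} (hz : ∀ h, v (z h) ≤ γ) (k : ℕ) (h : H) :
    v ((z ^ (k + 1)) h) ≤ γ ^ (k + 1) := by
  induction k generalizing h with
  | zero => simpa using hz h
  | succ k ih =>
    rw [pow_succ, pow_succ γ]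
    exact convMul_bdd v ih hz h

end Linear

section Main

variable {R₀ : Type*} [CommRing R₀] {H : Type*} [AddCommGroup H] [Module R₀ H] [Coalgebra R₀ H]
  [Module.Finite R₀ H]
variable {K : Type*} [Field K] [Algebra R₀ K]
variable {Γ₀ : Type*} [LinearOrderedCommGroupWithZero Γ₀] (v : Valuation K Γ₀)

omit [Coalgebra R₀ H] in
/-- A linear map on a finitely generated lattice attains its sup-valuation. -/
theorem exists_max (hint : ∀ r : R₀, v (algebraMap R₀ K r) ≤ 1) (z : H →ₗ[R₀] K) :
    ∃ b₀ : H, ∀ h, v (z h) ≤ v (z b₀) := by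
  obtain ⟨s, hs⟩ := (Module.Finite.fg_top : (⊤ : Submodule R₀ H).FG)
  by_cases hne : s.Nonempty
  · obtain ⟨b₀, hb₀, hmax⟩ := s.exists_max_image (fun b => v (z b)) hne
    refine ⟨b₀, fun h => ?_⟩
    have hh : h ∈ Submodule.span R₀ (s : Set H) := by rw [hs]; trivial
    induction hh using Submodule.span_induction with
    | mem x hx => exact hmax x hx
    | zero => simp
    | add x y _ _ hx hy =>
      rw [map_add]
      exact (v.map_add _ _).trans (max_le hx hy)
    | smul r x _ hx =>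
      rw [map_smul, Algebra.smul_def, map_mul]
      calc v (algebraMap R₀ K r) * v (z x) ≤ 1 * v (z b₀) := mul_le_mul' (hint r) hx
        _ = v (z b₀) := one_mul _
  · rw [Finset.not_nonempty_iff_eq_empty] at hne
    subst hne
    refine ⟨0, fun h => ?_⟩
    have hh : h ∈ Submodule.span R₀ ((∅ : Finset H) : Set H) := by rw [hs]; trivial
    rw [Finset.coe_empty, Submodule.span_empty, Submodule.mem_bot] at hh
    subst hh
    simp

/-- **Lemma F**, linear form.  `H` a finitely generated coalgebra over `R₀`, `v` a valuation on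
the field `K` with `|R₀| ≤ 1`, `p` a prime with `p ≠ 0` in `K`.  If `z : H → K` is linear with
`(1 + z) ^ p = 1` in the convolution ring and `|z h| ^ (p - 1) < |p|` for all `h`, then `z = 0`. -/
theorem eq_zero_of_one_add_pow_eq_one {p : ℕ} (hp : p.Prime) (hp0 : (p : K) ≠ 0)
    (hint : ∀ r : R₀, v (algebraMap R₀ K r) ≤ 1)
    (z : WithConv (H →ₗ[R₀] K)) (hpow : (1 + z) ^ p = 1)
    (hz : ∀ h, v (z h) ^ (p - 1) < v (p : K)) : z = 0 := by
  obtain ⟨b₀, hmax⟩ := exists_max v hint z.ofConv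
  set γ : Γ₀ := v (z b₀) with hγ
  have hmax' : ∀ h, v (z h) ≤ γ := hmax
  by_contra hz0
  -- `γ ≠ 0`
  have hγ0 : γ ≠ 0 := by
    intro h0
    apply hz0
    ext h
    have := hmax' h
    rw [h0, le_zero_iff, map_eq_zero] at this
    simpa using this
  have hvp1 : v (p : K) ≤ 1 := by
    have := hint (p : R₀)
    rwa [map_natCast] at this
  have hvp0 : v (p : K) ≠ 0 := by rwa [Ne, map_eq_zero]
  have hp2 : 2 ≤ p := hp.two_le
  -- `γ < 1`
  have hγ1 : γ < 1 := by
    by_contra hge
    rw [not_lt] at hge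
    have h1 : (1 : Γ₀) ≤ γ ^ (p - 1) := one_le_pow_of_one_le' hge _
    exact absurd ((hz b₀).trans_le hvp1) (not_lt.mpr h1)
  -- binomial expansion evaluated at `b₀`
  have hcomm : Commute (1 : WithConv (H →ₗ[R₀] K)) z := Commute.one_left z
  have hexp := hcomm.add_pow p
  -- split off the terms `m = p` (giving `1`) and `m = p - 1` (giving `p z`)
  have hsplit : ∑ m ∈ Finset.range (p + 1),
        (1 : WithConv (H →ₗ[R₀] K)) ^ m * z ^ (p - m) * (p.choose m : WithConv (H →ₗ[R₀] K)) =
      1 + ((p : WithConv (H →ₗ[R₀] K)) * z +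
        ∑ m ∈ Finset.range (p - 1), z ^ (p - m) * (p.choose m : WithConv (H →ₗ[R₀] K))) := by
    obtain ⟨n, rfl⟩ : ∃ n, p = n + 2 := ⟨p - 2, by omega⟩
    rw [Finset.sum_range_succ, Finset.sum_range_succ]
    simp only [one_pow, one_mul, Nat.choose_self, Nat.cast_one, mul_one, Nat.sub_self, pow_zero]
    have h1 : n + 2 - (n + 1) = 1 := by omega
    have h2 : (n + 2).choose (n + 1) = n + 2 := by
      rw [show n + 1 = (n + 2) - 1 by omega, Nat.choose_symm (by omega), Nat.choose_one_right]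
    rw [h1, pow_one, h2]
    have h3 : n + 2 - 1 = n + 1 := by omega
    rw [h3]
    have : (z * ((n + 2 : ℕ) : WithConv (H →ₗ[R₀] K))) =
        ((n + 2 : ℕ) : WithConv (H →ₗ[R₀] K)) * z := (Nat.cast_commute (n + 2) z).symm.eq
    rw [this]
    abel
  have hsum0 : (p : WithConv (H →ₗ[R₀] K)) * z +
      ∑ m ∈ Finset.range (p - 1), z ^ (p - m) * (p.choose m : WithConv (H →ₗ[R₀] K)) = 0 := by
    have h := hexp
    rw [hpow, hsplit] at h
    exact (left_eq_add.mp h)
  -- evaluate at `b₀`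
  have hev : (p : K) * z b₀ =
      -∑ m ∈ Finset.range (p - 1), ((p.choose m : ℕ) : K) * (z ^ (p - m)) b₀ := by
    have h1 := congrArg (fun w : WithConv (H →ₗ[R₀] K) => w b₀) hsum0
    have hcast : ∀ (n : ℕ) (w : WithConv (H →ₗ[R₀] K)),
        ((n : WithConv (H →ₗ[R₀] K)) * w) b₀ = (n : K) * w b₀ := by
      intro n w
      rw [← nsmul_eq_mul]
      show (n • w).ofConv b₀ = _
      rw [WithConv.ofConv_smul, LinearMap.smul_apply, nsmul_eq_mul]
    have hcast' : ∀ (n : ℕ) (w : WithConv (H →ₗ[R₀] K)),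
        (w * (n : WithConv (H →ₗ[R₀] K))) b₀ = (n : K) * w b₀ := by
      intro n w
      rw [(Nat.cast_commute n w).symm.eq]
      exact hcast n w
    have h2 : ((p : WithConv (H →ₗ[R₀] K)) * z +
        ∑ m ∈ Finset.range (p - 1), z ^ (p - m) * (p.choose m : WithConv (H →ₗ[R₀] K))) b₀ =
        (p : K) * z b₀ + ∑ m ∈ Finset.range (p - 1), ((p.choose m : ℕ) : K) * (z ^ (p - m)) b₀ := by
      show (WithConv.ofConv ((p : WithConv (H →ₗ[R₀] K)) * z +
        ∑ m ∈ Finset.range (p - 1), z ^ (p - m) * (p.choose m : WithConv (H →ₗ[R₀] K)))) b₀ = _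
      rw [WithConv.ofConv_add, LinearMap.add_apply, WithConv.ofConv_sum, LinearMap.sum_apply]
      congr 1
      · exact hcast p z
      · exact Finset.sum_congr rfl fun m _ => hcast' _ _
    rw [h2] at h1
    have h3 : ((0 : WithConv (H →ₗ[R₀] K)) : H → K) b₀ = 0 := rfl
    rw [h3] at h1
    exact eq_neg_of_add_eq_zero_left h1
  -- bound each term of the sum
  have hterm : ∀ m ∈ Finset.range (p - 1),
      v (((p.choose m : ℕ) : K) * (z ^ (p - m)) b₀) ≤ max (v (p : K) * γ ^ 2) (γ ^ p) := by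
    intro m hm
    rw [Finset.mem_range] at hm
    rw [map_mul]
    have hk : p - m = (p - m - 1) + 1 := by omega
    have hzb : v ((z ^ (p - m)) b₀) ≤ γ ^ (p - m) := by
      rw [hk]; exact convPow_bdd v hmax' _ b₀
    rcases Nat.eq_zero_or_pos m with rfl | hmpos
    · -- `m = 0`: the term `z ^ p`
      refine le_max_of_le_right ?_
      simp only [Nat.choose_zero_right, Nat.cast_one, map_one, one_mul, Nat.sub_zero] at hzb ⊢
      exact hzb
    · -- `0 < m < p - 1`: binomial coefficient divisible by `p`, exponent `≥ 2`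
      refine le_max_of_le_left ?_
      have hdvd : p ∣ p.choose m := hp.dvd_choose_self hmpos.ne' (by omega)
      obtain ⟨c, hc⟩ := hdvd
      have hvc : v ((p.choose m : ℕ) : K) ≤ v (p : K) := by
        rw [hc, Nat.cast_mul, map_mul]
        have : v ((c : ℕ) : K) ≤ 1 := by
          have := hint (c : R₀); rwa [map_natCast] at this
        calc v (p : K) * v (c : K) ≤ v (p : K) * 1 := mul_le_mul_right this _
          _ = v (p : K) := mul_one _
      have hpow2 : γ ^ (p - m) ≤ γ ^ 2 := pow_le_pow_right_of_le_one' hγ1.le (by omega)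
      exact mul_le_mul' hvc (hzb.trans hpow2)
  have hle : v (p : K) * γ ≤ max (v (p : K) * γ ^ 2) (γ ^ p) := by
    have : v ((p : K) * z b₀) ≤ max (v (p : K) * γ ^ 2) (γ ^ p) := by
      rw [hev, Valuation.map_neg]
      exact v.map_sum_le hterm
    rwa [map_mul] at this
  rcases le_max_iff.mp hle with h1 | h2
  · -- `|p| γ ≤ |p| γ²` forces `1 ≤ γ`
    have : γ ≤ γ ^ 2 := by
      exact (mul_le_mul_iff_right₀ (zero_lt_iff.mpr hvp0)).mp h1
    rw [pow_two] at this
    have h3 : (1 : Γ₀) ≤ γ := by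
      have h4 : γ * 1 ≤ γ * γ := by rwa [mul_one]
      exact (mul_le_mul_iff_right₀ (zero_lt_iff.mpr hγ0)).mp h4
    exact absurd hγ1 (not_lt.mpr h3)
  · -- `|p| γ ≤ γ ^ p` forces `|p| ≤ γ ^ (p - 1)`
    have hpp : γ ^ p = γ ^ (p - 1) * γ := by
      rw [← pow_succ]; congr 1; omega
    rw [hpp] at h2
    have : v (p : K) ≤ γ ^ (p - 1) := (mul_le_mul_iff_left₀ (zero_lt_iff.mpr hγ0)).mp h2
    exact absurd (hz b₀) (not_lt.mpr this)

end Main

section Points

variable {R₀ : Type*} [CommRing R₀] {H : Type*} [CommRing H] [Bialgebra R₀ H]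
variable {K : Type*} [Field K] [Algebra R₀ K]
variable {Γ₀ : Type*} [LinearOrderedCommGroupWithZero Γ₀] (v : Valuation K Γ₀)

/-- The linear map underlying a point, in the convolution ring. -/
noncomputable def lin (f : WithConv (H →ₐ[R₀] K)) : WithConv (H →ₗ[R₀] K) :=
  toConv f.ofConv.toLinearMap

theorem lin_apply (f : WithConv (H →ₐ[R₀] K)) (h : H) : lin f h = f h := rfl

theorem lin_one : lin (1 : WithConv (H →ₐ[R₀] K)) = 1 := rfl

theorem lin_mul (f g : WithConv (H →ₐ[R₀] K)) : lin (f * g) = lin f * lin g := rfl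

theorem lin_pow (f : WithConv (H →ₐ[R₀] K)) (n : ℕ) : lin (f ^ n) = lin f ^ n :=
  AlgHom.toLinearMap_convPow f n

theorem lin_injective : Function.Injective (lin : WithConv (H →ₐ[R₀] K) → _) := by
  intro f g hfg
  apply WithConv.ofConv_injective
  apply AlgHom.toLinearMap_injective
  exact WithConv.toConv_injective hfg

variable [Module.Finite R₀ H]

/-- **Lemma F**, point form (shape of the frozen `GaloisRepAdic.IsFlatAt`: points are
`WithConv (H →ₐ[R₀] K)` with the convolution product).  A `p`-torsion point that is congruent to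
the identity modulo `𝔞^{>1/(p-1)}` (i.e. `|f h - ε h| ^ (p-1) < |p|` for all `h`) is the
identity. -/
theorem eq_one_of_pow_eq_one {p : ℕ} (hp : p.Prime) (hp0 : (p : K) ≠ 0)
    (hint : ∀ r : R₀, v (algebraMap R₀ K r) ≤ 1)
    (f : WithConv (H →ₐ[R₀] K)) (hpow : f ^ p = 1)
    (hf : ∀ h, v (f h - algebraMap R₀ K (Coalgebra.counit h)) ^ (p - 1) < v (p : K)) :
    f = 1 := by
  apply lin_injective
  rw [lin_one]
  have hz : lin f - 1 = 0 := by
    apply eq_zero_of_one_add_pow_eq_one v hp hp0 hint (lin f - 1)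
    · rw [add_sub_cancel, ← lin_pow, hpow, lin_one]
    · intro h
      have : (lin f - 1 : WithConv (H →ₗ[R₀] K)) h =
          f h - algebraMap R₀ K (Coalgebra.counit h) := rfl
      rw [this]
      exact hf h
  exact sub_eq_zero.mp hz

/-- Corollary (`p ≥ 3`): a `p`-torsion point congruent to the identity modulo `p` is the identity.
In particular (with `K = ℚ̄`, `v` over `p`): the UNRAMIFIED points of a CONNECTED finite flat group
scheme killed by `p` over `ℤ_(p)` are trivial, because they are `≡ 1` modulo the maximal ideal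
`p W` of the unramified integers. -/
theorem eq_one_of_pow_eq_one_of_le {p : ℕ} (hp : p.Prime) (hp3 : 3 ≤ p) (hp0 : (p : K) ≠ 0)
    (hvp : v (p : K) < 1)
    (hint : ∀ r : R₀, v (algebraMap R₀ K r) ≤ 1)
    (f : WithConv (H →ₐ[R₀] K)) (hpow : f ^ p = 1)
    (hf : ∀ h, v (f h - algebraMap R₀ K (Coalgebra.counit h)) ≤ v (p : K)) :
    f = 1 := by
  refine eq_one_of_pow_eq_one v hp hp0 hint f hpow fun h => ?_
  have hvp0 : v (p : K) ≠ 0 := by rwa [Ne, map_eq_zero]
  have h1 : v (f h - algebraMap R₀ K (Coalgebra.counit h)) ^ (p - 1) ≤ v (p : K) ^ (p - 1) :=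
    pow_le_pow_left' (hf h) _
  have h2 : v (p : K) ^ (p - 1) < v (p : K) := by
    obtain ⟨n, hn⟩ : ∃ n, p - 1 = n + 2 := ⟨p - 3, by omega⟩
    rw [hn, pow_succ]
    have h3 : v (p : K) ^ (n + 1) < 1 := pow_lt_one' hvp (by omega)
    calc v (p : K) ^ (n + 1) * v (p : K) < 1 * v (p : K) :=
          (mul_lt_mul_iff_left₀ (zero_lt_iff.mpr hvp0)).mpr h3
      _ = v (p : K) := one_mul _
  exact h1.trans_lt h2

end Points

end Fermat.Agent.GP.Flat.LemmaF

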