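/-
GATE-P / S56 node S56-FLAT-CASES, file 5 (helper36).  The case split for a FLAT `ρbar`, no binder left.

* `pow_eq_of_stable_line` : `char k = p`, `A | p`; a character `χ` of `D_A` on a `D_A`-stable line is
  `𝔽_p`-valued on inertia (`χ(φ s φ⁻¹) = χ(s)`, `φ s φ⁻¹ = s ^ p · wild`, `χ(wild) = 1`).  Pure Galois theory.
* `exists_natCast_eq_of_pow_eq` : `c ^ p = c ⟹ c = (n : k)`.
* `tameWeight_of_isFlatAt` : frozen `IsFlatAt` + `DetIsCyclotomic` ⟹ the tame-weight input `hTW` of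
  `CasesFrozen.cases_frozen`: on a `D_A`-stable line inside `(I_A - 1) V` inertia acts through `det`
  (helper90 `TameWeight.inertia_char_of_equiv` + helper14 `AugConn.connSubgroupFrozen`).
* `cases_of_isFlatAt` : flat + `hdet` + `hsplit`, `p` odd ⟹ ordinary shape ∨ level-two shape.
-/
import Mathlib
import Fermat.Agent.GP.Flat.CasesFrozen
import Fermat.Agent.GP.Flat.TameWeight.Frozen
import Fermat.Agent.GP.Flat.AugConn

set_option autoImplicit false

open Fermat.Agent.Common_helper32 Fermat.Agent.GP.Loc.WildInertia Fermat.Agent.GP.Flat.Cases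
open Fermat.Agent.GP.Flat.Level2 Fermat.Agent.GP.Flat.CasesFrozen Module Polynomial

namespace Fermat.Agent.GP.Flat.CasesFlat

section Galois

variable {k : Type} [Field k] {V : Type} [AddCommGroup V] [Module k V]
variable (r : GQ →* Module.End k V) {A : ValuationSubring Qb}

/-- in characteristic `p`, `c ^ (p ^ b) = 1 ⟹ c = 1`. -/
theorem eq_one_of_pow_char_pow {p : ℕ} (hp : p.Prime) [CharP k p] {c : k} {b : ℕ}
    (h : c ^ p ^ b = 1) : c = 1 := by
  have : Fact p.Prime := ⟨hp⟩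
  have h1 : (c - 1) ^ p ^ b = 0 := by
    rw [sub_pow_char_pow, one_pow, h, sub_self]
  exact sub_eq_zero.1 (pow_eq_zero_iff (pow_ne_zero b hp.ne_zero) |>.1 h1)

/-- the fixed points of Frobenius are the prime field. -/
theorem exists_natCast_eq_of_pow_eq {p : ℕ} (hp : p.Prime) [CharP k p] {c : k} (h : c ^ p = c) :
    ∃ n : ℕ, c = (n : k) := by
  classical
  have : Fact p.Prime := ⟨hp⟩
  by_contra hcon
  have hne : ∀ n : ℕ, c ≠ (n : k) := fun n hn => hcon ⟨n, hn⟩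
  have hP0 : (X ^ p - X : k[X]) ≠ 0 := FiniteField.X_pow_card_sub_X_ne_zero k hp.one_lt
  have hdeg : (X ^ p - X : k[X]).natDegree = p :=
    FiniteField.X_pow_card_sub_X_natDegree_eq k hp.one_lt
  let Z : Finset k := insert c ((Finset.range p).image (fun n : ℕ => (n : k)))
  have hinj : Set.InjOn (fun n : ℕ => (n : k)) (Finset.range p : Set ℕ) := by
    intro a ha b hb hab
    have h1 : a ≡ b [MOD p] := (CharP.natCast_eq_natCast k p).1 hab
    exact Nat.ModEq.eq_of_lt_of_lt h1 (Finset.mem_range.1 ha) (Finset.mem_range.1 hb)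
  have hcard : Z.card = p + 1 := by
    rw [Finset.card_insert_of_notMem, Finset.card_image_of_injOn hinj, Finset.card_range]
    intro hmem
    obtain ⟨n, -, hn⟩ := Finset.mem_image.1 hmem
    exact hne n hn.symm
  have hsub : Z.val ⊆ (X ^ p - X : k[X]).roots := by
    intro z hz
    rw [Finset.mem_val, Finset.mem_insert] at hz
    rw [mem_roots hP0, IsRoot.def, eval_sub, eval_pow, eval_X, sub_eq_zero]
    rcases hz with rfl | hz
    · exact h
    · obtain ⟨n, -, rfl⟩ := Finset.mem_image.1 hz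
      have h2 := map_natCast (frobenius k p) n
      rwa [frobenius_def] at h2
  have h3 := card_le_degree_of_subset_roots hsub
  rw [hcard, hdeg] at h3
  omega

variable {p : ℕ} (hp : p.Prime) (hA : A.LiesOverPrime p) [CharP k p]
variable (E : IntermediateField ℚ Qb) [FiniteDimensional ℚ E] [Normal ℚ E]
variable (hlevel : ∀ σ : GQ, (∀ x ∈ E, σ x = x) → r σ = 1)

include hp hA hlevel in
/-- **A character of `D_A` is `𝔽_p`-valued on inertia** (residue characteristic `p` = `char k`). -/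
theorem pow_eq_of_stable_line {v : V} (hv : v ≠ 0)
    (hst : ∀ g ∈ A.decompositionSubgroup ℚ, ∃ c : k, r g v = c • v) {s : GQ}
    (hs : s ∈ A.inertiaSubgroupIn ℚ) {c : k} (hc : r s v = c • v) : c ^ p = c := by
  obtain ⟨φ, hφ⟩ := exists_isFrobeniusAt_of_liesOver A p hp hA
  have hφD := hφ.mem_decompositionSubgroup
  have hx : φ * s * φ⁻¹ * (s ^ p)⁻¹ ∈ wildInertiaAt A E :=
    tame_relation_mem hp hA E hφD (fun _ ha => frobenius_sub_pow_mem hφ ha) hs
  set x := φ * s * φ⁻¹ * (s ^ p)⁻¹ with hxdef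
  obtain ⟨b, hb⟩ := exists_pow_eq_one_of_wildOn hp hA r E hlevel hx.2
  have hxD : x ∈ A.decompositionSubgroup ℚ :=
    Fermat.Agent.S05.mem_decompositionSubgroup_of_mem_inertiaSubgroupIn hx.1
  obtain ⟨cx, hcx⟩ := hst x hxD
  have hcx1 : cx = 1 := by
    have h1 := pow_apply_eigen hcx (p ^ b)
    rw [hb, Module.End.one_apply] at h1
    have h2 : (1 : k) • v = cx ^ p ^ b • v := by rw [one_smul]; exact h1
    exact eq_one_of_pow_char_pow hp (smul_left_injective k hv h2).symm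
  obtain ⟨cφ, hcφ⟩ := hst φ hφD
  have hcφ0 : cφ ≠ 0 := by
    intro h0
    rw [h0, zero_smul] at hcφ
    exact hv (apply_injective r φ (by rw [hcφ, map_zero]))
  -- evaluate `r (φ s φ⁻¹)` on `r φ v` in two ways
  have h1 : r (φ * s * φ⁻¹) (r φ v) = c • r φ v := by rw [conj_apply, hc, map_smul]
  have e : φ * s * φ⁻¹ = x * s ^ p := by rw [hxdef]; group
  have h2 : r (φ * s * φ⁻¹) (r φ v) = (cφ * c ^ p) • v := by
    rw [e, map_mul, map_pow, Module.End.mul_apply, hcφ, map_smul, pow_apply_eigen hc, map_smul,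
      map_smul, hcx, hcx1, one_smul, smul_smul]
  rw [h2, hcφ, smul_smul] at h1
  have h3 : cφ * c ^ p = c * cφ := smul_left_injective k hv h1
  rw [mul_comm c cφ] at h3
  exact mul_left_cancel₀ hcφ0 h3

/-- a subgroup containing all `r s u - u`, `s ∈ I`, contains `(I - 1) V` (`r s` is `k`-linear). -/
theorem mem_addSubgroup_of_mem_aug (W : AddSubgroup V)
    (hW : ∀ s ∈ A.inertiaSubgroupIn ℚ, ∀ u : V, r s u - u ∈ W) {x : V} (hx : x ∈ aug r A) :
    x ∈ W := by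
  have key : ∀ x ∈ aug r A, ∀ c : k, c • x ∈ W := by
    intro x hx
    unfold aug at hx
    induction hx using Submodule.span_induction with
    | mem w hw =>
      obtain ⟨s, hs, u, rfl⟩ := hw
      intro c
      have := hW s hs (c • u)
      rwa [map_smul, ← smul_sub] at this
    | zero => intro c; rw [smul_zero]; exact W.zero_mem
    | add x y _ _ hx hy => intro c; rw [smul_add]; exact W.add_mem (hx c) (hy c)
    | smul d x _ hx => intro c; rw [smul_smul]; exact hx (c * d)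
  have := key x hx 1
  rwa [one_smul] at this

end Galois

/-! ### The frozen flat shape -/

section Flat

variable {k : Type} [Field k] (ρbar : ResidualGaloisRep k) (p : ℕ) [Fact p.Prime]

/-- auxiliary: the flat structure at the level `⊥` of the frozen `IsFlatAt`. -/
theorem tameWeight_aux
    (hdet : (GaloisRepAdic.ofResidualGaloisRep ρbar).DetIsCyclotomic p)
    (hflat : (GaloisRepAdic.ofResidualGaloisRep ρbar).IsFlatAt p)
    (A : ValuationSubring Qb) (hA : A.LiesOverPrime p) (hI : Finite (k ⧸ (⊥ : Ideal k)))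
    {v₀ : ρbar.V} (hv₀0 : v₀ ≠ 0)
    (hFp : ∀ σ ∈ A.inertiaSubgroupIn ℚ, ∃ n : ℕ, ρbar.ρ σ v₀ = (n : k) • v₀)
    {s : GQ} (hs : s ∈ A.inertiaSubgroupIn ℚ) {n : ℕ} (hn : ρbar.ρ s v₀ = (n : k) • v₀)
    (hmem : ∀ W' : AddSubgroup ρbar.V,
      (∀ σ ∈ A.inertiaSubgroupIn ℚ, ∀ u : ρbar.V, ρbar.ρ σ u - u ∈ W') → v₀ ∈ W') :
    ρbar.ρ s v₀ = LinearMap.det (ρbar.ρ s) • v₀ := by
  have hp : p.Prime := Fact.out
  have hp0 : (p : k) = 0 := Fermat.Agent.GP.Loc.GlobH0.natCast_p_eq_zero ρbar p hdet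
  obtain ⟨H, _, _, hHfin, _, _, e, he_mul, he_equiv⟩ := hflat.2 ⊥ hI
  have := hHfin
  have hNbot : ((⊥ : Ideal k) • (⊤ : Submodule k (GaloisRepAdic.ofResidualGaloisRep ρbar).V)) = ⊥ :=
    Submodule.bot_smul _
  have hmk_inj : ∀ u : ρbar.V, (Submodule.Quotient.mk u :
      (GaloisRepAdic.ofResidualGaloisRep ρbar).V ⧸
        ((⊥ : Ideal k) • (⊤ : Submodule k (GaloisRepAdic.ofResidualGaloisRep ρbar).V))) = 0 →
      u = 0 := by
    intro u hu
    have := (Submodule.Quotient.mk_eq_zero _).1 hu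
    rwa [hNbot, Submodule.mem_bot] at this
  have hV : ∀ u : (GaloisRepAdic.ofResidualGaloisRep ρbar).V ⧸
      ((⊥ : Ideal k) • (⊤ : Submodule k (GaloisRepAdic.ofResidualGaloisRep ρbar).V)),
      p • u = 0 := by
    intro u
    induction u using Submodule.Quotient.induction_on with
    | H x =>
      rw [← Submodule.Quotient.mk_smul, Submodule.Quotient.mk_eq_zero,
        ← Nat.cast_smul_eq_nsmul k, hp0, zero_smul]
      exact Submodule.zero_mem _
  have hnsmul : ∀ (σ : GQ) (m : ℕ), ρbar.ρ σ v₀ = (m : k) • v₀ →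
      (GaloisRepAdic.ofResidualGaloisRep ρbar).levelAction ⊥ σ (Submodule.Quotient.mk v₀) =
        m • (Submodule.Quotient.mk v₀ : (GaloisRepAdic.ofResidualGaloisRep ρbar).V ⧸
          ((⊥ : Ideal k) • (⊤ : Submodule k (GaloisRepAdic.ofResidualGaloisRep ρbar).V))) := by
    intro σ m hm
    have h1 : (GaloisRepAdic.ofResidualGaloisRep ρbar).levelAction ⊥ σ (Submodule.Quotient.mk v₀) =
        Submodule.Quotient.mk ((GaloisRepAdic.ofResidualGaloisRep ρbar).ρ σ v₀) := rfl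
    have h2 : (GaloisRepAdic.ofResidualGaloisRep ρbar).ρ σ v₀ = (m : k) • v₀ := hm
    rw [h1, h2, Nat.cast_smul_eq_nsmul k]
    rfl
  have hw0 : (Submodule.Quotient.mk v₀ : (GaloisRepAdic.ofResidualGaloisRep ρbar).V ⧸
      ((⊥ : Ideal k) • (⊤ : Submodule k (GaloisRepAdic.ofResidualGaloisRep ρbar).V))) ≠ 0 :=
    fun h => hv₀0 (hmk_inj v₀ h)
  -- connectedness
  have hconn : (Submodule.Quotient.mk v₀ : (GaloisRepAdic.ofResidualGaloisRep ρbar).V ⧸
      ((⊥ : Ideal k) • (⊤ : Submodule k (GaloisRepAdic.ofResidualGaloisRep ρbar).V))) ∈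
      Fermat.Agent.GP.Flat.AugConn.connSubgroupFrozen hp e he_mul hV A hA := by
    refine hmem ((Fermat.Agent.GP.Flat.AugConn.connSubgroupFrozen hp e he_mul hV A hA).comap
      (Submodule.mkQ ((⊥ : Ideal k) •
        (⊤ : Submodule k (GaloisRepAdic.ofResidualGaloisRep ρbar).V))).toAddMonoidHom) ?_
    intro σ hσ u
    exact Fermat.Agent.GP.Flat.AugConn.act_sub_mem_connSubgroupFrozen hp
      (fun σ u => (GaloisRepAdic.ofResidualGaloisRep ρbar).levelAction ⊥ σ u) e he_mul he_equiv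
      hV A hA hσ (Submodule.Quotient.mk u)
  have hconn' : ∀ h : H, (e.symm (Submodule.Quotient.mk v₀)) h -
      algebraMap (GaloisRep.ratLocalizedAt p) Qb (Coalgebra.counit h) ∈ A.nonunits := by
    intro h
    rw [A.mem_nonunits_iff]
    exact (Fermat.Agent.GP.Flat.AugConn.mem_connSubgroupFrozen_iff hp e he_mul hV A hA _).1
      hconn h
  have hstab : ∀ σ ∈ A.inertiaSubgroupIn ℚ, ∃ m : ℕ,
      (GaloisRepAdic.ofResidualGaloisRep ρbar).levelAction ⊥ σ (Submodule.Quotient.mk v₀) =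
        m • (Submodule.Quotient.mk v₀ : (GaloisRepAdic.ofResidualGaloisRep ρbar).V ⧸
          ((⊥ : Ideal k) • (⊤ : Submodule k (GaloisRepAdic.ofResidualGaloisRep ρbar).V))) := by
    intro σ hσ
    obtain ⟨m, hm⟩ := hFp σ hσ
    exact ⟨m, hnsmul σ m hm⟩
  have hζ : ∀ μ : Qb, μ ^ p = 1 → s μ = μ ^ n := fun μ hμ =>
    Fermat.Agent.GP.Flat.TameWeight.inertia_char_of_equiv A hp hA e he_mul
      (fun σ u => (GaloisRepAdic.ofResidualGaloisRep ρbar).levelAction ⊥ σ u) he_equiv _ hw0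
      (hV _) hconn' hstab hs (hnsmul s n hn) hμ
  rw [Fermat.Agent.GP.Loc.GlobH0.det_eq_natCast ρbar p hdet s n hζ]
  exact hn

/-- **Tame weight for a flat `ρbar`**: on a `D_A`-stable line inside `(I_A - 1) V` inertia acts through
the determinant (= the mod `p` cyclotomic character). -/
theorem tameWeight_of_isFlatAt
    (hdet : (GaloisRepAdic.ofResidualGaloisRep ρbar).DetIsCyclotomic p)
    (hflat : (GaloisRepAdic.ofResidualGaloisRep ρbar).IsFlatAt p)
    (A : ValuationSubring Qb) (hA : A.LiesOverPrime p) :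
    ∀ L : Submodule k ρbar.V, finrank k L = 1 →
      (∀ g ∈ A.decompositionSubgroup ℚ, ∀ v ∈ L, ρbar.ρ g v ∈ L) → L ≤ aug ρbar.ρ A →
      ∀ s ∈ A.inertiaSubgroupIn ℚ, ∀ v ∈ L, ρbar.ρ s v = LinearMap.det (ρbar.ρ s) • v := by
  intro L hL hLst hLaug s hs v hv
  have hp : p.Prime := Fact.out
  have hchar : CharP k p := charP_of_detIsCyclotomic ρbar p hdet
  have hp0 : (p : k) = 0 := Fermat.Agent.GP.Loc.GlobH0.natCast_p_eq_zero ρbar p hdet
  -- a generator of the line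
  obtain ⟨⟨v₀, hv₀L⟩, hv₀0', hspan⟩ := finrank_eq_one_iff'.1 hL
  have hv₀0 : v₀ ≠ 0 := fun h => hv₀0' (Subtype.ext h)
  have hLe : ∀ u ∈ L, ∃ c : k, c • v₀ = u := by
    intro u hu
    obtain ⟨c, hc⟩ := hspan ⟨u, hu⟩
    exact ⟨c, congrArg Subtype.val hc⟩
  have hst : ∀ g ∈ A.decompositionSubgroup ℚ, ∃ c : k, ρbar.ρ g v₀ = c • v₀ := by
    intro g hg
    obtain ⟨c, hc⟩ := hLe _ (hLst g hg v₀ hv₀L)
    exact ⟨c, hc.symm⟩
  -- it suffices to treat the generator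
  suffices hmain : ρbar.ρ s v₀ = LinearMap.det (ρbar.ρ s) • v₀ by
    obtain ⟨a, rfl⟩ := hLe v hv
    rw [map_smul, hmain, smul_comm]
  -- level of `ρbar`
  obtain ⟨E, hEfin, hEn, hlevel⟩ := exists_level ρbar.ρ ρbar.factorsThroughFiniteLevel
  have hFp : ∀ σ ∈ A.inertiaSubgroupIn ℚ, ∃ n : ℕ, ρbar.ρ σ v₀ = (n : k) • v₀ := by
    intro σ hσ
    obtain ⟨c, hc⟩ := hst σ (Fermat.Agent.S05.mem_decompositionSubgroup_of_mem_inertiaSubgroupIn hσ)
    obtain ⟨n, hn⟩ := exists_natCast_eq_of_pow_eq hp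
      (pow_eq_of_stable_line ρbar.ρ hp hA E hlevel hv₀0 hst hσ hc)
    exact ⟨n, by rw [hc, hn]⟩
  obtain ⟨n, hn⟩ := hFp s hs
  -- the flat structure at the level `⊥`
  have hfin : Finite (IsLocalRing.ResidueField k) := hflat.1
  have hkfin : Finite k :=
    Finite.of_injective (IsLocalRing.residue k) (RingHom.injective _)
  have hI : Finite (k ⧸ (⊥ : Ideal k)) :=
    Finite.of_surjective (Ideal.Quotient.mk (⊥ : Ideal k)) Ideal.Quotient.mk_surjective
  exact tameWeight_aux ρbar p hdet hflat A hA hI hv₀0 hFp hs hn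
    (fun W' hW' => mem_addSubgroup_of_mem_aug ρbar.ρ W' hW' (hLaug hv₀L))

/-- **S56-FLAT-CASES for a flat `ρbar`** (`p` odd): ordinary shape ∨ level-two shape. -/
theorem cases_of_isFlatAt (hp2 : p ≠ 2)
    (hdet : (GaloisRepAdic.ofResidualGaloisRep ρbar).DetIsCyclotomic p)
    (hflat : (GaloisRepAdic.ofResidualGaloisRep ρbar).IsFlatAt p)
    (hsplit : ∀ σ : GQ, ∃ α β : k, LinearMap.charpoly (ρbar.ρ σ) = (X - C α) * (X - C β))
    (A : ValuationSubring Qb) (hA : A.LiesOverPrime p) :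
    (finrank k (aug ρbar.ρ A) = 1 ∧
      (∀ g ∈ A.decompositionSubgroup ℚ, ∀ v ∈ aug ρbar.ρ A, ρbar.ρ g v ∈ aug ρbar.ρ A) ∧
      (∀ s ∈ A.inertiaSubgroupIn ℚ, ∀ v : ρbar.V, ρbar.ρ s v - v ∈ aug ρbar.ρ A) ∧
      (∀ s ∈ A.inertiaSubgroupIn ℚ, ∀ v ∈ aug ρbar.ρ A,
        ρbar.ρ s v = LinearMap.det (ρbar.ρ s) • v)) ∨
    (aug ρbar.ρ A = ⊤ ∧
      (∀ L : Submodule k ρbar.V,
        (∀ g ∈ A.decompositionSubgroup ℚ, ∀ v ∈ L, ρbar.ρ g v ∈ L) → L = ⊥ ∨ L = ⊤) ∧
      (∀ s ∈ A.inertiaSubgroupIn ℚ, ρbar.ρ s ^ (p ^ 2 - 1) = 1) ∧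
      ∃ φ : GQ, A.IsFrobeniusAt φ p ∧ ∃ e₀ e₁ : ρbar.V, LinearIndependent k ![e₀, e₁] ∧
        (∀ s ∈ A.inertiaSubgroupIn ℚ, ∃ c : k,
          ρbar.ρ s e₀ = c • e₀ ∧ ρbar.ρ s e₁ = c ^ p • e₁ ∧ c ^ p ^ 2 = c) ∧
        (∃ s ∈ A.inertiaSubgroupIn ℚ, ∃ c : k, ρbar.ρ s e₀ = c • e₀ ∧ c ^ p ≠ c) ∧
        ρbar.ρ φ e₁ = e₀ ∧ ∃ x : k, x ≠ 0 ∧ ρbar.ρ φ e₀ = x • e₁) :=
  cases_frozen ρbar p hp2 hdet hsplit A hA (tameWeight_of_isFlatAt ρbar p hdet hflat A hA)

end Flat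

end Fermat.Agent.GP.Flat.CasesFlat
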