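/-
GATE-P / S56 [P-FLAT] node S56-FLAT-SSGK (helper36).

The FRAME of the supersingular count (helper50 SSASM, board 4175): from the level-two shape of
`CasesFlat.cases_of_isFlatAt` (inertia acts through `c ⊕ c ^ p` in a basis `e₀, e₁`, some `c ^ p ≠ c`,
a Frobenius swaps the two lines) we get

* `ssGK r A p` : the subgroup `D_A ⊓ ker r ⊓ Fix(μ_p)` of `G_ℚ` (`r := ρbar.ρ`);
* (g1) `conj_mem_ssGK` : it is normal in `D_A`;  (g2) `apply_eq_one_of_mem`, `apply_root_of_mem`,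
  `toMatRes_eq_one_of_mem`;
* `monomial_of_mem_decomp` : every `r σ`, `σ ∈ D_A`, is monomial in the basis `e₀, e₁`;
  `pow_eq_one_of_mem_decomp` : `r σ ^ (2 (q - 1)) = 1`, `q = #k`;
* (g3) `pow_ssExp_mem_ssGK` : `D_A / ssGK` has exponent dividing `ssExp k p = 2 (q - 1) (p - 1)`, which is
  prime to `p` (`not_dvd_ssExp`);  `relIndex_ssGK`, `relIndex_ssGK_ne_zero` :
  `[D_A : ssGK]` is finite, prime to `p`, invertible in `k`;
* (H0) `commute_decomp_scalar` : the commutant of `r(D_A)` is `k`;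
* frozen forms (`LevelTwo ρbar p A` := the last clause of the level-two alternative, verbatim):
  `relIndex_ssGK_ne_zero_of_levelTwo`, `pow_ssExp_mem_ssGK_of_levelTwo`, `commute_scalar_of_levelTwo`,
  `eq_zero_of_commute_toMatRes` (`H⁰(D_A, ad⁰) = 0`, matrix form), `exists_matrix_form` (MAT: after
  conjugation by some `g ∈ GL₂(k)` inertia is `diag(c, c ^ p)`, a Frobenius is `!![0, 1; x, 0]`, `D_A`
  is monomial);
* `levelTwo_of_isFlatAt`, `finrank_aug_eq_one_or_eq_top`, `ss_frame` : everything from the frozen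
  `IsFlatAt` + `DetIsCyclotomic` + `hsplit` and `(I_A - 1) V = V`.
-/
import Mathlib
import Fermat.Agent.GP.Flat.CasesFlat
import Fermat.Agent.S53_helper35.MatDict

set_option autoImplicit false

open Fermat.Agent.Common_helper32 Fermat.Agent.GP.Loc.WildInertia Module Polynomial

namespace Fermat.Agent.GP.Flat.SSGK

/-! ### The subgroup `ssGK` -/

section Def

variable {k : Type} [Field k] {V : Type} [AddCommGroup V] [Module k V]
variable (r : GQ →* Module.End k V) (A : ValuationSubring Qb) (p : ℕ)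

/-- `D_A ⊓ ker r ⊓ Fix(μ_p)`. -/
def ssGK : Subgroup GQ where
  carrier := {σ | σ ∈ A.decompositionSubgroup ℚ ∧ r σ = 1 ∧ ∀ μ : Qb, μ ^ p = 1 → σ μ = μ}
  mul_mem' := by
    rintro σ τ ⟨h1, h2, h3⟩ ⟨h1', h2', h3'⟩
    refine ⟨mul_mem h1 h1', by rw [map_mul, h2, h2', one_mul], fun μ hμ => ?_⟩
    rw [AlgEquiv.mul_apply, h3' μ hμ, h3 μ hμ]
  one_mem' := ⟨one_mem _, map_one _, fun _ _ => rfl⟩
  inv_mem' := by
    rintro σ ⟨h1, h2, h3⟩
    refine ⟨inv_mem h1, ?_, fun μ hμ => ?_⟩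
    · have h : r σ⁻¹ * r σ = 1 := by rw [← map_mul, inv_mul_cancel, map_one]
      rwa [h2, mul_one] at h
    · calc σ⁻¹ μ = σ⁻¹ (σ μ) := by rw [h3 μ hμ]
        _ = (σ⁻¹ * σ) μ := rfl
        _ = μ := by rw [inv_mul_cancel]; rfl

variable {r A p}

theorem mem_ssGK_iff {σ : GQ} : σ ∈ ssGK r A p ↔
    σ ∈ A.decompositionSubgroup ℚ ∧ r σ = 1 ∧ ∀ μ : Qb, μ ^ p = 1 → σ μ = μ := Iff.rfl

theorem ssGK_le : ssGK r A p ≤ A.decompositionSubgroup ℚ := fun _ h => h.1

/-- (g2) `r` is trivial on `ssGK`. -/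
theorem apply_eq_one_of_mem {σ : GQ} (h : σ ∈ ssGK r A p) : r σ = 1 := h.2.1

/-- (g2) `ssGK` fixes the `p`-th roots of unity. -/
theorem apply_root_of_mem {σ : GQ} (h : σ ∈ ssGK r A p) {μ : Qb} (hμ : μ ^ p = 1) :
    σ μ = μ := h.2.2 μ hμ

/-- (g1) `ssGK` is normal in `D_A`. -/
theorem conj_mem_ssGK {d g : GQ} (hd : d ∈ A.decompositionSubgroup ℚ) (hg : g ∈ ssGK r A p) :
    d * g * d⁻¹ ∈ ssGK r A p := by
  obtain ⟨h1, h2, h3⟩ := hg
  refine ⟨mul_mem (mul_mem hd h1) (inv_mem hd), ?_, fun μ hμ => ?_⟩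
  · rw [map_mul, map_mul, h2, mul_one, ← map_mul, mul_inv_cancel, map_one]
  · have hμ' : (d⁻¹ μ) ^ p = 1 := by rw [← map_pow, hμ, map_one]
    calc (d * g * d⁻¹) μ = d (g (d⁻¹ μ)) := rfl
      _ = d (d⁻¹ μ) := by rw [h3 _ hμ']
      _ = (d * d⁻¹) μ := rfl
      _ = μ := by rw [mul_inv_cancel]; rfl

/-- (g1), the other conjugation. -/
theorem conj_mem_ssGK' {d g : GQ} (hd : d ∈ A.decompositionSubgroup ℚ) (hg : g ∈ ssGK r A p) :
    d⁻¹ * g * d ∈ ssGK r A p := by
  have h := conj_mem_ssGK (inv_mem hd) hg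
  rwa [inv_inv] at h

end Def

/-! ### The monomial shape of `ρbar(D_A)` -/

section Shape

variable {k : Type} [Field k] {V : Type} [AddCommGroup V] [Module k V]
variable (r : GQ →* Module.End k V) {A : ValuationSubring Qb} {p : ℕ}
variable {e₀ e₁ : V} (hli : LinearIndependent k ![e₀, e₁]) (hV : finrank k V = 2)

include hli hV in
/-- coordinates in the basis `e₀, e₁`. -/
theorem exists_coord (v : V) : ∃ a b : k, v = a • e₀ + b • e₁ := by
  have hcard : Fintype.card (Fin 2) = finrank k V := by rw [hV]; rfl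
  have h := (basisOfLinearIndependentOfCardEqFinrank hli hcard).sum_repr v
  rw [Fin.sum_univ_two, coe_basisOfLinearIndependentOfCardEqFinrank] at h
  exact ⟨_, _, h.symm⟩

include hli in
theorem coord_eq_zero {a b : k} (h : a • e₀ + b • e₁ = 0) : a = 0 ∧ b = 0 :=
  LinearIndependent.pair_iff.1 hli a b h

include hli in
theorem e₀_ne_zero : e₀ ≠ 0 := hli.ne_zero 0

include hli in
theorem e₁_ne_zero : e₁ ≠ 0 := hli.ne_zero 1

include hli in
/-- an eigenvector of `diag(c₀, c₁)`, `c₀ ≠ c₁`, lies on one of the two axes. -/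
theorem coord_zero_of_eigen {T : Module.End k V} {c₀ c₁ l a b : k} (h0 : T e₀ = c₀ • e₀)
    (h1 : T e₁ = c₁ • e₁) (hne : c₀ ≠ c₁) (hv : T (a • e₀ + b • e₁) = l • (a • e₀ + b • e₁)) :
    a = 0 ∨ b = 0 := by
  rw [map_add, map_smul, map_smul, h0, h1, smul_add, smul_smul, smul_smul, smul_smul, smul_smul] at hv
  have h2 : (a * c₀ - l * a) • e₀ + (b * c₁ - l * b) • e₁ = 0 := by
    rw [sub_smul, sub_smul]
    rw [← sub_eq_zero] at hv
    rw [← hv]
    abel
  obtain ⟨ha, hb⟩ := coord_eq_zero hli h2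
  by_contra hcon
  rw [not_or] at hcon
  have h3 : c₀ = l := by
    have : a * (c₀ - l) = 0 := by rw [mul_sub, mul_comm a l]; exact ha
    rcases mul_eq_zero.1 this with h | h
    · exact absurd h hcon.1
    · exact sub_eq_zero.1 h
  have h4 : c₁ = l := by
    have : b * (c₁ - l) = 0 := by rw [mul_sub, mul_comm b l]; exact hb
    rcases mul_eq_zero.1 this with h | h
    · exact absurd h hcon.2
    · exact sub_eq_zero.1 h
  exact hne (h3.trans h4.symm)

variable (hI : ∀ s ∈ A.inertiaSubgroupIn ℚ, ∃ c : k,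
  r s e₀ = c • e₀ ∧ r s e₁ = c ^ p • e₁ ∧ c ^ p ^ 2 = c)
variable (hreg : ∃ s ∈ A.inertiaSubgroupIn ℚ, ∃ c : k, r s e₀ = c • e₀ ∧ c ^ p ≠ c)

include hli hI hreg in
/-- a regular element of inertia. -/
theorem exists_regular : ∃ s ∈ A.inertiaSubgroupIn ℚ, ∃ c : k,
    r s e₀ = c • e₀ ∧ r s e₁ = c ^ p • e₁ ∧ c ^ p ≠ c := by
  obtain ⟨s, hs, c, h0, hne⟩ := hreg
  obtain ⟨c', h0', h1', -⟩ := hI s hs
  have hcc : c' = c := by
    have h : (c' - c) • e₀ = 0 := by rw [sub_smul, ← h0, ← h0', sub_self]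
    rcases smul_eq_zero.1 h with h | h
    · exact sub_eq_zero.1 h
    · exact absurd h (e₀_ne_zero hli)
  subst hcc
  exact ⟨s, hs, c', h0, h1', hne⟩

include hli hV hI hreg in
/-- **every `r σ`, `σ ∈ D_A`, is monomial in the basis `e₀, e₁`.** -/
theorem monomial_of_mem_decomp {σ : GQ} (hσ : σ ∈ A.decompositionSubgroup ℚ) :
    (∃ a d : k, a ≠ 0 ∧ d ≠ 0 ∧ r σ e₀ = a • e₀ ∧ r σ e₁ = d • e₁) ∨
    (∃ a d : k, a ≠ 0 ∧ d ≠ 0 ∧ r σ e₀ = a • e₁ ∧ r σ e₁ = d • e₀) := by
  obtain ⟨s₀, hs₀, c₀, h00, h01, hne⟩ := exists_regular r hli hI hreg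
  have hs' : σ⁻¹ * s₀ * σ ∈ A.inertiaSubgroupIn ℚ := by
    have h := conj_mem_inertia (inv_mem hσ) hs₀
    rwa [inv_inv] at h
  obtain ⟨c', h'0, h'1, -⟩ := hI _ hs'
  have hcomm : r s₀ * r σ = r σ * r (σ⁻¹ * s₀ * σ) := by
    rw [← map_mul, ← map_mul]
    congr 1
    group
  have hinj : ∀ v : V, r σ v = 0 → v = 0 := by
    intro v hv
    have h : (r σ⁻¹ * r σ) v = v := by
      rw [← map_mul, inv_mul_cancel, map_one, Module.End.one_apply]
    rw [Module.End.mul_apply, hv, map_zero] at h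
    exact h.symm
  have heig0 : r s₀ (r σ e₀) = c' • r σ e₀ := by
    rw [← Module.End.mul_apply, hcomm, Module.End.mul_apply, h'0, map_smul]
  have heig1 : r s₀ (r σ e₁) = c' ^ p • r σ e₁ := by
    rw [← Module.End.mul_apply, hcomm, Module.End.mul_apply, h'1, map_smul]
  obtain ⟨a, b, hab⟩ := exists_coord hli hV (r σ e₀)
  obtain ⟨a', b', hab'⟩ := exists_coord hli hV (r σ e₁)
  rw [hab] at heig0
  rw [hab'] at heig1
  have hc0 := coord_zero_of_eigen hli h00 h01 (Ne.symm hne) heig0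
  have hc1 := coord_zero_of_eigen hli h00 h01 (Ne.symm hne) heig1
  have hne0 : r σ e₀ ≠ 0 := fun h => e₀_ne_zero hli (hinj _ h)
  have hne1 : r σ e₁ ≠ 0 := fun h => e₁_ne_zero hli (hinj _ h)
  rcases hc0 with ha | hb
  · -- `r σ e₀ = b • e₁`
    rw [ha, zero_smul, zero_add] at hab
    have hb0 : b ≠ 0 := by
      rintro rfl
      rw [zero_smul] at hab
      exact hne0 hab
    rcases hc1 with ha' | hb'
    · -- both on `e₁`: impossible
      exfalso
      rw [ha', zero_smul, zero_add] at hab'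
      have h : r σ (b' • e₀ - b • e₁) = 0 := by
        rw [map_sub, map_smul, map_smul, hab, hab', smul_smul, smul_smul, mul_comm, sub_self]
      have h2 := hinj _ h
      rw [sub_eq_add_neg, ← neg_smul] at h2
      exact hb0 (neg_eq_zero.1 (coord_eq_zero hli h2).2)
    · rw [hb', zero_smul, add_zero] at hab'
      have ha0 : a' ≠ 0 := by
        rintro rfl
        rw [zero_smul] at hab'
        exact hne1 hab'
      exact Or.inr ⟨b, a', hb0, ha0, hab, hab'⟩
  · rw [hb, zero_smul, add_zero] at hab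
    have ha0 : a ≠ 0 := by
      rintro rfl
      rw [zero_smul] at hab
      exact hne0 hab
    rcases hc1 with ha' | hb'
    · rw [ha', zero_smul, zero_add] at hab'
      have hb0 : b' ≠ 0 := by
        rintro rfl
        rw [zero_smul] at hab'
        exact hne1 hab'
      exact Or.inl ⟨a, b', ha0, hb0, hab, hab'⟩
    · -- both on `e₀`: impossible
      exfalso
      rw [hb', zero_smul, add_zero] at hab'
      have h : r σ (a' • e₀ - a • e₁) = 0 := by
        rw [map_sub, map_smul, map_smul, hab, hab', smul_smul, smul_smul, mul_comm, sub_self]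
      have h2 := hinj _ h
      rw [sub_eq_add_neg, ← neg_smul] at h2
      exact ha0 (neg_eq_zero.1 (coord_eq_zero hli h2).2)

include hli hV in
/-- an endomorphism is determined by its values on `e₀, e₁`. -/
theorem end_ext {T T' : Module.End k V} (h0 : T e₀ = T' e₀) (h1 : T e₁ = T' e₁) : T = T' := by
  refine LinearMap.ext fun v => ?_
  obtain ⟨a, b, rfl⟩ := exists_coord hli hV v
  rw [map_add, map_add, map_smul, map_smul, map_smul, map_smul, h0, h1]

include hli hV hI hreg in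
/-- **the exponent of `r(D_A)` divides `2 (q - 1)`.** -/
theorem pow_eq_one_of_mem_decomp [Finite k] {σ : GQ} (hσ : σ ∈ A.decompositionSubgroup ℚ) :
    r σ ^ (2 * (Nat.card k - 1)) = 1 := by
  classical
  have : Fintype k := Fintype.ofFinite k
  have hq : ∀ x : k, x ≠ 0 → x ^ (Nat.card k - 1) = 1 := by
    intro x hx
    rw [Nat.card_eq_fintype_card]
    exact FiniteField.pow_card_sub_one_eq_one x hx
  rcases monomial_of_mem_decomp r hli hV hI hreg hσ with ⟨a, d, ha, hd, h0, h1⟩ | ⟨a, d, ha, hd, h0, h1⟩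
  · refine end_ext hli hV ?_ ?_
    · rw [Fermat.Agent.GP.Flat.Level2.pow_apply_eigen h0, Module.End.one_apply, mul_comm, pow_mul,
        hq a ha, one_pow, one_smul]
    · rw [Fermat.Agent.GP.Flat.Level2.pow_apply_eigen h1, Module.End.one_apply, mul_comm, pow_mul,
        hq d hd, one_pow, one_smul]
  · have h20 : (r σ ^ 2) e₀ = (a * d) • e₀ := by
      rw [pow_two, Module.End.mul_apply, h0, map_smul, h1, smul_smul]
    have h21 : (r σ ^ 2) e₁ = (a * d) • e₁ := by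
      rw [pow_two, Module.End.mul_apply, h1, map_smul, h0, smul_smul, mul_comm]
    rw [pow_mul]
    refine end_ext hli hV ?_ ?_
    · rw [Fermat.Agent.GP.Flat.Level2.pow_apply_eigen h20, Module.End.one_apply,
        hq _ (mul_ne_zero ha hd), one_smul]
    · rw [Fermat.Agent.GP.Flat.Level2.pow_apply_eigen h21, Module.End.one_apply,
        hq _ (mul_ne_zero ha hd), one_smul]

end Shape

/-! ### The index of `ssGK` in `D_A` is prime to `p` -/

section Index

variable {k : Type} [Field k] {V : Type} [AddCommGroup V] [Module k V]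
variable (r : GQ →* Module.End k V) {A : ValuationSubring Qb} {p : ℕ}

/-- an automorphism with trivial cyclotomic character fixes the `p`-th roots of unity. -/
theorem apply_root_of_autToPow_eq_one (hp : p.Prime) [NeZero p] {ζ : Qb}
    (hζ : IsPrimitiveRoot ζ p) {g : GQ} (h : hζ.autToPow ℚ g = 1) {μ : Qb} (hμ : μ ^ p = 1) :
    g μ = μ := by
  have : Fact (1 < p) := ⟨hp.one_lt⟩
  have h2 := hζ.autToPow_spec ℚ g
  rw [h, Units.val_one, ZMod.val_one, pow_one] at h2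
  obtain ⟨i, -, rfl⟩ := hζ.eq_pow_of_pow_eq_one hμ
  rw [map_pow, ← h2]

/-- `σ ^ (p - 1)` fixes the `p`-th roots of unity. -/
theorem pow_pred_apply_root (hp : p.Prime) (σ : GQ) {μ : Qb} (hμ : μ ^ p = 1) :
    (σ ^ (p - 1)) μ = μ := by
  have : Fact p.Prime := ⟨hp⟩
  have : NeZero p := ⟨hp.ne_zero⟩
  have : NeZero (p : Qb) := ⟨by exact_mod_cast hp.ne_zero⟩
  obtain ⟨ζ, hζ⟩ : ∃ ζ : Qb, IsPrimitiveRoot ζ p :=
    HasEnoughRootsOfUnity.exists_primitiveRoot Qb p
  refine apply_root_of_autToPow_eq_one hp hζ ?_ hμ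
  rw [map_pow, ZMod.units_pow_card_sub_one_eq_one]

/-- the exponent `2 (q - 1) (p - 1)`. -/
noncomputable def ssExp (k : Type) (p : ℕ) : ℕ := 2 * (Nat.card k - 1) * (p - 1)

theorem ssExp_pos [Finite k] (hp : p.Prime) : 0 < ssExp k p := by
  have h1 : 1 < Nat.card k := Finite.one_lt_card
  have h2 := hp.one_lt
  unfold ssExp
  have h3 : 0 < Nat.card k - 1 := by omega
  have h4 : 0 < p - 1 := by omega
  positivity

theorem not_dvd_ssExp [Finite k] (hp : p.Prime) (hp2 : p ≠ 2) [CharP k p] : ¬ p ∣ ssExp k p := by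
  classical
  have : Fintype k := Fintype.ofFinite k
  obtain ⟨f, -, hf⟩ := FiniteField.card k p
  have hq : p ∣ Nat.card k := by
    rw [Nat.card_eq_fintype_card, hf]
    exact dvd_pow_self p f.ne_zero
  have h1 : 1 < Nat.card k := Finite.one_lt_card
  unfold ssExp
  intro h
  rcases (Nat.Prime.dvd_mul hp).1 h with h | h
  · rcases (Nat.Prime.dvd_mul hp).1 h with h | h
    · exact hp2 ((Nat.prime_dvd_prime_iff_eq hp Nat.prime_two).1 h)
    · have h3 : p ∣ 1 := by
        have := Nat.dvd_sub hq h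
        rwa [Nat.sub_sub_self h1.le] at this
      exact hp.one_lt.ne' (Nat.dvd_one.1 h3)
  · have := Nat.le_of_dvd (by have := hp.one_lt; omega) h
    have := hp.one_lt
    omega

/-- the joint action on `V` and on `μ_p`, restricted to `D_A`. -/
noncomputable def jointHom (A : ValuationSubring Qb) [NeZero p] {ζ : Qb}
    (hζ : IsPrimitiveRoot ζ p) :
    ↥(A.decompositionSubgroup ℚ) →* (Module.End k V)ˣ × (ZMod p)ˣ :=
  (r.toHomUnits.prod (hζ.autToPow ℚ)).comp (A.decompositionSubgroup ℚ).subtype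

theorem jointHom_ker_le (hp : p.Prime) [NeZero p] {ζ : Qb} (hζ : IsPrimitiveRoot ζ p) :
    (jointHom r A hζ).ker ≤ (ssGK r A p).subgroupOf (A.decompositionSubgroup ℚ) := by
  intro σ hσ
  rw [MonoidHom.mem_ker] at hσ
  have h1 : r.toHomUnits (σ : GQ) = 1 := congrArg Prod.fst hσ
  have h2 : hζ.autToPow ℚ (σ : GQ) = 1 := congrArg Prod.snd hσ
  rw [Subgroup.mem_subgroupOf]
  refine ⟨σ.2, ?_, fun μ hμ => apply_root_of_autToPow_eq_one hp hζ h2 hμ⟩
  have h3 := congrArg Units.val h1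
  rwa [MonoidHom.coe_toHomUnits, Units.val_one] at h3

variable {e₀ e₁ : V} (hli : LinearIndependent k ![e₀, e₁]) (hV : finrank k V = 2)
variable (hI : ∀ s ∈ A.inertiaSubgroupIn ℚ, ∃ c : k,
  r s e₀ = c • e₀ ∧ r s e₁ = c ^ p • e₁ ∧ c ^ p ^ 2 = c)
variable (hreg : ∃ s ∈ A.inertiaSubgroupIn ℚ, ∃ c : k, r s e₀ = c • e₀ ∧ c ^ p ≠ c)

include hli hV hI hreg in
/-- (g3) **`D_A / ssGK` has exponent dividing `2 (q - 1) (p - 1)`.** -/
theorem pow_ssExp_mem_ssGK [Finite k] (hp : p.Prime) {σ : GQ}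
    (hσ : σ ∈ A.decompositionSubgroup ℚ) : σ ^ ssExp k p ∈ ssGK r A p := by
  refine ⟨pow_mem hσ _, ?_, fun μ hμ => ?_⟩
  · unfold ssExp
    rw [map_pow, pow_mul, pow_eq_one_of_mem_decomp r hli hV hI hreg hσ, one_pow]
  · unfold ssExp
    rw [mul_comm, pow_mul]
    have h := pow_pred_apply_root hp σ hμ
    generalize σ ^ (p - 1) = g at h
    generalize 2 * (Nat.card k - 1) = m
    induction m with
    | zero => rw [pow_zero]; rfl
    | succ m ih => rw [pow_succ, AlgEquiv.mul_apply, h, ih]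

include hli hV hI hreg in
theorem jointHom_pow_ssExp [Finite k] (hp : p.Prime) [NeZero p] {ζ : Qb}
    (hζ : IsPrimitiveRoot ζ p) (σ : ↥(A.decompositionSubgroup ℚ)) :
    jointHom r A hζ σ ^ ssExp k p = 1 := by
  have : Fact p.Prime := ⟨hp⟩
  refine Prod.ext ?_ ?_
  · rw [Prod.pow_fst, Prod.fst_one]
    refine Units.ext ?_
    show ((r.toHomUnits (σ : GQ)) ^ ssExp k p : (Module.End k V)ˣ).val = 1
    rw [Units.val_pow_eq_pow_val, MonoidHom.coe_toHomUnits]
    unfold ssExp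
    rw [pow_mul, pow_eq_one_of_mem_decomp r hli hV hI hreg σ.2, one_pow]
  · rw [Prod.pow_snd, Prod.snd_one]
    show (hζ.autToPow ℚ (σ : GQ)) ^ ssExp k p = 1
    unfold ssExp
    rw [mul_comm, pow_mul, ZMod.units_pow_card_sub_one_eq_one, one_pow]

variable [Module.Finite k V]

theorem finite_jointHom_range [Finite k] [NeZero p] {ζ : Qb} (hζ : IsPrimitiveRoot ζ p) :
    Finite (jointHom r A hζ).range := by
  have : Finite V := Module.finite_of_finite k
  have : Finite (Module.End k V) := Finite.of_injective (fun f => (f : V → V)) DFunLike.coe_injective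
  infer_instance

include hli hV hI hreg in
theorem not_dvd_card_jointHom_range [Finite k] (hp : p.Prime) (hp2 : p ≠ 2) [CharP k p]
    [NeZero p] {ζ : Qb} (hζ : IsPrimitiveRoot ζ p) :
    ¬ p ∣ Nat.card (jointHom r A hζ).range := by
  have : Fact p.Prime := ⟨hp⟩
  have := finite_jointHom_range r (A := A) hζ
  intro hdvd
  obtain ⟨x, hx⟩ := exists_prime_orderOf_dvd_card' p hdvd
  obtain ⟨y, hy⟩ := x.2
  have h1 : x ^ ssExp k p = 1 := by
    refine Subtype.ext ?_
    rw [Subgroup.coe_pow, ← hy, jointHom_pow_ssExp r hli hV hI hreg hp hζ y, Subgroup.coe_one]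
  have h2 := orderOf_dvd_of_pow_eq_one h1
  rw [hx] at h2
  exact not_dvd_ssExp hp hp2 h2

include hli hV hI hreg in
/-- `ssGK` has finite index in `D_A`, prime to `p`. -/
theorem relIndex_ssGK [Finite k] (hp : p.Prime) (hp2 : p ≠ 2) [CharP k p] :
    (ssGK r A p).relIndex (A.decompositionSubgroup ℚ) ≠ 0 ∧
      ¬ p ∣ (ssGK r A p).relIndex (A.decompositionSubgroup ℚ) := by
  have : NeZero p := ⟨hp.ne_zero⟩
  have : NeZero (p : Qb) := ⟨by exact_mod_cast hp.ne_zero⟩
  obtain ⟨ζ, hζ⟩ : ∃ ζ : Qb, IsPrimitiveRoot ζ p :=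
    HasEnoughRootsOfUnity.exists_primitiveRoot Qb p
  have := finite_jointHom_range r (A := A) hζ
  have hdvd : (ssGK r A p).relIndex (A.decompositionSubgroup ℚ) ∣
      Nat.card (jointHom r A hζ).range := by
    rw [← Subgroup.index_ker]
    exact Subgroup.index_dvd_of_le (jointHom_ker_le r hp hζ)
  have hpos : Nat.card (jointHom r A hζ).range ≠ 0 := Nat.card_pos.ne'
  refine ⟨fun h0 => hpos ?_, fun h => ?_⟩
  · rw [h0] at hdvd
    exact zero_dvd_iff.1 hdvd
  · exact not_dvd_card_jointHom_range r hli hV hI hreg hp hp2 hζ (h.trans hdvd)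

include hli hV hI hreg in
/-- (g3) **the index of `ssGK` in `D_A` is invertible in `k`** (the `hidx` of helper50's
`SSAsm.exists_eq_add_coboundary_of_eq_on`). -/
theorem relIndex_ssGK_ne_zero [Finite k] (hp : p.Prime) (hp2 : p ≠ 2) [CharP k p] :
    (((ssGK r A p).relIndex (A.decompositionSubgroup ℚ) : ℕ) : k) ≠ 0 := by
  intro h
  rw [CharP.cast_eq_zero_iff k p] at h
  exact (relIndex_ssGK r hli hV hI hreg hp hp2).2 h

end Index

/-! ### The commutant of `r(D_A)` -/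

section Commutant

variable {k : Type} [Field k] {V : Type} [AddCommGroup V] [Module k V]
variable (r : GQ →* Module.End k V) {A : ValuationSubring Qb} {p : ℕ}
variable {e₀ e₁ : V} (hli : LinearIndependent k ![e₀, e₁]) (hV : finrank k V = 2)

include hli in
/-- the coordinates of an eigenvector of `diag(c₀, c₁)`. -/
theorem coord_eigen {T : Module.End k V} {c₀ c₁ l a b : k} (h0 : T e₀ = c₀ • e₀)
    (h1 : T e₁ = c₁ • e₁) (hv : T (a • e₀ + b • e₁) = l • (a • e₀ + b • e₁)) :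
    a * (c₀ - l) = 0 ∧ b * (c₁ - l) = 0 := by
  rw [map_add, map_smul, map_smul, h0, h1, smul_add, smul_smul, smul_smul, smul_smul, smul_smul] at hv
  have h2 : (a * c₀ - l * a) • e₀ + (b * c₁ - l * b) • e₁ = 0 := by
    rw [sub_smul, sub_smul]
    rw [← sub_eq_zero] at hv
    rw [← hv]
    abel
  obtain ⟨ha, hb⟩ := coord_eq_zero hli h2
  exact ⟨by rw [mul_sub, mul_comm a l]; exact ha, by rw [mul_sub, mul_comm b l]; exact hb⟩

variable (hI : ∀ s ∈ A.inertiaSubgroupIn ℚ, ∃ c : k,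
  r s e₀ = c • e₀ ∧ r s e₁ = c ^ p • e₁ ∧ c ^ p ^ 2 = c)
variable (hreg : ∃ s ∈ A.inertiaSubgroupIn ℚ, ∃ c : k, r s e₀ = c • e₀ ∧ c ^ p ≠ c)
variable {φ : GQ} (hφ : φ ∈ A.decompositionSubgroup ℚ) (hφ1 : r φ e₁ = e₀)

include hli hV hI hreg hφ hφ1 in
/-- **the commutant of `r(D_A)` consists of the scalars.** -/
theorem commute_decomp_scalar {X : Module.End k V}
    (hX : ∀ σ ∈ A.decompositionSubgroup ℚ, X * r σ = r σ * X) : ∃ a : k, X = a • 1 := by
  obtain ⟨s₀, hs₀, c₀, h00, h01, hne⟩ := exists_regular r hli hI hreg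
  have hs₀D : s₀ ∈ A.decompositionSubgroup ℚ :=
    ((Fermat.Agent.S05.mem_inertiaSubgroupIn_iff A s₀).1 hs₀).1
  have hc := hX s₀ hs₀D
  obtain ⟨a, b, hab⟩ := exists_coord hli hV (X e₀)
  obtain ⟨a', b', hab'⟩ := exists_coord hli hV (X e₁)
  have heig0 : r s₀ (X e₀) = c₀ • X e₀ := by
    rw [← Module.End.mul_apply, ← hc, Module.End.mul_apply, h00, map_smul]
  have heig1 : r s₀ (X e₁) = c₀ ^ p • X e₁ := by
    rw [← Module.End.mul_apply, ← hc, Module.End.mul_apply, h01, map_smul]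
  rw [hab] at heig0
  rw [hab'] at heig1
  have hb : b = 0 := by
    rcases mul_eq_zero.1 (coord_eigen hli h00 h01 heig0).2 with h | h
    · exact h
    · exact absurd (sub_eq_zero.1 h) hne
  have ha' : a' = 0 := by
    rcases mul_eq_zero.1 (coord_eigen hli h00 h01 heig1).1 with h | h
    · exact h
    · exact absurd (sub_eq_zero.1 h).symm hne
  rw [hb, zero_smul, add_zero] at hab
  rw [ha', zero_smul, zero_add] at hab'
  have hφc := hX φ hφ
  have h1 : X e₀ = b' • e₀ := by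
    have h2 : (X * r φ) e₁ = (r φ * X) e₁ := by rw [hφc]
    rwa [Module.End.mul_apply, Module.End.mul_apply, hφ1, hab', map_smul, hφ1] at h2
  refine ⟨b', end_ext hli hV ?_ ?_⟩
  · rw [h1, LinearMap.smul_apply, Module.End.one_apply]
  · rw [hab', LinearMap.smul_apply, Module.End.one_apply]

end Commutant

/-! ### The frozen shape -/

section Frozen

open Fermat.Agent.S53_helper35 (toMatRes toMatRes_apply)

variable {k : Type} [Field k] (ρbar : ResidualGaloisRep k) (p : ℕ) (A : ValuationSubring Qb)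

/-- the level-two shape at `A` (the last clause of the second alternative of
`CasesFlat.cases_of_isFlatAt`, verbatim). -/
def LevelTwo : Prop :=
  ∃ φ : GQ, A.IsFrobeniusAt φ p ∧ ∃ e₀ e₁ : ρbar.V, LinearIndependent k ![e₀, e₁] ∧
    (∀ s ∈ A.inertiaSubgroupIn ℚ, ∃ c : k,
      ρbar.ρ s e₀ = c • e₀ ∧ ρbar.ρ s e₁ = c ^ p • e₁ ∧ c ^ p ^ 2 = c) ∧
    (∃ s ∈ A.inertiaSubgroupIn ℚ, ∃ c : k, ρbar.ρ s e₀ = c • e₀ ∧ c ^ p ≠ c) ∧
    ρbar.ρ φ e₁ = e₀ ∧ ∃ x : k, x ≠ 0 ∧ ρbar.ρ φ e₀ = x • e₁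

variable {ρbar p A}

/-- (g2) in matrix form, any basis. -/
theorem toMatRes_eq_one_of_mem (b : Module.Basis (Fin 2) k ρbar.V) {σ : GQ}
    (h : σ ∈ ssGK ρbar.ρ A p) : toMatRes ρbar b σ = 1 := by
  rw [toMatRes_apply, apply_eq_one_of_mem h]
  exact LinearMap.toMatrix_one b

/-- (g3), exponent form. -/
theorem pow_ssExp_mem_ssGK_of_levelTwo [Finite k] [Fact p.Prime] (h : LevelTwo ρbar p A) {σ : GQ}
    (hσ : σ ∈ A.decompositionSubgroup ℚ) : σ ^ ssExp k p ∈ ssGK ρbar.ρ A p := by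
  obtain ⟨φ, -, e₀, e₁, hli, hI, hreg, -, -⟩ := h
  exact pow_ssExp_mem_ssGK ρbar.ρ hli ρbar.finrank_eq hI hreg Fact.out hσ

/-- (g3) **`[D_A : ssGK]` is finite and prime to `p`.** -/
theorem relIndex_ssGK_of_levelTwo [Finite k] [Fact p.Prime] (hp2 : p ≠ 2) [CharP k p]
    (h : LevelTwo ρbar p A) :
    (ssGK ρbar.ρ A p).relIndex (A.decompositionSubgroup ℚ) ≠ 0 ∧
      ¬ p ∣ (ssGK ρbar.ρ A p).relIndex (A.decompositionSubgroup ℚ) := by
  obtain ⟨φ, -, e₀, e₁, hli, hI, hreg, -, -⟩ := h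
  exact relIndex_ssGK ρbar.ρ hli ρbar.finrank_eq hI hreg Fact.out hp2

/-- (g3) **`[D_A : ssGK]` is invertible in `k`** = `hidx` of helper50's
`SSAsm.exists_eq_add_coboundary_of_eq_on`. -/
theorem relIndex_ssGK_ne_zero_of_levelTwo [Finite k] [Fact p.Prime] (hp2 : p ≠ 2) [CharP k p]
    (h : LevelTwo ρbar p A) :
    (((ssGK ρbar.ρ A p).relIndex (A.decompositionSubgroup ℚ) : ℕ) : k) ≠ 0 := by
  obtain ⟨φ, -, e₀, e₁, hli, hI, hreg, -, -⟩ := h
  exact relIndex_ssGK_ne_zero ρbar.ρ hli ρbar.finrank_eq hI hreg Fact.out hp2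

/-- (H0) the commutant of `ρbar(D_A)` is `k`. -/
theorem commute_scalar_of_levelTwo (h : LevelTwo ρbar p A) {X : Module.End k ρbar.V}
    (hX : ∀ σ ∈ A.decompositionSubgroup ℚ, X * ρbar.ρ σ = ρbar.ρ σ * X) : ∃ a : k, X = a • 1 := by
  obtain ⟨φ, hφ, e₀, e₁, hli, hI, hreg, hφ1, -⟩ := h
  exact commute_decomp_scalar ρbar.ρ hli ρbar.finrank_eq hI hreg hφ.mem_decompositionSubgroup
    hφ1 hX

/-- (H0) **`H⁰(D_A, ad⁰ ρbar) = 0`, matrix form**: a trace-zero matrix commuting with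
`toMatRes ρbar b` on `D_A` vanishes. -/
theorem eq_zero_of_commute_toMatRes (h2 : (2 : k) ≠ 0) (h : LevelTwo ρbar p A)
    (b : Module.Basis (Fin 2) k ρbar.V) (X : Matrix (Fin 2) (Fin 2) k) (htr : X.trace = 0)
    (hc : ∀ σ ∈ A.decompositionSubgroup ℚ, toMatRes ρbar b σ * X = X * toMatRes ρbar b σ) :
    X = 0 := by
  have hX : ∀ σ ∈ A.decompositionSubgroup ℚ,
      Matrix.toLin b b X * ρbar.ρ σ = ρbar.ρ σ * Matrix.toLin b b X := by
    intro σ hσ
    have h1 := congrArg (Matrix.toLin b b) (hc σ hσ)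
    rw [toMatRes_apply, Matrix.toLin_mul b b b, Matrix.toLin_mul b b b,
      Matrix.toLin_toMatrix] at h1
    exact h1.symm
  obtain ⟨a, ha⟩ := commute_scalar_of_levelTwo h hX
  have h3 : X = a • (1 : Matrix (Fin 2) (Fin 2) k) := by
    have h4 := congrArg (LinearMap.toMatrix b b) ha
    rwa [LinearMap.toMatrix_toLin, map_smul, Module.End.one_eq_id, LinearMap.toMatrix_id] at h4
  rw [h3, Matrix.trace_smul, Matrix.trace_one, Fintype.card_fin, smul_eq_mul] at htr
  have ha0 : a = 0 := by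
    rcases mul_eq_zero.1 htr with h | h
    · exact h
    · exact absurd (by exact_mod_cast h) h2
  rw [h3, ha0, zero_smul]

end Frozen

/-! ### Matrix form in an arbitrary basis -/

section Mat

variable {k : Type} [Field k] {V : Type} [AddCommGroup V] [Module k V]
variable (b : Module.Basis (Fin 2) k V)
variable {e₀ e₁ : V} (hli : LinearIndependent k ![e₀, e₁]) (hV : finrank k V = 2)

/-- the basis `e₀, e₁`. -/
noncomputable def ssBasis : Module.Basis (Fin 2) k V :=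
  basisOfLinearIndependentOfCardEqFinrank hli (by rw [hV]; rfl)

theorem ssBasis_zero : ssBasis hli hV 0 = e₀ := by
  unfold ssBasis
  rw [coe_basisOfLinearIndependentOfCardEqFinrank]
  rfl

theorem ssBasis_one : ssBasis hli hV 1 = e₁ := by
  unfold ssBasis
  rw [coe_basisOfLinearIndependentOfCardEqFinrank]
  rfl

/-- the change of basis from `b` to `e₀, e₁`, in `GL₂(k)`. -/
noncomputable def ssGL : GL (Fin 2) k :=
  ⟨b.toMatrix (ssBasis hli hV), (ssBasis hli hV).toMatrix b,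
    b.toMatrix_mul_toMatrix_flip (ssBasis hli hV), (ssBasis hli hV).toMatrix_mul_toMatrix_flip b⟩

/-- conjugating by `ssGL` computes the matrix in the basis `e₀, e₁`. -/
theorem ssGL_conj (T : Module.End k V) :
    ((ssGL b hli hV)⁻¹ : GL (Fin 2) k).val * LinearMap.toMatrix b b T * (ssGL b hli hV).val =
      LinearMap.toMatrix (ssBasis hli hV) (ssBasis hli hV) T :=
  basis_toMatrix_mul_linearMap_toMatrix_mul_basis_toMatrix (ssBasis hli hV) b (ssBasis hli hV) b T

theorem ssBasis_repr_zero : (ssBasis hli hV).repr e₀ = Finsupp.single 0 1 := by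
  have h := (ssBasis hli hV).repr_self 0
  rwa [ssBasis_zero] at h

theorem ssBasis_repr_one : (ssBasis hli hV).repr e₁ = Finsupp.single 1 1 := by
  have h := (ssBasis hli hV).repr_self 1
  rwa [ssBasis_one] at h

theorem toMatrix_ssBasis_diag {T : Module.End k V} {a d : k} (h0 : T e₀ = a • e₀)
    (h1 : T e₁ = d • e₁) :
    LinearMap.toMatrix (ssBasis hli hV) (ssBasis hli hV) T = !![a, 0; 0, d] := by
  ext i j
  rw [LinearMap.toMatrix_apply]
  fin_cases j
  · show (ssBasis hli hV).repr (T (ssBasis hli hV 0)) i = _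
    rw [ssBasis_zero, h0, map_smul, ssBasis_repr_zero]
    fin_cases i <;> simp
  · show (ssBasis hli hV).repr (T (ssBasis hli hV 1)) i = _
    rw [ssBasis_one, h1, map_smul, ssBasis_repr_one]
    fin_cases i <;> simp

theorem toMatrix_ssBasis_antidiag {T : Module.End k V} {a d : k} (h0 : T e₀ = a • e₁)
    (h1 : T e₁ = d • e₀) :
    LinearMap.toMatrix (ssBasis hli hV) (ssBasis hli hV) T = !![0, d; a, 0] := by
  ext i j
  rw [LinearMap.toMatrix_apply]
  fin_cases j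
  · show (ssBasis hli hV).repr (T (ssBasis hli hV 0)) i = _
    rw [ssBasis_zero, h0, map_smul, ssBasis_repr_one]
    fin_cases i <;> simp
  · show (ssBasis hli hV).repr (T (ssBasis hli hV 1)) i = _
    rw [ssBasis_one, h1, map_smul, ssBasis_repr_zero]
    fin_cases i <;> simp

end Mat

section FrozenMat

open Fermat.Agent.S53_helper35 (toMatRes toMatRes_apply)

variable {k : Type} [Field k] {ρbar : ResidualGaloisRep k} {p : ℕ} {A : ValuationSubring Qb}

/-- (MAT) **the level-two shape in matrix form, any basis `b`**: after conjugation by some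
`g ∈ GL₂(k)`, inertia is `diag(c, c ^ p)`, a Frobenius is `!![0, 1; x, 0]`, and every element of
`D_A` is monomial. -/
theorem exists_matrix_form (h : LevelTwo ρbar p A) (b : Module.Basis (Fin 2) k ρbar.V) :
    ∃ g : GL (Fin 2) k,
      (∀ s ∈ A.inertiaSubgroupIn ℚ, ∃ c : k,
        (g⁻¹ : GL (Fin 2) k).val * toMatRes ρbar b s * g.val = !![c, 0; 0, c ^ p] ∧
          c ^ p ^ 2 = c) ∧
      (∃ s ∈ A.inertiaSubgroupIn ℚ, ∃ c : k,
        (g⁻¹ : GL (Fin 2) k).val * toMatRes ρbar b s * g.val = !![c, 0; 0, c ^ p] ∧ c ^ p ≠ c) ∧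
      (∃ φ : GQ, A.IsFrobeniusAt φ p ∧ ∃ x : k, x ≠ 0 ∧
        (g⁻¹ : GL (Fin 2) k).val * toMatRes ρbar b φ * g.val = !![0, 1; x, 0]) ∧
      ∀ σ ∈ A.decompositionSubgroup ℚ,
        (∃ a d : k, a ≠ 0 ∧ d ≠ 0 ∧
          (g⁻¹ : GL (Fin 2) k).val * toMatRes ρbar b σ * g.val = !![a, 0; 0, d]) ∨
        (∃ a d : k, a ≠ 0 ∧ d ≠ 0 ∧
          (g⁻¹ : GL (Fin 2) k).val * toMatRes ρbar b σ * g.val = !![0, d; a, 0]) := by
  obtain ⟨φ, hφ, e₀, e₁, hli, hI, hreg, hφ1, x, hx, hφ0⟩ := h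
  have hV := ρbar.finrank_eq
  refine ⟨ssGL b hli hV, fun s hs => ?_, ?_, ⟨φ, hφ, x, hx, ?_⟩, fun σ hσ => ?_⟩
  · obtain ⟨c, h0, h1, h2⟩ := hI s hs
    exact ⟨c, by rw [toMatRes_apply, ssGL_conj, toMatrix_ssBasis_diag hli hV h0 h1], h2⟩
  · obtain ⟨s, hs, c, h0, h1, hne⟩ := exists_regular ρbar.ρ hli hI hreg
    exact ⟨s, hs, c, by rw [toMatRes_apply, ssGL_conj, toMatrix_ssBasis_diag hli hV h0 h1], hne⟩
  · have h1' : ρbar.ρ φ e₁ = (1 : k) • e₀ := by rw [one_smul, hφ1]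
    rw [toMatRes_apply, ssGL_conj, toMatrix_ssBasis_antidiag hli hV hφ0 h1']
  · rcases monomial_of_mem_decomp ρbar.ρ hli hV hI hreg hσ with
      ⟨a, d, ha, hd, h0, h1⟩ | ⟨a, d, ha, hd, h0, h1⟩
    · exact Or.inl ⟨a, d, ha, hd, by
        rw [toMatRes_apply, ssGL_conj, toMatrix_ssBasis_diag hli hV h0 h1]⟩
    · exact Or.inr ⟨a, d, ha, hd, by
        rw [toMatRes_apply, ssGL_conj, toMatrix_ssBasis_antidiag hli hV h0 h1]⟩

end FrozenMat

/-! ### The frame, from the frozen flatness predicate -/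

section Frame

open Fermat.Agent.S53_helper35 (toMatRes toMatRes_apply)
open Fermat.Agent.GP.Flat.Cases Fermat.Agent.GP.Flat.CasesFlat

variable {k : Type} [Field k] (ρbar : ResidualGaloisRep k) (p : ℕ) [Fact p.Prime]

/-- for a flat `ρbar` (frozen hypotheses), `(I_A - 1) V = V` forces the level-two shape. -/
theorem levelTwo_of_isFlatAt (hp2 : p ≠ 2)
    (hdet : (GaloisRepAdic.ofResidualGaloisRep ρbar).DetIsCyclotomic p)
    (hflat : (GaloisRepAdic.ofResidualGaloisRep ρbar).IsFlatAt p)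
    (hsplit : ∀ σ : GQ, ∃ α β : k, LinearMap.charpoly (ρbar.ρ σ) = (X - C α) * (X - C β))
    (A : ValuationSubring Qb) (hA : A.LiesOverPrime p) (htop : aug ρbar.ρ A = ⊤) :
    LevelTwo ρbar p A := by
  rcases cases_of_isFlatAt ρbar p hp2 hdet hflat hsplit A hA with h | h
  · exfalso
    have h1 := h.1
    rw [htop, finrank_top, ρbar.finrank_eq] at h1
    omega
  · exact h.2.2.2

/-- the dichotomy `dim (I_A - 1) V = 1` or `(I_A - 1) V = V` for a flat `ρbar`. -/
theorem finrank_aug_eq_one_or_eq_top (hp2 : p ≠ 2)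
    (hdet : (GaloisRepAdic.ofResidualGaloisRep ρbar).DetIsCyclotomic p)
    (hflat : (GaloisRepAdic.ofResidualGaloisRep ρbar).IsFlatAt p)
    (hsplit : ∀ σ : GQ, ∃ α β : k, LinearMap.charpoly (ρbar.ρ σ) = (X - C α) * (X - C β))
    (A : ValuationSubring Qb) (hA : A.LiesOverPrime p) :
    finrank k (aug ρbar.ρ A) = 1 ∨ aug ρbar.ρ A = ⊤ := by
  rcases cases_of_isFlatAt ρbar p hp2 hdet hflat hsplit A hA with h | h
  · exact Or.inl h.1
  · exact Or.inr h.1

/-- **the SSASM frame** (helper50, board 4175): for a flat `ρbar` with `(I_A - 1) V = V`, the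
subgroup `GK := ssGK ρbar.ρ A p` satisfies (g1) (g2) (g3), and `H⁰(D_A, ad⁰ ρbar) = 0`. -/
theorem ss_frame [Finite k] (hp2 : p ≠ 2)
    (hdet : (GaloisRepAdic.ofResidualGaloisRep ρbar).DetIsCyclotomic p)
    (hflat : (GaloisRepAdic.ofResidualGaloisRep ρbar).IsFlatAt p)
    (hsplit : ∀ σ : GQ, ∃ α β : k, LinearMap.charpoly (ρbar.ρ σ) = (X - C α) * (X - C β))
    (A : ValuationSubring Qb) (hA : A.LiesOverPrime p) (htop : aug ρbar.ρ A = ⊤)
    (b : Module.Basis (Fin 2) k ρbar.V) :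
    ssGK ρbar.ρ A p ≤ A.decompositionSubgroup ℚ ∧
    (∀ d ∈ A.decompositionSubgroup ℚ, ∀ g ∈ ssGK ρbar.ρ A p, d * g * d⁻¹ ∈ ssGK ρbar.ρ A p) ∧
    (∀ g ∈ ssGK ρbar.ρ A p, toMatRes ρbar b g = 1) ∧
    (∀ g ∈ ssGK ρbar.ρ A p, ∀ μ : Qb, μ ^ p = 1 → g μ = μ) ∧
    (((ssGK ρbar.ρ A p).relIndex (A.decompositionSubgroup ℚ) : ℕ) : k) ≠ 0 ∧
    (∀ X : Matrix (Fin 2) (Fin 2) k, X.trace = 0 →
      (∀ σ ∈ A.decompositionSubgroup ℚ, toMatRes ρbar b σ * X = X * toMatRes ρbar b σ) →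
      X = 0) := by
  have hchar : CharP k p := Fermat.Agent.GP.Flat.CasesFrozen.charP_of_detIsCyclotomic ρbar p hdet
  have h2 : (2 : k) ≠ 0 := Fermat.Agent.GP.Loc.GlobH0.two_ne_zero_of_detIsCyclotomic ρbar p hp2 hdet
  have hL := levelTwo_of_isFlatAt ρbar p hp2 hdet hflat hsplit A hA htop
  exact ⟨ssGK_le, fun d hd g hg => conj_mem_ssGK hd hg,
    fun g hg => toMatRes_eq_one_of_mem b hg, fun g hg μ hμ => apply_root_of_mem hg hμ,
    relIndex_ssGK_ne_zero_of_levelTwo hp2 hL,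
    fun X htr hc => eq_zero_of_commute_toMatRes h2 hL b X htr hc⟩

end Frame

end Fermat.Agent.GP.Flat.SSGK
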