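/-
GATE-P (S56, zero-regret) / [P-FLAT] leaf S56-FLAT-SSHLC (helper44), abstract part = node (F) of
helper50's SSASM split (board 4175).

**From a subgroup `Z` of matrix-valued cocycle FUNCTIONS to a local condition inside `Hlc 𝒰 M 1`.**

Abstract local model `(Γ, 𝒰, M, R, emb)` (the shape of helper79 `StrictOrdHlc`, without `hut`):
* `Γ` a group with level system `𝒰`            (pinned: `Γ = Gq p`, `𝒰 = levelQ p`),
* `M : Rep (ZMod p) Γ` discrete                (pinned: `Rep.res (localGaloisToGlobal p) N`),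
* `R : Γ →* M₂(k)`                             (pinned: `(toMatRes ρbar b).comp (localGaloisToGlobal p)`),
* `emb : M →+ M₂(k)` injective, onto the trace-zero matrices (at least), intertwining `M.ρ` with
  conjugation by `R` — helper11's MODEL BINDERS (`GP/Tan/SelmerGlobal.lean`), localised.

For an additive subgroup `Z ≤ (Γ → M₂(k))` of matrix-valued functions (think: the level-constant
trace-zero cocycle functions allowed by a local deformation condition):

* `Lp 𝒰 M emb Z : Submodule (ZMod p) (Hlc 𝒰 M 1)` — the classes of the level-constant cocycles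
  `w : Γ → M` with `emb ∘ w ∈ Z`;
* `mem_Lp_of_emb_mem`   — MEMBERSHIP: `emb ∘ w ∈ Z ⟹ [w] ∈ Lp`;
* `Hlc1π_eq_of_sub_eq_cob` — two cocycles whose matrix functions differ by
  `γ ↦ R γ X R γ⁻¹ - X`, `tr X = 0`, have the same class;
* **`card_Lp_le_of_fibres`** — COUNT, fibre form: a map `φ : Z → T` into a finite type whose fibres
  lie in cosets of the matrix coboundaries gives `#Lp ≤ #T`  (so `[Z : B] ≤ C ⟹ #Lp ≤ C`);
* `card_Lp_le_of_card_le` — COUNT, cardinality form: `Z` finite containing the matrix coboundaries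
  `B`, `#Z ≤ C * #B ⟹ #Lp ≤ C`;
* `finite_Lp`.

Everything is `Mathlib + GC/Prof/LowMap` only.  The pinned instance (`Γ = Gq q`, transport of
`locRes`) is in `GP/Flat/SSHlcPinned.lean`.
-/
import Fermat.Agent.GC.Prof.LowMap

set_option autoImplicit false
set_option linter.unusedSectionVars false

namespace Fermat.Agent.GP.Flat.SSHlc

open Fermat.Agent.GC.Prof groupCohomology Matrix

noncomputable section

variable {p : ℕ} [Fact p.Prime]
variable {Γ : Type} [Group Γ] (𝒰 : LevelSystem Γ)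
variable {k : Type} [CommRing k]
variable (R : Γ →* Matrix (Fin 2) (Fin 2) k)
variable (M : Rep (ZMod p) Γ) [IsDiscrete 𝒰 M]
variable (emb : M →+ Matrix (Fin 2) (Fin 2) k)

/-- helper11's MODEL BINDERS, localised to `(Γ, R)`. -/
structure LocModel : Prop where
  hinj : Function.Injective emb
  hsurj : ∀ X : Matrix (Fin 2) (Fin 2) k, X.trace = 0 → ∃ x : M, emb x = X
  hact : ∀ (γ : Γ) (x : M), emb (M.ρ γ x) = R γ * emb x * R γ⁻¹

/-- the matrix coboundary `γ ↦ R γ X R γ⁻¹ - X`. -/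
def cobFun (X : Matrix (Fin 2) (Fin 2) k) : Γ → Matrix (Fin 2) (Fin 2) k :=
  fun γ => R γ * X * R γ⁻¹ - X

@[simp] theorem cobFun_apply (X : Matrix (Fin 2) (Fin 2) k) (γ : Γ) :
    cobFun R X γ = R γ * X * R γ⁻¹ - X := rfl

/-- `c` is a matrix coboundary of a trace-zero matrix. -/
def IsCob (c : Γ → Matrix (Fin 2) (Fin 2) k) : Prop :=
  ∃ X : Matrix (Fin 2) (Fin 2) k, X.trace = 0 ∧ ∀ γ, c γ = R γ * X * R γ⁻¹ - X

/-- the additive subgroup of matrix coboundaries of trace-zero matrices. -/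
def cobGrp : AddSubgroup (Γ → Matrix (Fin 2) (Fin 2) k) where
  carrier := {c | IsCob R c}
  zero_mem' := ⟨0, by simp, fun γ => by simp⟩
  add_mem' := by
    rintro c c' ⟨X, hX, hc⟩ ⟨X', hX', hc'⟩
    refine ⟨X + X', by rw [Matrix.trace_add, hX, hX', add_zero], fun γ => ?_⟩
    rw [Pi.add_apply, hc γ, hc' γ, Matrix.mul_add, Matrix.add_mul]
    abel
  neg_mem' := by
    rintro c ⟨X, hX, hc⟩
    refine ⟨-X, by rw [Matrix.trace_neg, hX, neg_zero], fun γ => ?_⟩
    rw [Pi.neg_apply, hc γ, Matrix.mul_neg, Matrix.neg_mul]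
    abel

theorem mem_cobGrp {c : Γ → Matrix (Fin 2) (Fin 2) k} : c ∈ cobGrp R ↔ IsCob R c := Iff.rfl

variable {R M emb}

/-- the matrix function of a cochain. -/
def embFun (emb : M →+ Matrix (Fin 2) (Fin 2) k) (w : Γ → M) : Γ → Matrix (Fin 2) (Fin 2) k :=
  fun γ => emb (w γ)

@[simp] theorem embFun_apply (w : Γ → M) (γ : Γ) : embFun emb w γ = emb (w γ) := rfl

theorem embFun_add (w w' : Γ → M) : embFun emb (w + w') = embFun emb w + embFun emb w' := by
  funext γ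
  simp [embFun]

theorem embFun_sub (w w' : Γ → M) : embFun emb (w - w') = embFun emb w - embFun emb w' := by
  funext γ
  simp [embFun]

theorem embFun_zero : embFun emb (0 : Γ → M) = 0 := by
  funext γ
  simp [embFun]

theorem embFun_neg (w : Γ → M) : embFun emb (-w) = -embFun emb w := by
  funext γ
  simp [embFun]

/-- the coboundary of `x`, `γ ↦ ρ γ x - x`, has matrix function `cobFun R (emb x)`. -/
theorem embFun_d₀₁ (h : LocModel R M emb) (x : M) :
    embFun emb ((d₀₁ M).hom x) = cobFun R (emb x) := by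
  funext γ
  rw [embFun_apply, d₀₁_hom_apply, map_sub, h.hact, cobFun_apply]

/-- **Two level-constant cocycles whose matrix functions differ by a matrix coboundary of a
trace-zero matrix have the same class.** -/
theorem Hlc1π_eq_of_sub_isCob (h : LocModel R M emb) (w w' : lcCocycles₁ 𝒰 M)
    (hc : IsCob R (embFun emb (w : Γ → M) - embFun emb (w' : Γ → M))) :
    Hlc1π 𝒰 M w = Hlc1π 𝒰 M w' := by
  obtain ⟨X, hX, hXc⟩ := hc
  obtain ⟨x₀, hx₀⟩ := h.hsurj X hX
  have hb : (d₀₁ M).hom x₀ ∈ coboundaries₁ M := ⟨x₀, rfl⟩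
  have hww : ((w - w' : lcCocycles₁ 𝒰 M) : Γ → M) = (d₀₁ M).hom x₀ := by
    funext γ
    apply h.hinj
    have h1 := hXc γ
    rw [Pi.sub_apply, embFun_apply, embFun_apply] at h1
    have h2 := congrFun (embFun_d₀₁ h x₀) γ
    rw [embFun_apply, cobFun_apply, hx₀] at h2
    show emb ((w : Γ → M) γ - (w' : Γ → M) γ) = _
    rw [map_sub, h1, h2]
  have h0 : Hlc1π 𝒰 M (w - w') = 0 := by
    rw [Hlc1π_eq_zero_iff, hww]
    exact hb
  rw [map_sub, sub_eq_zero] at h0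
  exact h0

variable (M emb)

/-- The additive subgroup of level-constant cocycles whose matrix function lies in `Z`. -/
def cocIn (Z : AddSubgroup (Γ → Matrix (Fin 2) (Fin 2) k)) : AddSubgroup (lcCocycles₁ 𝒰 M) where
  carrier := {w | embFun emb (w : Γ → M) ∈ Z}
  zero_mem' := by
    show embFun emb ((0 : lcCocycles₁ 𝒰 M) : Γ → M) ∈ Z
    rw [Submodule.coe_zero, embFun_zero]
    exact Z.zero_mem
  add_mem' := by
    intro w w' hw hw'
    show embFun emb ((w + w' : lcCocycles₁ 𝒰 M) : Γ → M) ∈ Z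
    rw [Submodule.coe_add, embFun_add]
    exact Z.add_mem hw hw'
  neg_mem' := by
    intro w hw
    show embFun emb ((-w : lcCocycles₁ 𝒰 M) : Γ → M) ∈ Z
    rw [Submodule.coe_neg, embFun_neg]
    exact Z.neg_mem hw

theorem mem_cocIn {Z : AddSubgroup (Γ → Matrix (Fin 2) (Fin 2) k)} {w : lcCocycles₁ 𝒰 M} :
    w ∈ cocIn 𝒰 M emb Z ↔ embFun emb (w : Γ → M) ∈ Z := Iff.rfl

/-- **The local condition** `L(Z) ⊆ Hlc 𝒰 M 1`: classes of the level-constant cocycles `w` with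
`emb ∘ w ∈ Z`. -/
def Lp (Z : AddSubgroup (Γ → Matrix (Fin 2) (Fin 2) k)) : Submodule (ZMod p) (Hlc 𝒰 M 1) :=
  AddSubgroup.toZModSubmodule p ((cocIn 𝒰 M emb Z).map (Hlc1π 𝒰 M).toAddMonoidHom)

theorem mem_Lp {Z : AddSubgroup (Γ → Matrix (Fin 2) (Fin 2) k)} {x : Hlc 𝒰 M 1} :
    x ∈ Lp 𝒰 M emb Z ↔
      ∃ w : lcCocycles₁ 𝒰 M, embFun emb (w : Γ → M) ∈ Z ∧ Hlc1π 𝒰 M w = x := by
  show x ∈ (cocIn 𝒰 M emb Z).map (Hlc1π 𝒰 M).toAddMonoidHom ↔ _
  rw [AddSubgroup.mem_map]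
  rfl

/-- **MEMBERSHIP.** -/
theorem mem_Lp_of_emb_mem {Z : AddSubgroup (Γ → Matrix (Fin 2) (Fin 2) k)}
    (w : lcCocycles₁ 𝒰 M) (hw : embFun emb (w : Γ → M) ∈ Z) : Hlc1π 𝒰 M w ∈ Lp 𝒰 M emb Z :=
  (mem_Lp 𝒰 M emb).2 ⟨w, hw, rfl⟩

/-- monotonicity in `Z`. -/
theorem Lp_mono {Z Z' : AddSubgroup (Γ → Matrix (Fin 2) (Fin 2) k)} (hZ : Z ≤ Z') :
    Lp 𝒰 M emb Z ≤ Lp 𝒰 M emb Z' := by
  intro x hx
  obtain ⟨w, hw, rfl⟩ := (mem_Lp 𝒰 M emb).1 hx
  exact mem_Lp_of_emb_mem 𝒰 M emb w (hZ hw)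

variable {M emb}

/-- **COUNT, fibre form.**  If `φ : Z → T` (`T` finite) has its fibres inside cosets of the matrix
coboundaries of trace-zero matrices, then `#L(Z) ≤ #T`. -/
theorem card_Lp_le_of_fibres (h : LocModel R M emb)
    (Z : AddSubgroup (Γ → Matrix (Fin 2) (Fin 2) k)) {T : Type*} [Finite T] (φ : Z → T)
    (hφ : ∀ c c' : Z, φ c = φ c' →
      IsCob R ((c : Γ → Matrix (Fin 2) (Fin 2) k) - (c' : Γ → Matrix (Fin 2) (Fin 2) k))) :
    Nat.card (Lp 𝒰 M emb Z) ≤ Nat.card T := by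
  classical
  have hrep : ∀ x : Lp 𝒰 M emb Z,
      ∃ w : lcCocycles₁ 𝒰 M, embFun emb (w : Γ → M) ∈ Z ∧ Hlc1π 𝒰 M w = x.1 :=
    fun x => (mem_Lp 𝒰 M emb).1 x.2
  choose rep hrepZ hrepx using hrep
  let ψ : Lp 𝒰 M emb Z → T := fun x => φ ⟨embFun emb (rep x : Γ → M), hrepZ x⟩
  have hψ : Function.Injective ψ := by
    intro x y hxy
    have h1 := hφ _ _ hxy
    have h2 := Hlc1π_eq_of_sub_isCob 𝒰 h (rep x) (rep y) h1
    apply Subtype.ext
    rw [← hrepx x, ← hrepx y, h2]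
  exact Nat.card_le_card_of_injective ψ hψ

/-- `L(Z)` is finite as soon as some `φ` as above exists. -/
theorem finite_Lp_of_fibres (h : LocModel R M emb)
    (Z : AddSubgroup (Γ → Matrix (Fin 2) (Fin 2) k)) {T : Type*} [Finite T] (φ : Z → T)
    (hφ : ∀ c c' : Z, φ c = φ c' →
      IsCob R ((c : Γ → Matrix (Fin 2) (Fin 2) k) - (c' : Γ → Matrix (Fin 2) (Fin 2) k))) :
    Finite (Lp 𝒰 M emb Z) := by
  classical
  have hrep : ∀ x : Lp 𝒰 M emb Z,
      ∃ w : lcCocycles₁ 𝒰 M, embFun emb (w : Γ → M) ∈ Z ∧ Hlc1π 𝒰 M w = x.1 :=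
    fun x => (mem_Lp 𝒰 M emb).1 x.2
  choose rep hrepZ hrepx using hrep
  let ψ : Lp 𝒰 M emb Z → T := fun x => φ ⟨embFun emb (rep x : Γ → M), hrepZ x⟩
  have hψ : Function.Injective ψ := by
    intro x y hxy
    have h1 := hφ _ _ hxy
    have h2 := Hlc1π_eq_of_sub_isCob 𝒰 h (rep x) (rep y) h1
    apply Subtype.ext
    rw [← hrepx x, ← hrepx y, h2]
  exact Finite.of_injective ψ hψ

/-- **COUNT, quotient form**: `#L(Z) ≤ [Z : Z ⊓ B]`-type bound through the quotient group. -/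
theorem card_Lp_le_card_quotient (h : LocModel R M emb)
    (Z : AddSubgroup (Γ → Matrix (Fin 2) (Fin 2) k))
    [Finite (Z ⧸ (cobGrp R).addSubgroupOf Z)] :
    Nat.card (Lp 𝒰 M emb Z) ≤ Nat.card (Z ⧸ (cobGrp R).addSubgroupOf Z) := by
  refine card_Lp_le_of_fibres 𝒰 h Z (QuotientAddGroup.mk (s := (cobGrp R).addSubgroupOf Z)) ?_
  intro c c' hcc'
  have h1 : -c + c' ∈ (cobGrp R).addSubgroupOf Z := QuotientAddGroup.eq.1 hcc'
  rw [AddSubgroup.mem_addSubgroupOf] at h1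
  have h2 : -((-c + c' : Z) : Γ → Matrix (Fin 2) (Fin 2) k) ∈ cobGrp R := (cobGrp R).neg_mem h1
  have h3 : -((-c + c' : Z) : Γ → Matrix (Fin 2) (Fin 2) k) =
      (c : Γ → Matrix (Fin 2) (Fin 2) k) - (c' : Γ → Matrix (Fin 2) (Fin 2) k) := by
    rw [AddSubgroup.coe_add, AddSubgroup.coe_neg]
    abel
  rw [h3] at h2
  exact h2

/-- **COUNT, cardinality form**: `Z` finite containing the matrix coboundaries `B`, and
`#Z ≤ C * #B`, then `#L(Z) ≤ C`. -/
theorem card_Lp_le_of_card_le (h : LocModel R M emb)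
    (Z : AddSubgroup (Γ → Matrix (Fin 2) (Fin 2) k)) [Finite Z] (hB : cobGrp R ≤ Z) (C : ℕ)
    (hC : Nat.card Z ≤ C * Nat.card (cobGrp R)) :
    Nat.card (Lp 𝒰 M emb Z) ≤ C := by
  classical
  have hfinB : Finite (cobGrp R) :=
    Finite.of_injective (fun b : cobGrp R => (⟨b.1, hB b.2⟩ : Z)) (fun b b' hbb' => by
      apply Subtype.ext
      exact congrArg (fun z : Z => (z : Γ → Matrix (Fin 2) (Fin 2) k)) hbb')
  have hBpos : 0 < Nat.card (cobGrp R) := Nat.card_pos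
  set B' : AddSubgroup Z := (cobGrp R).addSubgroupOf Z with hB'
  have h1 : Nat.card (Lp 𝒰 M emb Z) ≤ Nat.card (Z ⧸ B') := card_Lp_le_card_quotient 𝒰 h Z
  have h2 : Nat.card Z = Nat.card (Z ⧸ B') * Nat.card B' :=
    AddSubgroup.card_eq_card_quotient_mul_card_addSubgroup B'
  have h3 : Nat.card B' = Nat.card (cobGrp R) :=
    Nat.card_congr (AddSubgroup.addSubgroupOfEquivOfLe hB).toEquiv
  rw [h2, h3] at hC
  have h4 : Nat.card (Z ⧸ B') ≤ C := Nat.le_of_mul_le_mul_right hC hBpos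
  exact h1.trans h4

end

end Fermat.Agent.GP.Flat.SSHlc
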