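/-
GATE-P (S56, zero-regret) / [P-FLAT] leaf S56-FLAT-SSHLC (helper44), pinned part = node (F) of
helper50's SSASM split (board 4175); also usable by ORDCOUNT / SORD.

**The `Hlc (levelQ q)` adapter for a local condition given by matrix-valued cocycle FUNCTIONS on
`G_ℚ` (used only on the decomposition group `D_P`, `P = padicPlace q`).**

* `locRes_Hlc1π` (any `Cone.LocalData`): the localisation of the class of a level-constant cocycle
  `z : G → M` at `v` is the class of `τ ↦ z (r_v τ)`;  `HlcRes_Hlc1π` the same for `HlcRes`;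
* local model at `q` (`Γ = Gq q`, `𝒰 = levelQ q`, `M = Rep.res (localGaloisToGlobal q) N`):
  `N : Rep (ZMod p) G_ℚ`, `emb : N →+ M₂(k)` with helper11's MODEL BINDERS (`GlobModel`),
  `ZD ≤ (G_ℚ → M₂(k))` an additive subgroup of matrix functions;
  `Lq q N emb ZD : Submodule (ZMod p) (Hlc (levelQ q) (Rep.res (localGaloisToGlobal q) N) 1)`,
  `HlcRes_mem_Lq` (membership transport), `card_Lq_le` / `card_Lq_le'` (count), `finite_Lq`;
* pinned model (`helper59 GP/GW/Model.lean`), `v : (locDataQ S).ι`: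
  `LpPinned S N emb v ZD : Submodule (ZMod p) (Hlc ((locDataQ S).𝒰v v) (Rep.res ((locDataQ S).r v) N) 1)`
  (this type is `Hloc S N v 1`, so `LpPinned` is a legal value of `L v` in `selmerGrp S N L`);
* **`locRes_mem_LpPinned`** — MEMBERSHIP TRANSPORT: a global level-constant cocycle `z` with
  `emb ∘ z ∈ ZD` has `locRes (locDataQ S) N 1 [z] v ∈ LpPinned`;
* **`card_LpPinned_le`** — COUNT: `φ : ZD → T`, `T` finite, members of `ZD` in the same fibre of `φ`
  differ ON `D_P` by a matrix coboundary of a trace-zero matrix ⟹ `#LpPinned ≤ #T`;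
  `card_LpPinned_le'` the same with the hypothesis stated on `Gq q` through `localGaloisToGlobal q`;
* `finite_LpPinned`.
-/
import Fermat.Agent.GP.Flat.SSHlc
import Fermat.Agent.GC.PT.LocDataQ
import Fermat.Agent.GC.Local.KrasnerDec

set_option autoImplicit false
set_option linter.unusedSectionVars false

namespace Fermat.Agent.GP.Flat.SSHlcPinned

open Fermat.Agent.GC.Prof Fermat.Agent.GC.Prof.Cone Fermat.Agent.GC.PT.LocDataQ
open Fermat.Agent.GC.Places Fermat.Agent.GC.Local.KR Fermat.Agent.GC.C0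
open CategoryTheory Matrix

noncomputable section

/-! ### Restriction / localisation on `Hlc1π` representatives -/

section Abstract

universe u

variable {k G H : Type u} [CommRing k] [Group G] [Group H]
variable {𝒰 : LevelSystem G} {𝒱 : LevelSystem H}

/-- the restriction of a level-constant cocycle along a continuous homomorphism. -/
theorem comp_mem_lcCocycles₁ {f : G →* H} (hf : IsContHom 𝒰 𝒱 f) (A : Rep.{u} k H)
    [IsDiscrete 𝒱 A] [IsDiscrete 𝒰 (Rep.res f A)] (z : lcCocycles₁ 𝒱 A) :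
    (fun g : G => (z : H → A) (f g)) ∈ lcCocycles₁ 𝒰 (Rep.res f A) :=
  pull_mem_lcCocycles₁ hf (𝟙 (Rep.res f A)) z

/-- **`HlcRes` on `Hlc1π` representatives**: the class of `g ↦ z (f g)`. -/
theorem HlcRes_Hlc1π {f : G →* H} (hf : IsContHom 𝒰 𝒱 f) (A : Rep.{u} k H)
    [IsDiscrete 𝒱 A] [IsDiscrete 𝒰 (Rep.res f A)] (z : lcCocycles₁ 𝒱 A) :
    HlcRes hf A 1 (Hlc1π 𝒱 A z) =
      Hlc1π 𝒰 (Rep.res f A) ⟨fun g : G => (z : H → A) (f g), comp_mem_lcCocycles₁ hf A z⟩ := by
  unfold HlcRes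
  rw [HlcPull_Hlc1π]
  rfl

variable (L : LocalData 𝒱) (M : Rep.{u} k H) [IsDiscrete 𝒱 M]

/-- **`locRes` on `Hlc1π` representatives**: the class of `τ ↦ z (r_v τ)`. -/
theorem locRes_Hlc1π (z : lcCocycles₁ 𝒱 M) (v : L.ι) :
    locRes L M 1 (Hlc1π 𝒱 M z) v =
      Hlc1π (L.𝒰v v) (Rep.res (L.r v) M)
        ⟨fun τ : L.Gv v => (z : H → M) (L.r v τ), comp_mem_lcCocycles₁ (L.cont v) M z⟩ := by
  rw [locRes_apply]
  exact HlcRes_Hlc1π (L.cont v) M z

end Abstract

/-! ### The local model at `q` -/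

section Local

variable {p : ℕ} [Fact p.Prime]
variable (N : Rep (ZMod p) GQ)
variable {k : Type} [CommRing k] (Rg : GQ →* Matrix (Fin 2) (Fin 2) k)
variable (emb : N →+ Matrix (Fin 2) (Fin 2) k)

/-- helper11's MODEL BINDERS (`GP/Tan/SelmerGlobal.lean`), with `Rg = toMatRes ρbar b`. -/
structure GlobModel : Prop where
  hinj : Function.Injective emb
  hsurj : ∀ X : Matrix (Fin 2) (Fin 2) k, X.trace = 0 → ∃ x : N, emb x = X
  hact : ∀ (σ : GQ) (x : N), emb (N.ρ σ x) = Rg σ * emb x * Rg σ⁻¹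

variable (q : ℕ) [Fact q.Prime]

variable {N Rg emb}

/-- the global MODEL BINDERS restrict to the local model at `q`. -/
theorem locModel_of_globModel (h : GlobModel N Rg emb) :
    SSHlc.LocModel (Rg.comp (localGaloisToGlobal q)) (Rep.res (localGaloisToGlobal q) N) emb where
  hinj := h.hinj
  hsurj := h.hsurj
  hact := fun γ x => by
    have := h.hact (localGaloisToGlobal q γ) x
    show emb (N.ρ (localGaloisToGlobal q γ) x) =
      Rg (localGaloisToGlobal q γ) * emb x * Rg (localGaloisToGlobal q γ⁻¹)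
    rw [map_inv (localGaloisToGlobal q) γ]
    exact this

variable (k)

/-- restriction of matrix functions on `G_ℚ` to `Gq q`. -/
def resFun : (GQ → Matrix (Fin 2) (Fin 2) k) →+ (Gq q → Matrix (Fin 2) (Fin 2) k) where
  toFun c := fun τ => c (localGaloisToGlobal q τ)
  map_zero' := rfl
  map_add' _ _ := rfl

variable {k}

@[simp] theorem resFun_apply (c : GQ → Matrix (Fin 2) (Fin 2) k) (τ : Gq q) :
    resFun k q c τ = c (localGaloisToGlobal q τ) := rfl

/-- the local subgroup of matrix functions: restrictions to `Gq q` of the members of `ZD`. -/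
def Zloc (ZD : AddSubgroup (GQ → Matrix (Fin 2) (Fin 2) k)) :
    AddSubgroup (Gq q → Matrix (Fin 2) (Fin 2) k) :=
  ZD.map (resFun k q)

theorem resFun_mem_Zloc {ZD : AddSubgroup (GQ → Matrix (Fin 2) (Fin 2) k)}
    {c : GQ → Matrix (Fin 2) (Fin 2) k} (hc : c ∈ ZD) : resFun k q c ∈ Zloc q ZD :=
  ⟨c, hc, rfl⟩

variable (N emb)
variable [IsDiscrete (levelQ q) (Rep.res (localGaloisToGlobal q) N)]

/-- **The local condition at `q`** attached to a subgroup `ZD` of matrix functions on `G_ℚ`. -/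
def Lq (ZD : AddSubgroup (GQ → Matrix (Fin 2) (Fin 2) k)) :
    Submodule (ZMod p) (Hlc (levelQ q) (Rep.res (localGaloisToGlobal q) N) 1) :=
  SSHlc.Lp (p := p) (levelQ q) (Rep.res (localGaloisToGlobal q) N) emb (Zloc q ZD)

/-- **MEMBERSHIP TRANSPORT** for `HlcRes`: `𝒱` any level system on `G_ℚ` for which
`localGaloisToGlobal q` is continuous and `N` discrete. -/
theorem HlcRes_mem_Lq {𝒱 : LevelSystem GQ} (hf : IsContHom (levelQ q) 𝒱 (localGaloisToGlobal q))
    [IsDiscrete 𝒱 N] (ZD : AddSubgroup (GQ → Matrix (Fin 2) (Fin 2) k))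
    (z : lcCocycles₁ 𝒱 N) (hz : (fun σ : GQ => emb ((z : GQ → N) σ)) ∈ ZD) :
    HlcRes hf N 1 (Hlc1π 𝒱 N z) ∈ Lq N emb q ZD := by
  rw [HlcRes_Hlc1π]
  refine SSHlc.mem_Lp_of_emb_mem (levelQ q) (Rep.res (localGaloisToGlobal q) N) emb _ ?_
  exact ⟨_, hz, rfl⟩

variable {N emb}

/-- **COUNT** (hypothesis on `Gq q`). -/
theorem card_Lq_le' (h : GlobModel N Rg emb)
    (ZD : AddSubgroup (GQ → Matrix (Fin 2) (Fin 2) k)) {T : Type*} [Finite T] (φ : ZD → T)
    (hφ : ∀ c c' : ZD, φ c = φ c' → ∃ X : Matrix (Fin 2) (Fin 2) k, X.trace = 0 ∧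
      ∀ τ : Gq q,
        (c : GQ → Matrix (Fin 2) (Fin 2) k) (localGaloisToGlobal q τ) -
          (c' : GQ → Matrix (Fin 2) (Fin 2) k) (localGaloisToGlobal q τ) =
        Rg (localGaloisToGlobal q τ) * X * Rg (localGaloisToGlobal q τ)⁻¹ - X) :
    Nat.card (Lq N emb q ZD) ≤ Nat.card T ∧ Finite (Lq N emb q ZD) := by
  classical
  have hpre : ∀ c : Zloc q ZD,
      ∃ d : GQ → Matrix (Fin 2) (Fin 2) k, d ∈ ZD ∧ resFun k q d = c.1 :=
    fun c => AddSubgroup.mem_map.1 c.2
  choose pre hpreZ hpreR using hpre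
  let φ' : Zloc q ZD → T := fun c => φ ⟨pre c, hpreZ c⟩
  have hφ' : ∀ c c' : Zloc q ZD, φ' c = φ' c' →
      SSHlc.IsCob (Rg.comp (localGaloisToGlobal q))
        ((c : Gq q → Matrix (Fin 2) (Fin 2) k) - (c' : Gq q → Matrix (Fin 2) (Fin 2) k)) := by
    intro c c' hcc'
    obtain ⟨X, hX, hXc⟩ := hφ _ _ hcc'
    refine ⟨X, hX, fun τ => ?_⟩
    have h1 := hXc τ
    have e1 : c.1 τ = pre c (localGaloisToGlobal q τ) := by
      rw [← hpreR c]
      rfl
    have e2 : c'.1 τ = pre c' (localGaloisToGlobal q τ) := by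
      rw [← hpreR c']
      rfl
    rw [Pi.sub_apply, e1, e2]
    show _ = Rg (localGaloisToGlobal q τ) * X * Rg (localGaloisToGlobal q τ⁻¹) - X
    rw [map_inv (localGaloisToGlobal q) τ]
    exact h1
  exact ⟨SSHlc.card_Lp_le_of_fibres (levelQ q) (locModel_of_globModel q h) (Zloc q ZD) φ' hφ',
    SSHlc.finite_Lp_of_fibres (levelQ q) (locModel_of_globModel q h) (Zloc q ZD) φ' hφ'⟩

/-- **COUNT** (hypothesis on the decomposition group `D_P`, `P = padicPlace q`, in the FROZEN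
language). -/
theorem card_Lq_le (h : GlobModel N Rg emb)
    (ZD : AddSubgroup (GQ → Matrix (Fin 2) (Fin 2) k)) {T : Type*} [Finite T] (φ : ZD → T)
    (hφ : ∀ c c' : ZD, φ c = φ c' → ∃ X : Matrix (Fin 2) (Fin 2) k, X.trace = 0 ∧
      ∀ σ ∈ (padicPlace q).decompositionSubgroup ℚ,
        (c : GQ → Matrix (Fin 2) (Fin 2) k) σ - (c' : GQ → Matrix (Fin 2) (Fin 2) k) σ =
          Rg σ * X * Rg σ⁻¹ - X) :
    Nat.card (Lq N emb q ZD) ≤ Nat.card T ∧ Finite (Lq N emb q ZD) := by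
  refine card_Lq_le' q h ZD φ ?_
  intro c c' hcc'
  obtain ⟨X, hX, hXc⟩ := hφ c c' hcc'
  exact ⟨X, hX, fun τ => hXc _ (localGaloisToGlobal_mem_decompositionSubgroup q τ)⟩

end Local

/-! ### The pinned model -/

section Pinned

/-- The residue characteristic of a member of `S` is prime. -/
local instance factPrimeOfPrimesSSHlc (q : Nat.Primes) : Fact ((q : ℕ).Prime) := ⟨q.2⟩

variable {p : ℕ} [Fact p.Prime] (S : Finset Nat.Primes)
variable (N : Rep (ZMod p) GQ) [IsDiscrete (levelS S) N]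
variable {k : Type} [CommRing k] {Rg : GQ →* Matrix (Fin 2) (Fin 2) k}
variable (emb : N →+ Matrix (Fin 2) (Fin 2) k)

/-- the prime of a place of `locDataQ S`. -/
abbrev pr (v : (locDataQ S).ι) : Nat.Primes := Subtype.val (show ↥S from v)

/-- **The local condition in the pinned model** attached to a subgroup `ZD` of matrix functions on
`G_ℚ`.  Its type is `Submodule (ZMod p) (Hloc S N v 1)` (`GP/GW/Model.lean`). -/
def LpPinned (v : (locDataQ S).ι) (ZD : AddSubgroup (GQ → Matrix (Fin 2) (Fin 2) k)) :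
    Submodule (ZMod p) (Hlc ((locDataQ S).𝒰v v) (Rep.res ((locDataQ S).r v) N) 1) :=
  @Lq p _ N k _ emb (pr S v : ℕ) _ (LocalData.isDiscrete_res (locDataQ S) v N) ZD

/-- **MEMBERSHIP TRANSPORT**: the localisation at `v` of the class of a global level-constant
cocycle `z` with `emb ∘ z ∈ ZD` lies in `LpPinned`. -/
theorem locRes_mem_LpPinned (v : (locDataQ S).ι)
    (ZD : AddSubgroup (GQ → Matrix (Fin 2) (Fin 2) k)) (z : lcCocycles₁ (levelS S) N)
    (hz : (fun σ : GQ => emb ((z : GQ → N) σ)) ∈ ZD) :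
    locRes (locDataQ S) N 1 (Hlc1π (levelS S) N z) v ∈ LpPinned S N emb v ZD := by
  rw [locRes_apply]
  exact @HlcRes_mem_Lq p _ N k _ emb (pr S v : ℕ) _ (LocalData.isDiscrete_res (locDataQ S) v N)
    (levelS S) ((locDataQ S).cont v) _ ZD z hz

variable {N emb}

/-- **COUNT** (hypothesis on `Gq q`, `q = pr S v`). -/
theorem card_LpPinned_le' (h : GlobModel N Rg emb) (v : (locDataQ S).ι)
    (ZD : AddSubgroup (GQ → Matrix (Fin 2) (Fin 2) k)) {T : Type*} [Finite T] (φ : ZD → T)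
    (hφ : ∀ c c' : ZD, φ c = φ c' → ∃ X : Matrix (Fin 2) (Fin 2) k, X.trace = 0 ∧
      ∀ τ : Gq (pr S v : ℕ),
        (c : GQ → Matrix (Fin 2) (Fin 2) k) (localGaloisToGlobal (pr S v : ℕ) τ) -
          (c' : GQ → Matrix (Fin 2) (Fin 2) k) (localGaloisToGlobal (pr S v : ℕ) τ) =
        Rg (localGaloisToGlobal (pr S v : ℕ) τ) * X *
          Rg (localGaloisToGlobal (pr S v : ℕ) τ)⁻¹ - X) :
    Nat.card (LpPinned S N emb v ZD) ≤ Nat.card T :=
  (@card_Lq_le' p _ N k _ Rg emb (pr S v : ℕ) _ (LocalData.isDiscrete_res (locDataQ S) v N) h ZD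
    T _ φ hφ).1

/-- **COUNT** (hypothesis on the decomposition group `D_P`, `P = padicPlace q`, in the FROZEN
language): two members of `ZD` in the same fibre of `φ` differ on `D_P` by the matrix coboundary
of a trace-zero matrix. -/
theorem card_LpPinned_le (h : GlobModel N Rg emb) (v : (locDataQ S).ι)
    (ZD : AddSubgroup (GQ → Matrix (Fin 2) (Fin 2) k)) {T : Type*} [Finite T] (φ : ZD → T)
    (hφ : ∀ c c' : ZD, φ c = φ c' → ∃ X : Matrix (Fin 2) (Fin 2) k, X.trace = 0 ∧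
      ∀ σ ∈ (padicPlace (pr S v : ℕ)).decompositionSubgroup ℚ,
        (c : GQ → Matrix (Fin 2) (Fin 2) k) σ - (c' : GQ → Matrix (Fin 2) (Fin 2) k) σ =
          Rg σ * X * Rg σ⁻¹ - X) :
    Nat.card (LpPinned S N emb v ZD) ≤ Nat.card T :=
  (@card_Lq_le p _ N k _ Rg emb (pr S v : ℕ) _ (LocalData.isDiscrete_res (locDataQ S) v N) h ZD
    T _ φ hφ).1

/-- finiteness of `LpPinned` under the hypotheses of `card_LpPinned_le`. -/
theorem finite_LpPinned (h : GlobModel N Rg emb) (v : (locDataQ S).ι)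
    (ZD : AddSubgroup (GQ → Matrix (Fin 2) (Fin 2) k)) {T : Type*} [Finite T] (φ : ZD → T)
    (hφ : ∀ c c' : ZD, φ c = φ c' → ∃ X : Matrix (Fin 2) (Fin 2) k, X.trace = 0 ∧
      ∀ σ ∈ (padicPlace (pr S v : ℕ)).decompositionSubgroup ℚ,
        (c : GQ → Matrix (Fin 2) (Fin 2) k) σ - (c' : GQ → Matrix (Fin 2) (Fin 2) k) σ =
          Rg σ * X * Rg σ⁻¹ - X) :
    Finite (LpPinned S N emb v ZD) :=
  (@card_Lq_le p _ N k _ Rg emb (pr S v : ℕ) _ (LocalData.isDiscrete_res (locDataQ S) v N) h ZD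
    T _ φ hφ).2

end Pinned

end

end Fermat.Agent.GP.Flat.SSHlcPinned
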