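/-
GATE-P / S56 [P-FLAT] node S56-FLAT-LOCALCOND-BASIS (helper36).

**Change of basis for helper35's `LocalCond` contract** (`GP/Core/LocalCond`), so that a local adapter
may assume WLOG that the basis `b` of `ρbar.V` is adapted to the local shape of `ρbar`.

`b b'` two bases of `ρbar.V`, `g ∈ GL₂(k)` with `toMatRes ρbar b' σ = g · toMatRes ρbar b σ · g⁻¹`
(`exists_gl_toMatRes`), `emb' := (g · g⁻¹) ∘ emb` (`conjAdd g`):

* `localMem_of_basis`, `localCond_of_basis` : `LocalCond ρbar b' p N emb' q P e → LocalCond ρbar b p N emb q P e`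
  (conjugate the lift `t` by the constant matrix `g`: helper35 `conjMat`, helper11 `constGL`,
  `tanCocycle_conjMat_constGL`);
* `globModel_of_basis` : helper11's MODEL BINDERS (`SSHlcPinned.GlobModel`) transport to `(b', emb')`;
* `exists_adapted_basis` : for the level-two shape (`SSGK.LevelTwo ρbar p A`) there is a basis `b'` in which
  inertia is LITERALLY `!![c, 0; 0, c ^ p]`, a Frobenius is `!![0, 1; x, 0]`, and `D_A` is monomial
  (the matrices of helper50's `SSAsm.IsTMap`);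
* `localCond_of_adapted` : the WLOG statement.
-/
import Mathlib
import Fermat.Agent.GP.Core.LocalCond
import Fermat.Agent.GP.Tan.Linear
import Fermat.Agent.GP.Flat.SSHlcPinned
import Fermat.Agent.GP.Flat.SSGK

set_option autoImplicit false
set_option linter.unusedSectionVars false

namespace Fermat.Agent.GP.Flat.LocalCondBasis

open IsLocalRing Fermat.Agent.S53_helper35 Matrix Fermat.Agent.GP.Tan.Cocycle
  Fermat.Agent.GC.Prof Fermat.Agent.GC.Places Fermat.Agent.GC.Local.KR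
  Fermat.Agent.GP.Core Fermat.Agent.GP.Tan.Linear Fermat.Agent.GP.Flat.SSHlcPinned
  Fermat.Agent.GP.Flat.SSGK

/-! ### conjugation on `M₂(k)` -/

section Conj

variable {k : Type} [Field k]

/-- `X ↦ g X g⁻¹` as an additive map. -/
noncomputable def conjAdd (g : GL (Fin 2) k) :
    Matrix (Fin 2) (Fin 2) k →+ Matrix (Fin 2) (Fin 2) k where
  toFun X := (g : Matrix (Fin 2) (Fin 2) k) * X * ((g⁻¹ : GL (Fin 2) k) : Matrix (Fin 2) (Fin 2) k)
  map_zero' := by rw [Matrix.mul_zero, Matrix.zero_mul]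
  map_add' X Y := by rw [Matrix.mul_add, Matrix.add_mul]

theorem conjAdd_apply (g : GL (Fin 2) k) (X : Matrix (Fin 2) (Fin 2) k) :
    conjAdd g X = (g : Matrix (Fin 2) (Fin 2) k) * X *
      ((g⁻¹ : GL (Fin 2) k) : Matrix (Fin 2) (Fin 2) k) := rfl

theorem gl_inv_mul (g : GL (Fin 2) k) :
    ((g⁻¹ : GL (Fin 2) k) : Matrix (Fin 2) (Fin 2) k) * (g : Matrix (Fin 2) (Fin 2) k) = 1 := by
  rw [← Units.val_mul, inv_mul_cancel, Units.val_one]

theorem gl_mul_inv (g : GL (Fin 2) k) :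
    (g : Matrix (Fin 2) (Fin 2) k) * ((g⁻¹ : GL (Fin 2) k) : Matrix (Fin 2) (Fin 2) k) = 1 := by
  rw [← Units.val_mul, mul_inv_cancel, Units.val_one]

theorem gl_inv_mul_cancel_left (g : GL (Fin 2) k) (Y : Matrix (Fin 2) (Fin 2) k) :
    ((g⁻¹ : GL (Fin 2) k) : Matrix (Fin 2) (Fin 2) k) * ((g : Matrix (Fin 2) (Fin 2) k) * Y) = Y := by
  rw [← Matrix.mul_assoc, gl_inv_mul, Matrix.one_mul]

theorem conjAdd_injective (g : GL (Fin 2) k) : Function.Injective (conjAdd g) := by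
  intro X Y h
  rw [conjAdd_apply, conjAdd_apply] at h
  have h1 := congrArg (fun Z => ((g⁻¹ : GL (Fin 2) k) : Matrix (Fin 2) (Fin 2) k) * Z *
    (g : Matrix (Fin 2) (Fin 2) k)) h
  simp only [Matrix.mul_assoc] at h1
  rw [gl_inv_mul, Matrix.mul_one, Matrix.mul_one, ← Matrix.mul_assoc, ← Matrix.mul_assoc,
    gl_inv_mul, Matrix.one_mul, Matrix.one_mul] at h1
  exact h1

theorem trace_conjAdd (g : GL (Fin 2) k) (X : Matrix (Fin 2) (Fin 2) k) :
    (conjAdd g X).trace = X.trace := by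
  rw [conjAdd_apply, Matrix.trace_mul_comm, ← Matrix.mul_assoc, gl_inv_mul, Matrix.one_mul]

theorem conjAdd_inv_conjAdd (g : GL (Fin 2) k) (X : Matrix (Fin 2) (Fin 2) k) :
    conjAdd g (conjAdd g⁻¹ X) = X := by
  rw [conjAdd_apply, conjAdd_apply, inv_inv]
  simp only [Matrix.mul_assoc]
  rw [gl_mul_inv, Matrix.mul_one, ← Matrix.mul_assoc, gl_mul_inv, Matrix.one_mul]

end Conj

/-! ### two bases of `ρbar.V` -/

section Bases

variable {k : Type} [Field k] (ρbar : ResidualGaloisRep k)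
  (b b' : Module.Basis (Fin 2) k ρbar.V)

/-- the change of basis matrix in `GL₂(k)`. -/
noncomputable def basisGL : GL (Fin 2) k :=
  ⟨b'.toMatrix b, b.toMatrix b', b'.toMatrix_mul_toMatrix_flip b, b.toMatrix_mul_toMatrix_flip b'⟩

theorem toMatRes_basisGL (σ : GQ) :
    toMatRes ρbar b' σ = (basisGL ρbar b b' : Matrix (Fin 2) (Fin 2) k) * toMatRes ρbar b σ *
      (((basisGL ρbar b b')⁻¹ : GL (Fin 2) k) : Matrix (Fin 2) (Fin 2) k) := by
  rw [toMatRes_apply, toMatRes_apply]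
  exact (basis_toMatrix_mul_linearMap_toMatrix_mul_basis_toMatrix b' b b' b (ρbar.ρ σ)).symm

/-- two matrix forms of `ρbar` are conjugate. -/
theorem exists_gl_toMatRes : ∃ g : GL (Fin 2) k, ∀ σ : GQ,
    toMatRes ρbar b' σ = (g : Matrix (Fin 2) (Fin 2) k) * toMatRes ρbar b σ *
      ((g⁻¹ : GL (Fin 2) k) : Matrix (Fin 2) (Fin 2) k) :=
  ⟨basisGL ρbar b b', toMatRes_basisGL ρbar b b'⟩

end Bases

/-! ### transport of `LocalCond` -/

section Transport

variable {𝒪 : Type} [CommRing 𝒪] [IsLocalRing 𝒪]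
  (ρbar : ResidualGaloisRep (ResidueField 𝒪))
  (b b' : Module.Basis (Fin 2) (ResidueField 𝒪) ρbar.V)
  (p : ℕ) [Fact p.Prime]
  (N : Rep (ZMod p) S53_helper35.GQ)
  (emb : N →+ Matrix (Fin 2) (Fin 2) (ResidueField 𝒪))
  (g : GL (Fin 2) (ResidueField 𝒪))
  (hg : ∀ σ : S53_helper35.GQ, toMatRes ρbar b' σ =
    (g : Matrix (Fin 2) (Fin 2) (ResidueField 𝒪)) * toMatRes ρbar b σ *
      ((g⁻¹ : GL (Fin 2) (ResidueField 𝒪)) : Matrix (Fin 2) (Fin 2) (ResidueField 𝒪)))

include hg in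
/-- **`LocalMem` in the basis `b'` (with `emb' = g · emb · g⁻¹`) gives `LocalMem` in the basis `b`.** -/
theorem localMem_of_basis (q : ℕ) [Fact q.Prime]
    [IsDiscrete (levelQ q) (Rep.res (localGaloisToGlobal q) N)]
    (P : GaloisRepAdic (DualNumber (ResidueField 𝒪)) → Prop)
    (L : Submodule (ZMod p) (Hlc (levelQ q) (Rep.res (localGaloisToGlobal q) N) 1))
    (h : LocalMem ρbar b' p N ((conjAdd g).comp emb) q P L) :
    LocalMem ρbar b p N emb q P L := by
  intro t ht hfst hρ z hz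
  refine h (conjMat (constGL g) t) (matCont_conjMat (constGL g) ht) ?_ ?_ z ?_
  · refine MonoidHom.ext fun σ => ?_
    rw [rfst_conjMat_constGL, hfst, hg]
  · obtain ⟨ρ, hP, ⟨e1⟩⟩ := hρ
    obtain ⟨e2⟩ := isEquiv_ofMat_conjMat (constGL g) ht
    exact ⟨ρ, hP, ⟨e1.trans e2⟩⟩
  · intro τ
    rw [tanCocycle_conjMat_constGL, ← hz τ]
    rfl

include hg in
/-- **`LocalCond` in the basis `b'` gives `LocalCond` in the basis `b`.** -/
theorem localCond_of_basis (q : ℕ) [Fact q.Prime]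
    [IsDiscrete (levelQ q) (Rep.res (localGaloisToGlobal q) N)]
    (P : GaloisRepAdic (DualNumber (ResidueField 𝒪)) → Prop) (e : ℕ)
    (h : LocalCond ρbar b' p N ((conjAdd g).comp emb) q P e) :
    LocalCond ρbar b p N emb q P e := by
  obtain ⟨L, h1, h2, h3⟩ := h
  exact ⟨L, h1, h2, localMem_of_basis ρbar b b' p N emb g hg q P L h3⟩

include hg in
/-- helper11's MODEL BINDERS transport to `(b', g · emb · g⁻¹)`. -/
theorem globModel_of_basis (h : GlobModel N (toMatRes ρbar b) emb) :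
    GlobModel N (toMatRes ρbar b') ((conjAdd g).comp emb) where
  hinj := (conjAdd_injective g).comp h.hinj
  hsurj := by
    intro X hX
    obtain ⟨x, hx⟩ := h.hsurj (conjAdd g⁻¹ X) (by rw [trace_conjAdd, hX])
    exact ⟨x, by rw [AddMonoidHom.comp_apply, hx, conjAdd_inv_conjAdd]⟩
  hact := by
    intro σ x
    rw [AddMonoidHom.comp_apply, AddMonoidHom.comp_apply, h.hact, hg σ, hg σ⁻¹, conjAdd_apply,
      conjAdd_apply]
    simp only [Matrix.mul_assoc, gl_inv_mul_cancel_left]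

end Transport

/-! ### an adapted basis for the level-two shape -/

section Adapted

variable {k : Type} [Field k] (ρbar : ResidualGaloisRep k) (p : ℕ)
  (A : ValuationSubring (AlgebraicClosure ℚ))

/-- the basis `b'` is adapted to the level-two shape of `ρbar` at `A`: inertia is LITERALLY
`!![c, 0; 0, c ^ p]`, some Frobenius is `!![0, 1; x, 0]`, the decomposition group is monomial. -/
def IsAdapted (b' : Module.Basis (Fin 2) k ρbar.V) : Prop :=
  (∀ s ∈ A.inertiaSubgroupIn ℚ, ∃ c : k,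
    toMatRes ρbar b' s = !![c, 0; 0, c ^ p] ∧ c ^ p ^ 2 = c) ∧
  (∃ s ∈ A.inertiaSubgroupIn ℚ, ∃ c : k,
    toMatRes ρbar b' s = !![c, 0; 0, c ^ p] ∧ c ^ p ≠ c) ∧
  (∃ φ : S53_helper35.GQ, A.IsFrobeniusAt φ p ∧ ∃ x : k, x ≠ 0 ∧
    toMatRes ρbar b' φ = !![0, 1; x, 0]) ∧
  ∀ σ ∈ A.decompositionSubgroup ℚ,
    (∃ a d : k, a ≠ 0 ∧ d ≠ 0 ∧ toMatRes ρbar b' σ = !![a, 0; 0, d]) ∨
    (∃ a d : k, a ≠ 0 ∧ d ≠ 0 ∧ toMatRes ρbar b' σ = !![0, d; a, 0])

variable {ρbar p A}

/-- **the level-two shape has an adapted basis.** -/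
theorem exists_adapted_basis (h : LevelTwo ρbar p A) :
    ∃ b' : Module.Basis (Fin 2) k ρbar.V, IsAdapted ρbar p A b' := by
  obtain ⟨φ, hφ, e₀, e₁, hli, hI, hreg, hφ1, x, hx, hφ0⟩ := h
  have hV := ρbar.finrank_eq
  refine ⟨ssBasis hli hV, fun s hs => ?_, ?_, ⟨φ, hφ, x, hx, ?_⟩, fun σ hσ => ?_⟩
  · obtain ⟨c, h0, h1, h2⟩ := hI s hs
    exact ⟨c, by rw [toMatRes_apply, toMatrix_ssBasis_diag hli hV h0 h1], h2⟩
  · obtain ⟨s, hs, c, h0, h1, hne⟩ := exists_regular ρbar.ρ hli hI hreg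
    exact ⟨s, hs, c, by rw [toMatRes_apply, toMatrix_ssBasis_diag hli hV h0 h1], hne⟩
  · have h1' : ρbar.ρ φ e₁ = (1 : k) • e₀ := by rw [one_smul, hφ1]
    rw [toMatRes_apply, toMatrix_ssBasis_antidiag hli hV hφ0 h1']
  · rcases monomial_of_mem_decomp ρbar.ρ hli hV hI hreg hσ with
      ⟨a, d, ha, hd, h0, h1⟩ | ⟨a, d, ha, hd, h0, h1⟩
    · exact Or.inl ⟨a, d, ha, hd, by rw [toMatRes_apply, toMatrix_ssBasis_diag hli hV h0 h1]⟩
    · exact Or.inr ⟨a, d, ha, hd, by rw [toMatRes_apply, toMatrix_ssBasis_antidiag hli hV h0 h1]⟩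

end Adapted

/-! ### the WLOG statement -/

section Wlog

variable {𝒪 : Type} [CommRing 𝒪] [IsLocalRing 𝒪]
  (ρbar : ResidualGaloisRep (ResidueField 𝒪))
  (b : Module.Basis (Fin 2) (ResidueField 𝒪) ρbar.V)
  (p : ℕ) [Fact p.Prime]
  (N : Rep (ZMod p) S53_helper35.GQ)
  (emb : N →+ Matrix (Fin 2) (Fin 2) (ResidueField 𝒪))

/-- **WLOG the basis is adapted**: to prove `LocalCond ρbar b p N emb q P e` for a `ρbar` of level-two
shape at `A`, it suffices to prove it for every ADAPTED basis `b'` and every model `emb'` of `ad⁰`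
in that basis. -/
theorem localCond_of_adapted (hmodel : GlobModel N (toMatRes ρbar b) emb)
    {A : ValuationSubring (AlgebraicClosure ℚ)} (hL : LevelTwo ρbar p A)
    (q : ℕ) [Fact q.Prime] [IsDiscrete (levelQ q) (Rep.res (localGaloisToGlobal q) N)]
    (P : GaloisRepAdic (DualNumber (ResidueField 𝒪)) → Prop) (e : ℕ)
    (H : ∀ (b' : Module.Basis (Fin 2) (ResidueField 𝒪) ρbar.V)
      (emb' : N →+ Matrix (Fin 2) (Fin 2) (ResidueField 𝒪)),
      GlobModel N (toMatRes ρbar b') emb' → IsAdapted ρbar p A b' →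
        LocalCond ρbar b' p N emb' q P e) :
    LocalCond ρbar b p N emb q P e := by
  obtain ⟨b', hb'⟩ := exists_adapted_basis hL
  exact localCond_of_basis ρbar b b' p N emb (basisGL ρbar b b') (toMatRes_basisGL ρbar b b') q P e
    (H b' _ (globModel_of_basis ρbar b b' p N emb _ (toMatRes_basisGL ρbar b b') hmodel) hb')

end Wlog

end Fermat.Agent.GP.Flat.LocalCondBasis
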