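/-
GATE-P / S56 [P-FLAT] S56-FLAT-KUMMERINST (helper84; ruling of the graph-keeper, board 4187 (1)).

**The `ℚ̄`-instance and the vector form of the abstract Kummer theory `GP/Flat/SSKummer.lean`**
(helper75, K1–K7), in the subgroup frame of the count assemblies (SSASM / ORDCOUNT):
`D := E ≃ₐ[F] E` acting on `E` (consumers: `F = ℚ`, `E = ℚ̄`), `GK : Subgroup D` ARBITRARY
(no closedness, no intermediate field), generators written `∀ g ∈ GK, g y = zpw ζ (χ g) * y`.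

* `finite_orbit`, `finite_orbit_subgroup` : orbits are finite (roots of the minimal polynomial);
* `exists_finset_of_finiteDimensional` : a finite-dimensional level `L` is cut out by a finite set
  (so the level-constant shape of `GP/Tan/Cocycle.exists_levelConstant` gives `hlev` of K1);
* `kummer_exists_subgroup` (K1 for `GK`), `kummer_exists_subgroup_finset`;
* vector form: `exists_gen_comp` (generator of `l ∘ h`, `l : M →+ ZMod p`),
  `exists_addMonoidHom_apply_ne_zero` / `eq_zero_of_forall_addMonoidHom` (additive forms separate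
  the points of a group killed by `p`), `eq_zero_on_of_forall_gen_fixed` (all classes trivial ⟹
  `h = 0` on `GK`), `gen_pow`, `gen_conj_comp`, `gen_conj_pow_comp` (twisted equivariance, (K4)),
  `gen_conj_matrix` (the frame `h (δ⁻¹ g δ) = R δ⁻¹ * h g * R δ`);
* converse: `exists_character_of_pow_fixed` (every radical is the generator of a finite-level
  character: `Hom_fl(GK, ZMod p) ≅ K^× / K^{×p}`, `K` the fixed field of `GK`).
-/
import Mathlib
import Fermat.Agent.GP.Flat.SSKummer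

set_option autoImplicit false

namespace Fermat.Agent.GP.Flat.KummerInst

open Fermat.Agent.GP.Flat.SSKummer

variable {F E : Type*} [Field F] [Field E] [Algebra F E]

/-! ### the instance: finite orbits, finite levels -/

/-- orbits of the automorphism group of an algebraic extension are finite. -/
theorem finite_orbit [Algebra.IsAlgebraic F E] (x : E) :
    (Set.range fun g : E ≃ₐ[F] E => g x).Finite := by
  have hint : IsIntegral F x := Algebra.IsIntegral.isIntegral x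
  refine ((minpoly F x).rootSet_finite E).subset ?_
  rintro _ ⟨g, rfl⟩
  rw [Polynomial.mem_rootSet]
  refine ⟨minpoly.ne_zero hint, ?_⟩
  have h1 := Polynomial.aeval_algHom_apply (g : E →ₐ[F] E) x (minpoly F x)
  rw [minpoly.aeval, map_zero] at h1
  exact h1

theorem finite_orbit_subgroup [Algebra.IsAlgebraic F E] (GK : Subgroup (E ≃ₐ[F] E)) (x : E) :
    (Set.range fun g : GK => g • x).Finite := by
  refine (finite_orbit (F := F) x).subset ?_
  rintro _ ⟨g, rfl⟩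
  exact ⟨(g : E ≃ₐ[F] E), rfl⟩

/-- a finite-dimensional intermediate field is cut out by a finite set: an automorphism fixing
the set fixes the field. -/
theorem exists_finset_of_finiteDimensional (L : IntermediateField F E) [FiniteDimensional F L] :
    ∃ s : Finset E, (∀ x ∈ s, x ∈ L) ∧
      ∀ g : E ≃ₐ[F] E, (∀ x ∈ s, g x = x) → ∀ x ∈ L, g x = x := by
  classical
  set b := Module.finBasis F L with hb
  refine ⟨Finset.univ.image (fun i => ((b i : L) : E)), ?_, ?_⟩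
  · intro x hx
    obtain ⟨i, -, rfl⟩ := Finset.mem_image.mp hx
    exact (b i).2
  · intro g hg x hx
    have h1 : (⟨x, hx⟩ : L) = ∑ i, (b.repr ⟨x, hx⟩ i) • b i := (b.sum_repr ⟨x, hx⟩).symm
    have h2 : x = ∑ i, (b.repr ⟨x, hx⟩ i) • ((b i : L) : E) := by
      have h3 := congrArg (fun z : L => (z : E)) h1
      simp only [AddSubmonoidClass.coe_finsetSum, IntermediateField.coe_smul] at h3
      exact h3
    rw [h2, map_sum]
    refine Finset.sum_congr rfl fun i _ => ?_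
    rw [map_smul, hg _ (Finset.mem_image.mpr ⟨i, Finset.mem_univ i, rfl⟩)]

section existence

variable [Algebra.IsAlgebraic F E] {p : ℕ} [Fact p.Prime]

/-- **(K1) for a subgroup, finite-set level.** -/
theorem kummer_exists_subgroup_finset (GK : Subgroup (E ≃ₐ[F] E)) {ζ : E} (hζ : ζ ^ p = 1)
    (hζG : ∀ g ∈ GK, g ζ = ζ) (χ : (E ≃ₐ[F] E) → ZMod p)
    (hadd : ∀ g ∈ GK, ∀ g' ∈ GK, χ (g * g') = χ g + χ g')
    (hlev : ∃ s : Finset E, ∀ g ∈ GK, (∀ x ∈ s, g x = x) → χ g = 0) :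
    ∃ y : E, y ≠ 0 ∧ ∀ g ∈ GK, g y = zpw ζ (χ g) * y := by
  obtain ⟨s, hs⟩ := hlev
  obtain ⟨y, hy0, hy⟩ := kummer_exists (G := GK) (Ω := E) hζ (fun g => hζG g g.2)
    (finite_orbit_subgroup GK) (fun g => χ g) (fun g g' => hadd g g.2 g' g'.2)
    ⟨s, fun g hg => hs g g.2 hg⟩
  exact ⟨y, hy0, fun g hg => hy ⟨g, hg⟩⟩

/-- **(K1) for a subgroup**, level in the shape of `GP/Tan/Cocycle.exists_levelConstant`. -/
theorem kummer_exists_subgroup (GK : Subgroup (E ≃ₐ[F] E)) {ζ : E} (hζ : ζ ^ p = 1)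
    (hζG : ∀ g ∈ GK, g ζ = ζ) (χ : (E ≃ₐ[F] E) → ZMod p)
    (hadd : ∀ g ∈ GK, ∀ g' ∈ GK, χ (g * g') = χ g + χ g')
    (hlev : ∃ L : IntermediateField F E, FiniteDimensional F L ∧
      ∀ g ∈ GK, (∀ x ∈ L, g x = x) → χ g = 0) :
    ∃ y : E, y ≠ 0 ∧ ∀ g ∈ GK, g y = zpw ζ (χ g) * y := by
  obtain ⟨L, hLfin, hL⟩ := hlev
  obtain ⟨s, -, hs⟩ := exists_finset_of_finiteDimensional L
  exact kummer_exists_subgroup_finset GK hζ hζG χ hadd ⟨s, fun g hg hgs => hL g hg (hs g hgs)⟩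

end existence

/-! ### additive forms on a group killed by `p` -/

section separation

variable {p : ℕ} [Fact p.Prime] {M : Type*} [AddCommGroup M]

/-- additive forms separate the points of an `𝔽_p`-vector space. -/
theorem exists_addMonoidHom_apply_ne_zero_of_module [Module (ZMod p) M] {x : M} (hx : x ≠ 0) :
    ∃ l : M →+ ZMod p, l x ≠ 0 := by
  obtain ⟨f, hf⟩ := Module.Projective.exists_dual_ne_zero (ZMod p) hx
  exact ⟨f.toAddMonoidHom, hf⟩

/-- additive forms `M →+ ZMod p` separate the points of a group killed by `p`. -/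
theorem exists_addMonoidHom_apply_ne_zero (hpM : ∀ x : M, p • x = 0) {x : M} (hx : x ≠ 0) :
    ∃ l : M →+ ZMod p, l x ≠ 0 :=
  @exists_addMonoidHom_apply_ne_zero_of_module p _ M _ (AddCommGroup.zmodModule hpM) x hx

theorem eq_zero_of_forall_addMonoidHom (hpM : ∀ x : M, p • x = 0) {x : M}
    (h : ∀ l : M →+ ZMod p, l x = 0) : x = 0 := by
  by_contra hx
  obtain ⟨l, hl⟩ := exists_addMonoidHom_apply_ne_zero hpM hx
  exact hl (h l)

end separation

/-! ### vector form -/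

section vector

variable {p : ℕ} [Fact p.Prime] {M : Type*} [AddCommGroup M]

/-- **vector form of (K1)**: for `h : GK → M` additive of finite level and every additive form
`l`, the character `l ∘ h` has a Kummer generator. -/
theorem exists_gen_comp [Algebra.IsAlgebraic F E] (GK : Subgroup (E ≃ₐ[F] E)) {ζ : E}
    (hζ : ζ ^ p = 1) (hζG : ∀ g ∈ GK, g ζ = ζ) (h : (E ≃ₐ[F] E) → M)
    (hadd : ∀ g ∈ GK, ∀ g' ∈ GK, h (g * g') = h g + h g')
    (hlev : ∃ L : IntermediateField F E, FiniteDimensional F L ∧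
      ∀ g ∈ GK, (∀ x ∈ L, g x = x) → h g = 0)
    (l : M →+ ZMod p) :
    ∃ y : E, y ≠ 0 ∧ ∀ g ∈ GK, g y = zpw ζ (l (h g)) * y := by
  refine kummer_exists_subgroup GK hζ hζG (fun g => l (h g)) (fun g hg g' hg' => ?_) ?_
  · rw [hadd g hg g' hg', map_add]
  · obtain ⟨L, hL, hL0⟩ := hlev
    exact ⟨L, hL, fun g hg hgL => by rw [hL0 g hg hgL, map_zero]⟩

/-- generators of the same character differ by an element fixed by `GK`. -/
theorem gen_unique (GK : Subgroup (E ≃ₐ[F] E)) {ζ : E} (hζ : ζ ^ p = 1)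
    {χ : (E ≃ₐ[F] E) → ZMod p} {y y' : E}
    (hy : ∀ g ∈ GK, g y = zpw ζ (χ g) * y) (hy' : ∀ g ∈ GK, g y' = zpw ζ (χ g) * y') :
    ∀ g ∈ GK, g (y' / y) = y' / y := by
  intro g hg
  rw [map_div₀, hy g hg, hy' g hg, mul_div_mul_left _ _ (zpw_ne_zero hζ _)]

/-- a generator fixed by `GK` belongs to a character vanishing on `GK`. -/
theorem chi_eq_zero_of_gen_fixed (GK : Subgroup (E ≃ₐ[F] E)) {ζ : E} (hζ : IsPrimitiveRoot ζ p)
    {χ : (E ≃ₐ[F] E) → ZMod p} {y : E} (hy0 : y ≠ 0)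
    (hy : ∀ g ∈ GK, g y = zpw ζ (χ g) * y) (hfix : ∀ g ∈ GK, g y = y) :
    ∀ g ∈ GK, χ g = 0 := by
  intro g hg
  have h1 := hy g hg
  rw [hfix g hg] at h1
  have h2 : zpw ζ (χ g) = 1 := mul_right_cancel₀ hy0 (h1.symm.trans (one_mul y).symm)
  have h3 : p ∣ (χ g).val := (hζ.pow_eq_one_iff_dvd _).mp h2
  have h4 : (χ g).val = 0 := Nat.eq_zero_of_dvd_of_lt h3 (ZMod.val_lt _)
  exact (ZMod.val_eq_zero _).mp h4

/-- **injectivity of the vector Kummer map**: if for every additive form `l` the character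
`l ∘ h` has a generator fixed by `GK` (i.e. its Kummer class is trivial), then `h = 0` on `GK`. -/
theorem eq_zero_on_of_forall_gen_fixed (hpM : ∀ x : M, p • x = 0) (GK : Subgroup (E ≃ₐ[F] E))
    {ζ : E} (hζ : IsPrimitiveRoot ζ p) (h : (E ≃ₐ[F] E) → M)
    (H : ∀ l : M →+ ZMod p, ∃ y : E, y ≠ 0 ∧ (∀ g ∈ GK, g y = zpw ζ (l (h g)) * y) ∧
      ∀ g ∈ GK, g y = y) :
    ∀ g ∈ GK, h g = 0 := by
  intro g hg
  apply eq_zero_of_forall_addMonoidHom hpM
  intro l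
  obtain ⟨y, hy0, hy, hfix⟩ := H l
  exact chi_eq_zero_of_gen_fixed GK hζ hy0 hy hfix g hg

/-- powers of generators. -/
theorem gen_pow (GK : Subgroup (E ≃ₐ[F] E)) {ζ : E} (hζ : ζ ^ p = 1)
    {χ : (E ≃ₐ[F] E) → ZMod p} {y : E} (hy : ∀ g ∈ GK, g y = zpw ζ (χ g) * y) (n : ℕ) :
    ∀ g ∈ GK, g (y ^ n) = zpw ζ ((n : ZMod p) * χ g) * y ^ n := by
  intro g hg
  rw [map_pow, hy g hg, mul_pow, zpw_natCast_mul hζ]
  congr 1
  unfold zpw
  rw [← pow_mul, ← pow_mul, Nat.mul_comm]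

/-- **twisted equivariance (K4), vector form**: if `δ` normalises `GK`, `δ ζ = ζ ^ c` and
`h (δ⁻¹ g δ) = r (h g)` on `GK`, then `δ y` is a generator of `c * (l ∘ r) ∘ h`. -/
theorem gen_conj_comp (GK : Subgroup (E ≃ₐ[F] E)) {ζ : E} (hζ : ζ ^ p = 1)
    (h : (E ≃ₐ[F] E) → M) (l : M →+ ZMod p) {y : E}
    (hy : ∀ g ∈ GK, g y = zpw ζ (l (h g)) * y) (δ : E ≃ₐ[F] E)
    (hδG : ∀ g ∈ GK, δ⁻¹ * g * δ ∈ GK) {c : ℕ} (hδζ : δ ζ = ζ ^ c) (r : M →+ M)
    (hr : ∀ g ∈ GK, h (δ⁻¹ * g * δ) = r (h g)) :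
    ∀ g ∈ GK, g (δ y) = zpw ζ ((c : ZMod p) * (l.comp r) (h g)) * δ y := by
  intro g hg
  have h1 := kummer_conj (D := E ≃ₐ[F] E) (Ω := E) hζ GK (fun g => l (h g)) (y := y)
    (fun g hg => hy g hg) δ hδG (c := c) hδζ g hg
  rw [AlgEquiv.smul_def, AlgEquiv.smul_def] at h1
  rw [h1, AddMonoidHom.comp_apply, hr g hg]

/-- **(−1)-twisted form of (K4)**: with `c' * c = 1` in `ZMod p`, `(δ y) ^ c'` is a generator of
`(l ∘ r) ∘ h`, i.e. `u_{(l ∘ r) ∘ h} = δ (u_{l ∘ h}) ^ c'` modulo `p`-th powers. -/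
theorem gen_conj_pow_comp (GK : Subgroup (E ≃ₐ[F] E)) {ζ : E} (hζ : ζ ^ p = 1)
    (h : (E ≃ₐ[F] E) → M) (l : M →+ ZMod p) {y : E}
    (hy : ∀ g ∈ GK, g y = zpw ζ (l (h g)) * y) (δ : E ≃ₐ[F] E)
    (hδG : ∀ g ∈ GK, δ⁻¹ * g * δ ∈ GK) {c c' : ℕ} (hδζ : δ ζ = ζ ^ c)
    (hcc : ((c' : ZMod p) * (c : ZMod p)) = 1) (r : M →+ M)
    (hr : ∀ g ∈ GK, h (δ⁻¹ * g * δ) = r (h g)) :
    ∀ g ∈ GK, g ((δ y) ^ c') = zpw ζ ((l.comp r) (h g)) * (δ y) ^ c' := by
  intro g hg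
  have h1 := gen_pow GK hζ (χ := fun g => (c : ZMod p) * (l.comp r) (h g))
    (gen_conj_comp GK hζ h l hy δ hδG hδζ r hr) c' g hg
  rw [h1, ← mul_assoc, hcc, one_mul]

/-- (K4) in the matrix frame of SSASM: `h (δ⁻¹ g δ) = R δ⁻¹ * h g * R δ`. -/
theorem gen_conj_matrix {k : Type*} [Field k] (GK : Subgroup (E ≃ₐ[F] E)) {ζ : E}
    (hζ : ζ ^ p = 1) (R : (E ≃ₐ[F] E) →* Matrix (Fin 2) (Fin 2) k)
    (h : (E ≃ₐ[F] E) → Matrix (Fin 2) (Fin 2) k) (l : Matrix (Fin 2) (Fin 2) k →+ ZMod p)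
    {y : E} (hy : ∀ g ∈ GK, g y = zpw ζ (l (h g)) * y) (δ : E ≃ₐ[F] E)
    (hδG : ∀ g ∈ GK, δ⁻¹ * g * δ ∈ GK) {c c' : ℕ} (hδζ : δ ζ = ζ ^ c)
    (hcc : ((c' : ZMod p) * (c : ZMod p)) = 1)
    (hr : ∀ g ∈ GK, h (δ⁻¹ * g * δ) = R δ⁻¹ * h g * R δ) :
    ∀ g ∈ GK, g ((δ y) ^ c') = zpw ζ (l (R δ⁻¹ * h g * R δ)) * (δ y) ^ c' := by
  have key := gen_conj_pow_comp GK hζ h l hy δ hδG hδζ hcc
    ((AddMonoidHom.mulRight (R δ)).comp (AddMonoidHom.mulLeft (R δ⁻¹)))
    (fun g hg => by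
      rw [hr g hg]
      rfl)
  intro g hg
  rw [key g hg]
  rfl

end vector

/-! ### converse -/

section converse

variable {p : ℕ} [Fact p.Prime]

/-- **converse**: every `y ≠ 0` whose `p`-th power is fixed by `GK` is the Kummer generator of a
finite-level character of `GK`. -/
theorem exists_character_of_pow_fixed [Algebra.IsAlgebraic F E] (GK : Subgroup (E ≃ₐ[F] E))
    {ζ : E} (hζ : IsPrimitiveRoot ζ p) (hζG : ∀ g ∈ GK, g ζ = ζ) {y : E} (hy0 : y ≠ 0)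
    (hy : ∀ g ∈ GK, g (y ^ p) = y ^ p) :
    ∃ χ : (E ≃ₐ[F] E) → ZMod p,
      (∀ g ∈ GK, ∀ g' ∈ GK, χ (g * g') = χ g + χ g') ∧
      (∃ L : IntermediateField F E, FiniteDimensional F L ∧
        ∀ g ∈ GK, (∀ x ∈ L, g x = x) → χ g = 0) ∧
      ∀ g ∈ GK, g y = zpw ζ (χ g) * y := by
  classical
  have hζp : ζ ^ p = 1 := hζ.pow_eq_one
  have hp : NeZero p := ⟨(Fact.out : p.Prime).ne_zero⟩
  have hex : ∀ g ∈ GK, ∃ j : ZMod p, g y = zpw ζ j * y := by
    intro g hg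
    have h1 : (g y / y) ^ p = 1 := by
      rw [div_pow, ← map_pow, hy g hg, div_self (pow_ne_zero _ hy0)]
    obtain ⟨i, hi, hiy⟩ := hζ.eq_pow_of_pow_eq_one h1
    refine ⟨(i : ZMod p), ?_⟩
    unfold zpw
    rw [ZMod.val_natCast_of_lt hi, hiy, div_mul_cancel₀ _ hy0]
  let χ : (E ≃ₐ[F] E) → ZMod p := fun g => if hg : g ∈ GK then (hex g hg).choose else 0
  have hχ : ∀ g ∈ GK, g y = zpw ζ (χ g) * y := by
    intro g hg
    simp only [χ, dif_pos hg]
    exact (hex g hg).choose_spec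
  have hinj : ∀ a b : ZMod p, zpw ζ a = zpw ζ b → a = b := by
    intro a b hab
    exact ZMod.val_injective p (hζ.pow_inj (ZMod.val_lt a) (ZMod.val_lt b) hab)
  refine ⟨χ, ?_, ?_, hχ⟩
  · intro g hg g' hg'
    have h1 := hχ _ (GK.mul_mem hg hg')
    have hz : g (zpw ζ (χ g')) = zpw ζ (χ g') := by
      unfold zpw
      rw [map_pow, hζG g hg]
    rw [AlgEquiv.mul_apply, hχ g' hg', map_mul, hz, hχ g hg, ← mul_assoc, ← zpw_add hζp] at h1
    have h2 := mul_right_cancel₀ hy0 h1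
    rw [add_comm]
    exact (hinj _ _ h2).symm
  · have hint : IsIntegral F y := Algebra.IsIntegral.isIntegral y
    refine ⟨IntermediateField.adjoin F {y}, IntermediateField.adjoin.finiteDimensional hint, ?_⟩
    intro g hg hgL
    have h1 := hχ g hg
    rw [hgL y (IntermediateField.mem_adjoin_simple_self F y)] at h1
    have h2 : zpw ζ (χ g) = zpw ζ (0 : ZMod p) := by
      rw [zpw_zero]
      exact mul_right_cancel₀ hy0 (h1.symm.trans (one_mul y).symm)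
    exact hinj _ _ h2

end converse

/-! ### the `ℚ̄ / ℚ` instance -/

section Qbar

/-- `ℚ̄ / ℚ` is algebraic, for the default `ℚ`-algebra structure of a division ring (the one
of the frozen statements). -/
theorem isAlgebraicQbar_kummerInst : Algebra.IsAlgebraic ℚ (AlgebraicClosure ℚ) :=
  AlgebraicClosure.isAlgebraic ℚ

attribute [local instance] isAlgebraicQbar_kummerInst

variable {p : ℕ} [Fact p.Prime] {M : Type*} [AddCommGroup M]

/-- (K1), vector form, over `ℚ̄`: for a subgroup `GK ≤ G_ℚ`, `h : G_ℚ → M` additive on `GK` and of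
finite level, and every additive form `l`, the character `l ∘ h` of `GK` has a Kummer
generator. -/
theorem exists_gen_comp_Qbar
    (GK : Subgroup (AlgebraicClosure ℚ ≃ₐ[ℚ] AlgebraicClosure ℚ)) {ζ : AlgebraicClosure ℚ}
    (hζ : ζ ^ p = 1) (hζG : ∀ g ∈ GK, g ζ = ζ)
    (h : (AlgebraicClosure ℚ ≃ₐ[ℚ] AlgebraicClosure ℚ) → M)
    (hadd : ∀ g ∈ GK, ∀ g' ∈ GK, h (g * g') = h g + h g')
    (hlev : ∃ L : IntermediateField ℚ (AlgebraicClosure ℚ), FiniteDimensional ℚ L ∧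
      ∀ g ∈ GK, (∀ x ∈ L, g x = x) → h g = 0)
    (l : M →+ ZMod p) :
    ∃ y : AlgebraicClosure ℚ, y ≠ 0 ∧ ∀ g ∈ GK, g y = zpw ζ (l (h g)) * y :=
  exists_gen_comp GK hζ hζG h hadd hlev l

/-- converse over `ℚ̄`: every `u ≠ 0` fixed by `GK` has a `p`-th root `y` which is the Kummer
generator of a finite-level character of `GK`. -/
theorem exists_character_of_fixed_Qbar
    (GK : Subgroup (AlgebraicClosure ℚ ≃ₐ[ℚ] AlgebraicClosure ℚ)) {ζ : AlgebraicClosure ℚ}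
    (hζ : IsPrimitiveRoot ζ p) (hζG : ∀ g ∈ GK, g ζ = ζ) {u : AlgebraicClosure ℚ} (hu0 : u ≠ 0)
    (hu : ∀ g ∈ GK, g u = u) :
    ∃ (y : AlgebraicClosure ℚ) (χ : (AlgebraicClosure ℚ ≃ₐ[ℚ] AlgebraicClosure ℚ) → ZMod p),
      y ^ p = u ∧ y ≠ 0 ∧
      (∀ g ∈ GK, ∀ g' ∈ GK, χ (g * g') = χ g + χ g') ∧
      (∃ L : IntermediateField ℚ (AlgebraicClosure ℚ), FiniteDimensional ℚ L ∧
        ∀ g ∈ GK, (∀ x ∈ L, g x = x) → χ g = 0) ∧
      ∀ g ∈ GK, g y = zpw ζ (χ g) * y := by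
  have hp0 : 0 < p := (Fact.out : p.Prime).pos
  obtain ⟨y, hy⟩ := IsAlgClosed.exists_pow_nat_eq u hp0
  have hy0 : y ≠ 0 := by
    rintro rfl
    rw [zero_pow hp0.ne'] at hy
    exact hu0 hy.symm
  obtain ⟨χ, h1, h2, h3⟩ := exists_character_of_pow_fixed GK hζ hζG hy0
    (fun g hg => by rw [hy]; exact hu g hg)
  exact ⟨y, χ, hy, hy0, h1, h2, h3⟩

end Qbar

end Fermat.Agent.GP.Flat.KummerInst
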