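/-
GATE-P / S56 [P-FLAT] S56-FLAT-SSINST (helper75): the `ℚ̄`-INSTANCE of the frame binders of
`GP/Flat/SSChain` / `GP/Flat/SSChainVec` for the henselian local field of helper26's `DvrInst`:

  `𝔊 = G_ℚ` acting on `Ω = ℚ̄`, `v = A.valuation`, `Dd = D_A`,
  `GK = gK A N := D_A ⊓ N` (`N` an open normal subgroup of `G_ℚ`),
  `K = fK A N := ℚ̄^{GK}` (helper26's `locField A N` as a `Subfield`),
  `κ = ResidueField (locRing A N)`, `res = resK A N`.

Binders discharged: `hK`, `horb`, `hiso` (on `D_A`, on `GK`), normalisation of `GK` by `D_A`,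
`hperf`, uniformiser + `hdisc`, `IsRes`, `hsurj`, finiteness and characteristic of `κ`,
`hresδ` for inertia (`actκ = id`) and for a Frobenius (`actκ = (· ^ p)`), `ζ ∈ K`, `v (ζ - 1) < 1`.
(The numerical side conditions `hnp`, `h2`, `hlt` of `lc_unique` / `slev_of_pdiv` at the levels
`π ^ i` are in `GP/Flat/SSInstNum.lean`.)
-/
import Mathlib
import Fermat.Agent.GP.Flat.DvrInst.Dvr
import Fermat.Agent.GP.Flat.KummerInst
import Fermat.Agent.GP.Flat.SSChainVec

set_option autoImplicit false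

open scoped Pointwise
open IsLocalRing
open Fermat.Agent.Common_helper32 Fermat.Agent.GL.Local.InertiaField Fermat.Agent.GL.Local
  Fermat.Agent.GP.Flat.DvrInst Fermat.Agent.GP.Flat.SSChain Fermat.Agent.GP.Flat.SSChainVec

namespace Fermat.Agent.GP.Flat.SSInst

variable (A : ValuationSubring Qb) (N : Subgroup GQ)

/-- `G_K = D_A ∩ N`. -/
noncomputable def gK : Subgroup GQ := A.decompositionSubgroup ℚ ⊓ N

/-- `K = ℚ̄^{G_K}` as a `Subfield` of `ℚ̄`. -/
noncomputable def fK : Subfield Qb := (locField A N).toSubfield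

theorem mem_gK_iff (σ : GQ) : σ ∈ gK A N ↔ σ ∈ A.decompositionSubgroup ℚ ∧ σ ∈ N := Iff.rfl

theorem gK_le_decomp : gK A N ≤ A.decompositionSubgroup ℚ := inf_le_left

theorem mem_fK_iff (x : Qb) : x ∈ fK A N ↔ x ∈ locField A N := Iff.rfl

/-- binder `hK`. -/
theorem hK (x : Qb) : x ∈ fK A N ↔ ∀ g ∈ gK A N, g • x = x := by
  rw [mem_fK_iff, mem_locField_iff]
  constructor
  · intro h g hg
    exact h g hg.1 hg.2
  · intro h σ h1 h2
    exact h σ ⟨h1, h2⟩

/-- binder `horb`. -/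
theorem horb (x : Qb) : (Set.range fun g : gK A N => g • x).Finite :=
  KummerInst.finite_orbit_subgroup (F := ℚ) (gK A N) x

/-- binder `hisoδ` for `δ ∈ D_A`. -/
theorem hiso {δ : GQ} (hδ : δ ∈ A.decompositionSubgroup ℚ) (x : Qb) :
    A.valuation (δ • x) = A.valuation x :=
  valuation_apply_eq hδ x

/-- binder `hiso` on `GK`. -/
theorem hiso_gK : ∀ g ∈ gK A N, ∀ x : Qb, A.valuation (g • x) = A.valuation x :=
  fun _ hg x => hiso A hg.1 x

section Normal

variable [hN : N.Normal]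

/-- `D_A` normalises `GK` (the form `δ⁻¹ g δ` of `lc_conj`, `lcFun_tw`). -/
theorem conj_mem_gK {δ : GQ} (hδ : δ ∈ A.decompositionSubgroup ℚ) :
    ∀ g ∈ gK A N, δ⁻¹ * g * δ ∈ gK A N := by
  intro g hg
  refine ⟨Subgroup.mul_mem _ (Subgroup.mul_mem _ (Subgroup.inv_mem _ hδ) hg.1) hδ, ?_⟩
  have := hN.conj_mem g hg.2 δ⁻¹
  simpa using this

/-- `D_A` normalises `GK` (the form `δ g δ⁻¹` of `IsAdm`). -/
theorem conj_mem_gK' {δ : GQ} (hδ : δ ∈ A.decompositionSubgroup ℚ) :
    ∀ g ∈ gK A N, δ * g * δ⁻¹ ∈ gK A N := by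
  intro g hg
  exact ⟨Subgroup.mul_mem _ (Subgroup.mul_mem _ hδ hg.1) (Subgroup.inv_mem _ hδ),
    hN.conj_mem g hg.2 δ⟩

/-- `D_A` preserves `K`. -/
theorem smul_mem_fK {δ : GQ} (hδ : δ ∈ A.decompositionSubgroup ℚ) {x : Qb} (hx : x ∈ fK A N) :
    δ • x ∈ fK A N :=
  apply_mem_locField A N hδ hx

end Normal

/-! ### The residue field -/

/-- an element of `O_K = A ∩ K` as an element of helper26's `locRing`. -/
noncomputable def toLoc (x : Qb) (hxK : x ∈ fK A N) (hx : A.valuation x ≤ 1) : locRing A N :=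
  ⟨⟨x, hxK⟩, (A.valuation_le_one_iff x).mp hx⟩

theorem toQb_toLoc (x : Qb) (hxK : x ∈ fK A N) (hx : A.valuation x ≤ 1) :
    toQb A N (toLoc A N x hxK hx) = x := rfl

open Classical in
/-- the residue map `O_K → κ`, extended by `0`. -/
noncomputable def resK (x : Qb) : ResidueField (locRing A N) :=
  if h : x ∈ fK A N ∧ A.valuation x ≤ 1 then residue (locRing A N) (toLoc A N x h.1 h.2) else 0

theorem resK_eq (x : Qb) (hxK : x ∈ fK A N) (hx : A.valuation x ≤ 1) :
    resK A N x = residue (locRing A N) (toLoc A N x hxK hx) := by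
  unfold resK
  rw [dif_pos ⟨hxK, hx⟩]

/-- binder `hres : IsRes v K res`. -/
theorem isRes_resK : IsRes A.valuation (fK A N) (resK A N) := by
  refine ⟨fun x hx y hy hx1 hy1 => ?_, fun x hx y hy hx1 hy1 => ?_, fun x hx hx1 => ?_⟩
  · rw [resK_eq A N x hx hx1, resK_eq A N y hy hy1,
      resK_eq A N (x + y) ((fK A N).add_mem hx hy) (A.valuation.map_add_le hx1 hy1)]
    exact map_add (residue (locRing A N)) (toLoc A N x hx hx1) (toLoc A N y hy hy1)
  · have hxy1 : A.valuation (x * y) ≤ 1 := by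
      rw [map_mul]; exact mul_le_one' hx1 hy1
    rw [resK_eq A N x hx hx1, resK_eq A N y hy hy1,
      resK_eq A N (x * y) ((fK A N).mul_mem hx hy) hxy1]
    exact map_mul (residue (locRing A N)) (toLoc A N x hx hx1) (toLoc A N y hy hy1)
  · rw [resK_eq A N x hx hx1, residue_eq_zero_iff, mem_maximalIdeal_locRing_iff,
      A.mem_nonunits_iff]
    rfl

/-- binder `hsurj`. -/
theorem resK_surjective (z : ResidueField (locRing A N)) :
    ∃ x ∈ fK A N, A.valuation x ≤ 1 ∧ resK A N x = z := by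
  obtain ⟨x, rfl⟩ := residue_surjective z
  have hx1 : A.valuation (toQb A N x) ≤ 1 := (A.valuation_le_one_iff _).mpr (toQb_mem A N x)
  refine ⟨toQb A N x, (x : locField A N).2, hx1, ?_⟩
  rw [resK_eq A N _ (x : locField A N).2 hx1]
  rfl

section Prime

variable {p : ℕ} (hp : p.Prime) (hA : (p : Qb) ∈ A.nonunits)

include hp hA

omit hp in
theorem val_p_lt_one : A.valuation (p : Qb) < 1 := (A.mem_nonunits_iff).mp hA

/-- `κ` has characteristic `p`. -/
theorem charP_kappa : CharP (ResidueField (locRing A N)) p := by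
  have h1 : ((p : ℕ) : ResidueField (locRing A N)) = 0 := by
    have h2 : ((p : ℕ) : ResidueField (locRing A N)) = residue (locRing A N) (p : locRing A N) := by
      rw [map_natCast]
    rw [h2, residue_eq_zero_iff, mem_maximalIdeal_locRing_iff]
    have h3 : toQb A N ((p : ℕ) : locRing A N) = (p : Qb) := by
      simp [toQb]
    rw [h3]
    exact hA
  exact (CharP.charP_iff_prime_eq_zero hp).mpr h1

/-- `κ` is finite. -/
theorem finite_kappa (hopen : IsOpen (N : Set GQ)) : Finite (ResidueField (locRing A N)) :=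
  finite_residueField A N hp hA hopen

/-- binder `hperf`. -/
theorem hperf (hopen : IsOpen (N : Set GQ)) :
    ∀ a ∈ fK A N, A.valuation a ≤ 1 →
      ∃ b ∈ fK A N, A.valuation b ≤ 1 ∧ A.valuation (b ^ p - a) < 1 := by
  obtain ⟨k, hk0, hk⟩ := exists_pow_sub_mem_nonunits A N hp hA hopen
  intro a haK ha1
  refine ⟨a ^ p ^ (k - 1), (fK A N).pow_mem haK _, ?_, ?_⟩
  · rw [map_pow]
    exact pow_le_one₀ zero_le ha1
  · rw [← pow_mul, ← pow_succ, Nat.sub_add_cancel hk0]
    exact (A.mem_nonunits_iff).mp (hk (toLoc A N a haK ha1))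

/-- **uniformiser data** in the `Subfield` form: `π ∈ K`, `v π < 1`, `v π ^ e = v p`
(`e = |I_A N / N|`) and binder `hdisc`. -/
theorem exists_unif_fK [N.Normal] (hopen : IsOpen (N : Set GQ)) :
    ∃ π ∈ fK A N, π ≠ 0 ∧ A.valuation π < 1 ∧
      A.valuation π ^ Nat.card (inertiaQuot A N) = A.valuation (p : Qb) ∧
      ∀ x ∈ fK A N, x ≠ 0 → ∃ n : ℤ, A.valuation x = A.valuation π ^ n := by
  obtain ⟨π, h1, h2, h3, h4⟩ := exists_unif A N hp hA hopen
  refine ⟨(π : Qb), π.2, fun h => h2 (Subtype.ext h), (A.mem_nonunits_iff).mp h1, h3, ?_⟩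
  intro x hxK hx0
  exact h4 ⟨x, hxK⟩ (fun h => hx0 (congrArg Subtype.val h))

end Prime

/-! ### The action on the residue field -/

section ResAction

variable [hN : N.Normal]

/-- binder `hresδ` for `δ` in the inertia group: `actκ = id`. -/
theorem resK_inertia {δ : GQ} (hδ : δ ∈ A.inertiaSubgroupIn ℚ) :
    ∀ x ∈ fK A N, A.valuation x ≤ 1 → resK A N (δ • x) = id (resK A N x) := by
  intro x hxK hx1
  have hδD : δ ∈ A.decompositionSubgroup ℚ := inertia_le_decomp hδ
  have hδxK : δ • x ∈ fK A N := smul_mem_fK A N hδD hxK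
  have hδx1 : A.valuation (δ • x) ≤ 1 := by rw [hiso A hδD]; exact hx1
  rw [id, ((isRes_resK A N).eq_iff A.valuation hδxK hxK hδx1 hx1)]
  have := ((mem_inertiaSubgroupIn_iff_forall A δ).mp hδ).2 x ((A.valuation_le_one_iff x).mp hx1)
  exact (A.mem_nonunits_iff).mp this

/-- binder `hresδ` for a Frobenius `φ`: `actκ = (· ^ p)`. -/
theorem resK_frobenius {p : ℕ} {φ : GQ} (hφ : φ ∈ A.decompositionSubgroup ℚ)
    (hfr : ∀ a ∈ A, φ a - a ^ p ∈ A.nonunits) :
    ∀ x ∈ fK A N, A.valuation x ≤ 1 → resK A N (φ • x) = (fun z => z ^ p) (resK A N x) := by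
  intro x hxK hx1
  have hφxK : φ • x ∈ fK A N := smul_mem_fK A N hφ hxK
  have hφx1 : A.valuation (φ • x) ≤ 1 := by rw [hiso A hφ]; exact hx1
  have hxp1 : A.valuation (x ^ p) ≤ 1 := by rw [map_pow]; exact pow_le_one₀ zero_le hx1
  show resK A N (φ • x) = resK A N x ^ p
  rw [← (isRes_resK A N).pow A.valuation hxK hx1 p,
    ((isRes_resK A N).eq_iff A.valuation hφxK ((fK A N).pow_mem hxK p) hφx1 hxp1)]
  exact (A.mem_nonunits_iff).mp (hfr x ((A.valuation_le_one_iff x).mp hx1))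

end ResAction

/-! ### The root of unity -/

section Zeta

variable {p : ℕ} [hp : Fact p.Prime]

/-- binder `hζK`: `ζ ∈ K` as soon as `N` fixes `ζ`. -/
theorem zeta_mem_fK {ζ : Qb} (hζN : ∀ σ ∈ N, σ ζ = ζ) : ζ ∈ fK A N :=
  (hK A N ζ).mpr fun g hg => hζN g hg.2

/-- binder `hlam`. -/
theorem hlam (hA : (p : Qb) ∈ A.nonunits) {ζ : Qb} (hζ : IsPrimitiveRoot ζ p) :
    A.valuation (ζ - 1) < 1 := by
  have h1 : A.valuation (p : Qb) < 1 := (A.mem_nonunits_iff).mp hA
  rw [Fermat.Agent.GP.Ram.KummerBreak.val_p_eq A.valuation hζ] at h1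
  by_contra h
  push Not at h
  exact absurd h1 (not_lt.mpr (one_le_pow₀ h))

end Zeta

end Fermat.Agent.GP.Flat.SSInst
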