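/-
GATE-P / S56 [P-FLAT] node S56-FLAT-SSGK-OPEN (helper36).

Bridge from `GP/Flat/SSGK` (the subgroup `ssGK r A p = D_A ⊓ ker r ⊓ Fix(μ_p)`) to helper75's
`GP/Flat/SSInst` frame (`gK A N = D_A ⊓ N`, `N` an OPEN NORMAL subgroup of `G_ℚ`):

* `ssN r p := ker r ⊓ Fix(μ_p)` is normal (`ssN_normal`) and, for `r` factoring through a finite level,
  open (`isOpen_ssN`);
* `ssGK_eq_gK : ssGK r A p = SSInst.gK A (ssN r p)`;
* `apply_root_of_mem_ssN` : the binder `hζN : ∀ σ ∈ N, σ ζ = ζ` of `SSInst.zeta_mem_fK`.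
-/
import Mathlib
import Fermat.Agent.GP.Flat.SSGK
import Fermat.Agent.GP.Flat.SSInst

set_option autoImplicit false

open Fermat.Agent.Common_helper32 Module

namespace Fermat.Agent.GP.Flat.SSGK

section Open

variable {k : Type} [Field k] {V : Type} [AddCommGroup V] [Module k V]
variable (r : GQ →* Module.End k V) (p : ℕ)

/-- the pointwise stabiliser of `μ_p` in `G_ℚ`. -/
def fixMu : Subgroup GQ where
  carrier := {σ | ∀ μ : Qb, μ ^ p = 1 → σ μ = μ}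
  mul_mem' := by
    intro σ τ h h' μ hμ
    rw [AlgEquiv.mul_apply, h' μ hμ, h μ hμ]
  one_mem' := fun _ _ => rfl
  inv_mem' := by
    intro σ h μ hμ
    calc σ⁻¹ μ = σ⁻¹ (σ μ) := by rw [h μ hμ]
      _ = (σ⁻¹ * σ) μ := rfl
      _ = μ := by rw [inv_mul_cancel]; rfl

theorem mem_fixMu_iff {σ : GQ} : σ ∈ fixMu p ↔ ∀ μ : Qb, μ ^ p = 1 → σ μ = μ := Iff.rfl

instance fixMu_normal : (fixMu p).Normal := by
  refine ⟨fun g hg d μ hμ => ?_⟩
  have hμ' : (d⁻¹ μ) ^ p = 1 := by rw [← map_pow, hμ, map_one]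
  calc (d * g * d⁻¹) μ = d (g (d⁻¹ μ)) := rfl
    _ = d (d⁻¹ μ) := by rw [hg _ hμ']
    _ = (d * d⁻¹) μ := rfl
    _ = μ := by rw [mul_inv_cancel]; rfl

/-- `Fix(μ_p)` is open. -/
theorem isOpen_fixMu (hp : p.Prime) : IsOpen (fixMu p : Set GQ) := by
  have : NeZero p := ⟨hp.ne_zero⟩
  have : NeZero (p : Qb) := ⟨by exact_mod_cast hp.ne_zero⟩
  obtain ⟨ζ, hζ⟩ : ∃ ζ : Qb, IsPrimitiveRoot ζ p :=
    HasEnoughRootsOfUnity.exists_primitiveRoot Qb p
  have hint : IsIntegral ℚ ζ := (hζ.isIntegral hp.pos).tower_top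
  have : FiniteDimensional ℚ (IntermediateField.adjoin ℚ {ζ}) :=
    IntermediateField.adjoin.finiteDimensional hint
  refine Subgroup.isOpen_mono (H₁ := (IntermediateField.adjoin ℚ {ζ}).fixingSubgroup) ?_
    (IntermediateField.fixingSubgroup_isOpen _)
  intro σ hσ μ hμ
  have h1 : σ ζ = ζ :=
    (IntermediateField.mem_fixingSubgroup_iff _ σ).1 hσ ζ
      (IntermediateField.mem_adjoin_simple_self ℚ ζ)
  obtain ⟨i, -, rfl⟩ := hζ.eq_pow_of_pow_eq_one hμ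
  rw [map_pow, h1]

/-- `N := ker r ⊓ Fix(μ_p)`. -/
noncomputable def ssN : Subgroup GQ := r.ker ⊓ fixMu p

theorem mem_ssN_iff {σ : GQ} : σ ∈ ssN r p ↔ r σ = 1 ∧ ∀ μ : Qb, μ ^ p = 1 → σ μ = μ := by
  unfold ssN
  rw [Subgroup.mem_inf, MonoidHom.mem_ker, mem_fixMu_iff]

instance ssN_normal : (ssN r p).Normal := by
  unfold ssN
  infer_instance

/-- `ssN` is open when `r` factors through a finite level. -/
theorem isOpen_ssN (hp : p.Prime) (hr : GaloisFactorsThroughFiniteLevel r) :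
    IsOpen (ssN r p : Set GQ) := by
  obtain ⟨E, hEfin, _, hlevel⟩ := Fermat.Agent.GP.Flat.Cases.exists_level r hr
  have hker : IsOpen (r.ker : Set GQ) := by
    refine Subgroup.isOpen_mono (H₁ := E.fixingSubgroup) ?_
      (IntermediateField.fixingSubgroup_isOpen E)
    intro σ hσ
    rw [MonoidHom.mem_ker]
    exact hlevel σ fun x hx => (IntermediateField.mem_fixingSubgroup_iff E σ).1 hσ x hx
  exact hker.inter (isOpen_fixMu p hp)

/-- the binder `hζN` of `SSInst.zeta_mem_fK`. -/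
theorem apply_root_of_mem_ssN {σ : GQ} (h : σ ∈ ssN r p) {μ : Qb} (hμ : μ ^ p = 1) : σ μ = μ :=
  ((mem_ssN_iff r p).1 h).2 μ hμ

theorem apply_eq_one_of_mem_ssN {σ : GQ} (h : σ ∈ ssN r p) : r σ = 1 :=
  ((mem_ssN_iff r p).1 h).1

/-- **`ssGK` is helper75's `gK A N` for the open normal subgroup `N = ssN r p`.** -/
theorem ssGK_eq_gK (A : ValuationSubring Qb) :
    ssGK r A p = Fermat.Agent.GP.Flat.SSInst.gK A (ssN r p) := by
  ext σ
  rw [mem_ssGK_iff, Fermat.Agent.GP.Flat.SSInst.mem_gK_iff, mem_ssN_iff]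

end Open

section FrozenOpen

variable {k : Type} [Field k] (ρbar : ResidualGaloisRep k) (p : ℕ)

/-- `ssN ρbar.ρ p` is open (frozen `ρbar`). -/
theorem isOpen_ssN_residual (hp : p.Prime) : IsOpen (ssN ρbar.ρ p : Set GQ) :=
  isOpen_ssN ρbar.ρ p hp ρbar.factorsThroughFiniteLevel

/-- the primitive `p`-th roots of unity lie in `K = ℚ̄^{ssGK}` (helper75's `fK`). -/
theorem zeta_mem_fK_ssN (A : ValuationSubring Qb) {ζ : Qb} (hζ : ζ ^ p = 1) :
    ζ ∈ Fermat.Agent.GP.Flat.SSInst.fK A (ssN ρbar.ρ p) :=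
  Fermat.Agent.GP.Flat.SSInst.zeta_mem_fK A (ssN ρbar.ρ p)
    (fun _ hσ => apply_root_of_mem_ssN ρbar.ρ p hσ hζ)

end FrozenOpen

end Fermat.Agent.GP.Flat.SSGK
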