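/-
GATE-P / S56 [P-FLAT] S56-FLAT-SSINST part 2 (helper75): the NUMERICAL SIDE CONDITIONS of
`GP/Flat/SSChain` (`lc_unique`, `slev_of_pdiv`, top level) at the levels `ϖ = π ^ i`, from a
uniformiser `π` of `K` (`hdisc`) with `v π ^ e = v p`.  Abstract (no `ℚ̄`); the `ℚ̄`-instance of
`π`, `hdisc`, `e` is `SSInst.exists_unif_fK`.

* `hnp`  : `¬ p ∣ i → ∀ x ∈ K, v x ^ p ≠ v (π ^ i)`;
* `h2`   : `i * (p - 1) < e * p → v p ^ p < v (π ^ i) ^ (p - 1)`;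
* `hlt`  : `j * (p - 1) < e → v p * v (π ^ j) < v (π ^ j) ^ p`;
* `exists_top` : `∃ m, v (ζ - 1) = v π ^ m ∧ m * (p - 1) = e` (so `e' = m * p`);
* `lc_unique_pow` : `SSChain.lc_unique` at `ϖ = π ^ i`, `¬ p ∣ i`, `i * (p - 1) < e * p`;
* `slev_of_pdiv_pow` : `SSChain.slev_of_pdiv` at `ϖ = π ^ j`, `j * (p - 1) < e`.
-/
import Fermat.Agent.GP.Flat.SSChain

set_option autoImplicit false
set_option linter.unusedSectionVars false

namespace Fermat.Agent.GP.Flat.SSInstNum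

open Fermat.Agent.GP.Ram.KummerBreak Fermat.Agent.GP.Ram.UnitFilt
  Fermat.Agent.GP.Ram.UnitFiltTop Fermat.Agent.GP.Flat.SSKummer Fermat.Agent.GP.Flat.SSChain

variable {Ω : Type*} [Field Ω] {Γ₀ : Type*} [LinearOrderedCommGroupWithZero Γ₀]
  (v : Valuation Ω Γ₀) {p : ℕ} [hp : Fact p.Prime] (K : Subfield Ω)
  {π : Ω} (hπ0 : π ≠ 0) (hπ1 : v π < 1)

include hπ0 hπ1

omit hp in
theorem val_pi_pos : 0 < v π := v.pos_iff.mpr hπ0

omit hp in
/-- powers of `v π` are strictly decreasing. -/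
theorem pow_lt_pow_iff {m n : ℕ} : v π ^ m < v π ^ n ↔ n < m := by
  rw [← zpow_natCast, ← zpow_natCast,
    zpow_lt_zpow_iff_right_of_lt_one₀ (val_pi_pos v hπ0 hπ1) hπ1]
  exact Nat.cast_lt

omit hp in
theorem zpow_inj_of_lt_one {m n : ℤ} (h : v π ^ m = v π ^ n) : m = n := by
  have h1 : ¬ m < n := fun hlt => by
    have := (zpow_lt_zpow_iff_right_of_lt_one₀ (val_pi_pos v hπ0 hπ1) hπ1).mpr hlt
    rw [h] at this
    exact lt_irrefl _ this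
  have h2 : ¬ n < m := fun hlt => by
    have := (zpow_lt_zpow_iff_right_of_lt_one₀ (val_pi_pos v hπ0 hπ1) hπ1).mpr hlt
    rw [h] at this
    exact lt_irrefl _ this
  omega

variable (hdisc : ∀ x ∈ K, x ≠ 0 → ∃ n : ℤ, v x = v π ^ n)

include hdisc

/-- binder `hnp` of `lc_unique` at the level `π ^ i`, `i` prime to `p`. -/
theorem hnp {i : ℕ} (hi : ¬ p ∣ i) : ∀ x ∈ K, v x ^ p ≠ v (π ^ i) := by
  intro x hxK h
  have hpos : 0 < v (π ^ i) := v.pos_iff.mpr (pow_ne_zero _ hπ0)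
  by_cases hx0 : x = 0
  · rw [hx0, v.map_zero, zero_pow hp.out.ne_zero] at h
    rw [← h] at hpos
    exact lt_irrefl _ hpos
  · obtain ⟨n, hn⟩ := hdisc x hxK hx0
    rw [hn, v.map_pow, ← zpow_natCast (v π ^ n), ← zpow_mul, ← zpow_natCast (v π) i] at h
    have h3 := zpow_inj_of_lt_one v hπ0 hπ1 h
    apply hi
    have : (p : ℤ) ∣ (i : ℤ) := ⟨n, by rw [← h3]; ring⟩
    exact_mod_cast this

variable {e : ℕ} (he : v π ^ e = v (p : Ω))

include he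

omit hdisc in
/-- binder `h2` of `lc_unique` at the level `π ^ i`, `i < e' = e p / (p - 1)`. -/
theorem h2 {i : ℕ} (hi : i * (p - 1) < e * p) : v (p : Ω) ^ p < v (π ^ i) ^ (p - 1) := by
  rw [← he, v.map_pow, ← pow_mul, ← pow_mul]
  exact (pow_lt_pow_iff v hπ0 hπ1).mpr hi

omit hdisc in
/-- binder `h` of `slev_of_pdiv` / `level_raise` at `ϖ = π ^ j`, `j p < e'`. -/
theorem hlt {j : ℕ} (hj : j * (p - 1) < e) : v (p : Ω) * v (π ^ j) < v (π ^ j) ^ p := by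
  rw [← he, v.map_pow, ← pow_add, ← pow_mul]
  refine (pow_lt_pow_iff v hπ0 hπ1).mpr ?_
  have hp1 : p - 1 + 1 = p := Nat.sub_add_cancel hp.out.one_le
  calc j * p = j * (p - 1) + j := by rw [← hp1]; simp [Nat.mul_succ]
    _ < e + j := by omega

omit hdisc in
theorem val_pi_pow_lt_one {i : ℕ} (hi : 0 < i) : v (π ^ i) < 1 := by
  rw [v.map_pow]
  exact pow_lt_one₀ zero_le hπ1 hi.ne'

/-- the top level: `v (ζ - 1) = v π ^ m` with `m (p - 1) = e`. -/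
theorem exists_top {ζ : Ω} (hζ : IsPrimitiveRoot ζ p) (hζK : ζ ∈ K) :
    ∃ m : ℕ, v (ζ - 1) = v π ^ m ∧ m * (p - 1) = e := by
  have hl0 : ζ - 1 ≠ 0 := lam_ne_zero hζ
  obtain ⟨n, hn⟩ := hdisc (ζ - 1) (K.sub_mem hζK K.one_mem) hl0
  have h1 := val_p_eq v hζ
  rw [hn, ← he, ← zpow_natCast (v π ^ n), ← zpow_mul, ← zpow_natCast (v π) e] at h1
  have h3 := zpow_inj_of_lt_one v hπ0 hπ1 h1
  have hp1 : 0 < p - 1 := Nat.sub_pos_of_lt hp.out.one_lt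
  have hn0 : 0 ≤ n := by
    by_contra hneg
    push Not at hneg
    have : n * ((p - 1 : ℕ) : ℤ) < 0 := mul_neg_of_neg_of_pos hneg (by exact_mod_cast hp1)
    omega
  obtain ⟨m, rfl⟩ := Int.eq_ofNat_of_zero_le hn0
  refine ⟨m, by rw [hn, zpow_natCast], ?_⟩
  have : ((m * (p - 1) : ℕ) : ℤ) = (e : ℤ) := by rw [h3]; push_cast; ring
  exact_mod_cast this

/-! ### The chain lemmas at the levels `π ^ i` -/

section Frame

variable {D : Type*} [Group D] [MulSemiringAction D Ω] {G : Subgroup D} {ζ : Ω}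
  (hK : ∀ x, x ∈ K ↔ ∀ g ∈ G, g • x = x) (hζ : IsPrimitiveRoot ζ p) (hζK : ζ ∈ K)

include hK hζ hζK

/-- `SSChain.lc_unique` at `ϖ = π ^ i`, `¬ p ∣ i`, `0 < i`, `i (p - 1) < e p`. -/
theorem lc_unique_pow {i : ℕ} (hi0 : 0 < i) (hi : ¬ p ∣ i) (hie : i * (p - 1) < e * p)
    {χ : D → ZMod p} {a a' : Ω} (ha : LC v G K ζ (π ^ i) χ a) (ha' : LC v G K ζ (π ^ i) χ a') :
    v (a - a') < 1 := by
  have hvp : v (p : Ω) < 1 := by
    rw [val_p_eq v hζ]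
    have hlam : v (ζ - 1) < 1 := by
      obtain ⟨m, hm, hme⟩ := exists_top v K hπ0 hπ1 hdisc he hζ hζK
      rw [hm]
      have hm0 : 0 < m := by
        rcases Nat.eq_zero_or_pos m with h0 | h0
        · rw [h0, zero_mul] at hme
          rw [← hme, zero_mul] at hie
          exact absurd hie (Nat.not_lt_zero _)
        · exact h0
      exact pow_lt_one₀ zero_le hπ1 hm0.ne'
    exact pow_lt_one₀ zero_le hlam (Nat.sub_ne_zero_of_lt hp.out.one_lt)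
  exact lc_unique v hK hζ hζK (pow_ne_zero _ hπ0) (val_pi_pow_lt_one v hπ0 hπ1 he hi0) hvp
    (hnp v K hπ0 hπ1 hdisc hi) (h2 v hπ0 hπ1 he hie) ha ha'

omit hdisc in
/-- `SSChain.slev_of_pdiv` at `ϖ = π ^ j`, `0 < j`, `j (p - 1) < e`: nothing happens at the level
`π ^ (j p)`. -/
theorem slev_of_pdiv_pow
    (hperf : ∀ a ∈ K, v a ≤ 1 → ∃ b ∈ K, v b ≤ 1 ∧ v (b ^ p - a) < 1) (hπK : π ∈ K)
    {j : ℕ} (hj0 : 0 < j) (hj : j * (p - 1) < e) {χ : D → ZMod p}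
    (hlev : Lev v G K ζ (v π ^ (j * p)) χ) : SLev v G K ζ (v π ^ (j * p)) χ := by
  have h1 : v π ^ (j * p) = v (π ^ j) ^ p := by rw [v.map_pow, ← pow_mul]
  rw [h1] at hlev ⊢
  exact slev_of_pdiv v hK hζ hζK hperf (K.pow_mem hπK j) (pow_ne_zero _ hπ0)
    (val_pi_pow_lt_one v hπ0 hπ1 he hj0) (hlt v hπ0 hπ1 he hj) hlev

end Frame

end Fermat.Agent.GP.Flat.SSInstNum
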