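/-
GATE-P / S56 [P-FLAT], node S56-FLAT-SSDATA (helper36): **the `ℚ̄`-INSTANCE DATA of the
supersingular count.**

Frame: `A` a place of `ℚ̄` over `p`, `ρbar` of level-two shape at `A` written in an adapted basis `b'`
(`LocalCondBasis.IsAdapted`: inertia is literally `!![c, 0; 0, c ^ p]`, a Frobenius is
`!![0, 1; x, 0]`), `N := ssN ρbar.ρ p = ker ρbar ⊓ Fix μ_p` (open normal in `G_ℚ`),
`GK := SSInst.gK A N` (`= SSGK.ssGK ρbar.ρ A p`), `K := SSInst.fK A N`, `κ` its residue field,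
`res := SSInst.resK A N`, `θ := SSInstTheta.thetaK A N π`.

* `pow_mem_ssN_of_mem_inertia`, `not_dvd_card_inertiaQuot` : the inertia quotient `I_A N / N` is
  killed by `p ^ 2 - 1`, hence tame;
* `IsSSData` : the package `(π, e, m, s₀, φ, w₀, wφ, c₀, x)` = a uniformiser of `K`, the ramification
  index `e = m (p - 1)`, a generator `s₀` of tame inertia with `R s₀ = !![c₀, 0; 0, c₀ ^ p]`, a
  Frobenius `φ` with `R φ = !![0, 1; x, 0]`, the cyclotomic exponents `w₀`, `wφ`, with EVERY binder of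
  helper50's `SSAsm.card_ssLev_le` other than the `T`-bounds, and the arithmetic facts for the
  `T`-bounds (`θ s₀` a primitive `e`-th root of unity, `(w₀ : κ) = θ s₀ ^ m`, `c₀ ^ e = 1`,
  `c₀ ^ p ≠ c₀`, `e ∣ p ^ 2 - 1`);
* `exists_isSSData` : the package exists;
* `card_ss_le_of_T` : helper50's count at this frame, with only the `T`-bounds `(r₀, hTz, hTc)` left.
-/
import Fermat.Agent.GP.Flat.SSAsm.Count
import Fermat.Agent.GP.Flat.SSInstTheta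
import Fermat.Agent.GP.Flat.SSInstNum
import Fermat.Agent.GP.Flat.SSGKOpen
import Fermat.Agent.GP.Flat.LocalCondBasis

set_option autoImplicit false
set_option linter.unusedSectionVars false
set_option linter.style.haveILetI false

open Matrix IsLocalRing
open Fermat.Agent.Common_helper32 Fermat.Agent.GL.Local.InertiaField Fermat.Agent.GL.Local
  Fermat.Agent.GP.Flat.DvrInst Fermat.Agent.GP.Flat.SSChain Fermat.Agent.GP.Flat.SSChainVec
  Fermat.Agent.GP.Flat.SSInst Fermat.Agent.GP.Flat.SSTheta Fermat.Agent.GP.Flat.SSInstTheta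
  Fermat.Agent.GP.Flat.SSGK Fermat.Agent.GP.Flat.LocalCondBasis

namespace Fermat.Agent.GP.Flat.SSData

open Fermat.Agent.S53_helper35 (toMatRes toMatRes_apply)

/-! ### matrix lemmas -/

section Mat

variable {k : Type*} [Field k]

theorem diag_pow_fin_two (c d : k) (n : ℕ) :
    (!![c, 0; 0, d] : Matrix (Fin 2) (Fin 2) k) ^ n = !![c ^ n, 0; 0, d ^ n] := by
  induction n with
  | zero =>
    ext i j; fin_cases i <;> fin_cases j <;> simp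
  | succ n ih =>
    rw [pow_succ, ih]
    ext i j; fin_cases i <;> fin_cases j <;> simp [pow_succ]

end Mat

/-! ### the subgroup `N = ssN ρbar.ρ p` in matrix form -/

section SSN

variable {k : Type} [Field k] (ρbar : ResidualGaloisRep k) (p : ℕ)
  (b : Module.Basis (Fin 2) k ρbar.V)

theorem toMatRes_eq_one_of_mem_ssN {σ : GQ} (h : σ ∈ ssN ρbar.ρ p) : toMatRes ρbar b σ = 1 := by
  rw [toMatRes_apply, apply_eq_one_of_mem_ssN ρbar.ρ p h]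
  exact LinearMap.toMatrix_one b

theorem toMatRes_eq_of_inv_mul_mem {s t : GQ} (h : s⁻¹ * t ∈ ssN ρbar.ρ p) :
    toMatRes ρbar b t = toMatRes ρbar b s := by
  have h1 : t = s * (s⁻¹ * t) := by group
  rw [h1, map_mul, toMatRes_eq_one_of_mem_ssN ρbar p b h, mul_one]

theorem eq_one_of_toMatRes_eq_one {σ : GQ} (h : toMatRes ρbar b σ = 1) : ρbar.ρ σ = 1 := by
  rw [toMatRes_apply] at h
  apply (LinearMap.toMatrix b b).injective
  rw [h]
  exact (LinearMap.toMatrix_one b).symm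

end SSN

/-! ### tameness of `I_A N / N` -/

section Tame

variable {k : Type} [Field k] (ρbar : ResidualGaloisRep k) (p : ℕ) [hp : Fact p.Prime]
  (A : ValuationSubring Qb) {b' : Module.Basis (Fin 2) k ρbar.V} (hb' : IsAdapted ρbar p A b')

include hb'

/-- the inertia eigenvalue is nonzero. -/
theorem ne_zero_of_toMatRes_eq {s : GQ} {c d : k}
    (h : toMatRes ρbar b' s = !![c, 0; 0, d]) : c ≠ 0 := by
  intro hc
  have h1 : toMatRes ρbar b' s * toMatRes ρbar b' s⁻¹ = 1 := by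
    rw [← map_mul, mul_inv_cancel, map_one]
  have h2 := congrFun (congrFun h1 0) 0
  rw [h, hc] at h2
  simp [Matrix.mul_apply, Fin.sum_univ_two] at h2

/-- `s ^ (p ^ 2 - 1) ∈ N` for `s` in the inertia group. -/
theorem pow_mem_ssN_of_mem_inertia {s : GQ} (hs : s ∈ A.inertiaSubgroupIn ℚ) :
    s ^ (p ^ 2 - 1) ∈ ssN ρbar.ρ p := by
  have hpp : p.Prime := hp.out
  obtain ⟨c, hc, hcc⟩ := hb'.1 s hs
  have hc0 : c ≠ 0 := ne_zero_of_toMatRes_eq ρbar p A hb' hc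
  have h1 : 1 ≤ p ^ 2 := Nat.one_le_pow _ _ hpp.pos
  have hc1 : c ^ (p ^ 2 - 1) = 1 := by
    have h2 : c ^ (p ^ 2 - 1) * c = 1 * c := by
      rw [← pow_succ, Nat.sub_add_cancel h1, hcc, one_mul]
    exact mul_right_cancel₀ hc0 h2
  rw [mem_ssN_iff]
  refine ⟨?_, fun μ hμ => ?_⟩
  · apply eq_one_of_toMatRes_eq_one ρbar b'
    rw [map_pow, hc, diag_pow_fin_two, ← pow_mul, mul_comm p, pow_mul, hc1, one_pow]
    ext i j; fin_cases i <;> fin_cases j <;> simp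
  · have h3 : p ^ 2 - 1 = (p + 1) * (p - 1) := by
      have : p ^ 2 = (p + 1) * (p - 1) + 1 := by
        obtain ⟨q, rfl⟩ : ∃ q, p = q + 1 := ⟨p - 1, by have := hpp.pos; omega⟩
        simp only [Nat.add_sub_cancel]
        ring
      omega
    rw [h3, pow_mul]
    exact pow_pred_apply_root hpp (s ^ (p + 1)) hμ

/-- **the inertia quotient `I_A N / N` is tame.** -/
theorem not_dvd_card_inertiaQuot (hopen : IsOpen (ssN ρbar.ρ p : Set GQ)) :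
    ¬ p ∣ Nat.card (inertiaQuot A (ssN ρbar.ρ p)) := by
  have hpp : p.Prime := hp.out
  have hfin : Finite (inertiaQuot A (ssN ρbar.ρ p)) := finite_inertiaQuot A _ hopen
  intro hdvd
  obtain ⟨g, hg⟩ := exists_prime_orderOf_dvd_card' (G := inertiaQuot A (ssN ρbar.ρ p)) p hdvd
  obtain ⟨s, hs, rfl⟩ := mkI_surjective A (ssN ρbar.ρ p) g
  have h1 : (mkI A (ssN ρbar.ρ p) s hs) ^ (p ^ 2 - 1) = 1 := by
    apply Subtype.ext
    have h2 : ((mkI A (ssN ρbar.ρ p) s hs) ^ (p ^ 2 - 1) : inertiaQuot A (ssN ρbar.ρ p)).1 =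
        QuotientGroup.mk' (ssN ρbar.ρ p) (s ^ (p ^ 2 - 1)) := by
      rw [map_pow]; rfl
    rw [h2, QuotientGroup.mk'_apply]
    exact (QuotientGroup.eq_one_iff _).mpr (pow_mem_ssN_of_mem_inertia ρbar p A hb' hs)
  have h3 : p ∣ p ^ 2 - 1 := by
    have h7 := orderOf_dvd_of_pow_eq_one h1
    rwa [hg] at h7
  have h4 : p ∣ p ^ 2 := dvd_pow_self p two_ne_zero
  have h5 : 1 ≤ p ^ 2 := Nat.one_le_pow _ _ hpp.pos
  have h6 : p ∣ 1 := by
    have := Nat.dvd_sub h4 h3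
    rwa [Nat.sub_sub_self h5] at this
  exact hpp.one_lt.ne' (Nat.dvd_one.1 h6)

end Tame

/-! ### the data package -/

section Data

variable {k : Type} [Field k] (ρbar : ResidualGaloisRep k) (p : ℕ) [hp : Fact p.Prime]
  (A : ValuationSubring Qb) (b' : Module.Basis (Fin 2) k ρbar.V) (ζ : Qb)

/-- **the instance data of the supersingular count** at the frame `N = ssN ρbar.ρ p`,
`K = fK A N`, `res = resK A N`, `R = toMatRes ρbar b'`. -/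
structure IsSSData (π : Qb) (e m : ℕ) (s₀ φ : GQ) (w₀ wφ : ℕ) (c₀ x : k) : Prop where
  hπK : π ∈ fK A (ssN ρbar.ρ p)
  hπ0 : π ≠ 0
  hπ1 : A.valuation π < 1
  hdisc : ∀ y ∈ fK A (ssN ρbar.ρ p), y ≠ 0 → ∃ n : ℤ, A.valuation y = A.valuation π ^ n
  hm : 0 < m
  he : e = m * (p - 1)
  hep : A.valuation π ^ e = A.valuation (p : Qb)
  hecard : e = Nat.card (inertiaQuot A (ssN ρbar.ρ p))
  hlamm : A.valuation (ζ - 1) = A.valuation π ^ m
  hs₀I : s₀ ∈ A.inertiaSubgroupIn ℚ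
  hs₀D : s₀ ∈ A.decompositionSubgroup ℚ
  hφF : A.IsFrobeniusAt φ p
  hφD : φ ∈ A.decompositionSubgroup ℚ
  hgen : ∀ s ∈ A.inertiaSubgroupIn ℚ, ∃ j : ℕ, s⁻¹ * s₀ ^ j ∈ ssN ρbar.ρ p
  hiso₀ : ∀ y : Qb, A.valuation (s₀ • y) = A.valuation y
  hisoφ : ∀ y : Qb, A.valuation (φ • y) = A.valuation y
  hG₀ : ∀ g ∈ gK A (ssN ρbar.ρ p), s₀⁻¹ * g * s₀ ∈ gK A (ssN ρbar.ρ p)
  hGφ : ∀ g ∈ gK A (ssN ρbar.ρ p), φ⁻¹ * g * φ ∈ gK A (ssN ρbar.ρ p)
  hζ₀ : s₀ • ζ = ζ ^ w₀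
  hζφ : φ • ζ = ζ ^ wφ
  hw₀ : ¬ p ∣ w₀
  hwφ : ¬ p ∣ wφ
  hres₀ : ∀ y ∈ fK A (ssN ρbar.ρ p), A.valuation y ≤ 1 →
    resK A (ssN ρbar.ρ p) (s₀ • y) = resK A (ssN ρbar.ρ p) y
  hresφ : ∀ y ∈ fK A (ssN ρbar.ρ p), A.valuation y ≤ 1 →
    resK A (ssN ρbar.ρ p) (φ • y) = resK A (ssN ρbar.ρ p) y ^ p
  hc₀ : c₀ ≠ 0
  hcp : c₀ ^ p ≠ c₀
  hcpp : c₀ ^ p ^ 2 = c₀
  hce : c₀ ^ e = 1
  hx : x ≠ 0
  hR₀ : toMatRes ρbar b' s₀ = !![c₀, 0; 0, c₀ ^ p]
  hRφ : toMatRes ρbar b' φ = !![0, 1; x, 0]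
  ht₀ : IsPrimitiveRoot (thetaK A (ssN ρbar.ρ p) π s₀) e
  hw₀t : ((w₀ : ℕ) : ResidueField (locRing A (ssN ρbar.ρ p))) =
    thetaK A (ssN ρbar.ρ p) π s₀ ^ m
  hθφ : thetaK A (ssN ρbar.ρ p) π φ ≠ 0
  hedvd : e ∣ p ^ 2 - 1

variable {ρbar p A b' ζ}

/-- the action of an automorphism on a primitive `p`-th root of unity. -/
theorem exists_smul_eq_pow (hζ : IsPrimitiveRoot ζ p) (σ : GQ) :
    ∃ w : ℕ, σ • ζ = ζ ^ w ∧ ¬ p ∣ w := by
  have hpp : p.Prime := hp.out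
  have : NeZero p := ⟨hpp.ne_zero⟩
  have h1 : (σ ζ) ^ p = 1 := by rw [← map_pow, hζ.pow_eq_one, map_one]
  obtain ⟨i, -, hi⟩ := hζ.eq_pow_of_pow_eq_one h1
  refine ⟨i, hi.symm, fun hdvd => ?_⟩
  obtain ⟨q, rfl⟩ := hdvd
  rw [pow_mul, hζ.pow_eq_one, one_pow] at hi
  have h2 : σ ζ = σ 1 := by rw [← hi, map_one]
  exact hζ.ne_one hpp.one_lt (σ.injective h2)

/-- **the instance data exist.** -/
theorem exists_isSSData (hA : (p : Qb) ∈ A.nonunits) (hb' : IsAdapted ρbar p A b')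
    (hζ : IsPrimitiveRoot ζ p) :
    ∃ (π : Qb) (e m : ℕ) (s₀ φ : GQ) (w₀ wφ : ℕ) (c₀ x : k),
      IsSSData ρbar p A b' ζ π e m s₀ φ w₀ wφ c₀ x := by
  have hpp : p.Prime := hp.out
  have hopen : IsOpen (ssN ρbar.ρ p : Set GQ) := isOpen_ssN_residual ρbar p hpp
  have hfin : Finite (inertiaQuot A (ssN ρbar.ρ p)) := finite_inertiaQuot A _ hopen
  have htame := not_dvd_card_inertiaQuot ρbar p A hb' hopen
  have hres := isRes_resK A (ssN ρbar.ρ p)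
  have hζK : ζ ∈ fK A (ssN ρbar.ρ p) := zeta_mem_fK_ssN ρbar p A hζ.pow_eq_one
  have hlam : A.valuation (ζ - 1) < 1 := SSInst.hlam A hA hζ
  obtain ⟨π, hπK, hπ0, hπ1, hπe, hdisc⟩ := exists_unif_fK A (ssN ρbar.ρ p) hpp hA hopen
  obtain ⟨m, hlamm, hme⟩ :=
    SSInstNum.exists_top A.valuation (fK A (ssN ρbar.ρ p)) hπ0 hπ1 hdisc hπe hζ hζK
  have hm0 : 0 < m := by
    rcases Nat.eq_zero_or_pos m with h0 | h0
    · rw [h0, pow_zero] at hlamm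
      exact absurd hlamm (ne_of_lt hlam)
    · exact h0
  obtain ⟨s₀, hs₀I, ht₀, hgen⟩ :=
    SSInstTheta.exists_generator A (ssN ρbar.ρ p) hA hopen hπK hπ0 hπ1 hπe hdisc htame
  have hs₀D : s₀ ∈ A.decompositionSubgroup ℚ := inertia_le_decomp hs₀I
  obtain ⟨φ, hφF, x, hx, hRφ⟩ := hb'.2.2.1
  have hφD : φ ∈ A.decompositionSubgroup ℚ := hφF.mem_decompositionSubgroup
  obtain ⟨w₀, hζ₀, hw₀⟩ := exists_smul_eq_pow hζ s₀
  obtain ⟨wφ, hζφ, hwφ⟩ := exists_smul_eq_pow hζ φ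
  obtain ⟨c₀, hR₀, hcpp⟩ := hb'.1 s₀ hs₀I
  have hc₀ : c₀ ≠ 0 := ne_zero_of_toMatRes_eq ρbar p A hb' hR₀
  set e := Nat.card (inertiaQuot A (ssN ρbar.ρ p)) with he_def
  -- `s₀ ^ e ∈ N`
  have hse : s₀ ^ e ∈ ssN ρbar.ρ p := by
    have h1 : (mkI A (ssN ρbar.ρ p) s₀ hs₀I) ^ e = 1 := by
      rw [he_def]; exact pow_card_eq_one'
    have h2 : ((mkI A (ssN ρbar.ρ p) s₀ hs₀I) ^ e : inertiaQuot A (ssN ρbar.ρ p)).1 =
        QuotientGroup.mk' (ssN ρbar.ρ p) (s₀ ^ e) := by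
      rw [map_pow]; rfl
    rw [h1] at h2
    have h3 : QuotientGroup.mk' (ssN ρbar.ρ p) (s₀ ^ e) = 1 := h2.symm
    rwa [QuotientGroup.mk'_apply, QuotientGroup.eq_one_iff] at h3
  have hce : c₀ ^ e = 1 := by
    have h1 := toMatRes_eq_one_of_mem_ssN ρbar p b' hse
    rw [map_pow, hR₀, diag_pow_fin_two] at h1
    have h2 := congrFun (congrFun h1 0) 0
    simpa using h2
  have hcp : c₀ ^ p ≠ c₀ := by
    intro hcon
    obtain ⟨s, hs, c', hRs, hc'⟩ := hb'.2.1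
    obtain ⟨j, hj⟩ := hgen s hs
    have h1 := toMatRes_eq_of_inv_mul_mem ρbar p b' hj
    rw [map_pow, hR₀, diag_pow_fin_two, hRs] at h1
    have h2 : c₀ ^ j = c' := by
      have := congrFun (congrFun h1 0) 0
      simpa using this
    apply hc'
    rw [← h2, ← pow_mul, mul_comm, pow_mul, hcon]
  have hIn₀ : IsInert A.valuation (fK A (ssN ρbar.ρ p)) s₀ :=
    isInert_of_mem_inertia A (ssN ρbar.ρ p) hs₀I
  have hedvd : e ∣ p ^ 2 - 1 := by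
    apply ht₀.dvd_of_pow_eq_one
    have h1 : thetaK A (ssN ρbar.ρ p) π (s₀ ^ (p ^ 2 - 1)) =
        thetaK A (ssN ρbar.ρ p) π s₀ ^ (p ^ 2 - 1) :=
      theta_pow_inert hres hπK hπ0 hIn₀ _
    rw [← h1]
    have h2 : thetaK A (ssN ρbar.ρ p) π (s₀ ^ (p ^ 2 - 1)) = thetaK A (ssN ρbar.ρ p) π 1 := by
      refine thetaK_eq_of_mem A (ssN ρbar.ρ p) hπK (Subgroup.one_mem _)
        (Subgroup.pow_mem _ hs₀D _) ?_
      rw [inv_one, one_mul]
      exact pow_mem_ssN_of_mem_inertia ρbar p A hb' hs₀I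
    rw [h2]
    exact theta_one hres hπK hπ0
  refine ⟨π, e, m, s₀, φ, w₀, wφ, c₀, x,
    { hπK := hπK, hπ0 := hπ0, hπ1 := hπ1, hdisc := hdisc, hm := hm0, he := hme.symm, hep := hπe,
      hecard := rfl, hlamm := hlamm, hs₀I := hs₀I, hs₀D := hs₀D, hφF := hφF, hφD := hφD,
      hgen := hgen, hiso₀ := fun y => hiso A hs₀D y, hisoφ := fun y => hiso A hφD y,
      hG₀ := conj_mem_gK A (ssN ρbar.ρ p) hs₀D, hGφ := conj_mem_gK A (ssN ρbar.ρ p) hφD,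
      hζ₀ := hζ₀, hζφ := hζφ, hw₀ := hw₀, hwφ := hwφ,
      hres₀ := fun y hy h1 => resK_inertia A (ssN ρbar.ρ p) hs₀I y hy h1,
      hresφ := fun y hy h1 => resK_frobenius A (ssN ρbar.ρ p) hφD
        (fun a ha => Fermat.Agent.GP.Loc.WildInertia.frobenius_sub_pow_mem hφF ha) y hy h1,
      hc₀ := hc₀, hcp := hcp, hcpp := hcpp, hce := hce, hx := hx, hR₀ := hR₀, hRφ := hRφ,
      ht₀ := ht₀,
      hw₀t := natCast_eq_theta_pow hres hπK hπ0 hIn₀ hζK (hζ.ne_one hpp.one_lt) hlam hζ₀ hlamm,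
      hθφ := theta_ne_zero hres hπK hπ0 (isIso_of_mem_decomp A (ssN ρbar.ρ p) hφD),
      hedvd := hedvd }⟩

end Data

/-! ### the count at the instance -/

section Count

open Fermat.Agent.GP.Flat.SSAsm

variable {k : Type} [Field k] [Finite k] {ρbar : ResidualGaloisRep k} {p : ℕ} [hp : Fact p.Prime]
  [CharP k p] {A : ValuationSubring Qb} {b' : Module.Basis (Fin 2) k ρbar.V} {ζ : Qb}

/-- **helper50's count `SSAsm.card_ssLev_le` at the `ℚ̄`-instance**: only the `T`-bounds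
`(r₀, hTz, hTc)` are left. -/
theorem card_ss_le_of_T (hp2 : p ≠ 2) (hA : (p : Qb) ∈ A.nonunits) (hζ : IsPrimitiveRoot ζ p)
    {π : Qb} {e m : ℕ} {s₀ φ : GQ} {w₀ wφ : ℕ} {c₀ x : k}
    (D : IsSSData ρbar p A b' ζ π e m s₀ φ w₀ wφ c₀ x) (r₀ : ℕ)
    (hTz : ∀ r, r < m → r ≠ r₀ →
      ∀ Λ : Matrix (Fin 2) (Fin 2) k →+ ResidueField (locRing A (ssN ρbar.ρ p)),
      IsTMap p c₀ (c₀ ^ p) w₀ (thetaK A (ssN ρbar.ρ p) π s₀ ^ (e + r)) x wφ
        (thetaK A (ssN ρbar.ρ p) π φ ^ (e + r)) Λ → Λ = 0)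
    (hTc : Nat.card {Λ : Matrix (Fin 2) (Fin 2) k →+ ResidueField (locRing A (ssN ρbar.ρ p)) //
      IsTMap p c₀ (c₀ ^ p) w₀ (thetaK A (ssN ρbar.ρ p) π s₀ ^ (e + r₀)) x wφ
        (thetaK A (ssN ρbar.ρ p) π φ ^ (e + r₀)) Λ} ≤ Nat.card k) :
    Finite {h : GQ → Matrix (Fin 2) (Fin 2) k //
        h ∈ HLev (p := p) A.valuation (A.decompositionSubgroup ℚ) (gK A (ssN ρbar.ρ p))
          (fK A (ssN ρbar.ρ p)) ζ (SSAsm.adAct (toMatRes ρbar b')) (A.valuation (p : Qb)) ∧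
        ∀ g, (h g).trace = 0} ∧
      Nat.card {h : GQ → Matrix (Fin 2) (Fin 2) k //
        h ∈ HLev (p := p) A.valuation (A.decompositionSubgroup ℚ) (gK A (ssN ρbar.ρ p))
          (fK A (ssN ρbar.ρ p)) ζ (SSAsm.adAct (toMatRes ρbar b')) (A.valuation (p : Qb)) ∧
        ∀ g, (h g).trace = 0} ≤ Nat.card k := by
  have hpp : p.Prime := hp.out
  have hopen : IsOpen (ssN ρbar.ρ p : Set GQ) := isOpen_ssN_residual ρbar p hpp
  haveI : CharP (ResidueField (locRing A (ssN ρbar.ρ p))) p := charP_kappa A _ hpp hA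
  haveI : Finite (ResidueField (locRing A (ssN ρbar.ρ p))) := finite_kappa A _ hpp hA hopen
  have hζK : ζ ∈ fK A (ssN ρbar.ρ p) := zeta_mem_fK_ssN ρbar p A hζ.pow_eq_one
  exact card_ssLev_le A.valuation (toMatRes ρbar b') (resK A (ssN ρbar.ρ p))
    (SSInst.hK A (ssN ρbar.ρ p)) hζ hζK (SSInst.horb A (ssN ρbar.ρ p))
    (isRes_resK A (ssN ρbar.ρ p)) hp2 (resK_surjective A (ssN ρbar.ρ p))
    (SSInst.hperf A (ssN ρbar.ρ p) hpp hA hopen) (hiso_gK A (ssN ρbar.ρ p))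
    D.hπK D.hπ0 D.hπ1 D.hdisc D.hm D.he D.hep D.hs₀D D.hφD D.hiso₀ D.hisoφ D.hG₀ D.hGφ
    D.hζ₀ D.hζφ D.hw₀ D.hwφ D.hres₀ D.hresφ D.hc₀ (pow_ne_zero p D.hc₀) (Ne.symm D.hcp) D.hx
    D.hR₀ D.hRφ rfl rfl r₀ hTz hTc

end Count

end Fermat.Agent.GP.Flat.SSData
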