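/-
GATE-P / S56 [P-FLAT], node S56-FLAT-SSDATA-ORD (helper36): **the supersingular count at the
`ℚ̄`-instance, binder-free.**

On top of `GP/Flat/SSData` (`IsSSData`): the three order facts that helper50's
`SSAsm.card_ssLev_le_of_orders` (`GP/Flat/SSAsm/Final`) consumes,

* `pow_succ_eq_natCast` : `c₀ ^ (p + 1) = (w₀ : k)` (`det ρbar(s₀) = ω(s₀)`, frozen `DetIsCyclotomic`);
* `orderOf_eq` : `orderOf c₀ = e` (`c₀ ^ n = 1 ⟹ s₀ ^ n ∈ ker ρbar ⊓ Fix μ_p = N ⟹ θ(s₀) ^ n = 1`);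
* `exists_mul_eq` : `∃ d, d * m = p + 1`;

and the count itself:

* `card_ss_le` : for an adapted basis `b'` (`LocalCondBasis.IsAdapted`) of a `ρbar` with cyclotomic
  determinant, `A | p`, `p ≥ 3`:
  `#{h ∈ HLev (v p) | traceless} ≤ #k` at `GK = gK A (ssN ρbar.ρ p)`, `K = fK A (ssN ρbar.ρ p)`,
  `R = toMatRes ρbar b'`, `act = SSAsm.adAct R` — the `hcount` binder of helper25's
  `SSEndTr0.localCond_ss_of_card_le` / helper84's `SSPlug` VERBATIM.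
-/
import Fermat.Agent.GP.Flat.SSData
import Fermat.Agent.GP.Flat.SSAsm.Final

set_option autoImplicit false
set_option linter.unusedSectionVars false
set_option linter.style.haveILetI false

open Matrix IsLocalRing
open Fermat.Agent.Common_helper32 Fermat.Agent.GL.Local.InertiaField Fermat.Agent.GL.Local
  Fermat.Agent.GP.Flat.DvrInst Fermat.Agent.GP.Flat.SSChain Fermat.Agent.GP.Flat.SSChainVec
  Fermat.Agent.GP.Flat.SSInst Fermat.Agent.GP.Flat.SSTheta Fermat.Agent.GP.Flat.SSInstTheta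
  Fermat.Agent.GP.Flat.SSGK Fermat.Agent.GP.Flat.LocalCondBasis

namespace Fermat.Agent.GP.Flat.SSData

open Fermat.Agent.S53_helper35 (toMatRes toMatRes_apply)

section Ord

variable {k : Type} [Field k] {ρbar : ResidualGaloisRep k} {p : ℕ} [hp : Fact p.Prime]
  {A : ValuationSubring Qb} {b' : Module.Basis (Fin 2) k ρbar.V} {ζ : Qb}
  {π : Qb} {e m : ℕ} {s₀ φ : GQ} {w₀ wφ : ℕ} {c₀ x : k}

/-- `det ρbar(s₀) = ω(s₀)`: `c₀ ^ (p + 1) = w₀` in `k`. -/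
theorem pow_succ_eq_natCast
    (hdet : (GaloisRepAdic.ofResidualGaloisRep ρbar).DetIsCyclotomic p)
    (hζ : IsPrimitiveRoot ζ p) (D : IsSSData ρbar p A b' ζ π e m s₀ φ w₀ wφ c₀ x) :
    c₀ ^ (p + 1) = (w₀ : k) := by
  have hpp : p.Prime := hp.out
  have : NeZero p := ⟨hpp.ne_zero⟩
  have h := Fermat.Agent.GP.Loc.GlobH0.det_eq_natCast ρbar p hdet s₀ w₀ (fun μ hμ => by
    obtain ⟨j, -, rfl⟩ := hζ.eq_pow_of_pow_eq_one hμ
    have h0 : s₀ ζ = ζ ^ w₀ := D.hζ₀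
    rw [map_pow, h0, ← pow_mul, ← pow_mul, mul_comm])
  have h1 : (toMatRes ρbar b' s₀).det = (w₀ : k) := by
    rw [toMatRes_apply, LinearMap.det_toMatrix, h]
  rw [D.hR₀, Matrix.det_fin_two_of] at h1
  rw [← h1, pow_succ]
  ring

/-- **`orderOf c₀ = e`.** -/
theorem orderOf_eq
    (hdet : (GaloisRepAdic.ofResidualGaloisRep ρbar).DetIsCyclotomic p) [CharP k p]
    (hζ : IsPrimitiveRoot ζ p) (D : IsSSData ρbar p A b' ζ π e m s₀ φ w₀ wφ c₀ x) :
    orderOf c₀ = e := by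
  have hpp : p.Prime := hp.out
  have : NeZero p := ⟨hpp.ne_zero⟩
  have hres := isRes_resK A (ssN ρbar.ρ p)
  have hIn₀ : IsInert A.valuation (fK A (ssN ρbar.ρ p)) s₀ :=
    isInert_of_mem_inertia A (ssN ρbar.ρ p) D.hs₀I
  apply Nat.dvd_antisymm (orderOf_dvd_of_pow_eq_one D.hce)
  set n := orderOf c₀ with hn
  have hcn : c₀ ^ n = 1 := pow_orderOf_eq_one c₀
  -- `s₀ ^ n ∈ N`
  have hmem : s₀ ^ n ∈ ssN ρbar.ρ p := by
    rw [mem_ssN_iff]
    refine ⟨?_, fun μ hμ => ?_⟩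
    · apply eq_one_of_toMatRes_eq_one ρbar b'
      rw [map_pow, D.hR₀, diag_pow_fin_two, ← pow_mul, mul_comm p, pow_mul, hcn, one_pow]
      ext i j; fin_cases i <;> fin_cases j <;> simp
    · -- `w₀ ^ n ≡ 1 mod p`
      have h1 : ((w₀ ^ n : ℕ) : k) = ((1 : ℕ) : k) := by
        push_cast
        rw [← pow_succ_eq_natCast hdet hζ D, ← pow_mul, mul_comm, pow_mul, hcn, one_pow]
      have h2 : w₀ ^ n ≡ 1 [MOD p] := (CharP.natCast_eq_natCast k p).1 h1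
      obtain ⟨j, -, rfl⟩ := hζ.eq_pow_of_pow_eq_one hμ
      have h0 : s₀ ζ = ζ ^ w₀ := D.hζ₀
      have h3 : ∀ i : ℕ, (s₀ ^ i) ζ = ζ ^ (w₀ ^ i) := by
        intro i
        induction i with
        | zero => simp
        | succ i ih =>
          rw [pow_succ, AlgEquiv.mul_apply, h0, map_pow, ih, ← pow_mul, pow_succ]
      rw [map_pow, h3 n]
      congr 1
      have h4 : ζ ^ (w₀ ^ n) = ζ ^ 1 := by
        rw [← Nat.mod_add_div (w₀ ^ n) p, ← Nat.mod_add_div 1 p, pow_add, pow_add, pow_mul,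
          pow_mul, hζ.pow_eq_one, one_pow, one_pow, h2]
      rw [h4, pow_one]
  -- hence `θ(s₀) ^ n = 1`
  apply D.ht₀.dvd_of_pow_eq_one
  have h1 : thetaK A (ssN ρbar.ρ p) π (s₀ ^ n) = thetaK A (ssN ρbar.ρ p) π s₀ ^ n :=
    theta_pow_inert hres D.hπK D.hπ0 hIn₀ _
  rw [← h1]
  have h2 : thetaK A (ssN ρbar.ρ p) π (s₀ ^ n) = thetaK A (ssN ρbar.ρ p) π 1 := by
    refine thetaK_eq_of_mem A (ssN ρbar.ρ p) D.hπK (Subgroup.one_mem _)
      (Subgroup.pow_mem _ D.hs₀D _) ?_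
    rw [inv_one, one_mul]
    exact hmem
  rw [h2]
  exact theta_one hres D.hπK D.hπ0

/-- `m ∣ p + 1`. -/
theorem exists_mul_eq (D : IsSSData ρbar p A b' ζ π e m s₀ φ w₀ wφ c₀ x) :
    ∃ d : ℕ, d * m = p + 1 := by
  have hpp : p.Prime := hp.out
  have hp1 : 0 < p - 1 := Nat.sub_pos_of_lt hpp.one_lt
  have h3 : p ^ 2 - 1 = (p + 1) * (p - 1) := by
    have : p ^ 2 = (p + 1) * (p - 1) + 1 := by
      obtain ⟨q, rfl⟩ : ∃ q, p = q + 1 := ⟨p - 1, by have := hpp.pos; omega⟩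
      simp only [Nat.add_sub_cancel]
      ring
    omega
  have h1 : m * (p - 1) ∣ (p + 1) * (p - 1) := by
    rw [← D.he, ← h3]; exact D.hedvd
  obtain ⟨d, hd⟩ := (Nat.mul_dvd_mul_iff_right hp1).1 h1
  exact ⟨d, by rw [hd, mul_comm]⟩

end Ord

/-! ### the count, binder-free -/

section Count

open Fermat.Agent.GP.Flat.SSAsm

variable {k : Type} [Field k] [Finite k] {ρbar : ResidualGaloisRep k} {p : ℕ} [hp : Fact p.Prime]
  {A : ValuationSubring Qb} {b' : Module.Basis (Fin 2) k ρbar.V} {ζ : Qb}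

/-- **the supersingular count at the `ℚ̄`-instance**, for an adapted basis. -/
theorem card_ss_le (hp3 : 3 ≤ p)
    (hdet : (GaloisRepAdic.ofResidualGaloisRep ρbar).DetIsCyclotomic p)
    (hA : (p : Qb) ∈ A.nonunits) (hb' : IsAdapted ρbar p A b') (hζ : IsPrimitiveRoot ζ p) :
    Finite {h : GQ → Matrix (Fin 2) (Fin 2) k //
        h ∈ HLev (p := p) A.valuation (A.decompositionSubgroup ℚ) (gK A (ssN ρbar.ρ p))
          (fK A (ssN ρbar.ρ p)) ζ (SSAsm.adAct (toMatRes ρbar b')) (A.valuation (p : Qb)) ∧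
        ∀ g, (h g).trace = 0} ∧
      Nat.card {h : GQ → Matrix (Fin 2) (Fin 2) k //
        h ∈ HLev (p := p) A.valuation (A.decompositionSubgroup ℚ) (gK A (ssN ρbar.ρ p))
          (fK A (ssN ρbar.ρ p)) ζ (SSAsm.adAct (toMatRes ρbar b')) (A.valuation (p : Qb)) ∧
        ∀ g, (h g).trace = 0} ≤ Nat.card k := by
  have hpp : p.Prime := hp.out
  haveI : CharP k p := Fermat.Agent.GP.Flat.CasesFrozen.charP_of_detIsCyclotomic ρbar p hdet
  have hopen : IsOpen (ssN ρbar.ρ p : Set GQ) := isOpen_ssN_residual ρbar p hpp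
  haveI : CharP (ResidueField (locRing A (ssN ρbar.ρ p))) p := charP_kappa A _ hpp hA
  haveI : Finite (ResidueField (locRing A (ssN ρbar.ρ p))) := finite_kappa A _ hpp hA hopen
  have hζK : ζ ∈ fK A (ssN ρbar.ρ p) := zeta_mem_fK_ssN ρbar p A hζ.pow_eq_one
  obtain ⟨π, e, m, s₀, φ, w₀, wφ, c₀, x, D⟩ := exists_isSSData (ζ := ζ) hA hb' hζ
  obtain ⟨d, hdm⟩ := exists_mul_eq D
  exact card_ssLev_le_of_orders A.valuation (resK A (ssN ρbar.ρ p))
    (SSInst.hK A (ssN ρbar.ρ p)) hζ hζK (SSInst.horb A (ssN ρbar.ρ p))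
    (isRes_resK A (ssN ρbar.ρ p)) (toMatRes ρbar b') hp3 (resK_surjective A (ssN ρbar.ρ p))
    (SSInst.hperf A (ssN ρbar.ρ p) hpp hA hopen) (hiso_gK A (ssN ρbar.ρ p))
    D.hπK D.hπ0 D.hπ1 D.hdisc hdm D.he D.hep D.hs₀D D.hφD D.hiso₀ D.hisoφ D.hG₀ D.hGφ
    D.hζ₀ D.hζφ D.hres₀ D.hresφ D.hx D.hcp D.hR₀ D.hRφ (orderOf_eq hdet hζ D)
    (pow_succ_eq_natCast hdet hζ D) D.ht₀

end Count

end Fermat.Agent.GP.Flat.SSData
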