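/-
GATE-P (S56, zero-regret) / [P-FLAT] leaf S56-FLAT-SSHLC-COND (helper44).

**From the `Hlc (levelQ q)` adapter `SSHlcPinned.Lq` to helper35's `LocalCond` contract**
(`GP/Core/LocalCond.lean`, board 4222).

Data: helper11's MODEL BINDERS `N`, `emb`, `GlobModel N (toMatRes ρbar b) emb`; an additive subgroup
`ZD ≤ (G_ℚ → M₂(k))` of matrix functions; a map `φ : ZD → T` to a finite type `T` with
`#T ≤ p ^ e` whose fibres consist of functions which differ ON `D_P` (`P = padicPlace q`) by the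
matrix coboundary of a trace-zero matrix (the "class side"); and the membership statement: for every
continuous matrix lift `t` of `r̄ = toMatRes ρbar b` to `k[ε]` which is equivalent to some `ρ` with
the local property `P`, `tanCocycle t ∈ ZD`.

Conclusion: `LocalCond ρbar b p N emb q P e` with `L := Lq N emb q ZD`.

* `card_le_pow_iff_finrank_le`-type conversion: `finrank_le_of_card_le_pow`;
* `localMem_Lq` — the membership clause alone (no count);
* `module_finite_and_finrank_Lq_le` — `Module.Finite` + `finrank ≤ e` from the count;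
* **`localCond_of_ZD`** (class side on `D_P` in the FROZEN language) and `localCond_of_ZD'` (class
  side on `Gq q` through `localGaloisToGlobal q`);
* **`localCond_of_restrict`**: the class side DISCHARGED by helper50's `SSAsm/ClassSide.lean`: members
  of `ZD` are trace-zero cocycles on `D_P`, `GK` a subgroup with `[D_P : GK ⊓ D_P]` invertible in `k`,
  and `φ c = φ c'` implies `c = c'` on `GK ⊓ D_P` (`φ` = "restriction to `G_K`");
* `localCond_of_ZD_of_exists`: the variant by cases "if some lift with `P` exists then (ZD, φ) are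
  available" (so the data may depend on the existence of one lift with `P`, never on `t`).
NEW file; imports only.
-/
import Fermat.Agent.GP.Flat.SSHlcPinned
import Fermat.Agent.GP.Flat.SSAsm.ClassSide
import Fermat.Agent.GP.Core.LocalCond

set_option autoImplicit false
set_option linter.unusedSectionVars false

namespace Fermat.Agent.GP.Flat.SSHlcCond

open IsLocalRing Fermat.Agent.S53_helper35 Matrix Fermat.Agent.GP.Tan.Cocycle
  Fermat.Agent.GC.Prof Fermat.Agent.GC.Places Fermat.Agent.GC.Local.KR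
  Fermat.Agent.GP.Core Fermat.Agent.GP.Flat.SSHlcPinned

noncomputable section

/-- a finite `𝔽_p`-vector space with at most `p ^ e` elements has dimension `≤ e`. -/
theorem finrank_le_of_card_le_pow {p : ℕ} [Fact p.Prime] {V : Type*} [AddCommGroup V]
    [Module (ZMod p) V] [Finite V] {e : ℕ} (h : Nat.card V ≤ p ^ e) :
    Module.Finite (ZMod p) V ∧ Module.finrank (ZMod p) V ≤ e := by
  have hfin : Module.Finite (ZMod p) V := Module.Finite.of_finite
  refine ⟨hfin, ?_⟩
  have hcard : Nat.card V = p ^ Module.finrank (ZMod p) V := by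
    have := Module.natCard_eq_pow_finrank (K := ZMod p) (V := V)
    rwa [Nat.card_zmod] at this
  rw [hcard] at h
  exact (Nat.pow_le_pow_iff_right (Fact.out : p.Prime).one_lt).1 h

section Contract

variable {𝒪 : Type} [CommRing 𝒪] [IsLocalRing 𝒪]
  (ρbar : ResidualGaloisRep (ResidueField 𝒪))
  (b : Module.Basis (Fin 2) (ResidueField 𝒪) ρbar.V)
  (p : ℕ) [Fact p.Prime]
  (N : Rep (ZMod p) S53_helper35.GQ)
  (emb : N →+ Matrix (Fin 2) (Fin 2) (ResidueField 𝒪))
  (q : ℕ) [Fact q.Prime]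
  [IsDiscrete (levelQ q) (Rep.res (localGaloisToGlobal q) N)]

/-- **membership**: if the tangent cocycle of every lift with the local property `P` lies in `ZD`,
then `Lq N emb q ZD` satisfies the membership clause of `LocalCond`. -/
theorem localMem_Lq (P : GaloisRepAdic (DualNumber (ResidueField 𝒪)) → Prop)
    (ZD : AddSubgroup (S53_helper35.GQ → Matrix (Fin 2) (Fin 2) (ResidueField 𝒪)))
    (hmem : ∀ (t : S53_helper35.GQ →* Matrix (Fin 2) (Fin 2) (DualNumber (ResidueField 𝒪)))
      (ht : MatCont t), rfst t = toMatRes ρbar b →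
      (∃ ρ : GaloisRepAdic (DualNumber (ResidueField 𝒪)), P ρ ∧ ρ.IsEquiv (ofMat t ht)) →
      tanCocycle t ∈ ZD) :
    LocalMem ρbar b p N emb q P (Lq N emb q ZD) := by
  intro t ht hfst hP z hz
  refine SSHlc.mem_Lp_of_emb_mem (levelQ q) (Rep.res (localGaloisToGlobal q) N) emb z ?_
  refine ⟨tanCocycle t, hmem t ht hfst hP, ?_⟩
  funext τ
  exact (hz τ).symm

variable {N emb}

/-- finiteness and dimension of `Lq` from the count. -/
theorem module_finite_and_finrank_Lq_le
    (h : GlobModel N (toMatRes ρbar b) emb)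
    (ZD : AddSubgroup (S53_helper35.GQ → Matrix (Fin 2) (Fin 2) (ResidueField 𝒪)))
    {T : Type*} [Finite T] (φ : ZD → T)
    (hφ : ∀ c c' : ZD, φ c = φ c' → ∃ X : Matrix (Fin 2) (Fin 2) (ResidueField 𝒪),
      X.trace = 0 ∧ ∀ τ : Gq q,
        (c : S53_helper35.GQ → Matrix (Fin 2) (Fin 2) (ResidueField 𝒪)) (localGaloisToGlobal q τ) -
          (c' : S53_helper35.GQ → Matrix (Fin 2) (Fin 2) (ResidueField 𝒪))
            (localGaloisToGlobal q τ) =
        toMatRes ρbar b (localGaloisToGlobal q τ) * X *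
          toMatRes ρbar b (localGaloisToGlobal q τ)⁻¹ - X)
    (e : ℕ) (hT : Nat.card T ≤ p ^ e) :
    Module.Finite (ZMod p) (Lq N emb q ZD) ∧ Module.finrank (ZMod p) (Lq N emb q ZD) ≤ e := by
  obtain ⟨hc, hf⟩ := card_Lq_le' q h ZD φ hφ
  exact finrank_le_of_card_le_pow (hc.trans hT)

/-- **`LocalCond` from `(ZD, φ)`**, class side stated on `Gq q`. -/
theorem localCond_of_ZD' (h : GlobModel N (toMatRes ρbar b) emb)
    (P : GaloisRepAdic (DualNumber (ResidueField 𝒪)) → Prop)
    (ZD : AddSubgroup (S53_helper35.GQ → Matrix (Fin 2) (Fin 2) (ResidueField 𝒪)))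
    {T : Type*} [Finite T] (φ : ZD → T)
    (hφ : ∀ c c' : ZD, φ c = φ c' → ∃ X : Matrix (Fin 2) (Fin 2) (ResidueField 𝒪),
      X.trace = 0 ∧ ∀ τ : Gq q,
        (c : S53_helper35.GQ → Matrix (Fin 2) (Fin 2) (ResidueField 𝒪)) (localGaloisToGlobal q τ) -
          (c' : S53_helper35.GQ → Matrix (Fin 2) (Fin 2) (ResidueField 𝒪))
            (localGaloisToGlobal q τ) =
        toMatRes ρbar b (localGaloisToGlobal q τ) * X *
          toMatRes ρbar b (localGaloisToGlobal q τ)⁻¹ - X)
    (e : ℕ) (hT : Nat.card T ≤ p ^ e)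
    (hmem : ∀ (t : S53_helper35.GQ →* Matrix (Fin 2) (Fin 2) (DualNumber (ResidueField 𝒪)))
      (ht : MatCont t), rfst t = toMatRes ρbar b →
      (∃ ρ : GaloisRepAdic (DualNumber (ResidueField 𝒪)), P ρ ∧ ρ.IsEquiv (ofMat t ht)) →
      tanCocycle t ∈ ZD) :
    LocalCond ρbar b p N emb q P e := by
  obtain ⟨hfin, hrk⟩ := module_finite_and_finrank_Lq_le ρbar b p q h ZD φ hφ e hT
  exact ⟨Lq N emb q ZD, hfin, hrk.trans (Nat.le_add_left _ _), localMem_Lq ρbar b p N emb q P ZD hmem⟩

/-- **`LocalCond` from `(ZD, φ)`**, class side stated on the FROZEN decomposition group of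
`padicPlace q`: two members of `ZD` in the same fibre of `φ` differ on `D_P` by the matrix
coboundary of a trace-zero matrix. -/
theorem localCond_of_ZD (h : GlobModel N (toMatRes ρbar b) emb)
    (P : GaloisRepAdic (DualNumber (ResidueField 𝒪)) → Prop)
    (ZD : AddSubgroup (S53_helper35.GQ → Matrix (Fin 2) (Fin 2) (ResidueField 𝒪)))
    {T : Type*} [Finite T] (φ : ZD → T)
    (hφ : ∀ c c' : ZD, φ c = φ c' → ∃ X : Matrix (Fin 2) (Fin 2) (ResidueField 𝒪),
      X.trace = 0 ∧ ∀ σ ∈ (padicPlace q).decompositionSubgroup ℚ,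
        (c : S53_helper35.GQ → Matrix (Fin 2) (Fin 2) (ResidueField 𝒪)) σ -
          (c' : S53_helper35.GQ → Matrix (Fin 2) (Fin 2) (ResidueField 𝒪)) σ =
        toMatRes ρbar b σ * X * toMatRes ρbar b σ⁻¹ - X)
    (e : ℕ) (hT : Nat.card T ≤ p ^ e)
    (hmem : ∀ (t : S53_helper35.GQ →* Matrix (Fin 2) (Fin 2) (DualNumber (ResidueField 𝒪)))
      (ht : MatCont t), rfst t = toMatRes ρbar b →
      (∃ ρ : GaloisRepAdic (DualNumber (ResidueField 𝒪)), P ρ ∧ ρ.IsEquiv (ofMat t ht)) →
      tanCocycle t ∈ ZD) :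
    LocalCond ρbar b p N emb q P e := by
  obtain ⟨hc, hf⟩ := card_Lq_le q h ZD φ hφ
  obtain ⟨hfin, hrk⟩ := finrank_le_of_card_le_pow (p := p) (hc.trans hT)
  exact ⟨Lq N emb q ZD, hfin, hrk.trans (Nat.le_add_left _ _), localMem_Lq ρbar b p N emb q P ZD hmem⟩

/-- **`LocalCond` from `(ZD, φ)` with the class side discharged** (helper50 `SSAsm/ClassSide.lean`,
coset averaging): the members of `ZD` are trace-zero cocycles on `D_P` (`P = padicPlace q`) for the
adjoint action through `r̄`, `GK` is a subgroup of `G_ℚ` whose relative index in `D_P` is invertible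
in `k`, and two members of `ZD` in the same fibre of `φ` agree on `GK ⊓ D_P` (`φ` = "restriction to
`G_K`", `T` = the group of restricted homomorphisms). -/
theorem localCond_of_restrict (h : GlobModel N (toMatRes ρbar b) emb)
    (P : GaloisRepAdic (DualNumber (ResidueField 𝒪)) → Prop)
    (ZD : AddSubgroup (S53_helper35.GQ → Matrix (Fin 2) (Fin 2) (ResidueField 𝒪)))
    (GK : Subgroup S53_helper35.GQ)
    (hidx : ((GK.relIndex ((padicPlace q).decompositionSubgroup ℚ) : ℕ) : ResidueField 𝒪) ≠ 0)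
    (hcoc : ∀ c ∈ ZD, ∀ s ∈ (padicPlace q).decompositionSubgroup ℚ,
      ∀ t ∈ (padicPlace q).decompositionSubgroup ℚ,
        c (s * t) = c s + toMatRes ρbar b s * c t * toMatRes ρbar b s⁻¹)
    (htr : ∀ c ∈ ZD, ∀ s ∈ (padicPlace q).decompositionSubgroup ℚ, (c s).trace = 0)
    {T : Type*} [Finite T] (φ : ZD → T)
    (hφ : ∀ c c' : ZD, φ c = φ c' → ∀ g ∈ GK, g ∈ (padicPlace q).decompositionSubgroup ℚ →
      (c : S53_helper35.GQ → Matrix (Fin 2) (Fin 2) (ResidueField 𝒪)) g =
        (c' : S53_helper35.GQ → Matrix (Fin 2) (Fin 2) (ResidueField 𝒪)) g)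
    (e : ℕ) (hT : Nat.card T ≤ p ^ e)
    (hmem : ∀ (t : S53_helper35.GQ →* Matrix (Fin 2) (Fin 2) (DualNumber (ResidueField 𝒪)))
      (ht : MatCont t), rfst t = toMatRes ρbar b →
      (∃ ρ : GaloisRepAdic (DualNumber (ResidueField 𝒪)), P ρ ∧ ρ.IsEquiv (ofMat t ht)) →
      tanCocycle t ∈ ZD) :
    LocalCond ρbar b p N emb q P e := by
  refine localCond_of_ZD ρbar b p q h P ZD φ ?_ e hT hmem
  intro c c' hcc'
  obtain ⟨X, hX, hXc⟩ := SSAsm.exists_coboundary_of_vanish_on
    ((padicPlace q).decompositionSubgroup ℚ) GK (toMatRes ρbar b)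
    (fun s => (c : S53_helper35.GQ → Matrix (Fin 2) (Fin 2) (ResidueField 𝒪)) s -
      (c' : S53_helper35.GQ → Matrix (Fin 2) (Fin 2) (ResidueField 𝒪)) s)
    (fun s hs t ht => by
      show (c : S53_helper35.GQ → Matrix (Fin 2) (Fin 2) (ResidueField 𝒪)) (s * t) -
          (c' : S53_helper35.GQ → Matrix (Fin 2) (Fin 2) (ResidueField 𝒪)) (s * t) = _
      rw [hcoc c.1 c.2 s hs t ht, hcoc c'.1 c'.2 s hs t ht, Matrix.mul_sub, Matrix.sub_mul]
      abel)
    (fun g hg hgD => by
      show (c : S53_helper35.GQ → Matrix (Fin 2) (Fin 2) (ResidueField 𝒪)) g -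
          (c' : S53_helper35.GQ → Matrix (Fin 2) (Fin 2) (ResidueField 𝒪)) g = 0
      rw [hφ c c' hcc' g hg hgD, sub_self])
    hidx
  refine ⟨X, hX fun s hs => ?_, fun σ hσ => hXc σ hσ⟩
  show ((c : S53_helper35.GQ → Matrix (Fin 2) (Fin 2) (ResidueField 𝒪)) s -
      (c' : S53_helper35.GQ → Matrix (Fin 2) (Fin 2) (ResidueField 𝒪)) s).trace = 0
  rw [Matrix.trace_sub, htr c.1 c.2 s hs, htr c'.1 c'.2 s hs, sub_self]

/-- **by cases**: the data `(ZD, T, φ)` may be produced from the EXISTENCE of one lift with the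
local property `P` (e.g. "then `ρ̄` has the local shape"); if no such lift exists, `L = ⊥`. -/
theorem localCond_of_ZD_of_exists (h : GlobModel N (toMatRes ρbar b) emb)
    (P : GaloisRepAdic (DualNumber (ResidueField 𝒪)) → Prop) (e : ℕ)
    (H : (∃ (t : S53_helper35.GQ →* Matrix (Fin 2) (Fin 2) (DualNumber (ResidueField 𝒪)))
        (ht : MatCont t), rfst t = toMatRes ρbar b ∧
        ∃ ρ : GaloisRepAdic (DualNumber (ResidueField 𝒪)), P ρ ∧ ρ.IsEquiv (ofMat t ht)) →
      ∃ (ZD : AddSubgroup (S53_helper35.GQ → Matrix (Fin 2) (Fin 2) (ResidueField 𝒪)))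
        (T : Type) (_ : Finite T) (φ : ZD → T),
        (∀ c c' : ZD, φ c = φ c' → ∃ X : Matrix (Fin 2) (Fin 2) (ResidueField 𝒪),
          X.trace = 0 ∧ ∀ σ ∈ (padicPlace q).decompositionSubgroup ℚ,
            (c : S53_helper35.GQ → Matrix (Fin 2) (Fin 2) (ResidueField 𝒪)) σ -
              (c' : S53_helper35.GQ → Matrix (Fin 2) (Fin 2) (ResidueField 𝒪)) σ =
            toMatRes ρbar b σ * X * toMatRes ρbar b σ⁻¹ - X) ∧
        Nat.card T ≤ p ^ e ∧
        ∀ (t : S53_helper35.GQ →* Matrix (Fin 2) (Fin 2) (DualNumber (ResidueField 𝒪)))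
          (ht : MatCont t), rfst t = toMatRes ρbar b →
          (∃ ρ : GaloisRepAdic (DualNumber (ResidueField 𝒪)), P ρ ∧ ρ.IsEquiv (ofMat t ht)) →
          tanCocycle t ∈ ZD) :
    LocalCond ρbar b p N emb q P e := by
  by_cases hex : ∃ (t : S53_helper35.GQ →* Matrix (Fin 2) (Fin 2) (DualNumber (ResidueField 𝒪)))
        (ht : MatCont t), rfst t = toMatRes ρbar b ∧
        ∃ ρ : GaloisRepAdic (DualNumber (ResidueField 𝒪)), P ρ ∧ ρ.IsEquiv (ofMat t ht)
  · obtain ⟨ZD, T, hT, φ, hφ, hcard, hmem⟩ := H hex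
    exact localCond_of_ZD ρbar b p q h P ZD φ hφ e hcard hmem
  · refine ⟨⊥, inferInstance, ?_, ?_⟩
    · rw [finrank_bot]
      exact Nat.zero_le _
    · intro t ht hfst hP
      exact absurd ⟨t, ht, hfst, hP⟩ hex

end Contract

end

end Fermat.Agent.GP.Flat.SSHlcCond
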