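/-
GATE-P (S56, zero-regret) / [P-FLAT] leaf S56-FLAT-SSHLC-COND-H0 (helper44).

**The `H⁰`-variant of `SSHlcCond`** — for local conditions whose count has the shape
`#L ≤ #H⁰(D_P, ad⁰ρ̄) · p ^ e` (the ORDINARY-flat branch: helper47 `OrdLocal.card_Lmax_le` bounds
`#π(bval g ZB) ≤ #inv0 (rD P r̄) · #k`; also the shape of helper79's strict-ordinary count).

* `card_inv0_le_card_Hlc_zero` (abstract `SSHlc.LocModel` frame): `#(ad⁰)^Γ ≤ #Hlc 𝒰 M 0`, where
  `(ad⁰)^Γ = StrictOrdDim.inv0 R` = trace-zero matrices commuting with `R`;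
* `card_inv0_DP_le` (pinned): `#inv0 (r̄|_{D_P}) ≤ #Hlc (levelQ q) (Rep.res (localGaloisToGlobal q) N) 0`
  for the FROZEN decomposition group `D_P`, `P = padicPlace q`;
* `finrank_le_add_of_card_le_mul`: `#V ≤ #W · p ^ e ⟹ finrank V ≤ finrank W + e` (finite
  `𝔽_p`-spaces);
* **`localCond_of_ZD_H0`**: as `SSHlcCond.localCond_of_ZD` with `#T ≤ #Hlc … 0 · p ^ e`;
* **`localCond_of_ZD_inv0`**: the same with `#T ≤ #inv0 (r̄.comp D_P.subtype) · p ^ e`
  (`r̄.comp D_P.subtype` is helper47's `OrdLocal.rD P r̄` unfolded);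
* `localCond_of_ZD_inv0_of_exists`: by cases on the existence of a lift with the local property.
NEW file; imports only.
-/
import Fermat.Agent.GP.Flat.SSHlcCond
import Fermat.Agent.GP.Loc.StrictOrdDim

set_option autoImplicit false
set_option linter.unusedSectionVars false

namespace Fermat.Agent.GP.Flat.SSHlcCondH0

open IsLocalRing Fermat.Agent.S53_helper35 Matrix Fermat.Agent.GP.Tan.Cocycle
  Fermat.Agent.GC.Prof Fermat.Agent.GC.Places Fermat.Agent.GC.Local.KR
  Fermat.Agent.GP.Core Fermat.Agent.GP.Flat.SSHlcPinned Fermat.Agent.GP.Flat.SSHlcCond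
  Fermat.Agent.GP.Loc.StrictOrdDim

noncomputable section

/-- `#V ≤ #W · p ^ e ⟹ dim V ≤ dim W + e` for finite `𝔽_p`-vector spaces. -/
theorem finrank_le_add_of_card_le_mul {p : ℕ} [Fact p.Prime] {V W : Type*} [AddCommGroup V]
    [Module (ZMod p) V] [AddCommGroup W] [Module (ZMod p) W] [Finite V] [Finite W] {e : ℕ}
    (h : Nat.card V ≤ Nat.card W * p ^ e) :
    Module.finrank (ZMod p) V ≤ Module.finrank (ZMod p) W + e := by
  have hV : Nat.card V = p ^ Module.finrank (ZMod p) V := by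
    have := Module.natCard_eq_pow_finrank (K := ZMod p) (V := V)
    rwa [Nat.card_zmod] at this
  have hW : Nat.card W = p ^ Module.finrank (ZMod p) W := by
    have := Module.natCard_eq_pow_finrank (K := ZMod p) (V := W)
    rwa [Nat.card_zmod] at this
  rw [hV, hW, ← pow_add] at h
  exact (Nat.pow_le_pow_iff_right (Fact.out : p.Prime).one_lt).1 h

/-! ### `#(ad⁰)^Γ ≤ #H⁰` in the abstract local model -/

section Abstract

variable {p : ℕ} [Fact p.Prime]
variable {Γ : Type} [Group Γ] (𝒰 : LevelSystem Γ)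
variable {k : Type} [Field k]
variable {R : Γ →* Matrix (Fin 2) (Fin 2) k}
variable {M : Rep (ZMod p) Γ} [IsDiscrete 𝒰 M]
variable {emb : M →+ Matrix (Fin 2) (Fin 2) k}

/-- in a local model with finite `k` the module `M` is finite. -/
theorem finite_of_locModel [Finite k] (h : SSHlc.LocModel R M emb) : Finite M :=
  Finite.of_injective emb h.hinj

/-- `Hlc 𝒰 M 0` is finite in a local model with finite `k`. -/
theorem finite_Hlc_zero [Finite k] (h : SSHlc.LocModel R M emb) : Finite (Hlc 𝒰 M 0) := by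
  have hM : Finite M := finite_of_locModel h
  exact Finite.of_injective (Hlc0Equiv 𝒰 M) (Hlc0Equiv 𝒰 M).injective

/-- **`#(ad⁰)^Γ ≤ #H⁰(Γ, M)`**: a trace-zero matrix commuting with `R` is `emb` of an invariant. -/
theorem card_inv0_le_card_Hlc_zero [Finite k] (h : SSHlc.LocModel R M emb) :
    Nat.card (inv0 R) ≤ Nat.card (Hlc 𝒰 M 0) := by
  classical
  have hM : Finite M := finite_of_locModel h
  rw [Nat.card_congr (Hlc0Equiv 𝒰 M).toEquiv]
  have hlift : ∀ X : inv0 R, ∃ x : M, emb x = X.1 := fun X => h.hsurj X.1 X.2.1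
  choose lift hliftE using hlift
  let φ : inv0 R → M.ρ.invariants := fun X =>
    ⟨lift X, fun γ => by
      apply h.hinj
      rw [h.hact, hliftE]
      have hc := X.2.2 γ
      have hrr : R γ * R γ⁻¹ = 1 := by rw [← map_mul, mul_inv_cancel, map_one]
      calc R γ * X.1 * R γ⁻¹ = X.1 * (R γ * R γ⁻¹) := by rw [hc, Matrix.mul_assoc]
        _ = X.1 := by rw [hrr, Matrix.mul_one]⟩
  have hφ : Function.Injective φ := by
    intro X Y hXY
    have h1 : lift X = lift Y := congrArg Subtype.val hXY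
    have h2 := congrArg emb h1
    rw [hliftE, hliftE] at h2
    exact Subtype.ext h2
  exact Nat.card_le_card_of_injective φ hφ

end Abstract

/-! ### the pinned model at `q` -/

section Pinned

variable {p : ℕ} [Fact p.Prime]
variable {N : Rep (ZMod p) S53_helper35.GQ}
variable {k : Type} [Field k] {Rg : S53_helper35.GQ →* Matrix (Fin 2) (Fin 2) k}
variable {emb : N →+ Matrix (Fin 2) (Fin 2) k}
variable (q : ℕ) [Fact q.Prime]
variable [IsDiscrete (levelQ q) (Rep.res (localGaloisToGlobal q) N)]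

/-- `Hlc (levelQ q) (Rep.res (localGaloisToGlobal q) N) 0` is finite for finite `k`. -/
theorem finite_Hlc_zero_res [Finite k] (h : GlobModel N Rg emb) :
    Finite (Hlc (levelQ q) (Rep.res (localGaloisToGlobal q) N) 0) :=
  finite_Hlc_zero (levelQ q) (locModel_of_globModel q h)

/-- `#(ad⁰)^{G_q} ≤ #H⁰(G_q, N)`, with `G_q` acting through `localGaloisToGlobal q`. -/
theorem card_inv0_Gq_le [Finite k] (h : GlobModel N Rg emb) :
    Nat.card (inv0 (Rg.comp (localGaloisToGlobal q))) ≤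
      Nat.card (Hlc (levelQ q) (Rep.res (localGaloisToGlobal q) N) 0) :=
  card_inv0_le_card_Hlc_zero (levelQ q) (locModel_of_globModel q h)

/-- **`#(ad⁰)^{D_P} ≤ #H⁰(G_q, N)`** for the FROZEN decomposition group `D_P`, `P = padicPlace q`
(`Rg.comp D_P.subtype` is `OrdLocal.rD P Rg` unfolded). -/
theorem card_inv0_DP_le [Finite k] (h : GlobModel N Rg emb) :
    Nat.card (inv0 (Rg.comp ((padicPlace q).decompositionSubgroup ℚ).subtype)) ≤
      Nat.card (Hlc (levelQ q) (Rep.res (localGaloisToGlobal q) N) 0) := by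
  refine le_trans ?_ (card_inv0_Gq_le q h)
  let φ : inv0 (Rg.comp ((padicPlace q).decompositionSubgroup ℚ).subtype) →
      inv0 (Rg.comp (localGaloisToGlobal q)) := fun X =>
    ⟨X.1, X.2.1, fun τ =>
      X.2.2 ⟨localGaloisToGlobal q τ, localGaloisToGlobal_mem_decompositionSubgroup q τ⟩⟩
  have hφ : Function.Injective φ := by
    intro X Y hXY
    have h1 : (φ X).1 = (φ Y).1 := congrArg Subtype.val hXY
    exact Subtype.ext h1
  have hfin : Finite (inv0 (Rg.comp (localGaloisToGlobal q))) :=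
    Finite.of_injective (fun X => X.1) Subtype.val_injective
  exact Nat.card_le_card_of_injective φ hφ

end Pinned

/-! ### `LocalCond` with an `H⁰` term -/

section Contract

variable {𝒪 : Type} [CommRing 𝒪] [IsLocalRing 𝒪]
  (ρbar : ResidualGaloisRep (ResidueField 𝒪))
  (b : Module.Basis (Fin 2) (ResidueField 𝒪) ρbar.V)
  (p : ℕ) [Fact p.Prime]
  {N : Rep (ZMod p) S53_helper35.GQ}
  {emb : N →+ Matrix (Fin 2) (Fin 2) (ResidueField 𝒪)}
  (q : ℕ) [Fact q.Prime]
  [IsDiscrete (levelQ q) (Rep.res (localGaloisToGlobal q) N)]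

/-- **`LocalCond` from `(ZD, φ)` with `#T ≤ #H⁰(G_q, N) · p ^ e`.** -/
theorem localCond_of_ZD_H0 [Finite (ResidueField 𝒪)]
    (h : GlobModel N (toMatRes ρbar b) emb)
    (P : GaloisRepAdic (DualNumber (ResidueField 𝒪)) → Prop)
    (ZD : AddSubgroup (S53_helper35.GQ → Matrix (Fin 2) (Fin 2) (ResidueField 𝒪)))
    {T : Type*} [Finite T] (φ : ZD → T)
    (hφ : ∀ c c' : ZD, φ c = φ c' → ∃ X : Matrix (Fin 2) (Fin 2) (ResidueField 𝒪),
      X.trace = 0 ∧ ∀ σ ∈ (padicPlace q).decompositionSubgroup ℚ,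
        (c : S53_helper35.GQ → Matrix (Fin 2) (Fin 2) (ResidueField 𝒪)) σ -
          (c' : S53_helper35.GQ → Matrix (Fin 2) (Fin 2) (ResidueField 𝒪)) σ =
        toMatRes ρbar b σ * X * toMatRes ρbar b σ⁻¹ - X)
    (e : ℕ)
    (hT : Nat.card T ≤
      Nat.card (Hlc (levelQ q) (Rep.res (localGaloisToGlobal q) N) 0) * p ^ e)
    (hmem : ∀ (t : S53_helper35.GQ →* Matrix (Fin 2) (Fin 2) (DualNumber (ResidueField 𝒪)))
      (ht : MatCont t), rfst t = toMatRes ρbar b →
      (∃ ρ : GaloisRepAdic (DualNumber (ResidueField 𝒪)), P ρ ∧ ρ.IsEquiv (ofMat t ht)) →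
      tanCocycle t ∈ ZD) :
    LocalCond ρbar b p N emb q P e := by
  obtain ⟨hc, hf⟩ := card_Lq_le q h ZD φ hφ
  have hH0 : Finite (Hlc (levelQ q) (Rep.res (localGaloisToGlobal q) N) 0) :=
    finite_Hlc_zero_res q h
  have hfin : Module.Finite (ZMod p) (Lq N emb q ZD) := Module.Finite.of_finite
  exact ⟨Lq N emb q ZD, hfin, finrank_le_add_of_card_le_mul (hc.trans hT),
    localMem_Lq ρbar b p N emb q P ZD hmem⟩

/-- **`LocalCond` from `(ZD, φ)` with `#T ≤ #(ad⁰ρ̄)^{D_P} · p ^ e`**, `(ad⁰ρ̄)^{D_P} =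
StrictOrdDim.inv0 (r̄|_{D_P})` — the shape of helper47's `OrdLocal.card_Lmax_le` (with
`#k = p ^ e`). -/
theorem localCond_of_ZD_inv0 [Finite (ResidueField 𝒪)]
    (h : GlobModel N (toMatRes ρbar b) emb)
    (P : GaloisRepAdic (DualNumber (ResidueField 𝒪)) → Prop)
    (ZD : AddSubgroup (S53_helper35.GQ → Matrix (Fin 2) (Fin 2) (ResidueField 𝒪)))
    {T : Type*} [Finite T] (φ : ZD → T)
    (hφ : ∀ c c' : ZD, φ c = φ c' → ∃ X : Matrix (Fin 2) (Fin 2) (ResidueField 𝒪),
      X.trace = 0 ∧ ∀ σ ∈ (padicPlace q).decompositionSubgroup ℚ,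
        (c : S53_helper35.GQ → Matrix (Fin 2) (Fin 2) (ResidueField 𝒪)) σ -
          (c' : S53_helper35.GQ → Matrix (Fin 2) (Fin 2) (ResidueField 𝒪)) σ =
        toMatRes ρbar b σ * X * toMatRes ρbar b σ⁻¹ - X)
    (e : ℕ)
    (hT : Nat.card T ≤
      Nat.card (inv0 ((toMatRes ρbar b).comp
        ((padicPlace q).decompositionSubgroup ℚ).subtype)) * p ^ e)
    (hmem : ∀ (t : S53_helper35.GQ →* Matrix (Fin 2) (Fin 2) (DualNumber (ResidueField 𝒪)))
      (ht : MatCont t), rfst t = toMatRes ρbar b →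
      (∃ ρ : GaloisRepAdic (DualNumber (ResidueField 𝒪)), P ρ ∧ ρ.IsEquiv (ofMat t ht)) →
      tanCocycle t ∈ ZD) :
    LocalCond ρbar b p N emb q P e :=
  localCond_of_ZD_H0 ρbar b p q h P ZD φ hφ e
    (hT.trans (Nat.mul_le_mul_right _ (card_inv0_DP_le q h))) hmem

/-- **by cases** (`H⁰`-variant): `(ZD, T, φ)` may be produced from the EXISTENCE of one lift with
the local property `P`; if no such lift exists, `L = ⊥`. -/
theorem localCond_of_ZD_inv0_of_exists [Finite (ResidueField 𝒪)]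
    (h : GlobModel N (toMatRes ρbar b) emb)
    (P : GaloisRepAdic (DualNumber (ResidueField 𝒪)) → Prop) (e : ℕ)
    (H : (∃ (t : S53_helper35.GQ →* Matrix (Fin 2) (Fin 2) (DualNumber (ResidueField 𝒪)))
        (ht : MatCont t), rfst t = toMatRes ρbar b ∧
        ∃ ρ : GaloisRepAdic (DualNumber (ResidueField 𝒪)), P ρ ∧ ρ.IsEquiv (ofMat t ht)) →
      ∃ (ZD : AddSubgroup (S53_helper35.GQ → Matrix (Fin 2) (Fin 2) (ResidueField 𝒪)))
        (T : Type) (_ : Finite T) (φ : ZD → T),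
        (∀ c c' : ZD, φ c = φ c' → ∃ X : Matrix (Fin 2) (Fin 2) (ResidueField 𝒪),
          X.trace = 0 ∧ ∀ σ ∈ (padicPlace q).decompositionSubgroup ℚ,
            (c : S53_helper35.GQ → Matrix (Fin 2) (Fin 2) (ResidueField 𝒪)) σ -
              (c' : S53_helper35.GQ → Matrix (Fin 2) (Fin 2) (ResidueField 𝒪)) σ =
            toMatRes ρbar b σ * X * toMatRes ρbar b σ⁻¹ - X) ∧
        Nat.card T ≤ Nat.card (inv0 ((toMatRes ρbar b).comp
          ((padicPlace q).decompositionSubgroup ℚ).subtype)) * p ^ e ∧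
        ∀ (t : S53_helper35.GQ →* Matrix (Fin 2) (Fin 2) (DualNumber (ResidueField 𝒪)))
          (ht : MatCont t), rfst t = toMatRes ρbar b →
          (∃ ρ : GaloisRepAdic (DualNumber (ResidueField 𝒪)), P ρ ∧ ρ.IsEquiv (ofMat t ht)) →
          tanCocycle t ∈ ZD) :
    LocalCond ρbar b p N emb q P e := by
  by_cases hex : ∃ (t : S53_helper35.GQ →* Matrix (Fin 2) (Fin 2) (DualNumber (ResidueField 𝒪)))
        (ht : MatCont t), rfst t = toMatRes ρbar b ∧
        ∃ ρ : GaloisRepAdic (DualNumber (ResidueField 𝒪)), P ρ ∧ ρ.IsEquiv (ofMat t ht)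
  · obtain ⟨ZD, T, hT, φ, hφ, hcard, hmem⟩ := H hex
    exact localCond_of_ZD_inv0 ρbar b p q h P ZD φ hφ e hcard hmem
  · refine ⟨⊥, inferInstance, ?_, ?_⟩
    · rw [finrank_bot]
      exact Nat.zero_le _
    · intro t ht hfst hP
      exact absurd ⟨t, ht, hfst, hP⟩ hex

end Contract

end

end Fermat.Agent.GP.Flat.SSHlcCondH0
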