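/-
GATE-P (S56, zero-regret) / [P-FLAT] leaf S56-FLAT-ORD-HLCCOND (helper44).

**The ORDINARY-flat branch: from a space `ZB'` of pairs `(a, f)` on `D_P` to helper35's
`LocalCond`** (`GP/Core/LocalCond.lean`), through `SSHlcCondH0.localCond_of_ZD_inv0`.

Language of helper47 `GP/Flat/OrdCount.lean` / helper79 `GP/Loc/StrictOrdDim.lean`:
`bval g (a, f) σ = g [[a σ, f σ], [0, -a σ]] g⁻¹`, `cob r X σ = X - r σ X r σ⁻¹`,
`inv0 r = (ad⁰)^D`.  `D_P := (padicPlace q).decompositionSubgroup ℚ` (FROZEN), as a type;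
`r̄_D := (toMatRes ρbar b).comp D_P.subtype` (= `OrdLocal.rD (padicPlace q) r̄` unfolded).

* `cobSub r` — the `k`-submodule of coboundaries of trace-zero matrices; `quoMap r` — the quotient
  map `π : (D → M₂(k)) → (D → M₂(k)) ⧸ cobSub r` (a legal `π` for `OrdCount.card_map_bval_le` /
  `OrdLocal.card_Lmax_le`: `quoMap_cob`);
* `ZDord q r̄ g ZB'` — the additive subgroup of matrix functions `c` on `G_ℚ` with
  `c = bval g x + cob r̄_D X` on `D_P` for some `x ∈ ZB'`, `tr X = 0`;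
* **`localCond_of_ZB`**: for ANY submodule `ZB'` of pairs (so it survives the redesign of the
  `N`-part condition in `OrdLocalGen`), the count
  `#π(bval g ZB') ≤ #inv0 r̄_D · #k` (`π = quoMap r̄_D`), `#k = p ^ d`, and the membership statement
  "the tangent cocycle of every lift with the local property is `bval g x + cob r̄_D X` on `D_P`
  with `x ∈ ZB'`" give `LocalCond ρbar b p N emb q P d`;
* `localCond_of_ZB_of_exists`: by cases on the existence of a lift with the local property (the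
  basis `g` and the space `ZB'` may be chosen from the existence of one such lift).
NEW file; imports only.
-/
import Fermat.Agent.GP.Flat.SSHlcCondH0
import Fermat.Agent.GP.Flat.OrdCount

set_option autoImplicit false
set_option linter.unusedSectionVars false

namespace Fermat.Agent.GP.Flat.OrdHlcCond

open IsLocalRing Fermat.Agent.S53_helper35 Matrix Fermat.Agent.GP.Tan.Cocycle
  Fermat.Agent.GC.Prof Fermat.Agent.GC.Places Fermat.Agent.GC.Local.KR
  Fermat.Agent.GP.Core Fermat.Agent.GP.Flat.SSHlcPinned Fermat.Agent.GP.Flat.SSHlcCond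
  Fermat.Agent.GP.Flat.SSHlcCondH0 Fermat.Agent.GP.Loc.StrictOrdDim
  Fermat.Agent.GP.Flat.OrdCount

noncomputable section

/-! ### the quotient by the coboundaries of trace-zero matrices -/

section Quo

variable {k : Type} [Field k] {D : Type} [Group D] (r : D →* Matrix (Fin 2) (Fin 2) k)

/-- the `k`-submodule of coboundaries `σ ↦ X - r σ X r σ⁻¹` of trace-zero matrices. -/
def cobSub : Submodule k (D → Matrix (Fin 2) (Fin 2) k) :=
  (LinearMap.ker (Matrix.traceLinearMap (Fin 2) k k)).map (cob r)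

theorem mem_cobSub {c : D → Matrix (Fin 2) (Fin 2) k} :
    c ∈ cobSub r ↔ ∃ X : Matrix (Fin 2) (Fin 2) k, X.trace = 0 ∧ cob r X = c := by
  unfold cobSub
  rw [Submodule.mem_map]
  constructor
  · rintro ⟨X, hX, rfl⟩
    exact ⟨X, hX, rfl⟩
  · rintro ⟨X, hX, rfl⟩
    exact ⟨X, hX, rfl⟩

/-- the quotient map killing the coboundaries of trace-zero matrices. -/
def quoMap : (D → Matrix (Fin 2) (Fin 2) k) →ₗ[k] ((D → Matrix (Fin 2) (Fin 2) k) ⧸ cobSub r) :=
  (cobSub r).mkQ

/-- `quoMap r` is a legal `π` for `OrdCount.card_map_bval_le` / `OrdLocal.card_Lmax_le`. -/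
theorem quoMap_cob (X : Matrix (Fin 2) (Fin 2) k) (hX : X.trace = 0) :
    quoMap r (cob r X) = 0 := by
  unfold quoMap
  rw [Submodule.mkQ_apply, Submodule.Quotient.mk_eq_zero]
  exact (mem_cobSub r).2 ⟨X, hX, rfl⟩

theorem quoMap_eq_iff {c c' : D → Matrix (Fin 2) (Fin 2) k} :
    quoMap r c = quoMap r c' ↔
      ∃ X : Matrix (Fin 2) (Fin 2) k, X.trace = 0 ∧ cob r X = c - c' := by
  unfold quoMap
  rw [Submodule.mkQ_apply, Submodule.mkQ_apply, Submodule.Quotient.eq, mem_cobSub]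

end Quo

/-! ### the subgroup of matrix functions attached to `ZB'` -/

section ZD

variable {k : Type} [Field k] (q : ℕ) [Fact q.Prime]
  (r : S53_helper35.GQ →* Matrix (Fin 2) (Fin 2) k) (g : GL (Fin 2) k)

/-- the frozen decomposition group of `padicPlace q`, as a type. -/
abbrev DPq : Type := ↥((padicPlace q).decompositionSubgroup ℚ)

/-- `r` restricted to `D_P`. -/
abbrev rDq : DPq q →* Matrix (Fin 2) (Fin 2) k :=
  r.comp ((padicPlace q).decompositionSubgroup ℚ).subtype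

/-- restriction of a matrix function on `G_ℚ` to `D_P`. -/
def resDP (c : S53_helper35.GQ → Matrix (Fin 2) (Fin 2) k) : DPq q → Matrix (Fin 2) (Fin 2) k :=
  fun σ => c (σ : S53_helper35.GQ)

/-- matrix functions on `G_ℚ` which on `D_P` are `bval g x + cob r̄_D X`, `x ∈ ZB'`, `tr X = 0`. -/
def ZDord (ZB' : Submodule k ((DPq q → k) × (DPq q → k))) :
    AddSubgroup (S53_helper35.GQ → Matrix (Fin 2) (Fin 2) k) where
  carrier := {c | ∃ x ∈ ZB', ∃ X : Matrix (Fin 2) (Fin 2) k, X.trace = 0 ∧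
    resDP q c = bval g x + cob (rDq q r) X}
  zero_mem' := ⟨0, ZB'.zero_mem, 0, by simp, by
    rw [map_zero, map_zero, add_zero]
    rfl⟩
  add_mem' := by
    rintro c c' ⟨x, hx, X, hX, hc⟩ ⟨x', hx', X', hX', hc'⟩
    refine ⟨x + x', ZB'.add_mem hx hx', X + X', by rw [Matrix.trace_add, hX, hX', add_zero], ?_⟩
    have e : resDP q (c + c') = resDP q c + resDP q c' := rfl
    rw [e, hc, hc', map_add, map_add]
    abel
  neg_mem' := by
    rintro c ⟨x, hx, X, hX, hc⟩
    refine ⟨-x, ZB'.neg_mem hx, -X, by rw [Matrix.trace_neg, hX, neg_zero], ?_⟩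
    have e : resDP q (-c) = -resDP q c := rfl
    rw [e, hc, map_neg, map_neg]
    abel

theorem mem_ZDord {ZB' : Submodule k ((DPq q → k) × (DPq q → k))}
    {c : S53_helper35.GQ → Matrix (Fin 2) (Fin 2) k} :
    c ∈ ZDord q r g ZB' ↔ ∃ x ∈ ZB', ∃ X : Matrix (Fin 2) (Fin 2) k, X.trace = 0 ∧
      resDP q c = bval g x + cob (rDq q r) X := Iff.rfl

/-- pointwise form of the membership. -/
theorem mem_ZDord_of_forall {ZB' : Submodule k ((DPq q → k) × (DPq q → k))}
    {c : S53_helper35.GQ → Matrix (Fin 2) (Fin 2) k}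
    (h : ∃ (X : Matrix (Fin 2) (Fin 2) k) (x : (DPq q → k) × (DPq q → k)), X.trace = 0 ∧
      x ∈ ZB' ∧ ∀ σ : DPq q, c (σ : S53_helper35.GQ) = bval g x σ + cob (rDq q r) X σ) :
    c ∈ ZDord q r g ZB' := by
  obtain ⟨X, x, hX, hx, hc⟩ := h
  exact ⟨x, hx, X, hX, funext fun σ => hc σ⟩

/-- the class map `ZDord → π(bval g ZB')`. -/
def phiOrd (ZB' : Submodule k ((DPq q → k) × (DPq q → k))) :
    ZDord q r g ZB' → ↥((ZB'.map (bval g)).map (quoMap (rDq q r))) := fun c =>
  ⟨quoMap (rDq q r) (resDP q c.1), by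
    obtain ⟨x, hx, X, hX, hc⟩ := c.2
    rw [hc, map_add, quoMap_cob (rDq q r) X hX, add_zero]
    exact Submodule.mem_map_of_mem (Submodule.mem_map_of_mem hx)⟩

/-- the fibres of `phiOrd` lie in cosets of the matrix coboundaries on `D_P`. -/
theorem phiOrd_fibre (ZB' : Submodule k ((DPq q → k) × (DPq q → k)))
    (c c' : ZDord q r g ZB') (h : phiOrd q r g ZB' c = phiOrd q r g ZB' c') :
    ∃ X : Matrix (Fin 2) (Fin 2) k, X.trace = 0 ∧
      ∀ σ ∈ (padicPlace q).decompositionSubgroup ℚ,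
        (c : S53_helper35.GQ → Matrix (Fin 2) (Fin 2) k) σ -
          (c' : S53_helper35.GQ → Matrix (Fin 2) (Fin 2) k) σ = r σ * X * r σ⁻¹ - X := by
  have h1 : quoMap (rDq q r) (resDP q c.1) = quoMap (rDq q r) (resDP q c'.1) :=
    congrArg Subtype.val h
  obtain ⟨X, hX, hXc⟩ := (quoMap_eq_iff (rDq q r)).1 h1
  refine ⟨-X, by rw [Matrix.trace_neg, hX, neg_zero], fun σ hσ => ?_⟩
  have h2 := congrFun hXc ⟨σ, hσ⟩
  rw [cob_apply] at h2
  have h3 : c.1 σ - c'.1 σ = X - r σ * X * r σ⁻¹ := h2.symm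
  rw [h3, Matrix.mul_neg, Matrix.neg_mul]
  abel

end ZD

/-! ### `LocalCond` for the ordinary branch -/

section Contract

variable {𝒪 : Type} [CommRing 𝒪] [IsLocalRing 𝒪]
  (ρbar : ResidualGaloisRep (ResidueField 𝒪))
  (b : Module.Basis (Fin 2) (ResidueField 𝒪) ρbar.V)
  (p : ℕ) [Fact p.Prime]
  {N : Rep (ZMod p) S53_helper35.GQ}
  {emb : N →+ Matrix (Fin 2) (Fin 2) (ResidueField 𝒪)}
  (q : ℕ) [Fact q.Prime]
  [IsDiscrete (levelQ q) (Rep.res (localGaloisToGlobal q) N)]

/-- **`LocalCond` from a space `ZB'` of pairs `(a, f)` on `D_P`** (`P = padicPlace q`):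
count `#π(bval g ZB') ≤ #(ad⁰ρ̄)^{D_P} · #k` with `π = quoMap r̄_D` (the conclusion of helper47's
`OrdLocal.card_Lmax_le` / `OrdCount.card_map_bval_le` for this `π`; `hπ = quoMap_cob`), `#k = p^d`,
and membership of the tangent cocycles. -/
theorem localCond_of_ZB [Finite (ResidueField 𝒪)]
    (h : GlobModel N (toMatRes ρbar b) emb)
    (P : GaloisRepAdic (DualNumber (ResidueField 𝒪)) → Prop)
    (g : GL (Fin 2) (ResidueField 𝒪))
    (ZB' : Submodule (ResidueField 𝒪) ((DPq q → ResidueField 𝒪) × (DPq q → ResidueField 𝒪)))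
    (hfin : Finite ↥((ZB'.map (bval g)).map (quoMap (rDq q (toMatRes ρbar b)))))
    (hcount : Nat.card ↥((ZB'.map (bval g)).map (quoMap (rDq q (toMatRes ρbar b)))) ≤
      Nat.card (inv0 (rDq q (toMatRes ρbar b))) * Nat.card (ResidueField 𝒪))
    (d : ℕ) (hk : Nat.card (ResidueField 𝒪) = p ^ d)
    (hmem : ∀ (t : S53_helper35.GQ →* Matrix (Fin 2) (Fin 2) (DualNumber (ResidueField 𝒪)))
      (ht : MatCont t), rfst t = toMatRes ρbar b →
      (∃ ρ : GaloisRepAdic (DualNumber (ResidueField 𝒪)), P ρ ∧ ρ.IsEquiv (ofMat t ht)) →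
      ∃ (X : Matrix (Fin 2) (Fin 2) (ResidueField 𝒪))
        (x : (DPq q → ResidueField 𝒪) × (DPq q → ResidueField 𝒪)), X.trace = 0 ∧ x ∈ ZB' ∧
        ∀ σ : DPq q, tanCocycle t (σ : S53_helper35.GQ) =
          bval g x σ + cob (rDq q (toMatRes ρbar b)) X σ) :
    LocalCond ρbar b p N emb q P d := by
  refine localCond_of_ZD_inv0 ρbar b p q h P (ZDord q (toMatRes ρbar b) g ZB')
    (phiOrd q (toMatRes ρbar b) g ZB') (phiOrd_fibre q (toMatRes ρbar b) g ZB') d ?_ ?_
  · rw [← hk]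
    exact hcount
  · intro t ht hfst hP
    exact mem_ZDord_of_forall q (toMatRes ρbar b) g (hmem t ht hfst hP)

/-- the same with `Module.Finite k ZB'` instead of the finiteness of the image. -/
theorem localCond_of_ZB' [Finite (ResidueField 𝒪)]
    (h : GlobModel N (toMatRes ρbar b) emb)
    (P : GaloisRepAdic (DualNumber (ResidueField 𝒪)) → Prop)
    (g : GL (Fin 2) (ResidueField 𝒪))
    (ZB' : Submodule (ResidueField 𝒪) ((DPq q → ResidueField 𝒪) × (DPq q → ResidueField 𝒪)))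
    [Module.Finite (ResidueField 𝒪) ZB']
    (hcount : Nat.card ↥((ZB'.map (bval g)).map (quoMap (rDq q (toMatRes ρbar b)))) ≤
      Nat.card (inv0 (rDq q (toMatRes ρbar b))) * Nat.card (ResidueField 𝒪))
    (d : ℕ) (hk : Nat.card (ResidueField 𝒪) = p ^ d)
    (hmem : ∀ (t : S53_helper35.GQ →* Matrix (Fin 2) (Fin 2) (DualNumber (ResidueField 𝒪)))
      (ht : MatCont t), rfst t = toMatRes ρbar b →
      (∃ ρ : GaloisRepAdic (DualNumber (ResidueField 𝒪)), P ρ ∧ ρ.IsEquiv (ofMat t ht)) →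
      ∃ (X : Matrix (Fin 2) (Fin 2) (ResidueField 𝒪))
        (x : (DPq q → ResidueField 𝒪) × (DPq q → ResidueField 𝒪)), X.trace = 0 ∧ x ∈ ZB' ∧
        ∀ σ : DPq q, tanCocycle t (σ : S53_helper35.GQ) =
          bval g x σ + cob (rDq q (toMatRes ρbar b)) X σ) :
    LocalCond ρbar b p N emb q P d := by
  have hfinmod : Module.Finite (ResidueField 𝒪)
      ↥((ZB'.map (bval g)).map (quoMap (rDq q (toMatRes ρbar b)))) := by
    rw [← Submodule.map_comp]
    exact Module.Finite.map ZB' _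
  have hfin : Finite ↥((ZB'.map (bval g)).map (quoMap (rDq q (toMatRes ρbar b)))) :=
    Module.finite_of_finite (ResidueField 𝒪)
  exact localCond_of_ZB ρbar b p q h P g ZB' hfin hcount d hk hmem

/-- **by cases**: `g`, `ZB'` and the count may be produced from the EXISTENCE of one lift with
the local property `P`; if no such lift exists, `L = ⊥`. -/
theorem localCond_of_ZB_of_exists [Finite (ResidueField 𝒪)]
    (h : GlobModel N (toMatRes ρbar b) emb)
    (P : GaloisRepAdic (DualNumber (ResidueField 𝒪)) → Prop)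
    (d : ℕ) (hk : Nat.card (ResidueField 𝒪) = p ^ d)
    (H : (∃ (t : S53_helper35.GQ →* Matrix (Fin 2) (Fin 2) (DualNumber (ResidueField 𝒪)))
        (ht : MatCont t), rfst t = toMatRes ρbar b ∧
        ∃ ρ : GaloisRepAdic (DualNumber (ResidueField 𝒪)), P ρ ∧ ρ.IsEquiv (ofMat t ht)) →
      ∃ (g : GL (Fin 2) (ResidueField 𝒪))
        (ZB' : Submodule (ResidueField 𝒪)
          ((DPq q → ResidueField 𝒪) × (DPq q → ResidueField 𝒪))),
        Finite ↥((ZB'.map (bval g)).map (quoMap (rDq q (toMatRes ρbar b)))) ∧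
        Nat.card ↥((ZB'.map (bval g)).map (quoMap (rDq q (toMatRes ρbar b)))) ≤
          Nat.card (inv0 (rDq q (toMatRes ρbar b))) * Nat.card (ResidueField 𝒪) ∧
        ∀ (t : S53_helper35.GQ →* Matrix (Fin 2) (Fin 2) (DualNumber (ResidueField 𝒪)))
          (ht : MatCont t), rfst t = toMatRes ρbar b →
          (∃ ρ : GaloisRepAdic (DualNumber (ResidueField 𝒪)), P ρ ∧ ρ.IsEquiv (ofMat t ht)) →
          ∃ (X : Matrix (Fin 2) (Fin 2) (ResidueField 𝒪))
            (x : (DPq q → ResidueField 𝒪) × (DPq q → ResidueField 𝒪)), X.trace = 0 ∧ x ∈ ZB' ∧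
            ∀ σ : DPq q, tanCocycle t (σ : S53_helper35.GQ) =
              bval g x σ + cob (rDq q (toMatRes ρbar b)) X σ) :
    LocalCond ρbar b p N emb q P d := by
  by_cases hex : ∃ (t : S53_helper35.GQ →* Matrix (Fin 2) (Fin 2) (DualNumber (ResidueField 𝒪)))
        (ht : MatCont t), rfst t = toMatRes ρbar b ∧
        ∃ ρ : GaloisRepAdic (DualNumber (ResidueField 𝒪)), P ρ ∧ ρ.IsEquiv (ofMat t ht)
  · obtain ⟨g, ZB', hfin, hcount, hmem⟩ := H hex
    exact localCond_of_ZB ρbar b p q h P g ZB' hfin hcount d hk hmem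
  · refine ⟨⊥, inferInstance, ?_, ?_⟩
    · rw [finrank_bot]
      exact Nat.zero_le _
    · intro t ht hfst hP
      exact absurd ⟨t, ht, hfst, hP⟩ hex

end Contract

end

end Fermat.Agent.GP.Flat.OrdHlcCond
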