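/-
GATE-P (S56, zero-regret) / [P-FLAT] leaf S56-FLAT-BRANCH-ENDS (helper44).

**The two branch ENDS of helper90's `FlatLocalCond.localCond_flat_of_branches`**, for the local
property `Pfl ρ := ρ.DetIsCyclotomic p ∧ ρ.IsFlatAt p` at `q = p`, in hypothesis form.  The
bookkeeping which is common to both branches is discharged here once:

* a lift `t` with `ρ ~ ofMat t ht` and `Pfl ρ` has `(ofMat t ht).DetIsCyclotomic p` and
  `(ofMat t ht).IsFlatAt p` (transfer along `IsEquiv`: helper11 `detIsCyclotomic_of_isEquiv`,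
  helper64 `isFlatAt_of_isEquiv`), hence a trace-zero tangent cocycle (helper11
  `trace_tanCocycle_eq_zero_of_detIsCyclotomic`) which is a cocycle on all of `G_ℚ`
  (`tanCocycle_mul`);
* the passage to `Hlc (levelQ p)` and to helper35's `LocalCond` (`SSHlcCond`, `SSHlcCondH0`,
  `OrdHlcCond`).

So a branch owner only supplies the COUNT and the MEMBERSHIP statement about `tanCocycle t` for
continuous `t` with `rfst t = r̄`, `(ofMat t ht).DetIsCyclotomic p`, `(ofMat t ht).IsFlatAt p`.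

* `suppOn GK c` — the function `c` cut down to the subgroup `GK` (zero outside);
* **`localCond_flat_of_H`** (SUPERSINGULAR end): `GK ≤ G_ℚ` with `[D_P : GK ⊓ D_P]` invertible in
  `k`; `H` a finite additive subgroup of `(G_ℚ → M₂(k))` with `#H ≤ p ^ d`; membership
  `suppOn GK (tanCocycle t) ∈ H`;
* **`localCond_flat_of_ZB`** (ORDINARY end): `g`, a submodule `ZB'` of pairs on `D_P`, the count
  `#π(bval g ZB') ≤ #inv0 · #k`, membership `tanCocycle t = bval g x + cob r̄_D X` on `D_P`.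
Both have an `_of_exists` form (data produced from the existence of one lift).
NEW file; imports only.
-/
import Fermat.Agent.GP.Flat.OrdHlcCond
import Fermat.Agent.GP.Tan.CondIsEquiv

set_option autoImplicit false
set_option linter.unusedSectionVars false

namespace Fermat.Agent.GP.Flat.FlatBranchEnds

open IsLocalRing Fermat.Agent.S53_helper35 Matrix Fermat.Agent.GP.Tan.Cocycle
  Fermat.Agent.GC.Prof Fermat.Agent.GC.Places Fermat.Agent.GC.Local.KR
  Fermat.Agent.GP.Core Fermat.Agent.GP.Flat.SSHlcPinned Fermat.Agent.GP.Flat.SSHlcCond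
  Fermat.Agent.GP.Flat.SSHlcCondH0 Fermat.Agent.GP.Loc.StrictOrdDim
  Fermat.Agent.GP.Flat.OrdCount Fermat.Agent.GP.Flat.OrdHlcCond

noncomputable section

/-! ### cutting a function down to a subgroup -/

section Supp

variable {G : Type*} [Group G] {M : Type*} [AddCommGroup M]

open Classical in
/-- the function `c` on `GK`, zero outside. -/
def suppOn (GK : Subgroup G) (c : G → M) : G → M := fun g => if g ∈ GK then c g else 0

theorem suppOn_of_mem {GK : Subgroup G} (c : G → M) {g : G} (hg : g ∈ GK) :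
    suppOn GK c g = c g := by
  unfold suppOn
  rw [if_pos hg]

theorem suppOn_of_not_mem {GK : Subgroup G} (c : G → M) {g : G} (hg : g ∉ GK) :
    suppOn GK c g = 0 := by
  unfold suppOn
  rw [if_neg hg]

theorem suppOn_add (GK : Subgroup G) (c c' : G → M) :
    suppOn GK (c + c') = suppOn GK c + suppOn GK c' := by
  funext g
  by_cases hg : g ∈ GK
  · rw [Pi.add_apply, suppOn_of_mem _ hg, suppOn_of_mem _ hg, suppOn_of_mem _ hg, Pi.add_apply]
  · rw [Pi.add_apply, suppOn_of_not_mem _ hg, suppOn_of_not_mem _ hg, suppOn_of_not_mem _ hg,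
      add_zero]

theorem suppOn_neg (GK : Subgroup G) (c : G → M) : suppOn GK (-c) = -suppOn GK c := by
  funext g
  by_cases hg : g ∈ GK
  · rw [Pi.neg_apply, suppOn_of_mem _ hg, suppOn_of_mem _ hg, Pi.neg_apply]
  · rw [Pi.neg_apply, suppOn_of_not_mem _ hg, suppOn_of_not_mem _ hg, neg_zero]

theorem suppOn_zero (GK : Subgroup G) : suppOn GK (0 : G → M) = 0 := by
  funext g
  by_cases hg : g ∈ GK
  · rw [suppOn_of_mem _ hg]
  · rw [suppOn_of_not_mem _ hg, Pi.zero_apply]

end Supp

/-! ### transfer of the local property to `ofMat t` -/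

section Transfer

variable {k : Type} [Field k]

/-- a lift equivalent to a representation with cyclotomic determinant has a trace-zero tangent
cocycle. -/
theorem trace_tanCocycle_eq_zero_of_isEquiv (p : ℕ) (hp : 0 < p)
    (t : S53_helper35.GQ →* Matrix (Fin 2) (Fin 2) (DualNumber k)) (ht : MatCont t)
    {ρ : GaloisRepAdic (DualNumber k)} (hρ : ρ.DetIsCyclotomic p) (he : ρ.IsEquiv (ofMat t ht))
    (σ : S53_helper35.GQ) : Matrix.trace (tanCocycle t σ) = 0 :=
  trace_tanCocycle_eq_zero_of_detIsCyclotomic t ht p hp (detIsCyclotomic_of_isEquiv he hρ) σ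

end Transfer

/-! ### the supersingular end -/

section SS

variable {𝒪 : Type} [CommRing 𝒪] [IsLocalRing 𝒪]
  (ρbar : ResidualGaloisRep (ResidueField 𝒪))
  (b : Module.Basis (Fin 2) (ResidueField 𝒪) ρbar.V)
  (p : ℕ) [Fact p.Prime]
  {N : Rep (ZMod p) S53_helper35.GQ}
  {emb : N →+ Matrix (Fin 2) (Fin 2) (ResidueField 𝒪)}
  [IsDiscrete (levelQ p) (Rep.res (localGaloisToGlobal p) N)]

/-- matrix functions on `G_ℚ` which are trace-zero cocycles on `D_P` (`P = padicPlace q`) and
whose cut-down to `GK` lies in `H`. -/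
def ZDss (q : ℕ) [Fact q.Prime] {k : Type} [Field k]
    (r : S53_helper35.GQ →* Matrix (Fin 2) (Fin 2) k) (GK : Subgroup S53_helper35.GQ)
    (H : AddSubgroup (S53_helper35.GQ → Matrix (Fin 2) (Fin 2) k)) :
    AddSubgroup (S53_helper35.GQ → Matrix (Fin 2) (Fin 2) k) where
  carrier := {c |
    (∀ s ∈ (padicPlace q).decompositionSubgroup ℚ, ∀ t ∈ (padicPlace q).decompositionSubgroup ℚ,
      c (s * t) = c s + r s * c t * r s⁻¹) ∧
    (∀ s ∈ (padicPlace q).decompositionSubgroup ℚ, (c s).trace = 0) ∧ suppOn GK c ∈ H}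
  zero_mem' := by
    refine ⟨fun s _ t _ => ?_, fun s _ => ?_, ?_⟩
    · simp
    · simp
    · rw [suppOn_zero]
      exact H.zero_mem
  add_mem' := by
    rintro c c' ⟨h1, h2, h3⟩ ⟨h1', h2', h3'⟩
    refine ⟨fun s hs t ht => ?_, fun s hs => ?_, ?_⟩
    · rw [Pi.add_apply, Pi.add_apply, Pi.add_apply, h1 s hs t ht, h1' s hs t ht, Matrix.mul_add,
        Matrix.add_mul]
      abel
    · rw [Pi.add_apply, Matrix.trace_add, h2 s hs, h2' s hs, add_zero]
    · rw [suppOn_add]
      exact H.add_mem h3 h3'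
  neg_mem' := by
    rintro c ⟨h1, h2, h3⟩
    refine ⟨fun s hs t ht => ?_, fun s hs => ?_, ?_⟩
    · rw [Pi.neg_apply, Pi.neg_apply, Pi.neg_apply, h1 s hs t ht, Matrix.mul_neg, Matrix.neg_mul]
      abel
    · rw [Pi.neg_apply, Matrix.trace_neg, h2 s hs, neg_zero]
    · rw [suppOn_neg]
      exact H.neg_mem h3

/-- **SUPERSINGULAR END**: `LocalCond` at `p` for `DetIsCyclotomic ∧ IsFlatAt` from a finite
additive subgroup `H` of matrix functions (think: helper50's group of BOUNDED homomorphisms on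
`G_K`, extended by zero) with `#H ≤ p ^ d`, a subgroup `GK` with `[D_P : GK ⊓ D_P]` invertible in
`k`, and the membership statement for the tangent cocycles of flat lifts. -/
theorem localCond_flat_of_H
    (h : GlobModel N (toMatRes ρbar b) emb)
    (GK : Subgroup S53_helper35.GQ)
    (hidx : ((GK.relIndex ((padicPlace p).decompositionSubgroup ℚ) : ℕ) : ResidueField 𝒪) ≠ 0)
    (H : AddSubgroup (S53_helper35.GQ → Matrix (Fin 2) (Fin 2) (ResidueField 𝒪))) [Finite H]
    (d : ℕ) (hH : Nat.card H ≤ p ^ d)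
    (hmem : ∀ (t : S53_helper35.GQ →* Matrix (Fin 2) (Fin 2) (DualNumber (ResidueField 𝒪)))
      (ht : MatCont t), rfst t = toMatRes ρbar b →
      (ofMat t ht).DetIsCyclotomic p → (ofMat t ht).IsFlatAt p →
      suppOn GK (tanCocycle t) ∈ H) :
    LocalCond ρbar b p N emb p (fun ρ => ρ.DetIsCyclotomic p ∧ ρ.IsFlatAt p) d := by
  refine localCond_of_restrict ρbar b p p h _ (ZDss p (toMatRes ρbar b) GK H) GK hidx
    (fun c hc => hc.1) (fun c hc => hc.2.1) (fun c : ZDss p (toMatRes ρbar b) GK H =>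
      (⟨suppOn GK c.1, c.2.2.2⟩ : H)) ?_ d hH ?_
  · intro c c' hcc' g hg _
    have h1 : suppOn GK c.1 = suppOn GK c'.1 := congrArg Subtype.val hcc'
    have h2 := congrFun h1 g
    rwa [suppOn_of_mem _ hg, suppOn_of_mem _ hg] at h2
  · rintro t ht hfst ⟨ρ, ⟨hdet, hflat⟩, he⟩
    refine ⟨fun s _ u _ => ?_, fun s _ => ?_, ?_⟩
    · rw [tanCocycle_mul, hfst]
    · exact trace_tanCocycle_eq_zero_of_isEquiv p (Fact.out : p.Prime).pos t ht hdet he s
    · exact hmem t ht hfst (detIsCyclotomic_of_isEquiv he hdet)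
        (Fermat.Agent.GP.Tan.isFlatAt_of_isEquiv he hflat)

/-- **SUPERSINGULAR END, by cases**: `(GK, H)` may be produced from the existence of one flat lift
with cyclotomic determinant; if there is none, `L = ⊥`. -/
theorem localCond_flat_of_H_of_exists
    (h : GlobModel N (toMatRes ρbar b) emb) (d : ℕ)
    (Hyp : (∃ (t : S53_helper35.GQ →* Matrix (Fin 2) (Fin 2) (DualNumber (ResidueField 𝒪)))
        (ht : MatCont t), rfst t = toMatRes ρbar b ∧
        (ofMat t ht).DetIsCyclotomic p ∧ (ofMat t ht).IsFlatAt p) →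
      ∃ (GK : Subgroup S53_helper35.GQ)
        (H : AddSubgroup (S53_helper35.GQ → Matrix (Fin 2) (Fin 2) (ResidueField 𝒪))),
        ((GK.relIndex ((padicPlace p).decompositionSubgroup ℚ) : ℕ) : ResidueField 𝒪) ≠ 0 ∧
        Finite H ∧ Nat.card H ≤ p ^ d ∧
        ∀ (t : S53_helper35.GQ →* Matrix (Fin 2) (Fin 2) (DualNumber (ResidueField 𝒪)))
          (ht : MatCont t), rfst t = toMatRes ρbar b →
          (ofMat t ht).DetIsCyclotomic p → (ofMat t ht).IsFlatAt p →
          suppOn GK (tanCocycle t) ∈ H) :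
    LocalCond ρbar b p N emb p (fun ρ => ρ.DetIsCyclotomic p ∧ ρ.IsFlatAt p) d := by
  by_cases hex : ∃ (t : S53_helper35.GQ →* Matrix (Fin 2) (Fin 2) (DualNumber (ResidueField 𝒪)))
        (ht : MatCont t), rfst t = toMatRes ρbar b ∧
        (ofMat t ht).DetIsCyclotomic p ∧ (ofMat t ht).IsFlatAt p
  · obtain ⟨GK, H, hidx, hfin, hH, hmem⟩ := Hyp hex
    exact localCond_flat_of_H ρbar b p h GK hidx H d hH hmem
  · refine ⟨⊥, inferInstance, ?_, ?_⟩
    · rw [finrank_bot]
      exact Nat.zero_le _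
    · rintro t ht hfst ⟨ρ, ⟨hdet, hflat⟩, he⟩
      exact absurd ⟨t, ht, hfst, detIsCyclotomic_of_isEquiv he hdet,
        Fermat.Agent.GP.Tan.isFlatAt_of_isEquiv he hflat⟩ hex

end SS

/-! ### the ordinary end -/

section Ord

variable {𝒪 : Type} [CommRing 𝒪] [IsLocalRing 𝒪]
  (ρbar : ResidualGaloisRep (ResidueField 𝒪))
  (b : Module.Basis (Fin 2) (ResidueField 𝒪) ρbar.V)
  (p : ℕ) [Fact p.Prime]
  {N : Rep (ZMod p) S53_helper35.GQ}
  {emb : N →+ Matrix (Fin 2) (Fin 2) (ResidueField 𝒪)}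
  [IsDiscrete (levelQ p) (Rep.res (localGaloisToGlobal p) N)]

/-- **ORDINARY END**: `LocalCond` at `p` for `DetIsCyclotomic ∧ IsFlatAt` from a space `ZB'` of
pairs `(a, f)` on `D_P`, the count `#π(bval g ZB') ≤ #(ad⁰ρ̄)^{D_P} · #k`, `#k = p ^ d`, and the
membership statement for the tangent cocycles of flat lifts (trace-zero is available to the
membership proof as a hypothesis). -/
theorem localCond_flat_of_ZB [Finite (ResidueField 𝒪)]
    (h : GlobModel N (toMatRes ρbar b) emb)
    (g : GL (Fin 2) (ResidueField 𝒪))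
    (ZB' : Submodule (ResidueField 𝒪) ((DPq p → ResidueField 𝒪) × (DPq p → ResidueField 𝒪)))
    (hfin : Finite ↥((ZB'.map (bval g)).map (quoMap (rDq p (toMatRes ρbar b)))))
    (hcount : Nat.card ↥((ZB'.map (bval g)).map (quoMap (rDq p (toMatRes ρbar b)))) ≤
      Nat.card (inv0 (rDq p (toMatRes ρbar b))) * Nat.card (ResidueField 𝒪))
    (d : ℕ) (hk : Nat.card (ResidueField 𝒪) = p ^ d)
    (hmem : ∀ (t : S53_helper35.GQ →* Matrix (Fin 2) (Fin 2) (DualNumber (ResidueField 𝒪)))
      (ht : MatCont t), rfst t = toMatRes ρbar b →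
      (ofMat t ht).DetIsCyclotomic p → (ofMat t ht).IsFlatAt p →
      (∀ σ, Matrix.trace (tanCocycle t σ) = 0) →
      ∃ (X : Matrix (Fin 2) (Fin 2) (ResidueField 𝒪))
        (x : (DPq p → ResidueField 𝒪) × (DPq p → ResidueField 𝒪)), X.trace = 0 ∧ x ∈ ZB' ∧
        ∀ σ : DPq p, tanCocycle t (σ : S53_helper35.GQ) =
          bval g x σ + cob (rDq p (toMatRes ρbar b)) X σ) :
    LocalCond ρbar b p N emb p (fun ρ => ρ.DetIsCyclotomic p ∧ ρ.IsFlatAt p) d := by
  refine localCond_of_ZB ρbar b p p h _ g ZB' hfin hcount d hk ?_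
  rintro t ht hfst ⟨ρ, ⟨hdet, hflat⟩, he⟩
  exact hmem t ht hfst (detIsCyclotomic_of_isEquiv he hdet)
    (Fermat.Agent.GP.Tan.isFlatAt_of_isEquiv he hflat)
    (trace_tanCocycle_eq_zero_of_isEquiv p (Fact.out : p.Prime).pos t ht hdet he)

/-- **ORDINARY END, by cases**: `(g, ZB')` and the count may be produced from the existence of one
flat lift with cyclotomic determinant; if there is none, `L = ⊥`. -/
theorem localCond_flat_of_ZB_of_exists [Finite (ResidueField 𝒪)]
    (h : GlobModel N (toMatRes ρbar b) emb)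
    (d : ℕ) (hk : Nat.card (ResidueField 𝒪) = p ^ d)
    (Hyp : (∃ (t : S53_helper35.GQ →* Matrix (Fin 2) (Fin 2) (DualNumber (ResidueField 𝒪)))
        (ht : MatCont t), rfst t = toMatRes ρbar b ∧
        (ofMat t ht).DetIsCyclotomic p ∧ (ofMat t ht).IsFlatAt p) →
      ∃ (g : GL (Fin 2) (ResidueField 𝒪))
        (ZB' : Submodule (ResidueField 𝒪)
          ((DPq p → ResidueField 𝒪) × (DPq p → ResidueField 𝒪))),
        Finite ↥((ZB'.map (bval g)).map (quoMap (rDq p (toMatRes ρbar b)))) ∧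
        Nat.card ↥((ZB'.map (bval g)).map (quoMap (rDq p (toMatRes ρbar b)))) ≤
          Nat.card (inv0 (rDq p (toMatRes ρbar b))) * Nat.card (ResidueField 𝒪) ∧
        ∀ (t : S53_helper35.GQ →* Matrix (Fin 2) (Fin 2) (DualNumber (ResidueField 𝒪)))
          (ht : MatCont t), rfst t = toMatRes ρbar b →
          (ofMat t ht).DetIsCyclotomic p → (ofMat t ht).IsFlatAt p →
          (∀ σ, Matrix.trace (tanCocycle t σ) = 0) →
          ∃ (X : Matrix (Fin 2) (Fin 2) (ResidueField 𝒪))
            (x : (DPq p → ResidueField 𝒪) × (DPq p → ResidueField 𝒪)), X.trace = 0 ∧ x ∈ ZB' ∧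
            ∀ σ : DPq p, tanCocycle t (σ : S53_helper35.GQ) =
              bval g x σ + cob (rDq p (toMatRes ρbar b)) X σ) :
    LocalCond ρbar b p N emb p (fun ρ => ρ.DetIsCyclotomic p ∧ ρ.IsFlatAt p) d := by
  by_cases hex : ∃ (t : S53_helper35.GQ →* Matrix (Fin 2) (Fin 2) (DualNumber (ResidueField 𝒪)))
        (ht : MatCont t), rfst t = toMatRes ρbar b ∧
        (ofMat t ht).DetIsCyclotomic p ∧ (ofMat t ht).IsFlatAt p
  · obtain ⟨g, ZB', hfin, hcount, hmem⟩ := Hyp hex
    exact localCond_flat_of_ZB ρbar b p h g ZB' hfin hcount d hk hmem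
  · refine ⟨⊥, inferInstance, ?_, ?_⟩
    · rw [finrank_bot]
      exact Nat.zero_le _
    · rintro t ht hfst ⟨ρ, ⟨hdet, hflat⟩, he⟩
      exact absurd ⟨t, ht, hfst, detIsCyclotomic_of_isEquiv he hdet,
        Fermat.Agent.GP.Tan.isFlatAt_of_isEquiv he hflat⟩ hex

end Ord

end

end Fermat.Agent.GP.Flat.FlatBranchEnds
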