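/-
GATE-P / S56 [P-FLAT], node S56-FLAT-SSMEMBER (helper84): **the membership half of SSASM (E)**.

Frame of helper75's `GP/Flat/SSChainVec` at `𝔊 = G_ℚ`, `Ω = ℚ̄`, `N = M₂(k)` with the adjoint action
`adAct R δ X = R δ * X * R δ⁻¹` (helper50's `SSAsm.conjLin` normalisation).  For a first-order
deformation `t : G_ℚ →* M₂(k[ε])` (helper11's `GP/Tan/Cocycle` vocabulary: `rfst t`, `tanCocycle t`,
`MatCont t`) and subgroups `GK ≤ Dd ≤ G_ℚ` with `GK` normalised by `Dd` and `rfst t = 1` on `GK`: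

* `cutoff GK c` : the function `c` cut off outside `GK`;
* `isAdm_cutoff_tanCocycle` : `cutoff GK (tanCocycle t)` is admissible (`SSChainVec.IsAdm`):
  supported on `GK`, additive on `GK`, `Dd`-equivariant, of finite level;
* `chi_cutoff_eq_zero_of_eq_one` : its characters `ℓ ∘ h` vanish wherever `t σ = 1`;
* `mem_HLev_of_KB` : from the `(iv)`-binder `KB` (helper14 KBQB, in helper75's shape: every
  character of `GK` of finite level killed by `{σ ∈ GK | t σ = 1}` has level `≥ γ`) the cut-off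
  tangent cocycle lies in `SSChainVec.HLev … γ` (`γ = v p` for the consumers);
* `trace_cutoff_tanCocycle` : cyclotomic determinant ⟹ trace zero;
* `cutoff_congr`, `cutoff_add`, `cutoff_eq_zero_iff`, `cutoff_eq_iff` : bookkeeping for the class
  side (`SSAsm.exists_eq_add_coboundary_of_eq_on`): two cocycles have the same cut-off iff they
  agree on `GK`.
-/
import Fermat.Agent.GP.Tan.Cocycle
import Fermat.Agent.GP.Flat.SSChainVec
import Fermat.Agent.GP.Flat.SSAsm.ClassSide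
import Fermat.Agent.GP.Flat.KummerInst

set_option autoImplicit false
set_option linter.unusedSectionVars false

namespace Fermat.Agent.GP.Flat.SSMember

open Fermat.Agent.S53_helper35 Fermat.Agent.GP.Tan.Cocycle Fermat.Agent.GP.Flat.SSChain
  Fermat.Agent.GP.Flat.SSChainVec Matrix

/-! ### cut-off functions -/

section Cutoff

variable {𝔊 : Type*} [Group 𝔊] {N : Type*} [AddCommGroup N]

open Classical in
/-- the function `c` cut off outside the subgroup `GK`. -/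
noncomputable def cutoff (GK : Subgroup 𝔊) (c : 𝔊 → N) : 𝔊 → N :=
  fun g => if g ∈ GK then c g else 0

theorem cutoff_of_mem {GK : Subgroup 𝔊} (c : 𝔊 → N) {g : 𝔊} (hg : g ∈ GK) :
    cutoff GK c g = c g := by
  unfold cutoff
  rw [if_pos hg]

theorem cutoff_of_not_mem {GK : Subgroup 𝔊} (c : 𝔊 → N) {g : 𝔊} (hg : g ∉ GK) :
    cutoff GK c g = 0 := by
  unfold cutoff
  rw [if_neg hg]

theorem cutoff_congr {GK : Subgroup 𝔊} {c c' : 𝔊 → N} (h : ∀ g ∈ GK, c g = c' g) :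
    cutoff GK c = cutoff GK c' := by
  funext g
  by_cases hg : g ∈ GK
  · rw [cutoff_of_mem c hg, cutoff_of_mem c' hg, h g hg]
  · rw [cutoff_of_not_mem c hg, cutoff_of_not_mem c' hg]

theorem cutoff_eq_iff {GK : Subgroup 𝔊} {c c' : 𝔊 → N} :
    cutoff GK c = cutoff GK c' ↔ ∀ g ∈ GK, c g = c' g := by
  refine ⟨fun h g hg => ?_, cutoff_congr⟩
  have := congrFun h g
  rwa [cutoff_of_mem c hg, cutoff_of_mem c' hg] at this

theorem cutoff_add (GK : Subgroup 𝔊) (c c' : 𝔊 → N) :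
    cutoff GK (c + c') = cutoff GK c + cutoff GK c' := by
  funext g
  by_cases hg : g ∈ GK
  · simp only [Pi.add_apply, cutoff_of_mem _ hg]
  · simp only [Pi.add_apply, cutoff_of_not_mem _ hg, add_zero]

theorem cutoff_neg (GK : Subgroup 𝔊) (c : 𝔊 → N) : cutoff GK (-c) = -cutoff GK c := by
  funext g
  by_cases hg : g ∈ GK
  · simp only [Pi.neg_apply, cutoff_of_mem _ hg]
  · simp only [Pi.neg_apply, cutoff_of_not_mem _ hg, neg_zero]

theorem cutoff_sub (GK : Subgroup 𝔊) (c c' : 𝔊 → N) :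
    cutoff GK (c - c') = cutoff GK c - cutoff GK c' := by
  funext g
  by_cases hg : g ∈ GK
  · simp only [Pi.sub_apply, cutoff_of_mem _ hg]
  · simp only [Pi.sub_apply, cutoff_of_not_mem _ hg, sub_zero]

theorem cutoff_zero (GK : Subgroup 𝔊) : cutoff GK (0 : 𝔊 → N) = 0 := by
  funext g
  by_cases hg : g ∈ GK
  · rw [cutoff_of_mem _ hg]
  · rw [cutoff_of_not_mem _ hg]; rfl

theorem cutoff_eq_zero_iff {GK : Subgroup 𝔊} {c : 𝔊 → N} :
    cutoff GK c = 0 ↔ ∀ g ∈ GK, c g = 0 := by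
  rw [← cutoff_zero GK, cutoff_eq_iff]
  rfl

end Cutoff

/-! ### the adjoint action -/

section AdAct

variable {k : Type*} [Field k] {𝔊 : Type*} [Group 𝔊]

/-- the adjoint action `X ↦ R δ * X * R δ⁻¹` on `M₂(k)` as an additive map (helper50's
`SSAsm.conjLin (R δ) (R δ⁻¹)`). -/
def adAct (R : 𝔊 →* Matrix (Fin 2) (Fin 2) k) (δ : 𝔊) :
    Matrix (Fin 2) (Fin 2) k →+ Matrix (Fin 2) (Fin 2) k :=
  (Fermat.Agent.GP.Flat.SSAsm.conjLin (R δ) (R δ⁻¹)).toAddMonoidHom

@[simp] theorem adAct_apply (R : 𝔊 →* Matrix (Fin 2) (Fin 2) k) (δ : 𝔊)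
    (X : Matrix (Fin 2) (Fin 2) k) : adAct R δ X = R δ * X * R δ⁻¹ := rfl

theorem adAct_one (R : 𝔊 →* Matrix (Fin 2) (Fin 2) k) (X : Matrix (Fin 2) (Fin 2) k) :
    adAct R 1 X = X := by
  rw [adAct_apply, inv_one, map_one, Matrix.one_mul, Matrix.mul_one]

theorem adAct_mul (R : 𝔊 →* Matrix (Fin 2) (Fin 2) k) (δ δ' : 𝔊)
    (X : Matrix (Fin 2) (Fin 2) k) : adAct R (δ * δ') X = adAct R δ (adAct R δ' X) := by
  simp only [adAct_apply, _root_.mul_inv_rev, map_mul, Matrix.mul_assoc]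

theorem trace_adAct (R : 𝔊 →* Matrix (Fin 2) (Fin 2) k) (δ : 𝔊)
    (X : Matrix (Fin 2) (Fin 2) k) : (adAct R δ X).trace = X.trace := by
  rw [adAct_apply, Matrix.trace_mul_comm, ← Matrix.mul_assoc, ← map_mul, inv_mul_cancel, map_one,
    Matrix.one_mul]

end AdAct

/-! ### the tangent cocycle on `GK` -/

section Tangent

variable {k : Type} [Field k] (t : GQ →* Matrix (Fin 2) (Fin 2) (DualNumber k))
  (Dd GK : Subgroup GQ)

/-- on a subgroup where the reduction is trivial the tangent cocycle is additive. -/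
theorem tanCocycle_mul_of_rfst_eq_one (hR : ∀ g ∈ GK, rfst t g = 1) {g g' : GQ} (hg : g ∈ GK) :
    tanCocycle t (g * g') = tanCocycle t g + tanCocycle t g' := by
  rw [tanCocycle_mul, hR g hg, hR g⁻¹ (GK.inv_mem hg), Matrix.one_mul, Matrix.mul_one]

/-- conjugation formula: for `g` with trivial reduction,
`c (δ g δ⁻¹) = r̄ δ · c g · r̄ δ⁻¹`. -/
theorem tanCocycle_conj_of_rfst_eq_one {g : GQ} (hg : rfst t g = 1) (δ : GQ) :
    tanCocycle t (δ * g * δ⁻¹) = rfst t δ * tanCocycle t g * rfst t δ⁻¹ := by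
  have h1 : tanCocycle t (δ * δ⁻¹) = 0 := by rw [mul_inv_cancel, tanCocycle_one]
  rw [tanCocycle_mul] at h1
  -- `c δ⁻¹` in terms of `c δ`
  have h2 : rfst t δ * tanCocycle t δ⁻¹ * rfst t δ⁻¹ = -tanCocycle t δ := by
    rw [eq_neg_iff_add_eq_zero, add_comm]; exact h1
  rw [tanCocycle_mul, tanCocycle_mul, map_mul, hg, Matrix.mul_one, _root_.mul_inv_rev]
  have h3 : rfst t δ * tanCocycle t δ⁻¹ * rfst t (δ * g)⁻¹ = -tanCocycle t δ := by
    have : rfst t (δ * g)⁻¹ = rfst t δ⁻¹ := by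
      rw [_root_.mul_inv_rev, map_mul]
      have hg' : rfst t g⁻¹ = 1 := by
        have := rfst_inv_mul t g
        rwa [hg, Matrix.mul_one] at this
      rw [hg', Matrix.one_mul]
    rw [this, h2]
  rw [_root_.mul_inv_rev] at h3
  rw [h3]
  abel

/-- **admissibility of the cut-off tangent cocycle.** -/
theorem isAdm_cutoff_tanCocycle (ht : MatCont t) (hnorm : ∀ δ ∈ Dd, ∀ g ∈ GK, δ * g * δ⁻¹ ∈ GK)
    (hR : ∀ g ∈ GK, rfst t g = 1) :
    IsAdm (AlgebraicClosure ℚ) Dd GK (adAct (rfst t)) (cutoff GK (tanCocycle t)) := by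
  classical
  refine ⟨fun g hg => cutoff_of_not_mem _ hg, fun g hg g' hg' => ?_, fun δ hδ g hg => ?_, ?_⟩
  · rw [cutoff_of_mem _ (GK.mul_mem hg hg'), cutoff_of_mem _ hg, cutoff_of_mem _ hg',
      tanCocycle_mul_of_rfst_eq_one t GK hR hg]
  · rw [cutoff_of_mem _ (hnorm δ hδ g hg), cutoff_of_mem _ hg, adAct_apply,
      tanCocycle_conj_of_rfst_eq_one t (hR g hg)]
  · obtain ⟨L, hL, h⟩ := exists_eq_one_of_matCont t ht
    have := hL
    obtain ⟨s, -, hs⟩ :=
      Fermat.Agent.GP.Flat.KummerInst.exists_finset_of_finiteDimensional (F := ℚ)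
        (E := AlgebraicClosure ℚ) L
    refine ⟨s, fun g hg hfix => ?_⟩
    rw [cutoff_of_mem _ hg]
    exact tanCocycle_eq_zero_of_eq_one t (h g (hs g hfix))

/-- the characters of the cut-off tangent cocycle vanish wherever `t σ = 1`. -/
theorem chi_cutoff_eq_zero_of_eq_one {p : ℕ} [Fact p.Prime]
    (ℓ : Matrix (Fin 2) (Fin 2) k →+ ZMod p) {σ : GQ}
    (hσ : t σ = 1) : chi ℓ (cutoff GK (tanCocycle t)) σ = 0 := by
  classical
  unfold chi
  by_cases hg : σ ∈ GK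
  · rw [cutoff_of_mem _ hg, tanCocycle_eq_zero_of_eq_one t hσ, map_zero]
  · rw [cutoff_of_not_mem _ hg, map_zero]

variable {Γ₀ : Type*} [LinearOrderedCommGroupWithZero Γ₀]
  (v : Valuation (AlgebraicClosure ℚ) Γ₀) {p : ℕ} [hp : Fact p.Prime]
  (K : Subfield (AlgebraicClosure ℚ)) (ζ : AlgebraicClosure ℚ)

/-- **membership from the `(iv)`-binder.**  `KB` = helper14's KBQB output in helper75's shape:
every character of `GK` of finite level which is killed by `{σ ∈ GK | t σ = 1}` has level `≥ γ`.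
Then the cut-off tangent cocycle of `t` lies in `HLev γ`. -/
theorem mem_HLev_of_KB (ht : MatCont t) (hnorm : ∀ δ ∈ Dd, ∀ g ∈ GK, δ * g * δ⁻¹ ∈ GK)
    (hR : ∀ g ∈ GK, rfst t g = 1) (γ : Γ₀)
    (KB : ∀ χ : GQ → ZMod p, (∀ g ∈ GK, ∀ g' ∈ GK, χ (g * g') = χ g + χ g') →
      (∃ s : Finset (AlgebraicClosure ℚ), ∀ g ∈ GK, (∀ x ∈ s, g • x = x) → χ g = 0) →
      (∀ σ ∈ GK, t σ = 1 → χ σ = 0) → Lev v GK K ζ γ χ) :
    cutoff GK (tanCocycle t) ∈ HLev (p := p) v Dd GK K ζ (adAct (rfst t)) γ := by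
  have hadm := isAdm_cutoff_tanCocycle t Dd GK ht hnorm hR
  refine ⟨hadm, fun ℓ => ?_⟩
  obtain ⟨-, h2, -, s, h4⟩ := hadm
  refine KB _ (fun g hg g' hg' => ?_) ⟨s, fun g hg hfix => ?_⟩
    (fun σ _ hσ => chi_cutoff_eq_zero_of_eq_one t GK ℓ hσ)
  · show ℓ (cutoff GK (tanCocycle t) (g * g')) = ℓ (cutoff GK (tanCocycle t) g) +
      ℓ (cutoff GK (tanCocycle t) g')
    rw [h2 g hg g' hg', map_add]
  · show ℓ (cutoff GK (tanCocycle t) g) = 0
    rw [h4 g hg hfix, map_zero]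

/-- cyclotomic determinant ⟹ the cut-off tangent cocycle is traceless. -/
theorem trace_cutoff_tanCocycle (ht : MatCont t) (p : ℕ) (hp0 : 0 < p)
    (hdet : (ofMat t ht).DetIsCyclotomic p) (g : GQ) :
    (cutoff GK (tanCocycle t) g).trace = 0 := by
  classical
  by_cases hg : g ∈ GK
  · rw [cutoff_of_mem _ hg]
    exact trace_tanCocycle_eq_zero_of_detIsCyclotomic t ht p hp0 hdet g
  · rw [cutoff_of_not_mem _ hg, Matrix.trace_zero]

end Tangent

end Fermat.Agent.GP.Flat.SSMember
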