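/-
GATE-P / S56 [P-FLAT], node S56-FLAT-SSEND (helper84): **the supersingular END in the SSChainVec
frame.**

helper44's `FlatBranchEnds.localCond_flat_of_H` (the SS end of helper90's
`FlatLocalCond.localCond_flat_of_branches`) at `H := SSChainVec.hSub … γ` for `N = M₂(k)` with the
adjoint action `SSMember.adAct r̄`, the membership clause discharged by
`SSMember.mem_HLev_of_KB`:

* `suppOn_eq_cutoff` : helper44's `suppOn` is `SSMember.cutoff`;
* `suppOn_tanCocycle_mem_hSub` : membership of the tangent cocycle of a lift `t` of `r̄`, from `KB`;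
* **`localCond_ss_of_count`** : `LocalCond ρbar b p N emb p (DetIsCyclotomic ∧ IsFlatAt) d` from
  the frame `(GK, v, K, ζ)`, the COUNT `#hSub ≤ p ^ d` and the `(iv)`-binder `KB` for every flat
  lift with cyclotomic determinant.
NEW file; imports only.
-/
import Fermat.Agent.GP.Flat.FlatBranchEnds
import Fermat.Agent.GP.Flat.SSMember

set_option autoImplicit false
set_option linter.unusedSectionVars false

namespace Fermat.Agent.GP.Flat.SSEnd

open IsLocalRing Fermat.Agent.S53_helper35 Matrix Fermat.Agent.GP.Tan.Cocycle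
  Fermat.Agent.GC.Prof Fermat.Agent.GC.Places Fermat.Agent.GC.Local.KR
  Fermat.Agent.GP.Core Fermat.Agent.GP.Flat.SSHlcPinned Fermat.Agent.GP.Flat.FlatBranchEnds
  Fermat.Agent.GP.Flat.SSMember
  Fermat.Agent.GP.Flat.SSChain Fermat.Agent.GP.Flat.SSChainVec

/-- helper44's `suppOn` is `SSMember.cutoff`. -/
theorem suppOn_eq_cutoff {G : Type*} [Group G] {M : Type*} [AddCommGroup M] (GK : Subgroup G)
    (c : G → M) : suppOn GK c = cutoff GK c := by
  funext g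
  by_cases hg : g ∈ GK
  · rw [suppOn_of_mem _ hg, cutoff_of_mem _ hg]
  · rw [suppOn_of_not_mem _ hg, cutoff_of_not_mem _ hg]

/-- the orbit binder `horb` of the SSChain/SSChainVec frame holds for every subgroup of `G_ℚ`
acting on `ℚ̄`. -/
theorem horb_Qbar (GK : Subgroup GQ) (x : AlgebraicClosure ℚ) :
    (Set.range fun g : GK => g • x).Finite :=
  haveI : Algebra.IsAlgebraic ℚ (AlgebraicClosure ℚ) :=
    Fermat.Agent.GP.Flat.KummerInst.isAlgebraicQbar_kummerInst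
  Fermat.Agent.GP.Flat.KummerInst.finite_orbit_subgroup (F := ℚ) (E := AlgebraicClosure ℚ) GK x

section Frame

variable {k : Type} [Field k] (R : GQ →* Matrix (Fin 2) (Fin 2) k)
  (Dd GK : Subgroup GQ)
  {Γ₀ : Type*} [LinearOrderedCommGroupWithZero Γ₀]
  (v : Valuation (AlgebraicClosure ℚ) Γ₀) {p : ℕ} [hp : Fact p.Prime]
  {K : Subfield (AlgebraicClosure ℚ)} {ζ : AlgebraicClosure ℚ}
  (hK : ∀ x, x ∈ K ↔ ∀ g ∈ GK, g • x = x) (hζ : IsPrimitiveRoot ζ p) (hζK : ζ ∈ K)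
  (horb : ∀ x : AlgebraicClosure ℚ, (Set.range fun g : GK => g • x).Finite)

/-- **membership in `hSub`** of the cut-down tangent cocycle of a lift `t` of `R`, from the
`(iv)`-binder `KB` for `t`. -/
theorem suppOn_tanCocycle_mem_hSub
    (hnorm : ∀ δ ∈ Dd, ∀ g ∈ GK, δ * g * δ⁻¹ ∈ GK) (hR : ∀ g ∈ GK, R g = 1)
    {γ : Γ₀} (hγ : γ < 1)
    (t : GQ →* Matrix (Fin 2) (Fin 2) (DualNumber k)) (ht : MatCont t) (hfst : rfst t = R)
    (KB : ∀ χ : GQ → ZMod p, (∀ g ∈ GK, ∀ g' ∈ GK, χ (g * g') = χ g + χ g') →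
      (∃ s : Finset (AlgebraicClosure ℚ), ∀ g ∈ GK, (∀ x ∈ s, g • x = x) → χ g = 0) →
      (∀ σ ∈ GK, t σ = 1 → χ σ = 0) → Lev v GK K ζ γ χ) :
    suppOn GK (tanCocycle t) ∈
      hSub v hK hζ hζK horb (Dd := Dd) (act := adAct R) hγ := by
  rw [suppOn_eq_cutoff, mem_hSub]
  subst hfst
  exact mem_HLev_of_KB t Dd GK v K ζ ht hnorm hR γ KB

end Frame

section End

variable {𝒪 : Type} [CommRing 𝒪] [IsLocalRing 𝒪]
  (ρbar : ResidualGaloisRep (ResidueField 𝒪))
  (b : Module.Basis (Fin 2) (ResidueField 𝒪) ρbar.V)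
  (p : ℕ) [Fact p.Prime]
  {N : Rep (ZMod p) S53_helper35.GQ}
  {emb : N →+ Matrix (Fin 2) (Fin 2) (ResidueField 𝒪)}
  [IsDiscrete (levelQ p) (Rep.res (localGaloisToGlobal p) N)]

/-- **SUPERSINGULAR END in the SSChainVec frame.**  `GK` a subgroup normalised by
`D_P` (`P = padicPlace p`) on which `r̄ = toMatRes ρbar b` is trivial, of relative index in `D_P`
invertible in `k`; `(v, K, ζ)` the Kummer frame of `GK`; the COUNT `#hSub γ ≤ p ^ d`; and for every
continuous lift `t` of `r̄` to `k[ε]` which is flat with cyclotomic determinant the `(iv)`-binder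
`KB` (every finite-level character of `GK` killed by `{σ ∈ GK | t σ = 1}` has level `≥ γ`).  Then
the flat local condition at `p` satisfies helper35's `LocalCond` contract with `e = d`. -/
theorem localCond_ss_of_count
    (h : GlobModel N (toMatRes ρbar b) emb)
    (GK : Subgroup S53_helper35.GQ)
    (hnorm : ∀ δ ∈ (padicPlace p).decompositionSubgroup ℚ, ∀ g ∈ GK, δ * g * δ⁻¹ ∈ GK)
    (hR : ∀ g ∈ GK, toMatRes ρbar b g = 1)
    (hidx : ((GK.relIndex ((padicPlace p).decompositionSubgroup ℚ) : ℕ) : ResidueField 𝒪) ≠ 0)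
    {Γ₀ : Type*} [LinearOrderedCommGroupWithZero Γ₀]
    (v : Valuation (AlgebraicClosure ℚ) Γ₀)
    {K : Subfield (AlgebraicClosure ℚ)} {ζ : AlgebraicClosure ℚ}
    (hK : ∀ x, x ∈ K ↔ ∀ g ∈ GK, g • x = x) (hζ : IsPrimitiveRoot ζ p) (hζK : ζ ∈ K)
    (horb : ∀ x : AlgebraicClosure ℚ, (Set.range fun g : GK => g • x).Finite)
    {γ : Γ₀} (hγ : γ < 1)
    [Finite ↥(hSub v hK hζ hζK horb (Dd := (padicPlace p).decompositionSubgroup ℚ)
      (act := adAct (toMatRes ρbar b)) hγ)]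
    (d : ℕ)
    (hcount : Nat.card ↥(hSub v hK hζ hζK horb (Dd := (padicPlace p).decompositionSubgroup ℚ)
      (act := adAct (toMatRes ρbar b)) hγ) ≤ p ^ d)
    (KB : ∀ (t : S53_helper35.GQ →* Matrix (Fin 2) (Fin 2) (DualNumber (ResidueField 𝒪)))
      (ht : MatCont t), rfst t = toMatRes ρbar b →
      (ofMat t ht).DetIsCyclotomic p → (ofMat t ht).IsFlatAt p →
      ∀ χ : S53_helper35.GQ → ZMod p, (∀ g ∈ GK, ∀ g' ∈ GK, χ (g * g') = χ g + χ g') →
      (∃ s : Finset (AlgebraicClosure ℚ), ∀ g ∈ GK, (∀ x ∈ s, g • x = x) → χ g = 0) →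
      (∀ σ ∈ GK, t σ = 1 → χ σ = 0) → Lev v GK K ζ γ χ) :
    LocalCond ρbar b p N emb p (fun ρ => ρ.DetIsCyclotomic p ∧ ρ.IsFlatAt p) d :=
  localCond_flat_of_H ρbar b p h GK hidx
    (hSub v hK hζ hζK horb (Dd := (padicPlace p).decompositionSubgroup ℚ)
      (act := adAct (toMatRes ρbar b)) hγ) d hcount
    (fun t ht hfst hdet hflat =>
      suppOn_tanCocycle_mem_hSub (toMatRes ρbar b) _ GK v hK hζ hζK horb hnorm hR hγ t ht hfst
        (KB t ht hfst hdet hflat))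

/-- `localCond_ss_of_count` with the orbit binder discharged (`horb_Qbar`). -/
theorem localCond_ss_of_count'
    (h : GlobModel N (toMatRes ρbar b) emb)
    (GK : Subgroup S53_helper35.GQ)
    (hnorm : ∀ δ ∈ (padicPlace p).decompositionSubgroup ℚ, ∀ g ∈ GK, δ * g * δ⁻¹ ∈ GK)
    (hR : ∀ g ∈ GK, toMatRes ρbar b g = 1)
    (hidx : ((GK.relIndex ((padicPlace p).decompositionSubgroup ℚ) : ℕ) : ResidueField 𝒪) ≠ 0)
    {Γ₀ : Type*} [LinearOrderedCommGroupWithZero Γ₀]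
    (v : Valuation (AlgebraicClosure ℚ) Γ₀)
    {K : Subfield (AlgebraicClosure ℚ)} {ζ : AlgebraicClosure ℚ}
    (hK : ∀ x, x ∈ K ↔ ∀ g ∈ GK, g • x = x) (hζ : IsPrimitiveRoot ζ p) (hζK : ζ ∈ K)
    {γ : Γ₀} (hγ : γ < 1)
    [Finite ↥(hSub v hK hζ hζK (horb_Qbar GK) (Dd := (padicPlace p).decompositionSubgroup ℚ)
      (act := adAct (toMatRes ρbar b)) hγ)]
    (d : ℕ)
    (hcount : Nat.card ↥(hSub v hK hζ hζK (horb_Qbar GK)
      (Dd := (padicPlace p).decompositionSubgroup ℚ) (act := adAct (toMatRes ρbar b)) hγ) ≤ p ^ d)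
    (KB : ∀ (t : S53_helper35.GQ →* Matrix (Fin 2) (Fin 2) (DualNumber (ResidueField 𝒪)))
      (ht : MatCont t), rfst t = toMatRes ρbar b →
      (ofMat t ht).DetIsCyclotomic p → (ofMat t ht).IsFlatAt p →
      ∀ χ : S53_helper35.GQ → ZMod p, (∀ g ∈ GK, ∀ g' ∈ GK, χ (g * g') = χ g + χ g') →
      (∃ s : Finset (AlgebraicClosure ℚ), ∀ g ∈ GK, (∀ x ∈ s, g • x = x) → χ g = 0) →
      (∀ σ ∈ GK, t σ = 1 → χ σ = 0) → Lev v GK K ζ γ χ) :
    LocalCond ρbar b p N emb p (fun ρ => ρ.DetIsCyclotomic p ∧ ρ.IsFlatAt p) d :=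
  localCond_ss_of_count ρbar b p h GK hnorm hR hidx v hK hζ hζK (horb_Qbar GK) hγ d hcount KB

end End

end Fermat.Agent.GP.Flat.SSEnd
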