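/-
GATE-P / S56 [P-FLAT], node S56-FLAT-SSEND-TR0 (helper25): **the supersingular END on the TRACELESS
part of `SSChainVec.hSub`.**

helper84's `SSEnd.localCond_ss_of_count` takes the count on the WHOLE `hSub γ`; that count is false
for `d = [k : 𝔽_p]` (the scalar unramified homomorphisms `g ↦ χ g • 1` are admissible of top level and
are NOT killed by the twisted equivariance).  helper50's `SSAsm.card_ssLev_le` counts the traceless
admissible maps, which is the correct statement.  Here: helper44's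
`FlatBranchEnds.localCond_flat_of_H` at `H := hSub γ ⊓ SSAsm.tr0Sub`, membership from
`SSEnd.suppOn_tanCocycle_mem_hSub` and `SSMember.trace_cutoff_tanCocycle`, and the count binder in
the conclusion shape of `SSAsm.card_ssLev_le` VERBATIM (with `SSAsm.adAct`).

* `adAct_eq` : `SSMember.adAct R = SSAsm.adAct R` (two spellings of `X ↦ R δ * X * R δ⁻¹`);
* `mem_inf_tr0_iff` : membership in `hSub γ ⊓ tr0Sub` unfolded in helper50's shape;
* **`localCond_ss_of_count_tr0`** : `LocalCond ρbar b p N emb p (DetIsCyclotomic ∧ IsFlatAt) d` from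
  the frame, the TRACELESS count `≤ p ^ d` and the `(iv)`-binder `KB`;
* `localCond_ss_of_card_le` : the same with the count `≤ Nat.card k` and `Nat.card k ≤ p ^ d`.
NEW file; imports only.
-/
import Fermat.Agent.GP.Flat.SSEnd
import Fermat.Agent.GP.Flat.SSAsm.Count

set_option autoImplicit false
set_option linter.unusedSectionVars false

namespace Fermat.Agent.GP.Flat.SSEndTr0

open IsLocalRing Fermat.Agent.S53_helper35 Matrix Fermat.Agent.GP.Tan.Cocycle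
  Fermat.Agent.GC.Prof Fermat.Agent.GC.Places Fermat.Agent.GC.Local.KR
  Fermat.Agent.GP.Core Fermat.Agent.GP.Flat.SSHlcPinned Fermat.Agent.GP.Flat.FlatBranchEnds
  Fermat.Agent.GP.Flat.SSChain Fermat.Agent.GP.Flat.SSChainVec Fermat.Agent.GP.Flat.SSEnd

/-- the two spellings of the adjoint action agree. -/
theorem adAct_eq {𝔊 : Type*} [Group 𝔊] {k : Type*} [Field k]
    (R : 𝔊 →* Matrix (Fin 2) (Fin 2) k) :
    Fermat.Agent.GP.Flat.SSMember.adAct R = Fermat.Agent.GP.Flat.SSAsm.adAct R := by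
  funext δ
  exact AddMonoidHom.ext fun X => rfl

section Frame

variable {k : Type} [Field k] (R : GQ →* Matrix (Fin 2) (Fin 2) k)
  (Dd GK : Subgroup GQ)
  {Γ₀ : Type*} [LinearOrderedCommGroupWithZero Γ₀]
  (v : Valuation (AlgebraicClosure ℚ) Γ₀) {p : ℕ} [hp : Fact p.Prime]
  {K : Subfield (AlgebraicClosure ℚ)} {ζ : AlgebraicClosure ℚ}
  (hK : ∀ x, x ∈ K ↔ ∀ g ∈ GK, g • x = x) (hζ : IsPrimitiveRoot ζ p) (hζK : ζ ∈ K)
  (horb : ∀ x : AlgebraicClosure ℚ, (Set.range fun g : GK => g • x).Finite)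

/-- membership in the traceless part of `hSub γ`, in the shape of `SSAsm.card_ssLev_le`. -/
theorem mem_inf_tr0_iff {γ : Γ₀} (hγ : γ < 1) (f : GQ → Matrix (Fin 2) (Fin 2) k) :
    f ∈ hSub v hK hζ hζK horb (Dd := Dd) (act := Fermat.Agent.GP.Flat.SSMember.adAct R) hγ ⊓
        Fermat.Agent.GP.Flat.SSAsm.tr0Sub GQ k ↔
      (f ∈ HLev (p := p) v Dd GK K ζ (Fermat.Agent.GP.Flat.SSAsm.adAct R) γ ∧
        ∀ g, (f g).trace = 0) := by
  rw [AddSubgroup.mem_inf, mem_hSub, Fermat.Agent.GP.Flat.SSAsm.mem_tr0Sub, adAct_eq]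

end Frame

section End

variable {𝒪 : Type} [CommRing 𝒪] [IsLocalRing 𝒪]
  (ρbar : ResidualGaloisRep (ResidueField 𝒪))
  (b : Module.Basis (Fin 2) (ResidueField 𝒪) ρbar.V)
  (p : ℕ) [Fact p.Prime]
  {N : Rep (ZMod p) S53_helper35.GQ}
  {emb : N →+ Matrix (Fin 2) (Fin 2) (ResidueField 𝒪)}
  [IsDiscrete (levelQ p) (Rep.res (localGaloisToGlobal p) N)]

/-- **SUPERSINGULAR END on the traceless part.**  As `SSEnd.localCond_ss_of_count`, with the count
taken on the TRACELESS admissible maps of level `≥ γ`, in the conclusion shape of helper50's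
`SSAsm.card_ssLev_le` (finiteness and cardinality bound, adjoint action spelled `SSAsm.adAct`). -/
theorem localCond_ss_of_count_tr0
    (h : GlobModel N (toMatRes ρbar b) emb)
    (GK : Subgroup S53_helper35.GQ)
    (hnorm : ∀ δ ∈ (padicPlace p).decompositionSubgroup ℚ, ∀ g ∈ GK, δ * g * δ⁻¹ ∈ GK)
    (hR : ∀ g ∈ GK, toMatRes ρbar b g = 1)
    (hidx : ((GK.relIndex ((padicPlace p).decompositionSubgroup ℚ) : ℕ) : ResidueField 𝒪) ≠ 0)
    {Γ₀ : Type*} [LinearOrderedCommGroupWithZero Γ₀]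
    (v : Valuation (AlgebraicClosure ℚ) Γ₀)
    {K : Subfield (AlgebraicClosure ℚ)} {ζ : AlgebraicClosure ℚ}
    (hK : ∀ x, x ∈ K ↔ ∀ g ∈ GK, g • x = x) (hζ : IsPrimitiveRoot ζ p) (hζK : ζ ∈ K)
    {γ : Γ₀} (hγ : γ < 1) (d : ℕ)
    (hcount : Finite {f : S53_helper35.GQ → Matrix (Fin 2) (Fin 2) (ResidueField 𝒪) //
        f ∈ HLev (p := p) v ((padicPlace p).decompositionSubgroup ℚ) GK K ζ
          (Fermat.Agent.GP.Flat.SSAsm.adAct (toMatRes ρbar b)) γ ∧ ∀ g, (f g).trace = 0} ∧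
      Nat.card {f : S53_helper35.GQ → Matrix (Fin 2) (Fin 2) (ResidueField 𝒪) //
        f ∈ HLev (p := p) v ((padicPlace p).decompositionSubgroup ℚ) GK K ζ
          (Fermat.Agent.GP.Flat.SSAsm.adAct (toMatRes ρbar b)) γ ∧ ∀ g, (f g).trace = 0} ≤ p ^ d)
    (KB : ∀ (t : S53_helper35.GQ →* Matrix (Fin 2) (Fin 2) (DualNumber (ResidueField 𝒪)))
      (ht : MatCont t), rfst t = toMatRes ρbar b →
      (ofMat t ht).DetIsCyclotomic p → (ofMat t ht).IsFlatAt p →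
      ∀ χ : S53_helper35.GQ → ZMod p, (∀ g ∈ GK, ∀ g' ∈ GK, χ (g * g') = χ g + χ g') →
      (∃ s : Finset (AlgebraicClosure ℚ), ∀ g ∈ GK, (∀ x ∈ s, g • x = x) → χ g = 0) →
      (∀ σ ∈ GK, t σ = 1 → χ σ = 0) → Lev v GK K ζ γ χ) :
    LocalCond ρbar b p N emb p (fun ρ => ρ.DetIsCyclotomic p ∧ ρ.IsFlatAt p) d := by
  classical
  have horb := horb_Qbar GK
  obtain ⟨hfin, hcard⟩ := hcount
  have e : {f : S53_helper35.GQ → Matrix (Fin 2) (Fin 2) (ResidueField 𝒪) //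
        f ∈ HLev (p := p) v ((padicPlace p).decompositionSubgroup ℚ) GK K ζ
          (Fermat.Agent.GP.Flat.SSAsm.adAct (toMatRes ρbar b)) γ ∧ ∀ g, (f g).trace = 0} ≃
      ↥(hSub v hK hζ hζK horb (Dd := (padicPlace p).decompositionSubgroup ℚ)
          (act := Fermat.Agent.GP.Flat.SSMember.adAct (toMatRes ρbar b)) hγ ⊓
        Fermat.Agent.GP.Flat.SSAsm.tr0Sub S53_helper35.GQ (ResidueField 𝒪)) :=
    Equiv.subtypeEquivRight fun f =>
      (mem_inf_tr0_iff (toMatRes ρbar b) _ GK v hK hζ hζK horb hγ f).symm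
  have : Finite ↥(hSub v hK hζ hζK horb (Dd := (padicPlace p).decompositionSubgroup ℚ)
        (act := Fermat.Agent.GP.Flat.SSMember.adAct (toMatRes ρbar b)) hγ ⊓
      Fermat.Agent.GP.Flat.SSAsm.tr0Sub S53_helper35.GQ (ResidueField 𝒪)) :=
    Finite.of_equiv _ e
  refine localCond_flat_of_H ρbar b p h GK hidx _ d ((Nat.card_congr e).symm.le.trans hcard) ?_
  intro t ht hfst hdet hflat
  refine AddSubgroup.mem_inf.2 ⟨suppOn_tanCocycle_mem_hSub (toMatRes ρbar b) _ GK v hK hζ hζK horb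
    hnorm hR hγ t ht hfst (KB t ht hfst hdet hflat), ?_⟩
  rw [Fermat.Agent.GP.Flat.SSAsm.mem_tr0Sub]
  intro g
  rw [suppOn_eq_cutoff]
  exact Fermat.Agent.GP.Flat.SSMember.trace_cutoff_tanCocycle t GK ht p
    (Fact.out : p.Prime).pos hdet g

/-- the same with the count `≤ Nat.card k` (helper50's `SSAsm.card_ssLev_le` VERBATIM) and
`Nat.card k ≤ p ^ d`. -/
theorem localCond_ss_of_card_le
    (h : GlobModel N (toMatRes ρbar b) emb)
    (GK : Subgroup S53_helper35.GQ)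
    (hnorm : ∀ δ ∈ (padicPlace p).decompositionSubgroup ℚ, ∀ g ∈ GK, δ * g * δ⁻¹ ∈ GK)
    (hR : ∀ g ∈ GK, toMatRes ρbar b g = 1)
    (hidx : ((GK.relIndex ((padicPlace p).decompositionSubgroup ℚ) : ℕ) : ResidueField 𝒪) ≠ 0)
    {Γ₀ : Type*} [LinearOrderedCommGroupWithZero Γ₀]
    (v : Valuation (AlgebraicClosure ℚ) Γ₀)
    {K : Subfield (AlgebraicClosure ℚ)} {ζ : AlgebraicClosure ℚ}
    (hK : ∀ x, x ∈ K ↔ ∀ g ∈ GK, g • x = x) (hζ : IsPrimitiveRoot ζ p) (hζK : ζ ∈ K)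
    {γ : Γ₀} (hγ : γ < 1) (d : ℕ) (hd : Nat.card (ResidueField 𝒪) ≤ p ^ d)
    (hcount : Finite {f : S53_helper35.GQ → Matrix (Fin 2) (Fin 2) (ResidueField 𝒪) //
        f ∈ HLev (p := p) v ((padicPlace p).decompositionSubgroup ℚ) GK K ζ
          (Fermat.Agent.GP.Flat.SSAsm.adAct (toMatRes ρbar b)) γ ∧ ∀ g, (f g).trace = 0} ∧
      Nat.card {f : S53_helper35.GQ → Matrix (Fin 2) (Fin 2) (ResidueField 𝒪) //
        f ∈ HLev (p := p) v ((padicPlace p).decompositionSubgroup ℚ) GK K ζ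
          (Fermat.Agent.GP.Flat.SSAsm.adAct (toMatRes ρbar b)) γ ∧ ∀ g, (f g).trace = 0} ≤
        Nat.card (ResidueField 𝒪))
    (KB : ∀ (t : S53_helper35.GQ →* Matrix (Fin 2) (Fin 2) (DualNumber (ResidueField 𝒪)))
      (ht : MatCont t), rfst t = toMatRes ρbar b →
      (ofMat t ht).DetIsCyclotomic p → (ofMat t ht).IsFlatAt p →
      ∀ χ : S53_helper35.GQ → ZMod p, (∀ g ∈ GK, ∀ g' ∈ GK, χ (g * g') = χ g + χ g') →
      (∃ s : Finset (AlgebraicClosure ℚ), ∀ g ∈ GK, (∀ x ∈ s, g • x = x) → χ g = 0) →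
      (∀ σ ∈ GK, t σ = 1 → χ σ = 0) → Lev v GK K ζ γ χ) :
    LocalCond ρbar b p N emb p (fun ρ => ρ.DetIsCyclotomic p ∧ ρ.IsFlatAt p) d :=
  localCond_ss_of_count_tr0 ρbar b p h GK hnorm hR hidx v hK hζ hζK hγ d
    ⟨hcount.1, hcount.2.trans hd⟩ KB

end End

end Fermat.Agent.GP.Flat.SSEndTr0
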