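/-
GATE-P / S56 [P-FLAT], node S56-FLAT-SS-TOP (helper36): **the supersingular (level-two) branch of
the flat local condition at `p`, binder-free.**

`localCond_ss` : `SSShape ρbar p (padicPlace p) → LocalCond ρbar b p N emb p (DetIsCyclotomic ∧
IsFlatAt) d` = the binder `hss` of helper90's `FlatLocalCond.localCond_flat_of_ss` /
`localCond_flat_of_branches`, from

* `LocalCondBasis.localCond_of_adapted` (WLOG the basis is adapted to the level-two shape),
* helper25's `SSEndTr0.localCond_ss_of_card_le` (the supersingular end on the traceless part),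
* `SSData.card_ss_le` (the count at the `ℚ̄`-instance = helper50's `card_ssLev_le_of_orders`),
* helper14's `KbSSFlat.kb_ss_flat` (the Kummer bound `(KB)` for flat lifts),
* the frame `GK = gK P (ssN ρbar.ρ p) = ssGK ρbar.ρ P p` (`SSGK`, `SSGKOpen`).

`localCond_flat` : the flat local condition at `p` (helper90's `localCond_flat_of_ss` with `hss`
plugged) for any model `(N, emb)`.
-/
import Fermat.Agent.GP.Flat.SSDataOrd
import Fermat.Agent.GP.Flat.SSEndTr0
import Fermat.Agent.GP.Flat.KbSSFlat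
import Fermat.Agent.GP.Flat.FlatLocalCondTop

set_option autoImplicit false
set_option linter.unusedSectionVars false
set_option linter.style.haveILetI false

namespace Fermat.Agent.GP.Flat.SSTop

open IsLocalRing Fermat.Agent.S53_helper35 Matrix Module Fermat.Agent.GP.Tan.Cocycle
  Fermat.Agent.GC.Prof Fermat.Agent.GC.Places Fermat.Agent.GC.Local.KR
  Fermat.Agent.GP.Core Fermat.Agent.GP.Flat.SSHlcPinned
  Fermat.Agent.GP.Flat.FlatLocalCond Fermat.Agent.GP.Flat.SSGK
  Fermat.Agent.GP.Flat.LocalCondBasis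

local notation "Qb" => AlgebraicClosure ℚ

section Top

variable {𝒪 : Type} [CommRing 𝒪] [IsLocalRing 𝒪]
  (ρbar : ResidualGaloisRep (ResidueField 𝒪))
  (b : Module.Basis (Fin 2) (ResidueField 𝒪) ρbar.V)
  (p : ℕ) [Fact p.Prime]
  {N : Rep (ZMod p) S53_helper35.GQ}
  {emb : N →+ Matrix (Fin 2) (Fin 2) (ResidueField 𝒪)}
  [IsDiscrete (levelQ p) (Rep.res (localGaloisToGlobal p) N)]

/-- **the level-two branch in an adapted basis.** -/
theorem localCond_ss_adapted [Finite (ResidueField 𝒪)] (hp2 : p ≠ 2)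
    (hdet : (GaloisRepAdic.ofResidualGaloisRep ρbar).DetIsCyclotomic p)
    (h : GlobModel N (toMatRes ρbar b) emb)
    (d : ℕ) (hk : Nat.card (ResidueField 𝒪) = p ^ d)
    (hL : LevelTwo ρbar p (padicPlace p)) (hb : IsAdapted ρbar p (padicPlace p) b) :
    LocalCond ρbar b p N emb p (fun ρ => ρ.DetIsCyclotomic p ∧ ρ.IsFlatAt p) d := by
  have hpp : p.Prime := Fact.out
  have hp3 : 3 ≤ p := by
    have := hpp.two_le
    omega
  haveI : CharP (ResidueField 𝒪) p :=
    Fermat.Agent.GP.Flat.CasesFrozen.charP_of_detIsCyclotomic ρbar p hdet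
  have hP : (p : Qb) ∈ (padicPlace p).nonunits :=
    Fermat.Agent.GP.Loc.PadicPlace.padicPlace_liesOverPrime p
  have : NeZero (p : Qb) := ⟨by exact_mod_cast hpp.ne_zero⟩
  obtain ⟨ζ, hζ⟩ : ∃ ζ : Qb, IsPrimitiveRoot ζ p :=
    HasEnoughRootsOfUnity.exists_primitiveRoot Qb p
  have hidx := relIndex_ssGK_ne_zero_of_levelTwo hp2 hL
  rw [ssGK_eq_gK] at hidx
  have hγ : (padicPlace p).valuation (p : Qb) < 1 :=
    ((padicPlace p).mem_nonunits_iff).mp hP
  exact Fermat.Agent.GP.Flat.SSEndTr0.localCond_ss_of_card_le ρbar b p h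
    (Fermat.Agent.GP.Flat.SSInst.gK (padicPlace p) (ssN ρbar.ρ p))
    (fun δ hδ => Fermat.Agent.GP.Flat.SSInst.conj_mem_gK' (padicPlace p) (ssN ρbar.ρ p) hδ)
    (fun g hg => Fermat.Agent.GP.Flat.SSData.toMatRes_eq_one_of_mem_ssN ρbar p b hg.2)
    hidx (padicPlace p).valuation
    (Fermat.Agent.GP.Flat.SSInst.hK (padicPlace p) (ssN ρbar.ρ p)) hζ
    (zeta_mem_fK_ssN ρbar p (padicPlace p) hζ.pow_eq_one) hγ d (le_of_eq hk)
    (Fermat.Agent.GP.Flat.SSData.card_ss_le hp3 hdet hP hb hζ)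
    (Fermat.Agent.GP.Flat.KbSSFlat.kb_ss_flat ρbar b (padicPlace p) hpp hP hp3 hζ)

/-- **S56-FLAT-SS-TOP: the level-two branch of the flat local condition at `p`**, = the binder
`hss` of `FlatLocalCond.localCond_flat_of_branches` / `localCond_flat_of_ss`. -/
theorem localCond_ss [Finite (ResidueField 𝒪)] (hp2 : p ≠ 2)
    (hdet : (GaloisRepAdic.ofResidualGaloisRep ρbar).DetIsCyclotomic p)
    (h : GlobModel N (toMatRes ρbar b) emb)
    (d : ℕ) (hk : Nat.card (ResidueField 𝒪) = p ^ d)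
    (hSS : SSShape ρbar p (padicPlace p)) :
    LocalCond ρbar b p N emb p (fun ρ => ρ.DetIsCyclotomic p ∧ ρ.IsFlatAt p) d :=
  localCond_of_adapted ρbar b p N emb h hSS.2.2.2 p _ d
    (fun b' _ hm' hb' => localCond_ss_adapted ρbar b' p hp2 hdet hm' d hk hSS.2.2.2 hb')

end Top

section Flat

variable {𝒪 : Type} [CommRing 𝒪] [IsDomain 𝒪] [IsDiscreteValuationRing 𝒪]
  [IsAdicComplete (maximalIdeal 𝒪) 𝒪]
  (ρbar : ResidualGaloisRep (ResidueField 𝒪))
  (b : Module.Basis (Fin 2) (ResidueField 𝒪) ρbar.V)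
  (p : ℕ) [Fact p.Prime]
  {N : Rep (ZMod p) S53_helper35.GQ}
  {emb : N →+ Matrix (Fin 2) (Fin 2) (ResidueField 𝒪)}
  [IsDiscrete (levelQ p) (Rep.res (localGaloisToGlobal p) N)]

/-- **R3-FL: the flat local condition at `p`**, for every model `(N, emb)` of `ad ρbar`, with no
residual binder (`ρbar` is NOT assumed flat). -/
theorem localCond_flat [Finite (ResidueField 𝒪)] (hp2 : p ≠ 2)
    (hdet : (GaloisRepAdic.ofResidualGaloisRep ρbar).DetIsCyclotomic p)
    (hsplit : ∀ σ : Fermat.Agent.Common_helper32.GQ, ∃ α β : ResidueField 𝒪,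
      LinearMap.charpoly (ρbar.ρ σ) =
        (Polynomial.X - Polynomial.C α) * (Polynomial.X - Polynomial.C β))
    (h : GlobModel N (toMatRes ρbar b) emb)
    (d : ℕ) (hk : Nat.card (ResidueField 𝒪) = p ^ d) :
    LocalCond ρbar b p N emb p (fun ρ => ρ.DetIsCyclotomic p ∧ ρ.IsFlatAt p) d :=
  localCond_flat_of_ss ρbar b p hp2 hdet hsplit h d hk
    (fun _ hSS => localCond_ss ρbar b p hp2 hdet h d hk hSS)

end Flat

end Fermat.Agent.GP.Flat.SSTop
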