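/-
[P-FLAT](iv) of the S56 long shot: the CONVERSE of Fontaine's property (P_m), in SUM form.
(helper5)

Abstract setting (no local-field model): `O` a discrete valuation ring with finite residue field,
`G` a finite group acting on `O` by ring automorphisms and fixing a subring `O₀` pointwise, where
`O₀ → O/𝔪` is onto (the "totally ramified" situation `O = 𝒪_L`, `O₀ = 𝒪_{L₀}`, `G = Gal(L/L₀)`).
`Π` is a uniformizer, `ϖ₀ = ε₀ Π^e ∈ O₀` with `e = |G|` (in the application `ϖ₀ = p`).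
Ramification data: `σ Π - Π = t_σ Π^{a σ}` with `t_σ` a unit (`σ ≠ 1`), `A = max a σ ≥ 2` (wild).

THEOREM `exists_perturbation_no_root`: there are a unit `u ∈ O₀` and `n, r` with
`n e + r = A + ∑_{σ ≠ 1} a σ`, `r < e`, `1 ≤ n`, (`r = 0 → 2 ≤ n`) such that
`∏_σ (x - σ Π) = u ϖ₀^n x^r` has NO solution `x ∈ O`.
I.e. the Eisenstein polynomial `g = f - u ϖ₀^n X^r` (`f` the minimal polynomial of `Π`) has no
root in `L`, although `X ↦ β` is a ring hom `𝒪_L → 𝒪_E/(u ϖ₀^n β^r)`, `E = L₀[X]/g`.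
So Fontaine's (P_m) FAILS at `m = (A + D)/e` — no Herbrand function, no upper numbering.
-/
import Mathlib

set_option autoImplicit false
set_option linter.unusedSectionVars false

namespace Fermat.Agent.GP.Flat.Converse

open IsLocalRing Finset

section LC

variable {O : Type*} [CommRing O] [IsDomain O] [IsLocalRing O]

/-- `y` is `z ϖ^n` with `z` of residue `c`: "leading coefficient `c` at level `n`". -/
def LC (ϖ : O) (n : ℕ) (y : O) (c : ResidueField O) : Prop :=
  ∃ z : O, y = z * ϖ ^ n ∧ residue O z = c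

theorem LC.mul {ϖ : O} {n m : ℕ} {y y' : O} {c c' : ResidueField O}
    (h : LC ϖ n y c) (h' : LC ϖ m y' c') : LC ϖ (n + m) (y * y') (c * c') := by
  obtain ⟨z, rfl, rfl⟩ := h
  obtain ⟨z', rfl, rfl⟩ := h'
  exact ⟨z * z', by ring, map_mul _ _ _⟩

theorem LC.one (ϖ : O) : LC ϖ 0 1 1 := ⟨1, by simp, map_one _⟩

theorem LC.prod {ι : Type*} (s : Finset ι) {ϖ : O} (n : ι → ℕ) (y : ι → O)
    (c : ι → ResidueField O) (h : ∀ i ∈ s, LC ϖ (n i) (y i) (c i)) :
    LC ϖ (∑ i ∈ s, n i) (∏ i ∈ s, y i) (∏ i ∈ s, c i) := by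
  classical
  induction s using Finset.induction_on with
  | empty => simpa using LC.one ϖ
  | insert i s hi ih =>
    rw [Finset.sum_insert hi, Finset.prod_insert hi, Finset.prod_insert hi]
    exact (h i (Finset.mem_insert_self i s)).mul
      (ih fun j hj => h j (Finset.mem_insert_of_mem hj))

theorem LC.pow {ϖ : O} {n : ℕ} {y : O} {c : ResidueField O} (h : LC ϖ n y c) (k : ℕ) :
    LC ϖ (k * n) (y ^ k) (c ^ k) := by
  induction k with
  | zero => simpa using LC.one ϖ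
  | succ k ih =>
    rw [pow_succ, pow_succ, Nat.succ_mul]
    exact ih.mul h

theorem LC.unique {ϖ : O} (hϖ : ϖ ≠ 0) {n : ℕ} {y : O} {c c' : ResidueField O}
    (h : LC ϖ n y c) (h' : LC ϖ n y c') : c = c' := by
  obtain ⟨z, hz, rfl⟩ := h
  obtain ⟨z', hz', rfl⟩ := h'
  have : z = z' := mul_right_cancel₀ (pow_ne_zero n hϖ) (hz.symm.trans hz')
  rw [this]

theorem LC.congr_exp {ϖ : O} {n m : ℕ} {y : O} {c : ResidueField O} (h : LC ϖ n y c)
    (hnm : n = m) : LC ϖ m y c := hnm ▸ h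

end LC

section Main

open IsDiscreteValuationRing (addVal)

variable {O : Type*} [CommRing O] [IsDomain O] [IsDiscreteValuationRing O]
variable {G : Type*} [Group G] [Fintype G] [MulSemiringAction G O]

/-- A ring automorphism maps irreducibles to irreducibles. -/
theorem irreducible_smul (σ : G) {ϖ : O} (hϖ : Irreducible ϖ) : Irreducible (σ • ϖ) :=
  (MulEquiv.irreducible_iff (MulSemiringAction.toRingEquiv G O σ)).2 hϖ

theorem isUnit_smul (σ : G) {x : O} (hx : IsUnit x) : IsUnit (σ • x) :=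
  hx.map (MulSemiringAction.toRingEquiv G O σ)

theorem smul_mem_maximalIdeal (σ : G) {x : O} (hx : x ∈ maximalIdeal O) :
    σ • x ∈ maximalIdeal O := by
  rw [mem_maximalIdeal, mem_nonunits_iff] at hx ⊢
  intro h
  apply hx
  have := isUnit_smul σ⁻¹ h
  rwa [inv_smul_smul] at this

/-- If `G` fixes a subring surjecting onto the residue field, `G` acts trivially on the residue
field. -/
theorem residue_smul (O₀ : Subring O) (hfix : ∀ (g : G) (x : O), x ∈ O₀ → g • x = x)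
    (hres : ∀ x : O, ∃ y ∈ O₀, x - y ∈ maximalIdeal O) (σ : G) (x : O) :
    residue O (σ • x) = residue O x := by
  obtain ⟨y, hy, hxy⟩ := hres x
  have h1 : σ • x - x = σ • (x - y) - (x - y) := by
    rw [smul_sub, hfix σ y hy]; ring
  have h2 : σ • x - x ∈ maximalIdeal O := by
    rw [h1]
    exact Ideal.sub_mem _ (smul_mem_maximalIdeal σ hxy) hxy
  rw [← sub_eq_zero, ← map_sub]
  exact (residue_eq_zero_iff _).2 h2

theorem addVal_prod {ι : Type*} (s : Finset ι) (f : ι → O) :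
    IsDiscreteValuationRing.addVal O (∏ i ∈ s, f i)
      = ∑ i ∈ s, IsDiscreteValuationRing.addVal O (f i) := by
  classical
  induction s using Finset.induction_on with
  | empty => simp
  | insert i s hi ih =>
    rw [Finset.prod_insert hi, Finset.sum_insert hi, IsDiscreteValuationRing.addVal_mul, ih]

theorem addVal_unit_mul_pow (c : O) (hc : IsUnit c) {ϖ : O} (hϖ : Irreducible ϖ) (n : ℕ) :
    IsDiscreteValuationRing.addVal O (c * ϖ ^ n) = n := by
  obtain ⟨c, rfl⟩ := hc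
  exact IsDiscreteValuationRing.addVal_def' c hϖ n

theorem exists_eq_unit_mul_pow_of_addVal {z : O} {ϖ : O} (hϖ : Irreducible ϖ) {n : ℕ}
    (h : IsDiscreteValuationRing.addVal O z = n) : ∃ c : Oˣ, z = c * ϖ ^ n := by
  have hz : z ≠ 0 := by
    rintro rfl
    rw [IsDiscreteValuationRing.addVal_zero] at h
    exact ENat.top_ne_natCast n h
  obtain ⟨m, c, hc⟩ := IsDiscreteValuationRing.eq_unit_mul_pow_irreducible hz hϖ
  have := IsDiscreteValuationRing.addVal_def z c hϖ m hc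
  rw [h] at this
  have hnm : n = m := by exact_mod_cast this
  exact ⟨c, by rw [hnm]; exact hc⟩

/-- The residue-field function whose non-surjectivity drives the converse. -/
noncomputable def resFun [DecidableEq G] (a : G → ℕ) (t : G → Oˣ) (A : ℕ)
    (z : ResidueField O) : ResidueField O :=
  z * ∏ τ ∈ Finset.univ.erase (1 : G),
    (if a τ = A then z - residue O (t τ : O) else - residue O (t τ : O))

theorem resFun_not_surjective [DecidableEq G] [Finite (ResidueField O)] (a : G → ℕ) (t : G → Oˣ)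
    (A : ℕ) (hAex : ∃ σ : G, σ ≠ 1 ∧ a σ = A) :
    ∃ y : ResidueField O, ∀ z, resFun a t A z ≠ y := by
  obtain ⟨σ, hσ1, hσA⟩ := hAex
  have h0 : resFun a t A 0 = 0 := by simp [resFun]
  have hne : residue O (t σ : O) ≠ 0 := by
    rw [Ne, residue_eq_zero_iff, mem_maximalIdeal, mem_nonunits_iff, not_not]
    exact (t σ).isUnit
  have h1 : resFun a t A (residue O (t σ : O)) = 0 := by
    unfold resFun
    rw [Finset.prod_eq_zero (Finset.mem_erase.2 ⟨hσ1, Finset.mem_univ σ⟩) (by simp [hσA]),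
      mul_zero]
  have hninj : ¬ Function.Injective (resFun a t A) := fun hinj =>
    hne (hinj (h1.trans h0.symm))
  have hnsurj : ¬ Function.Surjective (resFun a t A) := fun hs =>
    hninj (Finite.injective_iff_surjective.2 hs)
  simpa [Function.Surjective] using hnsurj

/-- Key identity: `(σ₀ τ) π = π₀ + (σ₀ t_τ) π₀^{a τ}` with `π₀ = σ₀ π`. -/
theorem key_identity (π : O) (a : G → ℕ) (t : G → Oˣ)
    (ha : ∀ σ : G, σ ≠ 1 → σ • π - π = t σ * π ^ a σ) (σ₀ τ : G) (hτ : τ ≠ 1) :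
    (σ₀ * τ) • π = σ₀ • π + (σ₀ • (t τ : O)) * (σ₀ • π) ^ a τ := by
  have h := ha τ hτ
  have h' : τ • π = π + t τ * π ^ a τ := by rw [← h]; ring
  rw [mul_smul, h', smul_add, smul_mul', smul_pow']

/-- Valuation of the conjugate differences relative to `π₀ = σ₀ π`. -/
theorem addVal_conj_sub (π : O) (hπ : Irreducible π) (a : G → ℕ) (t : G → Oˣ)
    (ha : ∀ σ : G, σ ≠ 1 → σ • π - π = t σ * π ^ a σ) (σ₀ τ : G) (hτ : τ ≠ 1) :
    IsDiscreteValuationRing.addVal O ((σ₀ * τ) • π - σ₀ • π) = a τ := by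
  rw [key_identity π a t ha σ₀ τ hτ, add_sub_cancel_left]
  exact addVal_unit_mul_pow _ (isUnit_smul σ₀ (t τ).isUnit) (irreducible_smul σ₀ hπ) _

/-- Valuation analysis: a solution `x` of the perturbed equation has a conjugate `σ₀ π` with
`v (x - σ₀ π) = A` exactly. -/
theorem exists_conj_addVal_eq [DecidableEq G]
    (π : O) (hπ : Irreducible π) (ϖ₀ : O) (ε₀ : Oˣ) (hϖ₀e : ϖ₀ = ε₀ * π ^ Fintype.card G)
    (a : G → ℕ) (t : G → Oˣ) (ha : ∀ σ : G, σ ≠ 1 → σ • π - π = t σ * π ^ a σ)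
    (ha1 : ∀ σ : G, σ ≠ 1 → 1 ≤ a σ)
    (A : ℕ) (hAle : ∀ σ : G, σ ≠ 1 → a σ ≤ A)
    (he2 : 2 ≤ Fintype.card G)
    (u : O) (hu : IsUnit u) (n r : ℕ)
    (hnr : n * Fintype.card G + r = A + ∑ σ ∈ Finset.univ.erase (1 : G), a σ)
    (hn1 : 1 ≤ n) (hr0 : r = 0 → 2 ≤ n)
    (x : O) (hx : ∏ σ : G, (x - σ • π) = u * ϖ₀ ^ n * x ^ r) :
    ∃ σ₀ : G, addVal O (x - σ₀ • π) = A := by
  classical
  set e := Fintype.card G with he
  have hϖ₀ne : ϖ₀ ≠ 0 := by
    rw [hϖ₀e]; exact mul_ne_zero ε₀.ne_zero (pow_ne_zero _ hπ.ne_zero)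
  -- Step 0: `x` is not a conjugate of `π`
  have hxne : ∀ σ : G, x ≠ σ • π := by
    intro σ hσ
    have hL : ∏ σ : G, (x - σ • π) = 0 :=
      Finset.prod_eq_zero (Finset.mem_univ σ) (by rw [hσ, sub_self])
    rw [hL] at hx
    have hxr : x ^ r = 0 := by
      rcases mul_eq_zero.1 hx.symm with h | h
      · rcases mul_eq_zero.1 h with h | h
        · exact absurd h hu.ne_zero
        · exact absurd h (pow_ne_zero _ hϖ₀ne)
      · exact h
    have hx0 : x = 0 := eq_zero_of_pow_eq_zero hxr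
    exact (irreducible_smul σ hπ).ne_zero (hσ ▸ hx0)
  -- finite valuations
  have hfin : ∀ σ : G, ∃ m : ℕ, addVal O (x - σ • π) = m := fun σ => by
    have hne : addVal O (x - σ • π) ≠ ⊤ := fun h =>
      hxne σ (sub_eq_zero.1 (IsDiscreteValuationRing.addVal_eq_top_iff.1 h))
    obtain ⟨m, hm⟩ := ENat.ne_top_iff_exists.1 hne
    exact ⟨m, hm.symm⟩
  choose w hw using hfin
  obtain ⟨σ₀, -, hmax⟩ := Finset.exists_max_image Finset.univ w Finset.univ_nonempty
  set j := w σ₀ with hj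
  have hp : addVal O (x - σ₀ • π) = j := hw σ₀
  -- the ultrametric claim
  have hclaim : ∀ τ : G, τ ≠ 1 → w (σ₀ * τ) = min j (a τ) := by
    intro τ hτ
    have hdecomp : x - (σ₀ * τ) • π = (x - σ₀ • π) - ((σ₀ * τ) • π - σ₀ • π) := by ring
    have hq : addVal O ((σ₀ * τ) • π - σ₀ • π) = a τ := addVal_conj_sub π hπ a t ha σ₀ τ hτ
    have hle : w (σ₀ * τ) ≤ j := hmax _ (Finset.mem_univ _)
    have hww : addVal O (x - (σ₀ * τ) • π) = w (σ₀ * τ) := hw _
    rcases lt_trichotomy j (a τ) with h | h | h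
    · have h1 : addVal O (x - (σ₀ * τ) • π) = j := by
        rw [hdecomp, AddValuation.map_sub_eq_of_lt_left _ (by rw [hp, hq]; exact_mod_cast h), hp]
      rw [hww] at h1
      have h2 : w (σ₀ * τ) = j := by exact_mod_cast h1
      rw [h2, min_eq_left h.le]
    · have hge : (j : ℕ∞) ≤ addVal O (x - (σ₀ * τ) • π) := by
        rw [hdecomp]
        refine le_trans ?_ (AddValuation.map_sub _ _ _)
        rw [hp, hq, ← h, min_self]
      rw [hww] at hge
      have h2 : j ≤ w (σ₀ * τ) := by exact_mod_cast hge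
      rw [← h, min_self]; omega
    · have h1 : addVal O (x - (σ₀ * τ) • π) = a τ := by
        rw [hdecomp, AddValuation.map_sub_eq_of_lt_right _ (by rw [hp, hq]; exact_mod_cast h), hq]
      rw [hww] at h1
      have h2 : w (σ₀ * τ) = a τ := by exact_mod_cast h1
      rw [h2, min_eq_right h.le]
  -- valuation of the left hand side
  have hLHS : addVal O (∏ σ : G, (x - σ • π))
      = ((j + ∑ τ ∈ Finset.univ.erase (1 : G), min j (a τ) : ℕ) : ℕ∞) := by
    rw [addVal_prod]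
    have h1 : ∑ σ : G, addVal O (x - σ • π) = ∑ τ : G, addVal O (x - (σ₀ * τ) • π) :=
      (Equiv.sum_comp (Equiv.mulLeft σ₀) (fun σ => addVal O (x - σ • π))).symm
    rw [h1, ← Finset.add_sum_erase Finset.univ _ (Finset.mem_univ (1 : G)), mul_one, hp]
    push_cast
    congr 1
    refine Finset.sum_congr rfl fun τ hτ => ?_
    rw [hw, hclaim τ (Finset.ne_of_mem_erase hτ)]
  -- valuation of the right hand side
  have hvu : addVal O u = 0 := by
    obtain ⟨u', rfl⟩ := hu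
    have := IsDiscreteValuationRing.addVal_def' u' hπ 0
    rw [pow_zero, mul_one] at this
    exact_mod_cast this
  have hvϖ : addVal O ϖ₀ = e := by
    rw [hϖ₀e]; exact IsDiscreteValuationRing.addVal_def' ε₀ hπ e
  have hRHS : addVal O (u * ϖ₀ ^ n * x ^ r) = ((n * e : ℕ) : ℕ∞) + r • addVal O x := by
    rw [IsDiscreteValuationRing.addVal_mul, IsDiscreteValuationRing.addVal_mul,
      IsDiscreteValuationRing.addVal_pow, IsDiscreteValuationRing.addVal_pow, hvu, hvϖ, zero_add]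
    simp [nsmul_eq_mul]
  have hval : ((j + ∑ τ ∈ Finset.univ.erase (1 : G), min j (a τ) : ℕ) : ℕ∞)
      = ((n * e : ℕ) : ℕ∞) + r • addVal O x := by
    rw [← hLHS, hx, hRHS]
  have hvπ₀ : addVal O (σ₀ • π) = 1 :=
    IsDiscreteValuationRing.addVal_uniformizer (irreducible_smul σ₀ hπ)
  have hne2 : 2 ≤ n * e := by nlinarith
  -- case analysis on `j`
  rcases Nat.lt_or_ge j 2 with hj2 | hj2
  · exfalso
    interval_cases j
    · -- j = 0
      have h0 : (0 + ∑ τ ∈ Finset.univ.erase (1 : G), min 0 (a τ) : ℕ) = 0 := by simp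
      rw [h0] at hval
      have : ((n * e : ℕ) : ℕ∞) ≤ 0 := by
        rw [Nat.cast_zero] at hval; rw [hval]; exact le_self_add
      have : n * e ≤ 0 := by exact_mod_cast this
      omega
    · -- j = 1
      have hsum : (1 + ∑ τ ∈ Finset.univ.erase (1 : G), min 1 (a τ) : ℕ) = e := by
        have h1 : ∀ τ ∈ Finset.univ.erase (1 : G), min 1 (a τ) = 1 := fun τ hτ =>
          min_eq_left (ha1 τ (Finset.ne_of_mem_erase hτ))
        rw [Finset.sum_congr rfl h1, Finset.sum_const, Finset.card_erase_of_mem (Finset.mem_univ _),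
          Finset.card_univ, smul_eq_mul, mul_one]
        omega
      rw [hsum] at hval
      have hvx : (1 : ℕ∞) ≤ addVal O x := by
        have hxx : x = (x - σ₀ • π) + σ₀ • π := by ring
        rw [hxx]
        refine le_trans ?_ (AddValuation.map_add _ _ _)
        rw [hp, hvπ₀]; simp
      rcases Nat.eq_zero_or_pos r with hr | hr
      · have hn2 := hr0 hr
        rw [hr, zero_smul, add_zero] at hval
        have : e = n * e := by exact_mod_cast hval
        nlinarith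
      · have h1 : (1 : ℕ∞) ≤ r • addVal O x := by
          calc (1 : ℕ∞) ≤ addVal O x := hvx
            _ = 1 • addVal O x := (one_smul _ _).symm
            _ ≤ r • addVal O x := by
              rw [nsmul_eq_mul, nsmul_eq_mul]
              exact mul_le_mul_left (by exact_mod_cast hr) _
        have h2 : ((n * e : ℕ) : ℕ∞) + 1 ≤ e := by
          rw [hval]; exact add_le_add_right h1 _
        have : n * e + 1 ≤ e := by exact_mod_cast h2
        nlinarith
  · -- j ≥ 2 : `addVal O x = 1`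
    have hvx : addVal O x = 1 := by
      have hxx : x = σ₀ • π + (x - σ₀ • π) := by ring
      rw [hxx, AddValuation.map_add_eq_of_lt_left _ (by rw [hp, hvπ₀]; exact_mod_cast hj2), hvπ₀]
    rw [hvx] at hval
    have hval' : j + ∑ τ ∈ Finset.univ.erase (1 : G), min j (a τ) = n * e + r := by
      have : ((j + ∑ τ ∈ Finset.univ.erase (1 : G), min j (a τ) : ℕ) : ℕ∞)
          = ((n * e + r : ℕ) : ℕ∞) := by
        rw [hval]; push_cast; simp [nsmul_eq_mul]
      exact_mod_cast this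
    rw [hnr] at hval'
    have hΦA : A + ∑ τ ∈ Finset.univ.erase (1 : G), min A (a τ)
        = A + ∑ τ ∈ Finset.univ.erase (1 : G), a τ := by
      congr 1
      exact Finset.sum_congr rfl fun τ hτ => min_eq_right (hAle τ (Finset.ne_of_mem_erase hτ))
    have hmono : ∀ j₁ j₂ : ℕ, j₁ < j₂ →
        j₁ + ∑ τ ∈ Finset.univ.erase (1 : G), min j₁ (a τ)
          < j₂ + ∑ τ ∈ Finset.univ.erase (1 : G), min j₂ (a τ) := fun j₁ j₂ h =>
      add_lt_add_of_lt_of_le h
        (Finset.sum_le_sum fun τ _ => min_le_min_right _ h.le)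
    have hjA : j = A := by
      rcases lt_trichotomy j A with h | h | h
      · have := hmono j A h; omega
      · exact h
      · have := hmono A j h; omega
    exact ⟨σ₀, by rw [hp, hjA]⟩

/-- Leading coefficient of the left hand side, relative to `π₀ = σ₀ π`. -/
theorem lc_lhs [DecidableEq G] (O₀ : Subring O)
    (hfix : ∀ (g : G) (x : O), x ∈ O₀ → g • x = x)
    (hres : ∀ x : O, ∃ y ∈ O₀, x - y ∈ maximalIdeal O)
    (π : O) (hπ : Irreducible π) (a : G → ℕ) (t : G → Oˣ)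
    (ha : ∀ σ : G, σ ≠ 1 → σ • π - π = t σ * π ^ a σ)
    (A : ℕ) (hAle : ∀ σ : G, σ ≠ 1 → a σ ≤ A)
    (x : O) (σ₀ : G) (d : O) (hd : x - σ₀ • π = d * (σ₀ • π) ^ A) :
    LC (σ₀ • π) (A + ∑ τ ∈ Finset.univ.erase (1 : G), a τ) (∏ σ : G, (x - σ • π))
      (resFun a t A (residue O d)) := by
  classical
  have hπ₀m : σ₀ • π ∈ maximalIdeal O := by
    rw [mem_maximalIdeal, mem_nonunits_iff]
    exact (irreducible_smul σ₀ hπ).not_isUnit
  have h1 : ∏ σ : G, (x - σ • π) = ∏ τ : G, (x - (σ₀ * τ) • π) :=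
    (Equiv.prod_comp (Equiv.mulLeft σ₀) (fun σ => x - σ • π)).symm
  rw [h1, ← Finset.mul_prod_erase Finset.univ _ (Finset.mem_univ (1 : G)), mul_one]
  unfold resFun
  refine LC.mul ⟨d, hd, rfl⟩ ?_
  refine LC.prod _ _ _ _ fun τ hτ => ?_
  have hτ1 : τ ≠ 1 := Finset.ne_of_mem_erase hτ
  have hkey := key_identity π a t ha σ₀ τ hτ1
  have hsres : residue O (σ₀ • (t τ : O)) = residue O (t τ : O) :=
    residue_smul O₀ hfix hres σ₀ _
  have hxs : x - (σ₀ * τ) • π = d * (σ₀ • π) ^ A - σ₀ • (t τ : O) * (σ₀ • π) ^ a τ := by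
    rw [hkey, ← hd]; ring
  by_cases hA : a τ = A
  · rw [if_pos hA]
    refine ⟨d - σ₀ • (t τ : O), ?_, by rw [map_sub, hsres]⟩
    rw [hxs, hA]; ring
  · rw [if_neg hA]
    have hlt : a τ < A := lt_of_le_of_ne (hAle τ hτ1) hA
    obtain ⟨k, hk⟩ := Nat.exists_eq_add_of_lt hlt
    refine ⟨d * (σ₀ • π) ^ (k + 1) - σ₀ • (t τ : O), ?_, ?_⟩
    · rw [hxs, hk]; ring
    · have hz : residue O (d * (σ₀ • π) ^ (k + 1)) = 0 := by
        rw [residue_eq_zero_iff]
        exact Ideal.mul_mem_left _ _ (Ideal.pow_mem_of_mem _ hπ₀m _ (Nat.succ_pos k))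
      rw [map_sub, hz, hsres, zero_sub]

/-- Leading coefficient of the right hand side, relative to `π₀ = σ₀ π`. -/
theorem lc_rhs (O₀ : Subring O)
    (hfix : ∀ (g : G) (x : O), x ∈ O₀ → g • x = x)
    (hres : ∀ x : O, ∃ y ∈ O₀, x - y ∈ maximalIdeal O)
    (π : O) (hπ : Irreducible π) (ϖ₀ : O) (hϖ₀ : ϖ₀ ∈ O₀) (ε₀ : Oˣ)
    (hϖ₀e : ϖ₀ = ε₀ * π ^ Fintype.card G)
    (A : ℕ) (hA2 : 2 ≤ A) (x : O) (σ₀ : G) (d : O) (hd : x - σ₀ • π = d * (σ₀ • π) ^ A)
    (u : O) (n r : ℕ) :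
    LC (σ₀ • π) (n * Fintype.card G + r) (u * ϖ₀ ^ n * x ^ r)
      (residue O u * residue O (ε₀ : O) ^ n) := by
  have hπ₀m : σ₀ • π ∈ maximalIdeal O := by
    rw [mem_maximalIdeal, mem_nonunits_iff]
    exact (irreducible_smul σ₀ hπ).not_isUnit
  have hu : LC (σ₀ • π) 0 u (residue O u) := ⟨u, by simp, rfl⟩
  have hϖ : LC (σ₀ • π) (Fintype.card G) ϖ₀ (residue O (ε₀ : O)) := by
    refine ⟨σ₀ • (ε₀ : O), ?_, residue_smul O₀ hfix hres σ₀ _⟩
    conv_lhs => rw [← hfix σ₀ ϖ₀ hϖ₀, hϖ₀e]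
    rw [smul_mul', smul_pow']
  have hx : LC (σ₀ • π) 1 x 1 := by
    obtain ⟨k, rfl⟩ := Nat.exists_eq_add_of_le hA2
    refine ⟨1 + d * (σ₀ • π) ^ (k + 1), ?_, ?_⟩
    · have : x = σ₀ • π + d * (σ₀ • π) ^ (2 + k) := by rw [← hd]; ring
      rw [this]; ring
    · have hz : residue O (d * (σ₀ • π) ^ (k + 1)) = 0 := by
        rw [residue_eq_zero_iff]
        exact Ideal.mul_mem_left _ _ (Ideal.pow_mem_of_mem _ hπ₀m _ (Nat.succ_pos k))
      rw [map_add, map_one, hz, add_zero]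
  have h := (hu.mul (hϖ.pow n)).mul (hx.pow r)
  simp only [one_pow, mul_one, zero_add] at h
  exact h

/-- **Converse of Fontaine's property (P_m), sum form.**  In the totally ramified Galois situation
with ramification data `σ π - π = t_σ π^{a σ}`, `A = max a σ ≥ 2`, there is a perturbation
`u ϖ₀^n X^r` of valuation exactly `A + ∑_{σ ≠ 1} a σ` such that
`∏_σ (X - σ π) = u ϖ₀^n X^r` has no solution in `O`. -/
theorem exists_perturbation_no_root [Finite (ResidueField O)] [DecidableEq G]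
    (O₀ : Subring O) (hfix : ∀ (g : G) (x : O), x ∈ O₀ → g • x = x)
    (hres : ∀ x : O, ∃ y ∈ O₀, x - y ∈ maximalIdeal O)
    (π : O) (hπ : Irreducible π) (ϖ₀ : O) (hϖ₀ : ϖ₀ ∈ O₀) (ε₀ : Oˣ)
    (hϖ₀e : ϖ₀ = ε₀ * π ^ Fintype.card G)
    (a : G → ℕ) (t : G → Oˣ) (ha : ∀ σ : G, σ ≠ 1 → σ • π - π = t σ * π ^ a σ)
    (A : ℕ) (hA2 : 2 ≤ A) (hAle : ∀ σ : G, σ ≠ 1 → a σ ≤ A)
    (hAex : ∃ σ : G, σ ≠ 1 ∧ a σ = A) :
    ∃ (u : O) (n r : ℕ), u ∈ O₀ ∧ IsUnit u ∧
      n * Fintype.card G + r = A + ∑ σ ∈ Finset.univ.erase (1 : G), a σ ∧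
      r < Fintype.card G ∧ 1 ≤ n ∧ (r = 0 → 2 ≤ n) ∧
      ∀ x : O, ∏ σ : G, (x - σ • π) ≠ u * ϖ₀ ^ n * x ^ r := by
  classical
  set e := Fintype.card G with he
  set D := ∑ σ ∈ Finset.univ.erase (1 : G), a σ with hD
  have hπm : π ∈ maximalIdeal O := by
    rw [mem_maximalIdeal, mem_nonunits_iff]; exact hπ.not_isUnit
  -- `a σ ≥ 1`
  have ha1 : ∀ σ : G, σ ≠ 1 → 1 ≤ a σ := by
    intro σ hσ
    by_contra h
    have h0 : a σ = 0 := by omega
    have h1 := ha σ hσ
    rw [h0, pow_zero, mul_one] at h1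
    have hm : σ • π - π ∈ maximalIdeal O :=
      Ideal.sub_mem _ (smul_mem_maximalIdeal σ hπm) hπm
    rw [h1, mem_maximalIdeal, mem_nonunits_iff] at hm
    exact hm (t σ).isUnit
  -- `e ≥ 2`
  have he2 : 2 ≤ e := by
    obtain ⟨σ, hσ, -⟩ := hAex
    have : Nontrivial G := ⟨⟨σ, 1, hσ⟩⟩
    exact Fintype.one_lt_card
  -- `D ≥ e - 1`
  have hDe : e - 1 ≤ D := by
    have h1 : ∑ _σ ∈ Finset.univ.erase (1 : G), 1 ≤ D :=
      Finset.sum_le_sum fun σ hσ => ha1 σ (Finset.ne_of_mem_erase hσ)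
    rw [Finset.sum_const, Finset.card_erase_of_mem (Finset.mem_univ _), Finset.card_univ,
      smul_eq_mul, mul_one] at h1
    exact h1
  have hepos : 0 < e := by omega
  have hAD : e + 1 ≤ A + D := by omega
  -- the exponents
  set n := (A + D) / e with hn
  set r := (A + D) % e with hr
  have hnr : n * e + r = A + D := Nat.div_add_mod' (A + D) e
  have hre : r < e := Nat.mod_lt _ hepos
  have hn1 : 1 ≤ n := Nat.div_pos (by omega) hepos
  have hr0 : r = 0 → 2 ≤ n := by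
    intro h0
    by_contra hlt
    have hn1' : n = 1 := by omega
    rw [h0, hn1', one_mul, add_zero] at hnr
    omega
  -- the unit
  obtain ⟨y, hy⟩ := resFun_not_surjective a t A hAex
  have hε : residue O (ε₀ : O) ≠ 0 := by
    rw [Ne, residue_eq_zero_iff, mem_maximalIdeal, mem_nonunits_iff, not_not]
    exact ε₀.isUnit
  have hy0 : y ≠ 0 := by
    intro h
    exact hy 0 (by rw [h]; simp [resFun])
  obtain ⟨x₀, hx₀⟩ := residue_surjective (R := O) (y * (residue O (ε₀ : O) ^ n)⁻¹)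
  obtain ⟨u, hu₀, hux⟩ := hres x₀
  have hures : residue O u = y * (residue O (ε₀ : O) ^ n)⁻¹ := by
    rw [← hx₀]
    have : residue O (x₀ - u) = 0 := (residue_eq_zero_iff _).2 hux
    rw [map_sub, sub_eq_zero] at this
    exact this.symm
  have huunit : IsUnit u := by
    have hne : residue O u ≠ 0 := by
      rw [hures]
      exact mul_ne_zero hy0 (inv_ne_zero (pow_ne_zero _ hε))
    rw [Ne, residue_eq_zero_iff, mem_maximalIdeal, mem_nonunits_iff, not_not] at hne
    exact hne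
  refine ⟨u, n, r, hu₀, huunit, hnr, hre, hn1, hr0, ?_⟩
  intro x hx
  obtain ⟨σ₀, hσ₀⟩ := exists_conj_addVal_eq π hπ ϖ₀ ε₀ hϖ₀e a t ha ha1 A hAle he2 u huunit n r
    hnr hn1 hr0 x hx
  obtain ⟨d, hd⟩ := exists_eq_unit_mul_pow_of_addVal (irreducible_smul σ₀ hπ) hσ₀
  have hL := lc_lhs O₀ hfix hres π hπ a t ha A hAle x σ₀ (d : O) hd
  have hR := lc_rhs O₀ hfix hres π hπ ϖ₀ hϖ₀ ε₀ hϖ₀e A hA2 x σ₀ (d : O) hd u n r
  rw [hx] at hL
  have hR' := hR.congr_exp hnr
  have heq := LC.unique (irreducible_smul σ₀ hπ).ne_zero hL hR'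
  rw [hures, mul_assoc, inv_mul_cancel₀ (pow_ne_zero _ hε), mul_one] at heq
  exact hy _ heq

end Main

end Fermat.Agent.GP.Flat.Converse
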