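/-
[P-FLAT](iv) of the S56 long shot, consumer side of `Converse.exists_perturbation_no_root`
(helper5).  Model-independent algebra:

* `orbitPoly₀ π : O₀[X]` : the polynomial `f = ∏_σ (X - σ π)` descended to the pointwise-fixed
  subring `O₀` (hypothesis: every `G`-invariant element of `O` lies in `O₀`);
* `orbitPoly₀_dvd_of_aeval_eq_zero` : `f` is the minimal polynomial of `π` over `O₀`;
* `exists_algHom_quotient` : if `O = O₀[π]`, then for every `O₀`-algebra `S`, `β : S` and ideal `I`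
  with `f(β) ∈ I` there is an `O₀`-algebra hom `O → S ⧸ I`, `π ↦ β`;
* `exists_algHom_of_root` : the same for a root `β` of the perturbation `g = f - C c * X ^ r`, with
  `I = (c β^r)`;
* `exists_eisenstein_perturbation` : packaging with the converse lemma: a unit `u ∈ O₀`, exponents
  `n, r` with `n e + r = A + D` such that `g = f - u ϖ₀^n X^r` has no root in `O`;
* `coeff_orbitPoly₀_mem_maximalIdeal`, `coeff_zero_orbitPoly₀` : Eisenstein shape of `f`.
Mathlib + `GP/Flat/Converse` only.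
-/
import Mathlib
import Fermat.Agent.GP.Flat.Converse

set_option autoImplicit false
set_option linter.unusedSectionVars false

namespace Fermat.Agent.GP.Flat.PmBound

open Polynomial

universe w

section Orbit

variable {O : Type*} [CommRing O] [IsDomain O]
variable {G : Type*} [Group G] [Fintype G] [MulSemiringAction G O]

/-- `∏_σ (X - σ π) ∈ O[X]`. -/
noncomputable def orbitPolyO (G : Type*) [Group G] [Fintype G] [MulSemiringAction G O] (π : O) :
    O[X] :=
  ∏ σ : G, (X - C (σ • π))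

theorem orbitPolyO_monic (π : O) : (orbitPolyO G π).Monic :=
  monic_prod_of_monic _ _ fun _ _ => monic_X_sub_C _

theorem orbitPolyO_natDegree (π : O) : (orbitPolyO G π).natDegree = Fintype.card G := by
  unfold orbitPolyO
  rw [natDegree_prod_of_monic _ _ fun _ _ => monic_X_sub_C _]
  simp

theorem orbitPolyO_eval (π x : O) : (orbitPolyO G π).eval x = ∏ σ : G, (x - σ • π) := by
  unfold orbitPolyO
  rw [eval_prod]
  simp

theorem orbitPolyO_map_smul (π : O) (τ : G) :
    (orbitPolyO G π).map (MulSemiringAction.toRingHom G O τ) = orbitPolyO G π := by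
  unfold orbitPolyO
  rw [Polynomial.map_prod]
  have h1 : ∀ σ : G, (X - C (σ • π)).map (MulSemiringAction.toRingHom G O τ)
      = X - C ((τ * σ) • π) := fun σ => by
    simp [mul_smul]
  simp_rw [h1]
  exact Fintype.prod_equiv (Equiv.mulLeft τ) _ _ fun σ => rfl

theorem orbitPolyO_coeff_smul (π : O) (τ : G) (n : ℕ) :
    τ • (orbitPolyO G π).coeff n = (orbitPolyO G π).coeff n := by
  have := congrArg (fun p => p.coeff n) (orbitPolyO_map_smul (G := G) π τ)
  simpa [coeff_map] using this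

variable (O₀ : Subring O)

theorem orbitPolyO_coeffs_subset (hinv : ∀ x : O, (∀ g : G, g • x = x) → x ∈ O₀) (π : O) :
    (↑(orbitPolyO G π).coeffs : Set O) ⊆ O₀ := by
  intro c hc
  rw [Finset.mem_coe, mem_coeffs_iff] at hc
  obtain ⟨n, -, rfl⟩ := hc
  exact hinv _ fun g => orbitPolyO_coeff_smul π g n

/-- The orbit polynomial descended to `O₀`. -/
noncomputable def orbitPoly₀ (hinv : ∀ x : O, (∀ g : G, g • x = x) → x ∈ O₀) (π : O) : O₀[X] :=
  (orbitPolyO G π).toSubring O₀ (orbitPolyO_coeffs_subset O₀ hinv π)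

variable (hinv : ∀ x : O, (∀ g : G, g • x = x) → x ∈ O₀)

theorem map_orbitPoly₀ (π : O) :
    (orbitPoly₀ O₀ hinv π).map O₀.subtype = orbitPolyO G π :=
  map_toSubring _ _ _

theorem orbitPoly₀_monic (π : O) : (orbitPoly₀ O₀ hinv π).Monic :=
  (monic_toSubring _ _ _).2 (orbitPolyO_monic π)

theorem orbitPoly₀_natDegree (π : O) :
    (orbitPoly₀ O₀ hinv π).natDegree = Fintype.card G := by
  unfold orbitPoly₀
  rw [natDegree_toSubring, orbitPolyO_natDegree]

theorem aeval_eq_eval_map (x : O) (q : O₀[X]) : aeval x q = (q.map O₀.subtype).eval x := by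
  rw [eval_map]; rfl

theorem aeval_orbitPoly₀ (π x : O) :
    aeval x (orbitPoly₀ O₀ hinv π) = ∏ σ : G, (x - σ • π) := by
  rw [aeval_eq_eval_map, map_orbitPoly₀, orbitPolyO_eval]

theorem coeff_orbitPoly₀ (π : O) (n : ℕ) :
    ((orbitPoly₀ O₀ hinv π).coeff n : O) = (orbitPolyO G π).coeff n :=
  coeff_toSubring _ _ _

theorem smul_aeval (hfix : ∀ (g : G) (x : O), x ∈ O₀ → g • x = x) (g : G) (y : O) (q : O₀[X]) : g • (aeval y q) = aeval (g • y) q := by
  have hcomp : (MulSemiringAction.toRingHom G O g).comp O₀.subtype = O₀.subtype := by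
    ext a
    exact hfix g a a.2
  have h1 : (MulSemiringAction.toRingHom G O g) ((q.map O₀.subtype).eval y)
      = ((q.map O₀.subtype).map (MulSemiringAction.toRingHom G O g)).eval
          ((MulSemiringAction.toRingHom G O g) y) :=
    (eval_map_apply _ _).symm
  rw [Polynomial.map_map, hcomp] at h1
  rw [aeval_eq_eval_map, aeval_eq_eval_map]
  exact h1

/-- `f` is the minimal polynomial of `π` over `O₀`. -/
theorem orbitPoly₀_dvd_of_aeval_eq_zero (hfix : ∀ (g : G) (x : O), x ∈ O₀ → g • x = x)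
    (π : O) (hfaith : ∀ σ : G, σ • π = π → σ = 1)
    (q : O₀[X]) (hq : aeval π q = 0) : orbitPoly₀ O₀ hinv π ∣ q := by
  classical
  set f := orbitPoly₀ O₀ hinv π with hf
  have hfm : f.Monic := orbitPoly₀_monic O₀ hinv π
  rw [← modByMonic_eq_zero_iff_dvd hfm]
  set rem := q %ₘ f with hrem
  have hcardpos : 0 < Fintype.card G := Fintype.card_pos
  have hf1 : f ≠ 1 := by
    intro h
    have := orbitPoly₀_natDegree O₀ hinv π
    rw [← hf, h, natDegree_one] at this
    omega
  have hdeg : rem.natDegree < Fintype.card G := by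
    have := natDegree_modByMonic_lt q hfm hf1
    rwa [orbitPoly₀_natDegree] at this
  have hroot : ∀ σ : G, ((rem.map O₀.subtype).eval (σ • π)) = 0 := by
    intro σ
    rw [← aeval_eq_eval_map]
    have hq' : aeval (σ • π) q = 0 := by
      rw [← smul_aeval O₀ hfix σ π q, hq, smul_zero]
    have hf' : aeval (σ • π) f = 0 := by
      rw [hf, aeval_orbitPoly₀]
      exact Finset.prod_eq_zero (Finset.mem_univ σ) (sub_self _)
    have hdecomp : rem = q - f * (q /ₘ f) := by
      rw [hrem]; exact eq_sub_of_add_eq (modByMonic_add_div q f)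
    rw [hdecomp, map_sub, map_mul, hq', hf', zero_mul, sub_zero]
  have hinj : Function.Injective fun σ : G => σ • π := by
    intro σ τ h
    have h' : σ • π = τ • π := h
    have h1 : (τ⁻¹ * σ) • π = π := by
      rw [mul_smul, h', inv_smul_smul]
    have := hfaith _ h1
    exact (inv_mul_eq_one.1 this).symm
  have hmap0 : rem.map O₀.subtype = 0 :=
    eq_zero_of_natDegree_lt_card_of_eval_eq_zero _ hinj hroot
      (lt_of_le_of_lt natDegree_map_le hdeg)
  exact (Polynomial.map_eq_zero_iff O₀.subtype_injective).1 hmap0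

/-- If `O = O₀[π]`, every `β` in an `O₀`-algebra `S` with `f(β) ∈ I` defines an `O₀`-algebra hom
`O → S ⧸ I`, `π ↦ β`. -/
theorem exists_algHom_quotient (hfix : ∀ (g : G) (x : O), x ∈ O₀ → g • x = x)
    (π : O) (hfaith : ∀ σ : G, σ • π = π → σ = 1)
    (hgen : ∀ x : O, ∃ q : O₀[X], aeval π q = x)
    {S : Type w} [CommRing S] [Algebra O₀ S] (β : S) (I : Ideal S)
    (hI : aeval β (orbitPoly₀ O₀ hinv π) ∈ I) :
    ∃ η : O →ₐ[O₀] S ⧸ I, η π = Ideal.Quotient.mk I β := by
  set Φ : O₀[X] →ₐ[O₀] O := aeval π with hΦ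
  have hΦsurj : Function.Surjective Φ := hgen
  set Ψ : O₀[X] →ₐ[O₀] S ⧸ I := (Ideal.Quotient.mkₐ O₀ I).comp (aeval β) with hΨ
  have hker : ∀ q : O₀[X], q ∈ RingHom.ker (Φ : O₀[X] →+* O) → Ψ q = 0 := by
    intro q hq
    have hq0 : aeval π q = 0 := hq
    obtain ⟨s, rfl⟩ := orbitPoly₀_dvd_of_aeval_eq_zero O₀ hinv hfix π hfaith q hq0
    rw [hΨ, AlgHom.comp_apply, map_mul, map_mul]
    have : (Ideal.Quotient.mkₐ O₀ I) (aeval β (orbitPoly₀ O₀ hinv π)) = 0 :=
      Ideal.Quotient.eq_zero_iff_mem.2 hI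
    rw [this, zero_mul]
  let lift : (O₀[X] ⧸ RingHom.ker (Φ : O₀[X] →+* O)) →ₐ[O₀] S ⧸ I :=
    Ideal.Quotient.liftₐ _ Ψ hker
  let eqv : (O₀[X] ⧸ RingHom.ker (Φ : O₀[X] →+* O)) ≃ₐ[O₀] O :=
    Ideal.quotientKerAlgEquivOfSurjective hΦsurj
  refine ⟨lift.comp eqv.symm.toAlgHom, ?_⟩
  have hX : eqv (Ideal.Quotient.mk _ X) = π := by
    show Φ X = π
    rw [hΦ, aeval_X]
  rw [AlgHom.comp_apply, ← hX]
  show lift (eqv.symm (eqv (Ideal.Quotient.mk _ X))) = _
  rw [AlgEquiv.symm_apply_apply]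
  show Ψ X = _
  rw [hΨ, AlgHom.comp_apply, aeval_X]
  rfl

/-- The perturbed polynomial `g = f - C c * X ^ r`. -/
noncomputable def pertPoly (π : O) (c : O₀) (r : ℕ) : O₀[X] :=
  orbitPoly₀ O₀ hinv π - C c * X ^ r

theorem aeval_pertPoly (π x : O) (c : O₀) (r : ℕ) :
    aeval x (pertPoly O₀ hinv π c r) = ∏ σ : G, (x - σ • π) - (c : O) * x ^ r := by
  unfold pertPoly
  rw [map_sub, aeval_orbitPoly₀, map_mul, aeval_C, map_pow, aeval_X]
  rfl

theorem degree_C_mul_X_pow_lt (π : O) (c : O₀) {r : ℕ} (hr : r < Fintype.card G) :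
    (C c * X ^ r : O₀[X]).degree < (orbitPoly₀ O₀ hinv π).degree := by
  have h1 : (C c * X ^ r : O₀[X]).degree ≤ r := degree_C_mul_X_pow_le r c
  have h2 : (orbitPoly₀ O₀ hinv π).degree = Fintype.card G := by
    rw [degree_eq_natDegree (orbitPoly₀_monic O₀ hinv π).ne_zero, orbitPoly₀_natDegree]
  rw [h2]
  exact lt_of_le_of_lt h1 (by exact_mod_cast hr)

theorem pertPoly_monic (π : O) (c : O₀) {r : ℕ} (hr : r < Fintype.card G) :
    (pertPoly O₀ hinv π c r).Monic :=
  (orbitPoly₀_monic O₀ hinv π).sub_of_left (degree_C_mul_X_pow_lt O₀ hinv π c hr)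

theorem pertPoly_natDegree (π : O) (c : O₀) {r : ℕ} (hr : r < Fintype.card G) :
    (pertPoly O₀ hinv π c r).natDegree = Fintype.card G := by
  have h := degree_sub_eq_left_of_degree_lt (degree_C_mul_X_pow_lt O₀ hinv π c hr)
  have h2 : (orbitPoly₀ O₀ hinv π).degree = Fintype.card G := by
    rw [degree_eq_natDegree (orbitPoly₀_monic O₀ hinv π).ne_zero, orbitPoly₀_natDegree]
  unfold pertPoly
  exact natDegree_eq_of_degree_eq_some (h.trans h2)

/-- A root `β` of the perturbation `g = f - c X^r` in any `O₀`-algebra `S` gives an `O₀`-algebra hom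
`O → S ⧸ (c β^r)`, `π ↦ β`. -/
theorem exists_algHom_of_root (hfix : ∀ (g : G) (x : O), x ∈ O₀ → g • x = x)
    (π : O) (hfaith : ∀ σ : G, σ • π = π → σ = 1)
    (hgen : ∀ x : O, ∃ q : O₀[X], aeval π q = x) (c : O₀) (r : ℕ)
    {S : Type w} [CommRing S] [Algebra O₀ S] (β : S)
    (hβ : aeval β (pertPoly O₀ hinv π c r) = 0) :
    ∃ η : O →ₐ[O₀] S ⧸ Ideal.span {algebraMap O₀ S c * β ^ r},
      η π = Ideal.Quotient.mk _ β := by
  refine exists_algHom_quotient O₀ hinv hfix π hfaith hgen β _ ?_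
  have h : aeval β (orbitPoly₀ O₀ hinv π) = algebraMap O₀ S c * β ^ r := by
    unfold pertPoly at hβ
    rw [map_sub, sub_eq_zero] at hβ
    rw [hβ, map_mul, aeval_C, map_pow, aeval_X]
  rw [h]
  exact Ideal.subset_span rfl

end Orbit

section Eisenstein

open IsLocalRing

variable {O : Type*} [CommRing O] [IsDomain O] [IsLocalRing O]
variable {G : Type*} [Group G] [Fintype G] [MulSemiringAction G O]

theorem smul_mem_maximalIdeal' (σ : G) {x : O} (hx : x ∈ maximalIdeal O) :
    σ • x ∈ maximalIdeal O := by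
  rw [mem_maximalIdeal, mem_nonunits_iff] at hx ⊢
  intro h
  apply hx
  have := h.map (MulSemiringAction.toRingEquiv G O σ⁻¹)
  simpa using this

/-- Eisenstein shape: the lower coefficients of `f = ∏ (X - σ π)` lie in the maximal ideal. -/
theorem coeff_orbitPolyO_mem_maximalIdeal {π : O} (hπ : π ∈ maximalIdeal O) {i : ℕ}
    (hi : i < Fintype.card G) : (orbitPolyO G π).coeff i ∈ maximalIdeal O := by
  have hmap : (orbitPolyO G π).map (residue O) = X ^ Fintype.card G := by
    unfold orbitPolyO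
    rw [Polynomial.map_prod]
    have h1 : ∀ σ : G, (X - C (σ • π)).map (residue O) = X := fun σ => by
      rw [Polynomial.map_sub, map_X, map_C,
        (residue_eq_zero_iff _).2 (smul_mem_maximalIdeal' σ hπ), C_0, sub_zero]
    simp_rw [h1]
    rw [Finset.prod_const, Finset.card_univ]
  have := congrArg (fun p => p.coeff i) hmap
  simp only [coeff_map, coeff_X_pow] at this
  rw [if_neg (by omega)] at this
  exact (residue_eq_zero_iff _).1 this

theorem coeff_zero_orbitPolyO (π : O) :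
    (orbitPolyO G π).coeff 0 = ∏ σ : G, (- (σ • π)) := by
  rw [coeff_zero_eq_eval_zero, orbitPolyO_eval]
  simp

end Eisenstein

section Package

open IsLocalRing

variable {O : Type*} [CommRing O] [IsDomain O] [IsDiscreteValuationRing O]
variable {G : Type*} [Group G] [Fintype G] [MulSemiringAction G O]

/-- **Packaging of the converse lemma.**  There is a unit `u ∈ O₀` and exponents `n, r` with
`n e + r = A + D` such that the (Eisenstein) perturbation `g = f - u ϖ₀^n X^r` of the minimal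
polynomial `f` of `π` over `O₀` has no root in `O`. -/
theorem exists_eisenstein_perturbation [Finite (ResidueField O)] [DecidableEq G]
    (O₀ : Subring O) (hinv : ∀ x : O, (∀ g : G, g • x = x) → x ∈ O₀)
    (hfix : ∀ (g : G) (x : O), x ∈ O₀ → g • x = x)
    (hres : ∀ x : O, ∃ y ∈ O₀, x - y ∈ maximalIdeal O)
    (π : O) (hπ : Irreducible π) (ϖ₀ : O₀) (ε₀ : Oˣ)
    (hϖ₀e : (ϖ₀ : O) = ε₀ * π ^ Fintype.card G)
    (a : G → ℕ) (t : G → Oˣ) (ha : ∀ σ : G, σ ≠ 1 → σ • π - π = t σ * π ^ a σ)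
    (A : ℕ) (hA2 : 2 ≤ A) (hAle : ∀ σ : G, σ ≠ 1 → a σ ≤ A)
    (hAex : ∃ σ : G, σ ≠ 1 ∧ a σ = A) :
    ∃ (u : O₀) (n r : ℕ), IsUnit (u : O) ∧
      n * Fintype.card G + r = A + ∑ σ ∈ Finset.univ.erase (1 : G), a σ ∧
      r < Fintype.card G ∧ 1 ≤ n ∧ (r = 0 → 2 ≤ n) ∧
      ∀ x : O, aeval x (pertPoly O₀ hinv π (u * ϖ₀ ^ n) r) ≠ 0 := by
  obtain ⟨u, n, r, hu₀, hunit, hnr, hre, hn1, hr0, hno⟩ :=
    Converse.exists_perturbation_no_root O₀ hfix hres π hπ (ϖ₀ : O) ϖ₀.2 ε₀ hϖ₀e a t ha A hA2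
      hAle hAex
  refine ⟨⟨u, hu₀⟩, n, r, hunit, hnr, hre, hn1, hr0, fun x hx => hno x ?_⟩
  rw [aeval_pertPoly, sub_eq_zero] at hx
  rw [hx]
  push_cast
  rfl

end Package

end Fermat.Agent.GP.Flat.PmBound
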