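/-
[P-FLAT](iv) of the S56 long shot, consumer side, part 2 (helper5): the ramification bound in
HYPOTHESES FORM, independent of the local-field framework.

`hroot` is the only thing Fontaine's property `(P_m)` is used for: *every Eisenstein perturbation
`g = f - c X^r` of the minimal polynomial `f` of `π` over `O₀`, of precision `v(c π^r) > m e`
(`m = p/(p-1)`, `e = |G| = v(p)`), has a root in `O`.*  [In a framework: `E = L₀(β)`, `g(β) = 0`,
`η : O_L → O_E ⧸ (c β^r)` from `PmBound.exists_algHom_of_root`; `(P_m)` gives `L ↪ E`, an isomorphism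
by degrees, and a conjugate of `β` is a root of `g` in `O_L`.]

Conclusion: `(A + D) (p - 1) ≤ p e`, i.e. `(A + D)/e ≤ p/(p-1)`; with `KummerDepth.card_add_mul_le`
this is the Kummer-depth bound `t (p-1) ≤ e(K/K₀)`.
-/
import Mathlib
import Fermat.Agent.GP.Flat.PmBound

set_option autoImplicit false

namespace Fermat.Agent.GP.Flat.PmBound

open Polynomial IsLocalRing

variable {O : Type*} [CommRing O] [IsDomain O] [IsDiscreteValuationRing O]
variable {G : Type*} [Group G] [Fintype G] [MulSemiringAction G O]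

/-- **Ramification bound from the root property.** -/
theorem ad_mul_le_of_roots [Finite (ResidueField O)] [DecidableEq G]
    (O₀ : Subring O) (hinv : ∀ x : O, (∀ g : G, g • x = x) → x ∈ O₀)
    (hfix : ∀ (g : G) (x : O), x ∈ O₀ → g • x = x)
    (hres : ∀ x : O, ∃ y ∈ O₀, x - y ∈ maximalIdeal O)
    (π : O) (hπ : Irreducible π) (ϖ₀ : O₀) (ε₀ : Oˣ)
    (hϖ₀e : (ϖ₀ : O) = ε₀ * π ^ Fintype.card G)
    (a : G → ℕ) (t : G → Oˣ) (ha : ∀ σ : G, σ ≠ 1 → σ • π - π = t σ * π ^ a σ)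
    (A : ℕ) (hA2 : 2 ≤ A) (hAle : ∀ σ : G, σ ≠ 1 → a σ ≤ A)
    (hAex : ∃ σ : G, σ ≠ 1 ∧ a σ = A)
    (p : ℕ)
    (hroot : ∀ (u : O₀) (n r : ℕ), IsUnit (u : O) → r < Fintype.card G → 1 ≤ n →
      (r = 0 → 2 ≤ n) → p * Fintype.card G < (p - 1) * (n * Fintype.card G + r) →
      ∃ x : O, aeval x (pertPoly O₀ hinv π (u * ϖ₀ ^ n) r) = 0) :
    (p - 1) * (A + ∑ σ ∈ Finset.univ.erase (1 : G), a σ) ≤ p * Fintype.card G := by
  by_contra hlt
  rw [not_le] at hlt
  obtain ⟨u, n, r, hu, hnr, hre, hn1, hr0, hno⟩ :=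
    exists_eisenstein_perturbation O₀ hinv hfix hres π hπ ϖ₀ ε₀ hϖ₀e a t ha A hA2 hAle hAex
  obtain ⟨x, hx⟩ := hroot u n r hu hre hn1 hr0 (by rw [hnr]; exact hlt)
  exact hno x hx

end Fermat.Agent.GP.Flat.PmBound
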