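/-
[P-FLAT](iv) of the S56 long shot, consumer side, part 3 (helper5): the abstract glue between
Fontaine's property `(P_m)` in MONOGENIC form (helper15, board 4059) and the ramification bound
`PmBound.ad_mul_le_of_roots`.

Setting of `Converse` / `PmBound`: `O` a DVR, `G` a finite group acting on `O`, `O₀ ≤ O` the
invariants, `π` a uniformiser, `f = orbitPoly₀` its minimal polynomial over `O₀`,
`g = pertPoly … (u ϖ₀ ^ n) r = f - u ϖ₀ ^ n X ^ r` an Eisenstein perturbation.  New data: a valued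
algebraically closed field `(M, v)` (think `M = ℚ̄`, `v = A.valuation`) and an injective ring map
`ι : O → M` with `v ∘ ι ≤ 1`, `v (ι π) < 1`, `v p = v (ι π) ^ |G|`.

* `le_stabilizer_of_natDegree_le_index` : ORBIT COUNT (Mathlib only).  A group `S` acting on a field,
  `g` an `S`-invariant polynomial, `β` a root, `T ≤ S` a subgroup of index `≥ deg g` containing the
  stabiliser of `β`: then `T` fixes `β`.  [This is the ROOT BRIDGE: `S` = automorphisms in the
  decomposition group fixing `O₀`, `T` = those fixing `L = Frac O`; `(P_m)` says `Stab β ≤ T`; the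
  conclusion puts `β` in the fixed field of `T`, which is `L` when `L` is henselian.]
* `val_root_eq` : a root `β ∈ M` of `∏_σ (X - ι (σ π)) = ι c X ^ r`, `v (ι c) = v (ι π) ^ (n e)`,
  `r < e`, `1 ≤ n`, (`r = 0 → 2 ≤ n`), has `v β = v (ι π)`.  No hypothesis on the value group.
* `exists_root_of_pm` : `hPmO` ⟹ the hypothesis `hroot` of `PmBound.ad_mul_le_of_roots`, where
  `hPmO` = "(P_m) + root bridge": every root `β ∈ M` of a monic `q ∈ O₀[X]` of degree `e = |G|`
  with `v β ^ e = v p` and `v (f (β)) ^ (p-1) < v p ^ p` lies in `ι O`.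
* `ad_mul_le_of_pm` : the bound `(p - 1) (A + D) ≤ p e` from `hPmO`.
-/
import Mathlib
import Fermat.Agent.GP.Flat.PmBound2

set_option autoImplicit false
set_option linter.unusedSectionVars false

namespace Fermat.Agent.GP.Flat.PmRoot

open Polynomial IsLocalRing
open Fermat.Agent.GP.Flat.PmBound

/-! ### Orbit count -/

section OrbitCount

variable {Sg M : Type*} [Group Sg] [Field M] [MulSemiringAction Sg M]

/-- The conjugates of a root of an invariant polynomial are roots. -/
theorem eval_smul_eq_zero (g : M[X]) (hgfix : ∀ σ : Sg, σ • g = g) {β : M} (hβ : g.eval β = 0)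
    (σ : Sg) : g.eval (σ • β) = 0 := by
  have h := Polynomial.smul_eval_smul M σ g β
  rw [hgfix σ, hβ, smul_zero] at h
  exact h

/-- **Orbit count.**  If the stabiliser of a root `β` of an `Sg`-invariant polynomial `g` is
contained in a subgroup `T` of index at least `deg g`, then `T` fixes `β`. -/
theorem le_stabilizer_of_natDegree_le_index (g : M[X]) (hg0 : g ≠ 0)
    (hgfix : ∀ σ : Sg, σ • g = g) {β : M} (hβ : g.eval β = 0) (T : Subgroup Sg)
    (hidx : g.natDegree ≤ T.index) (hstab : MulAction.stabilizer Sg β ≤ T) :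
    T ≤ MulAction.stabilizer Sg β := by
  classical
  have hsub : MulAction.orbit Sg β ⊆ (↑g.roots.toFinset : Set M) := by
    rintro x ⟨σ, rfl⟩
    rw [Finset.mem_coe, Multiset.mem_toFinset, mem_roots hg0]
    exact eval_smul_eq_zero g hgfix hβ σ
  have hfin : (MulAction.orbit Sg β).Finite := (Finset.finite_toSet _).subset hsub
  have hcard : (MulAction.orbit Sg β).ncard ≤ g.natDegree := by
    calc (MulAction.orbit Sg β).ncard ≤ (↑g.roots.toFinset : Set M).ncard :=
          Set.ncard_le_ncard hsub (Finset.finite_toSet _)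
      _ = g.roots.toFinset.card := Set.ncard_coe_finset _
      _ ≤ Multiset.card g.roots := Multiset.toFinset_card_le _
      _ ≤ g.natDegree := card_roots' g
  have hne : (MulAction.orbit Sg β).ncard ≠ 0 :=
    Set.ncard_ne_zero_of_mem (MulAction.mem_orbit_self β) hfin
  have hmul := Subgroup.relIndex_mul_index hstab
  rw [MulAction.index_stabilizer] at hmul
  have hT0 : T.index ≠ 0 := by
    intro h
    rw [h, mul_zero] at hmul
    exact hne hmul.symm
  have hrel0 : (MulAction.stabilizer Sg β).relIndex T ≠ 0 := by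
    intro h
    rw [h, zero_mul] at hmul
    exact hne hmul.symm
  have hrel1 : (MulAction.stabilizer Sg β).relIndex T ≤ 1 := by
    have h1 : (MulAction.stabilizer Sg β).relIndex T * T.index ≤ 1 * T.index := by
      rw [hmul, one_mul]
      exact hcard.trans hidx
    exact Nat.le_of_mul_le_mul_right h1 (Nat.pos_of_ne_zero hT0)
  have hrel : (MulAction.stabilizer Sg β).relIndex T = 1 := by omega
  exact Subgroup.relIndex_eq_one.mp hrel

end OrbitCount

/-! ### The valuation of a root of an Eisenstein perturbation -/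

section ValRoot

variable {M : Type*} [Field M] {Γ₀ : Type*} [LinearOrderedCommGroupWithZero Γ₀]
  (v : Valuation M Γ₀)

/-- `∏_{i} (β - a i) = c β ^ r` with `v (a i) = ϖ` for all `i` (`e` factors, `0 < ϖ < 1`),
`v c = ϖ ^ (n e)`, `r < e`, `1 ≤ n` and (`r = 0 → 2 ≤ n`) forces `v β = ϖ`. -/
theorem val_root_eq {ι' : Type*} [Fintype ι'] (a : ι' → M) {ϖ : Γ₀} (h0 : ϖ ≠ 0) (h1 : ϖ < 1)
    (ha : ∀ i, v (a i) = ϖ) {c β : M} {n r : ℕ} (hc : v c = ϖ ^ (n * Fintype.card ι'))
    (hr : r < Fintype.card ι') (hn : 1 ≤ n) (hr0 : r = 0 → 2 ≤ n)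
    (hroot : ∏ i, (β - a i) = c * β ^ r) : v β = ϖ := by
  classical
  set e := Fintype.card ι' with he
  have hpos : 0 < ϖ := zero_lt_iff.mpr h0
  have hval := congrArg v hroot
  rw [map_prod, map_mul, map_pow, hc] at hval
  have hene : e ≤ n * e := Nat.le_mul_of_pos_left e hn
  rcases lt_trichotomy (v β) ϖ with hlt | heq | hgt
  · exfalso
    have hfac : ∀ i, v (β - a i) = ϖ := fun i => by
      rw [Valuation.map_sub_eq_of_lt_right]
      · exact ha i
      · rw [ha]; exact hlt
    rw [Finset.prod_congr rfl (fun i _ => hfac i), Finset.prod_const, Finset.card_univ] at hval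
    rcases Nat.eq_zero_or_pos r with hr' | hr'
    · subst hr'
      rw [pow_zero, mul_one] at hval
      have h2 : e < n * e := by
        have := hr0 rfl
        nlinarith
      exact (pow_lt_pow_right_of_lt_one₀ hpos h1 h2).ne hval.symm
    · have h3 : v β ^ r < ϖ ^ r := pow_lt_pow_left₀ hlt zero_le hr'.ne'
      have h4 : ϖ ^ (n * e) * v β ^ r < ϖ ^ (n * e) * ϖ ^ r :=
        mul_lt_mul_of_pos_left h3 (pow_pos hpos _)
      have h5 : ϖ ^ (n * e) * ϖ ^ r ≤ ϖ ^ e := by
        rw [← pow_add]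
        exact (pow_le_pow_iff_right_of_lt_one₀ hpos h1).2 (by omega)
      rw [← hval] at h4
      exact absurd (h4.trans_le h5) (lt_irrefl _)
  · exact heq
  · exfalso
    have hvβ0 : v β ≠ 0 := fun h => by rw [h] at hgt; exact not_lt_zero hgt
    have hfac : ∀ i, v (β - a i) = v β := fun i => by
      rw [Valuation.map_sub_eq_of_lt_left]
      rw [ha]; exact hgt
    rw [Finset.prod_congr rfl (fun i _ => hfac i), Finset.prod_const, Finset.card_univ] at hval
    obtain ⟨d, hd⟩ : ∃ d, e = r + d := ⟨e - r, by omega⟩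
    have hd0 : 0 < d := by omega
    have hd' : v β ^ d = ϖ ^ (n * e) := by
      have h2 : v β ^ r * v β ^ d = v β ^ r * ϖ ^ (n * e) := by
        rw [← pow_add, ← hd, hval, mul_comm]
      exact mul_left_cancel₀ (pow_ne_zero _ hvβ0) h2
    have h6 : ϖ ^ (n * e) ≤ ϖ ^ d := (pow_le_pow_iff_right_of_lt_one₀ hpos h1).2 (by omega)
    have h7 : ϖ ^ d < v β ^ d := pow_lt_pow_left₀ hgt zero_le hd0.ne'
    rw [hd'] at h7
    exact absurd (h7.trans_le h6) (lt_irrefl _)

end ValRoot

/-! ### `(P_m)` gives roots of the Eisenstein perturbations -/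

section Glue

variable {O : Type*} [CommRing O] [IsDomain O] [IsDiscreteValuationRing O]
variable {G : Type*} [Group G] [Fintype G] [MulSemiringAction G O]
variable {M : Type*} [Field M] {Γ₀ : Type*} [LinearOrderedCommGroupWithZero Γ₀]
  (v : Valuation M Γ₀) (ι : O →+* M)

/-- Units of `O` have valuation one. -/
theorem val_unit (hvO : ∀ x : O, v (ι x) ≤ 1) {x : O} (hx : IsUnit x) : v (ι x) = 1 := by
  obtain ⟨y, hy⟩ := hx.exists_right_inv
  have h1 : v (ι x) * v (ι y) = 1 := by
    rw [← map_mul, ← map_mul, hy, map_one, map_one]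
  refine le_antisymm (hvO x) ?_
  calc (1 : Γ₀) = v (ι x) * v (ι y) := h1.symm
    _ ≤ v (ι x) * 1 := by gcongr; exact hvO y
    _ = v (ι x) := mul_one _

/-- Conjugate uniformisers have the same valuation. -/
theorem val_smul_irreducible (hvO : ∀ x : O, v (ι x) ≤ 1) {π : O} (hπ : Irreducible π) (σ : G) :
    v (ι (σ • π)) = v (ι π) := by
  have hσ : Irreducible (σ • π) :=
    (MulEquiv.irreducible_iff (MulSemiringAction.toRingEquiv G O σ)).2 hπ
  obtain ⟨w, hw⟩ := IsDiscreteValuationRing.associated_of_irreducible O hπ hσ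
  rw [← hw, map_mul, map_mul, val_unit v ι hvO w.isUnit, mul_one]

variable (O₀ : Subring O) (hinv : ∀ x : O, (∀ g : G, g • x = x) → x ∈ O₀)

/-- The image of the minimal polynomial of `π` in `M[X]` evaluates as a product. -/
theorem eval_map_orbitPoly₀ (π : O) (β : M) :
    ((orbitPoly₀ O₀ hinv π).map (ι.comp O₀.subtype)).eval β = ∏ σ : G, (β - ι (σ • π)) := by
  rw [← Polynomial.map_map, map_orbitPoly₀]
  unfold orbitPolyO
  rw [Polynomial.map_prod, eval_prod]
  refine Finset.prod_congr rfl fun σ _ => ?_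
  simp

/-- The image of a perturbation in `M[X]`. -/
theorem eval_map_pertPoly (π : O) (c : O₀) (r : ℕ) (β : M) :
    ((pertPoly O₀ hinv π c r).map (ι.comp O₀.subtype)).eval β
      = ∏ σ : G, (β - ι (σ • π)) - ι (c : O) * β ^ r := by
  unfold pertPoly
  rw [Polynomial.map_sub, eval_sub, eval_map_orbitPoly₀]
  simp

/-- **`(P_m)` + root bridge ⟹ the Eisenstein perturbations of precision `> m e` have a root in
`O`.**  This is the hypothesis `hroot` of `PmBound.ad_mul_le_of_roots`. -/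
theorem exists_root_of_pm [IsAlgClosed M] (hι : Function.Injective ι)
    (hvO : ∀ x : O, v (ι x) ≤ 1) (π : O) (hπ : Irreducible π) (hvπ : v (ι π) < 1)
    (p : ℕ) (hvp : v (p : M) = v (ι π) ^ Fintype.card G)
    (ϖ₀ : O₀) (ε₀ : Oˣ) (hϖ₀e : (ϖ₀ : O) = ε₀ * π ^ Fintype.card G)
    (hPmO : ∀ (q : O₀[X]) (β : M), q.Monic → q.natDegree = Fintype.card G →
      (q.map (ι.comp O₀.subtype)).eval β = 0 →
      v β ^ Fintype.card G = v (p : M) →
      v (((orbitPoly₀ O₀ hinv π).map (ι.comp O₀.subtype)).eval β) ^ (p - 1) < v (p : M) ^ p →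
      ∃ x : O, ι x = β)
    (u : O₀) (n r : ℕ) (hu : IsUnit (u : O)) (hr : r < Fintype.card G) (hn : 1 ≤ n)
    (hr0 : r = 0 → 2 ≤ n)
    (hprec : p * Fintype.card G < (p - 1) * (n * Fintype.card G + r)) :
    ∃ x : O, aeval x (pertPoly O₀ hinv π (u * ϖ₀ ^ n) r) = 0 := by
  classical
  set e := Fintype.card G with he
  set j : O₀ →+* M := ι.comp O₀.subtype with hj
  set g := pertPoly O₀ hinv π (u * ϖ₀ ^ n) r with hg
  have hgm : g.Monic := pertPoly_monic O₀ hinv π _ hr
  have hgd : g.natDegree = e := pertPoly_natDegree O₀ hinv π _ hr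
  have hepos : 0 < e := Fintype.card_pos
  have hπ0 : ι π ≠ 0 := fun h => hπ.ne_zero (hι (by rw [h, map_zero]))
  have hϖ0 : v (ι π) ≠ 0 := (v.ne_zero_iff).2 hπ0
  have hϖpos : 0 < v (ι π) := zero_lt_iff.mpr hϖ0
  -- a root in `M`
  have hdeg : (g.map j).degree ≠ 0 := by
    rw [hgm.degree_map, degree_eq_natDegree hgm.ne_zero, hgd]
    exact_mod_cast hepos.ne'
  obtain ⟨β, hβ⟩ := IsAlgClosed.exists_root (g.map j) hdeg
  have hβ' : (g.map j).eval β = 0 := hβ
  have hprod : ∏ σ : G, (β - ι (σ • π)) = ι ((u * ϖ₀ ^ n : O₀) : O) * β ^ r := by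
    have := hβ'
    rw [hg, hj, eval_map_pertPoly, sub_eq_zero] at this
    exact this
  -- valuations
  have hvc : v (ι ((u * ϖ₀ ^ n : O₀) : O)) = v (ι π) ^ (n * e) := by
    have h1 : ((u * ϖ₀ ^ n : O₀) : O) = (u : O) * (ϖ₀ : O) ^ n := by push_cast; rfl
    rw [h1, map_mul, map_mul, map_pow, map_pow, val_unit v ι hvO hu, one_mul, hϖ₀e, map_mul,
      map_mul, map_pow, map_pow, val_unit v ι hvO ε₀.isUnit, one_mul, ← pow_mul, mul_comm]
  have hvβ : v β = v (ι π) :=
    val_root_eq v (fun σ : G => ι (σ • π)) hϖ0 hvπ (fun σ => val_smul_irreducible v ι hvO hπ σ)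
      hvc hr hn hr0 hprod
  have h1 : v β ^ e = v (p : M) := by rw [hvβ, hvp]
  have h2 : v (((orbitPoly₀ O₀ hinv π).map j).eval β) ^ (p - 1) < v (p : M) ^ p := by
    rw [hj, eval_map_orbitPoly₀, hprod, map_mul, map_pow, hvc, hvβ, ← pow_add, ← pow_mul, hvp,
      ← pow_mul]
    apply pow_lt_pow_right_of_lt_one₀ hϖpos hvπ
    calc e * p = p * e := mul_comm _ _
      _ < (p - 1) * (n * e + r) := hprec
      _ = (n * e + r) * (p - 1) := mul_comm _ _
  obtain ⟨x, hx⟩ := hPmO g β hgm hgd hβ' h1 h2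
  refine ⟨x, hι ?_⟩
  rw [map_zero, aeval_eq_eval_map, ← Polynomial.eval_map_apply, Polynomial.map_map, hx]
  exact hβ'

/-- **The ramification bound from `(P_m)`.**  In the setting of `Converse` / `PmBound` with an
embedding `ι` of `O` into a valued algebraically closed field `(M, v)`:
`(P_m)` + root bridge (`hPmO`) ⟹ `(p - 1) (A + D) ≤ p e`. -/
theorem ad_mul_le_of_pm [IsAlgClosed M] [Finite (ResidueField O)] [DecidableEq G]
    (hfix : ∀ (g : G) (x : O), x ∈ O₀ → g • x = x)
    (hres : ∀ x : O, ∃ y ∈ O₀, x - y ∈ maximalIdeal O)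
    (hι : Function.Injective ι)
    (hvO : ∀ x : O, v (ι x) ≤ 1) (π : O) (hπ : Irreducible π) (hvπ : v (ι π) < 1)
    (p : ℕ) (hvp : v (p : M) = v (ι π) ^ Fintype.card G)
    (ϖ₀ : O₀) (ε₀ : Oˣ) (hϖ₀e : (ϖ₀ : O) = ε₀ * π ^ Fintype.card G)
    (a : G → ℕ) (t : G → Oˣ) (ha : ∀ σ : G, σ ≠ 1 → σ • π - π = t σ * π ^ a σ)
    (A : ℕ) (hA2 : 2 ≤ A) (hAle : ∀ σ : G, σ ≠ 1 → a σ ≤ A)
    (hAex : ∃ σ : G, σ ≠ 1 ∧ a σ = A)
    (hPmO : ∀ (q : O₀[X]) (β : M), q.Monic → q.natDegree = Fintype.card G →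
      (q.map (ι.comp O₀.subtype)).eval β = 0 →
      v β ^ Fintype.card G = v (p : M) →
      v (((orbitPoly₀ O₀ hinv π).map (ι.comp O₀.subtype)).eval β) ^ (p - 1) < v (p : M) ^ p →
      ∃ x : O, ι x = β) :
    (p - 1) * (A + ∑ σ ∈ Finset.univ.erase (1 : G), a σ) ≤ p * Fintype.card G :=
  ad_mul_le_of_roots O₀ hinv hfix hres π hπ ϖ₀ ε₀ hϖ₀e a t ha A hA2 hAle hAex p
    fun u n r hu hr hn hr0 hprec =>
      exists_root_of_pm v ι O₀ hinv hι hvO π hπ hvπ p hvp ϖ₀ ε₀ hϖ₀e hPmO u n r hu hr hn hr0 hprec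

end Glue

end Fermat.Agent.GP.Flat.PmRoot
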