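/-
GATE-P / S56 [P-FLAT] node S56-FLAT-LOCALCOND (helper90): the flat TOP glue.

`LocalCond` (helper35, `GP/Core/LocalCond`) at `q = p` for the flat condition, by cases on the
shape of `ρbar|D_P` at the ONE place `P := padicPlace p` of the pinned local model:

* `OrdShape ρbar A`, `SSShape ρbar p A` : the two alternatives of `TameWeight.Plug.cases_flat`
  (= `CasesFrozen.cases_frozen` = `CasesFlat.cases_of_isFlatAt`) as named predicates;
* `ordShape_or_ssShape` : a flat `ρbar` with cyclotomic determinant, `p` odd, has one of them;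
* `not_ordShape_and_ssShape` : they exclude each other;
* `localCond_flat_of_branches` : `LocalCond ρbar b p N emb p (DetIsCyclotomic ∧ IsFlatAt) e` from the
  two branch adapters (ORDCOUNT in the ordinary shape, SSASM in the level-two shape).
-/
import Mathlib
import Fermat.Agent.GP.Core.LocalCond
import Fermat.Agent.GP.Flat.TameWeight.Plug
import Fermat.Agent.GP.Loc.PadicPlace

set_option autoImplicit false

open Fermat.Agent.Common_helper32 Module Polynomial

namespace Fermat.Agent.GP.Flat.FlatLocalCond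

open Fermat.Agent.GP.Flat.Cases Fermat.Agent.GP.Core Fermat.Agent.GC.Prof
  Fermat.Agent.GC.Places Fermat.Agent.GC.Local.KR

section Shapes

variable {k : Type} [Field k] (ρbar : ResidualGaloisRep k)

/-- **ordinary shape at `A`**: `(I_A - 1)V` is a `D_A`-stable line, inertia acts trivially on the
quotient and through the determinant on the line. -/
def OrdShape (A : ValuationSubring Qb) : Prop :=
  finrank k (aug ρbar.ρ A) = 1 ∧
    (∀ g ∈ A.decompositionSubgroup ℚ, ∀ v ∈ aug ρbar.ρ A, ρbar.ρ g v ∈ aug ρbar.ρ A) ∧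
    (∀ s ∈ A.inertiaSubgroupIn ℚ, ∀ v : ρbar.V, ρbar.ρ s v - v ∈ aug ρbar.ρ A) ∧
    (∀ s ∈ A.inertiaSubgroupIn ℚ, ∀ v ∈ aug ρbar.ρ A,
      ρbar.ρ s v = LinearMap.det (ρbar.ρ s) • v)

/-- **level-two shape at `A`**: `(I_A - 1)V = V`, `V` is `D_A`-irreducible, inertia acts through a
character of level two and its `p`-th power, a Frobenius swaps the two eigenlines. -/
def SSShape (p : ℕ) (A : ValuationSubring Qb) : Prop :=
  aug ρbar.ρ A = ⊤ ∧
    (∀ L : Submodule k ρbar.V,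
      (∀ g ∈ A.decompositionSubgroup ℚ, ∀ v ∈ L, ρbar.ρ g v ∈ L) → L = ⊥ ∨ L = ⊤) ∧
    (∀ s ∈ A.inertiaSubgroupIn ℚ, ρbar.ρ s ^ (p ^ 2 - 1) = 1) ∧
    ∃ φ : GQ, A.IsFrobeniusAt φ p ∧ ∃ e₀ e₁ : ρbar.V, LinearIndependent k ![e₀, e₁] ∧
      (∀ s ∈ A.inertiaSubgroupIn ℚ, ∃ c : k,
        ρbar.ρ s e₀ = c • e₀ ∧ ρbar.ρ s e₁ = c ^ p • e₁ ∧ c ^ p ^ 2 = c) ∧
      (∃ s ∈ A.inertiaSubgroupIn ℚ, ∃ c : k, ρbar.ρ s e₀ = c • e₀ ∧ c ^ p ≠ c) ∧
      ρbar.ρ φ e₁ = e₀ ∧ ∃ x : k, x ≠ 0 ∧ ρbar.ρ φ e₀ = x • e₁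

/-- **the case split** for a flat `ρbar` with cyclotomic determinant, `p` odd. -/
theorem ordShape_or_ssShape (p : ℕ) [Fact p.Prime] (hp2 : p ≠ 2)
    (hdet : (GaloisRepAdic.ofResidualGaloisRep ρbar).DetIsCyclotomic p)
    (hflat : (GaloisRepAdic.ofResidualGaloisRep ρbar).IsFlatAt p)
    (hsplit : ∀ σ : GQ, ∃ α β : k, LinearMap.charpoly (ρbar.ρ σ) = (X - C α) * (X - C β))
    (A : ValuationSubring Qb) (hA : A.LiesOverPrime p) :
    OrdShape ρbar A ∨ SSShape ρbar p A :=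
  Fermat.Agent.GP.Flat.TameWeight.Plug.cases_flat ρbar p hp2 hdet hflat hsplit A hA

/-- the two shapes exclude each other. -/
theorem not_ordShape_and_ssShape (p : ℕ) (A : ValuationSubring Qb) :
    ¬ (OrdShape ρbar A ∧ SSShape ρbar p A) := by
  rintro ⟨h1, h2⟩
  have h3 := h1.1
  rw [h2.1, finrank_top, ρbar.finrank_eq] at h3
  omega

end Shapes

section Top

variable {𝒪 : Type} [CommRing 𝒪] [IsLocalRing 𝒪]
  (ρbar : ResidualGaloisRep (IsLocalRing.ResidueField 𝒪))
  (b : Module.Basis (Fin 2) (IsLocalRing.ResidueField 𝒪) ρbar.V)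
  (p : ℕ) [Fact p.Prime]
  (N : Rep (ZMod p) Fermat.Agent.S53_helper35.GQ)
  (emb : N →+ Matrix (Fin 2) (Fin 2) (IsLocalRing.ResidueField 𝒪))

/-- **S56-FLAT-LOCALCOND.**  The flat local condition at `p` in helper35's `LocalCond` contract, by
cases on the shape of `ρbar` at `padicPlace p`: the ordinary branch (ORDCOUNT) and the level-two
branch (SSASM) are the two binders; each may use its shape. -/
theorem localCond_flat_of_branches
    [IsDiscrete (levelQ p) (Rep.res (localGaloisToGlobal p) N)] (hp2 : p ≠ 2)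
    (hdet : (GaloisRepAdic.ofResidualGaloisRep ρbar).DetIsCyclotomic p)
    (hflat : (GaloisRepAdic.ofResidualGaloisRep ρbar).IsFlatAt p)
    (hsplit : ∀ σ : GQ, ∃ α β : IsLocalRing.ResidueField 𝒪,
      LinearMap.charpoly (ρbar.ρ σ) = (X - C α) * (X - C β))
    (e : ℕ)
    (hord : OrdShape ρbar (padicPlace p) →
      LocalCond ρbar b p N emb p (fun ρ => ρ.DetIsCyclotomic p ∧ ρ.IsFlatAt p) e)
    (hss : SSShape ρbar p (padicPlace p) →
      LocalCond ρbar b p N emb p (fun ρ => ρ.DetIsCyclotomic p ∧ ρ.IsFlatAt p) e) :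
    LocalCond ρbar b p N emb p (fun ρ => ρ.DetIsCyclotomic p ∧ ρ.IsFlatAt p) e := by
  rcases ordShape_or_ssShape ρbar p hp2 hdet hflat hsplit (padicPlace p)
    (Fermat.Agent.GP.Loc.PadicPlace.padicPlace_liesOverPrime p) with h | h
  · exact hord h
  · exact hss h

end Top

end Fermat.Agent.GP.Flat.FlatLocalCond
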