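/-
GATE-P (S56, zero-regret) / [P-FLAT]→[CORE] plug, leaf S56-FLAT-HLOCP (helper44).

**(R3-FL) in the EXACT shape of the binder `hlocp` of helper35's
`CoreAsm.selmerBounds_base_of_nodes`** for `Pp := fun ρ => ρ.DetIsCyclotomic p ∧ ρ.IsFlatAt p`
(twin of helper79's `StrictOrdLocalCond.hlocp_strict`), in hypothesis form in the two branch data:

* `hSS  : SSShape ρbar p (padicPlace p) → ∃ GK H, hidx ∧ Finite H ∧ #H ≤ p ^ d ∧ membership`
  (the binders of `FlatBranchEnds.localCond_flat_of_H`);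
* `hORD : OrdShape ρbar (padicPlace p) → ∃ g ZB', finiteness ∧ count ∧ membership`
  (the binders of `FlatBranchEnds.localCond_flat_of_ZB`).

Proof = helper90 `FlatLocalCond.localCond_flat_of_branches` + `FlatBranchEnds` + transport along
`(q : ℕ) = p`.  NEW file; imports only.
-/
import Fermat.Agent.GP.Flat.FlatBranchEnds
import Fermat.Agent.GP.Flat.FlatLocalCond

set_option autoImplicit false

namespace Fermat.Agent.GP.Flat.FlatHlocp

open IsLocalRing Fermat.Agent.S53_helper35 Matrix Fermat.Agent.GP.Tan.Cocycle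
  Fermat.Agent.GC.Prof Fermat.Agent.GC.Places Fermat.Agent.GC.Local.KR
  Fermat.Agent.GP.Core Fermat.Agent.GP.Flat.SSHlcPinned
  Fermat.Agent.GP.Loc.StrictOrdDim Fermat.Agent.GP.Flat.OrdCount Fermat.Agent.GP.Flat.OrdHlcCond
  Fermat.Agent.GP.Flat.FlatBranchEnds Fermat.Agent.GP.Flat.FlatLocalCond

local instance factPrimeFlatHlocp (q : Nat.Primes) : Fact ((q : ℕ).Prime) := ⟨q.2⟩

/-- **(R3-FL)**: the binder `hlocp` of `CoreAsm.selmerBounds_base_of_nodes` for the flat
condition at `p`, from the two branch data (count + membership) in the shape of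
`FlatBranchEnds`. -/
theorem hlocp_flat_of_ends {𝒪 : Type} [CommRing 𝒪] [IsLocalRing 𝒪]
    (ρbar : ResidualGaloisRep (ResidueField 𝒪))
    (b : Module.Basis (Fin 2) (ResidueField 𝒪) ρbar.V)
    (p : ℕ) [Fact p.Prime]
    (N : Rep (ZMod p) S53_helper35.GQ)
    (emb : N →+ Matrix (Fin 2) (Fin 2) (ResidueField 𝒪))
    [Finite (ResidueField 𝒪)]
    (hp2 : p ≠ 2)
    (hdet : (GaloisRepAdic.ofResidualGaloisRep ρbar).DetIsCyclotomic p)
    (hflat : (GaloisRepAdic.ofResidualGaloisRep ρbar).IsFlatAt p)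
    (hsplit : ∀ σ : Fermat.Agent.Common_helper32.GQ, ∃ α β : ResidueField 𝒪,
      LinearMap.charpoly (ρbar.ρ σ) = (Polynomial.X - Polynomial.C α) * (Polynomial.X - Polynomial.C β))
    (hinj : Function.Injective emb)
    (hsurj : ∀ X : Matrix (Fin 2) (Fin 2) (ResidueField 𝒪), Matrix.trace X = 0 →
      ∃ x : N, emb x = X)
    (hact : ∀ (σ : S53_helper35.GQ) (x : N),
      emb (N.ρ σ x) = toMatRes ρbar b σ * emb x * toMatRes ρbar b σ⁻¹)
    (hdloc : ∀ q : Nat.Primes,
      IsDiscrete (levelQ (q : ℕ)) (Rep.res (localGaloisToGlobal (q : ℕ)) N))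
    (d : ℕ) (hk : Nat.card (ResidueField 𝒪) = p ^ d)
    (hSS : SSShape ρbar p (padicPlace p) →
      ∃ (GK : Subgroup S53_helper35.GQ)
        (H : AddSubgroup (S53_helper35.GQ → Matrix (Fin 2) (Fin 2) (ResidueField 𝒪))),
        ((GK.relIndex ((padicPlace p).decompositionSubgroup ℚ) : ℕ) : ResidueField 𝒪) ≠ 0 ∧
        Finite H ∧ Nat.card H ≤ p ^ d ∧
        ∀ (t : S53_helper35.GQ →* Matrix (Fin 2) (Fin 2) (DualNumber (ResidueField 𝒪)))
          (ht : MatCont t), rfst t = toMatRes ρbar b →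
          (ofMat t ht).DetIsCyclotomic p → (ofMat t ht).IsFlatAt p →
          suppOn GK (tanCocycle t) ∈ H)
    (hORD : OrdShape ρbar (padicPlace p) →
      ∃ (g : GL (Fin 2) (ResidueField 𝒪))
        (ZB' : Submodule (ResidueField 𝒪)
          ((DPq p → ResidueField 𝒪) × (DPq p → ResidueField 𝒪))),
        Finite ↥((ZB'.map (bval g)).map (quoMap (rDq p (toMatRes ρbar b)))) ∧
        Nat.card ↥((ZB'.map (bval g)).map (quoMap (rDq p (toMatRes ρbar b)))) ≤
          Nat.card (inv0 (rDq p (toMatRes ρbar b))) * Nat.card (ResidueField 𝒪) ∧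
        ∀ (t : S53_helper35.GQ →* Matrix (Fin 2) (Fin 2) (DualNumber (ResidueField 𝒪)))
          (ht : MatCont t), rfst t = toMatRes ρbar b →
          (ofMat t ht).DetIsCyclotomic p → (ofMat t ht).IsFlatAt p →
          (∀ σ, Matrix.trace (tanCocycle t σ) = 0) →
          ∃ (X : Matrix (Fin 2) (Fin 2) (ResidueField 𝒪))
            (x : (DPq p → ResidueField 𝒪) × (DPq p → ResidueField 𝒪)), X.trace = 0 ∧ x ∈ ZB' ∧
            ∀ σ : DPq p, tanCocycle t (σ : S53_helper35.GQ) =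
              bval g x σ + cob (rDq p (toMatRes ρbar b)) X σ) :
    ∀ q : Nat.Primes, (q : ℕ) = p →
      @LocalCond 𝒪 _ _ ρbar b p _ N emb (q : ℕ) _ (hdloc q)
        (fun ρ => ρ.DetIsCyclotomic p ∧ ρ.IsFlatAt p) d := by
  intro q hq
  subst hq
  have := hdloc q
  have h : GlobModel N (toMatRes ρbar b) emb := ⟨hinj, hsurj, hact⟩
  refine localCond_flat_of_branches ρbar b (q : ℕ) N emb hp2 hdet hflat hsplit d ?_ ?_
  · intro hO
    obtain ⟨g, ZB', hfin, hcount, hmem⟩ := hORD hO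
    exact localCond_flat_of_ZB ρbar b (q : ℕ) h g ZB' hfin hcount d hk hmem
  · intro hS
    obtain ⟨GK, H, hidx, hfin, hH, hmem⟩ := hSS hS
    exact localCond_flat_of_H ρbar b (q : ℕ) h GK hidx H d hH hmem

end Fermat.Agent.GP.Flat.FlatHlocp
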