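/-
Helper (orphan, Mathlib-only) for the S56 long shot, node [P-FLAT]: **Fontaine's lifting lemma** in
the function model, i.e. the step "a point of `G(O_E / p ϖ)` lifts, modulo `ϖ`, to a point of
`G(O_E)`" in the proof of property `(P_m)` for a finite flat group scheme killed by `p`.

Contents:
* `cumul`, `four`, `pow_mul_cumul`, `pow_eq_coboundary`, `corrected_mul`, `cocycle_of_root`:
  pure algebra of symmetric normalised `2`-cocycles `c : D → D → M` (`D` additive commutative monoid,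
  `M` commutative monoid): `c(x,y)^n · A_n(x+y) = A_n(x) · A_n(y) · c(nx,ny)` with
  `A_n(x) = ∏_{j<n} c(x, jx)`.
* `exists_character_lift` (subalgebra form) and `exists_character_lift_ev` (evaluation form): the
  lifting lemma, with "existence of `p`-th roots in `1 + ϖ Λ₂`" and "uniqueness of `p`-th roots in
  `1 + ϖ O'`" as hypotheses.
* `exists_poly`, `one_add_pow_prime`, `exists_fixed_point`, `exists_root`, `hroot_of_complete`,
  `hroot_of_complete_subalgebra`: existence of `p`-th roots in an adically complete ring.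
* `eq_one_of_pow_eq_one`, `eq_of_pow_eq_pow`, `huniq_of_valuation`: uniqueness of `p`-th roots
  near `1` in a valued field (Lemma F for `μ_p`).
-/
import Mathlib

namespace Fermat.Agent.GP.Flat.Lift

open Finset Polynomial

section Cocycle

variable {D : Type*} [AddCommMonoid D] {M : Type*} [CommMonoid M]

/-- `A c n x = ∏_{j < n} c(x, j x)`: the defect of the `n`-th power of the section. -/
def cumul (c : D → D → M) (n : ℕ) (x : D) : M := ∏ j ∈ range n, c x (j • x)

theorem cumul_zero (c : D → D → M) (x : D) : cumul c 0 x = 1 := by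
  simp [cumul]

theorem cumul_succ (c : D → D → M) (n : ℕ) (x : D) :
    cumul c (n + 1) x = cumul c n x * c x (n • x) := by
  simp [cumul, prod_range_succ]

theorem cumul_apply_zero {c : D → D → M} (h0 : c 0 0 = 1) (n : ℕ) : cumul c n 0 = 1 := by
  simp [cumul, h0]

variable {c : D → D → M}

/-- the "four-term" identity for a symmetric `2`-cocycle. -/
theorem four (hc : ∀ a b d, c a b * c (a + b) d = c b d * c a (b + d))
    (hs : ∀ a b, c a b = c b a) (x y x' y' : D) :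
    c x y * c x' y' * c (x + y) (x' + y') = c x x' * c y y' * c (x + x') (y + y') := by
  -- both sides equal the quadruple defect
  have T : ∀ a b d, c a b * c (a + b) d = c a d * c (a + d) b := by
    intro a b d
    rw [hc a b d, hc a d b, hs b d, add_comm b d]
  have h1 : c x' y' * c (x + y) (x' + y') = c (x + y) x' * c (x + y + x') y' := (hc (x + y) x' y').symm
  have h2 : c y y' * c (x + x') (y + y') = c (x + x') y * c (x + x' + y) y' := (hc (x + x') y y').symm
  calc c x y * c x' y' * c (x + y) (x' + y')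
      = c x y * (c x' y' * c (x + y) (x' + y')) := mul_assoc _ _ _
    _ = c x y * (c (x + y) x' * c (x + y + x') y') := by rw [h1]
    _ = (c x y * c (x + y) x') * c (x + y + x') y' := (mul_assoc _ _ _).symm
    _ = (c x x' * c (x + x') y) * c (x + x' + y) y' := by
        rw [T x y x', add_right_comm x y x']
    _ = c x x' * (c (x + x') y * c (x + x' + y) y') := mul_assoc _ _ _
    _ = c x x' * (c y y' * c (x + x') (y + y')) := by rw [h2]
    _ = c x x' * c y y' * c (x + x') (y + y') := (mul_assoc _ _ _).symm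

/-- `c(x,y)^n · A_n(x+y) = A_n(x) · A_n(y) · c(nx, ny)` for a symmetric normalised `2`-cocycle. -/
theorem pow_mul_cumul (hc : ∀ a b d, c a b * c (a + b) d = c b d * c a (b + d))
    (hs : ∀ a b, c a b = c b a) (h0 : c 0 0 = 1) (n : ℕ) (x y : D) :
    c x y ^ n * cumul c n (x + y) = cumul c n x * cumul c n y * c (n • x) (n • y) := by
  induction n with
  | zero => simp [cumul_zero, h0]
  | succ n ih =>
    have h4 := four hc hs x y (n • x) (n • y)
    rw [pow_succ, cumul_succ, cumul_succ, cumul_succ, smul_add, succ_nsmul, succ_nsmul,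
      add_comm (n • x) x, add_comm (n • y) y]
    calc c x y ^ n * c x y * (cumul c n (x + y) * c (x + y) (n • x + n • y))
        = (c x y ^ n * cumul c n (x + y)) * (c x y * c (x + y) (n • x + n • y)) := by
          simp only [mul_assoc, mul_left_comm]
      _ = (cumul c n x * cumul c n y) * (c x y * c (n • x) (n • y) * c (x + y) (n • x + n • y)) := by
          rw [ih]; simp only [mul_assoc, mul_left_comm, mul_comm]
      _ = (cumul c n x * cumul c n y) * (c x (n • x) * c y (n • y) * c (x + n • x) (y + n • y)) := by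
          rw [h4]
      _ = cumul c n x * c x (n • x) * (cumul c n y * c y (n • y)) * c (x + n • x) (y + n • y) := by
          simp only [mul_assoc, mul_left_comm, mul_comm]

/-- On a group killed by `p`, the `p`-th power of a symmetric normalised `2`-cocycle is the
coboundary of `A_p`. -/
theorem pow_eq_coboundary (hc : ∀ a b d, c a b * c (a + b) d = c b d * c a (b + d))
    (hs : ∀ a b, c a b = c b a) (h0 : c 0 0 = 1) {p : ℕ} (hD : ∀ x : D, p • x = 0) (x y : D) :
    c x y ^ p * cumul c p (x + y) = cumul c p x * cumul c p y := by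
  rw [pow_mul_cumul hc hs h0, hD, hD, h0, mul_one]

/-- **Correction of an approximate character.**  If `y₀(x+y) = y₀(x) y₀(y) c(x,y)^p` for a
symmetric normalised `2`-cocycle `c` on a group killed by `p`, then `y₀ · A_p` is a character. -/
theorem corrected_mul (hc : ∀ a b d, c a b * c (a + b) d = c b d * c a (b + d))
    (hs : ∀ a b, c a b = c b a) (h0 : c 0 0 = 1) {p : ℕ} (hD : ∀ x : D, p • x = 0)
    {y₀ : D → M} (hy : ∀ x y, y₀ (x + y) = y₀ x * y₀ y * c x y ^ p) (x y : D) :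
    y₀ (x + y) * cumul c p (x + y) = (y₀ x * cumul c p x) * (y₀ y * cumul c p y) := by
  rw [hy, mul_assoc, pow_eq_coboundary hc hs h0 hD]
  simp only [mul_assoc, mul_left_comm]

/-- **Descent of the cocycle conditions along `p`-th roots.**  If `y₀(x+y) = y₀(x) y₀(y) c(x,y)^p`
with all `y₀(x)` regular, `y₀ 0 = 1`, and `c` takes values in a submonoid `U` on which `u ↦ u^p` is
injective, then `c` is a symmetric normalised `2`-cocycle. -/
theorem cocycle_of_root {p : ℕ} {y₀ : D → M} (hreg : ∀ x, IsLeftRegular (y₀ x)) (hy0 : y₀ 0 = 1)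
    (hy : ∀ x y, y₀ (x + y) = y₀ x * y₀ y * c x y ^ p)
    (U : Submonoid M) (hU : ∀ u ∈ U, ∀ v ∈ U, u ^ p = v ^ p → u = v) (hcU : ∀ x y, c x y ∈ U) :
    (∀ a b d, c a b * c (a + b) d = c b d * c a (b + d)) ∧ (∀ a b, c a b = c b a) ∧ c 0 0 = 1 := by
  refine ⟨fun a b d => ?_, fun a b => ?_, ?_⟩
  · apply hU _ (U.mul_mem (hcU _ _) (hcU _ _)) _ (U.mul_mem (hcU _ _) (hcU _ _))
    have hY : IsLeftRegular (y₀ a * y₀ b * y₀ d) := ((hreg a).mul (hreg b)).mul (hreg d)
    apply hY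
    show y₀ a * y₀ b * y₀ d * (c a b * c (a + b) d) ^ p = y₀ a * y₀ b * y₀ d * (c b d * c a (b + d)) ^ p
    have e1 : y₀ (a + b + d) = y₀ a * y₀ b * y₀ d * (c a b * c (a + b) d) ^ p := by
      rw [hy (a + b) d, hy a b, mul_pow]
      simp only [mul_assoc, mul_left_comm, mul_comm]
    have e2 : y₀ (a + (b + d)) = y₀ a * y₀ b * y₀ d * (c b d * c a (b + d)) ^ p := by
      rw [hy a (b + d), hy b d, mul_pow]
      simp only [mul_assoc, mul_left_comm, mul_comm]
    rw [← e1, ← e2, add_assoc]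
  · apply hU _ (hcU _ _) _ (hcU _ _)
    have hY : IsLeftRegular (y₀ a * y₀ b) := (hreg a).mul (hreg b)
    apply hY
    show y₀ a * y₀ b * c a b ^ p = y₀ a * y₀ b * c b a ^ p
    rw [← hy a b, add_comm a b, hy b a, mul_comm (y₀ b)]
  · apply hU _ (hcU _ _) _ U.one_mem
    have := hy 0 0
    rw [add_zero, hy0, one_mul, one_mul] at this
    rw [one_pow, ← this]

end Cocycle


section Lift

variable {D : Type*} [AddCommGroup D]
variable {O O' : Type*} [CommRing O] [CommRing O'] [Algebra O O']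

/-- the `1`-units `1 + ϖ O'` form a submonoid. -/
def oneUnits (ϖ : O) : Submonoid O' where
  carrier := {u | ∃ s : O', u = 1 + ϖ • s}
  one_mem' := ⟨0, by simp⟩
  mul_mem' := by
    rintro _ _ ⟨s, rfl⟩ ⟨t, rfl⟩
    refine ⟨s + t + ϖ • (s * t), ?_⟩
    simp only [Algebra.smul_def]
    ring

theorem mem_oneUnits {ϖ : O} {u : O'} : u ∈ oneUnits (O' := O') ϖ ↔ ∃ s : O', u = 1 + ϖ • s :=
  Iff.rfl

/-- a finite product of elements of `1 + ϖ L` lies in `1 + ϖ L`. -/
theorem prod_one_add_smul_mem {B : Type*} [CommRing B] [Algebra O B] (L : Subalgebra O B) (ϖ : O)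
    {ι : Type*} (s : Finset ι) (a : ι → B) (ha : ∀ j ∈ s, a j ∈ L) :
    ∃ δ ∈ L, ∏ j ∈ s, (1 + ϖ • a j) = 1 + ϖ • δ := by
  refine Finset.prod_induction (fun j => 1 + ϖ • a j) (fun u => ∃ δ ∈ L, u = 1 + ϖ • δ) ?_ ?_ ?_
  · rintro _ _ ⟨δ, hδ, rfl⟩ ⟨ε, hε, rfl⟩
    refine ⟨δ + ε + ϖ • (δ * ε), L.add_mem (L.add_mem hδ hε) (L.smul_mem (L.mul_mem hδ hε) _), ?_⟩
    simp only [Algebra.smul_def]
    ring
  · exact ⟨0, L.zero_mem, by simp⟩
  · intro j hj
    exact ⟨a j, ha j hj, rfl⟩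

/-- **Fontaine's lifting lemma, function model.**  `D` an abelian group killed by the prime `p`,
`L₁ ⊂ Fun(D, O')` and `L₂ ⊂ Fun(D × D, O')` two `O`-subalgebras such that restriction to the graphs
`x ↦ (x, j x)` maps `L₂` to `L₁`.  Assume that `1 + p ϖ L₂ ⊂ (1 + ϖ L₂)^p` (existence of `p`-th
roots, a completeness statement) and that `u ↦ u ^ p` is injective on `1 + ϖ O'` (Lemma F for
`μ_p`).  Then every `y₀ ∈ L₁` which is a character modulo `p ϖ L₂`, in the multiplicative form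
`y₀(x + y) = y₀(x) y₀(y) (1 + p ϖ β(x, y))` with `β ∈ L₂`, is congruent modulo `ϖ L₁` to a genuine
character `χ ∈ L₁`; precisely `χ = y₀ (1 + ϖ δ)` with `δ ∈ L₁`. -/
theorem exists_character_lift {p : ℕ} (hD : ∀ x : D, p • x = 0) (ϖ : O)
    (L₁ : Subalgebra O (D → O')) (L₂ : Subalgebra O (D × D → O'))
    (hgraph : ∀ F ∈ L₂, ∀ j : ℕ, (fun x => F (x, j • x)) ∈ L₁)
    (hroot : ∀ β ∈ L₂, ∃ α ∈ L₂, (1 + ϖ • α) ^ p = 1 + ((p : O) * ϖ) • β)
    (huniq : ∀ u ∈ oneUnits (O' := O') ϖ, ∀ v ∈ oneUnits (O' := O') ϖ, u ^ p = v ^ p → u = v)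
    (y₀ : D → O') (hy₀ : y₀ ∈ L₁) (hreg : ∀ x, IsLeftRegular (y₀ x)) (hy0 : y₀ 0 = 1)
    (β : D × D → O') (hβ : β ∈ L₂)
    (hy : ∀ x y, y₀ (x + y) = y₀ x * y₀ y * (1 + ((p : O) * ϖ) • β (x, y))) :
    ∃ χ ∈ L₁, (∀ x y, χ (x + y) = χ x * χ y) ∧ χ 0 = 1 ∧ ∃ δ ∈ L₁, χ = y₀ * (1 + ϖ • δ) := by
  obtain ⟨α, hα, hαp⟩ := hroot β hβ
  set c : D → D → O' := fun x y => 1 + ϖ • α (x, y) with hc_def
  have hcp : ∀ x y, c x y ^ p = 1 + ((p : O) * ϖ) • β (x, y) := by
    intro x y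
    have := congrFun hαp (x, y)
    simpa using this
  have hyc : ∀ x y, y₀ (x + y) = y₀ x * y₀ y * c x y ^ p := by
    intro x y
    rw [hcp, hy]
  have hcU : ∀ x y, c x y ∈ oneUnits (O' := O') ϖ := fun x y => ⟨α (x, y), rfl⟩
  obtain ⟨hc, hs, h0⟩ := cocycle_of_root hreg hy0 hyc (oneUnits ϖ) huniq hcU
  -- the correcting factor
  obtain ⟨δ, hδ, hδe⟩ := prod_one_add_smul_mem L₁ ϖ (Finset.range p)
    (fun j => fun x => α (x, j • x)) (fun j _ => hgraph α hα j)
  have hA : (fun x => cumul c p x) = 1 + ϖ • δ := by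
    rw [← hδe]
    funext x
    simp [cumul, hc_def, Finset.prod_apply]
  refine ⟨y₀ * (1 + ϖ • δ), L₁.mul_mem hy₀ (L₁.add_mem L₁.one_mem (L₁.smul_mem hδ _)), ?_, ?_,
    δ, hδ, rfl⟩
  · intro x y
    have := corrected_mul hc hs h0 hD hyc x y
    have e : ∀ z, (y₀ * (1 + ϖ • δ)) z = y₀ z * cumul c p z := by
      intro z
      rw [Pi.mul_apply, ← hA]
    rw [e, e, e, this]
  · have e : (y₀ * (1 + ϖ • δ)) 0 = y₀ 0 * cumul c p 0 := by
      rw [Pi.mul_apply, ← hA]
    rw [e, hy0, cumul_apply_zero h0, one_mul]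

/-- a finite product of elements `1 + ϖ a_j` is of the form `1 + ϖ δ`. -/
theorem prod_one_add_smul {B : Type*} [CommRing B] [Algebra O B] (ϖ : O)
    {ι : Type*} (s : Finset ι) (a : ι → B) : ∃ δ : B, ∏ j ∈ s, (1 + ϖ • a j) = 1 + ϖ • δ := by
  obtain ⟨δ, -, h⟩ := prod_one_add_smul_mem (⊤ : Subalgebra O B) ϖ s a (fun _ _ => Algebra.mem_top)
  exact ⟨δ, h⟩

/-- **Fontaine's lifting lemma, evaluation form.**  Same as `exists_character_lift`, but the rings
`Λ₁`, `Λ₂` of "functions on `D`, `D × D`" are abstract `O`-algebras with (not necessarily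
injective) evaluation maps `ev₁ : Λ₁ → Fun(D, O')`, `ev₂ : Λ₂ → Fun(D × D, O')`, and
`γ j : Λ₂ → Λ₁` is the restriction to the graph of `[j]`.  This covers both the étale function model
(`D = G^D(K̄)`, `ev` injective) and the generic-point model (`D` the group of `C`-points of `G^D`
for a cocommutative coalgebra `C`, `O' = Hom(C, O_E)` with the convolution product). -/
theorem exists_character_lift_ev {p : ℕ} (hD : ∀ x : D, p • x = 0) (ϖ : O)
    {Λ₁ Λ₂ : Type*} [CommRing Λ₁] [Algebra O Λ₁] [CommRing Λ₂] [Algebra O Λ₂]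
    (ev₁ : Λ₁ →ₐ[O] (D → O')) (ev₂ : Λ₂ →ₐ[O] (D × D → O'))
    (γ : ℕ → Λ₂ → Λ₁) (hγ : ∀ j F x, ev₁ (γ j F) x = ev₂ F (x, j • x))
    (hroot : ∀ β : Λ₂, ∃ α : Λ₂, (1 + ϖ • α) ^ p = 1 + ((p : O) * ϖ) • β)
    (huniq : ∀ u ∈ oneUnits (O' := O') ϖ, ∀ v ∈ oneUnits (O' := O') ϖ, u ^ p = v ^ p → u = v)
    (y₀ : Λ₁) (hreg : ∀ x, IsLeftRegular (ev₁ y₀ x)) (hy0 : ev₁ y₀ 0 = 1)
    (β : Λ₂)
    (hy : ∀ x y, ev₁ y₀ (x + y) = ev₁ y₀ x * ev₁ y₀ y * (1 + ((p : O) * ϖ) • ev₂ β (x, y))) :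
    ∃ δ : Λ₁, (∀ x y, ev₁ (y₀ * (1 + ϖ • δ)) (x + y)
        = ev₁ (y₀ * (1 + ϖ • δ)) x * ev₁ (y₀ * (1 + ϖ • δ)) y) ∧
      ev₁ (y₀ * (1 + ϖ • δ)) 0 = 1 := by
  obtain ⟨α, hαp⟩ := hroot β
  set c : D → D → O' := fun x y => 1 + ϖ • ev₂ α (x, y) with hc_def
  have hcp : ∀ x y, c x y ^ p = 1 + ((p : O) * ϖ) • ev₂ β (x, y) := by
    intro x y
    have := congrFun (congrArg ev₂ hαp) (x, y)
    simpa using this
  have hyc : ∀ x y, ev₁ y₀ (x + y) = ev₁ y₀ x * ev₁ y₀ y * c x y ^ p := by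
    intro x y
    rw [hcp, hy]
  have hcU : ∀ x y, c x y ∈ oneUnits (O' := O') ϖ := fun x y => ⟨ev₂ α (x, y), rfl⟩
  obtain ⟨hc, hs, h0⟩ := cocycle_of_root hreg hy0 hyc (oneUnits ϖ) huniq hcU
  obtain ⟨δ, hδe⟩ := prod_one_add_smul ϖ (Finset.range p) (fun j => γ j α)
  have hA : ∀ x, ev₁ (1 + ϖ • δ) x = cumul c p x := by
    intro x
    rw [← hδe, map_prod, Finset.prod_apply]
    simp [cumul, hc_def, hγ]
  have e : ∀ z, ev₁ (y₀ * (1 + ϖ • δ)) z = ev₁ y₀ z * cumul c p z := by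
    intro z
    rw [map_mul, Pi.mul_apply, hA]
  refine ⟨δ, ?_, ?_⟩
  · intro x y
    rw [e, e, e, corrected_mul hc hs h0 hD hyc x y]
  · rw [e, hy0, cumul_apply_zero h0, one_mul]

end Lift


section Root

/-- `(1 + X)^p = 1 + p X + p X² S + X^p` for an integer polynomial `S`. -/
theorem exists_poly {p : ℕ} (hp : p.Prime) : ∃ S : Polynomial ℤ,
    (1 + X : Polynomial ℤ) ^ p
      = 1 + (p : Polynomial ℤ) * X + (p : Polynomial ℤ) * X ^ 2 * S + X ^ p := by
  obtain ⟨n, rfl⟩ : ∃ n, p = n + 2 := ⟨p - 2, by have := hp.two_le; omega⟩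
  refine ⟨∑ m ∈ Finset.range n, X ^ m * (((n + 2).choose (m + 2) / (n + 2) : ℕ) : Polynomial ℤ), ?_⟩
  rw [add_comm 1 X, add_pow, Finset.sum_range_succ, Finset.sum_range_succ',
    Finset.sum_range_succ']
  simp only [one_pow, mul_one, Nat.choose_self, Nat.cast_one, pow_zero, Nat.choose_zero_right,
    zero_add, pow_one, Nat.choose_one_right, Finset.mul_sum]
  have : ∀ m ∈ Finset.range n, (X : Polynomial ℤ) ^ (m + 1 + 1) * (((n + 2).choose (m + 1 + 1) : ℕ) : Polynomial ℤ)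
      = ((n + 2 : ℕ) : Polynomial ℤ) * X ^ 2 * (X ^ m * (((n + 2).choose (m + 2) / (n + 2) : ℕ) : Polynomial ℤ)) := by
    intro m hm
    have hm' : m < n := Finset.mem_range.mp hm
    have hdvd : (n + 2) ∣ (n + 2).choose (m + 2) := hp.dvd_choose_self (by omega) (by omega)
    have e : ((n + 2).choose (m + 2) : ℕ) = (n + 2) * ((n + 2).choose (m + 2) / (n + 2)) :=
      (Nat.mul_div_cancel' hdvd).symm
    generalize (n + 2).choose (m + 2) / (n + 2) = q at e ⊢
    show (X : Polynomial ℤ) ^ (m + 2) * (((n + 2).choose (m + 2) : ℕ) : Polynomial ℤ) = _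
    rw [e]
    push_cast
    ring
  rw [Finset.sum_congr rfl this]
  push_cast
  ring

theorem one_add_pow_prime {p : ℕ} (hp : p.Prime) : ∃ S : Polynomial ℤ, ∀ {Λ : Type*} [CommRing Λ]
    (x : Λ), (1 + x) ^ p = 1 + (p : Λ) * x + (p : Λ) * x ^ 2 * (aeval x S) + x ^ p := by
  obtain ⟨S, hS⟩ := exists_poly hp
  refine ⟨S, fun {Λ} _ x => ?_⟩
  have := congrArg (aeval x) hS
  simpa using this

/-- **Banach fixed point in an adically complete ring.** -/
theorem exists_fixed_point {Λ : Type*} [CommRing Λ] (J : Ideal Λ) [IsAdicComplete J Λ]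
    (Φ : Λ → Λ) (hΦ : ∀ n a b, a - b ∈ J ^ n → Φ a - Φ b ∈ J ^ (n + 1)) : ∃ α, Φ α = α := by
  let a : ℕ → Λ := fun n => Φ^[n] 0
  have ha : ∀ n, a (n + 1) = Φ (a n) := fun n => Function.iterate_succ_apply' Φ n 0
  have hstep : ∀ n, a (n + 1) - a n ∈ J ^ n := by
    intro n
    induction n with
    | zero => simp
    | succ n ih =>
      rw [ha (n + 1)]
      nth_rewrite 2 [ha n]
      exact hΦ n _ _ ih
  have hcauchy : ∀ m n, m ≤ n → a n - a m ∈ J ^ m := by
    intro m n hmn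
    induction n, hmn using Nat.le_induction with
    | base => simp
    | succ n hmn ih =>
      have : a (n + 1) - a m = (a (n + 1) - a n) + (a n - a m) := by ring
      rw [this]
      exact (J ^ m).add_mem (Ideal.pow_le_pow_right hmn (hstep n)) ih
  obtain ⟨L, hL⟩ := IsPrecomplete.prec (I := J) (M := Λ) (inferInstance) (f := a) (by
    intro m n hmn
    rw [SModEq.sub_mem, smul_eq_mul, Ideal.mul_top]
    have := hcauchy m n hmn
    rw [← neg_sub]
    exact (J ^ m).neg_mem this)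
  have hL' : ∀ n, a n - L ∈ J ^ n := by
    intro n
    have := hL n
    rwa [SModEq.sub_mem, smul_eq_mul, Ideal.mul_top] at this
  refine ⟨L, ?_⟩
  rw [← sub_eq_zero]
  apply IsHausdorff.haus (I := J) (M := Λ) inferInstance
  intro n
  rw [SModEq.sub_mem, smul_eq_mul, Ideal.mul_top, sub_zero]
  have h1 : Φ L - Φ (a n) ∈ J ^ n := by
    have := hΦ n L (a n) (by rw [← neg_sub]; exact (J ^ n).neg_mem (hL' n))
    exact Ideal.pow_le_pow_right (Nat.le_succ n) this
  have h2 : Φ (a n) - a n ∈ J ^ n := by rw [← ha]; exact hstep n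
  have : Φ L - L = (Φ L - Φ (a n)) + (Φ (a n) - a n) + (a n - L) := by ring
  rw [this]
  exact (J ^ n).add_mem ((J ^ n).add_mem h1 h2) (hL' n)

/-- **Existence of `p`-th roots.**  In a `J`-adically complete ring with `ϖ, μ ∈ J` and
`ϖ^(p-1) = p μ`, every element of `1 + p ϖ Λ` is the `p`-th power of an element of `1 + ϖ Λ`. -/
theorem exists_root {p : ℕ} (hp : p.Prime) {Λ : Type*} [CommRing Λ] (J : Ideal Λ)
    [IsAdicComplete J Λ] (ϖ μ : Λ) (hϖ : ϖ ∈ J) (hμ : μ ∈ J) (h : ϖ ^ (p - 1) = (p : Λ) * μ)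
    (β : Λ) : ∃ α, (1 + ϖ * α) ^ p = 1 + (p : Λ) * ϖ * β := by
  obtain ⟨S, hS⟩ := one_add_pow_prime hp
  -- the polynomial `P₁ = X² S(ϖ X)`
  let S' : Polynomial Λ := S.map (Int.castRingHom Λ)
  let P₁ : Polynomial Λ := X ^ 2 * S'.comp (C ϖ * X)
  have hP₁ : ∀ a, P₁.eval a = a ^ 2 * aeval (ϖ * a) S := by
    intro a
    simp only [P₁, S', eval_mul, eval_pow, eval_X, eval_comp, eval_C]
    rw [aeval_def, eval₂_eq_eval_map]
    rfl
  have key : ∀ a, (1 + ϖ * a) ^ p = 1 + (p : Λ) * ϖ * (a + (ϖ * P₁.eval a + μ * a ^ p)) := by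
    intro a
    have hpp : ϖ ^ p = ϖ * ((p : Λ) * μ) := by
      rw [← h, ← pow_succ']
      congr 1
      have := hp.one_le
      omega
    rw [hS (ϖ * a), hP₁, mul_pow ϖ a p, hpp]
    ring
  obtain ⟨α, hα⟩ := exists_fixed_point J (fun a => β - (ϖ * P₁.eval a + μ * a ^ p)) (by
    intro n a b hab
    obtain ⟨q₁, hq₁⟩ := Polynomial.sub_dvd_eval_sub a b P₁
    obtain ⟨q₂, hq₂⟩ := sub_dvd_pow_sub_pow a b p
    have : (β - (ϖ * P₁.eval a + μ * a ^ p)) - (β - (ϖ * P₁.eval b + μ * b ^ p))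
        = (-(ϖ * q₁ + μ * q₂)) * (a - b) := by
      have e1 : ϖ * P₁.eval a - ϖ * P₁.eval b = ϖ * ((a - b) * q₁) := by rw [← hq₁]; ring
      have e2 : μ * a ^ p - μ * b ^ p = μ * ((a - b) * q₂) := by rw [← hq₂]; ring
      linear_combination (-1 : Λ) * e1 - e2
    rw [this, pow_succ']
    exact Ideal.mul_mem_mul (J.neg_mem (J.add_mem (J.mul_mem_right _ hϖ) (J.mul_mem_right _ hμ))) hab)
  refine ⟨α, ?_⟩
  rw [key α]
  have : α + (ϖ * P₁.eval α + μ * α ^ p) = β := by
    have := hα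
    linear_combination -this
  rw [this]

end Root

section Uniq

variable {K : Type*} [Field K] {Γ₀ : Type*} [LinearOrderedCommGroupWithZero Γ₀]
  (v : Valuation K Γ₀)

theorem natCast_le_one (n : ℕ) : v (n : K) ≤ 1 :=
  (Valuation.mem_integer_iff v _).mp (natCast_mem v.integer n)

theorem aeval_int_le_one (S : Polynomial ℤ) {z : K} (hz : v z ≤ 1) : v (aeval z S) ≤ 1 := by
  have h := Polynomial.aeval_subalgebra_coe S (subalgebraOfSubring v.integer)
    ⟨z, (Valuation.mem_integer_iff v z).mpr hz⟩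
  rw [← (Valuation.mem_integer_iff v _)]
  have h2 : (aeval z S : K) ∈ subalgebraOfSubring v.integer := by
    rw [show (aeval z S : K) = _ from h.symm]
    exact SetLike.coe_mem _
  exact h2

/-- **Lemma F for `μ_p`**: a `p`-th root of unity `ζ` with `|ζ - 1|^(p-1) < |p|` is `1`. -/
theorem eq_one_of_pow_eq_one {p : ℕ} (hp : p.Prime) {ζ : K} (hζ : ζ ^ p = 1)
    (h : v (ζ - 1) ^ (p - 1) < v (p : K)) : ζ = 1 := by
  by_contra hne
  obtain ⟨S, hS⟩ := one_add_pow_prime hp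
  set z := ζ - 1 with hz_def
  have hz0 : z ≠ 0 := sub_ne_zero.mpr hne
  have hvp1 : v (p : K) ≤ 1 := natCast_le_one v p
  have hp1 : p - 1 ≠ 0 := by have := hp.two_le; omega
  have hz1 : v z < 1 := by
    by_contra hge
    rw [not_lt] at hge
    exact absurd (h.trans_le hvp1) (not_lt.mpr (one_le_pow_of_one_le' hge _))
  have e := hS z
  rw [show 1 + z = ζ by rw [hz_def]; ring, hζ] at e
  -- `z ^ (p-1) = - p (1 + z S(z))`
  have e2 : z ^ (p - 1) = -((p : K) * (1 + z * aeval z S)) := by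
    have hzp : z ^ p = z * z ^ (p - 1) := by
      rw [← pow_succ']; congr 1; omega
    rw [hzp] at e
    have : z * (z ^ (p - 1) + (p : K) * (1 + z * aeval z S)) = 0 := by
      linear_combination -e
    rcases mul_eq_zero.mp this with h0 | h0
    · exact absurd h0 hz0
    · linear_combination h0
  have e3 : v z ^ (p - 1) = v (p : K) := by
    rw [← map_pow, e2, Valuation.map_neg, map_mul, v.map_one_add_of_lt, mul_one]
    rw [map_mul]
    calc v z * v (aeval z S) ≤ v z * 1 := by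
          gcongr
          exact aeval_int_le_one v S hz1.le
      _ = v z := mul_one _
      _ < 1 := hz1
  exact absurd e3 h.ne

/-- the `p`-th power map is injective on `{a : |a - 1| ≤ γ}` when `γ^(p-1) < |p|`. -/
theorem eq_of_pow_eq_pow {p : ℕ} (hp : p.Prime) {γ : Γ₀} (hγ : γ ^ (p - 1) < v (p : K))
    {a b : K} (ha : v (a - 1) ≤ γ) (hb : v (b - 1) ≤ γ) (hab : a ^ p = b ^ p) : a = b := by
  have hvp1 : v (p : K) ≤ 1 := natCast_le_one v p
  have hp1 : p - 1 ≠ 0 := by have := hp.two_le; omega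
  have hγ1 : γ < 1 := by
    by_contra hge
    rw [not_lt] at hge
    exact absurd (hγ.trans_le hvp1) (not_lt.mpr (one_le_pow_of_one_le' hge _))
  have hvb : v b = 1 := by
    have : b = 1 + (b - 1) := by ring
    rw [this]
    exact v.map_one_add_of_lt (hb.trans_lt hγ1)
  have hb0 : b ≠ 0 := by
    intro h0
    rw [h0, map_zero] at hvb
    exact zero_ne_one hvb
  have hζ : (a / b) ^ p = 1 := by
    rw [div_pow, hab, div_self (pow_ne_zero _ hb0)]
  have hsub : v (a / b - 1) ≤ γ := by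
    have : a / b - 1 = (a - b) / b := by field_simp
    rw [this, map_div₀, hvb, div_one]
    have : a - b = (a - 1) - (b - 1) := by ring
    rw [this]
    exact (v.map_sub _ _).trans (max_le ha hb)
  have := eq_one_of_pow_eq_one v hp hζ
    ((pow_le_pow_left' hsub _).trans_lt hγ)
  rwa [div_eq_one_iff_eq hb0] at this

end Uniq

section Wrappers

variable {O : Type*} [CommRing O]

/-- hypothesis `hroot` of `exists_character_lift_ev` from adic completeness. -/
theorem hroot_of_complete {Λ : Type*} [CommRing Λ] [Algebra O Λ] (J : Ideal Λ)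
    [IsAdicComplete J Λ] {p : ℕ} (hp : p.Prime) (ϖ μ : O) (h : ϖ ^ (p - 1) = (p : O) * μ)
    (hϖ : algebraMap O Λ ϖ ∈ J) (hμ : algebraMap O Λ μ ∈ J) :
    ∀ β : Λ, ∃ α : Λ, (1 + ϖ • α) ^ p = 1 + ((p : O) * ϖ) • β := by
  intro β
  obtain ⟨α, hα⟩ := exists_root hp J (algebraMap O Λ ϖ) (algebraMap O Λ μ) hϖ hμ
    (by rw [← map_pow, h, map_mul, map_natCast]) β
  refine ⟨α, ?_⟩
  rw [Algebra.smul_def, Algebra.smul_def, map_mul, map_natCast, hα]

/-- hypothesis `hroot` of `exists_character_lift` from adic completeness of the subalgebra. -/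
theorem hroot_of_complete_subalgebra {B : Type*} [CommRing B] [Algebra O B] (L : Subalgebra O B)
    (J : Ideal L) [IsAdicComplete J L] {p : ℕ} (hp : p.Prime) (ϖ μ : O)
    (h : ϖ ^ (p - 1) = (p : O) * μ) (hϖ : algebraMap O L ϖ ∈ J) (hμ : algebraMap O L μ ∈ J) :
    ∀ β ∈ L, ∃ α ∈ L, (1 + ϖ • α) ^ p = 1 + ((p : O) * ϖ) • β := by
  intro β hβ
  obtain ⟨α, hα⟩ := hroot_of_complete J hp ϖ μ h hϖ hμ (⟨β, hβ⟩ : L)
  refine ⟨α, α.2, ?_⟩
  have := congrArg L.val hα
  simpa using this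

/-- hypothesis `huniq` of the lifting lemma from a valuation: `O'` embeds in a valued field `K`
with `|O'| ≤ 1` and `|ϖ|^(p-1) < |p|`. -/
theorem huniq_of_valuation {O' : Type*} [CommRing O'] [Algebra O O'] {K : Type*} [Field K]
    {Γ₀ : Type*} [LinearOrderedCommGroupWithZero Γ₀] (v : Valuation K Γ₀)
    (ι : O' →+* K) (hι : Function.Injective ι) (hint : ∀ s, v (ι s) ≤ 1)
    {p : ℕ} (hp : p.Prime) (ϖ : O) (hϖ : v (ι (algebraMap O O' ϖ)) ^ (p - 1) < v (p : K)) :
    ∀ u ∈ oneUnits (O' := O') ϖ, ∀ w ∈ oneUnits (O' := O') ϖ, u ^ p = w ^ p → u = w := by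
  have key : ∀ s : O', v (ι (1 + ϖ • s) - 1) ≤ v (ι (algebraMap O O' ϖ)) := by
    intro s
    rw [map_add, map_one, add_sub_cancel_left, Algebra.smul_def, map_mul, map_mul]
    calc v (ι (algebraMap O O' ϖ)) * v (ι s) ≤ v (ι (algebraMap O O' ϖ)) * 1 := by
          gcongr
          exact hint s
      _ = _ := mul_one _
  rintro _ ⟨s, rfl⟩ _ ⟨t, rfl⟩ h
  apply hι
  apply eq_of_pow_eq_pow v hp hϖ (key s) (key t)
  rw [← map_pow, ← map_pow, h]

end Wrappers

end Fermat.Agent.GP.Flat.Lift
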