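/-
Helper (orphan; Mathlib + `GP/Flat/Lift`) for the S56 long shot, node [P-FLAT] / FLAT-PM:
the **absorbing trick**.  Let `ev : Λ → Fun(ι, O)` be an injective `O`-algebra hom whose image
contains `c · Fun(ι, O)` ("absorbs"), where `c` divides a power of `ν`.  Then every `ν`-adic limit of
elements of `ev Λ` that exists pointwise lies in `ev Λ`; no completeness of `Λ` is needed.  Consequences:
* `isUnit_one_add_smul` : `1 + ν l` is a unit of `Λ` as soon as `1 + ν a` is a unit of `O` for all `a`;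
* `exists_root` : `1 + p ϖ β` is a `p`-th power of an element of `1 + ϖ Λ` as soon as this holds
  pointwise in `O` (`ϖ^(p-1) = p μ`, `ν ∣ ϖ`, `ν ∣ μ`): this is hypothesis `hroot` of
  `Lift.exists_character_lift_ev`.
-/
import Fermat.Agent.GP.Flat.Lift

namespace Fermat.Agent.GP.Flat.Absorb

open Polynomial Fermat.Agent.GP.Flat.Lift

variable {O : Type*} [CommRing O] {ι : Type*} {Λ : Type*} [CommRing Λ] [Algebra O Λ]

/-- the image of `ev` contains `c · Fun(ι, O)`. -/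
def Absorbs (ev : Λ →ₐ[O] (ι → O)) (c : O) : Prop := ∀ φ : ι → O, ∃ l : Λ, ev l = c • φ

/-- closedness: a function which is congruent modulo `c` to an element of `ev Λ` lies in `ev Λ`. -/
theorem Absorbs.mem_of_dvd {ev : Λ →ₐ[O] (ι → O)} {c : O} (h : Absorbs ev c) (l : Λ) (φ : ι → O)
    (hφ : ∀ x, c ∣ ev l x - φ x) : ∃ l' : Λ, ev l' = φ := by
  choose d hd using hφ
  obtain ⟨l₁, hl₁⟩ := h d
  refine ⟨l - l₁, ?_⟩
  funext x
  rw [map_sub, Pi.sub_apply, hl₁, Pi.smul_apply, smul_eq_mul, ← hd x]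
  ring

/-- **units by absorption.** -/
theorem isUnit_one_add_smul {ev : Λ →ₐ[O] (ι → O)} (hinj : Function.Injective ev) {ν c : O} {M : ℕ}
    (hc : c ∣ ν ^ M) (habs : Absorbs ev c) (hunit : ∀ a : O, IsUnit (1 + ν * a)) (l : Λ) :
    IsUnit (1 + ν • l) := by
  -- pointwise inverse
  choose u hu using fun x => (hunit (ev l x)).exists_right_inv
  -- partial geometric sum
  set s : Λ := ∑ k ∈ Finset.range M, (-(ν • l)) ^ k with hs
  have hgeom : (1 + ν • l) * s = 1 - (-(ν • l)) ^ M := by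
    have := mul_neg_geom_sum (-(ν • l)) M
    rw [sub_neg_eq_add] at this
    rw [hs]
    exact this
  obtain ⟨s', hs'⟩ := habs.mem_of_dvd s u (by
    intro x
    obtain ⟨d, hd⟩ := hc
    have h1 : ev ((1 + ν • l) * s) x = 1 - (-(ν * ev l x)) ^ M := by
      rw [hgeom]
      simp [map_sub, map_pow, map_neg, Algebra.smul_def]
    rw [map_mul, Pi.mul_apply] at h1
    have h2 : ev (1 + ν • l) x = 1 + ν * ev l x := by
      simp [Algebra.smul_def]
    rw [h2] at h1
    -- `ev s x - u x = - u x * (-(ν * ev l x))^M`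
    have h3 : ev s x - u x = -(u x) * (-(ν * ev l x)) ^ M := by
      have := hu x
      linear_combination (u x) * h1 - (ev s x) * this
    rw [h3, neg_pow, mul_pow]
    refine Dvd.dvd.mul_left (Dvd.dvd.mul_left (Dvd.dvd.mul_right ⟨d, hd⟩ _) _) _)
  refine IsUnit.of_mul_eq_one s' ?_
  apply hinj
  funext x
  rw [map_mul, Pi.mul_apply, hs', map_one, Pi.one_apply]
  have h2 : ev (1 + ν • l) x = 1 + ν * ev l x := by
    simp [Algebra.smul_def]
  rw [h2, hu x]

/-- the correction term `Ψ(a) = ϖ a² S(ϖ a) + μ a^p`, so that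
`(1 + ϖ a)^p = 1 + p ϖ (a + Ψ a)` when `ϖ^(p-1) = p μ`. -/
noncomputable def corr {R : Type*} [CommRing R] (S : Polynomial ℤ) (p : ℕ) (ϖ μ a : R) : R :=
  ϖ * (a ^ 2 * aeval (ϖ * a) S) + μ * a ^ p

theorem corr_map {R R' : Type*} [CommRing R] [CommRing R'] (f : R →+* R') (S : Polynomial ℤ) (p : ℕ)
    (ϖ μ a : R) : f (corr S p ϖ μ a) = corr S p (f ϖ) (f μ) (f a) := by
  unfold corr
  simp only [map_add, map_mul, map_pow]
  congr 3
  rw [aeval_def, aeval_def, hom_eval₂, map_mul]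
  congr 1
  exact Subsingleton.elim _ _

theorem corr_sub_dvd {R : Type*} [CommRing R] (S : Polynomial ℤ) (p : ℕ) (ϖ μ ν : R)
    (hϖ : ν ∣ ϖ) (hμ : ν ∣ μ) (a b : R) :
    ν * (a - b) ∣ corr S p ϖ μ a - corr S p ϖ μ b := by
  -- `a ↦ a² S(ϖ a)` is a polynomial function
  let P₁ : Polynomial R := X ^ 2 * (S.map (Int.castRingHom R)).comp (C ϖ * X)
  have hP₁ : ∀ t, P₁.eval t = t ^ 2 * aeval (ϖ * t) S := by
    intro t
    simp only [P₁, eval_mul, eval_pow, eval_X, eval_comp, eval_C]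
    rw [aeval_def, eval₂_eq_eval_map]
    rfl
  obtain ⟨q₁, hq₁⟩ := Polynomial.sub_dvd_eval_sub a b P₁
  obtain ⟨q₂, hq₂⟩ := sub_dvd_pow_sub_pow a b p
  obtain ⟨d₁, rfl⟩ := hϖ
  obtain ⟨d₂, rfl⟩ := hμ
  refine ⟨d₁ * q₁ + d₂ * q₂, ?_⟩
  unfold corr
  rw [← hP₁, ← hP₁]
  linear_combination (ν * d₁) * hq₁ + (ν * d₂) * hq₂

theorem corr_identity {p : ℕ} (hp : p.Prime) {S : Polynomial ℤ}
    (hS : (1 + X : Polynomial ℤ) ^ p
      = 1 + (p : Polynomial ℤ) * X + (p : Polynomial ℤ) * X ^ 2 * S + X ^ p)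
    {R : Type*} [CommRing R] (ϖ μ a : R) (h : ϖ ^ (p - 1) = (p : R) * μ) :
    (1 + ϖ * a) ^ p = 1 + (p : R) * ϖ * (a + corr S p ϖ μ a) := by
  have hS' : (1 + ϖ * a) ^ p
      = 1 + (p : R) * (ϖ * a) + (p : R) * (ϖ * a) ^ 2 * (aeval (ϖ * a) S) + (ϖ * a) ^ p := by
    have := congrArg (aeval (ϖ * a)) hS
    simpa using this
  have hpp : ϖ ^ p = ϖ * ((p : R) * μ) := by
    rw [← h, ← pow_succ']
    congr 1
    have := hp.one_le
    omega
  unfold corr
  rw [hS', mul_pow ϖ a p, hpp]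
  ring

/-- **`p`-th roots by absorption.** -/
theorem exists_root {p : ℕ} (hp : p.Prime) {ev : Λ →ₐ[O] (ι → O)} (hinj : Function.Injective ev)
    {ϖ μ ν c : O} (h : ϖ ^ (p - 1) = (p : O) * μ) (hνϖ : ν ∣ ϖ) (hνμ : ν ∣ μ) {M : ℕ}
    (hc : c ∣ ν ^ M) (habs : Absorbs ev c)
    (hpt : ∀ b : O, ∃ a : O, (1 + ϖ * a) ^ p = 1 + (p : O) * ϖ * b)
    (hreg : IsLeftRegular ((p : O) * ϖ)) (β : Λ) :
    ∃ α : Λ, (1 + ϖ • α) ^ p = 1 + ((p : O) * ϖ) • β := by
  obtain ⟨S, hS0⟩ := exists_poly hp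
  -- pointwise solution of `a + Ψ a = β x`
  have hpt' : ∀ x, ∃ a : O, a + corr S p ϖ μ a = ev β x := by
    intro x
    obtain ⟨a, ha⟩ := hpt (ev β x)
    refine ⟨a, hreg ?_⟩
    show (p : O) * ϖ * (a + corr S p ϖ μ a) = (p : O) * ϖ * ev β x
    have := corr_identity hp hS0 ϖ μ a h
    rw [ha] at this
    linear_combination -this
  choose a ha using hpt'
  -- the iteration inside `Λ`
  let ϖ' : Λ := algebraMap O Λ ϖ
  let μ' : Λ := algebraMap O Λ μ
  let it : ℕ → Λ := fun n => Nat.rec β (fun _ t => β - corr S p ϖ' μ' t) n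
  have it_succ : ∀ n, it (n + 1) = β - corr S p ϖ' μ' (it n) := fun n => rfl
  have hev : ∀ (t : Λ) (x : ι), ev (corr S p ϖ' μ' t) x = corr S p ϖ μ (ev t x) := by
    intro t x
    have h1 := corr_map ((Pi.evalRingHom (fun _ : ι => O) x).comp (ev : Λ →+* (ι → O))) S p ϖ' μ' t
    simp only [RingHom.comp_apply, Pi.evalRingHom_apply] at h1
    have e1 : (ev : Λ →+* (ι → O)) ϖ' x = ϖ := by
      show ev (algebraMap O Λ ϖ) x = ϖ
      rw [AlgHom.commutes]; rfl
    have e2 : (ev : Λ →+* (ι → O)) μ' x = μ := by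
      show ev (algebraMap O Λ μ) x = μ
      rw [AlgHom.commutes]; rfl
    rw [e1, e2] at h1
    exact h1
  have hclose : ∀ n x, ν ^ n ∣ ev (it n) x - a x := by
    intro n
    induction n with
    | zero => intro x; simp
    | succ n ih =>
      intro x
      rw [it_succ, map_sub, Pi.sub_apply, hev]
      have e : ev β x - corr S p ϖ μ (ev (it n) x) - a x
          = -(corr S p ϖ μ (ev (it n) x) - corr S p ϖ μ (a x)) := by
        have := ha x
        linear_combination -this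
      rw [e, dvd_neg, pow_succ']
      exact (mul_dvd_mul_left ν (ih x)).trans (corr_sub_dvd S p ϖ μ ν hνϖ hνμ _ _)
  obtain ⟨α, hα⟩ := habs.mem_of_dvd (it M) a (fun x => hc.trans (hclose M x))
  refine ⟨α, ?_⟩
  have hfix : α + corr S p ϖ' μ' α = β := by
    apply hinj
    funext x
    rw [map_add, Pi.add_apply, hev, hα, ha x]
  have hk := corr_identity hp hS0 ϖ' μ' α (by
    show (algebraMap O Λ ϖ) ^ (p - 1) = (p : Λ) * algebraMap O Λ μ
    rw [← map_pow, h, map_mul, map_natCast])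
  rw [hfix] at hk
  rw [Algebra.smul_def, Algebra.smul_def, map_mul, map_natCast]
  exact hk

end Fermat.Agent.GP.Flat.Absorb
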