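/-
GATE-P (S56) / [P-FLAT] leaf S56-FLAT-CARTIER (helper65), named by helper15 (board 4059, 4(a)).

CARTIER'S THEOREM, finite-dimensional case: a finite-dimensional commutative Hopf algebra over a
field of characteristic `0` is reduced.  Consequence over an algebraically closed field `K`: the
number of `K`-points equals the dimension, and the points are a basis of the linear dual.

Mathlib-only orphan.
-/
import Mathlib

set_option autoImplicit false

namespace Fermat.Agent.GP.Flat.Cartier

open Coalgebra Bialgebra HopfAlgebra TensorProduct WithConv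

section Leibniz

variable {K H A : Type*} [CommRing K] [CommRing H] [Bialgebra K H] [CommRing A] [Algebra K A]

/-- The contraction `Λ_{α,δ} = μ ∘ (α ⊗ δ)` on `H ⊗ H` satisfies a Leibniz rule when `δ` is a
`β`-derivation. -/
theorem mul'_map_mul (α β : H →ₐ[K] A) (δ : H →ₗ[K] A)
    (hδ : ∀ u v, δ (u * v) = β u * δ v + δ u * β v) (s t : H ⊗[K] H) :
    LinearMap.mul' K A (TensorProduct.map α.toLinearMap δ (s * t)) =
      LinearMap.mul' K A (TensorProduct.map α.toLinearMap β.toLinearMap s) *
        LinearMap.mul' K A (TensorProduct.map α.toLinearMap δ t) +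
      LinearMap.mul' K A (TensorProduct.map α.toLinearMap δ s) *
        LinearMap.mul' K A (TensorProduct.map α.toLinearMap β.toLinearMap t) := by
  induction s using TensorProduct.induction_on with
  | zero => simp
  | add s₁ s₂ h₁ h₂ =>
    simp only [add_mul, map_add, h₁, h₂]
    ring
  | tmul u v =>
    induction t using TensorProduct.induction_on with
    | zero => simp
    | add t₁ t₂ h₁ h₂ =>
      simp only [mul_add, map_add, h₁, h₂]
      ring
    | tmul u' v' =>
      simp only [Algebra.TensorProduct.tmul_mul_tmul, TensorProduct.map_tmul,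
        LinearMap.mul'_apply, AlgHom.toLinearMap_apply, map_mul, hδ]
      ring

/-- If `δ` is a `β`-derivation then `α * δ` (convolution) is an `(α * β)`-derivation. -/
theorem conv_leibniz (α β : H →ₐ[K] A) (δ : H →ₗ[K] A)
    (hδ : ∀ u v, δ (u * v) = β u * δ v + δ u * β v) (u v : H) :
    (toConv α.toLinearMap * toConv δ).ofConv (u * v) =
      (toConv α.toLinearMap * toConv β.toLinearMap).ofConv u *
          (toConv α.toLinearMap * toConv δ).ofConv v +
        (toConv α.toLinearMap * toConv δ).ofConv u *
          (toConv α.toLinearMap * toConv β.toLinearMap).ofConv v := by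
  simp only [LinearMap.convMul_apply, Bialgebra.comul_mul]
  exact mul'_map_mul α β δ hδ _ _

end Leibniz

section Point

variable {K H : Type*} [Field K] [CommRing H] [HopfAlgebra K H]

/-- The convolution inverse of a point, as a linear functional. -/
theorem inv_mul_point (g : H →ₐ[K] K) :
    toConv (g.comp (antipodeAlgHom K H)).toLinearMap * toConv g.toLinearMap =
      (1 : WithConv (H →ₗ[K] K)) := by
  have h : (toConv g)⁻¹ * toConv g = (1 : WithConv (H →ₐ[K] K)) := inv_mul_cancel _
  have h2 := congrArg (fun f : WithConv (H →ₐ[K] K) => toConv f.ofConv.toLinearMap) h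
  simp only [AlgHom.toLinearMap_convMul, AlgHom.toLinearMap_convOne] at h2
  exact h2

theorem point_mul_inv (g : H →ₐ[K] K) :
    toConv g.toLinearMap * toConv (g.comp (antipodeAlgHom K H)).toLinearMap =
      (1 : WithConv (H →ₗ[K] K)) := by
  have h : toConv g * (toConv g)⁻¹ = (1 : WithConv (H →ₐ[K] K)) := mul_inv_cancel _
  have h2 := congrArg (fun f : WithConv (H →ₐ[K] K) => toConv f.ofConv.toLinearMap) h
  simp only [AlgHom.toLinearMap_convMul, AlgHom.toLinearMap_convOne] at h2
  exact h2

/-- Power rule for a linear map satisfying the Leibniz rule. -/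
theorem leibniz_pow_succ (D : H →ₗ[K] H) (hD : ∀ u v, D (u * v) = u * D v + D u * v) (x : H)
    (n : ℕ) : D (x ^ (n + 1)) = ((n + 1 : ℕ) : H) * x ^ n * D x := by
  induction n with
  | zero => simp
  | succ n ih =>
    rw [pow_succ, hD, ih]
    push_cast
    ring

/-- Local non-nilpotency: if a vector field `D` has `g (D x) = 1` at the point `g`, then `x` is not
nilpotent in the local ring at `g`. -/
theorem mul_pow_ne_zero [CharZero K] (g : H →ₐ[K] K) (D : H →ₗ[K] H)
    (hD : ∀ u v, D (u * v) = u * D v + D u * v) (x : H) (hx : g (D x) = 1) :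
    ∀ (n : ℕ) (s : H), g s ≠ 0 → s * x ^ n ≠ 0 := by
  intro n
  induction n with
  | zero =>
    intro s hs h
    apply hs
    rw [pow_zero, mul_one] at h
    rw [h, map_zero]
  | succ n ih =>
    intro s hs h
    have h1 : D (s * x ^ (n + 1)) = 0 := by rw [h, map_zero]
    rw [hD, leibniz_pow_succ D hD] at h1
    have h2 : (((n + 1 : ℕ) : H) * s * s * D x) * x ^ n = 0 := by
      calc (((n + 1 : ℕ) : H) * s * s * D x) * x ^ n
          = s * (s * (((n + 1 : ℕ) : H) * x ^ n * D x) + D s * x ^ (n + 1)) -
              D s * (s * x ^ (n + 1)) := by ring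
        _ = 0 := by rw [h1, h, mul_zero, mul_zero, sub_zero]
    refine ih _ ?_ h2
    rw [map_mul, map_mul, map_mul, hx, mul_one, map_natCast]
    exact mul_ne_zero (mul_ne_zero (Nat.cast_ne_zero.2 (Nat.succ_ne_zero n)) hs) hs

/-- A tangent vector at the point `g` taking the value `1` on a given `x ∈ 𝔪_g ∖ 𝔪_g²`. -/
theorem exists_tangent (g : H →ₐ[K] K) (x : H) (hx : g x = 0)
    (hx2 : x ∉ RingHom.ker g ^ 2) :
    ∃ ψ : H →ₗ[K] K, (∀ u v, ψ (u * v) = g u * ψ v + ψ u * g v) ∧ ψ x = 1 := by
  obtain ⟨f, hfx, hf⟩ := Submodule.exists_dual_map_eq_bot_of_notMem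
    (p := (RingHom.ker g ^ 2).restrictScalars K) (x := x) (by simpa using hx2) inferInstance
  have hf0 : ∀ y ∈ RingHom.ker g ^ 2, f y = 0 := by
    intro y hy
    have : f y ∈ Submodule.map f ((RingHom.ker g ^ 2).restrictScalars K) :=
      Submodule.mem_map_of_mem (by simpa using hy)
    rw [hf] at this
    simpa using this
  -- the projection `u ↦ u - g u • 1` onto the augmentation ideal
  let π : H →ₗ[K] H := LinearMap.id - (Algebra.linearMap K H).comp g.toLinearMap
  have hπ : ∀ u, π u = u - algebraMap K H (g u) := fun u => rfl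
  have hπker : ∀ u, π u ∈ RingHom.ker g := by
    intro u
    rw [RingHom.mem_ker, hπ, map_sub, AlgHom.commutes]
    simp
  refine ⟨(f x)⁻¹ • (f.comp π), ?_, ?_⟩
  · intro u v
    have key : π (u * v) = g u • π v + g v • π u + π u * π v := by
      simp only [hπ, map_mul, Algebra.smul_def]
      ring
    have h0 : f (π u * π v) = 0 :=
      hf0 _ (by rw [pow_two]; exact Ideal.mul_mem_mul (hπker u) (hπker v))
    simp only [LinearMap.smul_apply, LinearMap.comp_apply, key, map_add, map_smul, h0,
      smul_eq_mul]
    ring
  · have : π x = x := by rw [hπ, hx, map_zero, sub_zero]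
    simp only [LinearMap.smul_apply, LinearMap.comp_apply, this, smul_eq_mul]
    exact inv_mul_cancel₀ hfx

/-- Every tangent vector `ψ` at a point `g` extends to a (left-invariant) vector field: a
`K`-linear `D : H → H` with the Leibniz rule and `g ∘ D = ψ`. -/
theorem exists_vectorField (g : H →ₐ[K] K) (ψ : H →ₗ[K] K)
    (hψ : ∀ u v, ψ (u * v) = g u * ψ v + ψ u * g v) :
    ∃ D : H →ₗ[K] H, (∀ u v, D (u * v) = u * D v + D u * v) ∧ ∀ a, g (D a) = ψ a := by
  -- the tangent vector at the identity `φ = g⁻¹ * ψ`
  set gi : H →ₐ[K] K := g.comp (antipodeAlgHom K H) with hgi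
  set φ : H →ₗ[K] K := (toConv gi.toLinearMap * toConv ψ).ofConv with hφ
  have hφd : ∀ u v, φ (u * v) = counit u * φ v + φ u * counit v := by
    intro u v
    have h := conv_leibniz gi g ψ hψ u v
    rw [inv_mul_point g] at h
    have e1 : ∀ w : H, (1 : WithConv (H →ₗ[K] K)).ofConv w = counit w := fun w => rfl
    rw [e1, e1] at h
    exact h
  -- the vector field `D = id * (η ∘ φ)`
  set δ : H →ₗ[K] H := (Algebra.linearMap K H).comp φ with hδ
  set β : H →ₐ[K] H := (Algebra.ofId K H).comp (counitAlgHom K H) with hβ
  have hδd : ∀ u v, δ (u * v) = β u * δ v + δ u * β v := by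
    intro u v
    simp only [hδ, hβ, LinearMap.comp_apply, hφd, Algebra.linearMap_apply, map_add, map_mul,
      AlgHom.comp_apply, Algebra.ofId_apply, Bialgebra.counitAlgHom_apply]
  have hβ1 : toConv (AlgHom.id K H).toLinearMap * toConv β.toLinearMap =
      toConv (AlgHom.id K H).toLinearMap := by
    have : toConv β.toLinearMap = (1 : WithConv (H →ₗ[K] H)) := rfl
    rw [this, mul_one]
  refine ⟨(toConv (AlgHom.id K H).toLinearMap * toConv δ).ofConv, ?_, ?_⟩
  · intro u v
    have h := conv_leibniz (AlgHom.id K H) β δ hδd u v
    rw [hβ1] at h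
    simpa using h
  · intro a
    have h1 := LinearMap.algHom_comp_convMul_distrib g (toConv (AlgHom.id K H).toLinearMap)
      (toConv δ)
    have h2 : g.toLinearMap ∘ₗ δ = φ := by
      ext a
      simp [hδ]
    have h3 : g.toLinearMap ∘ₗ (AlgHom.id K H).toLinearMap = g.toLinearMap := rfl
    simp only [h2, h3] at h1
    have h4 : toConv g.toLinearMap * toConv φ = toConv ψ := by
      rw [hφ, toConv_ofConv, ← mul_assoc, point_mul_inv g, one_mul]
    have h5 := congrArg (fun f : H →ₗ[K] K => f a) h1
    simp only [LinearMap.comp_apply, AlgHom.toLinearMap_apply] at h5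
    rw [h5, h4, ofConv_toConv]

variable [CharZero K] [Module.Finite K H]

/-- **Cartier, local form**: in a finite-dimensional commutative Hopf algebra over a field of
characteristic `0`, the maximal ideal of every rational point is idempotent. -/
theorem ker_sq_eq (g : H →ₐ[K] K) : RingHom.ker g ^ 2 = RingHom.ker g := by
  refine le_antisymm (Ideal.pow_le_self two_ne_zero) fun x hx => ?_
  by_contra hx2
  have hx0 : g x = 0 := hx
  obtain ⟨ψ, hψ, hψx⟩ := exists_tangent g x hx0 hx2
  obtain ⟨D, hD, hgD⟩ := exists_vectorField g ψ hψ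
  have : IsArtinianRing H := IsArtinianRing.of_finite K H
  obtain ⟨n, y, hy⟩ := IsArtinian.exists_pow_succ_smul_dvd x (1 : H)
  have h0 : (1 - x * y) * x ^ n = 0 := by
    simp only [smul_eq_mul, mul_one, Nat.succ_eq_add_one, pow_succ] at hy
    calc (1 - x * y) * x ^ n = x ^ n - x ^ n * x * y := by ring
      _ = 0 := by rw [hy, sub_self]
  refine mul_pow_ne_zero g D hD x (by rw [hgD, hψx]) n (1 - x * y) ?_ h0
  rw [map_sub, map_one, map_mul, hx0, zero_mul, sub_zero]
  exact one_ne_zero

end Point

section AlgClosed

variable {K H : Type*} [Field K] [IsAlgClosed K] [CommRing H] [Algebra K H] [Module.Finite K H]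

/-- Over an algebraically closed field every maximal ideal of a finite-dimensional commutative
algebra is the kernel of a rational point. -/
theorem exists_point_of_isMaximal (m : Ideal H) [hm : m.IsMaximal] :
    ∃ g : H →ₐ[K] K, RingHom.ker g = m := by
  let _ : Field (H ⧸ m) := Ideal.Quotient.field m
  have hbij : Function.Bijective (algebraMap K (H ⧸ m)) :=
    IsAlgClosed.algebraMap_bijective_of_isIntegral
  let e : K ≃ₐ[K] (H ⧸ m) := AlgEquiv.ofBijective (Algebra.ofId K (H ⧸ m)) hbij
  refine ⟨(e.symm : (H ⧸ m) →ₐ[K] K).comp (Ideal.Quotient.mkₐ K m), ?_⟩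
  ext x
  rw [RingHom.mem_ker, AlgHom.comp_apply, AlgEquiv.coe_toAlgHom,
    EmbeddingLike.map_eq_zero_iff, Ideal.Quotient.mkₐ_eq_mk, Ideal.Quotient.eq_zero_iff_mem]

end AlgClosed

section AlgClosedHopf

/-- **Cartier** over an algebraically closed field of characteristic `0`. -/
theorem isReduced_of_isAlgClosed (K H : Type*) [Field K] [IsAlgClosed K] [CharZero K] [CommRing H]
    [HopfAlgebra K H] [Module.Finite K H] : IsReduced H := by
  have : IsArtinianRing H := IsArtinianRing.of_finite K H
  rw [← nilradical_eq_bot_iff]
  have hsq : nilradical H ^ 2 = nilradical H := by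
    rw [IsArtinianRing.nilradical_pow_eq_iInf, IsArtinianRing.nilradical_eq_iInf]
    refine iInf_congr fun I => ?_
    obtain ⟨g, hg⟩ := exists_point_of_isMaximal (K := K) I.asIdeal
    rw [← hg]
    exact ker_sq_eq g
  obtain ⟨n, hn⟩ := IsArtinianRing.isNilpotent_nilradical (R := H)
  have hpow : ∀ k : ℕ, nilradical H ^ (k + 1) = nilradical H := by
    intro k
    induction k with
    | zero => simp
    | succ k ih => rw [pow_succ, ih, ← pow_two, hsq]
  cases n with
  | zero =>
    rw [pow_zero, Ideal.one_eq_top, Ideal.zero_eq_bot] at hn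
    exact le_bot_iff.1 (le_top.trans hn.le)
  | succ n => rw [← hpow n, hn, Ideal.zero_eq_bot]

/-- The set of rational points is finite (Dedekind). -/
theorem finite_points (K H : Type*) [Field K] [CommRing H] [Algebra K H] [Module.Finite K H] :
    Finite (H →ₐ[K] K) :=
  (linearIndependent_toLinearMap K H K).finite

/-- **Cartier, counting form**: over an algebraically closed field of characteristic `0` a
finite-dimensional commutative Hopf algebra has exactly `dim H` rational points. -/
theorem card_points (K H : Type*) [Field K] [IsAlgClosed K] [CharZero K] [CommRing H]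
    [HopfAlgebra K H] [Module.Finite K H] : Nat.card (H →ₐ[K] K) = Module.finrank K H := by
  have hli := linearIndependent_toLinearMap K H K
  have : Finite (H →ₐ[K] K) := finite_points K H
  let _ : Fintype (H →ₐ[K] K) := Fintype.ofFinite _
  rw [Nat.card_eq_fintype_card]
  apply le_antisymm
  · calc Fintype.card (H →ₐ[K] K) ≤ Module.finrank K (H →ₗ[K] K) := hli.fintype_card_le_finrank
      _ = Module.finrank K H := Subspace.dual_finrank_eq
  · let ev : H →ₗ[K] ((H →ₐ[K] K) → K) := LinearMap.pi fun g => g.toLinearMap
    have hinj : Function.Injective ev := by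
      rw [← LinearMap.ker_eq_bot, Submodule.eq_bot_iff]
      intro a ha
      have hred := isReduced_of_isAlgClosed K H
      have : IsArtinianRing H := IsArtinianRing.of_finite K H
      have hmem : a ∈ nilradical H := by
        rw [IsArtinianRing.nilradical_eq_iInf, Ideal.mem_iInf]
        intro I
        obtain ⟨g, hg⟩ := exists_point_of_isMaximal (K := K) I.asIdeal
        rw [← hg, RingHom.mem_ker]
        exact congrFun (LinearMap.mem_ker.1 ha) g
      rw [nilradical_eq_bot_iff.2 hred] at hmem
      exact hmem
    calc Module.finrank K H ≤ Module.finrank K ((H →ₐ[K] K) → K) :=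
          LinearMap.finrank_le_finrank_of_injective hinj
      _ = Fintype.card (H →ₐ[K] K) := Module.finrank_fintype_fun_eq_card K

end AlgClosedHopf

section BaseChange

/-- `R`-algebra homs `H → K` are the `K`-points of the base change `K ⊗[R] H`. -/
noncomputable def pointsEquiv (R K H : Type*) [CommRing R] [CommRing K] [Algebra R K]
    [CommRing H] [Algebra R H] : (H →ₐ[R] K) ≃ (K ⊗[R] H →ₐ[K] K) where
  toFun g := Algebra.TensorProduct.lift (AlgHom.id K K) g (fun _ _ => Commute.all _ _)
  invFun G := (G.restrictScalars R).comp Algebra.TensorProduct.includeRight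
  left_inv g := Algebra.TensorProduct.lift_comp_includeRight _ _ _
  right_inv G := by
    apply Algebra.TensorProduct.ext
    · ext
    · rw [Algebra.TensorProduct.lift_comp_includeRight]

/-- **Cartier over a base**: `R → K` with `K` algebraically closed of characteristic `0`, `H` a
commutative Hopf algebra over `R`, finite and free as a module: the number of `R`-algebra homs
`H → K` is the rank of `H`. -/
theorem card_points_base (R K H : Type*) [CommRing R] [Field K] [IsAlgClosed K] [CharZero K]
    [Algebra R K] [CommRing H] [HopfAlgebra R H] [Module.Finite R H] [Module.Free R H] :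
    Nat.card (H →ₐ[R] K) = Module.finrank R H := by
  have : Nontrivial R := (algebraMap R K).domain_nontrivial
  rw [Nat.card_congr (pointsEquiv R K H), card_points K (K ⊗[R] H), Module.finrank_baseChange]

/-- Finiteness of the set of points over a base (no Hopf structure needed). -/
theorem finite_points_base (R K H : Type*) [CommRing R] [Field K] [Algebra R K] [CommRing H]
    [Algebra R H] [Module.Finite R H] : Finite (H →ₐ[R] K) :=
  have := finite_points K (K ⊗[R] H)
  Finite.of_equiv _ (pointsEquiv R K H).symm

/-- **Cartier over a base, spanning form**: the points span `Hom_R(H, K)` over `K`. -/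
theorem span_points_base (R K H : Type*) [CommRing R] [Field K] [IsAlgClosed K] [CharZero K]
    [Algebra R K] [CommRing H] [HopfAlgebra R H] [Module.Finite R H] [Module.Free R H] :
    Submodule.span K (Set.range (AlgHom.toLinearMap : (H →ₐ[R] K) → H →ₗ[R] K)) = ⊤ := by
  have : Nontrivial R := (algebraMap R K).domain_nontrivial
  have hli := linearIndependent_toLinearMap R H K
  have : Finite (H →ₐ[R] K) := finite_points_base R K H
  let _ : Fintype (H →ₐ[R] K) := Fintype.ofFinite _
  refine hli.span_eq_top_of_card_eq_finrank' ?_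
  rw [← Nat.card_eq_fintype_card, card_points_base R K H, Module.finrank_linearMap R K H K,
    Module.finrank_self, mul_one]

/-- The points are a `K`-basis of `Hom_R(H, K)`. -/
noncomputable def pointsBasis (R K H : Type*) [CommRing R] [Field K] [IsAlgClosed K] [CharZero K]
    [Algebra R K] [CommRing H] [HopfAlgebra R H] [Module.Finite R H] [Module.Free R H] :
    Module.Basis (H →ₐ[R] K) K (H →ₗ[R] K) :=
  Module.Basis.mk (linearIndependent_toLinearMap R H K) (span_points_base R K H).ge

@[simp]
theorem pointsBasis_apply (R K H : Type*) [CommRing R] [Field K] [IsAlgClosed K] [CharZero K]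
    [Algebra R K] [CommRing H] [HopfAlgebra R H] [Module.Finite R H] [Module.Free R H]
    (g : H →ₐ[R] K) : pointsBasis R K H g = g.toLinearMap := by
  simp [pointsBasis]

/-- **Cartier's theorem** (finite-dimensional case): a finite-dimensional commutative Hopf algebra
over a field of characteristic `0` is reduced. -/
theorem isReduced (F H : Type*) [Field F] [CharZero F] [CommRing H] [HopfAlgebra F H]
    [Module.Finite F H] : IsReduced H := by
  have : CharZero (AlgebraicClosure F) := charZero_of_injective_algebraMap
    (algebraMap F (AlgebraicClosure F)).injective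
  have : IsReduced (AlgebraicClosure F ⊗[F] H) :=
    isReduced_of_isAlgClosed (AlgebraicClosure F) (AlgebraicClosure F ⊗[F] H)
  exact isReduced_of_injective
    (Algebra.TensorProduct.includeRight : H →ₐ[F] AlgebraicClosure F ⊗[F] H)
    (Algebra.TensorProduct.includeRight_injective (algebraMap F (AlgebraicClosure F)).injective)

end BaseChange

end Fermat.Agent.GP.Flat.Cartier
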