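/-
GATE-P (S56) / [P-FLAT] addendum to S56-FLAT-CARTIER (helper65): the convolution algebra
`Hom_R(H, K)` is the GROUP ALGEBRA `K[Γ]` of the group of points `Γ = Hom_{R-alg}(H, K)`; hence
every character `ψ : Γ →* K` gives a `K`-algebra hom `ev_ψ : Hom_R(H, K) → K` with
`ev_ψ (g) = ψ g` on points ("Fourier function model").
-/
import Fermat.Agent.GP.Flat.Cartier

set_option autoImplicit false

namespace Fermat.Agent.GP.Flat.Cartier

open Coalgebra Bialgebra HopfAlgebra TensorProduct WithConv

section GroupAlg

variable (R K H : Type*) [CommRing R] [Field K] [Algebra R K] [CommRing H] [Bialgebra R H]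

/-- Points, as a multiplicative monoid under convolution, inside the convolution algebra of all
linear maps. -/
noncomputable def pointsMonoidHom : WithConv (H →ₐ[R] K) →* WithConv (H →ₗ[R] K) where
  toFun g := toConv g.ofConv.toLinearMap
  map_one' := AlgHom.toLinearMap_convOne
  map_mul' f g := AlgHom.toLinearMap_convMul f g

@[simp]
theorem pointsMonoidHom_apply (g : WithConv (H →ₐ[R] K)) :
    pointsMonoidHom R K H g = toConv g.ofConv.toLinearMap := rfl

/-- The canonical algebra map `K[Γ] → Hom_R(H, K)` (convolution algebra). -/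
noncomputable def groupAlgHom :
    MonoidAlgebra K (WithConv (H →ₐ[R] K)) →ₐ[K] WithConv (H →ₗ[R] K) :=
  MonoidAlgebra.lift K (WithConv (H →ₗ[R] K)) (WithConv (H →ₐ[R] K)) (pointsMonoidHom R K H)

@[simp]
theorem groupAlgHom_single (g : WithConv (H →ₐ[R] K)) (c : K) :
    groupAlgHom R K H (MonoidAlgebra.single g c) = c • toConv g.ofConv.toLinearMap := by
  simp [groupAlgHom, MonoidAlgebra.lift_single]

end GroupAlg

section Equiv

variable (R K H : Type*) [CommRing R] [Field K] [IsAlgClosed K] [CharZero K] [Algebra R K]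
  [CommRing H] [HopfAlgebra R H] [Module.Finite R H] [Module.Free R H]

/-- The points as a `K`-basis of the convolution algebra `WithConv (H →ₗ[R] K)`, indexed by the
convolution monoid of points. -/
noncomputable def convPointsBasis :
    Module.Basis (WithConv (H →ₐ[R] K)) K (WithConv (H →ₗ[R] K)) :=
  ((pointsBasis R K H).map (WithConv.linearEquiv K (H →ₗ[R] K)).symm).reindex
    (WithConv.equiv (H →ₐ[R] K)).symm

@[simp]
theorem convPointsBasis_apply (g : WithConv (H →ₐ[R] K)) :
    convPointsBasis R K H g = toConv g.ofConv.toLinearMap := by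
  simp [convPointsBasis]

theorem groupAlgHom_bijective : Function.Bijective (groupAlgHom R K H) := by
  have h : (groupAlgHom R K H).toLinearMap =
      ((MonoidAlgebra.basis (WithConv (H →ₐ[R] K)) K).equiv (convPointsBasis R K H)
        (Equiv.refl _)).toLinearMap := by
    refine (MonoidAlgebra.basis (WithConv (H →ₐ[R] K)) K).ext fun g => ?_
    rw [LinearEquiv.coe_coe, Module.Basis.equiv_apply, Equiv.refl_apply, convPointsBasis_apply,
      MonoidAlgebra.basis_apply, AlgHom.toLinearMap_apply, groupAlgHom_single, one_smul]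
  have h2 : ⇑(groupAlgHom R K H) = ⇑((MonoidAlgebra.basis (WithConv (H →ₐ[R] K)) K).equiv
      (convPointsBasis R K H) (Equiv.refl _)) := by
    funext x
    exact congrArg (fun f : _ →ₗ[K] _ => f x) h
  rw [h2]
  exact LinearEquiv.bijective _

/-- **Cartier, group-algebra form**: `K[Γ] ≃ₐ[K] Hom_R(H, K)` (convolution), `Γ` the points. -/
noncomputable def groupAlgEquiv :
    MonoidAlgebra K (WithConv (H →ₐ[R] K)) ≃ₐ[K] WithConv (H →ₗ[R] K) :=
  AlgEquiv.ofBijective (groupAlgHom R K H) (groupAlgHom_bijective R K H)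

@[simp]
theorem groupAlgEquiv_single (g : WithConv (H →ₐ[R] K)) (c : K) :
    groupAlgEquiv R K H (MonoidAlgebra.single g c) = c • toConv g.ofConv.toLinearMap :=
  groupAlgHom_single R K H g c

@[simp]
theorem groupAlgEquiv_symm_point (g : WithConv (H →ₐ[R] K)) :
    (groupAlgEquiv R K H).symm (toConv g.ofConv.toLinearMap) = MonoidAlgebra.single g 1 := by
  rw [AlgEquiv.symm_apply_eq, groupAlgEquiv_single, one_smul]

/-- The Fourier evaluation at a character `ψ : Γ →* K`: a `K`-algebra hom
`Hom_R(H, K) → K` (convolution product on the source) with `ev_ψ g = ψ g` on points. -/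
noncomputable def evChar (ψ : WithConv (H →ₐ[R] K) →* K) : WithConv (H →ₗ[R] K) →ₐ[K] K :=
  (MonoidAlgebra.lift K K (WithConv (H →ₐ[R] K)) ψ).comp (groupAlgEquiv R K H).symm

@[simp]
theorem evChar_point (ψ : WithConv (H →ₐ[R] K) →* K) (g : WithConv (H →ₐ[R] K)) :
    evChar R K H ψ (toConv g.ofConv.toLinearMap) = ψ g := by
  simp [evChar, MonoidAlgebra.lift_single]

/-- Fourier expansion: every `f ∈ Hom_R(H, K)` is `∑_g c_g • g`, and `ev_ψ f = ∑_g c_g ψ(g)`. -/
theorem evChar_eq_sum [Fintype (WithConv (H →ₐ[R] K))] (ψ : WithConv (H →ₐ[R] K) →* K)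
    (f : WithConv (H →ₗ[R] K)) :
    evChar R K H ψ f = ∑ g, (convPointsBasis R K H).repr f g * ψ g := by
  conv_lhs => rw [← (convPointsBasis R K H).sum_repr f]
  simp [map_sum]

/-- The characters separate `Hom_R(H, K)` as soon as they separate `K[Γ]`; in particular the
trivial evaluation `ev_1 f = f 1`. -/
theorem evChar_one (f : WithConv (H →ₗ[R] K)) :
    evChar R K H 1 f = f.ofConv 1 := by
  have : Finite (H →ₐ[R] K) := finite_points_base R K H
  have : Finite (WithConv (H →ₐ[R] K)) := Finite.of_equiv _ (WithConv.equiv _).symm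
  let _ : Fintype (WithConv (H →ₐ[R] K)) := Fintype.ofFinite _
  rw [evChar_eq_sum]
  conv_rhs => rw [← (convPointsBasis R K H).sum_repr f]
  simp

end Equiv

end Fermat.Agent.GP.Flat.Cartier
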