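import Mathlib

set_option linter.unusedSectionVars false
set_option linter.style.haveILetI false

namespace Fermat.Agent.GP.Flat.GroupBasis

open Finset

section Eval

variable {K : Type*} [Field K] {S : Type*} [CommMonoid S] {Λ : Type*} [CommRing Λ] [Algebra K Λ]

/-- a basis of group-like elements: `b s * b t = b (s t)`, `b 1 = 1`. -/
structure IsGroupBasis (b : Module.Basis S K Λ) : Prop where
  mul : ∀ s t, b s * b t = b (s * t)
  one : b 1 = 1

variable {b : Module.Basis S K Λ}

theorem IsGroupBasis.constr_mul (hb : IsGroupBasis b) (χ : S →* K) (x y : Λ) :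
    b.constr K (fun s => χ s) (x * y) = b.constr K (fun s => χ s) x * b.constr K (fun s => χ s) y := by
  set f : Λ →ₗ[K] K := b.constr K (fun s => χ s) with hf
  have hfb : ∀ s, f (b s) = χ s := fun s => by rw [hf, Module.Basis.constr_basis]
  -- step 1: left factor a basis vector
  have h1 : ∀ s y, f (b s * y) = χ s * f y := by
    intro s y
    have : f ∘ₗ LinearMap.mulLeft K (b s) = LinearMap.mulLeft K (χ s) ∘ₗ f := by
      apply b.ext
      intro t
      simp only [LinearMap.comp_apply, LinearMap.mulLeft_apply, hb.mul, hfb, map_mul]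
    exact LinearMap.congr_fun this y
  have : f ∘ₗ LinearMap.mulRight K y = LinearMap.mulRight K (f y) ∘ₗ f := by
    apply b.ext
    intro s
    simp only [LinearMap.comp_apply, LinearMap.mulRight_apply, h1, hfb]
  exact LinearMap.congr_fun this x

/-- evaluation at the character `χ`: the algebra hom `Λ → K` with `b s ↦ χ s`. -/
noncomputable def evalChar (hb : IsGroupBasis b) (χ : S →* K) : Λ →ₐ[K] K :=
  AlgHom.ofLinearMap (b.constr K (fun s => χ s))
    (by rw [← hb.one, Module.Basis.constr_basis, map_one]) (hb.constr_mul χ)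

@[simp]
theorem evalChar_basis (hb : IsGroupBasis b) (χ : S →* K) (s : S) : evalChar hb χ (b s) = χ s := by
  simp [evalChar]

theorem evalChar_apply (hb : IsGroupBasis b) (χ : S →* K) (x : Λ) [Fintype S] :
    evalChar hb χ x = ∑ s, b.repr x s * χ s := by
  conv_lhs => rw [← b.sum_repr x]
  simp [map_sum, Algebra.smul_def]

end Eval

section Fourier

open scoped Classical

variable {K : Type*} [Field K] {S : Type*} [CommMonoid S] [Fintype S]
  [HasEnoughRootsOfUnity K (Monoid.exponent S)]

/-- the dual of a finite commutative monoid all of whose elements are units is finite. -/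
theorem finite_dual (hS : ∀ s : S, IsUnit s) : Finite (S →* Kˣ) := by
  letI : CommGroup S := commGroupOfIsUnit hS
  exact Finite.of_equiv S
    (CommGroup.monoidHom_mulEquiv_of_hasEnoughRootsOfUnity S K).some.symm.toEquiv

/-- a character as a monoid hom to `K`. -/
def toK (ψ : S →* Kˣ) : S →* K := (Units.coeHom K).comp ψ

@[simp] theorem toK_apply (ψ : S →* Kˣ) (s : S) : toK ψ s = (ψ s : K) := rfl

variable [Fintype (S →* Kˣ)]

theorem sum_char (hS : ∀ s : S, IsUnit s) (ψ : S →* Kˣ) :
    ∑ s, (ψ s : K) = if ψ = 1 then (Fintype.card S : K) else 0 := by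
  letI : CommGroup S := commGroupOfIsUnit hS
  split_ifs with h
  · subst h
    simp
  · have : toK ψ ≠ 1 := by
      intro h1
      apply h
      ext s
      have := DFunLike.congr_fun h1 s
      simpa using this
    exact sum_hom_units_eq_zero (toK ψ) this

theorem sum_dual (hS : ∀ s : S, IsUnit s) (s : S) :
    ∑ ψ : S →* Kˣ, (ψ s : K) = if s = 1 then (Fintype.card (S →* Kˣ) : K) else 0 := by
  letI : CommGroup S := commGroupOfIsUnit hS
  split_ifs with h
  · subst h
    simp
  · obtain ⟨φ, hφ⟩ := CommGroup.exists_apply_ne_one_of_hasEnoughRootsOfUnity S K h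
    let e : (S →* Kˣ) →* K := (Units.coeHom K).comp (MonoidHom.eval s)
    have he : e ≠ 1 := by
      intro h1
      apply hφ
      have := DFunLike.congr_fun h1 φ
      simpa [e] using this
    exact sum_hom_units_eq_zero e he

theorem sum_char_mul_inv (hS : ∀ s : S, IsUnit s) (ψ ψ' : S →* Kˣ) :
    ∑ s, (ψ s : K) * ((ψ' s)⁻¹ : Kˣ) = if ψ = ψ' then (Fintype.card S : K) else 0 := by
  have := sum_char hS (ψ * ψ'⁻¹)
  simp only [MonoidHom.mul_apply, MonoidHom.inv_apply, Units.val_mul] at this
  have hiff : (ψ * ψ'⁻¹ = 1) ↔ ψ = ψ' := by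
    constructor
    · intro h
      ext s
      have h1 := DFunLike.congr_fun h s
      simp only [MonoidHom.mul_apply, MonoidHom.inv_apply, MonoidHom.one_apply] at h1
      rw [mul_inv_eq_one.mp h1]
    · rintro rfl
      ext s
      simp
  rw [this]
  simp only [hiff]

theorem sum_dual_mul_inv (hS : ∀ s : S, IsUnit s) (s t : S) :
    ∑ ψ : S →* Kˣ, (ψ s : K) * ((ψ t)⁻¹ : Kˣ)
      = if s = t then (Fintype.card (S →* Kˣ) : K) else 0 := by
  obtain ⟨u, hu⟩ := (hS t).exists_left_inv
  have := sum_dual (K := K) hS (s * u)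
  have e1 : ∀ ψ : S →* Kˣ, ((ψ (s * u) : Kˣ) : K) = (ψ s : K) * ((ψ t)⁻¹ : Kˣ) := by
    intro ψ
    have h1 : ψ u * ψ t = 1 := by rw [← map_mul, hu, map_one]
    have h2 : ψ u = (ψ t)⁻¹ := eq_inv_of_mul_eq_one_left h1
    rw [map_mul, Units.val_mul, h2]
  simp_rw [e1] at this
  rw [this]
  have hiff : s * u = 1 ↔ s = t := by
    constructor
    · intro h
      calc s = s * (u * t) := by rw [hu, mul_one]
        _ = (s * u) * t := (mul_assoc _ _ _).symm
        _ = t := by rw [h, one_mul]
    · rintro rfl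
      rw [mul_comm]; exact hu
  simp only [hiff]

end Fourier

section Model

open scoped Classical

variable {K : Type*} [Field K] [CharZero K] {S : Type*} [CommMonoid S] [Fintype S]
  [HasEnoughRootsOfUnity K (Monoid.exponent S)] [Fintype (S →* Kˣ)]
  {Λ : Type*} [CommRing Λ] [Algebra K Λ] {b : Module.Basis S K Λ}

/-- **injectivity** of the Fourier evaluation. -/
theorem eq_zero_of_evalChar_eq_zero (hS : ∀ s : S, IsUnit s) (hb : IsGroupBasis b) {x : Λ}
    (hx : ∀ ψ : S →* Kˣ, evalChar hb (toK ψ) x = 0) : x = 0 := by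
  have hc : ∀ t, b.repr x t = 0 := by
    intro t
    have h1 : ∑ ψ : S →* Kˣ, (∑ s, b.repr x s * (ψ s : K)) * ((ψ t)⁻¹ : Kˣ) = 0 := by
      apply Finset.sum_eq_zero
      intro ψ _
      have := hx ψ
      rw [evalChar_apply] at this
      simp only [toK_apply] at this
      rw [this, zero_mul]
    have h2 : ∑ ψ : S →* Kˣ, (∑ s, b.repr x s * (ψ s : K)) * ((ψ t)⁻¹ : Kˣ)
        = (Fintype.card (S →* Kˣ) : K) * b.repr x t := by
      simp_rw [Finset.sum_mul]
      rw [Finset.sum_comm]
      simp_rw [mul_assoc, ← Finset.mul_sum, sum_dual_mul_inv hS]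
      simp [mul_comm]
    rw [h2] at h1
    rcases mul_eq_zero.mp h1 with h | h
    · exact absurd h (by exact_mod_cast Fintype.card_ne_zero)
    · exact h
  apply b.repr.injective
  ext t
  simp [hc t]

/-- **absorbing**: `#S · φ` is the Fourier image of the explicit element `∑ s, c s • b s`,
`c s = ∑ ψ, φ ψ · ψ(s)⁻¹`. -/
theorem evalChar_fourierInv (hS : ∀ s : S, IsUnit s) (hb : IsGroupBasis b)
    (φ : (S →* Kˣ) → K) (ψ : S →* Kˣ) :
    evalChar hb (toK ψ) (∑ s, (∑ ψ' : S →* Kˣ, φ ψ' * ((ψ' s)⁻¹ : Kˣ)) • b s)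
      = (Fintype.card S : K) * φ ψ := by
  simp only [map_sum, map_smul, evalChar_basis, toK_apply, smul_eq_mul]
  simp_rw [Finset.sum_mul]
  rw [Finset.sum_comm]
  have : ∀ ψ' : S →* Kˣ, ∑ s, φ ψ' * ((ψ' s)⁻¹ : Kˣ) * (ψ s : K)
      = φ ψ' * (if ψ = ψ' then (Fintype.card S : K) else 0) := by
    intro ψ'
    rw [← sum_char_mul_inv hS ψ ψ', Finset.mul_sum]
    apply Finset.sum_congr rfl
    intro s _
    ring
  simp_rw [this]
  simp [mul_comm]

end Model

end Fermat.Agent.GP.Flat.GroupBasis
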