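/-
GATE-P (S56) / [P-FLAT] bridge (helper65): the basis of points `Cartier.convPointsBasis` of the
convolution algebra `Hom_R(H, K)` is a GROUP BASIS in the sense of helper15's
`GroupBasis.IsGroupBasis`, and every point is a unit of the convolution monoid of points.  So all
of `GP/Flat/GroupBasis.lean` (evalChar, Fourier orthogonality, `eq_zero_of_evalChar_eq_zero`,
`evalChar_fourierInv`) applies to `S := WithConv (H →ₐ[R] K)`, `Λ := WithConv (H →ₗ[R] K)`.
-/
import Fermat.Agent.GP.Flat.CartierGroupAlg
import Fermat.Agent.GP.Flat.GroupBasis
import Fermat.Agent.GP.Flat.SeparatedHopf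

set_option autoImplicit false

namespace Fermat.Agent.GP.Flat.Cartier

open Coalgebra Bialgebra HopfAlgebra TensorProduct WithConv

section Bridge

variable (R K H : Type*) [CommRing R] [Field K] [IsAlgClosed K] [CharZero K] [Algebra R K]
  [CommRing H] [HopfAlgebra R H] [Module.Finite R H] [Module.Free R H] [Coalgebra.IsCocomm R H]

/-- The points form a group basis of the (commutative) convolution algebra. -/
theorem isGroupBasis_convPointsBasis :
    GroupBasis.IsGroupBasis (convPointsBasis R K H) where
  mul s t := by
    rw [convPointsBasis_apply, convPointsBasis_apply, convPointsBasis_apply,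
      AlgHom.toLinearMap_convMul]
  one := by
    rw [convPointsBasis_apply, AlgHom.toLinearMap_convOne]

omit [IsAlgClosed K] [CharZero K] [Module.Finite R H] [Module.Free R H] in
/-- Every point is a unit of the convolution monoid of points. -/
theorem isUnit_point (f : WithConv (H →ₐ[R] K)) : IsUnit f :=
  IsUnit.of_mul_eq_one (SeparatedHopf.pinv f)
    (by rw [mul_comm]; exact SeparatedHopf.pinv_mul_cancel f)

/-- `evalChar` of `GroupBasis` for the basis of points is the `evChar` of `CartierGroupAlg`. -/
theorem evalChar_eq_evChar (ψ : WithConv (H →ₐ[R] K) →* K) :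
    GroupBasis.evalChar (isGroupBasis_convPointsBasis R K H) ψ = evChar R K H ψ := by
  apply AlgHom.toLinearMap_injective
  refine (convPointsBasis R K H).ext fun g => ?_
  rw [AlgHom.toLinearMap_apply, AlgHom.toLinearMap_apply, GroupBasis.evalChar_basis,
    convPointsBasis_apply, evChar_point]

end Bridge

end Fermat.Agent.GP.Flat.Cartier
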