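/-
GATE-P (S56) / [P-FLAT] addendum 2 to S56-FLAT-CARTIER (helper65): INTEGRALITY of the Fourier
evaluations.  `A ⊆ K` integrally closed with fraction field `K` (e.g. a valuation ring of `Qb`),
`R → A → K`.  The `A`-valued linear maps `Λ₁ = Hom_R(H, A) ⊆ Hom_R(H, K)` form an `A`-subalgebra of
the convolution algebra which is a finite `A`-module, so its elements are integral over `A`, and every
`K`-algebra character of the convolution algebra (e.g. `evChar ψ`) maps `Λ₁` into `A`.
-/
import Fermat.Agent.GP.Flat.CartierGroupAlg

set_option autoImplicit false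

namespace Fermat.Agent.GP.Flat.Cartier

open Coalgebra Bialgebra HopfAlgebra TensorProduct WithConv

section Integral

variable (R K H : Type*) [CommRing R] [Field K] [Algebra R K] [CommRing H] [Bialgebra R H]
  (A : Type*) [CommRing A] [Algebra A K] [Algebra R A] [IsScalarTower R A K]

instance isScalarTower_conv : IsScalarTower A K (WithConv (H →ₗ[R] K)) :=
  ⟨fun a k f => by
    ext h
    simp [smul_assoc]⟩

/-- The `A`-subalgebra of the convolution algebra consisting of the `A`-valued linear maps. -/
def integralSub : Subalgebra A (WithConv (H →ₗ[R] K)) where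
  carrier := {f | ∀ h, f.ofConv h ∈ (algebraMap A K).range}
  mul_mem' := by
    intro f g hf hg h
    rw [(ℛ R h).convMul_apply]
    exact Subring.sum_mem _ fun i _ => Subring.mul_mem _ (hf _) (hg _)
  one_mem' := by
    intro h
    refine ⟨algebraMap R A (counit h), ?_⟩
    rw [← IsScalarTower.algebraMap_apply]
    rfl
  add_mem' := by
    intro f g hf hg h
    exact Subring.add_mem _ (hf h) (hg h)
  zero_mem' := fun h => Subring.zero_mem _
  algebraMap_mem' := by
    intro a h
    refine ⟨a * algebraMap R A (counit h), ?_⟩
    rw [map_mul, ← IsScalarTower.algebraMap_apply, LinearMap.convAlgebraMap_apply,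
      Algebra.smul_def]

theorem mem_integralSub {f : WithConv (H →ₗ[R] K)} :
    f ∈ integralSub R K H A ↔ ∀ h, f.ofConv h ∈ (algebraMap A K).range := Iff.rfl

/-- `Hom_R(H, A) → Hom_R(H, K)`, `A`-linear. -/
def toK : (H →ₗ[R] A) →ₗ[A] WithConv (H →ₗ[R] K) where
  toFun φ := toConv ((IsScalarTower.toAlgHom R A K).toLinearMap ∘ₗ φ)
  map_add' φ φ' := by
    ext h
    simp
  map_smul' a φ := by
    ext h
    show algebraMap A K ((a • φ) h) = a • algebraMap A K (φ h)
    rw [LinearMap.smul_apply, smul_eq_mul, map_mul, Algebra.smul_def]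

@[simp]
theorem toK_apply (φ : H →ₗ[R] A) (h : H) : (toK R K H A φ).ofConv h = algebraMap A K (φ h) := rfl

theorem range_toK (hinj : Function.Injective (algebraMap A K)) :
    LinearMap.range (toK R K H A) = Subalgebra.toSubmodule (integralSub R K H A) := by
  apply le_antisymm
  · rintro _ ⟨φ, rfl⟩ h
    exact ⟨φ h, rfl⟩
  · intro f hf
    let ι : A →ₗ[R] K := (IsScalarTower.toAlgHom R A K).toLinearMap
    have hι : Function.Injective ι := hinj
    let e : A ≃ₗ[R] LinearMap.range ι := LinearEquiv.ofInjective ι hι
    let φ : H →ₗ[R] A := e.symm.toLinearMap ∘ₗ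
      (f.ofConv.codRestrict (LinearMap.range ι) (fun h => by
        obtain ⟨a, ha⟩ := hf h
        exact ⟨a, ha⟩))
    refine ⟨φ, ?_⟩
    ext h
    rw [toK_apply]
    have h1 : ι (e.symm ⟨f.ofConv h, by obtain ⟨a, ha⟩ := hf h; exact ⟨a, ha⟩⟩) = f.ofConv h := by
      have := e.apply_symm_apply ⟨f.ofConv h, by obtain ⟨a, ha⟩ := hf h; exact ⟨a, ha⟩⟩
      exact congrArg Subtype.val this
    exact h1

variable [Module.Finite R H] [Module.Free R H]

theorem integralSub_fg (hinj : Function.Injective (algebraMap A K)) :
    (Subalgebra.toSubmodule (integralSub R K H A)).FG := by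
  rw [← range_toK R K H A hinj, LinearMap.range_eq_map]
  have : Module.Finite A (H →ₗ[R] A) := Module.Finite.linearMap R A H A
  exact Submodule.FG.map _ Module.Finite.fg_top

/-- Every `A`-valued element of the convolution algebra is integral over `A`. -/
theorem isIntegral_of_mem_integralSub (hinj : Function.Injective (algebraMap A K))
    {f : WithConv (H →ₗ[R] K)} (hf : f ∈ integralSub R K H A) : IsIntegral A f :=
  IsIntegral.of_mem_of_fg (integralSub R K H A) (integralSub_fg R K H A hinj) f hf

/-- **Integrality of characters**: if `A` is integrally closed with fraction field `K`, every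
`K`-algebra hom `χ : Hom_R(H, K) → K` (convolution algebra) maps `A`-valued linear maps into `A`. -/
theorem algHom_mem_range_of_forall_mem [IsDomain A] [IsIntegrallyClosed A] [IsFractionRing A K]
    (χ : WithConv (H →ₗ[R] K) →ₐ[K] K) {f : WithConv (H →ₗ[R] K)}
    (hf : ∀ h, f.ofConv h ∈ (algebraMap A K).range) : χ f ∈ (algebraMap A K).range := by
  have hinj : Function.Injective (algebraMap A K) := IsFractionRing.injective A K
  have h1 : IsIntegral A f := isIntegral_of_mem_integralSub R K H A hinj hf
  have h2 : IsIntegral A (χ f) := h1.map (χ.restrictScalars A)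
  exact IsIntegrallyClosed.isIntegral_iff.1 h2

end Integral

section Valuation

variable (R K H : Type*) [CommRing R] [Field K] [Algebra R K] [CommRing H] [Bialgebra R H]
  [Module.Finite R H] [Module.Free R H]

/-- **Integrality of characters, valuation-ring form**: `A` a valuation subring of `K` containing
the image of `R`; every `K`-algebra hom from the convolution algebra `Hom_R(H, K)` to `K` maps
`A`-valued linear maps into `A`. -/
theorem algHom_mem_valuationSubring (A : ValuationSubring K)
    (hint : ∀ r : R, algebraMap R K r ∈ A) (χ : WithConv (H →ₗ[R] K) →ₐ[K] K)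
    {f : WithConv (H →ₗ[R] K)} (hf : ∀ h, f.ofConv h ∈ A) : χ f ∈ A := by
  let _ : Algebra R A := ((algebraMap R K).codRestrict A.toSubring hint).toAlgebra
  have : IsScalarTower R A K := IsScalarTower.of_algebraMap_eq fun r => rfl
  obtain ⟨y, hy⟩ := algHom_mem_range_of_forall_mem R K H A χ (f := f)
    (fun h => ⟨⟨f.ofConv h, hf h⟩, rfl⟩)
  rw [← hy]
  exact y.2

/-- The same for the values of a convolution product etc. is automatic; here the special case of
the Fourier evaluations `evChar ψ`. -/
theorem evChar_mem_valuationSubring [IsAlgClosed K] [CharZero K] {H' : Type*} [CommRing H']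
    [HopfAlgebra R H'] [Module.Finite R H'] [Module.Free R H'] (A : ValuationSubring K)
    (hint : ∀ r : R, algebraMap R K r ∈ A) (ψ : WithConv (H' →ₐ[R] K) →* K)
    {f : WithConv (H' →ₗ[R] K)} (hf : ∀ h, f.ofConv h ∈ A) : evChar R K H' ψ f ∈ A :=
  algHom_mem_valuationSubring R K H' A hint (evChar R K H' ψ) hf

end Valuation

end Fermat.Agent.GP.Flat.Cartier
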