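/-
GATE-P (S56) / [P-FLAT] addendum 3 to S56-FLAT-CARTIER (helper65): points of `H ⊗ H` are PAIRS of
points of `H` (as convolution monoids); hence `Hom_R(H ⊗ H, K)` has the basis `g ⊗ g'` indexed by
`Γ × Γ`, a group basis, and the double Fourier evaluations `ev₂ (ψ, ψ')`.  Graph maps
`γ_j F = F ∘ (id ⊗ [j]) ∘ Δ` and the identity `ev₁ ψ (γ_j F) = ev₂ (ψ, ψ^j) F`.
-/
import Fermat.Agent.GP.Flat.CartierGroupAlg

set_option autoImplicit false

namespace Fermat.Agent.GP.Flat.Cartier

open Coalgebra Bialgebra HopfAlgebra TensorProduct WithConv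

section TensorPoints

variable (R K H : Type*) [CommRing R] [Field K] [Algebra R K] [CommRing H] [Bialgebra R H]

/-- The point `g ⊗ g'` of `H ⊗ H`. -/
noncomputable def tensorPoint (g g' : H →ₐ[R] K) : H ⊗[R] H →ₐ[R] K :=
  Algebra.TensorProduct.lift g g' (fun _ _ => Commute.all _ _)

@[simp]
theorem tensorPoint_tmul (g g' : H →ₐ[R] K) (a b : H) :
    tensorPoint R K H g g' (a ⊗ₜ b) = g a * g' b :=
  Algebra.TensorProduct.lift_tmul _ _ _ a b

theorem tensorPoint_mul (g₁ g₂ g₁' g₂' : WithConv (H →ₐ[R] K)) :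
    toConv (tensorPoint R K H (g₁ * g₂).ofConv (g₁' * g₂').ofConv) =
      toConv (tensorPoint R K H g₁.ofConv g₁'.ofConv) *
        toConv (tensorPoint R K H g₂.ofConv g₂'.ofConv) := by
  apply WithConv.ofConv_injective
  apply Algebra.TensorProduct.ext'
  intro a b
  have h1 : ∀ (f f' : WithConv (H →ₐ[R] K)) (c : H),
      (f * f').ofConv c = ∑ i ∈ (ℛ R c).index, f.ofConv ((ℛ R c).left i) *
        f'.ofConv ((ℛ R c).right i) := by
    intro f f' c
    have := (ℛ R c).convMul_apply (toConv f.ofConv.toLinearMap) (toConv f'.ofConv.toLinearMap)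
    rw [← AlgHom.toLinearMap_convMul] at this
    exact this
  have h2 : (toConv (tensorPoint R K H g₁.ofConv g₁'.ofConv) *
      toConv (tensorPoint R K H g₂.ofConv g₂'.ofConv)).ofConv (a ⊗ₜ b) =
      ∑ i ∈ ((ℛ R a).tmul (ℛ R b)).index,
        (tensorPoint R K H g₁.ofConv g₁'.ofConv) (((ℛ R a).tmul (ℛ R b)).left i) *
        (tensorPoint R K H g₂.ofConv g₂'.ofConv) (((ℛ R a).tmul (ℛ R b)).right i) := by
    have := ((ℛ R a).tmul (ℛ R b)).convMul_apply
      (toConv (tensorPoint R K H g₁.ofConv g₁'.ofConv).toLinearMap)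
      (toConv (tensorPoint R K H g₂.ofConv g₂'.ofConv).toLinearMap)
    rw [← AlgHom.toLinearMap_convMul] at this
    exact this
  rw [ofConv_toConv, tensorPoint_tmul, h1, h1, h2]
  simp only [Coalgebra.Repr.tmul_index, Coalgebra.Repr.tmul_left, Coalgebra.Repr.tmul_right,
    tensorPoint_tmul, Finset.sum_product, Finset.sum_mul_sum]
  refine Finset.sum_congr rfl fun i _ => Finset.sum_congr rfl fun j _ => ?_
  ring

theorem tensorPoint_one :
    toConv (tensorPoint R K H (1 : WithConv (H →ₐ[R] K)).ofConv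
      (1 : WithConv (H →ₐ[R] K)).ofConv) = 1 := by
  apply WithConv.ofConv_injective
  apply Algebra.TensorProduct.ext'
  intro a b
  rw [ofConv_toConv, tensorPoint_tmul, AlgHom.convOne_apply, AlgHom.convOne_apply,
    AlgHom.convOne_apply, TensorProduct.counit_tmul, ← map_mul, smul_eq_mul, mul_comm]

/-- Points of `H ⊗ H` are pairs of points of `H`, as convolution monoids. -/
noncomputable def tensorPointsEquiv :
    WithConv (H →ₐ[R] K) × WithConv (H →ₐ[R] K) ≃* WithConv (H ⊗[R] H →ₐ[R] K) where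
  toFun gg := toConv (tensorPoint R K H gg.1.ofConv gg.2.ofConv)
  invFun G := (toConv (G.ofConv.comp Algebra.TensorProduct.includeLeft),
    toConv (G.ofConv.comp Algebra.TensorProduct.includeRight))
  left_inv gg := by
    apply Prod.ext
    · apply WithConv.ofConv_injective
      ext a
      simp
    · apply WithConv.ofConv_injective
      ext a
      simp
  right_inv G := by
    apply WithConv.ofConv_injective
    apply Algebra.TensorProduct.ext'
    intro a b
    simp only [tensorPoint_tmul, AlgHom.comp_apply,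
      Algebra.TensorProduct.includeLeft_apply, Algebra.TensorProduct.includeRight_apply,
      ← map_mul, Algebra.TensorProduct.tmul_mul_tmul, mul_one, one_mul]
  map_mul' gg gg' := tensorPoint_mul R K H gg.1 gg'.1 gg.2 gg'.2

@[simp]
theorem tensorPointsEquiv_apply (gg : WithConv (H →ₐ[R] K) × WithConv (H →ₐ[R] K)) :
    tensorPointsEquiv R K H gg = toConv (tensorPoint R K H gg.1.ofConv gg.2.ofConv) := rfl

/-- The `j`-th power endomorphism `[j] : H → H` (convolution power of the identity). -/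
noncomputable def powHom (j : ℕ) : H →ₐ[R] H := ((toConv (AlgHom.id R H)) ^ j).ofConv

/-- Composition with an algebra hom commutes with convolution powers. -/
theorem comp_convPow {A B : Type*} [CommRing A] [CommRing B] [Algebra R A] [Algebra R B]
    (h : A →ₐ[R] B) (f : WithConv (H →ₐ[R] A)) (n : ℕ) :
    toConv (h.comp (f ^ n).ofConv) = (toConv (h.comp f.ofConv)) ^ n := by
  induction n with
  | zero =>
    rw [pow_zero, pow_zero]
    apply WithConv.ofConv_injective
    ext a
    simp
  | succ n ih =>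
    rw [pow_succ, pow_succ, ← ih]
    apply WithConv.ofConv_injective
    rw [ofConv_toConv, AlgHom.comp_convMul_distrib]

/-- A point composed with `[j]` is its `j`-th convolution power. -/
theorem comp_powHom (g : WithConv (H →ₐ[R] K)) (j : ℕ) :
    toConv (g.ofConv.comp (powHom R H j)) = g ^ j := by
  have := comp_convPow R H g.ofConv (toConv (AlgHom.id R H)) j
  rw [ofConv_toConv, AlgHom.comp_id, toConv_ofConv] at this
  exact this

/-- The graph `θ_j = (id ⊗ [j]) ∘ Δ : H → H ⊗ H` of `[j]`. -/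
noncomputable def graphHom (j : ℕ) : H →ₐ[R] H ⊗[R] H :=
  (Algebra.TensorProduct.map (AlgHom.id R H) (powHom R H j)).comp (comulAlgHom R H)

/-- `(g ⊗ g') ∘ θ_j = g * g'^j`. -/
theorem tensorPoint_comp_graphHom (g g' : WithConv (H →ₐ[R] K)) (j : ℕ) :
    toConv ((tensorPoint R K H g.ofConv g'.ofConv).comp (graphHom R H j)) = g * g' ^ j := by
  rw [← comp_powHom R K H g' j, AlgHom.convMul_def]
  apply WithConv.ofConv_injective
  rw [ofConv_toConv, ofConv_toConv, ofConv_toConv, graphHom, tensorPoint,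
    ← Algebra.TensorProduct.lmul'_comp_map, AlgHom.comp_assoc,
    ← AlgHom.comp_assoc (Algebra.TensorProduct.map g.ofConv g'.ofConv),
    ← Algebra.TensorProduct.map_comp, AlgHom.comp_id]

/-- The graph map `γ_j : Hom_R(H ⊗ H, K) → Hom_R(H, K)`, `F ↦ F ∘ (id ⊗ [j]) ∘ Δ`. -/
noncomputable def graphMap (j : ℕ) :
    WithConv (H ⊗[R] H →ₗ[R] K) →ₗ[K] WithConv (H →ₗ[R] K) where
  toFun F := toConv (F.ofConv ∘ₗ (graphHom R H j).toLinearMap)
  map_add' _ _ := rfl
  map_smul' _ _ := rfl

@[simp]
theorem graphMap_apply (j : ℕ) (F : WithConv (H ⊗[R] H →ₗ[R] K)) (a : H) :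
    (graphMap R K H j F).ofConv a = F.ofConv (graphHom R H j a) := rfl

theorem graphMap_point (g g' : WithConv (H →ₐ[R] K)) (j : ℕ) :
    graphMap R K H j (toConv (tensorPoint R K H g.ofConv g'.ofConv).toLinearMap) =
      toConv (g * g' ^ j).ofConv.toLinearMap := by
  rw [← tensorPoint_comp_graphHom R K H g g' j]
  rfl

end TensorPoints

section TensorBasis

variable (R K H : Type*) [CommRing R] [Field K] [IsAlgClosed K] [CharZero K] [Algebra R K]
  [CommRing H] [HopfAlgebra R H] [Module.Finite R H] [Module.Free R H]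

/-- The basis `g ⊗ g'` of `Hom_R(H ⊗ H, K)`, indexed by pairs of points. -/
noncomputable def tensorPointsBasis :
    Module.Basis (WithConv (H →ₐ[R] K) × WithConv (H →ₐ[R] K)) K
      (WithConv (H ⊗[R] H →ₗ[R] K)) :=
  (convPointsBasis R K (H ⊗[R] H)).reindex (tensorPointsEquiv R K H).symm.toEquiv

@[simp]
theorem tensorPointsBasis_apply (gg : WithConv (H →ₐ[R] K) × WithConv (H →ₐ[R] K)) :
    tensorPointsBasis R K H gg =
      toConv (tensorPoint R K H gg.1.ofConv gg.2.ofConv).toLinearMap := by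
  simp [tensorPointsBasis]

/-- The double Fourier evaluation `ev₂ (ψ, ψ')`. -/
noncomputable def evChar₂ (ψ ψ' : WithConv (H →ₐ[R] K) →* K) :
    WithConv (H ⊗[R] H →ₗ[R] K) →ₐ[K] K :=
  evChar R K (H ⊗[R] H) ((ψ.coprod ψ').comp (tensorPointsEquiv R K H).symm.toMonoidHom)

@[simp]
theorem evChar₂_point (ψ ψ' : WithConv (H →ₐ[R] K) →* K) (g g' : WithConv (H →ₐ[R] K)) :
    evChar₂ R K H ψ ψ' (toConv (tensorPoint R K H g.ofConv g'.ofConv).toLinearMap) =
      ψ g * ψ' g' := by
  have h2 := evChar_point R K (H ⊗[R] H)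
    ((ψ.coprod ψ').comp (tensorPointsEquiv R K H).symm.toMonoidHom)
    (tensorPointsEquiv R K H (g, g'))
  rw [MonoidHom.comp_apply, MulEquiv.coe_toMonoidHom, MulEquiv.symm_apply_apply,
    MonoidHom.coprod_apply] at h2
  exact h2

/-- **Graph-map identity**: `ev₁ ψ (γ_j F) = ev₂ (ψ, ψ^j) F`. -/
theorem evChar_graphMap (ψ : WithConv (H →ₐ[R] K) →* K) (j : ℕ)
    (F : WithConv (H ⊗[R] H →ₗ[R] K)) :
    evChar R K H ψ (graphMap R K H j F) = evChar₂ R K H ψ (ψ ^ j) F := by
  have h : (evChar R K H ψ).toLinearMap ∘ₗ graphMap R K H j =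
      (evChar₂ R K H ψ (ψ ^ j)).toLinearMap := by
    refine (tensorPointsBasis R K H).ext fun gg => ?_
    rw [LinearMap.comp_apply, tensorPointsBasis_apply, graphMap_point, AlgHom.toLinearMap_apply,
      AlgHom.toLinearMap_apply, evChar_point, evChar₂_point, map_mul, map_pow, MonoidHom.pow_apply]
  exact congrArg (fun f : _ →ₗ[K] K => f F) h

end TensorBasis

end Fermat.Agent.GP.Flat.Cartier
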