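/-
GATE-P (S56) / [P-FLAT] addendum 4 to S56-FLAT-CARTIER (helper65): the two identities of the
Fourier function model that turn "`y₀ : H → K` is multiplicative modulo `p w`" into the binder
`hy` of `Lift.exists_character_lift_ev`:

* `mulDual f = f ∘ mul'` (the comultiplication of the dual) and
  (I1) `evChar₂ ψ ψ' (mulDual f) = evChar (ψ * ψ') f`;
* `tmulDual f f' = (a ⊗ b ↦ f a * f' b)` and
  (I2) `evChar₂ ψ ψ' (tmulDual f f') = evChar ψ f * evChar ψ' f'`;
* (DEV) `evChar (ψ * ψ') f = evChar ψ f * evChar ψ' f + evChar₂ ψ ψ' (mulDual f - tmulDual f f)`;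
* (GB2) `tensorPointsBasis` is a group basis (for the product monoid `Γ × Γ`), and
  (INJ2) the family `evChar₂ (ψ, ψ')`, `ψ ψ' : Γ →* Kˣ`, is jointly injective; (INJ1) same for
  `evChar`.
-/
import Fermat.Agent.GP.Flat.CartierTensor
import Fermat.Agent.GP.Flat.CartierGroupBasis
import Fermat.Agent.GP.Flat.CartierIntegral

set_option autoImplicit false

namespace Fermat.Agent.GP.Flat.Cartier

open Coalgebra Bialgebra HopfAlgebra TensorProduct WithConv

section Defs

variable (R K H : Type*) [CommRing R] [Field K] [Algebra R K] [CommRing H] [Bialgebra R H]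

/-- The dual of the multiplication of `H`: `f ↦ f ∘ mul'`. -/
noncomputable def mulDual : WithConv (H →ₗ[R] K) →ₗ[K] WithConv (H ⊗[R] H →ₗ[R] K) where
  toFun f := toConv (f.ofConv ∘ₗ LinearMap.mul' R H)
  map_add' _ _ := rfl
  map_smul' _ _ := rfl

@[simp]
theorem mulDual_apply_tmul (f : WithConv (H →ₗ[R] K)) (a b : H) :
    (mulDual R K H f).ofConv (a ⊗ₜ b) = f.ofConv (a * b) := rfl

/-- The external product `(f, f') ↦ (a ⊗ b ↦ f a * f' b)`. -/
noncomputable def tmulDual : WithConv (H →ₗ[R] K) →ₗ[K] WithConv (H →ₗ[R] K) →ₗ[K]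
    WithConv (H ⊗[R] H →ₗ[R] K) :=
  LinearMap.mk₂ K
    (fun f f' => toConv (LinearMap.mul' R K ∘ₗ TensorProduct.map f.ofConv f'.ofConv))
    (fun f₁ f₂ f' => by
      apply WithConv.ofConv_injective
      apply TensorProduct.ext'
      intro a b
      simp [add_mul])
    (fun c f f' => by
      apply WithConv.ofConv_injective
      apply TensorProduct.ext'
      intro a b
      simp [mul_assoc])
    (fun f f₁' f₂' => by
      apply WithConv.ofConv_injective
      apply TensorProduct.ext'
      intro a b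
      simp [mul_add])
    (fun c f f' => by
      apply WithConv.ofConv_injective
      apply TensorProduct.ext'
      intro a b
      simp [mul_left_comm])

@[simp]
theorem tmulDual_apply_tmul (f f' : WithConv (H →ₗ[R] K)) (a b : H) :
    (tmulDual R K H f f').ofConv (a ⊗ₜ b) = f.ofConv a * f'.ofConv b := by
  simp [tmulDual]

theorem mulDual_point (g : WithConv (H →ₐ[R] K)) :
    mulDual R K H (toConv g.ofConv.toLinearMap) =
      toConv (tensorPoint R K H g.ofConv g.ofConv).toLinearMap := by
  apply WithConv.ofConv_injective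
  apply TensorProduct.ext'
  intro a b
  simp

theorem tmulDual_point (g g' : WithConv (H →ₐ[R] K)) :
    tmulDual R K H (toConv g.ofConv.toLinearMap) (toConv g'.ofConv.toLinearMap) =
      toConv (tensorPoint R K H g.ofConv g'.ofConv).toLinearMap := by
  apply WithConv.ofConv_injective
  apply TensorProduct.ext'
  intro a b
  simp

end Defs

section Ids

variable (R K H : Type*) [CommRing R] [Field K] [IsAlgClosed K] [CharZero K] [Algebra R K]
  [CommRing H] [HopfAlgebra R H] [Module.Finite R H] [Module.Free R H]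

/-- **(I1)** `ev₂ (ψ, ψ') (f ∘ mul') = ev₁ (ψ ψ') f`. -/
theorem evChar₂_mulDual (ψ ψ' : WithConv (H →ₐ[R] K) →* K) (f : WithConv (H →ₗ[R] K)) :
    evChar₂ R K H ψ ψ' (mulDual R K H f) = evChar R K H (ψ * ψ') f := by
  have h : (evChar₂ R K H ψ ψ').toLinearMap ∘ₗ mulDual R K H =
      (evChar R K H (ψ * ψ')).toLinearMap := by
    refine (convPointsBasis R K H).ext fun g => ?_
    rw [LinearMap.comp_apply, convPointsBasis_apply, mulDual_point, AlgHom.toLinearMap_apply,
      AlgHom.toLinearMap_apply, evChar_point, evChar₂_point, MonoidHom.mul_apply]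
  exact congrArg (fun F : _ →ₗ[K] K => F f) h

/-- **(I2)** `ev₂ (ψ, ψ') (f ⊗ f') = ev₁ ψ f * ev₁ ψ' f'`. -/
theorem evChar₂_tmulDual (ψ ψ' : WithConv (H →ₐ[R] K) →* K) (f f' : WithConv (H →ₗ[R] K)) :
    evChar₂ R K H ψ ψ' (tmulDual R K H f f') = evChar R K H ψ f * evChar R K H ψ' f' := by
  have h : (tmulDual R K H).compr₂ (evChar₂ R K H ψ ψ').toLinearMap =
      (LinearMap.mul K K).compl₁₂ (evChar R K H ψ).toLinearMap (evChar R K H ψ').toLinearMap := by
    refine (convPointsBasis R K H).ext fun g => (convPointsBasis R K H).ext fun g' => ?_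
    rw [LinearMap.compr₂_apply, LinearMap.compl₁₂_apply, convPointsBasis_apply,
      convPointsBasis_apply, tmulDual_point, AlgHom.toLinearMap_apply, AlgHom.toLinearMap_apply,
      AlgHom.toLinearMap_apply, evChar_point, evChar_point, evChar₂_point, LinearMap.mul_apply']
  exact congrArg (fun F : _ →ₗ[K] _ →ₗ[K] K => F f f') h

/-- **(DEV)** the defect of multiplicativity of `ev₁ f` on characters is `ev₂` of the defect of
multiplicativity of `f` on `H`. -/
theorem evChar_mul_char (ψ ψ' : WithConv (H →ₐ[R] K) →* K) (f : WithConv (H →ₗ[R] K)) :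
    evChar R K H (ψ * ψ') f = evChar R K H ψ f * evChar R K H ψ' f +
      evChar₂ R K H ψ ψ' (mulDual R K H f - tmulDual R K H f f) := by
  rw [map_sub, evChar₂_mulDual, evChar₂_tmulDual]
  ring

end Ids

section GroupBasis₂

variable (R K H : Type*) [CommRing R] [Field K] [IsAlgClosed K] [CharZero K] [Algebra R K]
  [CommRing H] [HopfAlgebra R H] [Module.Finite R H] [Module.Free R H] [Coalgebra.IsCocomm R H]

/-- **(GB2)** the pairs of points form a group basis of `Hom_R(H ⊗ H, K)`. -/
theorem isGroupBasis_tensorPointsBasis :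
    GroupBasis.IsGroupBasis (tensorPointsBasis R K H) where
  mul s t := by
    rw [tensorPointsBasis_apply, tensorPointsBasis_apply, tensorPointsBasis_apply,
      ← AlgHom.toLinearMap_convMul]
    have := tensorPoint_mul R K H s.1 t.1 s.2 t.2
    rw [Prod.fst_mul, Prod.snd_mul, ← this, ofConv_toConv]
  one := by
    rw [tensorPointsBasis_apply, ← AlgHom.toLinearMap_convOne]
    have := tensorPoint_one R K H
    rw [Prod.fst_one, Prod.snd_one, ← this, ofConv_toConv]

/-- `evalChar` of `GroupBasis` for the basis of pairs of points is `evChar₂`. -/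
theorem evalChar_eq_evChar₂ (ψ ψ' : WithConv (H →ₐ[R] K) →* K) :
    GroupBasis.evalChar (isGroupBasis_tensorPointsBasis R K H) (ψ.coprod ψ') =
      evChar₂ R K H ψ ψ' := by
  apply AlgHom.toLinearMap_injective
  refine (tensorPointsBasis R K H).ext fun gg => ?_
  rw [AlgHom.toLinearMap_apply, AlgHom.toLinearMap_apply, GroupBasis.evalChar_basis,
    tensorPointsBasis_apply, evChar₂_point, MonoidHom.coprod_apply]

end GroupBasis₂

section IntegralIds

variable (R K H : Type*) [CommRing R] [Field K] [Algebra R K] [CommRing H] [Bialgebra R H]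
  (A : Type*) [CommRing A] [Algebra A K] [Algebra R A] [IsScalarTower R A K]

/-- `f ∘ mul'` is `A`-valued if `f` is. -/
theorem mulDual_mem_integralSub {f : WithConv (H →ₗ[R] K)} (hf : f ∈ integralSub R K H A) :
    mulDual R K H f ∈ integralSub R K (H ⊗[R] H) A :=
  fun t => hf (LinearMap.mul' R H t)

/-- `f ⊗ f'` is `A`-valued if `f`, `f'` are. -/
theorem tmulDual_mem_integralSub {f f' : WithConv (H →ₗ[R] K)} (hf : f ∈ integralSub R K H A)
    (hf' : f' ∈ integralSub R K H A) :
    tmulDual R K H f f' ∈ integralSub R K (H ⊗[R] H) A := by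
  intro t
  induction t using TensorProduct.induction_on with
  | zero => rw [map_zero]; exact Subring.zero_mem _
  | tmul a b => rw [tmulDual_apply_tmul]; exact Subring.mul_mem _ (hf a) (hf' b)
  | add x y hx hy => rw [map_add]; exact Subring.add_mem _ hx hy

/-- the graph map preserves `A`-valued maps. -/
theorem graphMap_mem_integralSub (j : ℕ) {F : WithConv (H ⊗[R] H →ₗ[R] K)}
    (hF : F ∈ integralSub R K (H ⊗[R] H) A) : graphMap R K H j F ∈ integralSub R K H A :=
  fun a => hF (graphHom R H j a)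

/-- **(DEFECT)** if `f` is multiplicative modulo `c A` on `H` then the defect
`f ∘ mul' - f ⊗ f` is `c` times an `A`-valued linear map on `H ⊗ H`. -/
theorem exists_defect (c : K) {f : WithConv (H →ₗ[R] K)}
    (hdef : ∀ a b : H, ∃ r ∈ (algebraMap A K).range,
      f.ofConv (a * b) - f.ofConv a * f.ofConv b = c * r) :
    ∃ β ∈ integralSub R K (H ⊗[R] H) A, mulDual R K H f - tmulDual R K H f f = c • β := by
  by_cases hc : c = 0
  · subst hc
    refine ⟨0, Subalgebra.zero_mem _, ?_⟩
    rw [smul_zero]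
    apply WithConv.ofConv_injective
    apply TensorProduct.ext'
    intro a b
    obtain ⟨r, -, hr⟩ := hdef a b
    rw [zero_mul] at hr
    simpa using hr
  · refine ⟨c⁻¹ • (mulDual R K H f - tmulDual R K H f f), ?_, by rw [smul_smul, mul_inv_cancel₀ hc,
      one_smul]⟩
    intro t
    induction t using TensorProduct.induction_on with
    | zero => rw [map_zero]; exact Subring.zero_mem _
    | tmul a b =>
      obtain ⟨r, hr, e⟩ := hdef a b
      have : (c⁻¹ • (mulDual R K H f - tmulDual R K H f f)).ofConv (a ⊗ₜ[R] b) = r := by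
        show c⁻¹ • ((mulDual R K H f).ofConv (a ⊗ₜ[R] b) - (tmulDual R K H f f).ofConv (a ⊗ₜ[R] b))
          = r
        rw [mulDual_apply_tmul, tmulDual_apply_tmul, e, smul_eq_mul, ← mul_assoc,
          inv_mul_cancel₀ hc, one_mul]
      rw [this]
      exact hr
    | add x y hx hy => rw [map_add]; exact Subring.add_mem _ hx hy

end IntegralIds

section Injective

open scoped Classical

variable (R K H : Type*) [CommRing R] [Field K] [IsAlgClosed K] [CharZero K] [Algebra R K]
  [CommRing H] [HopfAlgebra R H] [Module.Finite R H] [Module.Free R H] [Coalgebra.IsCocomm R H]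

omit [IsAlgClosed K] [CharZero K] [Module.Free R H] [Coalgebra.IsCocomm R H] in
/-- the convolution monoid of points is finite. -/
theorem finite_convPoints : Finite (WithConv (H →ₐ[R] K)) := by
  have : Finite (H →ₐ[R] K) := finite_points_base R K H
  exact Finite.of_equiv _ (WithConv.equiv _).symm

/-- **(INJ1)** the Fourier evaluations at the `Kˣ`-valued characters of the group of points are
jointly injective on `Hom_R(H, K)`. -/
theorem eq_zero_of_forall_evChar {f : WithConv (H →ₗ[R] K)}
    (hf : ∀ ψ : WithConv (H →ₐ[R] K) →* Kˣ, evChar R K H (GroupBasis.toK ψ) f = 0) : f = 0 := by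
  have := finite_convPoints R K H
  let _ : Fintype (WithConv (H →ₐ[R] K)) := Fintype.ofFinite _
  have hS : ∀ s : WithConv (H →ₐ[R] K), IsUnit s := isUnit_point R K H
  have hexp : Monoid.exponent (WithConv (H →ₐ[R] K)) ≠ 0 := by
    let _ : CommGroup (WithConv (H →ₐ[R] K)) := commGroupOfIsUnit hS
    exact Monoid.exponent_ne_zero_of_finite
  have : NeZero ((Monoid.exponent (WithConv (H →ₐ[R] K)) : ℕ) : K) :=
    ⟨by exact_mod_cast hexp⟩
  have := GroupBasis.finite_dual (K := K) hS
  let _ : Fintype (WithConv (H →ₐ[R] K) →* Kˣ) := Fintype.ofFinite _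
  refine GroupBasis.eq_zero_of_evalChar_eq_zero hS (isGroupBasis_convPointsBasis R K H) fun ψ => ?_
  rw [evalChar_eq_evChar]
  exact hf ψ

/-- **(INJ2)** the double Fourier evaluations at pairs of `Kˣ`-valued characters are jointly
injective on `Hom_R(H ⊗ H, K)`. -/
theorem eq_zero_of_forall_evChar₂ {F : WithConv (H ⊗[R] H →ₗ[R] K)}
    (hF : ∀ ψ ψ' : WithConv (H →ₐ[R] K) →* Kˣ,
      evChar₂ R K H (GroupBasis.toK ψ) (GroupBasis.toK ψ') F = 0) : F = 0 := by
  have := finite_convPoints R K H
  let _ : Fintype (WithConv (H →ₐ[R] K)) := Fintype.ofFinite _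
  have hS : ∀ s : WithConv (H →ₐ[R] K) × WithConv (H →ₐ[R] K), IsUnit s := fun s =>
    Prod.isUnit_iff.2 ⟨isUnit_point R K H s.1, isUnit_point R K H s.2⟩
  have hexp : Monoid.exponent (WithConv (H →ₐ[R] K) × WithConv (H →ₐ[R] K)) ≠ 0 := by
    let _ : CommGroup (WithConv (H →ₐ[R] K) × WithConv (H →ₐ[R] K)) := commGroupOfIsUnit hS
    exact Monoid.exponent_ne_zero_of_finite
  have : NeZero ((Monoid.exponent (WithConv (H →ₐ[R] K) × WithConv (H →ₐ[R] K)) : ℕ) : K) :=
    ⟨by exact_mod_cast hexp⟩
  have := GroupBasis.finite_dual (K := K) hS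
  let _ : Fintype (WithConv (H →ₐ[R] K) × WithConv (H →ₐ[R] K) →* Kˣ) := Fintype.ofFinite _
  refine GroupBasis.eq_zero_of_evalChar_eq_zero hS (isGroupBasis_tensorPointsBasis R K H)
    fun Ψ => ?_
  have e : GroupBasis.toK Ψ = (GroupBasis.toK (Ψ.comp (MonoidHom.inl _ _))).coprod
      (GroupBasis.toK (Ψ.comp (MonoidHom.inr _ _))) := by
    ext ⟨g, g'⟩
    show ((Ψ (g, g') : Kˣ) : K) = ((Ψ (g, 1) : Kˣ) : K) * ((Ψ (1, g') : Kˣ) : K)
    rw [← Units.val_mul, ← map_mul, Prod.mk_mul_mk, mul_one, one_mul]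
  rw [e, evalChar_eq_evChar₂]
  exact hF _ _

end Injective

end Fermat.Agent.GP.Flat.Cartier
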