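/-
GATE-P (S56) / [P-FLAT] addendum 5 to S56-FLAT-CARTIER (helper65): approximate points.
`f : H → K` an `R`-linear map with `f 1 = 1`, multiplicative modulo `c A` (`A ⊆ K` a subring
containing the image of `R`).

* (U) `exists_mul_compAntipode` : `f * (f ∘ S) = 1 + c • l` in the convolution algebra, `l` `A`-valued
  (so `f` is a unit of `Λ₁ = Hom_R(H, A)` as soon as `1 + c Λ₁ ⊆ Λ₁ˣ`, helper15 `Absorb`);
* (P) `exists_algHom_of_evChar_mul` : a linear map `χ : H → K` with `χ 1 = 1` whose Fourier transform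
  `ψ ↦ evChar ψ χ` is multiplicative on the characters `Γ →* Kˣ` IS an algebra hom (a point): the
  converse of `evChar_point`, via (DEV) + (INJ2), no double duality needed;
* (E) `sub_eq_smul_mul` : `f * (1 + w • δ) - f = w • (f * δ)` with `f * δ` `A`-valued.
-/
import Fermat.Agent.GP.Flat.CartierTensorIds

set_option autoImplicit false

namespace Fermat.Agent.GP.Flat.Cartier

open Coalgebra Bialgebra HopfAlgebra TensorProduct WithConv

section Unit

variable (R K H : Type*) [CommRing R] [Field K] [Algebra R K] [CommRing H] [HopfAlgebra R H]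
  (A : Type*) [CommRing A] [Algebra A K] [Algebra R A] [IsScalarTower R A K]

/-- `f ↦ f ∘ S` (`S` the antipode). -/
noncomputable def compAntipode : WithConv (H →ₗ[R] K) →ₗ[K] WithConv (H →ₗ[R] K) where
  toFun f := toConv (f.ofConv ∘ₗ antipode R)
  map_add' _ _ := rfl
  map_smul' _ _ := rfl

@[simp]
theorem compAntipode_apply (f : WithConv (H →ₗ[R] K)) (h : H) :
    (compAntipode R K H f).ofConv h = f.ofConv (antipode R h) := rfl

theorem compAntipode_mem_integralSub {f : WithConv (H →ₗ[R] K)}
    (hf : f ∈ integralSub R K H A) : compAntipode R K H f ∈ integralSub R K H A :=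
  fun h => hf (antipode R h)

omit [HopfAlgebra R H] in
/-- a linear map all of whose values lie in `c A` is `c` times an `A`-valued linear map. -/
theorem exists_eq_smul_of_forall [Bialgebra R H] (c : K) (g : WithConv (H →ₗ[R] K))
    (hg : ∀ h : H, ∃ r ∈ (algebraMap A K).range, g.ofConv h = c * r) :
    ∃ l ∈ integralSub R K H A, g = c • l := by
  by_cases hc : c = 0
  · subst hc
    refine ⟨0, Subalgebra.zero_mem _, ?_⟩
    rw [smul_zero]
    apply WithConv.ofConv_injective
    ext h
    obtain ⟨r, -, hr⟩ := hg h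
    rw [zero_mul] at hr
    simpa using hr
  · refine ⟨c⁻¹ • g, ?_, by rw [smul_smul, mul_inv_cancel₀ hc, one_smul]⟩
    intro h
    obtain ⟨r, hr, e⟩ := hg h
    have : (c⁻¹ • g).ofConv h = r := by
      show c⁻¹ • g.ofConv h = r
      rw [e, smul_eq_mul, ← mul_assoc, inv_mul_cancel₀ hc, one_mul]
    rw [this]
    exact hr

/-- **(U)** an approximate point times its "inverse" `f ∘ S` is `1 + c • l`, `l` `A`-valued. -/
theorem exists_mul_compAntipode (c : K) {f : WithConv (H →ₗ[R] K)} (h1 : f.ofConv 1 = 1)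
    (hdef : ∀ a b : H, ∃ r ∈ (algebraMap A K).range,
      f.ofConv (a * b) - f.ofConv a * f.ofConv b = c * r) :
    ∃ l ∈ integralSub R K H A, f * compAntipode R K H f = 1 + c • l := by
  have key : ∀ h : H, ∃ r ∈ (algebraMap A K).range,
      (f * compAntipode R K H f - 1).ofConv h = c * r := by
    intro h
    choose ρ hρ hρe using hdef
    refine ⟨-∑ i ∈ (ℛ R h).index, ρ ((ℛ R h).left i) (antipode R ((ℛ R h).right i)),
      Subring.neg_mem _ (Subring.sum_mem _ fun i _ => hρ _ _), ?_⟩
    have e1 : (f * compAntipode R K H f).ofConv h = ∑ i ∈ (ℛ R h).index,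
        f.ofConv ((ℛ R h).left i) * f.ofConv (antipode R ((ℛ R h).right i)) :=
      (ℛ R h).convMul_apply f (compAntipode R K H f)
    have e2 : (1 : WithConv (H →ₗ[R] K)).ofConv h = ∑ i ∈ (ℛ R h).index,
        f.ofConv ((ℛ R h).left i * antipode R ((ℛ R h).right i)) := by
      rw [← map_sum, sum_mul_antipode_eq_smul, map_smul, h1, LinearMap.convOne_apply,
        Algebra.smul_def, mul_one]
    show (f * compAntipode R K H f).ofConv h - (1 : WithConv (H →ₗ[R] K)).ofConv h = _
    rw [e1, e2, ← Finset.sum_sub_distrib, mul_neg, Finset.mul_sum, ← Finset.sum_neg_distrib]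
    refine Finset.sum_congr rfl fun i _ => ?_
    rw [← hρe]
    ring
  obtain ⟨l, hl, e⟩ := exists_eq_smul_of_forall R K H A c _ key
  exact ⟨l, hl, by rw [← e]; abel⟩

omit [HopfAlgebra R H] in
/-- **(E)** `f * (1 + w • δ) - f = w • (f * δ)`, and `f * δ` is `A`-valued if `f`, `δ` are. -/
theorem sub_eq_smul_mul [Bialgebra R H] (w : K) (f δ : WithConv (H →ₗ[R] K)) :
    f * (1 + w • δ) - f = w • (f * δ) := by
  rw [mul_add, mul_one, add_sub_cancel_left, mul_smul_comm]

end Unit

section Point

variable (R K H : Type*) [CommRing R] [Field K] [IsAlgClosed K] [CharZero K] [Algebra R K]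
  [CommRing H] [HopfAlgebra R H] [Module.Finite R H] [Module.Free R H] [Coalgebra.IsCocomm R H]

/-- **(P)** a linear map `χ : H → K` with `χ 1 = 1` whose Fourier transform is multiplicative on the
characters of the group of points is a point. -/
theorem exists_algHom_of_evChar_mul {χ : WithConv (H →ₗ[R] K)} (h1 : χ.ofConv 1 = 1)
    (hmul : ∀ ψ ψ' : WithConv (H →ₐ[R] K) →* Kˣ,
      evChar R K H (GroupBasis.toK (ψ * ψ')) χ =
        evChar R K H (GroupBasis.toK ψ) χ * evChar R K H (GroupBasis.toK ψ') χ) :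
    ∃ g : H →ₐ[R] K, g.toLinearMap = χ.ofConv := by
  have hdef : mulDual R K H χ - tmulDual R K H χ χ = 0 := by
    refine eq_zero_of_forall_evChar₂ R K H fun ψ ψ' => ?_
    have h2 := evChar_mul_char R K H (GroupBasis.toK ψ) (GroupBasis.toK ψ') χ
    have h3 : GroupBasis.toK ψ * GroupBasis.toK ψ' = GroupBasis.toK (K := K) (ψ * ψ') := by
      ext g
      rfl
    rw [h3, hmul ψ ψ'] at h2
    exact (add_eq_left.mp h2.symm)
  have hm : ∀ a b : H, χ.ofConv (a * b) = χ.ofConv a * χ.ofConv b := by
    intro a b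
    have := congrArg (fun F : WithConv (H ⊗[R] H →ₗ[R] K) => F.ofConv (a ⊗ₜ[R] b)) hdef
    have e : (mulDual R K H χ - tmulDual R K H χ χ).ofConv (a ⊗ₜ[R] b) =
        (mulDual R K H χ).ofConv (a ⊗ₜ[R] b) - (tmulDual R K H χ χ).ofConv (a ⊗ₜ[R] b) := rfl
    simp only [e, mulDual_apply_tmul, tmulDual_apply_tmul] at this
    exact sub_eq_zero.mp this
  exact ⟨AlgHom.ofLinearMap χ.ofConv h1 hm, rfl⟩

end Point

end Fermat.Agent.GP.Flat.Cartier
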