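/-
GATE-P (S56) / [P-FLAT] addendum 6 to S56-FLAT-CARTIER (helper65): the INTEGRAL Fourier function
model.  `A` a valuation subring of the algebraically closed field `K` of characteristic `0`,
`R → A`, `H` a finite free cocommutative Hopf algebra over `R`, `Γ` its group of `K`-points,
`Λ = integralSub R K H A = Hom_R(H, A)` (convolution algebra).  Then
`evInt : Λ →ₐ[A] ((Γ →* Kˣ) → A)`, `f ↦ (ψ ↦ evChar ψ f)`, is an injective `A`-algebra hom whose
image absorbs `#Γ`: `#Γ • Fun(Γ^, A) ⊆ evInt Λ` (hypotheses `hinj`, `habs` of helper15's `Absorb`).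
-/
import Fermat.Agent.GP.Flat.CartierApprox
import Fermat.Agent.GP.Flat.Absorb

set_option autoImplicit false

namespace Fermat.Agent.GP.Flat.Cartier

open Coalgebra Bialgebra HopfAlgebra TensorProduct WithConv

section CodRestrict

variable {K : Type*} [Field K] (A : ValuationSubring K)

/-- an `A`-algebra hom to `K`-valued functions all of whose values lie in `A`, as an `A`-algebra
hom to `A`-valued functions. -/
def codRestrictPi {Λ ι : Type*} [CommRing Λ] [Algebra A Λ] (F : Λ →ₐ[A] (ι → K))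
    (hF : ∀ l i, F l i ∈ A) : Λ →ₐ[A] (ι → A) where
  toFun l i := ⟨F l i, hF l i⟩
  map_one' := by funext i; apply Subtype.ext; simp
  map_mul' a b := by funext i; apply Subtype.ext; simp
  map_zero' := by funext i; apply Subtype.ext; simp
  map_add' a b := by funext i; apply Subtype.ext; simp
  commutes' a := by
    funext i
    apply Subtype.ext
    show F (algebraMap A Λ a) i = _
    rw [F.commutes]
    rfl

@[simp]
theorem codRestrictPi_apply {Λ ι : Type*} [CommRing Λ] [Algebra A Λ] (F : Λ →ₐ[A] (ι → K))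
    (hF : ∀ l i, F l i ∈ A) (l : Λ) (i : ι) : ((codRestrictPi A F hF l i : A) : K) = F l i := rfl

theorem mem_range_algebraMap_iff {x : K} : x ∈ (algebraMap A K).range ↔ x ∈ A :=
  ⟨fun ⟨a, ha⟩ => ha ▸ a.2, fun hx => ⟨⟨x, hx⟩, rfl⟩⟩

/-- the value at an element of finite order of a character lies in `A`. -/
theorem unit_mem_of_pow_eq_one (u : Kˣ) {n : ℕ} (hn : n ≠ 0) (h : u ^ n = 1) : (u : K) ∈ A := by
  apply A.mem_of_valuation_le_one
  have h1 : A.valuation (u : K) ^ n = 1 := by
    rw [← map_pow, ← Units.val_pow_eq_pow_val, h, Units.val_one, map_one]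
  exact ((pow_eq_one_iff.mp h1).resolve_right hn).le

end CodRestrict

section Model

open scoped Classical

variable (R K H : Type*) [CommRing R] [Field K] [IsAlgClosed K] [CharZero K] [Algebra R K]
  [CommRing H] [HopfAlgebra R H] [Module.Finite R H] [Module.Free R H] [Coalgebra.IsCocomm R H]
  (A : ValuationSubring K) [Algebra R A] [IsScalarTower R A K]

omit [IsAlgClosed K] [CharZero K] [Module.Free R H] [Coalgebra.IsCocomm R H] in
/-- **points are `A`-valued.** -/
theorem point_mem (g : H →ₐ[R] K) (h : H) : g h ∈ A := by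
  have h1 : IsIntegral R h := Algebra.IsIntegral.isIntegral h
  have h2 : IsIntegral R (g h) := h1.map g
  have h3 : IsIntegral A (g h) := h2.tower_top
  obtain ⟨a, ha⟩ := IsIntegrallyClosed.isIntegral_iff.1 h3
  rw [← ha]
  exact a.2

omit [IsAlgClosed K] [CharZero K] [Module.Free R H] [Coalgebra.IsCocomm R H] in
theorem point_mem_integralSub (g : WithConv (H →ₐ[R] K)) :
    toConv g.ofConv.toLinearMap ∈ integralSub R K H A :=
  fun h => (mem_range_algebraMap_iff A).2 (point_mem R K H A g.ofConv h)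

/-- the Fourier transform over `K`. -/
noncomputable def evK :
    WithConv (H →ₗ[R] K) →ₐ[K] ((WithConv (H →ₐ[R] K) →* Kˣ) → K) :=
  AlgHom.pi fun ψ => evChar R K H (GroupBasis.toK ψ)

@[simp]
theorem evK_apply (f : WithConv (H →ₗ[R] K)) (ψ : WithConv (H →ₐ[R] K) →* Kˣ) :
    evK R K H f ψ = evChar R K H (GroupBasis.toK ψ) f := rfl

theorem evK_mem {f : WithConv (H →ₗ[R] K)} (hf : f ∈ integralSub R K H A)
    (ψ : WithConv (H →ₐ[R] K) →* Kˣ) : evK R K H f ψ ∈ A := by
  have hint : ∀ r : R, algebraMap R K r ∈ A := fun r => by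
    rw [IsScalarTower.algebraMap_apply R A K]
    exact (algebraMap R A r).2
  exact evChar_mem_valuationSubring R K A hint _
    (fun h => (mem_range_algebraMap_iff A).1 (hf h))

/-- **the integral Fourier function model.** -/
noncomputable def evInt :
    integralSub R K H A →ₐ[A] ((WithConv (H →ₐ[R] K) →* Kˣ) → A) :=
  codRestrictPi A (((evK R K H).restrictScalars A).comp (integralSub R K H A).val)
    (fun l ψ => evK_mem R K H A l.2 ψ)

@[simp]
theorem evInt_apply (f : integralSub R K H A) (ψ : WithConv (H →ₐ[R] K) →* Kˣ) :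
    ((evInt R K H A f ψ : A) : K) = evChar R K H (GroupBasis.toK ψ) f.1 := rfl

/-- `hinj`. -/
theorem evInt_injective : Function.Injective (evInt R K H A) := by
  rw [injective_iff_map_eq_zero]
  intro f hf
  apply Subtype.ext
  refine eq_zero_of_forall_evChar R K H fun ψ => ?_
  have := congrArg (fun φ : (WithConv (H →ₐ[R] K) →* Kˣ) → A => ((φ ψ : A) : K)) hf
  simpa using this

/-- `habs`: the image of `evInt` absorbs `#Γ`. -/
theorem absorbs_evInt :
    Absorb.Absorbs (evInt R K H A) ((Nat.card (WithConv (H →ₐ[R] K)) : ℕ) : A) := by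
  intro φ
  have := finite_convPoints R K H
  let _ : Fintype (WithConv (H →ₐ[R] K)) := Fintype.ofFinite _
  have hS : ∀ s : WithConv (H →ₐ[R] K), IsUnit s := isUnit_point R K H
  have hexp : Monoid.exponent (WithConv (H →ₐ[R] K)) ≠ 0 := by
    let _ : CommGroup (WithConv (H →ₐ[R] K)) := commGroupOfIsUnit hS
    exact Monoid.exponent_ne_zero_of_finite
  have : NeZero ((Monoid.exponent (WithConv (H →ₐ[R] K)) : ℕ) : K) :=
    ⟨by exact_mod_cast hexp⟩
  have := GroupBasis.finite_dual (K := K) hS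
  let _ : Fintype (WithConv (H →ₐ[R] K) →* Kˣ) := Fintype.ofFinite _
  -- the Fourier coefficients are in `A`
  have hcoef : ∀ s : WithConv (H →ₐ[R] K),
      (∑ ψ' : WithConv (H →ₐ[R] K) →* Kˣ, ((φ ψ' : A) : K) * ((ψ' s)⁻¹ : Kˣ)) ∈ A := by
    intro s
    refine A.toSubring.sum_mem fun ψ' _ => A.mul_mem _ _ (φ ψ').2 ?_
    obtain ⟨n, hn, hψ⟩ := (isOfFinOrder_of_finite ψ').exists_pow_eq_one
    refine unit_mem_of_pow_eq_one A _ hn.ne' ?_
    rw [inv_pow, ← MonoidHom.pow_apply, hψ, MonoidHom.one_apply, inv_one]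
  set L : WithConv (H →ₗ[R] K) := ∑ s : WithConv (H →ₐ[R] K),
    (∑ ψ' : WithConv (H →ₐ[R] K) →* Kˣ, ((φ ψ' : A) : K) * ((ψ' s)⁻¹ : Kˣ)) •
      convPointsBasis R K H s with hL
  have hLmem : L ∈ integralSub R K H A := by
    rw [hL]
    refine Subalgebra.sum_mem _ fun s _ => ?_
    have e : (∑ ψ' : WithConv (H →ₐ[R] K) →* Kˣ, ((φ ψ' : A) : K) * ((ψ' s)⁻¹ : Kˣ)) •
        convPointsBasis R K H s = (⟨_, hcoef s⟩ : A) • convPointsBasis R K H s := by
      rw [← algebraMap_smul K (⟨_, hcoef s⟩ : A) (convPointsBasis R K H s)]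
      rfl
    rw [e, convPointsBasis_apply]
    exact Subalgebra.smul_mem _ (point_mem_integralSub R K H A s) _
  refine ⟨⟨L, hLmem⟩, ?_⟩
  funext ψ
  apply Subtype.ext
  rw [evInt_apply]
  have h1 := GroupBasis.evalChar_fourierInv hS (isGroupBasis_convPointsBasis R K H)
    (fun ψ' => ((φ ψ' : A) : K)) ψ
  rw [evalChar_eq_evChar] at h1
  show evChar R K H (GroupBasis.toK ψ) L = _
  rw [hL, h1]
  simp [Nat.card_eq_fintype_card]

end Model

end Fermat.Agent.GP.Flat.Cartier
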