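/-
GATE-P (S56) / [P-FLAT] addendum 7 to S56-FLAT-CARTIER (helper65): the integral function model in
the exact shape consumed by `Lift.exists_character_lift_ev`:
`D := Additive (Γ →* Kˣ)` (`Γ` the group of `K`-points of `H`), `O = O' = A`,
`Λ₁ = integralSub R K H A`, `Λ₂ = integralSub R K (H ⊗ H) A`,
`ev₁ : Λ₁ →ₐ[A] (D → A)`, `ev₂ : Λ₂ →ₐ[A] (D × D → A)` (both injective and absorbing),
`γ j : Λ₂ → Λ₁` the graph maps with `ev₁ (γ j F) x = ev₂ F (x, j • x)`.
-/
import Fermat.Agent.GP.Flat.CartierFnModel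

set_option autoImplicit false

namespace Fermat.Agent.GP.Flat.Cartier

open Coalgebra Bialgebra HopfAlgebra TensorProduct WithConv

section Comap

variable {O : Type*} [CommRing O] {Λ : Type*} [CommRing Λ] [Algebra O Λ] {ι ι' : Type*}

/-- reindexing of a function model along `e : ι' → ι`. -/
def comapEv (ev : Λ →ₐ[O] (ι → O)) (e : ι' → ι) : Λ →ₐ[O] (ι' → O) :=
  (AlgHom.pi fun i' => Pi.evalAlgHom O (fun _ : ι => O) (e i')).comp ev

@[simp]
theorem comapEv_apply (ev : Λ →ₐ[O] (ι → O)) (e : ι' → ι) (l : Λ) (i' : ι') :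
    comapEv ev e l i' = ev l (e i') := rfl

theorem comapEv_injective {ev : Λ →ₐ[O] (ι → O)} (hinj : Function.Injective ev) {e : ι' → ι}
    (he : Function.Surjective e) : Function.Injective (comapEv ev e) := by
  intro l l' h
  apply hinj
  funext i
  obtain ⟨i', rfl⟩ := he i
  exact congrFun h i'

theorem absorbs_comapEv {ev : Λ →ₐ[O] (ι → O)} {c : O} (habs : Absorb.Absorbs ev c) (e : ι' ≃ ι) :
    Absorb.Absorbs (comapEv ev e) c := by
  intro φ'
  obtain ⟨l, hl⟩ := habs (fun i => φ' (e.symm i))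
  refine ⟨l, ?_⟩
  funext i'
  rw [comapEv_apply, hl]
  simp

end Comap

section PairChar

variable (R K H : Type*) [CommRing R] [Field K] [Algebra R K] [CommRing H] [Bialgebra R H]

/-- the character `(ψ, ψ')` of the points of `H ⊗ H`. -/
noncomputable def pairChar (ψ ψ' : WithConv (H →ₐ[R] K) →* Kˣ) :
    WithConv (H ⊗[R] H →ₐ[R] K) →* Kˣ :=
  (ψ.coprod ψ').comp (tensorPointsEquiv R K H).symm.toMonoidHom

/-- pairs of characters of `Γ` are the characters of the points of `H ⊗ H`. -/
noncomputable def pairCharEquiv :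
    (WithConv (H →ₐ[R] K) →* Kˣ) × (WithConv (H →ₐ[R] K) →* Kˣ) ≃
      (WithConv (H ⊗[R] H →ₐ[R] K) →* Kˣ) where
  toFun ψψ := pairChar R K H ψψ.1 ψψ.2
  invFun Ψ := ((Ψ.comp (tensorPointsEquiv R K H).toMonoidHom).comp (MonoidHom.inl _ _),
    (Ψ.comp (tensorPointsEquiv R K H).toMonoidHom).comp (MonoidHom.inr _ _))
  left_inv ψψ := by
    apply Prod.ext
    · ext g
      simp only [pairChar, MonoidHom.comp_apply, MulEquiv.coe_toMonoidHom, MonoidHom.inl_apply,
        MulEquiv.symm_apply_apply, MonoidHom.coprod_apply, map_one, mul_one]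
    · ext g
      simp only [pairChar, MonoidHom.comp_apply, MulEquiv.coe_toMonoidHom, MonoidHom.inr_apply,
        MulEquiv.symm_apply_apply, MonoidHom.coprod_apply, map_one, one_mul]
  right_inv Ψ := by
    ext G
    obtain ⟨gg, rfl⟩ := (tensorPointsEquiv R K H).surjective G
    obtain ⟨g, g'⟩ := gg
    simp only [pairChar, MonoidHom.comp_apply, MulEquiv.coe_toMonoidHom,
      MulEquiv.symm_apply_apply, MonoidHom.coprod_apply, MonoidHom.inl_apply,
      MonoidHom.inr_apply, ← map_mul, Prod.mk_mul_mk, mul_one, one_mul]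

@[simp]
theorem pairCharEquiv_apply (ψψ : (WithConv (H →ₐ[R] K) →* Kˣ) × (WithConv (H →ₐ[R] K) →* Kˣ)) :
    pairCharEquiv R K H ψψ = pairChar R K H ψψ.1 ψψ.2 := rfl

end PairChar

section Model2

variable (R K H : Type*) [CommRing R] [Field K] [IsAlgClosed K] [CharZero K] [Algebra R K]
  [CommRing H] [HopfAlgebra R H] [Module.Finite R H] [Module.Free R H] [Coalgebra.IsCocomm R H]
  (A : ValuationSubring K) [Algebra R A] [IsScalarTower R A K]

/-- the index group of the function model: the dual of the group of points, written additively. -/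
abbrev DualAdd : Type _ := Additive (WithConv (H →ₐ[R] K) →* Kˣ)

/-- `ev₁`. -/
noncomputable def ev₁ : integralSub R K H A →ₐ[A] (DualAdd R K H → A) :=
  comapEv (evInt R K H A) (Additive.toMul (α := WithConv (H →ₐ[R] K) →* Kˣ))

/-- `ev₂`. -/
noncomputable def ev₂ :
    integralSub R K (H ⊗[R] H) A →ₐ[A] (DualAdd R K H × DualAdd R K H → A) :=
  comapEv (evInt R K (H ⊗[R] H) A)
    (fun xy : DualAdd R K H × DualAdd R K H =>
      pairCharEquiv R K H (Additive.toMul xy.1, Additive.toMul xy.2))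

/-- `ev (ψ, ψ')` on `H ⊗ H` is the double evaluation `evChar₂`. -/
theorem evChar_pairChar (ψ ψ' : WithConv (H →ₐ[R] K) →* Kˣ) :
    evChar R K (H ⊗[R] H) (GroupBasis.toK (pairChar R K H ψ ψ')) =
      evChar₂ R K H (GroupBasis.toK ψ) (GroupBasis.toK ψ') := by
  apply AlgHom.toLinearMap_injective
  refine (tensorPointsBasis R K H).ext fun gg => ?_
  rw [tensorPointsBasis_apply, AlgHom.toLinearMap_apply, AlgHom.toLinearMap_apply, evChar₂_point]
  have := evChar_point R K (H ⊗[R] H) (GroupBasis.toK (pairChar R K H ψ ψ'))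
    (tensorPointsEquiv R K H gg)
  rw [tensorPointsEquiv_apply, ofConv_toConv] at this
  rw [this]
  show ((pairChar R K H ψ ψ' (toConv (tensorPoint R K H gg.1.ofConv gg.2.ofConv)) : Kˣ) : K) = _
  rw [← tensorPointsEquiv_apply]
  simp only [pairChar, MonoidHom.comp_apply, MulEquiv.coe_toMonoidHom, MulEquiv.symm_apply_apply,
    MonoidHom.coprod_apply, Units.val_mul]
  rfl

theorem ev₁_apply (f : integralSub R K H A) (x : DualAdd R K H) :
    ((ev₁ R K H A f x : A) : K) = evChar R K H (GroupBasis.toK (Additive.toMul x)) f.1 := rfl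

theorem ev₂_apply (F : integralSub R K (H ⊗[R] H) A) (x y : DualAdd R K H) :
    ((ev₂ R K H A F (x, y) : A) : K) =
      evChar₂ R K H (GroupBasis.toK (Additive.toMul x)) (GroupBasis.toK (Additive.toMul y)) F.1 := by
  show evChar R K (H ⊗[R] H) (GroupBasis.toK (pairChar R K H _ _)) F.1 = _
  rw [evChar_pairChar]

theorem ev₁_injective : Function.Injective (ev₁ R K H A) :=
  comapEv_injective (evInt_injective R K H A) Additive.toMul.surjective

theorem ev₂_injective : Function.Injective (ev₂ R K H A) := by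
  refine comapEv_injective (evInt_injective R K (H ⊗[R] H) A) ?_
  intro Ψ
  obtain ⟨ψψ, rfl⟩ := (pairCharEquiv R K H).surjective Ψ
  exact ⟨(Additive.ofMul ψψ.1, Additive.ofMul ψψ.2), rfl⟩

theorem absorbs_ev₁ :
    Absorb.Absorbs (ev₁ R K H A) ((Nat.card (WithConv (H →ₐ[R] K)) : ℕ) : A) :=
  absorbs_comapEv (absorbs_evInt R K H A) Additive.toMul

theorem absorbs_ev₂ :
    Absorb.Absorbs (ev₂ R K H A)
      ((Nat.card (WithConv (H →ₐ[R] K)) * Nat.card (WithConv (H →ₐ[R] K)) : ℕ) : A) := by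
  have h := absorbs_comapEv (absorbs_evInt R K (H ⊗[R] H) A)
    ((Equiv.prodCongr Additive.toMul Additive.toMul).trans (pairCharEquiv R K H))
  have hc : Nat.card (WithConv (H ⊗[R] H →ₐ[R] K)) =
      Nat.card (WithConv (H →ₐ[R] K)) * Nat.card (WithConv (H →ₐ[R] K)) := by
    rw [← Nat.card_prod]
    exact (Nat.card_congr (tensorPointsEquiv R K H).toEquiv).symm
  rw [hc] at h
  exact h

/-- the graph maps `γ j : Λ₂ → Λ₁`. -/
noncomputable def gammaInt (j : ℕ) (F : integralSub R K (H ⊗[R] H) A) : integralSub R K H A :=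
  ⟨graphMap R K H j F.1, graphMap_mem_integralSub R K H A j F.2⟩

/-- **`hγ`** of `Lift.exists_character_lift_ev`. -/
theorem ev₁_gammaInt (j : ℕ) (F : integralSub R K (H ⊗[R] H) A) (x : DualAdd R K H) :
    ev₁ R K H A (gammaInt R K H A j F) x = ev₂ R K H A F (x, j • x) := by
  apply Subtype.ext
  rw [ev₁_apply, ev₂_apply]
  show evChar R K H _ (graphMap R K H j F.1) = _
  rw [evChar_graphMap]
  congr 1

end Model2

end Fermat.Agent.GP.Flat.Cartier
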