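/-
GATE-P (S56) / [P-FLAT] leaf S56-FLAT-CARTIER (helper65): Cartier's theorem in the FROZEN shape of
`GaloisRepAdic.IsFlatAt`: for a finite flat commutative Hopf algebra `H` over
`R0 = GaloisRep.ratLocalizedAt p` (= `ℤ_(p)`), the number of points `H →ₐ[R0] Qb` is the rank of `H`,
and the points are a `Qb`-basis of `Hom_R0(H, Qb)`.
-/
import Fermat.Prelude.Def_GaloisRep_Flat
import Fermat.Agent.S28.RatLocal
import Fermat.Agent.GP.Flat.Cartier

set_option autoImplicit false

namespace Fermat.Agent.GP.Flat.CartierFrozen

open GaloisRep Fermat.Agent.GP.Flat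

variable (p : ℕ) [Fact p.Prime] (H : Type) [CommRing H] [HopfAlgebra (ratLocalizedAt p) H]
  [Module.Finite (ratLocalizedAt p) H] [Module.Flat (ratLocalizedAt p) H]

/-- A finite flat module over `ℤ_(p)` is free. -/
theorem free : Module.Free (ratLocalizedAt p) H :=
  Module.free_of_flat_of_isLocalRing

omit [Fact p.Prime] [Module.Flat (ratLocalizedAt p) H] in
/-- The set of points is finite. -/
theorem finite_points : Finite (H →ₐ[ratLocalizedAt p] AlgebraicClosure ℚ) :=
  Cartier.finite_points_base (ratLocalizedAt p) (AlgebraicClosure ℚ) H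

/-- **Cartier, frozen shape**: `#G(Qb) = rank H`. -/
theorem card_points :
    Nat.card (H →ₐ[ratLocalizedAt p] AlgebraicClosure ℚ) =
      Module.finrank (ratLocalizedAt p) H :=
  have := free p H
  Cartier.card_points_base (ratLocalizedAt p) (AlgebraicClosure ℚ) H

/-- The same count for the convolution group of points used by `IsFlatAt`. -/
theorem card_points_withConv :
    Nat.card (WithConv (H →ₐ[ratLocalizedAt p] AlgebraicClosure ℚ)) =
      Module.finrank (ratLocalizedAt p) H := by
  rw [← card_points p H]
  exact Nat.card_congr (WithConv.equiv _)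

/-- **Cartier, frozen shape, spanning form**: the points span `Hom_R0(H, Qb)` over `Qb`. -/
theorem span_points :
    Submodule.span (AlgebraicClosure ℚ)
      (Set.range (AlgHom.toLinearMap :
        (H →ₐ[ratLocalizedAt p] AlgebraicClosure ℚ) → H →ₗ[ratLocalizedAt p] AlgebraicClosure ℚ)) =
      ⊤ :=
  have := free p H
  Cartier.span_points_base (ratLocalizedAt p) (AlgebraicClosure ℚ) H

omit [Fact p.Prime] [Module.Finite (ratLocalizedAt p) H] [Module.Flat (ratLocalizedAt p) H] in
/-- The points are linearly independent over `Qb` (Dedekind; no Hopf structure needed). -/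
theorem linearIndependent_points :
    LinearIndependent (AlgebraicClosure ℚ)
      (AlgHom.toLinearMap :
        (H →ₐ[ratLocalizedAt p] AlgebraicClosure ℚ) → H →ₗ[ratLocalizedAt p] AlgebraicClosure ℚ) :=
  linearIndependent_toLinearMap (ratLocalizedAt p) H (AlgebraicClosure ℚ)

/-- The points as a `Qb`-basis of `Hom_R0(H, Qb)`. -/
noncomputable def pointsBasis :
    Module.Basis (H →ₐ[ratLocalizedAt p] AlgebraicClosure ℚ) (AlgebraicClosure ℚ)
      (H →ₗ[ratLocalizedAt p] AlgebraicClosure ℚ) :=
  have := free p H
  Cartier.pointsBasis (ratLocalizedAt p) (AlgebraicClosure ℚ) H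

@[simp]
theorem pointsBasis_apply (g : H →ₐ[ratLocalizedAt p] AlgebraicClosure ℚ) :
    pointsBasis p H g = g.toLinearMap := by
  have := free p H
  exact Cartier.pointsBasis_apply (ratLocalizedAt p) (AlgebraicClosure ℚ) H g

/-- Consequence (the points separate `H`): since the points span the dual and `H` is free over a
subring of `Qb`, an element of `H` killed by every point is zero.  Equivalently `H` embeds into
the function ring `Fun(G(Qb), Qb)` (the "function model"). -/
theorem eq_zero_of_forall_point (h : H)
    (hh : ∀ g : H →ₐ[ratLocalizedAt p] AlgebraicClosure ℚ, g h = 0) : h = 0 := by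
  have hfree := free p H
  -- every `R0`-linear form into `Qb` kills `h`
  have hall : ∀ f : H →ₗ[ratLocalizedAt p] AlgebraicClosure ℚ, f h = 0 := by
    intro f
    have hf : f ∈ Submodule.span (AlgebraicClosure ℚ)
        (Set.range (AlgHom.toLinearMap :
          (H →ₐ[ratLocalizedAt p] AlgebraicClosure ℚ) →
            H →ₗ[ratLocalizedAt p] AlgebraicClosure ℚ)) := by
      rw [span_points p H]
      trivial
    induction hf using Submodule.span_induction with
    | mem f hf =>
      obtain ⟨g, rfl⟩ := hf
      exact hh g
    | zero => rfl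
    | add f₁ f₂ _ _ h₁ h₂ => rw [LinearMap.add_apply, h₁, h₂, add_zero]
    | smul c f _ hf => rw [LinearMap.smul_apply, hf, smul_zero]
  -- coordinates of `h` in a basis vanish
  let b := Module.Free.chooseBasis (ratLocalizedAt p) H
  have hinj : Function.Injective (algebraMap (ratLocalizedAt p) (AlgebraicClosure ℚ)) := by
    intro x y hxy
    have h1 : algebraMap ℚ (AlgebraicClosure ℚ) (x : ℚ) = algebraMap ℚ (AlgebraicClosure ℚ) (y : ℚ) :=
      hxy
    exact Subtype.ext ((algebraMap ℚ (AlgebraicClosure ℚ)).injective h1)
  apply b.repr.injective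
  ext i
  have := hall ((Algebra.linearMap (ratLocalizedAt p) (AlgebraicClosure ℚ)).comp (b.coord i))
  rw [LinearMap.comp_apply, Algebra.linearMap_apply] at this
  have h0 := hinj (this.trans (map_zero _).symm)
  simpa using h0

end Fermat.Agent.GP.Flat.CartierFrozen
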