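/-
GATE-P (S56) / [P-FLAT] addendum to S56-FLAT-CARTIER (helper65): group-algebra form and Fourier
evaluations in the FROZEN shape (`R0 = GaloisRep.ratLocalizedAt p`, `Qb = AlgebraicClosure ℚ`).
-/
import Fermat.Agent.GP.Flat.CartierFrozen
import Fermat.Agent.GP.Flat.CartierGroupAlg

set_option autoImplicit false

namespace Fermat.Agent.GP.Flat.CartierFrozen

open GaloisRep Fermat.Agent.GP.Flat WithConv

variable (p : ℕ) [Fact p.Prime] (H : Type) [CommRing H] [HopfAlgebra (ratLocalizedAt p) H]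
  [Module.Finite (ratLocalizedAt p) H] [Module.Flat (ratLocalizedAt p) H]

/-- `Qb[Γ] ≃ₐ[Qb] Hom_R0(H, Qb)` (convolution algebra), `Γ` the convolution group of points. -/
noncomputable def groupAlgEquiv :
    MonoidAlgebra (AlgebraicClosure ℚ) (WithConv (H →ₐ[ratLocalizedAt p] AlgebraicClosure ℚ)) ≃ₐ[
      AlgebraicClosure ℚ] WithConv (H →ₗ[ratLocalizedAt p] AlgebraicClosure ℚ) :=
  haveI := free p H
  Cartier.groupAlgEquiv (ratLocalizedAt p) (AlgebraicClosure ℚ) H

@[simp]
theorem groupAlgEquiv_single (g : WithConv (H →ₐ[ratLocalizedAt p] AlgebraicClosure ℚ))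
    (c : AlgebraicClosure ℚ) :
    groupAlgEquiv p H (MonoidAlgebra.single g c) = c • toConv g.ofConv.toLinearMap := by
  have := free p H
  exact Cartier.groupAlgEquiv_single (ratLocalizedAt p) (AlgebraicClosure ℚ) H g c

/-- Fourier evaluation at a character of the group of points. -/
noncomputable def evChar
    (ψ : WithConv (H →ₐ[ratLocalizedAt p] AlgebraicClosure ℚ) →* AlgebraicClosure ℚ) :
    WithConv (H →ₗ[ratLocalizedAt p] AlgebraicClosure ℚ) →ₐ[AlgebraicClosure ℚ]
      AlgebraicClosure ℚ :=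
  haveI := free p H
  Cartier.evChar (ratLocalizedAt p) (AlgebraicClosure ℚ) H ψ

@[simp]
theorem evChar_point
    (ψ : WithConv (H →ₐ[ratLocalizedAt p] AlgebraicClosure ℚ) →* AlgebraicClosure ℚ)
    (g : WithConv (H →ₐ[ratLocalizedAt p] AlgebraicClosure ℚ)) :
    evChar p H ψ (toConv g.ofConv.toLinearMap) = ψ g := by
  have := free p H
  exact Cartier.evChar_point (ratLocalizedAt p) (AlgebraicClosure ℚ) H ψ g

theorem evChar_one (f : WithConv (H →ₗ[ratLocalizedAt p] AlgebraicClosure ℚ)) :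
    evChar p H 1 f = f.ofConv 1 := by
  have := free p H
  exact Cartier.evChar_one (ratLocalizedAt p) (AlgebraicClosure ℚ) H f

end Fermat.Agent.GP.Flat.CartierFrozen
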