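/-
GATE-P (S56) / [P-FLAT] addendum 2 to S56-FLAT-CARTIER (helper65), FROZEN shape: integrality of the
Fourier evaluations for `R0 = GaloisRep.ratLocalizedAt p`, `Qb = AlgebraicClosure ℚ`, `A` a
valuation subring of `Qb` containing the image of `R0` (e.g. any `A` with `(p : Qb) ∈ A.nonunits`).
-/
import Fermat.Agent.GP.Flat.CartierGroupAlgFrozen
import Fermat.Agent.GP.Flat.CartierIntegral

set_option autoImplicit false

namespace Fermat.Agent.GP.Flat.CartierFrozen

open GaloisRep Fermat.Agent.GP.Flat WithConv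

variable (p : ℕ) [Fact p.Prime] (H : Type) [CommRing H] [HopfAlgebra (ratLocalizedAt p) H]
  [Module.Finite (ratLocalizedAt p) H] [Module.Flat (ratLocalizedAt p) H]

omit [Fact p.Prime] in
/-- The image of `ℤ_(p)` lies in every valuation subring of `Qb` in which `p` is a non-unit. -/
theorem algebraMap_mem_of_nonunit (A : ValuationSubring (AlgebraicClosure ℚ))
    (hpA : (p : AlgebraicClosure ℚ) ∈ A.nonunits) (r : ratLocalizedAt p) :
    algebraMap (ratLocalizedAt p) (AlgebraicClosure ℚ) r ∈ A := by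
  obtain ⟨q, hq⟩ := r
  have hcop : q.den.Coprime p := hq
  show algebraMap ℚ (AlgebraicClosure ℚ) q ∈ A
  -- `q = num / den`, `den` is a unit of `A`
  have hden : ((q.den : ℕ) : AlgebraicClosure ℚ) ∈ A := natCast_mem A q.den
  have hnum : ((q.num : ℤ) : AlgebraicClosure ℚ) ∈ A := intCast_mem A q.num
  have hdinv : ((q.den : ℕ) : AlgebraicClosure ℚ)⁻¹ ∈ A := by
    -- Bezout: `u * den + w * p = 1`
    have hb := Nat.gcd_eq_gcd_ab q.den p
    rw [Nat.Coprime] at hcop
    rw [hcop] at hb
    have h1 : (1 : AlgebraicClosure ℚ) =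
        ((q.den.gcdA p : ℤ) : AlgebraicClosure ℚ) * ((q.den : ℕ) : AlgebraicClosure ℚ) +
          ((q.den.gcdB p : ℤ) : AlgebraicClosure ℚ) * ((p : ℕ) : AlgebraicClosure ℚ) := by
      have := congrArg (fun z : ℤ => (z : AlgebraicClosure ℚ)) hb
      simp only [Nat.cast_one, Int.cast_one, Int.cast_add, Int.cast_mul, Int.cast_natCast] at this
      rw [this]
      ring
    have hvp : A.valuation ((p : ℕ) : AlgebraicClosure ℚ) < 1 := (A.mem_nonunits_iff).1 hpA
    have hvd : A.valuation ((q.den : ℕ) : AlgebraicClosure ℚ) ≤ 1 := (A.valuation_le_one_iff _).2 hden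
    have hvd1 : A.valuation ((q.den : ℕ) : AlgebraicClosure ℚ) = 1 := by
      refine le_antisymm hvd (not_lt.1 fun hlt => ?_)
      have hv : A.valuation (1 : AlgebraicClosure ℚ) < 1 := by
        rw [h1]
        refine lt_of_le_of_lt (A.valuation.map_add _ _) (max_lt ?_ ?_)
        · rw [map_mul]
          exact mul_lt_one_of_nonneg_of_lt_one_right
            ((A.valuation_le_one_iff _).2 (intCast_mem A _)) zero_le hlt
        · rw [map_mul]
          exact mul_lt_one_of_nonneg_of_lt_one_right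
            ((A.valuation_le_one_iff _).2 (intCast_mem A _)) zero_le hvp
      rw [map_one] at hv
      exact lt_irrefl _ hv
    apply A.mem_of_valuation_le_one
    rw [map_inv₀, hvd1, inv_one]
  have hq' : algebraMap ℚ (AlgebraicClosure ℚ) q =
      ((q.num : ℤ) : AlgebraicClosure ℚ) * ((q.den : ℕ) : AlgebraicClosure ℚ)⁻¹ := by
    conv_lhs => rw [← Rat.num_div_den q]
    simp [div_eq_mul_inv]
  rw [hq']
  exact A.mul_mem _ _ hnum hdinv

/-- **Integrality of the Fourier evaluations, frozen shape.** -/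
theorem evChar_mem (A : ValuationSubring (AlgebraicClosure ℚ))
    (hint : ∀ r : ratLocalizedAt p, algebraMap (ratLocalizedAt p) (AlgebraicClosure ℚ) r ∈ A)
    (ψ : WithConv (H →ₐ[ratLocalizedAt p] AlgebraicClosure ℚ) →* AlgebraicClosure ℚ)
    {f : WithConv (H →ₗ[ratLocalizedAt p] AlgebraicClosure ℚ)} (hf : ∀ h, f.ofConv h ∈ A) :
    evChar p H ψ f ∈ A := by
  have := free p H
  exact Cartier.evChar_mem_valuationSubring (ratLocalizedAt p) (AlgebraicClosure ℚ) A hint ψ hf

/-- Same with the hypothesis `p ∈ A.nonunits` of the frozen `P`. -/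
theorem evChar_mem_of_nonunit (A : ValuationSubring (AlgebraicClosure ℚ))
    (hpA : (p : AlgebraicClosure ℚ) ∈ A.nonunits)
    (ψ : WithConv (H →ₐ[ratLocalizedAt p] AlgebraicClosure ℚ) →* AlgebraicClosure ℚ)
    {f : WithConv (H →ₗ[ratLocalizedAt p] AlgebraicClosure ℚ)} (hf : ∀ h, f.ofConv h ∈ A) :
    evChar p H ψ f ∈ A :=
  evChar_mem p H A (algebraMap_mem_of_nonunit p A hpA) ψ hf

end Fermat.Agent.GP.Flat.CartierFrozen
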