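import Mathlib
import Fermat.Agent.GP.Flat.EigenCountCyc

/-!
# GATE-P / S56 [P-FLAT] — S56-FLAT-EIGENCOUNT, part 4: the `T_i` bounds   (helper25)

Orphan on top of `EigenCountCyc` (Mathlib only).  Consumer: S56-FLAT-SSASM (D), the bound of
`T_i = {Λ : N^∨ → κ additive, twisted-equivariant}`; `V = N^∨` is a `k`-space, the tame generator
`τ` acts on the three lines of `V` by scalars `ψ(τ) ∈ k`, on `gr^i ⊂ κ` by `ϑ_i = θ̄(τ)^i`.

* `map_aeval_smul`, `eq_zero_of_aeval` : **character mismatch (CM)**, integer-polynomial form: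
  `f (ψ • v) = ϑ * f v`, `P(ψ) = 0`, `P(ϑ) ≠ 0` ⟹ `f = 0`.
* `eq_zero_of_not_conj` : CM over `F = 𝔽_{p²}`: `f (ι μ • v) = ν * f v`, `ν ∉ {μ, μ^p}` ⟹ `f = 0`
  (a line whose character is not conjugate to `θ̄^i` carries nothing at level `i`).
* `IsCoEC.of_closure`, `closure_eq_top_of_pow_ne` : `F`-linearity from ONE relation at a ring
  generator; in `𝔽_{p²}` every `μ` with `μ^p ≠ μ` is a ring generator.
* `card_le_of_three_lines` : **`#T ≤ #k`** for additive `Λ : V → κ`, `V = V₀ + k e₁ + k e₂`, `Λ|V₀ = 0`,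
  tame relation on `k e₁`, Frobenius relations swapping the two lines.
-/

namespace Fermat.Agent.GP.Flat.EigenCount

open Polynomial

section CM

variable {k κ V : Type*} [CommRing k] [CommRing κ] [AddCommGroup V] [Module k V]

/-- An additive map `f : V → κ` with `f (ψ • v) = ϑ * f v` satisfies
`f (P(ψ) • v) = P(ϑ) * f v` for every integer polynomial `P`. -/
lemma map_aeval_smul (f : V →+ κ) (ψ : k) (ϑ : κ) (h : ∀ v, f (ψ • v) = ϑ * f v) (P : ℤ[X])
    (v : V) : f ((aeval ψ P) • v) = (aeval ϑ P) * f v := by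
  have hpow : ∀ (n : ℕ) (v : V), f ((ψ ^ n) • v) = ϑ ^ n * f v := by
    intro n
    induction n with
    | zero => intro v; simp
    | succ n ih => intro v; rw [pow_succ, mul_smul, ih, h, pow_succ, mul_assoc]
  induction P using Polynomial.induction_on' with
  | add P Q hP hQ => rw [map_add, add_smul, map_add, hP, hQ, map_add, add_mul]
  | monomial n a =>
    rw [aeval_monomial, aeval_monomial, eq_intCast, eq_intCast, mul_smul, Int.cast_smul_eq_zsmul,
      map_zsmul, hpow, zsmul_eq_mul, mul_assoc]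

/-- **Character mismatch (CM)**: if an integer polynomial kills `ψ` but not `ϑ` (in a domain), an
additive `f` with `f (ψ • v) = ϑ * f v` vanishes. -/
theorem eq_zero_of_aeval [IsDomain κ] (f : V →+ κ) (ψ : k) (ϑ : κ)
    (h : ∀ v, f (ψ • v) = ϑ * f v) (P : ℤ[X]) (hψ : aeval ψ P = 0) (hϑ : aeval ϑ P ≠ 0) (v : V) :
    f v = 0 := by
  have := map_aeval_smul f ψ ϑ h P v
  rw [hψ, zero_smul, map_zero] at this
  exact (mul_eq_zero.1 this.symm).resolve_left hϑ

end CM


section CMF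

lemma aeval_quadratic_intCast {F A : Type*} [Field F] [Field A] [Algebra F A] (T N : ℤ) (μ μ' : F)
    (hT : (T : F) = μ + μ') (hN : (N : F) = μ * μ') (x : F) :
    aeval (algebraMap F A x) (X ^ 2 - (T : ℤ[X]) * X + (N : ℤ[X]) : ℤ[X]) =
      algebraMap F A ((x - μ) * (x - μ')) := by
  simp only [map_add, map_sub, map_mul, map_pow, aeval_X, map_intCast]
  rw [← map_intCast (algebraMap F A) T, ← map_intCast (algebraMap F A) N, hT, hN]
  simp only [map_add, map_mul]
  ring

variable {p : ℕ} [Fact p.Prime] {F k κ V : Type*} [Field F] [Fintype F] [CharP F p]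
  [Field k] [Algebra F k] [Field κ] [Algebra F κ] [AddCommGroup V] [Module k V]

/-- **Character mismatch over `𝔽_{p²}`**: if `f (ι μ • v) = ν * f v` with `ν ∉ {μ, μ^p}` (the
conjugates of `μ`), then `f = 0`. -/
theorem eq_zero_of_not_conj (hF : Fintype.card F = p ^ 2) (f : V →+ κ) (μ ν : F)
    (h : ∀ v, f (algebraMap F k μ • v) = algebraMap F κ ν * f v) (h1 : ν ≠ μ) (h2 : ν ≠ μ ^ p)
    (v : V) : f v = 0 := by
  have hμ : μ ^ (p ^ 2) = μ := by rw [← hF]; exact FiniteField.pow_card μ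
  have ht : (μ + μ ^ p) ^ p = μ + μ ^ p := by
    rw [add_pow_char, ← pow_mul, ← sq, hμ, add_comm]
  have hn : (μ * μ ^ p) ^ p = μ * μ ^ p := by
    rw [mul_pow, ← pow_mul, ← sq, hμ, mul_comm]
  obtain ⟨T, hT⟩ := (mem_bot_iff_intCast p F).1 ((Subfield.mem_bot_iff_pow_eq_self F p).2 ht)
  obtain ⟨N, hN⟩ := (mem_bot_iff_intCast p F).1 ((Subfield.mem_bot_iff_pow_eq_self F p).2 hn)
  refine eq_zero_of_aeval f _ _ h (X ^ 2 - (T : ℤ[X]) * X + (N : ℤ[X]) : ℤ[X]) ?_ ?_ v
  · rw [aeval_quadratic_intCast T N μ (μ ^ p) hT hN, sub_self, zero_mul, map_zero]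
  · rw [aeval_quadratic_intCast T N μ (μ ^ p) hT hN]
    exact (map_ne_zero_iff _ (algebraMap F κ).injective).2
      (mul_ne_zero (sub_ne_zero.2 h1) (sub_ne_zero.2 h2))

end CMF


section OfClosure

variable {F κ k : Type*} [Field F] [Fintype F] [Field κ] [Algebra F κ] [Field k] [Algebra F k]

/-- `F`-linearity of a member of `E'(u, c)` only needs to be checked on a ring generator `μ₀`
of `F`. -/
lemma IsCoEC.of_closure {u : κ} {c : k} {f : k → κ} {μ₀ : F}
    (hgen : Subring.closure ({μ₀} : Set F) = ⊤)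
    (hadd : ∀ x y, f (x + y) = f x + f y)
    (hμ₀ : ∀ x, f (algebraMap F k μ₀ * x) = algebraMap F κ μ₀ * f x)
    (hfrob : ∀ x, f (c * x) = u * f x ^ Fintype.card F) : IsCoEC F u c f := by
  have h0 : f 0 = 0 := by
    have := hadd 0 0
    rw [add_zero] at this
    exact left_eq_add.1 this
  have hneg : ∀ a, f (-a) = -f a := fun a => by
    have := hadd a (-a)
    rw [add_neg_cancel, h0] at this
    exact eq_neg_of_add_eq_zero_right this.symm
  refine ⟨hadd, fun μ => ?_, hfrob⟩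
  have hμ : μ ∈ Subring.closure ({μ₀} : Set F) := hgen ▸ Subring.mem_top μ
  induction hμ using Subring.closure_induction with
  | mem x hx =>
    rw [Set.mem_singleton_iff] at hx
    subst hx
    exact hμ₀
  | zero => intro a; simp [h0]
  | one => intro a; simp
  | add x y _ _ hx hy => intro a; rw [map_add, add_mul, hadd, hx, hy, map_add, add_mul]
  | neg x _ hx => intro a; rw [map_neg, neg_mul, hneg, hx, map_neg, neg_mul]
  | mul x y _ _ hx hy => intro a; rw [map_mul, mul_assoc, hx, hy, map_mul, mul_assoc]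

end OfClosure

section Closure

variable {p : ℕ} [Fact p.Prime] {F : Type*} [Field F] [Fintype F] [CharP F p]

/-- In a field with `p²` elements every element outside the prime field is a ring generator. -/
theorem closure_eq_top_of_pow_ne (hF : Fintype.card F = p ^ 2) {μ : F} (hμ : μ ^ p ≠ μ) :
    Subring.closure ({μ} : Set F) = ⊤ := by
  let _ := ZMod.algebra F p
  have hfr : Module.finrank (ZMod p) F = 2 := by
    have h := Module.card_eq_pow_finrank (K := ZMod p) (V := F)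
    rw [ZMod.card, hF] at h
    exact (Nat.pow_right_injective (Fact.out : p.Prime).two_le h).symm
  have hcast : ∀ a : ZMod p, algebraMap (ZMod p) F a ∈ Subring.closure ({μ} : Set F) := by
    intro a
    obtain ⟨n, rfl⟩ := ZMod.intCast_surjective a
    rw [map_intCast]
    exact intCast_mem _ n
  have hli : LinearIndependent (ZMod p) ![(1 : F), μ] := by
    rw [LinearIndependent.pair_iff]
    intro s t hst
    by_cases ht : t = 0
    · subst ht
      rw [zero_smul, add_zero, Algebra.smul_def, mul_one] at hst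
      exact ⟨(map_eq_zero_iff _ (algebraMap (ZMod p) F).injective).1 hst, rfl⟩
    · exfalso
      apply hμ
      have hμ' : μ = algebraMap (ZMod p) F (-s / t) := by
        rw [Algebra.smul_def, Algebra.smul_def, mul_one] at hst
        have ht' : algebraMap (ZMod p) F t ≠ 0 :=
          (map_ne_zero_iff _ (algebraMap (ZMod p) F).injective).2 ht
        rw [map_div₀, map_neg, eq_div_iff ht']
        linear_combination hst
      rw [hμ', ← map_pow, ZMod.pow_card]
  have hspan := hli.span_eq_top_of_card_eq_finrank' (by simp [hfr])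
  rw [eq_top_iff]
  intro x _
  have hx : x ∈ Submodule.span (ZMod p) (Set.range ![(1 : F), μ]) := by rw [hspan]; trivial
  rw [Matrix.range_cons, Matrix.range_cons, Matrix.range_empty, Set.union_empty,
    Set.singleton_union, Submodule.mem_span_pair] at hx
  obtain ⟨a, b, rfl⟩ := hx
  rw [Algebra.smul_def, Algebra.smul_def, mul_one]
  exact add_mem (hcast a) (mul_mem (hcast b) (Subring.subset_closure rfl))

end Closure


section ThreeLines

variable {p : ℕ} {F k κ V : Type*} [Field F] [Fintype F]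
  [Field k] [Finite k] [Algebra F k] [Field κ] [Finite κ] [Algebra F κ]
  [AddCommGroup V] [Module k V]

/-- **The `T_i` bound (three-line form).**  `V` a `k`-space which is the sum of an additive subgroup
`V₀` and two lines `k e₁`, `k e₂`; `T` a set of additive maps `Λ : V → κ` which vanish on `V₀`, are
`𝔽_{p²}`-semilinear on `k e₁` (the tame inertia relation), and satisfy the two Frobenius relations
`Λ ((s₁ x) • e₂) = u * Λ (x • e₁) ^ p`, `Λ ((s₂ y) • e₁) = u * Λ (y • e₂) ^ p`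
(`A_φ` swaps the two lines).  Then `#T ≤ #k`. -/
theorem card_le_of_three_lines (hF : Fintype.card F = p ^ 2)
    (V₀ : AddSubgroup V) (e₁ e₂ : V)
    (hspan : ∀ v : V, ∃ v₀ ∈ V₀, ∃ x y : k, v = v₀ + x • e₁ + y • e₂)
    {u : κ} (hu : u ≠ 0) {s₁ s₂ : k} (hs : s₁ ≠ 0)
    (T : Set (V → κ))
    (hadd : ∀ Λ ∈ T, ∀ v w, Λ (v + w) = Λ v + Λ w)
    (hzero : ∀ Λ ∈ T, ∀ v ∈ V₀, Λ v = 0)
    {μ₀ : F} (hgen : Subring.closure ({μ₀} : Set F) = ⊤)
    (htau : ∀ Λ ∈ T, ∀ x : k,
      Λ ((algebraMap F k μ₀ * x) • e₁) = algebraMap F κ μ₀ * Λ (x • e₁))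
    (hphi₁ : ∀ Λ ∈ T, ∀ x : k, Λ ((s₁ * x) • e₂) = u * Λ (x • e₁) ^ p)
    (hphi₂ : ∀ Λ ∈ T, ∀ y : k, Λ ((s₂ * y) • e₁) = u * Λ (y • e₂) ^ p) :
    Nat.card T ≤ Nat.card k := by
  have hu' : u * u ^ p ≠ 0 := mul_ne_zero hu (pow_ne_zero _ hu)
  have hmem : ∀ Λ ∈ T, IsCoEC F (u * u ^ p) (s₂ * s₁) (fun x => Λ (x • e₁)) := by
    intro Λ hΛ
    refine IsCoEC.of_closure hgen (fun x y => by rw [add_smul, hadd Λ hΛ])
      (fun x => htau Λ hΛ x) fun x => ?_
    rw [mul_assoc, hphi₂ Λ hΛ, hphi₁ Λ hΛ, hF, mul_pow, ← pow_mul, sq, mul_assoc]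
  let r : T → {f : k → κ // IsCoEC F (u * u ^ p) (s₂ * s₁) f} :=
    fun Λ => ⟨fun x => Λ.1 (x • e₁), hmem Λ.1 Λ.2⟩
  have hinj : Function.Injective r := by
    rintro ⟨Λ, hΛ⟩ ⟨Λ', hΛ'⟩ h
    have hplus : ∀ x : k, Λ (x • e₁) = Λ' (x • e₁) := fun x =>
      congrFun (congrArg Subtype.val h) x
    have hminus : ∀ y : k, Λ (y • e₂) = Λ' (y • e₂) := by
      intro y
      have hy : y = s₁ * (s₁⁻¹ * y) := by rw [mul_inv_cancel_left₀ hs]
      rw [hy, hphi₁ Λ hΛ, hphi₁ Λ' hΛ', hplus]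
    apply Subtype.ext
    funext v
    obtain ⟨v₀, hv₀, x, y, rfl⟩ := hspan v
    show Λ (v₀ + x • e₁ + y • e₂) = Λ' (v₀ + x • e₁ + y • e₂)
    rw [hadd Λ hΛ, hadd Λ hΛ, hadd Λ' hΛ', hadd Λ' hΛ', hzero Λ hΛ v₀ hv₀, hzero Λ' hΛ' v₀ hv₀,
      hplus, hminus]
  exact (Nat.card_le_card_of_injective r hinj).trans (IsCoEC.card_le (F := F) hu' (s₂ * s₁))

end ThreeLines


end Fermat.Agent.GP.Flat.EigenCount
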