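import Mathlib
import Fermat.Agent.GP.Flat.EigenCountT

/-!
# GATE-P / S56 [P-FLAT] — S56-FLAT-EIGENCOUNT, part 6: the `T_i` bounds in the `tw` language
(helper25)

Orphan on top of `EigenCountT`.  Ready-made form of S56-FLAT-SSASM (D) for
`N = M₂(k)`, `V = (N →+ ZMod p)` and helper75's twisted action
`tw act c δ ℓ = n ↦ (c : ZMod p) * ℓ (act δ⁻¹ n)` (here `twA c A ℓ` with `A = act δ⁻¹`; the two are
definitionally equal).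

* `card_le_of_two_lines` : the abstract bound `#T ≤ #k`, parametrised lines `j₁ j₂ : k → V`
  (no module structure on `V`).
* `rootFun ℓ₀ i j x = n ↦ ℓ₀ (x * n i j)`, `diagFun`, `exists_decomp` : every functional on `M₂(k)`
  is diagonal + `rootFun ℓ₀ 0 1 x` + `rootFun ℓ₀ 1 0 y` (for ANY nonzero `ℓ₀ : k →+ ZMod p`; no
  trace form).
* `twA_rootFun`, `twA_diag` : how `twA` moves these pieces, from the matrix entries of `A`.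
* `eq_zero_on_diag` : the diagonal part dies when `(c_τ : κ) ≠ ε_τ`.
* `card_le_of_tw` : **`#T ≤ #k`** at the matching level (`R τ` diagonal, `R φ` antidiagonal).
* `eq_zero_of_tw_mismatch` : `Λ = 0` at a level matching neither root line.
-/

namespace Fermat.Agent.GP.Flat.EigenCount

section TwoLines

variable {p : ℕ} {F k κ V : Type*} [Field F] [Fintype F]
  [Field k] [Finite k] [Algebra F k] [Field κ] [Finite κ] [Algebra F κ] [AddCommGroup V]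

/-- **The `T_i` bound, parametrised form** (no module structure on `V` needed): `V` is the sum of an
additive subgroup `V₀` and the images of two additive parametrisations `j₁ j₂ : k → V` of "lines";
`T` a set of additive `Λ : V → κ` vanishing on `V₀`, with the tame relation on the first line
(checked at ONE ring generator `μ₀` of `F = 𝔽_{p²}`) and the two Frobenius relations swapping the
lines.  Then `#T ≤ #k`. -/
theorem card_le_of_two_lines (hF : Fintype.card F = p ^ 2)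
    (V₀ : AddSubgroup V) (j₁ j₂ : k → V)
    (hj₁ : ∀ x y, j₁ (x + y) = j₁ x + j₁ y)
    (hspan : ∀ v : V, ∃ v₀ ∈ V₀, ∃ x y : k, v = v₀ + j₁ x + j₂ y)
    {u : κ} (hu : u ≠ 0) {s₁ s₂ : k} (hs : s₁ ≠ 0)
    (T : Set (V → κ))
    (hadd : ∀ Λ ∈ T, ∀ v w, Λ (v + w) = Λ v + Λ w)
    (hzero : ∀ Λ ∈ T, ∀ v ∈ V₀, Λ v = 0)
    {μ₀ : F} (hgen : Subring.closure ({μ₀} : Set F) = ⊤)
    (htau : ∀ Λ ∈ T, ∀ x : k, Λ (j₁ (algebraMap F k μ₀ * x)) = algebraMap F κ μ₀ * Λ (j₁ x))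
    (hphi₁ : ∀ Λ ∈ T, ∀ x : k, Λ (j₂ (s₁ * x)) = u * Λ (j₁ x) ^ p)
    (hphi₂ : ∀ Λ ∈ T, ∀ y : k, Λ (j₁ (s₂ * y)) = u * Λ (j₂ y) ^ p) :
    Nat.card T ≤ Nat.card k := by
  have hu' : u * u ^ p ≠ 0 := mul_ne_zero hu (pow_ne_zero _ hu)
  have hmem : ∀ Λ ∈ T, IsCoEC F (u * u ^ p) (s₂ * s₁) (fun x => Λ (j₁ x)) := by
    intro Λ hΛ
    refine IsCoEC.of_closure hgen (fun x y => by rw [hj₁, hadd Λ hΛ])
      (fun x => htau Λ hΛ x) fun x => ?_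
    rw [mul_assoc, hphi₂ Λ hΛ, hphi₁ Λ hΛ, hF, mul_pow, ← pow_mul, sq, mul_assoc]
  let r : T → {f : k → κ // IsCoEC F (u * u ^ p) (s₂ * s₁) f} :=
    fun Λ => ⟨fun x => Λ.1 (j₁ x), hmem Λ.1 Λ.2⟩
  have hinj : Function.Injective r := by
    rintro ⟨Λ, hΛ⟩ ⟨Λ', hΛ'⟩ h
    have hplus : ∀ x : k, Λ (j₁ x) = Λ' (j₁ x) := fun x =>
      congrFun (congrArg Subtype.val h) x
    have hminus : ∀ y : k, Λ (j₂ y) = Λ' (j₂ y) := by
      intro y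
      have hy : y = s₁ * (s₁⁻¹ * y) := by rw [mul_inv_cancel_left₀ hs]
      rw [hy, hphi₁ Λ hΛ, hphi₁ Λ' hΛ', hplus]
    apply Subtype.ext
    funext v
    obtain ⟨v₀, hv₀, x, y, rfl⟩ := hspan v
    show Λ (v₀ + j₁ x + j₂ y) = Λ' (v₀ + j₁ x + j₂ y)
    rw [hadd Λ hΛ, hadd Λ hΛ, hadd Λ' hΛ', hadd Λ' hΛ', hzero Λ hΛ v₀ hv₀, hzero Λ' hΛ' v₀ hv₀,
      hplus, hminus]
  exact (Nat.card_le_card_of_injective r hinj).trans (IsCoEC.card_le (F := F) hu' (s₂ * s₁))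

end TwoLines

section Matrix2

section Basic

variable {p : ℕ} {k : Type*} [Field k]

/-- The functional `n ↦ ℓ₀ (x * n i j)` on `2 × 2` matrices. -/
def rootFun (ℓ₀ : k →+ ZMod p) (i j : Fin 2) (x : k) : Matrix (Fin 2) (Fin 2) k →+ ZMod p :=
  ℓ₀.comp ((AddMonoidHom.mulLeft x).comp (Matrix.entryAddMonoidHom k i j))

@[simp] lemma rootFun_apply (ℓ₀ : k →+ ZMod p) (i j : Fin 2) (x : k)
    (n : Matrix (Fin 2) (Fin 2) k) : rootFun ℓ₀ i j x n = ℓ₀ (x * n i j) := rfl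

lemma rootFun_add (ℓ₀ : k →+ ZMod p) (i j : Fin 2) (x y : k) :
    rootFun ℓ₀ i j (x + y) = rootFun ℓ₀ i j x + rootFun ℓ₀ i j y := by
  ext n; simp [add_mul]

/-- functionals that only see the diagonal entries. -/
def diagFun (k : Type*) [Field k] (p : ℕ) : AddSubgroup (Matrix (Fin 2) (Fin 2) k →+ ZMod p) where
  carrier := {ℓ | ∀ n : Matrix (Fin 2) (Fin 2) k, n 0 0 = 0 → n 1 1 = 0 → ℓ n = 0}
  add_mem' := fun ha hb n h0 h1 => by rw [AddMonoidHom.add_apply, ha n h0 h1, hb n h0 h1, add_zero]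
  zero_mem' := fun _ _ _ => rfl
  neg_mem' := fun ha n h0 h1 => by rw [AddMonoidHom.neg_apply, ha n h0 h1, neg_zero]

/-- `(c : ZMod p) * ℓ₀ y = ℓ₀ ((c : k) * y)`. -/
lemma natCast_mul_apply (ℓ₀ : k →+ ZMod p) (c : ℕ) (y : k) :
    (c : ZMod p) * ℓ₀ y = ℓ₀ ((c : k) * y) := by
  rw [← nsmul_eq_mul, ← nsmul_eq_mul, map_nsmul]

/-- The twisted pull-back of a functional, `n ↦ c * ℓ (A n)`; with `A = act δ⁻¹` this is
`SSChainVec.tw act c δ ℓ` (definitionally). -/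
def twA {N : Type*} [AddCommGroup N] (c : ℕ) (A : N →+ N) (ℓ : N →+ ZMod p) : N →+ ZMod p :=
  (AddMonoidHom.mulLeft (c : ZMod p)).comp (ℓ.comp A)

/-- `twA` moves root functionals according to the matrix entries of `A`. -/
lemma twA_rootFun (ℓ₀ : k →+ ZMod p) (c : ℕ)
    (A : Matrix (Fin 2) (Fin 2) k →+ Matrix (Fin 2) (Fin 2) k) {i j i' j' : Fin 2} {t : k}
    (hA : ∀ n, A n i j = t * n i' j') (x : k) :
    twA c A (rootFun ℓ₀ i j x) = rootFun ℓ₀ i' j' ((c : k) * t * x) := by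
  ext n
  show (c : ZMod p) * ℓ₀ (x * A n i j) = ℓ₀ ((c : k) * t * x * n i' j')
  rw [natCast_mul_apply, hA]
  congr 1
  ring

/-- On diagonal functionals a map `A` fixing the diagonal entries acts through `twA` as
multiplication by `c`. -/
lemma twA_diag (c : ℕ) (A : Matrix (Fin 2) (Fin 2) k →+ Matrix (Fin 2) (Fin 2) k)
    (h00 : ∀ n, A n 0 0 = n 0 0) (h11 : ∀ n, A n 1 1 = n 1 1)
    {ℓ : Matrix (Fin 2) (Fin 2) k →+ ZMod p} (hℓ : ℓ ∈ diagFun k p) :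
    twA c A ℓ = c • ℓ := by
  ext n
  show (c : ZMod p) * ℓ (A n) = (c • ℓ) n
  have h : ℓ (A n - n) = 0 := hℓ _ (by simp [h00]) (by simp [h11])
  rw [map_sub, sub_eq_zero] at h
  rw [h, AddMonoidHom.smul_apply, nsmul_eq_mul]

end Basic

variable {p : ℕ} [Fact p.Prime] {k : Type*} [Field k] [Finite k] [CharP k p]

/-- every functional on `k` is `ℓ₀ (t * ·)` for a fixed nonzero `ℓ₀`. -/
lemma exists_eq_comp_mul {ℓ₀ : k →+ ZMod p} (hℓ₀ : ℓ₀ ≠ 0) (ℓ : k →+ ZMod p) :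
    ∃ t : k, ∀ x, ℓ x = ℓ₀ (t * x) := by
  let _ := ZMod.algebra k p
  have := Module.finite_of_finite (ZMod p) (M := k)
  have h0 : (ℓ₀.toZModLinearMap p : Module.Dual (ZMod p) k) ≠ 0 := by
    intro h
    apply hℓ₀
    ext x
    exact LinearMap.congr_fun h x
  obtain ⟨t, ht⟩ := dual_eq_comp_mulLeft h0 (ℓ.toZModLinearMap p)
  exact ⟨t, fun x => LinearMap.congr_fun ht x⟩

/-- **Decomposition of the dual of `M₂(k)`**: diagonal part + the two root lines. -/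
theorem exists_decomp {ℓ₀ : k →+ ZMod p} (hℓ₀ : ℓ₀ ≠ 0)
    (ℓ : Matrix (Fin 2) (Fin 2) k →+ ZMod p) :
    ∃ ℓd ∈ diagFun k p, ∃ x y : k, ℓ = ℓd + rootFun ℓ₀ 0 1 x + rootFun ℓ₀ 1 0 y := by
  obtain ⟨x, hx⟩ := exists_eq_comp_mul hℓ₀ (ℓ.comp (Matrix.singleAddMonoidHom 0 1))
  obtain ⟨y, hy⟩ := exists_eq_comp_mul hℓ₀ (ℓ.comp (Matrix.singleAddMonoidHom 1 0))
  refine ⟨ℓ - rootFun ℓ₀ 0 1 x - rootFun ℓ₀ 1 0 y, ?_, x, y, by abel⟩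
  intro n h0 h1
  have hn : n = Matrix.single 0 1 (n 0 1) + Matrix.single 1 0 (n 1 0) := by
    ext i j
    fin_cases i <;> fin_cases j <;> simp [Matrix.single, h0, h1]
  have e1 := hx (n 0 1)
  have e2 := hy (n 1 0)
  simp only [AddMonoidHom.comp_apply, Matrix.singleAddMonoidHom_apply] at e1 e2
  have hℓn : ℓ n = ℓ (Matrix.single 0 1 (n 0 1)) + ℓ (Matrix.single 1 0 (n 1 0)) := by
    rw [← map_add, ← hn]
  rw [AddMonoidHom.sub_apply, AddMonoidHom.sub_apply, rootFun_apply, rootFun_apply, hℓn, e1, e2]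
  abel

section Bound

variable {F κ : Type*} [Field F] [Fintype F] [Algebra F k] [Field κ] [Finite κ] [Algebra F κ]

omit [Finite k] [CharP k p] [Finite κ] [Field F] [Fintype F] [Algebra F k] [Algebra F κ] in
/-- **The diagonal part dies** when the cyclotomic value `c_τ` differs from the level character
`ε_τ`. -/
theorem eq_zero_on_diag (cτ : ℕ) (Aτ : Matrix (Fin 2) (Fin 2) k →+ Matrix (Fin 2) (Fin 2) k)
    (h00 : ∀ n, Aτ n 0 0 = n 0 0) (h11 : ∀ n, Aτ n 1 1 = n 1 1) {ετ : κ} (hne : (cτ : κ) ≠ ετ)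
    (Λ : (Matrix (Fin 2) (Fin 2) k →+ ZMod p) → κ)
    (hadd : ∀ ℓ ℓ', Λ (ℓ + ℓ') = Λ ℓ + Λ ℓ')
    (hτ : ∀ ℓ, Λ (twA cτ Aτ ℓ) = Λ ℓ * ετ) {ℓ : Matrix (Fin 2) (Fin 2) k →+ ZMod p}
    (hℓ : ℓ ∈ diagFun k p) : Λ ℓ = 0 := by
  let Λ' : (Matrix (Fin 2) (Fin 2) k →+ ZMod p) →+ κ :=
    AddMonoidHom.mk' Λ hadd
  have h1 := hτ ℓ
  rw [twA_diag cτ Aτ h00 h11 hℓ] at h1
  have h2 : Λ (cτ • ℓ) = (cτ : κ) * Λ ℓ := by
    have := map_nsmul Λ' cτ ℓ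
    rw [nsmul_eq_mul] at this
    exact this
  rw [h2, mul_comm] at h1
  have h3 : Λ ℓ * ((cτ : κ) - ετ) = 0 := by rw [mul_sub, h1, sub_self]
  exact (mul_eq_zero.1 h3).resolve_right (sub_ne_zero.2 hne)

/-- **The `T_i` bound in the `tw` language for `N = M₂(k)`** (level `i = p² + 1`): `T` a set of
additive `Λ : (M₂(k) →+ ZMod p) → κ`, vanishing on diagonal functionals, with the twisted
equivariance `Λ (tw c_δ δ ℓ) = act_κ (Λ ℓ) * ε_δ` for `δ = τ` (tame generator, `R τ` diagonal,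
`act_κ = id`) and `δ = φ` (Frobenius, `R φ` antidiagonal, `act_κ = (·)^p`).  If the character
`c_τ t` of the root line `(0,1)` and the level character `ε_τ` are the images of ONE ring generator
`μ₀` of `F = 𝔽_{p²}`, then `#T ≤ #k`. -/
theorem card_le_of_tw (hF : Fintype.card F = p ^ 2) {ℓ₀ : k →+ ZMod p} (hℓ₀ : ℓ₀ ≠ 0)
    (Aτ Aφ : Matrix (Fin 2) (Fin 2) k →+ Matrix (Fin 2) (Fin 2) k) (cτ cφ : ℕ) {t f₁ f₂ : k}
    (hAτ : ∀ n, Aτ n 0 1 = t * n 0 1)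
    (hAφ₁ : ∀ n, Aφ n 0 1 = f₁ * n 1 0) (hAφ₂ : ∀ n, Aφ n 1 0 = f₂ * n 0 1)
    (hs : (cφ : k) * f₁ ≠ 0) {ετ εφ : κ} (hε : εφ ≠ 0)
    {μ₀ : F} (hgen : Subring.closure ({μ₀} : Set F) = ⊤)
    (hμk : algebraMap F k μ₀ = (cτ : k) * t) (hμκ : algebraMap F κ μ₀ = ετ)
    (T : Set ((Matrix (Fin 2) (Fin 2) k →+ ZMod p) → κ))
    (hadd : ∀ Λ ∈ T, ∀ ℓ ℓ', Λ (ℓ + ℓ') = Λ ℓ + Λ ℓ')
    (hzero : ∀ Λ ∈ T, ∀ ℓ ∈ diagFun k p, Λ ℓ = 0)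
    (hτ : ∀ Λ ∈ T, ∀ ℓ, Λ (twA cτ Aτ ℓ) = Λ ℓ * ετ)
    (hφ : ∀ Λ ∈ T, ∀ ℓ, Λ (twA cφ Aφ ℓ) = Λ ℓ ^ p * εφ) :
    Nat.card T ≤ Nat.card k := by
  refine card_le_of_two_lines (F := F) hF (diagFun k p) (rootFun ℓ₀ 0 1) (rootFun ℓ₀ 1 0)
    (rootFun_add ℓ₀ 0 1) (exists_decomp hℓ₀) hε (s₂ := (cφ : k) * f₂) hs T hadd hzero hgen ?_ ?_ ?_
  · intro Λ hΛ x
    rw [hμk, hμκ, ← twA_rootFun ℓ₀ cτ Aτ hAτ x, hτ Λ hΛ, mul_comm]
  · intro Λ hΛ x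
    rw [← twA_rootFun ℓ₀ cφ Aφ hAφ₁ x, hφ Λ hΛ, mul_comm]
  · intro Λ hΛ y
    rw [← twA_rootFun ℓ₀ cφ Aφ hAφ₂ y, hφ Λ hΛ, mul_comm]

omit [Finite κ] in
/-- **Levels without a match carry nothing** (`tw` language, `N = M₂(k)`): if `Λ` kills the
diagonal functionals and the level character `ε_τ = ι' ν` is conjugate to neither root-line
character `c_τ t₁ = ι μ₁`, `c_τ t₂ = ι μ₂` (`ν ∉ {μ, μ^p}`), then `Λ = 0`. -/
theorem eq_zero_of_tw_mismatch [CharP F p] (hF : Fintype.card F = p ^ 2) {ℓ₀ : k →+ ZMod p}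
    (hℓ₀ : ℓ₀ ≠ 0) (Aτ : Matrix (Fin 2) (Fin 2) k →+ Matrix (Fin 2) (Fin 2) k) (cτ : ℕ)
    {t₁ t₂ : k} (hAτ₁ : ∀ n, Aτ n 0 1 = t₁ * n 0 1) (hAτ₂ : ∀ n, Aτ n 1 0 = t₂ * n 1 0)
    {ετ : κ} {μ₁ μ₂ ν : F} (hμ₁ : algebraMap F k μ₁ = (cτ : k) * t₁)
    (hμ₂ : algebraMap F k μ₂ = (cτ : k) * t₂) (hν : algebraMap F κ ν = ετ)
    (h1 : ν ≠ μ₁) (h1' : ν ≠ μ₁ ^ p) (h2 : ν ≠ μ₂) (h2' : ν ≠ μ₂ ^ p)
    (Λ : (Matrix (Fin 2) (Fin 2) k →+ ZMod p) → κ)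
    (hadd : ∀ ℓ ℓ', Λ (ℓ + ℓ') = Λ ℓ + Λ ℓ')
    (hzero : ∀ ℓ ∈ diagFun k p, Λ ℓ = 0)
    (hτ : ∀ ℓ, Λ (twA cτ Aτ ℓ) = Λ ℓ * ετ) (ℓ : Matrix (Fin 2) (Fin 2) k →+ ZMod p) :
    Λ ℓ = 0 := by
  have hline : ∀ (i j : Fin 2) (t : k) (μ : F), (∀ n, Aτ n i j = t * n i j) →
      algebraMap F k μ = (cτ : k) * t → ν ≠ μ → ν ≠ μ ^ p → ∀ x, Λ (rootFun ℓ₀ i j x) = 0 := by
    intro i j t μ hA hμ hn hn' x
    let f : k →+ κ := AddMonoidHom.mk' (fun x => Λ (rootFun ℓ₀ i j x))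
      (fun x y => by rw [rootFun_add, hadd])
    refine eq_zero_of_not_conj (k := k) (V := k) hF f μ ν (fun v => ?_) hn hn' x
    show Λ (rootFun ℓ₀ i j (algebraMap F k μ • v)) = algebraMap F κ ν * Λ (rootFun ℓ₀ i j v)
    rw [smul_eq_mul, hμ, hν, ← twA_rootFun ℓ₀ cτ Aτ hA v, hτ, mul_comm]
  obtain ⟨ℓd, hℓd, x, y, rfl⟩ := exists_decomp hℓ₀ ℓ
  rw [hadd, hadd, hzero ℓd hℓd, hline 0 1 t₁ μ₁ hAτ₁ hμ₁ h1 h1' x,
    hline 1 0 t₂ μ₂ hAτ₂ hμ₂ h2 h2' y, add_zero, add_zero]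

end Bound

end Matrix2

end Fermat.Agent.GP.Flat.EigenCount
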