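import Mathlib
import Fermat.Agent.GP.Flat.EigenCountTw

/-!
# GATE-P / S56 [P-FLAT] — S56-FLAT-EIGENCOUNT, part 7: the TOP level `i = e'`   (helper25)

Orphan on top of `EigenCountTw`.  At the top level the leading-coefficient map takes values in
`Q = κ / ℘κ` (`℘ z = z^p - z`), on which Frobenius is the identity, and `Δ` acts through the
cyclotomic character only (helper75 `top_tw`):  `Λ̄ (tw c_δ δ ℓ) = c_δ • Λ̄ ℓ`.

`eq_zero_of_top` : an additive `Λ̄ : (M₂(k) →+ ZMod p) → Q` with this equivariance for `δ = τ`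
(`R τ` diagonal with `t₁ ≠ 1 ≠ t₂` on the root lines) and `δ = φ` (`R φ` antidiagonal, swapping the
diagonal entries), which kills the functionals supported on the scalar line, is ZERO (`p` odd).
This is the "`η(φ) = -1` kills the unramified class" step: `T_{e'} = 0`.
-/

namespace Fermat.Agent.GP.Flat.EigenCount

section TopBasic

variable {p : ℕ} {k : Type*} [Field k]

/-- the functional `n ↦ ℓ₀ (x * (n 0 0 + s * n 1 1))` (`s = 1`: scalar line, `s = -1`: `H`-line). -/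
def diagLine (ℓ₀ : k →+ ZMod p) (s x : k) : Matrix (Fin 2) (Fin 2) k →+ ZMod p :=
  rootFun ℓ₀ 0 0 x + rootFun ℓ₀ 1 1 (x * s)

lemma diagLine_apply (ℓ₀ : k →+ ZMod p) (s x : k) (n : Matrix (Fin 2) (Fin 2) k) :
    diagLine ℓ₀ s x n = ℓ₀ (x * n 0 0) + ℓ₀ (x * s * n 1 1) := rfl

lemma diagLine_add (ℓ₀ : k →+ ZMod p) (s x y : k) :
    diagLine ℓ₀ s (x + y) = diagLine ℓ₀ s x + diagLine ℓ₀ s y := by
  ext n
  simp only [diagLine_apply, AddMonoidHom.add_apply, add_mul, map_add]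
  abel

lemma twA_diagLine_swap (ℓ₀ : k →+ ZMod p) (c : ℕ)
    (A : Matrix (Fin 2) (Fin 2) k →+ Matrix (Fin 2) (Fin 2) k)
    (h0 : ∀ n, A n 0 0 = n 1 1) (h1 : ∀ n, A n 1 1 = n 0 0) (z : k) :
    twA c A (diagLine ℓ₀ (-1) z) = diagLine ℓ₀ (-1) (-((c : k) * z)) := by
  ext n
  show (c : ZMod p) * (ℓ₀ (z * A n 0 0) + ℓ₀ (z * -1 * A n 1 1)) =
    ℓ₀ (-((c : k) * z) * n 0 0) + ℓ₀ (-((c : k) * z) * -1 * n 1 1)
  rw [h0, h1, mul_add, natCast_mul_apply, natCast_mul_apply, add_comm]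
  congr 2 <;> ring

end TopBasic

section Top

variable {p : ℕ} [Fact p.Prime] {k : Type*} [Field k] [Finite k] [CharP k p]

/-- **Full decomposition of the dual of `M₂(k)`** (`p` odd): scalar line + `H`-line + two root
lines. -/
theorem exists_decomp_four (hp2 : p ≠ 2) {ℓ₀ : k →+ ZMod p} (hℓ₀ : ℓ₀ ≠ 0)
    (ℓ : Matrix (Fin 2) (Fin 2) k →+ ZMod p) :
    ∃ w z x y : k, ℓ = diagLine ℓ₀ 1 w + diagLine ℓ₀ (-1) z + rootFun ℓ₀ 0 1 x + rootFun ℓ₀ 1 0 y := by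
  have h2 : (2 : k) ≠ 0 := by
    intro h
    have h' : ((2 : ℕ) : k) = 0 := by exact_mod_cast h
    rw [CharP.cast_eq_zero_iff k p] at h'
    exact hp2 ((Nat.prime_dvd_prime_iff_eq Fact.out Nat.prime_two).1 h')
  obtain ⟨a, ha⟩ := exists_eq_comp_mul hℓ₀ (ℓ.comp (Matrix.singleAddMonoidHom 0 0))
  obtain ⟨b, hb⟩ := exists_eq_comp_mul hℓ₀ (ℓ.comp (Matrix.singleAddMonoidHom 1 1))
  obtain ⟨x, hx⟩ := exists_eq_comp_mul hℓ₀ (ℓ.comp (Matrix.singleAddMonoidHom 0 1))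
  obtain ⟨y, hy⟩ := exists_eq_comp_mul hℓ₀ (ℓ.comp (Matrix.singleAddMonoidHom 1 0))
  refine ⟨(a + b) / 2, (a - b) / 2, x, y, ?_⟩
  ext n
  have hn : n = Matrix.single 0 0 (n 0 0) + Matrix.single 1 1 (n 1 1) +
      Matrix.single 0 1 (n 0 1) + Matrix.single 1 0 (n 1 0) := by
    ext i j
    fin_cases i <;> fin_cases j <;> simp [Matrix.single]
  have e1 := ha (n 0 0)
  have e2 := hb (n 1 1)
  have e3 := hx (n 0 1)
  have e4 := hy (n 1 0)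
  simp only [AddMonoidHom.comp_apply, Matrix.singleAddMonoidHom_apply] at e1 e2 e3 e4
  have hℓn : ℓ n = ℓ₀ (a * n 0 0) + ℓ₀ (b * n 1 1) + ℓ₀ (x * n 0 1) + ℓ₀ (y * n 1 0) := by
    conv_lhs => rw [hn]
    rw [map_add, map_add, map_add, e1, e2, e3, e4]
  rw [hℓn]
  simp only [AddMonoidHom.add_apply, diagLine_apply, rootFun_apply, ← map_add]
  congr 1
  field_simp
  ring

/-- **The top level carries nothing** (`T_{e'} = 0`): `Q = κ/℘κ` (any additive group), `Λ` additive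
with the cyclotomic equivariance `Λ (twA c_δ A_δ ℓ) = c_δ • Λ ℓ` for `δ = τ, φ`, killing the scalar
line.  `p` odd. -/
theorem eq_zero_of_top (hp2 : p ≠ 2) {ℓ₀ : k →+ ZMod p} (hℓ₀ : ℓ₀ ≠ 0) {Q : Type*}
    [AddCommGroup Q] (Aτ Aφ : Matrix (Fin 2) (Fin 2) k →+ Matrix (Fin 2) (Fin 2) k) (cτ cφ : ℕ)
    {t₁ t₂ : k} (hAτ₁ : ∀ n, Aτ n 0 1 = t₁ * n 0 1) (hAτ₂ : ∀ n, Aτ n 1 0 = t₂ * n 1 0)
    (ht₁ : (cτ : k) * (t₁ - 1) ≠ 0) (ht₂ : (cτ : k) * (t₂ - 1) ≠ 0)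
    (hAφ₀ : ∀ n, Aφ n 0 0 = n 1 1) (hAφ₁ : ∀ n, Aφ n 1 1 = n 0 0) (hcφ : (cφ : k) ≠ 0)
    (Λ : (Matrix (Fin 2) (Fin 2) k →+ ZMod p) → Q)
    (hadd : ∀ ℓ ℓ', Λ (ℓ + ℓ') = Λ ℓ + Λ ℓ')
    (hscal : ∀ w, Λ (diagLine ℓ₀ 1 w) = 0)
    (hτ : ∀ ℓ, Λ (twA cτ Aτ ℓ) = cτ • Λ ℓ)
    (hφ : ∀ ℓ, Λ (twA cφ Aφ ℓ) = cφ • Λ ℓ) (ℓ : Matrix (Fin 2) (Fin 2) k →+ ZMod p) :
    Λ ℓ = 0 := by
  have h2 : (2 : k) ≠ 0 := by
    intro h
    have h' : ((2 : ℕ) : k) = 0 := by exact_mod_cast h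
    rw [CharP.cast_eq_zero_iff k p] at h'
    exact hp2 ((Nat.prime_dvd_prime_iff_eq Fact.out Nat.prime_two).1 h')
  let Λ' : (Matrix (Fin 2) (Fin 2) k →+ ZMod p) →+ Q := AddMonoidHom.mk' Λ hadd
  have hΛ' : ∀ ℓ, Λ' ℓ = Λ ℓ := fun _ => rfl
  -- additive parametrised lines: `Λ (j (c * x)) = c • Λ (j x)`
  have hnat : ∀ (j : k → (Matrix (Fin 2) (Fin 2) k →+ ZMod p)),
      (∀ x y, j (x + y) = j x + j y) → ∀ (c : ℕ) (x : k), Λ (j ((c : k) * x)) = c • Λ (j x) := by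
    intro j hj c x
    let J : k →+ (Matrix (Fin 2) (Fin 2) k →+ ZMod p) := AddMonoidHom.mk' j hj
    have h1 : j ((c : k) * x) = c • j x := by
      have : (c : k) * x = c • x := by rw [nsmul_eq_mul]
      rw [this]
      exact map_nsmul J c x
    rw [h1, ← hΛ', map_nsmul, hΛ']
  -- a root line with `t ≠ 1` dies
  have hroot : ∀ (i j : Fin 2) (t : k), (∀ n, Aτ n i j = t * n i j) → (cτ : k) * (t - 1) ≠ 0 →
      ∀ x, Λ (rootFun ℓ₀ i j x) = 0 := by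
    intro i j t hA ht x
    have key : ∀ y, Λ (rootFun ℓ₀ i j ((cτ : k) * (t - 1) * y)) = 0 := by
      intro y
      have e1 := hτ (rootFun ℓ₀ i j y)
      rw [twA_rootFun ℓ₀ cτ Aτ hA y, ← hnat (rootFun ℓ₀ i j) (rootFun_add ℓ₀ i j) cτ y] at e1
      have e2 : rootFun ℓ₀ i j ((cτ : k) * t * y) =
          rootFun ℓ₀ i j ((cτ : k) * (t - 1) * y) + rootFun ℓ₀ i j ((cτ : k) * y) := by
        rw [← rootFun_add]; congr 1; ring
      rw [e2, hadd] at e1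
      exact add_eq_right.1 e1
    have := key (((cτ : k) * (t - 1))⁻¹ * x)
    rwa [mul_inv_cancel_left₀ ht] at this
  -- the `H`-line dies
  have hH : ∀ z, Λ (diagLine ℓ₀ (-1) z) = 0 := by
    have key : ∀ z, Λ (diagLine ℓ₀ (-1) ((2 : k) * (cφ : k) * z)) = 0 := by
      intro z
      have e1 := hφ (diagLine ℓ₀ (-1) z)
      rw [twA_diagLine_swap ℓ₀ cφ Aφ hAφ₀ hAφ₁ z,
        ← hnat (diagLine ℓ₀ (-1)) (diagLine_add ℓ₀ (-1)) cφ z] at e1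
      have e2 : diagLine ℓ₀ (-1) ((2 : k) * (cφ : k) * z) =
          diagLine ℓ₀ (-1) ((cφ : k) * z) + diagLine ℓ₀ (-1) ((cφ : k) * z) := by
        rw [← diagLine_add]; congr 1; ring
      have e3 : diagLine ℓ₀ (-1) (-((cφ : k) * z)) + diagLine ℓ₀ (-1) ((cφ : k) * z) = 0 := by
        rw [← diagLine_add, neg_add_cancel]
        ext n; simp [diagLine_apply]
      have e4 : Λ (0 : Matrix (Fin 2) (Fin 2) k →+ ZMod p) = 0 := by
        rw [← hΛ', map_zero]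
      rw [e2, hadd]
      nth_rewrite 1 [← e1]
      rw [← hadd, e3, e4]
    intro z
    have := key (((2 : k) * (cφ : k))⁻¹ * z)
    rwa [mul_inv_cancel_left₀ (mul_ne_zero h2 hcφ)] at this
  obtain ⟨w, z, x, y, rfl⟩ := exists_decomp_four hp2 hℓ₀ ℓ
  rw [hadd, hadd, hadd, hscal, hH, hroot 0 1 t₁ hAτ₁ ht₁, hroot 1 0 t₂ hAτ₂ ht₂, add_zero,
    add_zero, add_zero]

end Top

end Fermat.Agent.GP.Flat.EigenCount
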