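/-
GATE-P (S56 long shot) / [P-FLAT] (iv-a) (helper87): **Fontaine's property `(P_m)` bounds the
ramification — elementary proof by perturbing one middle coefficient of the Eisenstein polynomial.**

`L` a field with a discrete valuation `v : L → ℤ ∪ {∞}`, `a k` (`k : ι`) the roots in `L` of
`P = ∏ (X - a k)` (think: the conjugates `σ α` of a uniformizer of a totally ramified Galois extension
`L/K'`, `P` Eisenstein).  Put `i k₀ k := v (a k₀ - a k)`.  If `β, β' ∈ L` satisfy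
`v (P β) = N`, `v (P β') = N + 1` (think: `β, β'` roots of `P + c X ^ s`, `P + c X ^ (s+1)`, which lie
in `L` by `(P_m)`; then `N = v c + s`), then

  `i_max + ∑_{k ≠ k₀} i k₀ k ≤ N`,

i.e. `Φ(i_max) < N + 1` for the Herbrand-type function `Φ(j) = ∑_k min(j, i k₀ k)`: Fontaine's
`u_{L/K} < m + 2/e`.  No Herbrand function, no upper numbering, no Krasner, no class field theory.

* `val_sub_eq_min`, `val_prod_eq` : the ultrametric computation `v (P β) = Φ(max_k v (β - a k))`;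
* `comb` : the counting lemma (two integers at distance `< 1`);
* `sum_le_of_two_points` : the bound; `sum_le_of_perturb` : the same for roots of `P + c X ^ s`,
  `P + c' X ^ (s + 1)`;
* `galois_sum_le_of_perturb` : the Galois form (`a σ = σ • α`, `i σ = v (σ α - α)`, a finite group of
  `v`-isometries): `i σ₁ + ∑_{σ ≠ 1} i σ ≤ n + s`;
* `galois_single_break` : with tame elements (`i = 1` off a subgroup `H`) and one wild break
  (`i = t + 1` on `H ∖ 1`), `n = |G|`: `|H| * t ≤ s`.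

How it is meant to be used (supersingular line of [P-FLAT]): `K'` unramified over `ℚ_p`, `L/K'` totally
ramified Galois of degree `n` satisfying `(P_m)`, `m = p/(p-1)`; for `n/(p-1) < s < s + 1 < n` the
polynomials `P + p X ^ s`, `P + p X ^ (s+1)` are Eisenstein, and `X ↦ root` is a ring map
`O_L → O_E / (v > m)`, so `(P_m)` puts their roots in `L`; hence `|H| * t ≤ s`.
Mathlib only.
-/
import Mathlib

set_option autoImplicit false

namespace Fermat.Agent.GP.Flat.EisPerturb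

open Finset

/-! ### The counting lemma -/

section Comb

variable {κ : Type*} [DecidableEq κ]

omit [DecidableEq κ] in
/-- `Φ(j) - j` is monotone in `j` -/
theorem sum_min_mono (S : Finset κ) (i : κ → ℤ) {j j' : ℤ} (h : j ≤ j') :
    ∑ k ∈ S, min j (i k) ≤ ∑ k ∈ S, min j' (i k) :=
  Finset.sum_le_sum fun _ _ => min_le_min h le_rfl

/-- **Counting lemma.**  `Φ(j) = j + ∑_{k ∈ S} min j (i k)`.  If `Φ(j) = N` and `Φ(j') = N + 1` at
integers `j, j'`, and some `k₁ ∈ S` has `i k₁ = imax`, then `Φ(imax) ≤ N` — otherwise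
`j < j' ≤ imax` and `Φ` has slope `≥ 2` there. -/
theorem comb (S : Finset κ) (i : κ → ℤ) (imax : ℤ) (k₁ : κ) (hk₁ : k₁ ∈ S) (hk₁i : i k₁ = imax)
    (hle : ∀ k ∈ S, i k ≤ imax) {j j' N : ℤ}
    (hj : j + ∑ k ∈ S, min j (i k) = N) (hj' : j' + ∑ k ∈ S, min j' (i k) = N + 1) :
    imax + ∑ k ∈ S, i k ≤ N := by
  by_contra hcon
  push Not at hcon
  -- `Φ(imax) = imax + ∑ i k`
  have hΦmax : ∑ k ∈ S, min imax (i k) = ∑ k ∈ S, i k :=
    Finset.sum_congr rfl fun k hk => min_eq_right (hle k hk)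
  -- `j < j'`
  have hjj' : j < j' := by
    by_contra h
    push Not at h
    have := sum_min_mono S i h
    omega
  -- `j' ≤ imax`
  have hj'max : j' ≤ imax := by
    by_contra h
    push Not at h
    have := sum_min_mono S i h.le
    rw [hΦmax] at this
    omega
  -- the `k₁`-term grows by `j' - j`, the others do not decrease
  have hsplit : ∀ x : ℤ, ∑ k ∈ S, min x (i k) = min x (i k₁) + ∑ k ∈ S.erase k₁, min x (i k) :=
    fun x => (Finset.add_sum_erase S (fun k => min x (i k)) hk₁).symm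
  have hrest := sum_min_mono (S.erase k₁) i hjj'.le
  rw [hsplit j] at hj
  rw [hsplit j'] at hj'
  rw [hk₁i, min_eq_left (hjj'.le.trans hj'max)] at hj
  rw [hk₁i, min_eq_left hj'max] at hj'
  omega

end Comb

/-! ### The ultrametric computation -/

section Val

variable {L : Type*} [Field L] (v : AddValuation L (WithTop ℤ)) {ι : Type*}

/-- if `a k₀` is a root nearest to `β`, the distance from `β` to any other root `a k` is
`min (v (β - a k₀)) (v (a k₀ - a k))` -/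
theorem val_sub_eq_min (a : ι → L) (β : L) (k₀ : ι)
    (hmax : ∀ k, v (β - a k) ≤ v (β - a k₀)) (k : ι) :
    v (β - a k) = min (v (β - a k₀)) (v (a k₀ - a k)) := by
  have hsum : β - a k = (β - a k₀) + (a k₀ - a k) := by ring
  by_cases hne : v (β - a k₀) = v (a k₀ - a k)
  · apply le_antisymm
    · rw [← hne, min_self]
      exact hmax k
    · rw [hsum]
      exact v.map_add _ _
  · rw [hsum]
    exact v.map_add_of_distinct_val hne

/-- an additive valuation turns finite products into sums -/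
theorem val_prod (S : Finset ι) (f : ι → L) : v (∏ k ∈ S, f k) = ∑ k ∈ S, v (f k) := by
  classical
  induction S using Finset.induction_on with
  | empty => simp
  | insert k S hk ih => rw [Finset.prod_insert hk, Finset.sum_insert hk, v.map_mul, ih]

variable [Fintype ι] [DecidableEq ι]

/-- **`v (P β) = Φ(j)`**: if `a k₀` is a root nearest to `β`, at distance `j`, then
`v (∏ (β - a k)) = j + ∑_{k ≠ k₀} min j (i k₀ k)`. -/
theorem val_prod_eq (a : ι → L) (i : ι → ι → ℤ)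
    (hi : ∀ k₀ k, k₀ ≠ k → v (a k₀ - a k) = ((i k₀ k : ℤ) : WithTop ℤ))
    (β : L) (k₀ : ι) (j : ℤ) (hj : v (β - a k₀) = ((j : ℤ) : WithTop ℤ))
    (hmax : ∀ k, v (β - a k) ≤ v (β - a k₀)) :
    v (∏ k, (β - a k)) = ((j + ∑ k ∈ univ.erase k₀, min j (i k₀ k) : ℤ) : WithTop ℤ) := by
  rw [val_prod, ← Finset.add_sum_erase univ _ (mem_univ k₀), hj, WithTop.coe_add, WithTop.coe_sum]
  congr 1
  refine Finset.sum_congr rfl fun k hk => ?_
  rw [val_sub_eq_min v a β k₀ hmax k, hj, hi k₀ k (Finset.ne_of_mem_erase hk).symm,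
    ← WithTop.coe_min]

/-- **Two points bound the ramification.**  If `v (P β) = N` and `v (P β') = N + 1` for two points
`β, β'` of `L`, `P = ∏ (X - a k)`, and the "Herbrand function" `j ↦ ∑_{k ≠ k₀} min j (i k₀ k)` does
not depend on the base root `k₀` (Galois situation), then
`i k₀ k₁ + ∑_{k ≠ k₀} i k₀ k ≤ N` for all `k₀ ≠ k₁`. -/
theorem sum_le_of_two_points (a : ι → L) (i : ι → ι → ℤ)
    (hi : ∀ k₀ k, k₀ ≠ k → v (a k₀ - a k) = ((i k₀ k : ℤ) : WithTop ℤ))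
    (hsym : ∀ k₀ k₁ (j : ℤ),
      ∑ k ∈ univ.erase k₀, min j (i k₀ k) = ∑ k ∈ univ.erase k₁, min j (i k₁ k))
    {β β' : L} {N : ℤ} (hβ : v (∏ k, (β - a k)) = ((N : ℤ) : WithTop ℤ))
    (hβ' : v (∏ k, (β' - a k)) = ((N + 1 : ℤ) : WithTop ℤ))
    (k₀ k₁ : ι) (hk : k₀ ≠ k₁) :
    i k₀ k₁ + ∑ k ∈ univ.erase k₀, i k₀ k ≤ N := by
  -- for a point `x` with `v (P x) = M` finite: `M = Φ_{k₀}(j)` for an integer `j`
  have key : ∀ (x : L) (M : ℤ), v (∏ k, (x - a k)) = ((M : ℤ) : WithTop ℤ) →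
      ∃ j : ℤ, j + ∑ k ∈ univ.erase k₀, min j (i k₀ k) = M := by
    intro x M hx
    have hne : ∀ k, v (x - a k) ≠ ⊤ := by
      intro k hk'
      rw [val_prod] at hx
      have : ∑ k, v (x - a k) = ⊤ := by
        rw [← Finset.add_sum_erase univ _ (mem_univ k), hk', top_add]
      rw [this] at hx
      exact WithTop.top_ne_coe hx
    obtain ⟨kx, -, hkx⟩ := Finset.exists_max_image univ (fun k => v (x - a k)) ⟨k₀, mem_univ _⟩
    obtain ⟨j, hj⟩ := WithTop.ne_top_iff_exists.mp (hne kx)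
    refine ⟨j, ?_⟩
    have h := val_prod_eq v a i hi x kx j hj.symm (fun k => hkx k (mem_univ k))
    rw [hx, hsym kx k₀ j] at h
    exact (WithTop.coe_injective h).symm
  obtain ⟨j, hj⟩ := key β N hβ
  obtain ⟨j', hj'⟩ := key β' (N + 1) hβ'
  obtain ⟨km, hkm, hkmax⟩ := Finset.exists_max_image (univ.erase k₀) (fun k => i k₀ k)
    ⟨k₁, Finset.mem_erase.mpr ⟨hk.symm, mem_univ _⟩⟩
  have h := comb (univ.erase k₀) (fun k => i k₀ k) (i k₀ km) km hkm rfl hkmax hj hj'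
  have h1 : i k₀ k₁ ≤ i k₀ km := hkmax k₁ (Finset.mem_erase.mpr ⟨hk.symm, mem_univ _⟩)
  linarith

/-- **Perturbing one coefficient of the Eisenstein polynomial.**  `β`, `β'` roots in `L` of
`P + c X ^ s`, `P + c' X ^ (s + 1)` (`P = ∏ (X - a k)`), with `v β = v β' = 1` and `v c = v c' = n`:
then `i k₀ k₁ + ∑_{k ≠ k₀} i k₀ k ≤ n + s`. -/
theorem sum_le_of_perturb (a : ι → L) (i : ι → ι → ℤ)
    (hi : ∀ k₀ k, k₀ ≠ k → v (a k₀ - a k) = ((i k₀ k : ℤ) : WithTop ℤ))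
    (hsym : ∀ k₀ k₁ (j : ℤ),
      ∑ k ∈ univ.erase k₀, min j (i k₀ k) = ∑ k ∈ univ.erase k₁, min j (i k₁ k))
    {β β' c c' : L} {n : ℤ} {s : ℕ}
    (hvβ : v β = ((1 : ℤ) : WithTop ℤ)) (hvβ' : v β' = ((1 : ℤ) : WithTop ℤ))
    (hvc : v c = ((n : ℤ) : WithTop ℤ)) (hvc' : v c' = ((n : ℤ) : WithTop ℤ))
    (hβ : ∏ k, (β - a k) + c * β ^ s = 0) (hβ' : ∏ k, (β' - a k) + c' * β' ^ (s + 1) = 0)
    (k₀ k₁ : ι) (hk : k₀ ≠ k₁) :
    i k₀ k₁ + ∑ k ∈ univ.erase k₀, i k₀ k ≤ n + s := by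
  have e : ∀ (x d : L) (r : ℕ), v x = ((1 : ℤ) : WithTop ℤ) → v d = ((n : ℤ) : WithTop ℤ) →
      ∏ k, (x - a k) + d * x ^ r = 0 → v (∏ k, (x - a k)) = ((n + r : ℤ) : WithTop ℤ) := by
    intro x d r hx hd h0
    have : ∏ k, (x - a k) = -(d * x ^ r) := eq_neg_of_add_eq_zero_left h0
    rw [this, v.map_neg, v.map_mul, v.map_pow, hd, hx]
    push_cast
    simp
  have h1 := e β c s hvβ hvc hβ
  have h2 := e β' c' (s + 1) hvβ' hvc' hβ'
  have h2' : v (∏ k, (β' - a k)) = (((n + s) + 1 : ℤ) : WithTop ℤ) := by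
    rw [h2]
    congr 1
    push_cast
    ring
  exact sum_le_of_two_points v a i hi hsym h1 h2' k₀ k₁ hk

end Val

/-! ### Galois form -/

section Galois

variable {L : Type*} [Field L] (v : AddValuation L (WithTop ℤ))
  {G : Type*} [Group G] [Fintype G] [DecidableEq G] [MulSemiringAction G L]

/-- **Galois form.**  `G` a finite group of `v`-isometric automorphisms of `L`, `α ∈ L`,
`i σ = v (σ α - α)` (`σ ≠ 1`).  If `L` contains roots `β`, `β'` of `P + c X ^ s`,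
`P + c' X ^ (s + 1)`, `P = ∏_σ (X - σ α)`, with `v β = v β' = 1`, `v c = v c' = n`, then
`i σ₁ + ∑_{σ ≠ 1} i σ ≤ n + s` for every `σ₁ ≠ 1`
(`Φ(i_max) ≤ n + s`, i.e. Fontaine's `u_{L/K} < m + 2/e`). -/
theorem galois_sum_le_of_perturb (hv : ∀ (σ : G) (x : L), v (σ • x) = v x) (α : L) (i : G → ℤ)
    (hi : ∀ σ : G, σ ≠ 1 → v (σ • α - α) = ((i σ : ℤ) : WithTop ℤ))
    {β β' c c' : L} {n : ℤ} {s : ℕ}
    (hvβ : v β = ((1 : ℤ) : WithTop ℤ)) (hvβ' : v β' = ((1 : ℤ) : WithTop ℤ))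
    (hvc : v c = ((n : ℤ) : WithTop ℤ)) (hvc' : v c' = ((n : ℤ) : WithTop ℤ))
    (hβ : ∏ σ : G, (β - σ • α) + c * β ^ s = 0)
    (hβ' : ∏ σ : G, (β' - σ • α) + c' * β' ^ (s + 1) = 0)
    (σ₁ : G) (h1 : σ₁ ≠ 1) :
    i σ₁ + ∑ σ ∈ univ.erase (1 : G), i σ ≤ n + s := by
  have hi' : ∀ σ τ : G, σ ≠ τ →
      v (σ • α - τ • α) = (((fun σ τ : G => i (σ⁻¹ * τ)) σ τ : ℤ) : WithTop ℤ) := by
    intro σ τ hστ
    have e : σ • α - τ • α = σ • (α - (σ⁻¹ * τ) • α) := by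
      rw [smul_sub, smul_smul, mul_inv_cancel_left]
    rw [e, hv, v.map_sub_swap]
    exact hi _ (fun h => hστ (by rw [inv_mul_eq_one] at h; exact h))
  have hsym0 : ∀ (σ : G) (j : ℤ), ∑ τ ∈ univ.erase σ, min j (i (σ⁻¹ * τ))
      = ∑ ρ ∈ univ.erase (1 : G), min j (i ρ) := by
    intro σ j
    refine Finset.sum_equiv (Equiv.mulLeft σ⁻¹) (fun τ => ?_) (fun τ _ => rfl)
    simp only [Finset.mem_erase, Finset.mem_univ, and_true, Equiv.coe_mulLeft, ne_eq]
    rw [inv_mul_eq_one]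
    exact ⟨fun h h' => h h'.symm, fun h h' => h h'.symm⟩
  have hsym : ∀ (σ τ : G) (j : ℤ),
      ∑ k ∈ univ.erase σ, min j ((fun σ τ : G => i (σ⁻¹ * τ)) σ k)
        = ∑ k ∈ univ.erase τ, min j ((fun σ τ : G => i (σ⁻¹ * τ)) τ k) := by
    intro σ τ j
    exact (hsym0 σ j).trans (hsym0 τ j).symm
  have h := sum_le_of_perturb v (fun σ : G => σ • α) (fun σ τ : G => i (σ⁻¹ * τ)) hi' hsym
    hvβ hvβ' hvc hvc' hβ hβ' 1 σ₁ (Ne.symm h1)
  simpa using h

/-- **Single wild break.**  In the situation of `galois_sum_le_of_perturb` with `n = |G|`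
(`L/K'` totally ramified, `v_{K'} c = 1`): if `i σ = 1` off a subgroup `H` (tame elements) and
`i σ = t + 1` on `H ∖ {1}`, `H ≠ 1`, then `|H| * t ≤ s`. -/
theorem galois_single_break (hv : ∀ (σ : G) (x : L), v (σ • x) = v x) (α : L) (i : G → ℤ)
    (hi : ∀ σ : G, σ ≠ 1 → v (σ • α - α) = ((i σ : ℤ) : WithTop ℤ))
    {β β' c c' : L} {s : ℕ}
    (hvβ : v β = ((1 : ℤ) : WithTop ℤ)) (hvβ' : v β' = ((1 : ℤ) : WithTop ℤ))
    (hvc : v c = (((Fintype.card G : ℕ) : ℤ) : WithTop ℤ))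
    (hvc' : v c' = (((Fintype.card G : ℕ) : ℤ) : WithTop ℤ))
    (hβ : ∏ σ : G, (β - σ • α) + c * β ^ s = 0)
    (hβ' : ∏ σ : G, (β' - σ • α) + c' * β' ^ (s + 1) = 0)
    (H : Subgroup G) [DecidablePred (· ∈ H)] (t : ℤ)
    (hH : ∀ σ ∈ H, σ ≠ 1 → i σ = t + 1) (hT : ∀ σ, σ ∉ H → i σ = 1)
    (σ₁ : G) (hσ₁ : σ₁ ∈ H) (h1 : σ₁ ≠ 1) :
    (Nat.card H : ℤ) * t ≤ s := by
  have h := galois_sum_le_of_perturb v hv α i hi hvβ hvβ' hvc hvc' hβ hβ' σ₁ h1
  rw [hH σ₁ hσ₁ h1] at h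
  have e1 : ∑ σ ∈ univ.erase (1 : G), i σ
      = ∑ σ ∈ univ.erase (1 : G), (if σ ∈ H then t + 1 else 1) := by
    refine Finset.sum_congr rfl fun σ hσ => ?_
    by_cases hσH : σ ∈ H
    · rw [if_pos hσH, hH σ hσH (Finset.ne_of_mem_erase hσ)]
    · rw [if_neg hσH, hT σ hσH]
  have e2 : (t + 1) + ∑ σ ∈ univ.erase (1 : G), (if σ ∈ H then t + 1 else 1)
      = ∑ σ : G, (if σ ∈ H then t + 1 else 1) := by
    have := Finset.add_sum_erase univ (fun σ : G => if σ ∈ H then t + 1 else 1) (mem_univ (1 : G))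
    rwa [if_pos H.one_mem] at this
  have e3 : ∑ σ : G, (if σ ∈ H then t + 1 else (1 : ℤ))
      = (#{σ : G | σ ∈ H} : ℤ) * (t + 1) + (#{σ : G | σ ∉ H} : ℤ) := by
    rw [Finset.sum_ite, Finset.sum_const, Finset.sum_const]
    simp
  have e4 : #{σ : G | σ ∈ H} + #{σ : G | σ ∉ H} = Fintype.card G :=
    Finset.card_filter_add_card_filter_not (s := (univ : Finset G)) (· ∈ H)
  have e5 : Nat.card H = #{σ : G | σ ∈ H} := by
    rw [Nat.card_eq_fintype_card, Fintype.card_subtype]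
  rw [e5]
  have e4' : (#{σ : G | σ ∈ H} : ℤ) + (#{σ : G | σ ∉ H} : ℤ) = (Fintype.card G : ℤ) := by
    exact_mod_cast e4
  have e6 : (#{σ : G | σ ∈ H} : ℤ) * (t + 1) = (#{σ : G | σ ∈ H} : ℤ) * t + #{σ : G | σ ∈ H} := by
    ring
  rw [e1] at h
  linarith

end Galois

end Fermat.Agent.GP.Flat.EisPerturb
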