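/-
GATE-P (S56 long shot) / [P-FLAT] (iii) leaf 4(c) of helper15's FLAT-PM plan (helper87):
**Eisenstein substitution `π ↦ β`** — abstract valuation form.

`K` a field, `v : Valuation K Γ₀`, `Wb : Subring K` an "unramified base": `v t ≤ 1` on `Wb` and
`(U)` every nonzero `t ∈ Wb` has `v t = v ϖ ^ n` for some `n : ℕ`.  `P` monic of degree `e` with
coefficients in `Wb`, `P(π) = 0`, `v π ^ e = v ϖ = v β ^ e` (`π` a uniformiser of a totally ramified
extension of degree `e`, `P` its Eisenstein polynomial, `β` another element of the same valuation).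

For `Q` with coefficients in `Wb`:
* `val_eval_le_of_root` : `Q(π) = 0 → v (Q β) ≤ v (P β)`;
* `val_eval_le_of_eval_eq` : `Q₁(π) = Q₂(π) → v (Q₁ β - Q₂ β) ≤ v (P β)`;
* `val_eval_eq_of_lt` : `v (P β) < v (Q π) → v (Q β) = v (Q π)`.

The canonical substitution `subst : K → K` ("write `x ∈ Wb[π]` as `R(π)` with `deg R < e`, return
`R(β)`"): `subst_eval_rem`, `subst_add`, `subst_smul`, `subst_of_mem`, `val_subst` (`v (subst x) = v x`
EXACTLY), `subst_eval` (`subst (Q π) = Q β - P β * S β`), `subst_mul` (multiplicative modulo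
`P β * Wb[β]`), `subst_fixed` (fixed by every ring endomorphism fixing `Wb` and `β`), `exists_rem_of_mem_adjoin`
(every element of `Algebra.adjoin Wb {π}` is in the domain).
Mathlib only.
-/
import Mathlib

set_option autoImplicit false

namespace Fermat.Agent.GP.Flat.EisSubst

open Finset Polynomial

section General

variable {K : Type*} [Field K] {Γ₀ : Type*} [LinearOrderedCommGroupWithZero Γ₀] (v : Valuation K Γ₀)

/-- if the nonzero terms `a_k α^k` have pairwise distinct valuations, every term is bounded by the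
valuation of the sum -/
theorem val_term_le_val_sum {n : ℕ} {α : K} (a : Fin n → K)
    (hdist : ∀ k l : Fin n, (k : ℕ) < (l : ℕ) → a k ≠ 0 → a l ≠ 0 →
      v (a k * α ^ (k : ℕ)) ≠ v (a l * α ^ (l : ℕ))) (k : Fin n) :
    v (a k * α ^ (k : ℕ)) ≤ v (∑ k : Fin n, a k * α ^ (k : ℕ)) := by
  classical
  obtain ⟨k₀, -, hk₀⟩ := Finset.exists_max_image univ
    (fun k : Fin n => v (a k * α ^ (k : ℕ))) ⟨k, mem_univ _⟩
  by_cases h0 : v (a k₀ * α ^ (k₀ : ℕ)) = 0
  · have := hk₀ k (mem_univ _)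
    rw [h0] at this
    exact this.trans zero_le
  have hne0 : ∀ i : Fin n, v (a i * α ^ (i : ℕ)) ≠ 0 → a i ≠ 0 := by
    intro i hi hai
    apply hi
    rw [hai, zero_mul, map_zero]
  have hlt : ∀ i ∈ univ \ {k₀}, v (a i * α ^ (i : ℕ)) < v (a k₀ * α ^ (k₀ : ℕ)) := by
    intro i hi
    have hne : i ≠ k₀ := by simpa using hi
    rcases (hk₀ i (mem_univ _)).lt_or_eq with h | h
    · exact h
    · exfalso
      have hai : a i ≠ 0 := hne0 i (by rw [h]; exact h0)
      have hak : a k₀ ≠ 0 := hne0 k₀ h0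
      have hne' : (i : ℕ) ≠ (k₀ : ℕ) := fun h' => hne (Fin.ext h')
      rcases lt_or_gt_of_ne hne' with hlt | hlt
      · exact hdist i k₀ hlt hai hak h
      · exact hdist k₀ i hlt hak hai h.symm
  rw [v.map_sum_eq_of_lt (mem_univ k₀) hlt]
  exact hk₀ k (mem_univ _)

end General

section Subst

variable {K : Type*} [Field K] {Γ₀ : Type*} [LinearOrderedCommGroupWithZero Γ₀] (v : Valuation K Γ₀)
  (Wb : Subring K) (ϖ : K) (e : ℕ)

/-- the standing hypotheses on the base `Wb` and the two elements `π`, `β` -/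
structure Hyp (π β : K) : Prop where
  hWA : ∀ t ∈ Wb, v t ≤ 1
  hWu : ∀ t ∈ Wb, t ≠ 0 → ∃ n : ℕ, v t = v ϖ ^ n
  hϖ0 : ϖ ≠ 0
  hϖ1 : v ϖ < 1
  he : 0 < e
  hπ : v π ^ e = v ϖ
  hβ : v β ^ e = v ϖ

variable {v Wb ϖ e}
variable {π β : K}

namespace Hyp

variable (H : Hyp v Wb ϖ e π β)
include H

theorem val_eq : v β = v π :=
  (pow_left_inj₀ zero_le zero_le H.he.ne').mp (H.hβ.trans H.hπ.symm)

theorem val_ne_zero : v π ≠ 0 := by
  intro h
  have := H.hπ
  rw [h, zero_pow H.he.ne'] at this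
  exact (v.ne_zero_iff.mpr H.hϖ0) this.symm

theorem val_pos : 0 < v π := zero_lt_iff.mpr H.val_ne_zero

theorem val_lt_one : v π < 1 := by
  by_contra h
  rw [not_lt] at h
  have := one_le_pow₀ (n := e) h
  rw [H.hπ] at this
  exact absurd H.hϖ1 (not_lt.mpr this)

theorem val_le_one : v π ≤ 1 := H.val_lt_one.le

theorem val_β_le_one : v β ≤ 1 := H.val_eq ▸ H.val_le_one

theorem π_ne_zero : π ≠ 0 := v.ne_zero_iff.mp H.val_ne_zero

/-- the terms `s π^k`, `t π^l` (`s, t ∈ Wb` nonzero, `k < l < e`) have different valuations -/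
theorem val_term_ne {s t : K} (hs : s ∈ Wb) (ht : t ∈ Wb) (hs0 : s ≠ 0) (ht0 : t ≠ 0) {k l : ℕ}
    (hkl : k < l) (hl : l < e) : v (s * π ^ k) ≠ v (t * π ^ l) := by
  obtain ⟨a, ha⟩ := H.hWu s hs hs0
  obtain ⟨b, hb⟩ := H.hWu t ht ht0
  rw [map_mul, map_mul, map_pow, map_pow, ha, hb, ← H.hπ, ← pow_mul, ← pow_mul, ← pow_add,
    ← pow_add]
  intro h
  have h2 : e * a + k = e * b + l := (pow_right_strictAnti₀ H.val_pos H.val_lt_one).injective h
  have h3 : (e * a + k) % e = k := by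
    rw [Nat.mul_add_mod]; exact Nat.mod_eq_of_lt (hkl.trans hl)
  have h4 : (e * b + l) % e = l := by
    rw [Nat.mul_add_mod]; exact Nat.mod_eq_of_lt hl
  rw [h2, h4] at h3
  omega

/-- for `x` of the valuation of `π` and coefficients `a_k ∈ Wb`: every term is bounded by the sum -/
theorem val_term_le {x : K} (hx : v x = v π) (a : Fin e → K) (ha : ∀ k, a k ∈ Wb) (k : Fin e) :
    v (a k * x ^ (k : ℕ)) ≤ v (∑ k : Fin e, a k * x ^ (k : ℕ)) := by
  refine val_term_le_val_sum v a (fun k l hkl hk0 hl0 => ?_) k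
  have := H.val_term_ne (ha k) (ha l) hk0 hl0 hkl l.isLt
  rw [map_mul, map_pow, map_mul, map_pow] at this ⊢
  rwa [hx]

/-- **the valuation of `∑_{k<e} a_k x^k` (`a_k ∈ Wb`) only depends on `v x = v π`** -/
theorem val_sum_eq {x y : K} (hx : v x = v π) (hy : v y = v π) (a : Fin e → K)
    (ha : ∀ k, a k ∈ Wb) :
    v (∑ k : Fin e, a k * x ^ (k : ℕ)) = v (∑ k : Fin e, a k * y ^ (k : ℕ)) := by
  have key : ∀ x y : K, v x = v π → v y = v π →
      v (∑ k : Fin e, a k * x ^ (k : ℕ)) ≤ v (∑ k : Fin e, a k * y ^ (k : ℕ)) := by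
    intro x y hx hy
    refine v.map_sum_le fun k _ => ?_
    have := H.val_term_le hy a ha k
    rw [map_mul, map_pow, hy] at this
    rwa [map_mul, map_pow, hx]
  exact le_antisymm (key x y hx hy) (key y x hy hx)

/-- polynomial form: for `R` with coefficients in `Wb` and `deg R < e`, `v (R β) = v (R π)` -/
theorem val_eval_rem (R : K[X]) (hR : ∀ i, R.coeff i ∈ Wb) (hdeg : R.natDegree < e) :
    v (R.eval β) = v (R.eval π) := by
  rw [eval_eq_sum_range' hdeg, eval_eq_sum_range' hdeg,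
    ← Fin.sum_univ_eq_sum_range (fun i => R.coeff i * β ^ i),
    ← Fin.sum_univ_eq_sum_range (fun i => R.coeff i * π ^ i)]
  exact H.val_sum_eq H.val_eq rfl (fun k : Fin e => R.coeff k) (fun k => hR k)

omit H in
/-- a polynomial with coefficients in `Wb` has integral values at integral points -/
theorem val_eval_le_one (hWA : ∀ t ∈ Wb, v t ≤ 1) (S : K[X]) (hS : ∀ i, S.coeff i ∈ Wb) {x : K}
    (hx : v x ≤ 1) : v (S.eval x) ≤ 1 := by
  rw [eval_eq_sum_range]
  refine v.map_sum_le fun i _ => ?_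
  rw [map_mul, map_pow]
  exact mul_le_one' (hWA _ (hS i)) (pow_le_one₀ zero_le hx)

omit H in
/-- division with remainder by a monic polynomial, keeping coefficients in `Wb` -/
theorem exists_div_rem (P : K[X]) (hPm : P.Monic) (hPd : P.natDegree = e) (he : 0 < e)
    (hPW : ∀ i, P.coeff i ∈ Wb) (Q : K[X]) (hQ : ∀ i, Q.coeff i ∈ Wb) :
    ∃ S R : K[X], (∀ i, S.coeff i ∈ Wb) ∧ (∀ i, R.coeff i ∈ Wb) ∧ R.natDegree < e ∧
      Q = R + P * S := by
  have hP' : (P.coeffs : Set K) ⊆ Wb := fun x hx => by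
    obtain ⟨i, -, rfl⟩ := Polynomial.mem_coeffs_iff.mp hx
    exact hPW i
  have hQ' : (Q.coeffs : Set K) ⊆ Wb := fun x hx => by
    obtain ⟨i, -, rfl⟩ := Polynomial.mem_coeffs_iff.mp hx
    exact hQ i
  set P' := P.toSubring Wb hP' with hP'def
  set Q' := Q.toSubring Wb hQ' with hQ'def
  have hP'm : P'.Monic := (monic_toSubring P Wb hP').mpr hPm
  have hP'd : P'.natDegree = e := (natDegree_toSubring P Wb hP').trans hPd
  have hP'1 : P' ≠ 1 := fun h => by rw [h, natDegree_one] at hP'd; omega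
  refine ⟨(Q' /ₘ P').map Wb.subtype, (Q' %ₘ P').map Wb.subtype, fun i => ?_, fun i => ?_, ?_, ?_⟩
  · rw [coeff_map]; exact (coeff (Q' /ₘ P') i).2
  · rw [coeff_map]; exact (coeff (Q' %ₘ P') i).2
  · refine lt_of_le_of_lt natDegree_map_le ?_
    rw [← hP'd]
    exact natDegree_modByMonic_lt Q' hP'm hP'1
  · have h := congrArg (Polynomial.map Wb.subtype) (modByMonic_add_div Q' P')
    rw [Polynomial.map_add, Polynomial.map_mul, map_toSubring, map_toSubring] at h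
    exact h.symm

variable (P : K[X]) (hPm : P.Monic) (hPd : P.natDegree = e) (hPW : ∀ i, P.coeff i ∈ Wb)
  (hPπ : P.eval π = 0)
include hPm hPd hPW hPπ

/-- **(1)** `Q(π) = 0 → v (Q β) ≤ v (P β)` -/
theorem val_eval_le_of_root (Q : K[X]) (hQ : ∀ i, Q.coeff i ∈ Wb) (hQπ : Q.eval π = 0) :
    v (Q.eval β) ≤ v (P.eval β) := by
  obtain ⟨S, R, hS, hR, hRd, rfl⟩ := exists_div_rem P hPm hPd H.he hPW Q hQ
  have hRπ : R.eval π = 0 := by
    rw [eval_add, eval_mul, hPπ, zero_mul, add_zero] at hQπ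
    exact hQπ
  have hRβ : R.eval β = 0 := by
    have := H.val_eval_rem R hR hRd
    rw [hRπ, map_zero] at this
    exact v.zero_iff.mp this
  rw [eval_add, eval_mul, hRβ, zero_add, map_mul]
  exact mul_le_of_le_one_right' (val_eval_le_one H.hWA S hS H.val_β_le_one)

/-- **(1')** `Q₁(π) = Q₂(π) → v (Q₁ β - Q₂ β) ≤ v (P β)` -/
theorem val_eval_le_of_eval_eq (Q₁ Q₂ : K[X]) (hQ₁ : ∀ i, Q₁.coeff i ∈ Wb)
    (hQ₂ : ∀ i, Q₂.coeff i ∈ Wb) (h : Q₁.eval π = Q₂.eval π) :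
    v (Q₁.eval β - Q₂.eval β) ≤ v (P.eval β) := by
  have := H.val_eval_le_of_root P hPm hPd hPW hPπ (Q₁ - Q₂)
    (fun i => by rw [coeff_sub]; exact Wb.sub_mem (hQ₁ i) (hQ₂ i))
    (by rw [eval_sub, h, sub_self])
  rwa [eval_sub] at this

/-- **(2)** `v (P β) < v (Q π) → v (Q β) = v (Q π)` -/
theorem val_eval_eq_of_lt (Q : K[X]) (hQ : ∀ i, Q.coeff i ∈ Wb)
    (hlt : v (P.eval β) < v (Q.eval π)) : v (Q.eval β) = v (Q.eval π) := by
  obtain ⟨S, R, hS, hR, hRd, rfl⟩ := exists_div_rem P hPm hPd H.he hPW Q hQ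
  have hRπ : (R + P * S).eval π = R.eval π := by
    rw [eval_add, eval_mul, hPπ, zero_mul, add_zero]
  rw [hRπ] at hlt ⊢
  have hRβ := H.val_eval_rem R hR hRd
  have h1 : v ((P * S).eval β) < v (R.eval β) := by
    rw [hRβ, eval_mul, map_mul]
    exact (mul_le_of_le_one_right' (val_eval_le_one H.hWA S hS H.val_β_le_one)).trans_lt hlt
  rw [eval_add, v.map_add_eq_of_lt_left h1, hRβ]

end Hyp

end Subst

/-! ### The canonical substitution -/

section Canon

variable {K : Type*} [Field K] {Γ₀ : Type*} [LinearOrderedCommGroupWithZero Γ₀] {v : Valuation K Γ₀}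
  {Wb : Subring K} {ϖ : K} {e : ℕ} {π β : K}

/-- `x = R(π)` with `R` over `Wb` of degree `< e` -/
def IsRem (Wb : Subring K) (e : ℕ) (π : K) (R : K[X]) (x : K) : Prop :=
  (∀ i, R.coeff i ∈ Wb) ∧ R.natDegree < e ∧ R.eval π = x

/-- the domain `Wb[π] = ⊕_{k<e} Wb π^k` of the substitution -/
def Dom (Wb : Subring K) (e : ℕ) (π : K) (x : K) : Prop := ∃ R : K[X], IsRem Wb e π R x

open Classical in
/-- **the canonical substitution `π ↦ β`**: write `x = R(π)`, `deg R < e`, return `R(β)`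
(`0` outside `Wb[π]`) -/
noncomputable def subst (Wb : Subring K) (e : ℕ) (π β : K) (x : K) : K :=
  if h : Dom Wb e π x then (Classical.choose h).eval β else 0

theorem IsRem.add {R₁ R₂ : K[X]} {x y : K} (h₁ : IsRem Wb e π R₁ x) (h₂ : IsRem Wb e π R₂ y) :
    IsRem Wb e π (R₁ + R₂) (x + y) :=
  ⟨fun i => by rw [coeff_add]; exact Wb.add_mem (h₁.1 i) (h₂.1 i),
    lt_of_le_of_lt (natDegree_add_le _ _) (max_lt h₁.2.1 h₂.2.1),
    by rw [eval_add, h₁.2.2, h₂.2.2]⟩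

theorem IsRem.sub {R₁ R₂ : K[X]} {x y : K} (h₁ : IsRem Wb e π R₁ x) (h₂ : IsRem Wb e π R₂ y) :
    IsRem Wb e π (R₁ - R₂) (x - y) :=
  ⟨fun i => by rw [coeff_sub]; exact Wb.sub_mem (h₁.1 i) (h₂.1 i),
    lt_of_le_of_lt (natDegree_sub_le _ _) (max_lt h₁.2.1 h₂.2.1),
    by rw [eval_sub, h₁.2.2, h₂.2.2]⟩

theorem IsRem.smul {R : K[X]} {x t : K} (ht : t ∈ Wb) (h : IsRem Wb e π R x) :
    IsRem Wb e π (C t * R) (t * x) :=
  ⟨fun i => by rw [coeff_C_mul]; exact Wb.mul_mem ht (h.1 i),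
    lt_of_le_of_lt (natDegree_C_mul_le _ _) h.2.1,
    by rw [eval_mul, eval_C, h.2.2]⟩

theorem IsRem.of_mem (he : 0 < e) {t : K} (ht : t ∈ Wb) : IsRem Wb e π (C t) t :=
  ⟨fun i => by
    rw [coeff_C]
    split_ifs
    · exact ht
    · exact Wb.zero_mem, by rw [natDegree_C]; exact he, eval_C⟩

theorem Dom.add {x y : K} (hx : Dom Wb e π x) (hy : Dom Wb e π y) : Dom Wb e π (x + y) := by
  obtain ⟨R₁, h₁⟩ := hx
  obtain ⟨R₂, h₂⟩ := hy
  exact ⟨_, h₁.add h₂⟩

theorem Dom.smul {x t : K} (ht : t ∈ Wb) (hx : Dom Wb e π x) : Dom Wb e π (t * x) := by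
  obtain ⟨R, h⟩ := hx
  exact ⟨_, h.smul ht⟩

theorem Dom.of_mem (he : 0 < e) {t : K} (ht : t ∈ Wb) : Dom Wb e π t := ⟨_, IsRem.of_mem he ht⟩

variable (H : Hyp v Wb ϖ e π β)
include H

/-- `subst` does not depend on the chosen remainder -/
theorem subst_eq {R : K[X]} {x : K} (hR : IsRem Wb e π R x) : subst Wb e π β x = R.eval β := by
  have hd : Dom Wb e π x := ⟨R, hR⟩
  rw [subst, dif_pos hd]
  have hc := Classical.choose_spec hd
  have hdiff := hc.sub hR
  rw [sub_self] at hdiff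
  have := H.val_eval_rem _ hdiff.1 hdiff.2.1
  rw [hdiff.2.2, map_zero] at this
  have h0 := v.zero_iff.mp this
  rw [eval_sub, sub_eq_zero] at h0
  exact h0

theorem subst_add {x y : K} (hx : Dom Wb e π x) (hy : Dom Wb e π y) :
    subst Wb e π β (x + y) = subst Wb e π β x + subst Wb e π β y := by
  obtain ⟨R₁, h₁⟩ := hx
  obtain ⟨R₂, h₂⟩ := hy
  rw [subst_eq H (h₁.add h₂), subst_eq H h₁, subst_eq H h₂, eval_add]

theorem subst_smul {x t : K} (ht : t ∈ Wb) (hx : Dom Wb e π x) :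
    subst Wb e π β (t * x) = t * subst Wb e π β x := by
  obtain ⟨R, h⟩ := hx
  rw [subst_eq H (h.smul ht), subst_eq H h, eval_mul, eval_C]

theorem subst_of_mem {t : K} (ht : t ∈ Wb) : subst Wb e π β t = t := by
  rw [subst_eq H (IsRem.of_mem H.he ht), eval_C]

theorem subst_one : subst Wb e π β 1 = 1 := subst_of_mem H Wb.one_mem

/-- **`v (subst x) = v x`** -/
theorem val_subst {x : K} (hx : Dom Wb e π x) : v (subst Wb e π β x) = v x := by
  obtain ⟨R, h⟩ := hx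
  rw [subst_eq H h, H.val_eval_rem R h.1 h.2.1, h.2.2]

/-- `subst x` is fixed by every ring endomorphism fixing `Wb` and `β` -/
theorem subst_fixed (σ : K →+* K) (hσW : ∀ t ∈ Wb, σ t = t) (hσβ : σ β = β) {x : K}
    (hx : Dom Wb e π x) : σ (subst Wb e π β x) = subst Wb e π β x := by
  obtain ⟨R, h⟩ := hx
  rw [subst_eq H h, eval_eq_sum_range, map_sum]
  refine Finset.sum_congr rfl fun i _ => ?_
  rw [map_mul, map_pow, hσW _ (h.1 i), hσβ]

variable (P : K[X]) (hPm : P.Monic) (hPd : P.natDegree = e) (hPW : ∀ i, P.coeff i ∈ Wb)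
  (hPπ : P.eval π = 0)
include hPm hPd hPW hPπ

/-- **`subst (Q π) = Q β - P β * S β`** for `Q` over `Wb` (and `Q π` is in the domain) -/
theorem subst_eval (Q : K[X]) (hQ : ∀ i, Q.coeff i ∈ Wb) :
    Dom Wb e π (Q.eval π) ∧ ∃ S : K[X], (∀ i, S.coeff i ∈ Wb) ∧
      subst Wb e π β (Q.eval π) = Q.eval β - P.eval β * S.eval β := by
  obtain ⟨S, R, hS, hR, hRd, rfl⟩ := Hyp.exists_div_rem P hPm hPd H.he hPW Q hQ
  have hRem : IsRem Wb e π R ((R + P * S).eval π) :=
    ⟨hR, hRd, by rw [eval_add, eval_mul, hPπ, zero_mul, add_zero]⟩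
  refine ⟨⟨R, hRem⟩, S, hS, ?_⟩
  rw [subst_eq H hRem, eval_add, eval_mul]
  ring

/-- **`subst` is multiplicative modulo `P β * Wb[β]`** -/
theorem subst_mul {x y : K} (hx : Dom Wb e π x) (hy : Dom Wb e π y) :
    Dom Wb e π (x * y) ∧ ∃ S : K[X], (∀ i, S.coeff i ∈ Wb) ∧
      subst Wb e π β (x * y) = subst Wb e π β x * subst Wb e π β y - P.eval β * S.eval β := by
  obtain ⟨R₁, h₁⟩ := hx
  obtain ⟨R₂, h₂⟩ := hy
  have hQ : ∀ i, (R₁ * R₂).coeff i ∈ Wb := by
    intro i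
    rw [coeff_mul]
    exact Wb.sum_mem fun c _ => Wb.mul_mem (h₁.1 _) (h₂.1 _)
  obtain ⟨hd, S, hS, hS'⟩ := subst_eval H P hPm hPd hPW hPπ (R₁ * R₂) hQ
  rw [eval_mul, h₁.2.2, h₂.2.2] at hd hS'
  refine ⟨hd, S, hS, ?_⟩
  rw [hS', subst_eq H h₁, subst_eq H h₂, eval_mul]

/-- the error term in `subst_mul` is integral: `v (subst (x y) - subst x * subst y) ≤ v (P β)` -/
theorem val_subst_mul_sub_le {x y : K} (hx : Dom Wb e π x) (hy : Dom Wb e π y) :
    v (subst Wb e π β (x * y) - subst Wb e π β x * subst Wb e π β y) ≤ v (P.eval β) := by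
  obtain ⟨-, S, hS, hS'⟩ := subst_mul H P hPm hPd hPW hPπ hx hy
  rw [hS', sub_sub_cancel_left, v.map_neg, map_mul]
  exact mul_le_of_le_one_right' (Hyp.val_eval_le_one H.hWA S hS H.val_β_le_one)

/-- `v (subst (Q π) - Q β) ≤ v (P β)` -/
theorem val_subst_eval_sub_le (Q : K[X]) (hQ : ∀ i, Q.coeff i ∈ Wb) :
    v (subst Wb e π β (Q.eval π) - Q.eval β) ≤ v (P.eval β) := by
  obtain ⟨-, S, hS, hS'⟩ := subst_eval H P hPm hPd hPW hPπ Q hQ
  rw [hS', sub_sub_cancel_left, v.map_neg, map_mul]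
  exact mul_le_of_le_one_right' (Hyp.val_eval_le_one H.hWA S hS H.val_β_le_one)

/-- every element of `Wb[π]` (as `Algebra.adjoin`) lies in the domain -/
theorem dom_of_mem_adjoin {x : K} (hx : x ∈ Algebra.adjoin Wb {π}) : Dom Wb e π x := by
  rw [Algebra.adjoin_singleton_eq_range_aeval] at hx
  obtain ⟨Q', rfl⟩ := hx
  have : (aeval π) Q' = (Q'.map Wb.subtype).eval π := by
    rw [eval_map]; rfl
  rw [show (aeval π).toRingHom Q' = (Q'.map Wb.subtype).eval π from this]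
  exact (subst_eval H P hPm hPd hPW hPπ (Q'.map Wb.subtype)
    (fun i => by rw [coeff_map]; exact (Q'.coeff i).2)).1

/-- **Packaged form**: the substitution `s = subst Wb e π β` on `Wb[π] = Algebra.adjoin Wb {π}`:
additive, `Wb`-linear, identity on `Wb`, valuation preserving, multiplicative modulo `P β`,
`Q π ↦ Q β` modulo `P β`, and fixed by every ring endomorphism fixing `Wb` and `β`. -/
theorem exists_subst : ∃ s : K → K,
    (∀ x ∈ Algebra.adjoin Wb {π}, ∀ y ∈ Algebra.adjoin Wb {π}, s (x + y) = s x + s y) ∧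
    (∀ t ∈ Wb, ∀ x ∈ Algebra.adjoin Wb {π}, s (t * x) = t * s x) ∧
    (∀ t ∈ Wb, s t = t) ∧
    (∀ x ∈ Algebra.adjoin Wb {π}, v (s x) = v x) ∧
    (∀ x ∈ Algebra.adjoin Wb {π}, ∀ y ∈ Algebra.adjoin Wb {π},
      v (s (x * y) - s x * s y) ≤ v (P.eval β)) ∧
    (∀ Q : K[X], (∀ i, Q.coeff i ∈ Wb) → v (s (Q.eval π) - Q.eval β) ≤ v (P.eval β)) ∧
    (∀ σ : K →+* K, (∀ t ∈ Wb, σ t = t) → σ β = β → ∀ x ∈ Algebra.adjoin Wb {π}, σ (s x) = s x) := by
  have hd := fun x hx => dom_of_mem_adjoin H P hPm hPd hPW hPπ (x := x) hx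
  exact ⟨subst Wb e π β, fun x hx y hy => subst_add H (hd x hx) (hd y hy),
    fun t ht x hx => subst_smul H ht (hd x hx),
    fun t ht => subst_of_mem H ht, fun x hx => val_subst H (hd x hx),
    fun x hx y hy => val_subst_mul_sub_le H P hPm hPd hPW hPπ (hd x hx) (hd y hy),
    fun Q hQ => val_subst_eval_sub_le H P hPm hPd hPW hPπ Q hQ,
    fun σ hσW hσβ x hx => subst_fixed H σ hσW hσβ (hd x hx)⟩

end Canon

end Fermat.Agent.GP.Flat.EisSubst
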