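/-
GATE-P / S56 [P-FLAT] node S56-FLAT-LOCALCOND, file 2 (helper90): the `H⁰`-factor variant of
helper44's adapter `SSHlcCond.localCond_of_ZD`, for the ORDINARY branch of the flat condition.

`SSHlcCond.localCond_of_ZD` concludes `finrank L ≤ e` from `#T ≤ p ^ e`; this is what the
level-two branch needs (`H⁰(D_p, ad⁰) = 0`).  In the ordinary branch the count is
`#L ≤ #H⁰(D_p, ad⁰) · #k` (helper47 `OrdLocal.card_Lmax_le`: `≤ #inv0 (rD P r) * #k`), so the
adapter must keep the `H⁰`-factor: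

* `card_inv0_le_hlc0` : `#inv0 R ≤ #Hlc 𝒰 M 0` for an abstract local model (helper79's
  `StrictOrdHlc.card_inv0_le` without the upper-triangularity binder);
* `inv0_rD_le` / `card_inv0_rD_le` : the function-level invariants on the FROZEN decomposition
  group of `padicPlace q` are bounded by `#Hlc (levelQ q) (Rep.res (localGaloisToGlobal q) N) 0`;
* `localCond_of_ZD_mul` : `LocalCond ρbar b p N emb q P e` from `(ZD, φ : ZD → T)` with
  `#T ≤ #Hlc⁰ · p ^ e`;
* `localCond_of_ZD_inv0` : the same with `#T ≤ #inv0 (r̄|D_P) · #k`, `#k = p ^ e`.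
-/
import Fermat.Agent.GP.Flat.SSHlcCond
import Fermat.Agent.GP.Loc.StrictOrdDim

set_option autoImplicit false
set_option linter.unusedSectionVars false

namespace Fermat.Agent.GP.Flat.FlatLocalCondH0

open IsLocalRing Fermat.Agent.S53_helper35 Matrix Fermat.Agent.GP.Tan.Cocycle
  Fermat.Agent.GC.Prof Fermat.Agent.GC.Places Fermat.Agent.GC.Local.KR
  Fermat.Agent.GP.Core Fermat.Agent.GP.Flat.SSHlcPinned Fermat.Agent.GP.Loc.StrictOrdDim

noncomputable section

/-! ### `#(ad⁰)^Γ ≤ #H⁰` in an abstract local model -/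

section Abstract

variable {p : ℕ} [Fact p.Prime] {Γ : Type} [Group Γ] (𝒰 : LevelSystem Γ)
variable {k : Type} [Field k] (R : Γ →* Matrix (Fin 2) (Fin 2) k)
variable (M : Rep (ZMod p) Γ) [IsDiscrete 𝒰 M] (emb : M →+ Matrix (Fin 2) (Fin 2) k)

/-- `#(ad⁰)^Γ ≤ #H⁰(Γ, M)` for a model `emb : M → M₂(k)` of `ad⁰ R` (injective, onto the
trace-zero matrices, equivariant). -/
theorem card_inv0_le_hlc0 [Finite k] (hinj : Function.Injective emb)
    (hsurj : ∀ X : Matrix (Fin 2) (Fin 2) k, X.trace = 0 → ∃ x : M, emb x = X)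
    (hact : ∀ (γ : Γ) (x : M), emb (M.ρ γ x) = R γ * emb x * R γ⁻¹) :
    Nat.card (inv0 R) ≤ Nat.card (Hlc 𝒰 M 0) := by
  have hfinM : Finite M := Finite.of_injective emb hinj
  rw [Nat.card_congr (Hlc0Equiv 𝒰 M).toEquiv]
  let φ : inv0 R → M.ρ.invariants := fun X =>
    ⟨(hsurj X.1 X.2.1).choose, fun γ => by
      apply hinj
      rw [hact, (hsurj X.1 X.2.1).choose_spec]
      have hc := X.2.2 γ
      have hrr : R γ * R γ⁻¹ = 1 := by rw [← map_mul, mul_inv_cancel, map_one]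
      calc R γ * X.1 * R γ⁻¹ = X.1 * (R γ * R γ⁻¹) := by rw [hc, Matrix.mul_assoc]
        _ = X.1 := by rw [hrr, Matrix.mul_one]⟩
  have hφ : Function.Injective φ := by
    intro X Y hXY
    have h1 : (hsurj X.1 X.2.1).choose = (hsurj Y.1 Y.2.1).choose := congrArg Subtype.val hXY
    have h2 := congrArg emb h1
    rw [(hsurj X.1 X.2.1).choose_spec, (hsurj Y.1 Y.2.1).choose_spec] at h2
    exact Subtype.ext h2
  exact Nat.card_le_card_of_injective φ hφ

end Abstract

/-! ### The pinned local model at `q` -/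

section Pinned

variable {p : ℕ} [Fact p.Prime]
variable {k : Type} [Field k] (Rg : S53_helper35.GQ →* Matrix (Fin 2) (Fin 2) k)
variable (q : ℕ) [Fact q.Prime]

/-- the restriction of `Rg` to the FROZEN decomposition group of `padicPlace q`. -/
abbrev rDP : ↥((padicPlace q).decompositionSubgroup ℚ) →* Matrix (Fin 2) (Fin 2) k :=
  Rg.comp ((padicPlace q).decompositionSubgroup ℚ).subtype

/-- invariants on `D_P` are invariants on `Gq q`. -/
theorem inv0_rDP_le : inv0 (rDP Rg q) ≤ inv0 (Rg.comp (localGaloisToGlobal q)) := by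
  rintro X ⟨hX, hc⟩
  refine ⟨hX, fun τ => ?_⟩
  exact hc ⟨localGaloisToGlobal q τ, localGaloisToGlobal_mem_decompositionSubgroup q τ⟩

variable {Rg}
variable {N : Rep (ZMod p) S53_helper35.GQ} {emb : N →+ Matrix (Fin 2) (Fin 2) k}
variable [IsDiscrete (levelQ q) (Rep.res (localGaloisToGlobal q) N)]

/-- **`#H⁰(D_P, ad⁰) ≤ #Hlc⁰`** in the pinned local model. -/
theorem card_inv0_rDP_le [Finite k] (h : GlobModel N Rg emb) :
    Nat.card (inv0 (rDP Rg q)) ≤
      Nat.card (Hlc (levelQ q) (Rep.res (localGaloisToGlobal q) N) 0) := by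
  have hloc := locModel_of_globModel q h
  have h1 : Nat.card (inv0 (Rg.comp (localGaloisToGlobal q))) ≤
      Nat.card (Hlc (levelQ q) (Rep.res (localGaloisToGlobal q) N) 0) :=
    card_inv0_le_hlc0 (levelQ q) (Rg.comp (localGaloisToGlobal q))
      (Rep.res (localGaloisToGlobal q) N) emb hloc.hinj hloc.hsurj hloc.hact
  have h2 : Nat.card (inv0 (rDP Rg q)) ≤ Nat.card (inv0 (Rg.comp (localGaloisToGlobal q))) :=
    Nat.card_le_card_of_injective (Submodule.inclusion (inv0_rDP_le Rg q))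
      (Submodule.inclusion_injective _)
  exact h2.trans h1

end Pinned

/-! ### `LocalCond` with the `H⁰`-factor -/

section Contract

variable {𝒪 : Type} [CommRing 𝒪] [IsLocalRing 𝒪]
  (ρbar : ResidualGaloisRep (ResidueField 𝒪))
  (b : Module.Basis (Fin 2) (ResidueField 𝒪) ρbar.V)
  (p : ℕ) [Fact p.Prime]
  {N : Rep (ZMod p) S53_helper35.GQ}
  {emb : N →+ Matrix (Fin 2) (Fin 2) (ResidueField 𝒪)}
  (q : ℕ) [Fact q.Prime]
  [IsDiscrete (levelQ q) (Rep.res (localGaloisToGlobal q) N)]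

/-- a finite `𝔽_p`-space `V` with `#V ≤ #W · p ^ e`, `W` a finite `𝔽_p`-space, has
`dim V ≤ dim W + e`. -/
theorem finrank_le_add_of_card_le_mul {V W : Type*} [AddCommGroup V] [Module (ZMod p) V]
    [Finite V] [AddCommGroup W] [Module (ZMod p) W] [Finite W] {e : ℕ}
    (h : Nat.card V ≤ Nat.card W * p ^ e) :
    Module.Finite (ZMod p) V ∧
      Module.finrank (ZMod p) V ≤ Module.finrank (ZMod p) W + e := by
  have hfin : Module.Finite (ZMod p) V := Module.Finite.of_finite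
  have hfinW : Module.Finite (ZMod p) W := Module.Finite.of_finite
  refine ⟨hfin, ?_⟩
  have hV : Nat.card V = p ^ Module.finrank (ZMod p) V := by
    have := Module.natCard_eq_pow_finrank (K := ZMod p) (V := V)
    rwa [Nat.card_zmod] at this
  have hW : Nat.card W = p ^ Module.finrank (ZMod p) W := by
    have := Module.natCard_eq_pow_finrank (K := ZMod p) (V := W)
    rwa [Nat.card_zmod] at this
  rw [hV, hW, ← pow_add] at h
  exact (Nat.pow_le_pow_iff_right (Fact.out : p.Prime).one_lt).1 h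

/-- **`LocalCond` from `(ZD, φ)` with the `H⁰`-factor**: `#T ≤ #Hlc⁰ · p ^ e`, class side on the
FROZEN decomposition group of `padicPlace q`. -/
theorem localCond_of_ZD_mul (h : GlobModel N (toMatRes ρbar b) emb)
    [Finite (Hlc (levelQ q) (Rep.res (localGaloisToGlobal q) N) 0)]
    (P : GaloisRepAdic (DualNumber (ResidueField 𝒪)) → Prop)
    (ZD : AddSubgroup (S53_helper35.GQ → Matrix (Fin 2) (Fin 2) (ResidueField 𝒪)))
    {T : Type*} [Finite T] (φ : ZD → T)
    (hφ : ∀ c c' : ZD, φ c = φ c' → ∃ X : Matrix (Fin 2) (Fin 2) (ResidueField 𝒪),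
      X.trace = 0 ∧ ∀ σ ∈ (padicPlace q).decompositionSubgroup ℚ,
        (c : S53_helper35.GQ → Matrix (Fin 2) (Fin 2) (ResidueField 𝒪)) σ -
          (c' : S53_helper35.GQ → Matrix (Fin 2) (Fin 2) (ResidueField 𝒪)) σ =
        toMatRes ρbar b σ * X * toMatRes ρbar b σ⁻¹ - X)
    (e : ℕ)
    (hT : Nat.card T ≤
      Nat.card (Hlc (levelQ q) (Rep.res (localGaloisToGlobal q) N) 0) * p ^ e)
    (hmem : ∀ (t : S53_helper35.GQ →* Matrix (Fin 2) (Fin 2) (DualNumber (ResidueField 𝒪)))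
      (ht : MatCont t), rfst t = toMatRes ρbar b →
      (∃ ρ : GaloisRepAdic (DualNumber (ResidueField 𝒪)), P ρ ∧ ρ.IsEquiv (ofMat t ht)) →
      tanCocycle t ∈ ZD) :
    LocalCond ρbar b p N emb q P e := by
  obtain ⟨hc, hf⟩ := card_Lq_le q h ZD φ hφ
  obtain ⟨hfin, hrk⟩ := finrank_le_add_of_card_le_mul p (hc.trans hT)
  exact ⟨Lq N emb q ZD, hfin, hrk,
    SSHlcCond.localMem_Lq ρbar b p N emb q P ZD hmem⟩

/-- **`LocalCond` from `(ZD, φ)` with `#T ≤ #H⁰(D_P, ad⁰) · #k`** (`#k = p ^ e`): the shape of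
helper47's `OrdLocal.card_Lmax_le`. -/
theorem localCond_of_ZD_inv0 [Finite (ResidueField 𝒪)]
    (h : GlobModel N (toMatRes ρbar b) emb)
    (P : GaloisRepAdic (DualNumber (ResidueField 𝒪)) → Prop)
    (ZD : AddSubgroup (S53_helper35.GQ → Matrix (Fin 2) (Fin 2) (ResidueField 𝒪)))
    {T : Type*} [Finite T] (φ : ZD → T)
    (hφ : ∀ c c' : ZD, φ c = φ c' → ∃ X : Matrix (Fin 2) (Fin 2) (ResidueField 𝒪),
      X.trace = 0 ∧ ∀ σ ∈ (padicPlace q).decompositionSubgroup ℚ,
        (c : S53_helper35.GQ → Matrix (Fin 2) (Fin 2) (ResidueField 𝒪)) σ -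
          (c' : S53_helper35.GQ → Matrix (Fin 2) (Fin 2) (ResidueField 𝒪)) σ =
        toMatRes ρbar b σ * X * toMatRes ρbar b σ⁻¹ - X)
    (e : ℕ) (hk : Nat.card (ResidueField 𝒪) = p ^ e)
    (hT : Nat.card T ≤
      Nat.card (inv0 (rDP (toMatRes ρbar b) q)) * Nat.card (ResidueField 𝒪))
    (hmem : ∀ (t : S53_helper35.GQ →* Matrix (Fin 2) (Fin 2) (DualNumber (ResidueField 𝒪)))
      (ht : MatCont t), rfst t = toMatRes ρbar b →
      (∃ ρ : GaloisRepAdic (DualNumber (ResidueField 𝒪)), P ρ ∧ ρ.IsEquiv (ofMat t ht)) →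
      tanCocycle t ∈ ZD) :
    LocalCond ρbar b p N emb q P e := by
  have hfinN : Finite N := Finite.of_injective emb h.hinj
  have hfin0 : Finite (Hlc (levelQ q) (Rep.res (localGaloisToGlobal q) N) 0) :=
    Finite.of_injective _ (Hlc0Equiv (levelQ q) (Rep.res (localGaloisToGlobal q) N)).injective
  refine localCond_of_ZD_mul ρbar b p q h P ZD φ hφ e ?_ hmem
  rw [← hk]
  exact hT.trans (Nat.mul_le_mul_right _ (card_inv0_rDP_le q h))

end Contract

end

end Fermat.Agent.GP.Flat.FlatLocalCondH0
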