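import Fermat.Agent.GP.Flat.GroupBasis
import Fermat.Agent.GP.Flat.Absorb

/-!
# The function model of `Hom_{R₀}(B, O)` (helper15, GATE-P / S56 [P-FLAT], FLAT-LIFTFROZEN)

`B` a finite free cocommutative bialgebra over `R₀`, `K` a field, `O` the integers of a valuation
on `K`.  A family of points `pt : S →* Pt(B)` (injective monoid hom, `#S = rank B`) gives a group
basis of the convolution algebra `Hom_{R₀}(B, K)`; evaluation at characters of `S` embeds the order
`Hom_{R₀}(B, O)` into `Fun(Ŝ, O)` with an image containing `#S · Fun(Ŝ, O)` (absorption).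
-/

set_option linter.unusedSectionVars false
set_option linter.style.haveILetI false

noncomputable section

namespace Fermat.Agent.GP.Flat.FnModel

open TensorProduct WithConv Fermat.Agent.GP.Flat.GroupBasis Fermat.Agent.GP.Flat.Absorb

/-! ## naturality of `evalChar` -/

section Nat

variable {K : Type*} [Field K] {S S' : Type*} [CommMonoid S] [CommMonoid S']
  {L L' : Type*} [CommRing L] [Algebra K L] [CommRing L'] [Algebra K L']
  {b : Module.Basis S K L} {b' : Module.Basis S' K L'}

theorem evalChar_pull (hb : IsGroupBasis b) (hb' : IsGroupBasis b') (T : L →ₗ[K] L') (τ : S → S')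
    (hT : ∀ s, T (b s) = b' (τ s)) (χ : S →* K) (χ' : S' →* K) (hχ : ∀ s, χ' (τ s) = χ s) (x : L) :
    evalChar hb' χ' (T x) = evalChar hb χ x := by
  have : (evalChar hb' χ').toLinearMap ∘ₗ T = (evalChar hb χ).toLinearMap := by
    apply b.ext
    intro s
    simp [hT, hχ]
  exact LinearMap.congr_fun this x

end Nat

/-! ## group bases from families of points -/

section Points

variable {R₀ : Type*} [CommRing R₀] {B : Type*} [CommRing B] [Bialgebra R₀ B]
  [Coalgebra.IsCocomm R₀ B] [Module.Finite R₀ B] [Module.Free R₀ B]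
  {K : Type*} [Field K] [Algebra R₀ K]
  {S : Type*} [CommMonoid S]

/-- the family of linear functionals attached to a family of points. -/
def famLin (pt : S →* WithConv (B →ₐ[R₀] K)) : S → WithConv (B →ₗ[R₀] K) :=
  fun s => toConv (pt s).ofConv.toLinearMap

theorem famLin_linearIndependent (pt : S →* WithConv (B →ₐ[R₀] K))
    (hpt : Function.Injective pt) : LinearIndependent K (famLin pt) := by
  have h := linearIndependent_toLinearMap R₀ B K
  have h2 : LinearIndependent K
      (fun s : S => ((pt s).ofConv.toLinearMap : B →ₗ[R₀] K)) :=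
    h.comp (fun s : S => (pt s).ofConv) (fun s t hst => hpt (WithConv.ofConv_injective hst))
  exact h2.map' (WithConv.linearEquiv K (B →ₗ[R₀] K)).symm.toLinearMap
    (LinearEquiv.ker _)

instance finite_conv : Module.Finite K (WithConv (B →ₗ[R₀] K)) :=
  Module.Finite.equiv (WithConv.linearEquiv K (B →ₗ[R₀] K)).symm

theorem finrank_conv : Module.finrank K (WithConv (B →ₗ[R₀] K)) = Module.finrank R₀ B := by
  haveI : Nontrivial R₀ := (algebraMap R₀ K).domain_nontrivial
  rw [← (WithConv.linearEquiv K (B →ₗ[R₀] K)).symm.finrank_eq, Module.finrank_linearMap_self]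

variable [Fintype S]

/-- a full injective family of points is a basis of the convolution algebra. -/
def famBasis (pt : S →* WithConv (B →ₐ[R₀] K)) (hpt : Function.Injective pt)
    (hcard : Fintype.card S = Module.finrank R₀ B) :
    Module.Basis S K (WithConv (B →ₗ[R₀] K)) :=
  basisOfLinearIndependentOfCardEqFinrank' (famLin pt) (famLin_linearIndependent pt hpt)
    (by rw [finrank_conv, hcard])

@[simp]
theorem famBasis_apply (pt : S →* WithConv (B →ₐ[R₀] K)) (hpt : Function.Injective pt)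
    (hcard : Fintype.card S = Module.finrank R₀ B) (s : S) :
    famBasis pt hpt hcard s = toConv (pt s).ofConv.toLinearMap := by
  simp [famBasis, famLin]

theorem famBasis_isGroupBasis (pt : S →* WithConv (B →ₐ[R₀] K)) (hpt : Function.Injective pt)
    (hcard : Fintype.card S = Module.finrank R₀ B) : IsGroupBasis (famBasis pt hpt hcard) where
  mul s t := by
    rw [famBasis_apply, famBasis_apply, famBasis_apply, map_mul, AlgHom.toLinearMap_convMul]
  one := by
    rw [famBasis_apply, map_one, AlgHom.toLinearMap_convOne]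

end Points

/-! ## the order `Hom_{R₀}(B, O)` and its evaluation maps -/

section Order

variable {R₀ : Type*} [CommRing R₀] {B : Type*} [CommRing B] [Bialgebra R₀ B]
  [Coalgebra.IsCocomm R₀ B] [Module.Finite R₀ B] [Module.Free R₀ B]
  {K : Type*} [Field K] [Algebra R₀ K]
  {O : Type*} [CommRing O] [Algebra R₀ O] [Algebra O K] [IsScalarTower R₀ O K]
  {Γ₀ : Type*} [LinearOrderedCommGroupWithZero Γ₀] {v : Valuation K Γ₀}
  {S : Type*} [CommMonoid S] [Fintype S]
  {b : Module.Basis S K (WithConv (B →ₗ[R₀] K))}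

/-- extension of scalars `Hom(B, O) → Hom(B, K)`: an `O`-algebra hom. -/
def toKAlg : WithConv (B →ₗ[R₀] O) →ₐ[O] WithConv (B →ₗ[R₀] K) where
  toFun f := toConv ((IsScalarTower.toAlgHom R₀ O K).toLinearMap ∘ₗ f.ofConv)
  map_one' := by
    apply WithConv.ofConv_injective
    ext x
    simp [LinearMap.convOne_def, ← IsScalarTower.algebraMap_apply]
  map_mul' f g := by
    apply WithConv.ofConv_injective
    rw [ofConv_toConv, LinearMap.algHom_comp_convMul_distrib]
  map_zero' := by
    apply WithConv.ofConv_injective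
    ext x
    simp
  map_add' f g := by
    apply WithConv.ofConv_injective
    ext x
    simp
  commutes' r := by
    apply WithConv.ofConv_injective
    ext x
    simp [LinearMap.convAlgebraMap_apply]
    rw [← IsScalarTower.algebraMap_apply, Algebra.smul_def]

@[simp]
theorem toKAlg_apply (f : WithConv (B →ₗ[R₀] O)) (x : B) :
    (toKAlg (K := K) f) x = algebraMap O K (f x) := rfl

/-- evaluation at `x : B`, as a `K`-linear map. -/
def appLin (x : B) : WithConv (B →ₗ[R₀] K) →ₗ[K] K where
  toFun F := F x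
  map_add' _ _ := rfl
  map_smul' _ _ := rfl

@[simp] theorem appLin_apply (x : B) (F : WithConv (B →ₗ[R₀] K)) : appLin x F = F x := rfl

theorem toKAlg_injective (hO : v.Integers O) :
    Function.Injective (toKAlg (R₀ := R₀) (B := B) (K := K) (O := O)) := by
  intro f g hfg
  apply WithConv.ofConv_injective
  ext x
  apply hO.hom_inj
  have := congrArg (fun F : WithConv (B →ₗ[R₀] K) => F x) hfg
  simpa using this

/-- an integral-valued functional comes from the order. -/
theorem exists_toKAlg_eq (hO : v.Integers O) (F : WithConv (B →ₗ[R₀] K))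
    (hF : ∀ x, v (F x) ≤ 1) : ∃ f : WithConv (B →ₗ[R₀] O), toKAlg f = F := by
  choose f₀ hf₀ using fun x => hO.exists_of_le_one (hF x)
  refine ⟨toConv
    { toFun := f₀
      map_add' := fun x y => hO.hom_inj (by rw [map_add, hf₀, hf₀, hf₀, map_add])
      map_smul' := fun r x => hO.hom_inj (by
        rw [RingHom.id_apply, hf₀, map_smul, Algebra.smul_def, Algebra.smul_def, map_mul, hf₀,
          ← IsScalarTower.algebraMap_apply]) }, ?_⟩
  apply WithConv.ofConv_injective
  ext x
  exact hf₀ x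

instance isScalarTower_conv : IsScalarTower O K (WithConv (B →ₗ[R₀] K)) :=
  ⟨fun r k F => by
    apply WithConv.ofConv_injective
    ext x
    simp [smul_assoc]⟩

/-- `K`-valued evaluation of the order at a character of `S`. -/
def evK (hb : IsGroupBasis b) (χ : S →* K) : WithConv (B →ₗ[R₀] O) →ₐ[O] K :=
  ((evalChar hb χ).restrictScalars O).comp toKAlg

theorem evK_apply (hb : IsGroupBasis b) (χ : S →* K) (f : WithConv (B →ₗ[R₀] O)) :
    evK hb χ f = evalChar hb χ (toKAlg f) := rfl

/-- evaluations of the order are integral. -/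
theorem evK_le_one (hO : v.Integers O) (hb : IsGroupBasis b) (χ : S →* K)
    (f : WithConv (B →ₗ[R₀] O)) : v (evK hb χ f) ≤ 1 := by
  haveI : Module.Finite O (WithConv (B →ₗ[R₀] O)) :=
    Module.Finite.equiv (WithConv.linearEquiv O (B →ₗ[R₀] O)).symm
  have h1 : IsIntegral O f := IsIntegral.of_finite O f
  have h2 : IsIntegral O (evK hb χ f) := h1.map (evK hb χ)
  exact hO.mem_of_integral h2

/-- the `O`-valued evaluation map along a family `c` of characters. -/
def evO (hO : v.Integers O) (hb : IsGroupBasis b) {ι : Type*} (c : ι → (S →* K)) :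
    WithConv (B →ₗ[R₀] O) →ₐ[O] (ι → O) :=
  have key : ∀ (f : WithConv (B →ₗ[R₀] O)) (i : ι), ∃ a : O, algebraMap O K a = evK hb (c i) f :=
    fun f i => hO.exists_of_le_one (evK_le_one hO hb (c i) f)
  { toFun := fun f i => (key f i).choose
    map_one' := by
      funext i
      apply hO.hom_inj
      rw [(key 1 i).choose_spec, map_one, Pi.one_apply, map_one]
    map_mul' := fun f g => by
      funext i
      apply hO.hom_inj
      rw [(key (f * g) i).choose_spec, Pi.mul_apply, map_mul, map_mul, (key f i).choose_spec,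
        (key g i).choose_spec]
    map_zero' := by
      funext i
      apply hO.hom_inj
      rw [(key 0 i).choose_spec, map_zero, Pi.zero_apply, map_zero]
    map_add' := fun f g => by
      funext i
      apply hO.hom_inj
      rw [(key (f + g) i).choose_spec, Pi.add_apply, map_add, map_add, (key f i).choose_spec,
        (key g i).choose_spec]
    commutes' := fun r => by
      funext i
      apply hO.hom_inj
      rw [(key _ i).choose_spec, AlgHom.commutes]
      rfl }

theorem algebraMap_evO (hO : v.Integers O) (hb : IsGroupBasis b) {ι : Type*} (c : ι → (S →* K))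
    (f : WithConv (B →ₗ[R₀] O)) (i : ι) :
    algebraMap O K (evO hO hb c f i) = evalChar hb (c i) (toKAlg f) :=
  (hO.exists_of_le_one (evK_le_one hO hb (c i) f)).choose_spec

section Fourier

open scoped Classical

variable [CharZero K] [HasEnoughRootsOfUnity K (Monoid.exponent S)] [Fintype (S →* Kˣ)]

/-- the evaluation map along a family containing all characters is injective. -/
theorem evO_injective (hO : v.Integers O) (hb : IsGroupBasis b) (hS : ∀ s : S, IsUnit s)
    {ι : Type*} (c : ι → (S →* K)) (hc : ∀ ψ : S →* Kˣ, ∃ i, c i = toK ψ) :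
    Function.Injective (evO (R₀ := R₀) (B := B) hO hb c) := by
  rw [injective_iff_map_eq_zero]
  intro f hf
  apply toKAlg_injective (K := K) hO
  rw [map_zero]
  apply eq_zero_of_evalChar_eq_zero hS hb
  intro ψ
  obtain ⟨i, hi⟩ := hc ψ
  rw [← hi, ← algebraMap_evO hO hb c f i, hf, Pi.zero_apply, map_zero]

/-- values of characters of a finite monoid have valuation `1`. -/
theorem val_char_eq_one (hS : ∀ s : S, IsUnit s) (ψ : S →* Kˣ) (s : S) :
    v ((ψ s : Kˣ) : K) = 1 := by
  letI : CommGroup S := commGroupOfIsUnit hS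
  obtain ⟨n, hn0, hn⟩ := (isOfFinOrder_of_finite s).exists_pow_eq_one
  have h1 : ((ψ s : Kˣ) : K) ^ n = 1 := by
    rw [← Units.val_pow_eq_pow_val, ← map_pow, hn, map_one, Units.val_one]
  have h2 : v ((ψ s : Kˣ) : K) ^ n = 1 := by rw [← map_pow, h1, map_one]
  rcases pow_eq_one_iff.mp h2 with h | h
  · exact h
  · exact absurd h hn0.ne'

/-- **absorption**: the image of the evaluation map along a family of characters in bijection
with the dual of `S` contains `#S · Fun(ι, O)`. -/
theorem evO_absorbs (hO : v.Integers O) (hb : IsGroupBasis b) (hS : ∀ s : S, IsUnit s)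
    (hbO : ∀ s x, v ((b s) x) ≤ 1)
    {ι : Type*} (c : ι → (S →* K)) (e : ι ≃ (S →* Kˣ)) (hc : ∀ i, c i = toK (e i)) :
    Absorbs (evO (R₀ := R₀) (B := B) hO hb c) ((Fintype.card S : ℕ) : O) := by
  intro φ
  set φK : (S →* Kˣ) → K := fun ψ => algebraMap O K (φ (e.symm ψ)) with hφK
  set coef : S → K := fun s => ∑ ψ' : S →* Kˣ, φK ψ' * (((ψ' s)⁻¹ : Kˣ) : K) with hcoef
  have hcoef1 : ∀ s, v (coef s) ≤ 1 := by
    intro s
    apply v.map_sum_le
    intro ψ' _
    rw [map_mul]
    have h1 : v (φK ψ') ≤ 1 := hO.map_le_one _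
    have h2 : v ((((ψ' s)⁻¹ : Kˣ) : K)) = 1 := by
      rw [Units.val_inv_eq_inv_val, map_inv₀, val_char_eq_one hS, inv_one]
    rw [h2, mul_one]
    exact h1
  set F : WithConv (B →ₗ[R₀] K) := ∑ s, coef s • b s with hF
  have hFint : ∀ x, v (F x) ≤ 1 := by
    intro x
    have : F x = ∑ s, coef s * (b s) x := by
      rw [hF, ← appLin_apply, map_sum]
      simp
    rw [this]
    apply v.map_sum_le
    intro s _
    rw [map_mul]
    exact mul_le_one' (hcoef1 s) (hbO s x)
  obtain ⟨f, hf⟩ := exists_toKAlg_eq hO F hFint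
  refine ⟨f, ?_⟩
  funext i
  apply hO.hom_inj
  rw [algebraMap_evO, hf, hc i, hF, evalChar_fourierInv hS hb φK (e i)]
  simp [hφK]

end Fourier

end Order

/-! ## pull-backs along algebra homs -/

section Pull

variable {R₀ : Type*} [CommRing R₀] {B B' : Type*} [CommRing B] [Bialgebra R₀ B]
  [Coalgebra.IsCocomm R₀ B] [Module.Finite R₀ B] [Module.Free R₀ B]
  [CommRing B'] [Bialgebra R₀ B']
  [Coalgebra.IsCocomm R₀ B'] [Module.Finite R₀ B'] [Module.Free R₀ B']
  {K : Type*} [Field K] [Algebra R₀ K]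
  {O : Type*} [CommRing O] [Algebra R₀ O] [Algebra O K] [IsScalarTower R₀ O K]
  {Γ₀ : Type*} [LinearOrderedCommGroupWithZero Γ₀] {v : Valuation K Γ₀}
  {S S' : Type*} [CommMonoid S] [Fintype S] [CommMonoid S'] [Fintype S']
  {b : Module.Basis S K (WithConv (B →ₗ[R₀] K))}
  {b' : Module.Basis S' K (WithConv (B' →ₗ[R₀] K))}

/-- pull back `K`-valued functionals along an algebra hom (`K`-linear). -/
def pullLin (φ : B →ₐ[R₀] B') : WithConv (B' →ₗ[R₀] K) →ₗ[K] WithConv (B →ₗ[R₀] K) where
  toFun F := toConv (F.ofConv ∘ₗ φ.toLinearMap)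
  map_add' F F' := by
    apply WithConv.ofConv_injective
    ext x
    simp
  map_smul' c F := by
    apply WithConv.ofConv_injective
    ext x
    simp

@[simp]
theorem pullLin_apply (φ : B →ₐ[R₀] B') (F : WithConv (B' →ₗ[R₀] K)) (x : B) :
    pullLin φ F x = F (φ x) := rfl

/-- pull back `O`-valued functionals along an algebra hom. -/
def pullO (φ : B →ₐ[R₀] B') (f : WithConv (B' →ₗ[R₀] O)) : WithConv (B →ₗ[R₀] O) :=
  toConv (f.ofConv ∘ₗ φ.toLinearMap)

@[simp]
theorem pullO_apply (φ : B →ₐ[R₀] B') (f : WithConv (B' →ₗ[R₀] O)) (x : B) :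
    pullO φ f x = f (φ x) := rfl

theorem toKAlg_pullO (φ : B →ₐ[R₀] B') (f : WithConv (B' →ₗ[R₀] O)) :
    toKAlg (K := K) (pullO φ f) = pullLin φ (toKAlg f) := rfl

/-- **naturality** of the evaluation maps: if `φ^*` maps the basis `b'` into the basis `b` along
`τ : S' → S` and the characters correspond, the evaluations agree. -/
theorem evO_pull (hO : v.Integers O) (hb : IsGroupBasis b) (hb' : IsGroupBasis b')
    (φ : B →ₐ[R₀] B') (τ : S' → S) (hT : ∀ s', pullLin φ (b' s') = b (τ s'))
    {ι ι' : Type*} (c : ι → (S →* K)) (c' : ι' → (S' →* K)) (i : ι) (i' : ι')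
    (hχ : ∀ s', c i (τ s') = c' i' s') (f : WithConv (B' →ₗ[R₀] O)) :
    evO hO hb c (pullO φ f) i = evO hO hb' c' f i' := by
  apply hO.hom_inj
  rw [algebraMap_evO, algebraMap_evO, toKAlg_pullO]
  exact evalChar_pull hb' hb (pullLin φ) τ hT (c' i') (c i) hχ (toKAlg f)

end Pull

/-! ## descent of units -/

section Units

variable {O : Type*} [CommRing O] {ι : Type*} [Finite ι] {Λ : Type*} [CommRing Λ] [Algebra O Λ]

/-- an element of a function model which is pointwise a unit is a unit. -/
theorem isUnit_of_forall_isUnit {ev : Λ →ₐ[O] (ι → O)} (hinj : Function.Injective ev) (l : Λ)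
    (h : ∀ i, IsUnit (ev l i)) : IsUnit l := by
  have hint : (ev : Λ →+* (ι → O)).IsIntegral := by
    have h1 : ((ev : Λ →+* (ι → O)).comp (algebraMap O Λ)).IsIntegral := by
      have : (ev : Λ →+* (ι → O)).comp (algebraMap O Λ) = algebraMap O (ι → O) := by
        ext r
        simp
      rw [this]
      exact algebraMap_isIntegral_iff.mpr inferInstance
    exact RingHom.IsIntegral.tower_top _ _ h1
  haveI := hint.isLocalHom hinj
  have hu : IsUnit ((ev : Λ →+* (ι → O)) l) := by
    rw [Pi.isUnit_iff]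
    exact h
  exact isUnit_of_map_unit (ev : Λ →+* (ι → O)) l hu

end Units

/-! ## points of `H ⊗ H`, projections, graphs -/

section Hopf

variable {R₀ : Type*} [CommRing R₀] {H : Type*} [CommRing H] [Bialgebra R₀ H]
  [Coalgebra.IsCocomm R₀ H]
  {A : Type*} [CommRing A] [Algebra R₀ A]

theorem productMap_toLinearMap (a b : H →ₐ[R₀] A) :
    (Algebra.TensorProduct.productMap a b).toLinearMap
      = (Algebra.TensorProduct.lmul' R₀ (S := A)).toLinearMap
        ∘ₗ TensorProduct.map a.toLinearMap b.toLinearMap := by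
  ext x y
  simp

/-- the point `h ⊗ h' ↦ g h * g' h'` of `H ⊗ H`, as a monoid hom in `(g, g')`. -/
def pairHom : WithConv (H →ₐ[R₀] A) × WithConv (H →ₐ[R₀] A) →*
    WithConv (H ⊗[R₀] H →ₐ[R₀] A) where
  toFun g := toConv (Algebra.TensorProduct.productMap g.1.ofConv g.2.ofConv)
  map_one' := by
    apply WithConv.ofConv_injective
    apply Algebra.TensorProduct.ext'
    intro x y
    simp [AlgHom.convOne_def, mul_comm]
  map_mul' g g' := by
    apply WithConv.ofConv_injective
    apply AlgHom.toLinearMap_injective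
    apply WithConv.toConv_injective
    rw [AlgHom.toLinearMap_convMul]
    simp only [productMap_toLinearMap, Prod.fst_mul, Prod.snd_mul]
    have h1 := LinearMap.algHom_comp_convMul_distrib (Algebra.TensorProduct.lmul' R₀ (S := A))
      (toConv (TensorProduct.map g.1.ofConv.toLinearMap g.2.ofConv.toLinearMap))
      (toConv (TensorProduct.map g'.1.ofConv.toLinearMap g'.2.ofConv.toLinearMap))
    have h2 := TensorProduct.map_convMul_map (R := R₀)
      (f := toConv g.1.ofConv.toLinearMap) (h := toConv g'.1.ofConv.toLinearMap)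
      (g := toConv g.2.ofConv.toLinearMap) (k := toConv g'.2.ofConv.toLinearMap)
    rw [← AlgHom.toLinearMap_convMul, ← AlgHom.toLinearMap_convMul] at h2
    rw [h2] at h1
    exact congrArg toConv h1

@[simp]
theorem pairHom_apply_tmul (g : WithConv (H →ₐ[R₀] A) × WithConv (H →ₐ[R₀] A)) (x y : H) :
    pairHom g (x ⊗ₜ[R₀] y) = g.1 x * g.2 y := by
  simp [pairHom]

theorem pairHom_injective :
    Function.Injective (pairHom (R₀ := R₀) (H := H) (A := A)) := by
  rintro ⟨g₁, g₂⟩ ⟨g₁', g₂'⟩ h
  have e : ∀ x y : H, g₁ x * g₂ y = g₁' x * g₂' y := by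
    intro x y
    have := congrArg (fun F : WithConv (H ⊗[R₀] H →ₐ[R₀] A) => F (x ⊗ₜ[R₀] y)) h
    simpa using this
  ext x
  · have := e x 1
    simpa using this
  · have := e 1 x
    simpa using this

/-- the first projection `H ⊗ H → H`, `h ⊗ h' ↦ ε(h') h`. -/
def proj₁ : H ⊗[R₀] H →ₐ[R₀] H :=
  Algebra.TensorProduct.productMap (AlgHom.id R₀ H)
    ((Algebra.ofId R₀ H).comp (Bialgebra.counitAlgHom R₀ H))

/-- the second projection `H ⊗ H → H`, `h ⊗ h' ↦ ε(h) h'`. -/
def proj₂ : H ⊗[R₀] H →ₐ[R₀] H :=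
  Algebra.TensorProduct.productMap ((Algebra.ofId R₀ H).comp (Bialgebra.counitAlgHom R₀ H))
    (AlgHom.id R₀ H)

@[simp]
theorem proj₁_tmul (x y : H) :
    proj₁ (R₀ := R₀) (x ⊗ₜ[R₀] y) = x * algebraMap R₀ H (Coalgebra.counit y) := by
  simp [proj₁, Algebra.ofId_apply]

@[simp]
theorem proj₂_tmul (x y : H) :
    proj₂ (R₀ := R₀) (x ⊗ₜ[R₀] y) = algebraMap R₀ H (Coalgebra.counit x) * y := by
  simp [proj₂, Algebra.ofId_apply]

/-- composition with an algebra hom, as a monoid hom of convolution monoids. -/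
def compHom {A' : Type*} [CommRing A'] [Algebra R₀ A'] (φ : A →ₐ[R₀] A') :
    WithConv (H →ₐ[R₀] A) →* WithConv (H →ₐ[R₀] A') where
  toFun g := toConv (φ.comp g.ofConv)
  map_one' := by
    apply WithConv.ofConv_injective
    ext x
    simp [AlgHom.convOne_def]
  map_mul' g g' := by
    apply WithConv.ofConv_injective
    rw [ofConv_toConv, AlgHom.comp_convMul_distrib]

@[simp]
theorem compHom_apply {A' : Type*} [CommRing A'] [Algebra R₀ A'] (φ : A →ₐ[R₀] A')
    (g : WithConv (H →ₐ[R₀] A)) (x : H) : compHom φ g x = φ (g x) := rfl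

/-- the graph of `[j]`: `θ_j = (id ⊗ [j]) ∘ Δ : H → H ⊗ H`. -/
def theta (j : ℕ) : H →ₐ[R₀] H ⊗[R₀] H :=
  ((toConv Algebra.TensorProduct.includeLeft : WithConv (H →ₐ[R₀] H ⊗[R₀] H))
    * (toConv Algebra.TensorProduct.includeRight : WithConv (H →ₐ[R₀] H ⊗[R₀] H)) ^ j).ofConv

theorem pairHom_comp_theta (g : WithConv (H →ₐ[R₀] A) × WithConv (H →ₐ[R₀] A)) (j : ℕ) :
    toConv ((pairHom g).ofConv.comp (theta j)) = g.1 * g.2 ^ j := by
  have h := map_mul (compHom (H := H) (pairHom g).ofConv)
    (toConv Algebra.TensorProduct.includeLeft) ((toConv Algebra.TensorProduct.includeRight) ^ j)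
  rw [map_pow] at h
  have h1 : compHom (H := H) (pairHom g).ofConv (toConv Algebra.TensorProduct.includeLeft) = g.1 := by
    apply WithConv.ofConv_injective
    ext x
    simp
  have h2 : compHom (H := H) (pairHom g).ofConv (toConv Algebra.TensorProduct.includeRight)
      = g.2 := by
    apply WithConv.ofConv_injective
    ext x
    simp
  rw [h1, h2] at h
  exact h

/-- the product of the two pull-backs is the exterior product. -/
theorem pull_proj_mul_apply (f f' : WithConv (H →ₗ[R₀] A)) (x y : H) :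
    (toConv (f.ofConv ∘ₗ (proj₁ (R₀ := R₀) (H := H)).toLinearMap)
      * toConv (f'.ofConv ∘ₗ (proj₂ (R₀ := R₀) (H := H)).toLinearMap)) (x ⊗ₜ[R₀] y)
      = f x * f' y := by
  have hP₁ : toConv (f.ofConv ∘ₗ (proj₁ (R₀ := R₀) (H := H)).toLinearMap)
      = toConv ((Algebra.TensorProduct.lmul' R₀ (S := A)).toLinearMap
        ∘ₗ TensorProduct.map f.ofConv (1 : WithConv (H →ₗ[R₀] A)).ofConv) := by
    apply WithConv.ofConv_injective
    ext a b
    simp only [LinearMap.convOne_def, ofConv_toConv, AlgebraTensorModule.curry_apply,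
      LinearMap.restrictScalars_self, curry_apply, LinearMap.coe_comp, AlgHom.coe_toLinearMap,
      Function.comp_apply, proj₁_tmul, map_tmul, Algebra.linearMap_apply,
      Algebra.TensorProduct.lmul'_apply_tmul]
    rw [mul_comm a, ← Algebra.smul_def, map_smul, Algebra.smul_def, mul_comm]
  have hP₂ : toConv (f'.ofConv ∘ₗ (proj₂ (R₀ := R₀) (H := H)).toLinearMap)
      = toConv ((Algebra.TensorProduct.lmul' R₀ (S := A)).toLinearMap
        ∘ₗ TensorProduct.map (1 : WithConv (H →ₗ[R₀] A)).ofConv f'.ofConv) := by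
    apply WithConv.ofConv_injective
    ext a b
    simp only [LinearMap.convOne_def, ofConv_toConv, AlgebraTensorModule.curry_apply,
      LinearMap.restrictScalars_self, curry_apply, LinearMap.coe_comp, AlgHom.coe_toLinearMap,
      Function.comp_apply, proj₂_tmul, map_tmul, Algebra.linearMap_apply,
      Algebra.TensorProduct.lmul'_apply_tmul]
    rw [← Algebra.smul_def, map_smul, Algebra.smul_def]
  have h1 := LinearMap.algHom_comp_convMul_distrib (Algebra.TensorProduct.lmul' R₀ (S := A))
    (toConv (TensorProduct.map f.ofConv (1 : WithConv (H →ₗ[R₀] A)).ofConv))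
    (toConv (TensorProduct.map (1 : WithConv (H →ₗ[R₀] A)).ofConv f'.ofConv))
  have h2 := TensorProduct.map_convMul_map (R := R₀)
    (f := f) (h := (1 : WithConv (H →ₗ[R₀] A)))
    (g := (1 : WithConv (H →ₗ[R₀] A))) (k := f')
  rw [mul_one, one_mul] at h2
  rw [h2] at h1
  rw [hP₁, hP₂]
  exact (LinearMap.congr_fun h1 (x ⊗ₜ[R₀] y)).symm.trans (by simp)

end Hopf

/-! ## the function models of `Hom(H, O)` and `Hom(H ⊗ H, O)` -/

section Roots

@[simp]
theorem toK_apply' {K : Type*} [Field K] {S : Type*} [CommMonoid S] (ψ : S →* Kˣ) (s : S) :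
    toK ψ s = ((ψ s : Kˣ) : K) := rfl

/-- enough roots of unity for a finite commutative monoid of units. -/
theorem hasEnoughRootsOfUnity_of_isUnit {S : Type*} [CommMonoid S] [Finite S]
    (hS : ∀ s : S, IsUnit s) (K : Type*) [Field K] [IsAlgClosed K] [CharZero K] :
    HasEnoughRootsOfUnity K (Monoid.exponent S) := by
  letI : CommGroup S := commGroupOfIsUnit hS
  have : NeZero ((Monoid.exponent S : ℕ) : K) :=
    ⟨Nat.cast_ne_zero.mpr Monoid.exponent_ne_zero_of_finite⟩
  infer_instance

end Roots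

section Model

variable {R₀ : Type*} [CommRing R₀] {H : Type*} [CommRing H] [Bialgebra R₀ H]
  [Coalgebra.IsCocomm R₀ H] [Module.Finite R₀ H] [Module.Free R₀ H]
  {K : Type*} [Field K] [Algebra R₀ K]
  {O : Type*} [CommRing O] [Algebra R₀ O] [Algebra O K] [IsScalarTower R₀ O K]
  {Γ₀ : Type*} [LinearOrderedCommGroupWithZero Γ₀] {v : Valuation K Γ₀}

instance finite_points : Finite (WithConv (H →ₐ[R₀] K)) :=
  (famLin_linearIndependent (MonoidHom.id (WithConv (H →ₐ[R₀] K)))
    Function.injective_id).finite_of_isNoetherian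

instance fintype_points : Fintype (WithConv (H →ₐ[R₀] K)) := Fintype.ofFinite _

/-- points are integral-valued. -/
theorem point_le_one (hO : v.Integers O) (g : WithConv (H →ₐ[R₀] K)) (x : H) : v (g x) ≤ 1 := by
  have h1 : IsIntegral R₀ x := IsIntegral.of_finite R₀ x
  have h2 : IsIntegral R₀ (g.ofConv x) := h1.map g.ofConv
  have h3 : IsIntegral O (g.ofConv x) := h2.tower_top
  exact hO.mem_of_integral h3

/-- the basis of points of `Hom(H, K)`. -/
def ptB (hcard : Fintype.card (WithConv (H →ₐ[R₀] K)) = Module.finrank R₀ H) :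
    Module.Basis (WithConv (H →ₐ[R₀] K)) K (WithConv (H →ₗ[R₀] K)) :=
  famBasis (MonoidHom.id _) Function.injective_id hcard

theorem card_pair (hcard : Fintype.card (WithConv (H →ₐ[R₀] K)) = Module.finrank R₀ H) :
    Fintype.card (WithConv (H →ₐ[R₀] K) × WithConv (H →ₐ[R₀] K))
      = Module.finrank R₀ (H ⊗[R₀] H) := by
  haveI : Nontrivial R₀ := (algebraMap R₀ K).domain_nontrivial
  rw [Fintype.card_prod, hcard, Module.finrank_tensorProduct]

/-- the basis of points of `Hom(H ⊗ H, K)`, indexed by pairs of points of `H`. -/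
def ptB₂ (hcard : Fintype.card (WithConv (H →ₐ[R₀] K)) = Module.finrank R₀ H) :
    Module.Basis (WithConv (H →ₐ[R₀] K) × WithConv (H →ₐ[R₀] K)) K
    (WithConv (H ⊗[R₀] H →ₗ[R₀] K)) :=
  famBasis pairHom pairHom_injective (card_pair hcard)

variable (hcard : Fintype.card (WithConv (H →ₐ[R₀] K)) = Module.finrank R₀ H)

theorem ptB_isGroupBasis : IsGroupBasis (ptB hcard) := famBasis_isGroupBasis _ _ _

theorem ptB₂_isGroupBasis : IsGroupBasis (ptB₂ hcard) := famBasis_isGroupBasis _ _ _

@[simp]
theorem ptB_apply (g : WithConv (H →ₐ[R₀] K)) (x : H) : (ptB hcard g) x = g x := by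
  simp [ptB]

@[simp]
theorem ptB₂_apply_tmul (g : WithConv (H →ₐ[R₀] K) × WithConv (H →ₐ[R₀] K)) (x y : H) :
    (ptB₂ hcard g) (x ⊗ₜ[R₀] y) = g.1 x * g.2 y := by
  simp [ptB₂]

theorem ptB₂_apply (g : WithConv (H →ₐ[R₀] K) × WithConv (H →ₐ[R₀] K)) (t : H ⊗[R₀] H) :
    (ptB₂ hcard g) t = (pairHom g) t := by
  simp [ptB₂]

/-- the dual group, written additively. -/
abbrev Dual (R₀ H K : Type*) [CommRing R₀] [CommRing H] [Bialgebra R₀ H] [Field K] [Algebra R₀ K] :=
  Additive (WithConv (H →ₐ[R₀] K) →* Kˣ)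

/-- characters of the group of points. -/
def chr₁ (ψ : Dual R₀ H K) : WithConv (H →ₐ[R₀] K) →* K := toK ψ.toMul

/-- characters of the group of pairs of points. -/
def chr₂ (ψ : Dual R₀ H K × Dual R₀ H K) :
    WithConv (H →ₐ[R₀] K) × WithConv (H →ₐ[R₀] K) →* K :=
  (toK ψ.1.toMul).coprod (toK ψ.2.toMul)

/-- the function model of `Hom(H, O)`. -/
def ev₁ (hO : v.Integers O) : WithConv (H →ₗ[R₀] O) →ₐ[O] (Dual R₀ H K → O) :=
  evO hO (ptB_isGroupBasis hcard) chr₁

/-- the function model of `Hom(H ⊗ H, O)`. -/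
def ev₂ (hO : v.Integers O) :
    WithConv (H ⊗[R₀] H →ₗ[R₀] O) →ₐ[O] (Dual R₀ H K × Dual R₀ H K → O) :=
  evO hO (ptB₂_isGroupBasis hcard) chr₂

/-! ### the four identities -/

/-- (I1) evaluation at the trivial character is evaluation at `1 : H`. -/
theorem ev₁_zero (hO : v.Integers O) (f : WithConv (H →ₗ[R₀] O)) :
    ev₁ (K := K) hcard hO f 0 = f 1 := by
  apply hO.hom_inj
  rw [ev₁, algebraMap_evO]
  have : (evalChar (ptB_isGroupBasis hcard) (chr₁ (0 : Dual R₀ H K))).toLinearMap
      = appLin (1 : H) := by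
    apply (ptB hcard).ext
    intro g
    simp [chr₁]
  have h := LinearMap.congr_fun this (toKAlg f)
  simpa using h

/-- (I2) the pull-back along the multiplication `H ⊗ H → H` is the diagonal. -/
theorem ev₂_pull_mul (hO : v.Integers O) (f : WithConv (H →ₗ[R₀] O)) (x y : Dual R₀ H K) :
    ev₂ (K := K) hcard hO (pullO (Algebra.TensorProduct.lmul' R₀ (S := H)) f) (x, y)
      = ev₁ hcard hO f (x + y) := by
  refine evO_pull hO (ptB₂_isGroupBasis hcard) (ptB_isGroupBasis hcard)
    (Algebra.TensorProduct.lmul' R₀ (S := H)) (fun g => (g, g)) ?_ chr₂ chr₁ (x, y) (x + y) ?_ f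
  · intro g
    apply WithConv.ofConv_injective
    ext a b
    simp
  · intro g
    simp [chr₂, chr₁]

/-- (I3a) the pull-back along the first projection. -/
theorem ev₂_pull_proj₁ (hO : v.Integers O) (f : WithConv (H →ₗ[R₀] O)) (x y : Dual R₀ H K) :
    ev₂ (K := K) hcard hO (pullO proj₁ f) (x, y) = ev₁ hcard hO f x := by
  refine evO_pull hO (ptB₂_isGroupBasis hcard) (ptB_isGroupBasis hcard)
    proj₁ (fun g => (g, 1)) ?_ chr₂ chr₁ (x, y) x ?_ f
  · intro g
    apply WithConv.ofConv_injective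
    ext a b
    simp [AlgHom.convOne_def]
  · intro g
    simp [chr₂, chr₁]

/-- (I3b) the pull-back along the second projection. -/
theorem ev₂_pull_proj₂ (hO : v.Integers O) (f : WithConv (H →ₗ[R₀] O)) (x y : Dual R₀ H K) :
    ev₂ (K := K) hcard hO (pullO proj₂ f) (x, y) = ev₁ hcard hO f y := by
  refine evO_pull hO (ptB₂_isGroupBasis hcard) (ptB_isGroupBasis hcard)
    proj₂ (fun g => (1, g)) ?_ chr₂ chr₁ (x, y) y ?_ f
  · intro g
    apply WithConv.ofConv_injective
    ext a b
    simp [AlgHom.convOne_def]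
  · intro g
    simp [chr₂, chr₁]

/-- (I4) the pull-back along the graph of `[j]`. -/
theorem ev₁_pull_theta (hO : v.Integers O) (F : WithConv (H ⊗[R₀] H →ₗ[R₀] O)) (j : ℕ)
    (x : Dual R₀ H K) :
    ev₁ (K := K) hcard hO (pullO (theta j) F) x = ev₂ hcard hO F (x, j • x) := by
  refine evO_pull hO (ptB_isGroupBasis hcard) (ptB₂_isGroupBasis hcard)
    (theta j) (fun g => g.1 * g.2 ^ j) ?_ chr₁ chr₂ x (x, j • x) ?_ F
  · intro g
    apply WithConv.ofConv_injective
    ext a
    have := congrArg (fun G : WithConv (H →ₐ[R₀] K) => G a) (pairHom_comp_theta g j)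
    show (ptB₂ hcard g) (theta j a) = (ptB hcard (g.1 * g.2 ^ j)) a
    rw [ptB₂_apply, ptB_apply]
    exact this
  · intro g
    simp [chr₂, chr₁]

section ModelFourier

open scoped Classical

variable [IsAlgClosed K] [CharZero K]

theorem isUnit_pair (hS : ∀ g : WithConv (H →ₐ[R₀] K), IsUnit g)
    (s : WithConv (H →ₐ[R₀] K) × WithConv (H →ₐ[R₀] K)) : IsUnit s :=
  Prod.isUnit_iff.mpr ⟨hS _, hS _⟩

/-- the dual of the group of pairs. -/
def dualPairEquiv : (Dual R₀ H K × Dual R₀ H K) ≃
    (WithConv (H →ₐ[R₀] K) × WithConv (H →ₐ[R₀] K) →* Kˣ) where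
  toFun ψ := ψ.1.toMul.coprod ψ.2.toMul
  invFun χ := (Additive.ofMul (χ.comp (MonoidHom.inl _ _)),
    Additive.ofMul (χ.comp (MonoidHom.inr _ _)))
  left_inv ψ := by
    ext g <;> simp
  right_inv χ := by
    ext ⟨g, g'⟩
    simp

theorem chr₂_eq (ψ : Dual R₀ H K × Dual R₀ H K) : chr₂ ψ = toK (dualPairEquiv ψ) := by
  ext ⟨g, g'⟩
  simp [chr₂, dualPairEquiv]

theorem ev₁_injective (hO : v.Integers O) (hS : ∀ g : WithConv (H →ₐ[R₀] K), IsUnit g) :
    Function.Injective (ev₁ (O := O) hcard hO) := by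
  haveI := hasEnoughRootsOfUnity_of_isUnit hS K
  haveI : Finite (WithConv (H →ₐ[R₀] K) →* Kˣ) := finite_dual hS
  letI : Fintype (WithConv (H →ₐ[R₀] K) →* Kˣ) := Fintype.ofFinite _
  exact evO_injective hO _ hS chr₁ (fun ψ => ⟨Additive.ofMul ψ, rfl⟩)

theorem ev₂_injective (hO : v.Integers O) (hS : ∀ g : WithConv (H →ₐ[R₀] K), IsUnit g) :
    Function.Injective (ev₂ (O := O) hcard hO) := by
  haveI := hasEnoughRootsOfUnity_of_isUnit (isUnit_pair hS) K
  haveI : Finite (WithConv (H →ₐ[R₀] K) × WithConv (H →ₐ[R₀] K) →* Kˣ) :=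
    finite_dual (isUnit_pair hS)
  letI : Fintype (WithConv (H →ₐ[R₀] K) × WithConv (H →ₐ[R₀] K) →* Kˣ) := Fintype.ofFinite _
  exact evO_injective hO _ (isUnit_pair hS) chr₂
    (fun ψ => ⟨dualPairEquiv.symm ψ, by rw [chr₂_eq, Equiv.apply_symm_apply]⟩)

theorem ev₂_absorbs (hO : v.Integers O) (hS : ∀ g : WithConv (H →ₐ[R₀] K), IsUnit g) :
    Absorbs (ev₂ (O := O) hcard hO)
      ((Fintype.card (WithConv (H →ₐ[R₀] K) × WithConv (H →ₐ[R₀] K)) : ℕ) : O) := by
  haveI := hasEnoughRootsOfUnity_of_isUnit (isUnit_pair hS) K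
  haveI : Finite (WithConv (H →ₐ[R₀] K) × WithConv (H →ₐ[R₀] K) →* Kˣ) :=
    finite_dual (isUnit_pair hS)
  letI : Fintype (WithConv (H →ₐ[R₀] K) × WithConv (H →ₐ[R₀] K) →* Kˣ) := Fintype.ofFinite _
  refine evO_absorbs hO _ (isUnit_pair hS) ?_ chr₂ dualPairEquiv chr₂_eq
  intro s x
  have : (ptB₂ hcard s) x = (pairHom s) x := by simp [ptB₂]
  rw [this]
  exact point_le_one hO (pairHom s) x

end ModelFourier

end Model

end Fermat.Agent.GP.Flat.FnModel
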