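import Mathlib
import Fermat.Agent.GP.Flat.Lift

/-
GATE-P / S56 [P-FLAT] FLAT-PM sub-leaf S56-FLAT-FOURIERROOT (helper96, named by helper15 board 4092).
Two abstract pieces consumed by the LiftFrozen assembly (function model + absorbing trick):

(R) `exists_root_one_add` : pointwise `p`-th root of `1 + p w b` of the form `1 + w a`, `|a| ≤ 1`,
    in an algebraically closed valued field, for `|w|^(p-1) < |p|`, `|b| ≤ 1`.
(F) Fourier analysis on a finite abelian group `Γ` with dual `D = (Γ →* Kˣ)`: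
    (F1) `sum_mul_inv` orthogonality, (F2) `exists_apply_ne_one` separation,
    (F3) `exists_fourier_coeff` inversion with integrality (`#Γ · Fun(D, O) ⊆` Fourier image of
    `O[Γ]`), plus `card_dual`, `sum_dual_apply`, `card_mul_coeff`, `fourier_injective`.
Imports Mathlib + GP/Flat/Lift (for `one_add_pow_prime`, `aeval_int_le_one`, `natCast_le_one`).
-/

set_option autoImplicit false

namespace Fermat.Agent.GP.Flat.FourierRoot

open Polynomial

section Root

variable {K : Type*} [Field K] [IsAlgClosed K] {Γ₀ : Type*} [LinearOrderedCommGroupWithZero Γ₀]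

/-- **(R) pointwise `p`-th root.**  In an algebraically closed valued field, if `|w|^(p-1) < |p|`
and `|b| ≤ 1` then `1 + p w b` has a `p`-th root of the form `1 + w a` with `|a| ≤ 1`. -/
theorem exists_root_one_add (v : Valuation K Γ₀) {p : ℕ} (hp : p.Prime) (hp0 : (p : K) ≠ 0)
    {w b : K} (hw0 : w ≠ 0) (hw : v w ^ (p - 1) < v (p : K)) (hb : v b ≤ 1) :
    ∃ a : K, v a ≤ 1 ∧ (1 + w * a) ^ p = 1 + (p : K) * w * b := by
  have : NeZero (p : K) := ⟨hp0⟩
  have hp1 : p - 1 ≠ 0 := by have := hp.two_le; omega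
  have hvp0 : v (p : K) ≠ 0 := by rwa [Ne, map_eq_zero]
  have hvp1 : v (p : K) ≤ 1 := Lift.natCast_le_one v p
  have hvw0 : v w ≠ 0 := by rwa [Ne, map_eq_zero]
  obtain ⟨r, hr⟩ := IsAlgClosed.exists_pow_nat_eq (1 + (p : K) * w * b) hp.pos
  obtain ⟨ζ, hζ⟩ := HasEnoughRootsOfUnity.exists_primitiveRoot K p
  have hprod := hζ.pow_sub_pow_eq_prod_sub_mul (1 : K) r hp.pos
  rw [one_pow, hr] at hprod
  -- some factor is small
  have hex : ∃ μ ∈ nthRootsFinset p (1 : K), v (1 - μ * r) ^ (p - 1) < v (p : K) := by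
    by_contra hcon
    push Not at hcon
    have h1 : v (p : K) ^ p ≤ (v (∏ μ ∈ nthRootsFinset p (1 : K), (1 - μ * r))) ^ (p - 1) := by
      rw [map_prod, ← Finset.prod_pow]
      calc v (p : K) ^ p = ∏ _μ ∈ nthRootsFinset p (1 : K), v (p : K) := by
            rw [Finset.prod_const, hζ.card_nthRootsFinset]
        _ ≤ _ := Finset.prod_le_prod' fun μ hμ => hcon μ hμ
    rw [← hprod] at h1
    have h2 : v (1 - (1 + (p : K) * w * b)) = v (p : K) * v w * v b := by
      rw [show (1 : K) - (1 + (p : K) * w * b) = -((p : K) * w * b) by ring, Valuation.map_neg,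
        map_mul, map_mul]
    rw [h2] at h1
    have h3 : (v (p : K) * v w * v b) ^ (p - 1) < v (p : K) ^ p := by
      calc (v (p : K) * v w * v b) ^ (p - 1) ≤ (v (p : K) * v w * 1) ^ (p - 1) := by
            gcongr
        _ = v (p : K) ^ (p - 1) * v w ^ (p - 1) := by rw [mul_one, mul_pow]
        _ < v (p : K) ^ (p - 1) * v (p : K) := by
            exact (mul_lt_mul_iff_right₀ (zero_lt_iff.mpr (pow_ne_zero _ hvp0))).mpr hw
        _ = v (p : K) ^ p := by
            rw [← pow_succ]; congr 1; omega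
    exact absurd h1 (not_le.mpr h3)
  obtain ⟨μ, hμ, hsmall⟩ := hex
  have hμp : μ ^ p = 1 := (mem_nthRootsFinset hp.pos (1 : K)).mp hμ
  set z : K := μ * r - 1 with hz
  have hzsmall : v z ^ (p - 1) < v (p : K) := by
    have : z = -(1 - μ * r) := by rw [hz]; ring
    rw [this, Valuation.map_neg]; exact hsmall
  have hzp : (1 + z) ^ p = 1 + (p : K) * w * b := by
    rw [hz, add_sub_cancel, mul_pow, hμp, one_mul, hr]
  have hz1 : v z < 1 := by
    by_contra hge
    rw [not_lt] at hge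
    exact absurd (hzsmall.trans_le hvp1) (not_lt.mpr (one_le_pow_of_one_le' hge _))
  by_cases hz0 : z = 0
  · refine ⟨0, by simp, ?_⟩
    rw [hz0, add_zero, one_pow] at hzp
    rw [mul_zero, add_zero, one_pow]
    have : (p : K) * w * b = 0 := by linear_combination -hzp
    have hb0 : b = 0 := by
      rcases mul_eq_zero.mp this with h | h
      · rcases mul_eq_zero.mp h with h' | h'
        · exact absurd h' hp0
        · exact absurd h' hw0
      · exact h
    rw [hb0]; ring
  obtain ⟨S, hS⟩ := Lift.one_add_pow_prime hp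
  have e := hS z
  rw [hzp] at e
  -- `p w b = p z (1 + z S(z)) + z^p`
  have e2 : (p : K) * w * b = (p : K) * z * (1 + z * aeval z S) + z ^ p := by
    linear_combination e
  have hvz0 : v z ≠ 0 := by rwa [Ne, map_eq_zero]
  have hA : v ((p : K) * z * (1 + z * aeval z S)) = v (p : K) * v z := by
    rw [map_mul, map_mul, v.map_one_add_of_lt, mul_one]
    rw [map_mul]
    calc v z * v (aeval z S) ≤ v z * 1 := by
          gcongr
          exact Lift.aeval_int_le_one v S hz1.le
      _ = v z := mul_one _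
      _ < 1 := hz1
  have hB : v (z ^ p) < v (p : K) * v z := by
    rw [map_pow]
    have : v z ^ p = v z ^ (p - 1) * v z := by rw [← pow_succ]; congr 1; omega
    rw [this]
    exact (mul_lt_mul_iff_left₀ (zero_lt_iff.mpr hvz0)).mpr hzsmall
  have hval : v ((p : K) * w * b) = v (p : K) * v z := by
    rw [e2, ← hA]
    apply Valuation.map_add_eq_of_lt_left
    rw [hA]; exact hB
  have hvz : v z = v w * v b := by
    rw [map_mul, map_mul, mul_assoc] at hval
    exact (mul_left_cancel₀ hvp0 hval).symm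
  refine ⟨z / w, ?_, ?_⟩
  · rw [map_div₀, hvz, mul_comm, mul_div_assoc, div_self hvw0, mul_one]; exact hb
  · rw [mul_div_cancel₀ z hw0, hzp]

end Root

section Fourier

variable {Γ : Type*} [CommGroup Γ] {K : Type*} [Field K]

/-- A character `Γ →* Kˣ` as a monoid hom to `K`. -/
def toK (ψ : Γ →* Kˣ) : Γ →* K := (Units.coeHom K).comp ψ

theorem toK_apply (ψ : Γ →* Kˣ) (g : Γ) : toK ψ g = ((ψ g : Kˣ) : K) := rfl

variable [Fintype Γ]

/-- **(F1) orthogonality**: `∑_g ψ(g) ψ'(g)⁻¹ = #Γ` if `ψ = ψ'` and `0` otherwise. -/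
theorem sum_mul_inv (ψ ψ' : Γ →* Kˣ) [Decidable (ψ = ψ')] :
    ∑ g, ((ψ g : Kˣ) : K) * (((ψ' g)⁻¹ : Kˣ) : K) = if ψ = ψ' then (Fintype.card Γ : K) else 0 := by
  split_ifs with h
  · subst h
    simp
  · have hne : toK (ψ * ψ'⁻¹) ≠ 1 := by
      intro h1
      apply h
      ext g
      have := DFunLike.congr_fun h1 g
      simp only [toK_apply, MonoidHom.mul_apply, MonoidHom.inv_apply, MonoidHom.one_apply,
        Units.val_mul] at this
      have h2 : ψ g * (ψ' g)⁻¹ = 1 := by
        apply Units.ext; simpa using this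
      rw [mul_inv_eq_one] at h2
      rw [h2]
    have := sum_hom_units_eq_zero (toK (ψ * ψ'⁻¹)) hne
    simpa [toK_apply, MonoidHom.mul_apply, MonoidHom.inv_apply, Units.val_mul] using this

/-- **(F3) Fourier inversion with integrality** (the absorbing property
`#Γ · Fun(D, O) ⊆ Fourier image of O[Γ]`): for a subring `O` containing all character values, every
`O`-valued function `φ` on the dual `D = (Γ →* Kˣ)` satisfies `#Γ · φ ψ = ∑_g c g ψ(g)` with
`O`-valued coefficients `c g = ∑_ψ' φ ψ' ψ'(g)⁻¹`. -/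
theorem exists_fourier_coeff [Fintype (Γ →* Kˣ)] (O : Subring K)
    (hO : ∀ (ψ : Γ →* Kˣ) (g : Γ), ((ψ g : Kˣ) : K) ∈ O)
    (φ : (Γ →* Kˣ) → K) (hφ : ∀ ψ, φ ψ ∈ O) :
    ∃ c : Γ → K, (∀ g, c g ∈ O) ∧
      ∀ ψ : Γ →* Kˣ, (Fintype.card Γ : K) * φ ψ = ∑ g, c g * ((ψ g : Kˣ) : K) := by
  classical
  refine ⟨fun g => ∑ ψ' : Γ →* Kˣ, φ ψ' * (((ψ' g)⁻¹ : Kˣ) : K), fun g => ?_, fun ψ => ?_⟩
  · refine Subring.sum_mem _ fun ψ' _ => Subring.mul_mem _ (hφ ψ') ?_
    have := hO ψ' g⁻¹
    rwa [map_inv] at this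
  · calc (Fintype.card Γ : K) * φ ψ
        = ∑ ψ' : Γ →* Kˣ, φ ψ' * (if ψ = ψ' then (Fintype.card Γ : K) else 0) := by
          rw [Finset.sum_eq_single ψ]
          · simp [mul_comm]
          · intro ψ' _ hne
            rw [if_neg (Ne.symm hne), mul_zero]
          · intro h; exact absurd (Finset.mem_univ ψ) h
      _ = ∑ ψ' : Γ →* Kˣ, φ ψ' * ∑ g, ((ψ g : Kˣ) : K) * (((ψ' g)⁻¹ : Kˣ) : K) := by
          refine Finset.sum_congr rfl fun ψ' _ => ?_
          rw [sum_mul_inv]
      _ = ∑ g, (∑ ψ' : Γ →* Kˣ, φ ψ' * (((ψ' g)⁻¹ : Kˣ) : K)) * ((ψ g : Kˣ) : K) := by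
          simp_rw [Finset.mul_sum, Finset.sum_mul]
          rw [Finset.sum_comm]
          refine Finset.sum_congr rfl fun g _ => Finset.sum_congr rfl fun ψ' _ => ?_
          ring

section AlgClosed

variable [IsAlgClosed K] [CharZero K]

instance hasEnoughRootsOfUnity_exponent : HasEnoughRootsOfUnity K (Monoid.exponent Γ) := by
  have : NeZero ((Monoid.exponent Γ : ℕ) : K) :=
    ⟨Nat.cast_ne_zero.mpr Monoid.exponent_ne_zero_of_finite⟩
  infer_instance

/-- **(F2) characters separate points.** -/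
theorem exists_apply_ne_one {g : Γ} (hg : g ≠ 1) : ∃ ψ : Γ →* Kˣ, ψ g ≠ 1 :=
  CommGroup.exists_apply_ne_one_of_hasEnoughRootsOfUnity Γ K hg

/-- The dual group has the same cardinality. -/
theorem card_dual [Fintype (Γ →* Kˣ)] : Fintype.card (Γ →* Kˣ) = Fintype.card Γ := by
  obtain ⟨e⟩ := CommGroup.monoidHom_mulEquiv_of_hasEnoughRootsOfUnity Γ K
  exact Fintype.card_congr e.toEquiv

/-- Dual orthogonality: `∑_ψ ψ(g) = #Γ` if `g = 1` and `0` otherwise. -/
theorem sum_dual_apply [Fintype (Γ →* Kˣ)] (g : Γ) [Decidable (g = 1)] :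
    ∑ ψ : Γ →* Kˣ, ((ψ g : Kˣ) : K) = if g = 1 then (Fintype.card Γ : K) else 0 := by
  split_ifs with h
  · subst h
    simp [card_dual (Γ := Γ) (K := K)]
  · obtain ⟨ψ₀, hψ₀⟩ := exists_apply_ne_one (K := K) h
    let ev : (Γ →* Kˣ) →* K :=
      { toFun := fun ψ => ((ψ g : Kˣ) : K)
        map_one' := by simp
        map_mul' := fun a b => by simp }
    have hne : ev ≠ 1 := by
      intro h1
      apply hψ₀
      have := DFunLike.congr_fun h1 ψ₀
      apply Units.ext
      simpa [ev] using this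
    exact sum_hom_units_eq_zero ev hne

/-- Inversion in the other direction: the coefficients are recovered from the transform,
`#Γ · c h = ∑_ψ (∑_g c g ψ(g)) ψ(h)⁻¹`; in particular the Fourier transform is injective. -/
theorem card_mul_coeff [Fintype (Γ →* Kˣ)] (c : Γ → K) (h : Γ) :
    (Fintype.card Γ : K) * c h =
      ∑ ψ : Γ →* Kˣ, (∑ g, c g * ((ψ g : Kˣ) : K)) * (((ψ h)⁻¹ : Kˣ) : K) := by
  classical
  simp_rw [Finset.sum_mul]
  rw [Finset.sum_comm]
  have : ∀ g : Γ, ∑ ψ : Γ →* Kˣ, c g * ((ψ g : Kˣ) : K) * (((ψ h)⁻¹ : Kˣ) : K) =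
      c g * (if g = h then (Fintype.card Γ : K) else 0) := by
    intro g
    have h1 : ∀ ψ : Γ →* Kˣ, c g * ((ψ g : Kˣ) : K) * (((ψ h)⁻¹ : Kˣ) : K) =
        c g * ((ψ (g * h⁻¹) : Kˣ) : K) := by
      intro ψ
      rw [map_mul, map_inv, Units.val_mul]; ring
    simp_rw [h1]
    rw [← Finset.mul_sum, sum_dual_apply]
    congr 1
    by_cases hgh : g = h
    · subst hgh; simp
    · rw [if_neg hgh, if_neg]
      intro h2
      exact hgh (mul_inv_eq_one.mp h2)
  simp_rw [this]
  rw [Finset.sum_eq_single h]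
  · simp [mul_comm]
  · intro g _ hne
    rw [if_neg hne, mul_zero]
  · intro hh; exact absurd (Finset.mem_univ h) hh

theorem fourier_injective [Fintype (Γ →* Kˣ)] {c c' : Γ → K}
    (hcc : ∀ ψ : Γ →* Kˣ, ∑ g, c g * ((ψ g : Kˣ) : K) = ∑ g, c' g * ((ψ g : Kˣ) : K)) : c = c' := by
  funext h
  have h1 := card_mul_coeff (K := K) c h
  have h2 := card_mul_coeff (K := K) c' h
  simp_rw [hcc] at h1
  rw [← h2] at h1
  have hne : (Fintype.card Γ : K) ≠ 0 := Nat.cast_ne_zero.mpr Fintype.card_ne_zero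
  exact mul_left_cancel₀ hne h1

end AlgClosed

end Fourier

end Fermat.Agent.GP.Flat.FourierRoot
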