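/-
[P-FLAT] leaf S56-FLAT-GROUPLIKE of the S56 long shot (helper96): DOUBLE DUALITY in helper15's
`GroupBasis` frame.  `Λ` a commutative `K`-algebra with a group basis `b` indexed by a finite
commutative monoid `S` of units (`Λ = K[S]`), `K` with enough roots of unity.  If the Fourier
transform `ψ ↦ evalChar hb ψ x` of `x ∈ Λ` is multiplicative and normalised (a character of the dual
group), then `x = b s` for a unique `s`: group-like elements of a group algebra are the group
elements.  This is the last step of `exists_point_lift`: the corrected `y₀ (1 + ϖ δ)` produced by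
`Lift.exists_character_lift_ev` is a genuine point.

* `card_mul_repr` : Fourier inversion for the coefficients,
  `∑ ψ, evalChar ψ x · ψ(t)⁻¹ = #Ŝ · (b.repr x t)`.
* `exists_eq_basis_of_evalChar_mul` : the statement above.
* `existsUnique_eq_basis_of_evalChar_mul` : uniqueness of `s`.
-/
import Fermat.Agent.GP.Flat.GroupBasis

set_option autoImplicit false
set_option linter.unusedSectionVars false

namespace Fermat.Agent.GP.Flat.GroupLike

open Finset Fermat.Agent.GP.Flat.GroupBasis

open scoped Classical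

variable {K : Type*} [Field K] [CharZero K] {S : Type*} [CommMonoid S] [Fintype S]
  [HasEnoughRootsOfUnity K (Monoid.exponent S)] [Fintype (S →* Kˣ)]
  {Λ : Type*} [CommRing Λ] [Algebra K Λ] {b : Module.Basis S K Λ}

/-- **Fourier inversion** for the coefficients of `x` in the group basis. -/
theorem card_mul_repr (hS : ∀ s : S, IsUnit s) (hb : IsGroupBasis b) (x : Λ) (t : S) :
    ∑ ψ : S →* Kˣ, evalChar hb (toK ψ) x * ((ψ t)⁻¹ : Kˣ)
      = (Fintype.card (S →* Kˣ) : K) * b.repr x t := by
  simp_rw [evalChar_apply, toK_apply, Finset.sum_mul]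
  rw [Finset.sum_comm]
  simp_rw [mul_assoc, ← Finset.mul_sum, sum_dual_mul_inv hS]
  simp [mul_comm]

/-- **Double duality**: an element of `Λ` whose Fourier transform is a character of the dual group
is an element of the group basis. -/
theorem exists_eq_basis_of_evalChar_mul (hS : ∀ s : S, IsUnit s) (hb : IsGroupBasis b) {x : Λ}
    (h1 : evalChar hb (toK (1 : S →* Kˣ)) x = 1)
    (hmul : ∀ ψ ψ' : S →* Kˣ, evalChar hb (toK (ψ * ψ')) x
      = evalChar hb (toK ψ) x * evalChar hb (toK ψ') x) :
    ∃ s : S, x = b s := by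
  have hcard : (Fintype.card (S →* Kˣ) : K) ≠ 0 := by exact_mod_cast Fintype.card_ne_zero
  -- for each `t`, `ψ ↦ Ξ ψ · ψ(t)⁻¹` is a monoid hom on the dual group
  let F : S → ((S →* Kˣ) →* K) := fun t =>
    { toFun := fun ψ => evalChar hb (toK ψ) x * ((ψ t)⁻¹ : Kˣ)
      map_one' := by simp [h1]
      map_mul' := by
        intro ψ ψ'
        rw [hmul]
        simp only [MonoidHom.mul_apply, mul_inv, Units.val_mul]
        ring }
  have hF : ∀ t ψ, F t ψ = evalChar hb (toK ψ) x * ((ψ t)⁻¹ : Kˣ) := fun _ _ => rfl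
  -- the coefficients are `0` or `1`
  have hcoef : ∀ t, (F t = 1 ∧ b.repr x t = 1) ∨ (F t ≠ 1 ∧ b.repr x t = 0) := by
    intro t
    have hinv := card_mul_repr hS hb x t
    by_cases hFt : F t = 1
    · left
      refine ⟨hFt, ?_⟩
      have hsum : ∑ ψ : S →* Kˣ, evalChar hb (toK ψ) x * ((ψ t)⁻¹ : Kˣ)
          = (Fintype.card (S →* Kˣ) : K) := by
        have : ∀ ψ : S →* Kˣ, evalChar hb (toK ψ) x * ((ψ t)⁻¹ : Kˣ) = 1 := by
          intro ψ
          rw [← hF, hFt, MonoidHom.one_apply]
        rw [Finset.sum_congr rfl (fun ψ _ => this ψ)]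
        simp
      rw [hsum] at hinv
      exact (mul_right_cancel₀ hcard (by rw [one_mul, mul_comm]; exact hinv)).symm
    · right
      refine ⟨hFt, ?_⟩
      have hsum : ∑ ψ : S →* Kˣ, F t ψ = 0 := sum_hom_units_eq_zero (F t) hFt
      simp only [hF] at hsum
      rw [hsum] at hinv
      rcases mul_eq_zero.1 hinv.symm with h | h
      · exact absurd h hcard
      · exact h
  -- `x ≠ 0`, so some coefficient is nonzero
  have hx0 : x ≠ 0 := by
    rintro rfl
    rw [map_zero] at h1
    exact zero_ne_one h1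
  obtain ⟨t, ht⟩ : ∃ t, b.repr x t ≠ 0 := by
    by_contra hcon
    apply hx0
    apply b.repr.injective
    ext t
    simpa using not_not.1 (not_exists.1 hcon t)
  rcases hcoef t with ⟨hFt, -⟩ | ⟨-, h0⟩
  · refine ⟨t, ?_⟩
    rw [← sub_eq_zero]
    apply eq_zero_of_evalChar_eq_zero hS hb
    intro ψ
    rw [map_sub, evalChar_basis, toK_apply, sub_eq_zero]
    have := DFunLike.congr_fun hFt ψ
    rw [hF, MonoidHom.one_apply] at this
    -- `Ξ ψ * (ψ t)⁻¹ = 1`
    have hu : ((ψ t : Kˣ) : K) ≠ 0 := Units.ne_zero _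
    calc evalChar hb (toK ψ) x
        = evalChar hb (toK ψ) x * (((ψ t)⁻¹ : Kˣ) : K) * ((ψ t : Kˣ) : K) := by
          rw [mul_assoc, ← Units.val_mul, inv_mul_cancel, Units.val_one, mul_one]
      _ = (ψ t : K) := by rw [this, one_mul]
  · exact absurd h0 ht

/-- uniqueness in `exists_eq_basis_of_evalChar_mul`. -/
theorem existsUnique_eq_basis_of_evalChar_mul (hS : ∀ s : S, IsUnit s) (hb : IsGroupBasis b)
    {x : Λ} (h1 : evalChar hb (toK (1 : S →* Kˣ)) x = 1)
    (hmul : ∀ ψ ψ' : S →* Kˣ, evalChar hb (toK (ψ * ψ')) x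
      = evalChar hb (toK ψ) x * evalChar hb (toK ψ') x) :
    ∃! s : S, x = b s := by
  obtain ⟨s, hs⟩ := exists_eq_basis_of_evalChar_mul hS hb h1 hmul
  refine ⟨s, hs, fun t ht => ?_⟩
  exact (b.injective (hs.symm.trans ht)).symm

end Fermat.Agent.GP.Flat.GroupLike
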