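/-
[P-FLAT] leaf S56-FLAT-GROUPLIKE, Cartier corollary (helper96): in the setting of
`GP/Flat/CartierGroupBasis` (`H` a finite free cocommutative Hopf algebra over `R`, `K` an
algebraically closed field of characteristic zero, `Γ = WithConv (H →ₐ[R] K)` the points), an
element `f` of the convolution algebra `Hom_R(H, K)` whose Fourier transform
`ψ ↦ evChar R K H ψ f` is multiplicative and normalised on the dual group `Γ →* Kˣ` is a POINT:
`f = g` for a unique algebra hom `g : H →ₐ[R] K`.

(Own namespace `GroupLikeCartier`: helper65's `Cartier.exists_algHom_of_evChar_mul` in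
`CartierApprox.lean` is the same result by another route, and `Cartier.finite_convPoints` lives in
`CartierTensorIds.lean`; the names here are distinct so that all files can be imported together.)
-/
import Fermat.Agent.GP.Flat.CartierGroupBasis
import Fermat.Agent.GP.Flat.GroupLike

set_option autoImplicit false
set_option linter.unusedSectionVars false
set_option linter.style.haveILetI false

namespace Fermat.Agent.GP.Flat.GroupLikeCartier

open Coalgebra Bialgebra HopfAlgebra TensorProduct WithConv Fermat.Agent.GP.Flat.Cartier

section GroupLike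

variable (R K H : Type*) [CommRing R] [Field K] [IsAlgClosed K] [CharZero K] [Algebra R K]
  [CommRing H] [HopfAlgebra R H] [Module.Finite R H] [Module.Free R H] [Coalgebra.IsCocomm R H]

/-- the points form a finite set. -/
theorem finite_points_conv : Finite (WithConv (H →ₐ[R] K)) := by
  have : Finite (H →ₐ[R] K) := finite_points_base R K H
  exact Finite.of_equiv _ (WithConv.equiv _).symm

/-- the exponent of the monoid of points is nonzero. -/
theorem exponent_points_ne_zero : Monoid.exponent (WithConv (H →ₐ[R] K)) ≠ 0 := by
  have := finite_points_conv R K H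
  letI : CommGroup (WithConv (H →ₐ[R] K)) := commGroupOfIsUnit (isUnit_point R K H)
  exact Monoid.exponent_ne_zero_of_finite

/-- `K` has enough roots of unity for the monoid of points. -/
theorem hasEnoughRootsOfUnity_points :
    HasEnoughRootsOfUnity K (Monoid.exponent (WithConv (H →ₐ[R] K))) := by
  have : NeZero ((Monoid.exponent (WithConv (H →ₐ[R] K)) : ℕ) : K) :=
    ⟨Nat.cast_ne_zero.mpr (exponent_points_ne_zero R K H)⟩
  infer_instance

/-- **Group-like elements are points.**  If the Fourier transform of `f ∈ Hom_R(H, K)` is a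
character of the dual group of the group of points, then `f` is a point. -/
theorem exists_point_of_groupLike (f : WithConv (H →ₗ[R] K))
    (h1 : evChar R K H (GroupBasis.toK (1 : WithConv (H →ₐ[R] K) →* Kˣ)) f = 1)
    (hmul : ∀ ψ ψ' : WithConv (H →ₐ[R] K) →* Kˣ,
      evChar R K H (GroupBasis.toK (ψ * ψ')) f
        = evChar R K H (GroupBasis.toK ψ) f * evChar R K H (GroupBasis.toK ψ') f) :
    ∃ g : WithConv (H →ₐ[R] K), f = toConv g.ofConv.toLinearMap := by
  classical
  have := finite_points_conv R K H
  letI : Fintype (WithConv (H →ₐ[R] K)) := Fintype.ofFinite _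
  haveI := hasEnoughRootsOfUnity_points R K H
  haveI : Finite (WithConv (H →ₐ[R] K) →* Kˣ) := GroupBasis.finite_dual (isUnit_point R K H)
  letI : Fintype (WithConv (H →ₐ[R] K) →* Kˣ) := Fintype.ofFinite _
  obtain ⟨g, hg⟩ := GroupLike.exists_eq_basis_of_evalChar_mul (isUnit_point R K H)
    (isGroupBasis_convPointsBasis R K H) (x := f)
    (by rw [evalChar_eq_evChar]; exact h1)
    (by
      intro ψ ψ'
      rw [evalChar_eq_evChar, evalChar_eq_evChar, evalChar_eq_evChar]
      exact hmul ψ ψ')
  exact ⟨g, by rw [hg, convPointsBasis_apply]⟩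

/-- the same with the point as an algebra hom and the identity evaluated on `H`. -/
theorem exists_algHom_of_groupLike (f : WithConv (H →ₗ[R] K))
    (h1 : evChar R K H (GroupBasis.toK (1 : WithConv (H →ₐ[R] K) →* Kˣ)) f = 1)
    (hmul : ∀ ψ ψ' : WithConv (H →ₐ[R] K) →* Kˣ,
      evChar R K H (GroupBasis.toK (ψ * ψ')) f
        = evChar R K H (GroupBasis.toK ψ) f * evChar R K H (GroupBasis.toK ψ') f) :
    ∃ g : H →ₐ[R] K, ∀ h : H, f.ofConv h = g h := by
  obtain ⟨g, hg⟩ := exists_point_of_groupLike R K H f h1 hmul
  exact ⟨g.ofConv, fun h => by rw [hg]; rfl⟩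

end GroupLike

end Fermat.Agent.GP.Flat.GroupLikeCartier
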