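/-
[P-FLAT] leaf S56-FLAT-GROUPLIKE, frozen shape (helper96): `R0 = GaloisRep.ratLocalizedAt p`,
`Qb = AlgebraicClosure ℚ`, `H` a finite flat cocommutative Hopf algebra over `R0` (the datum of the
frozen `IsFlatAt`).  An element `f` of the convolution algebra `Hom_R0(H, Qb)` whose Fourier
transform `ψ ↦ CartierFrozen.evChar p H ψ f` is a character of the dual group is a POINT.
-/
import Fermat.Agent.GP.Flat.CartierGroupAlgFrozen
import Fermat.Agent.GP.Flat.GroupLikeCartier

set_option autoImplicit false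
set_option linter.unusedSectionVars false

namespace Fermat.Agent.GP.Flat.GroupLikeFrozen

open GaloisRep Fermat.Agent.GP.Flat WithConv Fermat.Agent.GP.Flat.CartierFrozen

variable (p : ℕ) [Fact p.Prime] (H : Type) [CommRing H] [HopfAlgebra (ratLocalizedAt p) H]
  [Module.Finite (ratLocalizedAt p) H] [Module.Flat (ratLocalizedAt p) H]
  [Coalgebra.IsCocomm (ratLocalizedAt p) H]

/-- **Group-like elements are points, frozen shape.** -/
theorem exists_point_of_groupLike
    (f : WithConv (H →ₗ[ratLocalizedAt p] AlgebraicClosure ℚ))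
    (h1 : evChar p H (GroupBasis.toK
      (1 : WithConv (H →ₐ[ratLocalizedAt p] AlgebraicClosure ℚ) →* (AlgebraicClosure ℚ)ˣ)) f = 1)
    (hmul : ∀ ψ ψ' : WithConv (H →ₐ[ratLocalizedAt p] AlgebraicClosure ℚ) →* (AlgebraicClosure ℚ)ˣ,
      evChar p H (GroupBasis.toK (ψ * ψ')) f
        = evChar p H (GroupBasis.toK ψ) f * evChar p H (GroupBasis.toK ψ') f) :
    ∃ g : WithConv (H →ₐ[ratLocalizedAt p] AlgebraicClosure ℚ),
      f = toConv g.ofConv.toLinearMap := by
  have := free p H
  exact GroupLikeCartier.exists_point_of_groupLike (ratLocalizedAt p) (AlgebraicClosure ℚ) H f h1 hmul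

/-- the same with the point as an algebra hom, evaluated on `H`. -/
theorem exists_algHom_of_groupLike
    (f : WithConv (H →ₗ[ratLocalizedAt p] AlgebraicClosure ℚ))
    (h1 : evChar p H (GroupBasis.toK
      (1 : WithConv (H →ₐ[ratLocalizedAt p] AlgebraicClosure ℚ) →* (AlgebraicClosure ℚ)ˣ)) f = 1)
    (hmul : ∀ ψ ψ' : WithConv (H →ₐ[ratLocalizedAt p] AlgebraicClosure ℚ) →* (AlgebraicClosure ℚ)ˣ,
      evChar p H (GroupBasis.toK (ψ * ψ')) f
        = evChar p H (GroupBasis.toK ψ) f * evChar p H (GroupBasis.toK ψ') f) :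
    ∃ g : H →ₐ[ratLocalizedAt p] AlgebraicClosure ℚ, ∀ h : H, f.ofConv h = g h := by
  have := free p H
  exact GroupLikeCartier.exists_algHom_of_groupLike (ratLocalizedAt p) (AlgebraicClosure ℚ) H f h1 hmul

end Fermat.Agent.GP.Flat.GroupLikeFrozen
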