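/-
GATE-P / S56 [P-FLAT](iv), consumer side (helper28).  **Herbrand's quotient formula**
(Serre, *Local Fields*, IV §1 Prop. 3) as an abstract valuation lemma, Mathlib only.

Setting: `O` an integral domain (the integers of `L`), `v : O → Γ` an additive "valuation"
(only `v (a b) = v a + v b`, `v 1 = 0`, `0 ≤ v`, `v (-a) = v a` are used), `G` a finite group acting
on `O` by ring automorphisms preserving `v` and fixing a subring `O₀` pointwise, `H ≤ G` a subgroup,
`x` a generator of `O` over `O₀` (only used through "`g • x = x → g = 1`" and `O = O₀[x]`), `y` an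
`H`-invariant element such that every `H`-invariant element is a polynomial in `y` over `O₀`.  Then

  `v (σ • y - y) = ∑ h : H, v ((σ * h) • x - x)`     (`herbrand_quot`).

The inequality `≤` (`v_sub_le_sum`) is the only half used by the Kummer-depth lemma; it does not
need `O = O₀[x]` nor faithfulness.
-/
import Mathlib

set_option autoImplicit false

namespace Fermat.Agent.GP.Flat.HerbrandQuot

open Polynomial

variable {O : Type*} [CommRing O]
variable {Γ : Type*} [AddCommMonoid Γ] [PartialOrder Γ] [IsOrderedAddMonoid Γ]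
variable {G : Type*} [Group G] [MulSemiringAction G O]

/-- the ring endomorphism of `O` given by `g` -/
local notation "φ" => MulSemiringAction.toRingHom G O

/-- the hypotheses on the "valuation" -/
structure IsVal (v : O → Γ) : Prop where
  map_one : v 1 = 0
  map_mul : ∀ a b, v (a * b) = v a + v b
  nonneg : ∀ a, 0 ≤ v a
  map_neg : ∀ a, v (-a) = v a

namespace IsVal

variable {v : O → Γ} (hv : IsVal v)
include hv

omit [IsOrderedAddMonoid Γ] in
lemma map_prod {ι : Type*} (s : Finset ι) (f : ι → O) : v (∏ i ∈ s, f i) = ∑ i ∈ s, v (f i) := by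
  classical
  induction s using Finset.induction_on with
  | empty => simpa using hv.map_one
  | insert a s ha ih => rw [Finset.prod_insert ha, Finset.sum_insert ha, hv.map_mul, ih]

omit [IsOrderedAddMonoid Γ] in
lemma map_sub_comm (a b : O) : v (a - b) = v (b - a) := by
  rw [← neg_sub, hv.map_neg]

lemma le_of_dvd {a b : O} (h : a ∣ b) : v a ≤ v b := by
  obtain ⟨c, rfl⟩ := h
  rw [hv.map_mul]
  exact le_add_of_nonneg_right (hv.nonneg c)

end IsVal

section

variable (O₀ : Subring O)

/-- `aeval` over the subring `O₀` as an evaluation in `O[X]`. -/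
lemma aeval_eq (a : O) (p : O₀[X]) : aeval a p = (p.map O₀.subtype).eval a := by
  rw [eval_map]
  rfl

/-- `p(a) - p(b)` is divisible by `a - b` for `p ∈ O₀[X]`. -/
lemma sub_dvd_aeval_sub (a b : O) (p : O₀[X]) : a - b ∣ aeval a p - aeval b p := by
  rw [aeval_eq, aeval_eq]
  exact sub_dvd_eval_sub a b (p.map O₀.subtype)

variable (hfix : ∀ (g : G) (a : O), a ∈ O₀ → g • a = a)
include hfix

lemma comp_subtype (g : G) : (φ g).comp O₀.subtype = O₀.subtype := by
  ext a
  exact hfix g a a.2

/-- `g • (p(y)) = p(g • y)` for `p ∈ O₀[X]`. -/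
lemma smul_aeval (g : G) (y : O) (p : O₀[X]) : g • (aeval y p) = aeval (g • y) p := by
  have h1 : (φ g) ((p.map O₀.subtype).eval y) = ((p.map O₀.subtype).map (φ g)).eval ((φ g) y) :=
    (eval_map_apply _ _).symm
  rw [Polynomial.map_map, comp_subtype O₀ hfix] at h1
  rw [aeval_eq, aeval_eq]
  exact h1

end

variable [Fintype G] (H : Subgroup G) [DecidablePred (· ∈ H)]

/-- the polynomial `∏_{h ∈ H} (X - h • x)` -/
noncomputable def orbitPoly (x : O) : O[X] := ∏ h : H, (X - C ((h : G) • x))

lemma orbitPoly_monic (x : O) : (orbitPoly H x).Monic :=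
  monic_prod_of_monic _ _ fun _ _ => monic_X_sub_C _

lemma orbitPoly_natDegree [Nontrivial O] (x : O) :
    (orbitPoly H x).natDegree = Fintype.card H := by
  unfold orbitPoly
  rw [natDegree_prod_of_monic _ _ fun _ _ => monic_X_sub_C _]
  simp

lemma orbitPoly_map (x : O) (g : G) :
    (orbitPoly H x).map (φ g) = ∏ h : H, (X - C ((g * (h : G)) • x)) := by
  unfold orbitPoly
  rw [Polynomial.map_prod]
  refine Finset.prod_congr rfl fun h _ => ?_
  simp [mul_smul]

lemma orbitPoly_map_of_mem (x : O) {k : G} (hk : k ∈ H) :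
    (orbitPoly H x).map (φ k) = orbitPoly H x := by
  rw [orbitPoly_map]
  unfold orbitPoly
  exact Fintype.prod_equiv (Equiv.mulLeft (⟨k, hk⟩ : H)) _ _ fun h => rfl

lemma orbitPoly_eval_self (x : O) : (orbitPoly H x).eval x = 0 := by
  unfold orbitPoly
  rw [eval_prod]
  exact Finset.prod_eq_zero (Finset.mem_univ (1 : H)) (by simp)

lemma orbitPoly_map_eval (x : O) (g : G) :
    ((orbitPoly H x).map (φ g)).eval x = ∏ h : H, (x - (g * (h : G)) • x) := by
  rw [orbitPoly_map, eval_prod]
  simp

/-- coefficients of the orbit polynomial are `H`-invariant -/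
lemma orbitPoly_coeff_smul (x : O) {k : G} (hk : k ∈ H) (n : ℕ) :
    k • (orbitPoly H x).coeff n = (orbitPoly H x).coeff n := by
  have := congrArg (fun p => p.coeff n) (orbitPoly_map_of_mem H x hk)
  simpa [coeff_map] using this

variable {v : O → Γ} (hv : IsVal v) (hvG : ∀ (g : G) (a : O), v (g • a) = v a)
variable (O₀ : Subring O) (hfix : ∀ (g : G) (a : O), a ∈ O₀ → g • a = a)

include hv hfix in
/-- **Herbrand's quotient formula, the easy half**: if every `H`-invariant element of `O` is a
polynomial in `y` with coefficients in the pointwise-fixed subring `O₀`, then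
`v (σ y - y) ≤ ∑_{h ∈ H} v (σ h x - x)` for every `x`. -/
theorem v_sub_le_sum [Nontrivial O] (x y : O)
    (hy : ∀ a : O, (∀ h ∈ H, h • a = a) → ∃ p : O₀[X], aeval y p = a) (σ : G) :
    v (σ • y - y) ≤ ∑ h : H, v ((σ * (h : G)) • x - x) := by
  classical
  set f := orbitPoly H x with hf
  -- `σ y - y` divides every `σ c - c`, `c` a coefficient of `f`
  have hcoeff : ∀ n, σ • y - y ∣ σ • f.coeff n - f.coeff n := by
    intro n
    obtain ⟨p, hp⟩ := hy (f.coeff n) fun h hh => orbitPoly_coeff_smul H x hh n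
    rw [← hp, smul_aeval O₀ hfix]
    exact sub_dvd_aeval_sub O₀ _ _ p
  -- hence it divides `(σ f)(x) - f(x)`
  have hdeg : (f.map (φ σ)).natDegree = f.natDegree :=
    (orbitPoly_monic H x).natDegree_map _
  have hdvd : σ • y - y ∣ (f.map (φ σ)).eval x - f.eval x := by
    rw [eval_eq_sum_range' (n := f.natDegree + 1) (by rw [hdeg]; exact Nat.lt_succ_self _),
      eval_eq_sum_range' (n := f.natDegree + 1) (Nat.lt_succ_self _), ← Finset.sum_sub_distrib]
    refine Finset.dvd_sum fun n _ => ?_
    rw [← sub_mul, coeff_map]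
    exact Dvd.dvd.mul_right (hcoeff n) _
  rw [orbitPoly_eval_self, sub_zero, orbitPoly_map_eval] at hdvd
  calc v (σ • y - y) ≤ v (∏ h : H, (x - (σ * (h : G)) • x)) := hv.le_of_dvd hdvd
    _ = ∑ h : H, v (x - (σ * (h : G)) • x) := hv.map_prod _ _
    _ = ∑ h : H, v ((σ * (h : G)) • x - x) :=
        Finset.sum_congr rfl fun h _ => hv.map_sub_comm _ _

include hv hfix in
/-- **Herbrand's quotient formula, the other half**: if `y` is `H`-invariant and is a polynomial
in `x` over `O₀`, and `H` moves `x` faithfully, then `∑_{h ∈ H} v (σ h x - x) ≤ v (σ y - y)`. -/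
theorem sum_le_v_sub [IsDomain O] (x y : O) (hyH : ∀ h ∈ H, h • y = y)
    (hxy : ∃ p : O₀[X], aeval x p = y)
    (hfaith : ∀ h ∈ H, h • x = x → h = 1) (σ : G) :
    ∑ h : H, v ((σ * (h : G)) • x - x) ≤ v (σ • y - y) := by
  classical
  obtain ⟨p, hp⟩ := hxy
  set f := orbitPoly H x with hf
  have hfm : f.Monic := orbitPoly_monic H x
  set P : O[X] := p.map O₀.subtype - C y with hP
  have hPx : P.eval x = 0 := by
    rw [hP, eval_sub, eval_C, ← hp, aeval_eq, sub_self]
  -- `P` is fixed by `H` (coefficientwise), and `σ P = p - σ y`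
  have hPmap : ∀ g : G, P.map (φ g) = p.map O₀.subtype - C (g • y) := by
    intro g
    rw [hP, Polynomial.map_sub, Polynomial.map_map, Polynomial.map_C]
    rw [comp_subtype O₀ hfix]
    rfl
  have hPH : ∀ k ∈ H, P.map (φ k) = P := by
    intro k hk
    rw [hPmap, hyH k hk]
  -- the remainder of `P` by `f` is `H`-invariant and vanishes on the orbit of `x`, so it is `0`
  set r := P %ₘ f with hr
  have hrH : ∀ k ∈ H, r.map (φ k) = r := by
    intro k hk
    rw [hr, map_modByMonic _ hfm, hPH k hk, orbitPoly_map_of_mem H x hk]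
  have hdecomp : r + f * (P /ₘ f) = P := modByMonic_add_div P f
  have hrx : r.eval x = 0 := by
    have := congrArg (eval x) hdecomp
    rw [eval_add, eval_mul, orbitPoly_eval_self, zero_mul, add_zero, hPx] at this
    exact this
  have hroots : ∀ k : H, r.eval ((k : G) • x) = 0 := by
    intro k
    have h1 : (r.map (φ (k : G))).eval ((φ (k : G)) x) = (φ (k : G)) (r.eval x) :=
      eval_map_apply _ _
    rw [hrH k k.2, hrx, map_zero] at h1
    exact h1
  have hinj : Function.Injective fun k : H => (k : G) • x := by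
    intro k₁ k₂ h
    have h' : ((k₁ : G)⁻¹ * (k₂ : G)) • x = x := by
      have : (k₁ : G) • x = (k₂ : G) • x := h
      rw [mul_smul, ← this, smul_smul, inv_mul_cancel, one_smul]
    have := hfaith _ (H.mul_mem (H.inv_mem k₁.2) k₂.2) h'
    exact Subtype.ext (by rw [← mul_one (k₁ : G), ← this, mul_inv_cancel_left])
  have hr0 : r = 0 := by
    by_cases hf1 : f = 1
    · rw [hr, hf1, modByMonic_one]
    · refine eq_zero_of_natDegree_lt_card_of_eval_eq_zero r hinj hroots ?_
      rw [← orbitPoly_natDegree H x]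
      exact natDegree_modByMonic_lt P hfm hf1
  have hdiv : P = f * (P /ₘ f) := by
    have h := hdecomp
    rw [hr0, zero_add] at h
    exact h.symm
  -- apply `σ` and evaluate at `x`
  have hσ : (P.map (φ σ)).eval x = (f.map (φ σ)).eval x * ((P /ₘ f).map (φ σ)).eval x := by
    conv_lhs => rw [hdiv]
    rw [Polynomial.map_mul, eval_mul]
  have hPσx : (P.map (φ σ)).eval x = y - σ • y := by
    rw [hPmap, eval_sub, eval_C, ← hp, aeval_eq]
  rw [hPσx, orbitPoly_map_eval] at hσ
  have hdvd : ∏ h : H, (x - (σ * (h : G)) • x) ∣ y - σ • y := ⟨_, hσ⟩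
  calc ∑ h : H, v ((σ * (h : G)) • x - x) = ∑ h : H, v (x - (σ * (h : G)) • x) :=
        Finset.sum_congr rfl fun h _ => hv.map_sub_comm _ _
    _ = v (∏ h : H, (x - (σ * (h : G)) • x)) := (hv.map_prod _ _).symm
    _ ≤ v (y - σ • y) := hv.le_of_dvd hdvd
    _ = v (σ • y - y) := hv.map_sub_comm _ _

include hv hfix in
/-- **Herbrand's quotient formula** (Serre, *Local Fields* IV §1 Prop. 3, with `v = v_L` on both
sides): `v (σ y - y) = ∑_{h ∈ H} v (σ h x - x)`. -/
theorem herbrand_quot [IsDomain O] (x y : O) (hyH : ∀ h ∈ H, h • y = y)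
    (hy : ∀ a : O, (∀ h ∈ H, h • a = a) → ∃ p : O₀[X], aeval y p = a)
    (hxy : ∃ p : O₀[X], aeval x p = y)
    (hfaith : ∀ h ∈ H, h • x = x → h = 1) (σ : G) :
    v (σ • y - y) = ∑ h : H, v ((σ * (h : G)) • x - x) :=
  le_antisymm (v_sub_le_sum H hv O₀ hfix x y hy σ)
    (sum_le_v_sub H hv O₀ hfix x y hyH hxy hfaith σ)

end Fermat.Agent.GP.Flat.HerbrandQuot
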