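/-
GATE-P (S56 long shot) / [P-FLAT] TRANSLATION INVARIANCE (helper33): the `H`-adic distance
`d(x, x') = sup_h |x' h - x h|` between two points of a bialgebra `H` is invariant under
translation by an integral point `w` (immediate from helper15's `convMul_bdd`), and the
GALOIS COROLLARY: if `τ` is an isometric `R₀`-endomorphism of `K`, `w` a point with integral
inverse `u` and `τ ∘ w = w * g`, then `|g h - ε h| ≤ sup_{h'} |τ (w h') - w h'|`: the point
`g = τ w - w` is at least as close to the origin (in the metric of the group scheme) as `τ` is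
close to the identity on the coordinates of `w`.  Applied to a closed subgroup scheme whose points
are known to be far from the origin this bounds the ramification of the point field of `w` from
above (torsor bound), with no formal groups, no property `(P_m)`, no Herbrand functions.
Mathlib + `GP/Flat/LemmaF` only.
-/
import Fermat.Agent.GP.Flat.LemmaF

set_option autoImplicit false

namespace Fermat.Agent.GP.Flat.TransInv

open Coalgebra TensorProduct WithConv
open Fermat.Agent.GP.Flat.LemmaF

section Linear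

variable {R₀ : Type*} [CommRing R₀] {H : Type*} [AddCommGroup H] [Module R₀ H] [Coalgebra R₀ H]
variable {K : Type*} [Field K] [Algebra R₀ K]
variable {Γ₀ : Type*} [LinearOrderedCommGroupWithZero Γ₀] (v : Valuation K Γ₀)

/-- **Translation invariance**, linear form: `|w| ≤ 1` and `|x' - x| ≤ δ` give
`|w * x' - w * x| ≤ δ` (convolution product). -/
theorem convMul_sub_bdd {w x x' : WithConv (H →ₗ[R₀] K)} {δ : Γ₀}
    (hw : ∀ h, v (w h) ≤ 1) (hx : ∀ h, v (x' h - x h) ≤ δ) (h : H) :
    v ((w * x') h - (w * x) h) ≤ δ := by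
  have e : (w * x') h - (w * x) h = (w * (x' - x)) h := by
    rw [mul_sub]; rfl
  rw [e]
  have hx' : ∀ h', v ((x' - x) h') ≤ δ := fun h' => hx h'
  have := convMul_bdd v hw hx' h
  rwa [one_mul] at this

/-- the same on the other side -/
theorem convMul_sub_bdd' {w x x' : WithConv (H →ₗ[R₀] K)} {δ : Γ₀}
    (hw : ∀ h, v (w h) ≤ 1) (hx : ∀ h, v (x' h - x h) ≤ δ) (h : H) :
    v ((x' * w) h - (x * w) h) ≤ δ := by
  have e : (x' * w) h - (x * w) h = ((x' - x) * w) h := by
    rw [sub_mul]; rfl
  rw [e]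
  have hx' : ∀ h', v ((x' - x) h') ≤ δ := fun h' => hx h'
  have := convMul_bdd v hx' hw h
  rwa [mul_one] at this

end Linear

section Points

variable {R₀ : Type*} [CommRing R₀] {H : Type*} [Ring H] [Bialgebra R₀ H]
variable {K : Type*} [Field K] [Algebra R₀ K]
variable {Γ₀ : Type*} [LinearOrderedCommGroupWithZero Γ₀] (v : Valuation K Γ₀)

/-- the linear map underlying a point -/
noncomputable def lin (x : WithConv (H →ₐ[R₀] K)) : WithConv (H →ₗ[R₀] K) :=
  toConv x.ofConv.toLinearMap

omit [Field K] in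
theorem lin_apply {K : Type*} [CommRing K] [Algebra R₀ K] (x : WithConv (H →ₐ[R₀] K)) (h : H) :
    (toConv x.ofConv.toLinearMap : WithConv (H →ₗ[R₀] K)) h = x h := rfl

theorem lin_mul (x y : WithConv (H →ₐ[R₀] K)) : lin (x * y) = lin x * lin y :=
  AlgHom.toLinearMap_convMul x y

theorem lin_one : lin (1 : WithConv (H →ₐ[R₀] K)) = 1 := AlgHom.toLinearMap_convOne

/-- **Translation invariance** for points: `d(w * x, w * x') ≤ d(x, x')` for integral `w`. -/
theorem point_mul_sub_bdd {w x x' : WithConv (H →ₐ[R₀] K)} {δ : Γ₀}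
    (hw : ∀ h, v (w h) ≤ 1) (hx : ∀ h, v (x' h - x h) ≤ δ) (h : H) :
    v ((w * x') h - (w * x) h) ≤ δ := by
  have := convMul_sub_bdd v (w := lin w) (x := lin x) (x' := lin x') hw hx h
  rw [← lin_mul, ← lin_mul] at this
  exact this

/-- **Galois corollary (torsor bound).**  `τ` an `R₀`-algebra endomorphism of `K`, `w` a point,
`u` an integral point with `u * w = 1`, `g` a point with `τ ∘ w = w * g`.  If
`|τ (w h') - w h'| ≤ δ` for all `h'`, then `|g h - ε h| ≤ δ` for all `h`. -/
theorem point_sub_one_bdd {w u g : WithConv (H →ₐ[R₀] K)} (τ : K →ₐ[R₀] K)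
    (huw : u * w = 1) (hu : ∀ h, v (u h) ≤ 1)
    (hτ : toConv (τ.comp w.ofConv) = w * g) {δ : Γ₀}
    (hδ : ∀ h, v (τ (w h) - w h) ≤ δ) (h : H) :
    v (g h - (1 : WithConv (H →ₐ[R₀] K)) h) ≤ δ := by
  have e1 : g = u * toConv (τ.comp w.ofConv) := by
    rw [hτ, ← mul_assoc, huw, one_mul]
  have e2 : (1 : WithConv (H →ₐ[R₀] K)) = u * w := huw.symm
  have key := point_mul_sub_bdd v (w := u) (x := w) (x' := toConv (τ.comp w.ofConv)) hu
    (fun h' => hδ h') h
  rw [← e1, ← e2] at key
  exact key

/-- strict version of `point_sub_one_bdd` -/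
theorem point_sub_one_lt {w u g : WithConv (H →ₐ[R₀] K)} (τ : K →ₐ[R₀] K)
    (huw : u * w = 1) (hu : ∀ h, v (u h) ≤ 1)
    (hτ : toConv (τ.comp w.ofConv) = w * g) {ρ : Γ₀}
    (hδ : ∀ h, v (τ (w h) - w h) < ρ) (h : H) :
    v (g h - (1 : WithConv (H →ₐ[R₀] K)) h) < ρ := by
  have e1 : g = u * toConv (τ.comp w.ofConv) := by
    rw [hτ, ← mul_assoc, huw, one_mul]
  have e2 : (1 : WithConv (H →ₐ[R₀] K)) = u * w := huw.symm
  rw [e1, e2]
  -- expand with a representation of the coproduct of `h`
  have hrepr := ℛ R₀ h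
  have hL : (u * toConv (τ.comp w.ofConv)) h - (u * w) h =
      ∑ i ∈ hrepr.index, u (hrepr.left i) * (τ (w (hrepr.right i)) - w (hrepr.right i)) := by
    have a1 : (u * toConv (τ.comp w.ofConv)) h =
        ∑ i ∈ hrepr.index, u (hrepr.left i) * τ (w (hrepr.right i)) := by
      have := hrepr.convMul_apply (lin u) (lin (toConv (τ.comp w.ofConv)))
      rw [← lin_mul] at this
      exact this
    have a2 : (u * w) h = ∑ i ∈ hrepr.index, u (hrepr.left i) * w (hrepr.right i) := by
      have := hrepr.convMul_apply (lin u) (lin w)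
      rw [← lin_mul] at this
      exact this
    rw [a1, a2, ← Finset.sum_sub_distrib]
    exact Finset.sum_congr rfl fun i _ => by ring
  rw [hL]
  have hρ : (0 : Γ₀) < ρ := lt_of_le_of_lt zero_le (hδ h)
  refine v.map_sum_lt' hρ fun i _ => ?_
  rw [map_mul]
  calc v (u (hrepr.left i)) * v (τ (w (hrepr.right i)) - w (hrepr.right i))
      ≤ 1 * v (τ (w (hrepr.right i)) - w (hrepr.right i)) := mul_le_mul' (hu _) le_rfl
    _ = v (τ (w (hrepr.right i)) - w (hrepr.right i)) := one_mul _
    _ < ρ := hδ _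

/-- contrapositive form: a point `g = τ w - w` which is far from the origin forces `τ` to move
some coordinate of `w` at least as far. -/
theorem exists_coord_moved {w u g : WithConv (H →ₐ[R₀] K)} (τ : K →ₐ[R₀] K)
    (huw : u * w = 1) (hu : ∀ h, v (u h) ≤ 1)
    (hτ : toConv (τ.comp w.ofConv) = w * g) {ρ : Γ₀} {h : H}
    (hg : ρ ≤ v (g h - (1 : WithConv (H →ₐ[R₀] K)) h)) :
    ∃ h', ρ ≤ v (τ (w h') - w h') := by
  by_contra hcon
  simp only [not_exists, not_le] at hcon
  exact absurd (point_sub_one_lt v τ huw hu hτ hcon h) (not_lt.mpr hg)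

end Points

end Fermat.Agent.GP.Flat.TransInv
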