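/-
GATE-P (S56 long shot) / [P-FLAT] SEPARATION OF POINTS (helper33): translation invariance
(`GP/Flat/TransInv`) + Lemma F (`GP/Flat/LemmaF`) in the frozen `IsFlatAt` shape:

* `exists_coord_ge`: for an integral point `u`, every coordinate of `u * x' - u * x` is bounded by
  SOME coordinate of `x' - x` (pointwise form of translation invariance, no uniform bound needed).
* `eq_of_close`: two points `w₁ w₂` of a bialgebra whose points are killed by `p`, with
  `|w₁ h - w₂ h| ^ (p-1) < |p|` for all `h`, are EQUAL: distinct points of a finite flat group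
  scheme killed by `p` are `|p|^{1/(p-1)}`-separated (= injectivity of reduction modulo
  `𝔞^{>1/(p-1)}` on points; the injectivity half of Fontaine's property `(P_m)`).
* `comp_eq_of_close`: Galois form, `τ ∘ w = w` as soon as `τ` moves every coordinate of `w` by
  less than `|p|^{1/(p-1)}` (lower-numbering ramification bound for the field of the point `w`).
Mathlib + `GP/Flat/{LemmaF, TransInv}` only.
-/
import Fermat.Agent.GP.Flat.TransInv

set_option autoImplicit false

namespace Fermat.Agent.GP.Flat.Separated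

open Coalgebra TensorProduct WithConv
open Fermat.Agent.GP.Flat.LemmaF

section Points

variable {R₀ : Type*} [CommRing R₀] {H : Type*} [CommRing H] [Bialgebra R₀ H]
variable {K : Type*} [Field K] [Algebra R₀ K]
variable {Γ₀ : Type*} [LinearOrderedCommGroupWithZero Γ₀] (v : Valuation K Γ₀)

/-- pointwise translation invariance: each coordinate of `u * x' - u * x` is bounded by some
coordinate of `x' - x`. -/
theorem exists_coord_ge {u x x' : WithConv (H →ₐ[R₀] K)} (hu : ∀ h, v (u h) ≤ 1) (h : H) :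
    ∃ h', v ((u * x') h - (u * x) h) ≤ v (x' h' - x h') := by
  have hrepr := ℛ R₀ h
  have hL : (u * x') h - (u * x) h =
      ∑ i ∈ hrepr.index, u (hrepr.left i) * (x' (hrepr.right i) - x (hrepr.right i)) := by
    have a1 : (u * x') h = ∑ i ∈ hrepr.index, u (hrepr.left i) * x' (hrepr.right i) := by
      have := hrepr.convMul_apply (TransInv.lin u) (TransInv.lin x')
      rw [← TransInv.lin_mul] at this
      exact this
    have a2 : (u * x) h = ∑ i ∈ hrepr.index, u (hrepr.left i) * x (hrepr.right i) := by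
      have := hrepr.convMul_apply (TransInv.lin u) (TransInv.lin x)
      rw [← TransInv.lin_mul] at this
      exact this
    rw [a1, a2, ← Finset.sum_sub_distrib]
    exact Finset.sum_congr rfl fun i _ => by ring
  by_cases hne : hrepr.index.Nonempty
  · obtain ⟨i₀, hi₀, hmax⟩ := Finset.exists_max_image hrepr.index
      (fun i => v (x' (hrepr.right i) - x (hrepr.right i))) hne
    refine ⟨hrepr.right i₀, ?_⟩
    rw [hL]
    refine v.map_sum_le fun i hi => ?_
    rw [map_mul]
    calc v (u (hrepr.left i)) * v (x' (hrepr.right i) - x (hrepr.right i))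
        ≤ 1 * v (x' (hrepr.right i) - x (hrepr.right i)) := mul_le_mul' (hu _) le_rfl
      _ = v (x' (hrepr.right i) - x (hrepr.right i)) := one_mul _
      _ ≤ v (x' (hrepr.right i₀) - x (hrepr.right i₀)) := hmax i hi
  · refine ⟨h, ?_⟩
    rw [hL, Finset.not_nonempty_iff_eq_empty.mp hne, Finset.sum_empty, map_zero]
    exact zero_le

variable [Module.Finite R₀ H]

/-- **Separation of points.**  `w₁`, `w₂` points, `u` an integral inverse of `w₂`, the point
`u * w₁` killed by `p`.  If `|w₁ h - w₂ h| ^ (p-1) < |p|` for all `h` then `w₁ = w₂`. -/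
theorem eq_of_close {p : ℕ} (hp : p.Prime) (hp0 : (p : K) ≠ 0)
    (hint : ∀ r : R₀, v (algebraMap R₀ K r) ≤ 1)
    {w₁ w₂ u : WithConv (H →ₐ[R₀] K)} (huw : u * w₂ = 1) (hwu : w₂ * u = 1)
    (hu : ∀ h, v (u h) ≤ 1) (hpow : (u * w₁) ^ p = 1)
    (hclose : ∀ h, v (w₁ h - w₂ h) ^ (p - 1) < v (p : K)) : w₁ = w₂ := by
  have h1 : u * w₁ = 1 := by
    refine eq_one_of_pow_eq_one v hp hp0 hint (u * w₁) hpow fun h => ?_
    obtain ⟨h', hh'⟩ := exists_coord_ge v (u := u) (x := w₂) (x' := w₁) hu h
    have e : (u * w₁) h - algebraMap R₀ K (Coalgebra.counit h) = (u * w₁) h - (u * w₂) h := by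
      rw [huw]; rfl
    rw [e]
    exact lt_of_le_of_lt (pow_le_pow_left' hh' _) (hclose h')
  -- `w₂` is also the inverse of `u`
  calc w₁ = (w₂ * u) * w₁ := by rw [hwu, one_mul]
    _ = w₂ * (u * w₁) := mul_assoc _ _ _
    _ = w₂ := by rw [h1, mul_one]

/-- **Galois form.**  `τ` an `R₀`-algebra endomorphism of `K`, `w` a point with integral inverse
`u`, the point `u * (τ ∘ w)` killed by `p`.  If `τ` moves every coordinate of `w` by less than
`|p|^{1/(p-1)}` then `τ ∘ w = w`. -/
theorem comp_eq_of_close {p : ℕ} (hp : p.Prime) (hp0 : (p : K) ≠ 0)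
    (hint : ∀ r : R₀, v (algebraMap R₀ K r) ≤ 1)
    {w u : WithConv (H →ₐ[R₀] K)} (τ : K →ₐ[R₀] K) (huw : u * w = 1) (hwu : w * u = 1)
    (hu : ∀ h, v (u h) ≤ 1) (hpow : (u * toConv (τ.comp w.ofConv)) ^ p = 1)
    (hclose : ∀ h, v (τ (w h) - w h) ^ (p - 1) < v (p : K)) :
    toConv (τ.comp w.ofConv) = w :=
  eq_of_close v hp hp0 hint huw hwu hu hpow hclose

/-- cocommutative form of `eq_of_close` (the frozen `IsFlatAt` has `Coalgebra.IsCocomm`): a
one-sided inverse suffices. -/
theorem eq_of_close_of_isCocomm [Coalgebra.IsCocomm R₀ H] {p : ℕ} (hp : p.Prime)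
    (hp0 : (p : K) ≠ 0) (hint : ∀ r : R₀, v (algebraMap R₀ K r) ≤ 1)
    {w₁ w₂ u : WithConv (H →ₐ[R₀] K)} (huw : u * w₂ = 1)
    (hu : ∀ h, v (u h) ≤ 1) (hpow : (u * w₁) ^ p = 1)
    (hclose : ∀ h, v (w₁ h - w₂ h) ^ (p - 1) < v (p : K)) : w₁ = w₂ :=
  eq_of_close v hp hp0 hint huw (by rw [mul_comm, huw]) hu hpow hclose

/-- cocommutative Galois form: all points killed by `p`, `τ` moves every coordinate of `w` by
less than `|p|^{1/(p-1)}`; then `τ ∘ w = w`. -/
theorem comp_eq_of_close_of_isCocomm [Coalgebra.IsCocomm R₀ H] {p : ℕ} (hp : p.Prime)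
    (hp0 : (p : K) ≠ 0) (hint : ∀ r : R₀, v (algebraMap R₀ K r) ≤ 1)
    (hkill : ∀ x : WithConv (H →ₐ[R₀] K), x ^ p = 1)
    {w u : WithConv (H →ₐ[R₀] K)} (τ : K →ₐ[R₀] K) (huw : u * w = 1)
    (hu : ∀ h, v (u h) ≤ 1)
    (hclose : ∀ h, v (τ (w h) - w h) ^ (p - 1) < v (p : K)) :
    toConv (τ.comp w.ofConv) = w :=
  eq_of_close_of_isCocomm v hp hp0 hint huw hu (hkill _) hclose

end Points

end Fermat.Agent.GP.Flat.Separated
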