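/-
GATE-P (S56 long shot) / [P-FLAT] node S56-FLAT-PM-ASM (helper53): **assembly of Fontaine's property
`(P_m)`** = step (d) of helper15's plan (board 4059 §3), in HYPOTHESIS form.

Setting (abstract): `K` a field with a valuation `v`, `Wb ⊂ K` a subring of integral elements whose
nonzero elements have valuations in `v(ϖ)^ℕ`, `P ∈ Wb[X]` monic of degree `e` with a root `π`,
`v π ^ e = v ϖ` (so `1, π, …, π^(e-1)` is a `Wb`-basis of `Wb[π]`), and `β` with `v β ^ e = v ϖ`.

* `exists_val_sum_eq`, `val_aeval_eq` : a reduced form `∑_{k<e} c_k x^k` has the valuation of its largest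
  term, which only depends on `v x`; hence reduced forms have the same valuation at `π` and at `β`.
* `subst`, `SubstData.val_subst`, `SubstData.subst_congr`, `SubstData.subst_mul_sub` :
  the EISENSTEIN SUBSTITUTION `Q(π) ↦ (Q mod P)(β)` is well defined on `Wb[π]`, additive, `Wb`-linear,
  valuation preserving, and multiplicative modulo `P(β)`.
* `approx` : for a point `y : H →ₐ[R₀] K` with values in `Wb[π]`, the approximate point
  `y₀ = subst ∘ y` (an `R₀`-linear map, `y₀ 1 = 1`, multiplicative modulo `P(β)`).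
* `fixes_points_of_lift` : if approximate points lift to genuine points (binder `hlift` = the
  output of Fontaine's lifting lemma, helper15 `GP/Flat/Lift*.lean`) and `|P(β)|^(p-1) < |p|^p`, then
  every valuation-preserving automorphism `σ` of `K` fixing `Wb` and `β` fixes every point:
  `y ↦ Θ(y) :=` (the point close to `y₀`) is injective (valuation preservation + separation of
  points, helper33 `Separated.eq_of_close`), hence bijective on the FINITE set of points, and
  `σ ∘ Θ(y)` is again close to `σ ∘ y₀ = y₀`, hence equal to `Θ(y)`.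
Mathlib + `GP/Flat/{LemmaF, TransInv, Separated}` only.
-/
import Mathlib
import Fermat.Agent.GP.Flat.Separated

set_option autoImplicit false
set_option linter.unusedSectionVars false

namespace Fermat.Agent.GP.Flat.PmAsm

open Polynomial Finset

section Val

variable {K : Type*} [Field K] {Γ₀ : Type*} [LinearOrderedCommGroupWithZero Γ₀]
  (v : Valuation K Γ₀) (Wb : Subring K)

/-- two monomial terms `c x^k`, `c' x^l` (`k, l < e`, coefficients in `Wb` with value group
`v(ϖ)^ℕ`, `v(x)^e = v(ϖ)`) of equal nonzero valuation have the same exponent. -/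
theorem exp_eq_of_val_eq {ϖ : K} (hϖ0 : v ϖ ≠ 0) (hϖ1 : v ϖ < 1)
    (hWu : ∀ t ∈ Wb, t ≠ 0 → ∃ n : ℕ, v t = v ϖ ^ n)
    {e : ℕ} {γ : Γ₀} (hγ : γ ^ e = v ϖ) {c c' : K} (hc : c ∈ Wb) (hc' : c' ∈ Wb)
    (hc0 : c ≠ 0) (hc'0 : c' ≠ 0) {k l : ℕ} (hk : k < e) (hl : l < e)
    (h : v c * γ ^ k = v c' * γ ^ l) : k = l := by
  obtain ⟨n, hn⟩ := hWu c hc hc0
  obtain ⟨n', hn'⟩ := hWu c' hc' hc'0
  have h2 : (v c * γ ^ k) ^ e = (v c' * γ ^ l) ^ e := by rw [h]
  rw [mul_pow, mul_pow, hn, hn', ← pow_mul, ← pow_mul, ← pow_mul, ← pow_mul, mul_comm k e,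
    mul_comm l e, pow_mul γ, pow_mul γ, hγ, ← pow_add, ← pow_add] at h2
  have hinj := pow_right_injective₀ (zero_lt_iff.mpr hϖ0) hϖ1.ne h2
  have h3 : (n * e + k) % e = (n' * e + l) % e := by rw [hinj]
  rw [Nat.mul_add_mod_self_right, Nat.mul_add_mod_self_right, Nat.mod_eq_of_lt hk,
    Nat.mod_eq_of_lt hl] at h3
  exact h3

/-- **the valuation of a reduced form `∑_{k<e} c_k x^k` is the largest of the valuations of its
terms, and is determined by `v x` alone.** -/
theorem exists_val_sum_eq {ϖ : K} (hϖ0 : v ϖ ≠ 0) (hϖ1 : v ϖ < 1)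
    (hWu : ∀ t ∈ Wb, t ≠ 0 → ∃ n : ℕ, v t = v ϖ ^ n)
    {e : ℕ} (he : 0 < e) {γ : Γ₀} (hγ : γ ^ e = v ϖ) (c : ℕ → K) (hc : ∀ k, c k ∈ Wb) :
    ∃ k₀ < e, ∀ x : K, v x = γ → v (∑ k ∈ range e, c k * x ^ k) = v (c k₀) * γ ^ k₀ := by
  classical
  have hγ0 : γ ≠ 0 := by
    intro h0
    rw [h0, zero_pow he.ne'] at hγ
    exact hϖ0 hγ.symm
  obtain ⟨k₀, hk₀, hmax⟩ := (range e).exists_max_image (fun k => v (c k) * γ ^ k)
    ⟨0, mem_range.mpr he⟩
  refine ⟨k₀, mem_range.mp hk₀, fun x hx => ?_⟩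
  by_cases h0 : v (c k₀) * γ ^ k₀ = 0
  · -- all terms vanish
    rw [h0]
    have hall : ∀ k ∈ range e, c k * x ^ k = 0 := by
      intro k hk
      have h1 := hmax k hk
      rw [h0, le_zero_iff] at h1
      rcases mul_eq_zero.mp h1 with h2 | h2
      · rw [(map_eq_zero v).mp h2, zero_mul]
      · exact absurd (pow_eq_zero_iff (fun hk0 => by
          rw [hk0, pow_zero] at h2; exact one_ne_zero h2) |>.mp h2) hγ0
    rw [sum_eq_zero hall, map_zero]
  · have hterm : ∀ k, v (c k * x ^ k) = v (c k) * γ ^ k := fun k => by rw [map_mul, map_pow, hx]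
    rw [← hterm k₀]
    refine v.map_sum_eq_of_lt hk₀ fun i hi => ?_
    rw [mem_sdiff, mem_singleton] at hi
    rw [hterm, hterm]
    refine lt_of_le_of_ne (hmax i hi.1) fun heq => ?_
    have hck₀ : c k₀ ≠ 0 := by
      intro hz
      apply h0
      rw [hz, map_zero, zero_mul]
    have hci : c i ≠ 0 := by
      intro hz
      apply h0
      rw [← heq, hz, map_zero, zero_mul]
    exact hi.2 (exp_eq_of_val_eq v Wb hϖ0 hϖ1 hWu hγ (hc i) (hc k₀) hci hck₀
      (mem_range.mp hi.1) (mem_range.mp hk₀) heq)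

end Val

section Subst

variable {K : Type*} [Field K] {Γ₀ : Type*} [LinearOrderedCommGroupWithZero Γ₀]
  (v : Valuation K Γ₀) (Wb : Subring K)

theorem aeval_eq_sum_coe {e : ℕ} (R : Polynomial Wb) (hR : R.natDegree < e) (x : K) :
    aeval x R = ∑ k ∈ range e, ((R.coeff k : Wb) : K) * x ^ k := by
  rw [aeval_eq_sum_range' hR]
  refine sum_congr rfl fun k _ => ?_
  rw [Algebra.smul_def]
  rfl

/-- **reduced forms have the same valuation at `π` and at `β`** (`v π ^ e = v ϖ = v β ^ e`). -/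
theorem val_aeval_eq {ϖ : K} (hϖ0 : v ϖ ≠ 0) (hϖ1 : v ϖ < 1)
    (hWu : ∀ t ∈ Wb, t ≠ 0 → ∃ n : ℕ, v t = v ϖ ^ n)
    {e : ℕ} (he : 0 < e) {π β : K} (hπ : v π ^ e = v ϖ) (hβ : v β ^ e = v ϖ)
    (R : Polynomial Wb) (hR : R.natDegree < e) :
    v (aeval β R) = v (aeval π R) := by
  have hβπ : v β = v π := by
    have := hβ.trans hπ.symm
    exact (pow_left_inj₀ zero_le zero_le he.ne').mp this
  obtain ⟨k₀, -, hk₀⟩ := exists_val_sum_eq v Wb hϖ0 hϖ1 hWu he hπ
    (fun k => ((R.coeff k : Wb) : K)) (fun k => (R.coeff k).2)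
  rw [aeval_eq_sum_coe Wb R hR, aeval_eq_sum_coe Wb R hR, hk₀ β hβπ, hk₀ π rfl]

/-- values of `Wb`-polynomials at an integral point are integral. -/
theorem val_aeval_le_one (hWA : ∀ t ∈ Wb, v t ≤ 1) {x : K} (hx : v x ≤ 1) (T : Polynomial Wb) :
    v (aeval x T) ≤ 1 := by
  rw [aeval_eq_sum_coe Wb T (Nat.lt_succ_self _)]
  refine v.map_sum_le fun k _ => ?_
  rw [map_mul, map_pow]
  exact mul_le_one' (hWA _ (T.coeff k).2) (pow_le_one' hx k)

variable (P : Polynomial Wb) (β : K)

/-- the substitution `Q(π) ↦ (Q mod P)(β)`. -/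
noncomputable def subst (Q : Polynomial Wb) : K := aeval β (Q %ₘ P)

theorem subst_add (Q Q' : Polynomial Wb) : subst Wb P β (Q + Q') = subst Wb P β Q + subst Wb P β Q' := by
  unfold subst
  rw [add_modByMonic, map_add]

theorem subst_sub (Q Q' : Polynomial Wb) : subst Wb P β (Q - Q') = subst Wb P β Q - subst Wb P β Q' := by
  unfold subst
  rw [sub_modByMonic, map_sub]

theorem subst_smul (c : Wb) (Q : Polynomial Wb) : subst Wb P β (c • Q) = (c : K) * subst Wb P β Q := by
  unfold subst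
  rw [smul_modByMonic, map_smul, Algebra.smul_def]
  rfl

theorem subst_one (hPm : P.Monic) (hPd : 0 < P.natDegree) : subst Wb P β 1 = 1 := by
  unfold subst
  have : (1 : Polynomial Wb) %ₘ P = 1 := by
    rw [modByMonic_eq_self_iff hPm, degree_one]
    exact (natDegree_pos_iff_degree_pos.mp hPd)
  rw [this, map_one]

theorem val_subst_mul_sub (hWA : ∀ t ∈ Wb, v t ≤ 1) (hβ : v β ≤ 1)
    (Q Q' : Polynomial Wb) :
    v (subst Wb P β (Q * Q') - subst Wb P β Q * subst Wb P β Q') ≤ v (aeval β P) := by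
  unfold subst
  set R := Q %ₘ P
  set R' := Q' %ₘ P
  have h1 : (Q * Q') %ₘ P = (R * R') %ₘ P := mul_modByMonic Q Q' P
  have h2 : (R * R') %ₘ P + P * ((R * R') /ₘ P) = R * R' := modByMonic_add_div _ _
  have h3 : aeval β ((R * R') %ₘ P) - aeval β R * aeval β R' =
      -(aeval β P * aeval β ((R * R') /ₘ P)) := by
    have := congrArg (aeval β) h2
    rw [map_add, map_mul, map_mul] at this
    linear_combination this
  rw [h1, h3, Valuation.map_neg, map_mul]
  calc v (aeval β P) * v (aeval β ((R * R') /ₘ P)) ≤ v (aeval β P) * 1 :=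
        mul_le_mul_right (val_aeval_le_one v Wb hWA hβ _) _
    _ = _ := mul_one _

theorem val_subst {ϖ : K} (hϖ0 : v ϖ ≠ 0) (hϖ1 : v ϖ < 1)
    (hWu : ∀ t ∈ Wb, t ≠ 0 → ∃ n : ℕ, v t = v ϖ ^ n) (hPm : P.Monic) (hPd : 0 < P.natDegree)
    {π : K} (hπ : v π ^ P.natDegree = v ϖ) (hβ : v β ^ P.natDegree = v ϖ) (hPπ : aeval π P = 0)
    (Q : Polynomial Wb) : v (subst Wb P β Q) = v (aeval π Q) := by
  unfold subst
  have hP1 : P ≠ 1 := by
    intro h
    rw [h, natDegree_one] at hPd
    exact lt_irrefl _ hPd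
  rw [val_aeval_eq v Wb hϖ0 hϖ1 hWu hPd hπ hβ _ (natDegree_modByMonic_lt Q hPm hP1)]
  have h2 : Q %ₘ P + P * (Q /ₘ P) = Q := modByMonic_add_div _ _
  have := congrArg (aeval π) h2
  rw [map_add, map_mul, hPπ, zero_mul, add_zero] at this
  rw [this]


/-- the standing hypotheses on `(Wb, ϖ, π, β, P)`. -/
structure SubstData (ϖ π : K) : Prop where
  hϖ0 : v ϖ ≠ 0
  hϖ1 : v ϖ < 1
  hWA : ∀ t ∈ Wb, v t ≤ 1
  hWu : ∀ t ∈ Wb, t ≠ 0 → ∃ n : ℕ, v t = v ϖ ^ n
  hPm : P.Monic
  hPd : 0 < P.natDegree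
  hπ : v π ^ P.natDegree = v ϖ
  hβ : v β ^ P.natDegree = v ϖ
  hPπ : aeval π P = 0

variable {v Wb P β}
variable {ϖ π : K} (D : SubstData v Wb P β ϖ π)
include D

theorem SubstData.val_pi_lt_one : v π < 1 := by
  by_contra h
  rw [not_lt] at h
  have : (1 : Γ₀) ≤ v π ^ P.natDegree := one_le_pow_of_one_le' h _
  rw [D.hπ] at this
  exact absurd D.hϖ1 (not_lt.mpr this)

theorem SubstData.val_beta_lt_one : v β < 1 := by
  by_contra h
  rw [not_lt] at h
  have : (1 : Γ₀) ≤ v β ^ P.natDegree := one_le_pow_of_one_le' h _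
  rw [D.hβ] at this
  exact absurd D.hϖ1 (not_lt.mpr this)

theorem SubstData.val_subst (Q : Polynomial Wb) : v (subst Wb P β Q) = v (aeval π Q) :=
  PmAsm.val_subst v Wb P β D.hϖ0 D.hϖ1 D.hWu D.hPm D.hPd D.hπ D.hβ D.hPπ Q

/-- `subst` only depends on the value `Q(π)`. -/
theorem SubstData.subst_congr {Q Q' : Polynomial Wb} (h : aeval π Q = aeval π Q') :
    subst Wb P β Q = subst Wb P β Q' := by
  have h1 : v (subst Wb P β (Q - Q')) = 0 := by
    rw [D.val_subst, map_sub, h, sub_self, map_zero]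
  rw [subst_sub, map_eq_zero, sub_eq_zero] at h1
  exact h1

theorem SubstData.subst_mul_sub (Q Q' : Polynomial Wb) :
    v (subst Wb P β (Q * Q') - subst Wb P β Q * subst Wb P β Q') ≤ v (aeval β P) :=
  val_subst_mul_sub v Wb P β D.hWA D.val_beta_lt_one.le Q Q'

theorem SubstData.val_aeval_pi_le_one (Q : Polynomial Wb) : v (aeval π Q) ≤ 1 :=
  val_aeval_le_one v Wb D.hWA D.val_pi_lt_one.le Q

/-- scalars from `Wb` pass through `subst`. -/
theorem SubstData.subst_of_mem {r : K} (hr : r ∈ Wb) {Q Q' : Polynomial Wb}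
    (h : aeval π Q' = r * aeval π Q) : subst Wb P β Q' = r * subst Wb P β Q := by
  have h1 : aeval π Q' = aeval π ((⟨r, hr⟩ : Wb) • Q) := by
    rw [h, map_smul, Algebra.smul_def]; rfl
  rw [D.subst_congr h1, subst_smul]

/-- scalars `r = n / d` (`d, n` integers, `d ≠ 0` in `K`) pass through `subst`: the substitution
is additive, hence `ℤ_(p)`-linear in characteristic `0` even when `ℤ_(p) ⊄ Wb`. -/
theorem SubstData.subst_of_int {r : K} {d n : ℤ} (hd : (d : K) ≠ 0) (hdn : (d : K) * r = n)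
    {Q Q' : Polynomial Wb} (h : aeval π Q' = r * aeval π Q) :
    subst Wb P β Q' = r * subst Wb P β Q := by
  have h1 : aeval π ((d : Wb) • Q') = aeval π ((n : Wb) • Q) := by
    rw [map_smul, map_smul, Algebra.smul_def, Algebra.smul_def, h]
    have e1 : algebraMap Wb K (d : Wb) = (d : K) := by
      rw [map_intCast]
    have e2 : algebraMap Wb K (n : Wb) = (n : K) := by
      rw [map_intCast]
    rw [e1, e2, ← mul_assoc, hdn]
  have h2 := D.subst_congr h1
  rw [subst_smul, subst_smul] at h2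
  have e1 : ((d : Wb) : K) = (d : K) := by push_cast; rfl
  have e2 : ((n : Wb) : K) = (n : K) := by push_cast; rfl
  rw [e1, e2, ← hdn, mul_assoc] at h2
  exact mul_left_cancel₀ hd h2

omit D in
/-- a ring endomorphism fixing `Wb` and `β` fixes every `subst` value. -/
theorem apply_subst (σ : K →+* K) (hσW : ∀ t ∈ Wb, σ t = t) (hσβ : σ β = β) (Q : Polynomial Wb) :
    σ (subst Wb P β Q) = subst Wb P β Q := by
  unfold subst
  let σ' : K →ₐ[Wb] K := { σ with commutes' := fun t => hσW _ t.2 }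
  have := aeval_algHom_apply σ' β (Q %ₘ P)
  have h2 : σ' β = β := hσβ
  rw [h2] at this
  exact this.symm

end Subst

section Main

open Coalgebra WithConv

variable {R₀ : Type*} [CommRing R₀] {H : Type*} [CommRing H] [Bialgebra R₀ H]
  [Module.Finite R₀ H] [Coalgebra.IsCocomm R₀ H]
variable {K : Type*} [Field K] [Algebra R₀ K]
variable {Γ₀ : Type*} [LinearOrderedCommGroupWithZero Γ₀] {v : Valuation K Γ₀}
variable {Wb : Subring K} {P : Polynomial Wb} {β : K} {p : ℕ} {π : K}

/-- a chosen `Wb`-polynomial representing an element of `Wb[π]`. -/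
noncomputable def rep (π : K) (a : K) (ha : a ∈ Algebra.adjoin Wb {π}) : Polynomial Wb := by
  rw [Algebra.adjoin_singleton_eq_range_aeval] at ha
  exact ha.choose

theorem aeval_rep (a : K) (ha : a ∈ Algebra.adjoin Wb {π}) : aeval π (rep π a ha) = a := by
  unfold rep
  have ha' := ha
  rw [Algebra.adjoin_singleton_eq_range_aeval] at ha'
  exact ha'.choose_spec

variable (D : SubstData v Wb P β (p : K) π)
variable (hsmul : ∀ (r : R₀) (Q Q' : Polynomial Wb), aeval π Q' = algebraMap R₀ K r * aeval π Q →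
    subst Wb P β Q' = algebraMap R₀ K r * subst Wb P β Q)
variable (y : H →ₐ[R₀] K) (hy : ∀ h, y h ∈ Algebra.adjoin Wb {π})

include D hsmul in
/-- the approximate point `y₀ = (y with π replaced by β)`. -/
noncomputable def approx : H →ₗ[R₀] K where
  toFun h := subst Wb P β (rep π (y h) (hy h))
  map_add' h h' := by
    rw [← subst_add]
    apply D.subst_congr
    have e1 := aeval_rep (π := π) (y (h + h')) (hy (h + h'))
    have e2 := aeval_rep (π := π) (y h) (hy h)
    have e3 := aeval_rep (π := π) (y h') (hy h')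
    rw [e1, map_add, map_add, e2, e3]
  map_smul' r h := by
    have e0 : r • subst Wb P β (rep π (y h) (hy h)) =
        algebraMap R₀ K r * subst Wb P β (rep π (y h) (hy h)) := Algebra.smul_def _ _
    rw [RingHom.id_apply, e0]
    apply hsmul
    have e1 := aeval_rep (π := π) (y (r • h)) (hy (r • h))
    have e2 := aeval_rep (π := π) (y h) (hy h)
    rw [e1, e2, map_smul, Algebra.smul_def]

theorem approx_apply (h : H) :
    approx D hsmul y hy h = subst Wb P β (rep π (y h) (hy h)) := rfl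

theorem approx_one : approx D hsmul y hy 1 = 1 := by
  rw [approx_apply, ← subst_one Wb P β D.hPm D.hPd]
  apply D.subst_congr
  rw [aeval_rep, map_one, map_one]

theorem val_approx (h : H) : v (approx D hsmul y hy h) = v (y h) := by
  rw [approx_apply, D.val_subst, aeval_rep]

include D hy in
theorem val_point_le_one (h : H) : v (y h) ≤ 1 := by
  rw [← aeval_rep (π := π) (y h) (hy h)]
  exact D.val_aeval_pi_le_one _

theorem val_approx_mul (h h' : H) :
    v (approx D hsmul y hy (h * h') - approx D hsmul y hy h * approx D hsmul y hy h') ≤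
      v (aeval β P) := by
  rw [approx_apply, approx_apply, approx_apply]
  have : subst Wb P β (rep π (y (h * h')) (hy (h * h'))) =
      subst Wb P β (rep π (y h) (hy h) * rep π (y h') (hy h')) := by
    apply D.subst_congr
    have e1 := aeval_rep (π := π) (y (h * h')) (hy (h * h'))
    have e2 := aeval_rep (π := π) (y h) (hy h)
    have e3 := aeval_rep (π := π) (y h') (hy h')
    rw [e1, map_mul, map_mul, e2, e3]
  rw [this]
  exact D.subst_mul_sub _ _

theorem val_approx_sub (y' : H →ₐ[R₀] K) (hy' : ∀ h, y' h ∈ Algebra.adjoin Wb {π}) (h : H) :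
    v (approx D hsmul y hy h - approx D hsmul y' hy' h) = v (y h - y' h) := by
  rw [approx_apply, approx_apply, ← subst_sub, D.val_subst, map_sub, aeval_rep, aeval_rep]

theorem apply_approx (σ : K →+* K) (hσW : ∀ t ∈ Wb, σ t = t) (hσβ : σ β = β) (h : H) :
    σ (approx D hsmul y hy h) = approx D hsmul y hy h := by
  rw [approx_apply]
  exact apply_subst σ hσW hσβ _

include D hsmul in
/-- **Assembly of Fontaine's property `(P_m)`** (step (d) of helper15's plan), abstract form.
From the lifting lemma `hlift` (approximate points lift) and the Eisenstein substitution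
`π ↦ β` (proved here), an automorphism fixing `Wb` and `β` fixes every point. -/
theorem fixes_points_of_lift [Finite (H →ₐ[R₀] K)] (hp : p.Prime) (hp0 : (p : K) ≠ 0)
    (hint : ∀ r : R₀, v (algebraMap R₀ K r) ≤ 1)
    (hkill : ∀ f : WithConv (H →ₐ[R₀] K), f ^ p = 1)
    (hval : ∀ (f : H →ₐ[R₀] K) (h : H), f h ∈ Algebra.adjoin Wb {π})
    (hPβ : v (aeval β P) ^ (p - 1) < v (p : K) ^ p)
    (hlift : ∀ w : K, v w ^ (p - 1) < v (p : K) → ∀ y0 : H →ₗ[R₀] K, y0 1 = 1 →
      (∀ h, v (y0 h) ≤ 1) →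
      (∀ h h', v (y0 (h * h') - y0 h * y0 h') ≤ v ((p : K) * w)) →
      ∃ χ : H →ₐ[R₀] K, ∀ h, v (χ h - y0 h) ≤ v w)
    (σ : K →ₐ[R₀] K) (hσv : ∀ x, v (σ x) = v x) (hσW : ∀ t ∈ Wb, σ t = t) (hσβ : σ β = β) :
    ∀ (f : H →ₐ[R₀] K) (h : H), σ (f h) = f h := by
  classical
  have hvp0 : v (p : K) ≠ 0 := D.hϖ0
  have hp1 : p - 1 + 1 = p := Nat.sub_add_cancel hp.one_lt.le
  -- the modulus `w = P(β) / p`
  set w : K := aeval β P / (p : K) with hw_def
  have hpw : (p : K) * w = aeval β P := by rw [hw_def, mul_div_cancel₀ _ hp0]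
  have hvw : v w * v (p : K) = v (aeval β P) := by rw [← map_mul, mul_comm, hpw]
  have hw : v w ^ (p - 1) < v (p : K) := by
    have h1 : v w ^ (p - 1) * v (p : K) ^ (p - 1) < v (p : K) * v (p : K) ^ (p - 1) := by
      rw [← mul_pow, hvw, ← pow_succ', hp1]
      exact hPβ
    exact (mul_lt_mul_iff_left₀ (zero_lt_iff.mpr (pow_ne_zero _ hvp0))).mp h1
  -- the map `Θ`
  have hex : ∀ y : H →ₐ[R₀] K, ∃ χ : H →ₐ[R₀] K,
      ∀ h, v (χ h - approx D hsmul y (hval y) h) ≤ v w := by
    intro y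
    refine hlift w hw (approx D hsmul y (hval y)) (approx_one D hsmul y (hval y)) (fun h => ?_)
      (fun h h' => ?_)
    · rw [val_approx]
      exact val_point_le_one D y (hval y) h
    · rw [hpw]
      exact val_approx_mul D hsmul y (hval y) h h'
  choose Θ hΘ using hex
  -- points are integral
  have hptint : ∀ (u : WithConv (H →ₐ[R₀] K)) (h : H), v (u h) ≤ 1 := fun u h =>
    val_point_le_one D u.ofConv (hval u.ofConv) h
  have hpow_lt : ∀ x : K, v x ≤ v w → v x ^ (p - 1) < v (p : K) := fun x hx =>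
    lt_of_le_of_lt (pow_le_pow_left' hx _) hw
  have hinv : ∀ u : WithConv (H →ₐ[R₀] K), u ^ (p - 1) * u = 1 := fun u => by
    rw [← pow_succ, hp1, hkill]
  -- `Θ` is injective
  have hinj : Function.Injective Θ := by
    intro y y' hyy'
    have hclose : ∀ h, v (y h - y' h) ≤ v w := by
      intro h
      rw [← val_approx_sub D hsmul y (hval y) y' (hval y') h]
      have e : approx D hsmul y (hval y) h - approx D hsmul y' (hval y') h =
          (Θ y' h - approx D hsmul y' (hval y') h) - (Θ y h - approx D hsmul y (hval y) h) := by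
        rw [hyy']; ring
      rw [e]
      exact (v.map_sub _ _).trans (max_le (hΘ y' h) (hΘ y h))
    have := Separated.eq_of_close_of_isCocomm v hp hp0 hint (w₁ := toConv y) (w₂ := toConv y')
      (u := (toConv y') ^ (p - 1)) (hinv _) (hptint _) (hkill _)
      (fun h => hpow_lt _ (hclose h))
    exact toConv_injective this
  have hsurj : Function.Surjective Θ := Finite.surjective_of_injective hinj
  intro f h
  obtain ⟨y, rfl⟩ := hsurj f
  have hclose : ∀ h, v (σ (Θ y h) - Θ y h) ≤ v w := by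
    intro h
    have e : σ (Θ y h) - Θ y h = σ (Θ y h - approx D hsmul y (hval y) h) -
        (Θ y h - approx D hsmul y (hval y) h) := by
      have hfix : σ (approx D hsmul y (hval y) h) = approx D hsmul y (hval y) h :=
        apply_approx D hsmul y (hval y) (σ : K →+* K) hσW hσβ h
      rw [map_sub, hfix]; ring
    rw [e]
    refine (v.map_sub _ _).trans (max_le ?_ (hΘ y h))
    rw [hσv]
    exact hΘ y h
  have := Separated.comp_eq_of_close_of_isCocomm v hp hp0 hint hkill (w := toConv (Θ y))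
    (u := (toConv (Θ y)) ^ (p - 1)) σ (hinv _) (hptint _) (fun h => hpow_lt _ (hclose h))
  have h2 := congrArg (fun g : WithConv (H →ₐ[R₀] K) => g h) this
  exact h2

end Main

end Fermat.Agent.GP.Flat.PmAsm
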