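/-
GATE-P (S56 long shot) / [P-FLAT] node S56-FLAT-PM-ASM (helper53), frozen-shape wrapper.

`PmAsmFrozen.fixes_points_of_lift` = helper15's PINNED `(P_m)` statement (board 4059 §2, monogenic form, same
binder list in the same order) with ONE extra binder `hlift` = the output of Fontaine's lifting lemma in
the frozen shape (`S56-FLAT-LIFTFROZEN`): every `ℤ_(p)`-linear `y₀ : H → A` with `y₀ 1 = 1` which is
multiplicative modulo `p·w`, `|w|^(p-1) < |p|`, is congruent modulo `w` to a genuine point.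
Proof: `GP/Flat/PmAsm.fixes_points_of_lift` (Eisenstein substitution + separation of points) with
`K = ℚ̄`, `v = A.valuation`, `R₀ = ℤ_(p) = GaloisRep.ratLocalizedAt p`; the substitution is `ℤ_(p)`-linear
by additivity (characteristic `0`), so `ℤ_(p) ⊆ Wb` is NOT needed.
-/
import Mathlib
import Fermat.Prelude.Def_GaloisRep_Flat
import Fermat.Agent.GP.Flat.PmAsm
import Fermat.Agent.GP.Flat.AugInv
import Fermat.Agent.S13.BranchInertia

set_option autoImplicit false
set_option linter.unusedVariables false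
set_option linter.unusedSectionVars false

open Fermat.Agent.Common_helper32
open Polynomial WithConv

namespace Fermat.Agent.GP.Flat.PmAsmFrozen

/-- **Fontaine's property `(P_m)`, `m = p/(p-1)`, monogenic form, from the lifting lemma.** -/
theorem fixes_points_of_lift {p : ℕ} (hp : p.Prime) (hp3 : 3 ≤ p) (A : ValuationSubring Qb)
    (hpA : (p : Qb) ∈ A.nonunits)
    {H : Type} [CommRing H] [HopfAlgebra (GaloisRep.ratLocalizedAt p) H]
    [Module.Finite (GaloisRep.ratLocalizedAt p) H] [Module.Flat (GaloisRep.ratLocalizedAt p) H]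
    [Coalgebra.IsCocomm (GaloisRep.ratLocalizedAt p) H]
    (hkill : ∀ f : WithConv (H →ₐ[GaloisRep.ratLocalizedAt p] Qb), f ^ p = 1)
    (Wb : Subring Qb) (hWA : ∀ t ∈ Wb, t ∈ A)
    (hWu : ∀ t ∈ Wb, t ≠ 0 → ∃ n : ℕ, A.valuation t = A.valuation (p : Qb) ^ n)
    (Pi : Qb) (e : ℕ) (he : 0 < e) (P : Polynomial Qb) (hPm : P.Monic) (hPd : P.natDegree = e)
    (hPW : ∀ i, P.coeff i ∈ Wb) (hPi : P.eval Pi = 0)
    (hPiv : A.valuation Pi ^ e = A.valuation (p : Qb))
    (hval : ∀ (f : H →ₐ[GaloisRep.ratLocalizedAt p] Qb) (h : H), f h ∈ Algebra.adjoin Wb {Pi})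
    (beta : Qb) (hbv : A.valuation beta ^ e = A.valuation (p : Qb))
    (hPb : A.valuation (P.eval beta) ^ (p - 1) < A.valuation (p : Qb) ^ p)
    (hlift : ∀ w : Qb, A.valuation w ^ (p - 1) < A.valuation (p : Qb) →
      ∀ y0 : H →ₗ[GaloisRep.ratLocalizedAt p] Qb, y0 1 = 1 → (∀ h, y0 h ∈ A) →
      (∀ h h', A.valuation (y0 (h * h') - y0 h * y0 h') ≤ A.valuation ((p : Qb) * w)) →
      ∃ χ : H →ₐ[GaloisRep.ratLocalizedAt p] Qb, ∀ h, A.valuation (χ h - y0 h) ≤ A.valuation w)
    (sigma : GQ) (hsA : ∀ x, sigma x ∈ A ↔ x ∈ A) (hsW : ∀ t ∈ Wb, sigma t = t)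
    (hsb : sigma beta = beta) :
    ∀ (f : H →ₐ[GaloisRep.ratLocalizedAt p] Qb) (h : H), sigma (f h) = f h := by
  have hp0 : (p : Qb) ≠ 0 := Nat.cast_ne_zero.mpr hp.ne_zero
  have hA : A.LiesOverPrime p := hpA
  -- the polynomial over `Wb`
  have hcoeffs : (↑P.coeffs : Set Qb) ⊆ Wb := by
    intro c hc
    rw [Finset.mem_coe, Polynomial.mem_coeffs_iff] at hc
    obtain ⟨n, -, rfl⟩ := hc
    exact hPW n
  set P' : Polynomial Wb := P.toSubring Wb hcoeffs with hP'
  have hmap : P'.map (Subring.subtype Wb) = P := Polynomial.map_toSubring P Wb hcoeffs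
  have haeval : ∀ x : Qb, aeval x P' = P.eval x := by
    intro x
    rw [aeval_def, ← eval_map]
    have : (algebraMap Wb Qb) = Subring.subtype Wb := rfl
    rw [this, hmap]
  have hP'd : P'.natDegree = e := by rw [hP', Polynomial.natDegree_toSubring, hPd]
  have D : PmAsm.SubstData A.valuation Wb P' beta (p : Qb) Pi :=
    { hϖ0 := (Valuation.ne_zero_iff _).mpr hp0
      hϖ1 := (ValuationSubring.mem_nonunits_iff (A := A)).mp hpA
      hWA := fun t ht => (A.valuation_le_one_iff t).mpr (hWA t ht)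
      hWu := hWu
      hPm := (Polynomial.monic_toSubring P Wb hcoeffs).mpr hPm
      hPd := by rw [hP'd]; exact he
      hπ := by rw [hP'd]; exact hPiv
      hβ := by rw [hP'd]; exact hbv
      hPπ := by rw [haeval]; exact hPi }
  -- `ℤ_(p)`-linearity of the substitution
  have hsmul : ∀ (r : GaloisRep.ratLocalizedAt p) (Q Q' : Polynomial Wb),
      aeval Pi Q' = algebraMap (GaloisRep.ratLocalizedAt p) Qb r * aeval Pi Q →
      PmAsm.subst Wb P' beta Q' =
        algebraMap (GaloisRep.ratLocalizedAt p) Qb r * PmAsm.subst Wb P' beta Q := by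
    intro r Q Q' h
    have h1 : algebraMap (GaloisRep.ratLocalizedAt p) Qb r = algebraMap ℚ Qb (r : ℚ) := rfl
    have hden : (((r : ℚ).den : ℤ) : Qb) ≠ 0 := by
      have : ((r : ℚ).den : ℤ) ≠ 0 := by exact_mod_cast (r : ℚ).den_ne_zero
      exact_mod_cast this
    refine D.subst_of_int (d := ((r : ℚ).den : ℤ)) (n := (r : ℚ).num) hden ?_ h
    rw [h1]
    have h2 : algebraMap ℚ Qb (r : ℚ) = ((r : ℚ).num : Qb) / (((r : ℚ).den : ℕ) : Qb) := by
      conv_lhs => rw [← Rat.num_div_den (r : ℚ)]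
      rw [map_div₀, map_intCast, map_natCast]
    rw [h2]
    have hden' : (((r : ℚ).den : ℕ) : Qb) ≠ 0 := by exact_mod_cast (r : ℚ).den_ne_zero
    push_cast
    field_simp
  -- the automorphism as a `ℤ_(p)`-algebra map
  let σ : Qb →ₐ[GaloisRep.ratLocalizedAt p] Qb :=
    { (sigma : Qb →+* Qb) with
      commutes' := fun r => AugInv.apply_algebraMap_ratLocalizedAt sigma r }
  have hσv : ∀ x, A.valuation (σ x) = A.valuation x := fun x =>
    Fermat.Agent.S13.Branch.valuation_apply_eq A hp hA (sigma : Qb →+* Qb) hsA x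
  have hint : ∀ r : GaloisRep.ratLocalizedAt p,
      A.valuation (algebraMap (GaloisRep.ratLocalizedAt p) Qb r) ≤ 1 := fun r =>
    (A.valuation_le_one_iff _).mpr (AugInv.algebraMap_ratLocalizedAt_mem hp A hA r)
  have hPβ : A.valuation (aeval beta P') ^ (p - 1) < A.valuation (p : Qb) ^ p := by
    rw [haeval]; exact hPb
  have hlift' : ∀ w : Qb, A.valuation w ^ (p - 1) < A.valuation (p : Qb) →
      ∀ y0 : H →ₗ[GaloisRep.ratLocalizedAt p] Qb, y0 1 = 1 → (∀ h, A.valuation (y0 h) ≤ 1) →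
      (∀ h h', A.valuation (y0 (h * h') - y0 h * y0 h') ≤ A.valuation ((p : Qb) * w)) →
      ∃ χ : H →ₐ[GaloisRep.ratLocalizedAt p] Qb, ∀ h, A.valuation (χ h - y0 h) ≤ A.valuation w :=
    fun w hw y0 h1 hint' hmul =>
      hlift w hw y0 h1 (fun h => (A.valuation_le_one_iff _).mp (hint' h)) hmul
  exact PmAsm.fixes_points_of_lift D hsmul hp hp0 hint hkill hval hPβ hlift' σ hσv hsW hsb

end Fermat.Agent.GP.Flat.PmAsmFrozen
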