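/-
GATE-P (S56 long shot) / [P-FLAT] SEPARATION OF POINTS, HOPF FORM (helper33): consumer-ready
variants of `GP/Flat/Separated.lean` for a finite cocommutative HOPF algebra (the frozen
`GaloisRepAdic.IsFlatAt` datum), where the inverse of a point is `f ∘ antipode` (Mathlib's
`AlgHom.convGroup`) and all values of all points are integral:

* `le_one_of_isIntegral`, `point_le_one`: values of points are integral (`H` finite over `R₀`,
  `|R₀| ≤ 1`).
* `eq_of_close_hopf`: `|w₁ h - w₂ h| ^ (p-1) < |p|` for all `h` gives `w₁ = w₂`.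
* `eq_of_close_common`: two points in the same ball of radius `ω`, `ω ^ (p-1) < |p|`, around an
  arbitrary function `y₀ : H → K` coincide (uniqueness of the lift in Fontaine's lifting lemma).
* `comp_eq_of_close_hopf`: `τ ∘ w = w` when `τ` moves all coordinates of `w` by less than
  `|p|^{1/(p-1)}`; `comp_eq_of_close_common`: `τ ∘ χ = χ` when `χ` is `ω`-close to a `τ`-fixed
  function `y₀` and `τ` is an isometry.
Mathlib + `GP/Flat/{LemmaF, TransInv, Separated}` only.
-/
import Fermat.Agent.GP.Flat.Separated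
import Mathlib.RingTheory.HopfAlgebra.Convolution

set_option autoImplicit false

namespace Fermat.Agent.GP.Flat.SeparatedHopf

open Coalgebra TensorProduct WithConv Polynomial
open Fermat.Agent.GP.Flat.LemmaF Fermat.Agent.GP.Flat.Separated

section Integral

variable {R₀ : Type*} [CommRing R₀] {K : Type*} [Field K] [Algebra R₀ K]
variable {Γ₀ : Type*} [LinearOrderedCommGroupWithZero Γ₀] (v : Valuation K Γ₀)

/-- an element of `K` integral over `R₀` (with `|R₀| ≤ 1`) has `|x| ≤ 1`. -/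
theorem le_one_of_isIntegral (hint : ∀ r : R₀, v (algebraMap R₀ K r) ≤ 1) {x : K}
    (hx : IsIntegral R₀ x) : v x ≤ 1 := by
  obtain ⟨f, hm, hf⟩ := hx
  by_cases hn : f.natDegree = 0
  · rw [Polynomial.natDegree_eq_zero] at hn
    obtain ⟨c, rfl⟩ := hn
    have hc : c = 1 := by
      have := hm.leadingCoeff
      rwa [leadingCoeff_C] at this
    rw [hc, map_one, eval₂_one] at hf
    exact absurd hf one_ne_zero
  simp only [Polynomial.eval₂_eq_sum_range, Finset.sum_range_succ, hm.coeff_natDegree, map_one,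
    one_mul, add_eq_zero_iff_eq_neg] at hf
  apply_fun v at hf
  simp only [Valuation.map_neg, map_pow] at hf
  contrapose! hf
  refine ne_of_lt (v.map_sum_lt ?_ ?_)
  · simp [hn, (hf.trans' (zero_lt_one)).ne']
  · simp only [Finset.mem_range, map_mul, map_pow]
    intro _ hi
    exact mul_lt_of_le_one_of_lt (hint _) <| pow_lt_pow_right₀ hf hi

variable {H : Type*} [CommRing H] [Algebra R₀ H] [Module.Finite R₀ H]

/-- values of `R₀`-algebra homomorphisms out of a finite `R₀`-algebra are integral. -/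
theorem algHom_le_one (hint : ∀ r : R₀, v (algebraMap R₀ K r) ≤ 1) (f : H →ₐ[R₀] K) (h : H) :
    v (f h) ≤ 1 :=
  le_one_of_isIntegral v hint ((Algebra.IsIntegral.isIntegral (R := R₀) h).map f)

end Integral

section Points

variable {R₀ : Type*} [CommRing R₀] {H : Type*} [CommRing H] [HopfAlgebra R₀ H]
variable [Module.Finite R₀ H] [Coalgebra.IsCocomm R₀ H]
variable {K : Type*} [Field K] [Algebra R₀ K]
variable {Γ₀ : Type*} [LinearOrderedCommGroupWithZero Γ₀] (v : Valuation K Γ₀)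

/-- the convolution inverse `f ∘ antipode` of a point. -/
noncomputable def pinv (f : WithConv (H →ₐ[R₀] K)) : WithConv (H →ₐ[R₀] K) :=
  toConv <| f.ofConv.comp (HopfAlgebra.antipodeAlgHom R₀ H)

omit [Module.Finite R₀ H] [Coalgebra.IsCocomm R₀ H] in
theorem pinv_mul_cancel (f : WithConv (H →ₐ[R₀] K)) : pinv f * f = 1 := by
  have H1 : (Algebra.TensorProduct.lmul' R₀).comp (Algebra.TensorProduct.map f.ofConv f.ofConv) =
      f.ofConv.comp (Algebra.TensorProduct.lmul' R₀) := by ext <;> simp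
  trans toConv <| ((Algebra.TensorProduct.lmul' R₀).comp
      (Algebra.TensorProduct.map f.ofConv f.ofConv)).comp
      ((Algebra.TensorProduct.map
      (HopfAlgebra.antipodeAlgHom R₀ H) (.id _ _)).comp (Bialgebra.comulAlgHom R₀ H))
  · rw [AlgHom.comp_assoc, ← AlgHom.comp_assoc (Algebra.TensorProduct.map f.ofConv f.ofConv),
      ← Algebra.TensorProduct.map_comp]; rfl
  rw [H1, AlgHom.comp_assoc, WithConv.ext_iff, ← AlgHom.toLinearMap_injective.eq_iff]
  change f.ofConv.toLinearMap.comp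
      (toConv (HopfAlgebra.antipode R₀ (A := H)) * toConv LinearMap.id).ofConv =
    ofConv (1 : WithConv <| H →ₗ[R₀] K)
  rw [LinearMap.antipode_mul_id]
  ext
  simp

omit [Coalgebra.IsCocomm R₀ H] in
/-- values of points are integral. -/
theorem point_le_one (hint : ∀ r : R₀, v (algebraMap R₀ K r) ≤ 1)
    (f : WithConv (H →ₐ[R₀] K)) (h : H) : v (f h) ≤ 1 :=
  algHom_le_one v hint f.ofConv h

/-- **Separation of points, Hopf form.** -/
theorem eq_of_close_hopf {p : ℕ} (hp : p.Prime) (hp0 : (p : K) ≠ 0)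
    (hint : ∀ r : R₀, v (algebraMap R₀ K r) ≤ 1)
    (hkill : ∀ x : WithConv (H →ₐ[R₀] K), x ^ p = 1)
    {w₁ w₂ : WithConv (H →ₐ[R₀] K)}
    (hclose : ∀ h, v (w₁ h - w₂ h) ^ (p - 1) < v (p : K)) : w₁ = w₂ :=
  eq_of_close_of_isCocomm v hp hp0 hint (u := pinv w₂) (pinv_mul_cancel w₂)
    (fun h => point_le_one v hint _ h) (hkill _) hclose

/-- **Uniqueness of the point in a small ball.**  Two points `χ χ'` which are both `ω`-close to
the same function `y₀`, `ω ^ (p-1) < |p|`, coincide. -/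
theorem eq_of_close_common {p : ℕ} (hp : p.Prime) (hp0 : (p : K) ≠ 0)
    (hint : ∀ r : R₀, v (algebraMap R₀ K r) ≤ 1)
    (hkill : ∀ x : WithConv (H →ₐ[R₀] K), x ^ p = 1)
    {χ χ' : WithConv (H →ₐ[R₀] K)} (y₀ : H → K) {ω : Γ₀} (hω : ω ^ (p - 1) < v (p : K))
    (h1 : ∀ h, v (χ h - y₀ h) ≤ ω) (h2 : ∀ h, v (χ' h - y₀ h) ≤ ω) : χ = χ' := by
  refine eq_of_close_hopf v hp hp0 hint hkill fun h => ?_
  have e : χ h - χ' h = (χ h - y₀ h) - (χ' h - y₀ h) := by ring
  have : v (χ h - χ' h) ≤ ω := by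
    rw [e]
    exact (v.map_sub _ _).trans (max_le (h1 h) (h2 h))
  exact lt_of_le_of_lt (pow_le_pow_left' this _) hω

/-- **Galois form.** -/
theorem comp_eq_of_close_hopf {p : ℕ} (hp : p.Prime) (hp0 : (p : K) ≠ 0)
    (hint : ∀ r : R₀, v (algebraMap R₀ K r) ≤ 1)
    (hkill : ∀ x : WithConv (H →ₐ[R₀] K), x ^ p = 1)
    (w : WithConv (H →ₐ[R₀] K)) (τ : K →ₐ[R₀] K)
    (hclose : ∀ h, v (τ (w h) - w h) ^ (p - 1) < v (p : K)) :
    toConv (τ.comp w.ofConv) = w :=
  eq_of_close_hopf v hp hp0 hint hkill (w₁ := toConv (τ.comp w.ofConv)) (w₂ := w) hclose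

/-- **Galois form with a common approximant.**  `τ` an isometric `R₀`-endomorphism of `K`, `χ` a
point which is `ω`-close to a `τ`-fixed function `y₀`, `ω ^ (p-1) < |p|`.  Then `τ ∘ χ = χ`. -/
theorem comp_eq_of_close_common {p : ℕ} (hp : p.Prime) (hp0 : (p : K) ≠ 0)
    (hint : ∀ r : R₀, v (algebraMap R₀ K r) ≤ 1)
    (hkill : ∀ x : WithConv (H →ₐ[R₀] K), x ^ p = 1)
    (χ : WithConv (H →ₐ[R₀] K)) (τ : K →ₐ[R₀] K) (hτ : ∀ x ω', v x ≤ ω' → v (τ x) ≤ ω')
    (y₀ : H → K) (hy₀ : ∀ h, τ (y₀ h) = y₀ h) {ω : Γ₀} (hω : ω ^ (p - 1) < v (p : K))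
    (h1 : ∀ h, v (χ h - y₀ h) ≤ ω) :
    toConv (τ.comp χ.ofConv) = χ := by
  refine eq_of_close_common v hp hp0 hint hkill y₀ hω (fun h => ?_) h1
  have e : (toConv (τ.comp χ.ofConv) : WithConv (H →ₐ[R₀] K)) h - y₀ h = τ (χ h - y₀ h) := by
    rw [map_sub, hy₀]; rfl
  rw [e]
  exact hτ _ _ (h1 h)

end Points

end Fermat.Agent.GP.Flat.SeparatedHopf
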