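/-
[P-FLAT](iv) of the S56 long shot, node S56-FLAT-PM-HPM (helper5): **the stabiliser form `hPm` of
Fontaine's `(P_m)` in helper26's henselian `ℚ̄`-model, DERIVED from the frozen Hopf datum.**

Model (helper26, `GP/Flat/DvrInst`): `A | p` a valuation subring of `ℚ̄`, `N ⊴ G_ℚ` open,
`L = ℚ̄^{D_A ∩ N}`, `O = locRing A N = A ∩ L`, `G = inertiaQuot A N`, `O₀ = baseSubring A N = O^G`.
Frozen datum: `H` a finite flat cocommutative Hopf algebra over `ℤ_(p) = GaloisRep.ratLocalizedAt p`
whose points are killed by `p`, with `N` = the kernel of `G_ℚ` on the values of the points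
(`hNfix`, `hNker`).

* `hPm_of_lift` : the binder `hPm` of `DvrInst.ad_mul_le_model` / `DvrInst.hPmO_of_stab` VERBATIM, from
  helper53's `PmAsmFrozen.fixes_points_of_lift` with `Wb := ιO(O₀)`, `Pi := toQb π`,
  `P := (orbitPoly₀ O₀ π).map (ιO ∘ subtype)`, `e := |G|`.  Remaining binders: `hlift` (output of
  the lifting lemma, `S56-FLAT-LIFTFROZEN`) and `hgen` (`O = O₀[π]`, helper26 `DvrInst/Gen`).
* `hPmO_model` : the binder `hPmO` of `PmRoot.ad_mul_le_of_pm` / helper28 `KummerCorFinal` in the model.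
* `ad_mul_le_frozen` : the ramification bound `(p - 1) (A' + ∑_{σ ≠ 1} a σ) ≤ p |G|`.
-/
import Mathlib
import Fermat.Agent.GP.Flat.PmAsmFrozen
import Fermat.Agent.GP.Flat.SeparatedHopf
import Fermat.Agent.GP.Flat.DvrInst.Package

set_option autoImplicit false
set_option linter.unusedVariables false
set_option linter.unusedSectionVars false

open scoped Pointwise
open Polynomial IsLocalRing WithConv
open Fermat.Agent.Common_helper32 Fermat.Agent.S13.Global Fermat.Agent.GL.Local.InertiaField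
  Fermat.Agent.GL.Local
open Fermat.Agent.GP.Flat.DvrInst

namespace Fermat.Agent.GP.Flat.PmBoundFrozen

variable (A : ValuationSubring Qb) (N : Subgroup GQ) [hN : N.Normal]
variable {p : ℕ} (hp : p.Prime) (hA : (p : Qb) ∈ A.nonunits)

/-- the image `Wb` of `O₀` in `ℚ̄`. -/
noncomputable def baseImage : Subring Qb := (baseSubring A N).map (ιO A N)

theorem mem_baseImage_iff (t : Qb) :
    t ∈ baseImage A N ↔ ∃ x : locRing A N, x ∈ baseSubring A N ∧ toQb A N x = t := by
  unfold baseImage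
  rw [Subring.mem_map]
  rfl

theorem toQb_mem_baseImage {x : locRing A N} (hx : x ∈ baseSubring A N) :
    toQb A N x ∈ baseImage A N :=
  (mem_baseImage_iff A N _).mpr ⟨x, hx, rfl⟩

/-- the ring map `O₀ → ℚ̄`. -/
noncomputable abbrev jBase : baseSubring A N →+* Qb := (ιO A N).comp (baseSubring A N).subtype

/-- values in `ιO (O₀[π])` lie in `Wb[toQb π]`. -/
theorem ιO_aeval_mem_adjoin (π : locRing A N) (q : (baseSubring A N)[X]) :
    ιO A N (aeval π q) ∈ Algebra.adjoin (baseImage A N) {toQb A N π} := by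
  have hπmem : toQb A N π ∈ Algebra.adjoin (baseImage A N) {toQb A N π} :=
    Algebra.subset_adjoin rfl
  have hcoef : ∀ c : baseSubring A N,
      ιO A N (c : locRing A N) ∈ Algebra.adjoin (baseImage A N) {toQb A N π} := by
    intro c
    have h1 : toQb A N (c : locRing A N) ∈ baseImage A N := toQb_mem_baseImage A N c.2
    exact Subalgebra.algebraMap_mem (Algebra.adjoin (baseImage A N) {toQb A N π})
      (⟨toQb A N (c : locRing A N), h1⟩ : baseImage A N)
  induction q using Polynomial.induction_on' with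
  | add q₁ q₂ h₁ h₂ =>
    rw [map_add, map_add]
    exact Subalgebra.add_mem _ h₁ h₂
  | monomial n c =>
    rw [aeval_monomial, map_mul, map_pow]
    exact Subalgebra.mul_mem _ (hcoef c) (Subalgebra.pow_mem _ hπmem n)

include hp hA in
/-- **The stabiliser form of `(P_m)` in the model, from the lifting lemma.** -/
theorem hPm_of_lift (hp3 : 3 ≤ p) [Fintype (inertiaQuot A N)]
    {H : Type} [CommRing H] [HopfAlgebra (GaloisRep.ratLocalizedAt p) H]
    [Module.Finite (GaloisRep.ratLocalizedAt p) H] [Module.Flat (GaloisRep.ratLocalizedAt p) H]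
    [Coalgebra.IsCocomm (GaloisRep.ratLocalizedAt p) H]
    (hkill : ∀ f : WithConv (H →ₐ[GaloisRep.ratLocalizedAt p] Qb), f ^ p = 1)
    (hNfix : ∀ σ ∈ N, ∀ (f : H →ₐ[GaloisRep.ratLocalizedAt p] Qb) (h : H), σ (f h) = f h)
    (hNker : ∀ σ : GQ,
      (∀ (f : H →ₐ[GaloisRep.ratLocalizedAt p] Qb) (h : H), σ (f h) = f h) → σ ∈ N)
    (π : locRing A N)
    (hπe : A.valuation (p : Qb) = A.valuation (toQb A N π) ^ Fintype.card (inertiaQuot A N))
    (hgen : ∀ x : locRing A N, ∃ q : (baseSubring A N)[X], aeval π q = x)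
    (hlift : ∀ w : Qb, A.valuation w ^ (p - 1) < A.valuation (p : Qb) →
      ∀ y0 : H →ₗ[GaloisRep.ratLocalizedAt p] Qb, y0 1 = 1 → (∀ h, y0 h ∈ A) →
      (∀ h h', A.valuation (y0 (h * h') - y0 h * y0 h') ≤ A.valuation ((p : Qb) * w)) →
      ∃ χ : H →ₐ[GaloisRep.ratLocalizedAt p] Qb, ∀ h, A.valuation (χ h - y0 h) ≤ A.valuation w) :
    ∀ (q : (baseSubring A N)[X]) (β : Qb), q.Monic →
      q.natDegree = Fintype.card (inertiaQuot A N) →
      (q.map ((ιO A N).comp (baseSubring A N).subtype)).eval β = 0 →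
      A.valuation β ^ Fintype.card (inertiaQuot A N) = A.valuation (p : Qb) →
      A.valuation (((PmBound.orbitPoly₀ (baseSubring A N) (hinv A N) π).map
        ((ιO A N).comp (baseSubring A N).subtype)).eval β) ^ (p - 1) < A.valuation (p : Qb) ^ p →
      ∀ σ : GQ, σ ∈ A.decompositionSubgroup ℚ →
        (∀ t : locRing A N, t ∈ baseSubring A N → σ (toQb A N t) = toQb A N t) →
        σ β = β → σ ∈ N := by
  intro q β hqm hqd hβ hvβ hprec σ hσD hσW hσβ
  apply hNker σ
  set e := Fintype.card (inertiaQuot A N) with he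
  have hepos : 0 < e := Fintype.card_pos
  set P : Qb[X] := (PmBound.orbitPoly₀ (baseSubring A N) (hinv A N) π).map (jBase A N) with hP
  have hPmonic : P.Monic := (PmBound.orbitPoly₀_monic (baseSubring A N) (hinv A N) π).map _
  have hPd : P.natDegree = e := by
    rw [hP, (PmBound.orbitPoly₀_monic (baseSubring A N) (hinv A N) π).natDegree_map,
      PmBound.orbitPoly₀_natDegree]
  have hPW : ∀ i, P.coeff i ∈ baseImage A N := by
    intro i
    rw [hP, coeff_map]
    exact toQb_mem_baseImage A N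
      ((PmBound.orbitPoly₀ (baseSubring A N) (hinv A N) π).coeff i).2
  have hPi : P.eval (toQb A N π) = 0 := by
    have h0 : aeval π (PmBound.orbitPoly₀ (baseSubring A N) (hinv A N) π) = 0 := by
      rw [PmBound.aeval_orbitPoly₀]
      refine Finset.prod_eq_zero (Finset.mem_univ (1 : inertiaQuot A N)) ?_
      rw [one_smul]
      exact sub_self _
    rw [PmBound.aeval_eq_eval_map] at h0
    have h1 : P = ((PmBound.orbitPoly₀ (baseSubring A N) (hinv A N) π).map
        (baseSubring A N).subtype).map (ιO A N) := by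
      rw [hP, Polynomial.map_map]
    have h2 : toQb A N π = ιO A N π := rfl
    rw [h1, h2, Polynomial.eval_map_apply, h0, map_zero]
  have hWA : ∀ t ∈ baseImage A N, t ∈ A := by
    intro t ht
    obtain ⟨x, -, rfl⟩ := (mem_baseImage_iff A N t).mp ht
    exact toQb_mem A N x
  have hWu : ∀ t ∈ baseImage A N, t ≠ 0 →
      ∃ n : ℕ, A.valuation t = A.valuation (p : Qb) ^ n := by
    intro t ht ht0
    obtain ⟨x, hx, rfl⟩ := (mem_baseImage_iff A N t).mp ht
    have hx0 : x ≠ 0 := by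
      rintro rfl
      exact ht0 rfl
    exact exists_valuation_eq_pow_of_mem_baseSubring A N hp hA hx hx0
  have hAl : A.LiesOverPrime p := hA
  have hint : ∀ r : GaloisRep.ratLocalizedAt p,
      A.valuation (algebraMap (GaloisRep.ratLocalizedAt p) Qb r) ≤ 1 := fun r =>
    (A.valuation_le_one_iff _).mpr (AugInv.algebraMap_ratLocalizedAt_mem hp A hAl r)
  have hval : ∀ (f : H →ₐ[GaloisRep.ratLocalizedAt p] Qb) (h : H),
      f h ∈ Algebra.adjoin (baseImage A N) {toQb A N π} := by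
    intro f h
    have hfA : f h ∈ A :=
      (A.valuation_le_one_iff _).mp (SeparatedHopf.algHom_le_one A.valuation hint f h)
    have hfL : f h ∈ locField A N :=
      (mem_locField_iff A N _).mpr fun τ _ h2 => hNfix τ h2 f h
    obtain ⟨q', hq'⟩ := hgen ⟨⟨f h, hfL⟩, hfA⟩
    have h1 := ιO_aeval_mem_adjoin A N π q'
    rw [hq'] at h1
    exact h1
  have hsW : ∀ t ∈ baseImage A N, σ t = t := by
    intro t ht
    obtain ⟨x, hx, rfl⟩ := (mem_baseImage_iff A N t).mp ht
    exact hσW x hx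
  exact PmAsmFrozen.fixes_points_of_lift hp hp3 A hA hkill (baseImage A N) hWA hWu (toQb A N π) e
    hepos P hPmonic hPd hPW hPi hπe.symm hval β hvβ hprec hlift σ (fun x => apply_mem_iff hσD x)
    hsW hσβ

include hp hA in
/-- **The binder `hPmO` of `PmRoot.ad_mul_le_of_pm` (and of `KummerCorFinal`) in the model.** -/
theorem hPmO_model (hp3 : 3 ≤ p) (hopen : IsOpen (N : Set GQ)) [Fintype (inertiaQuot A N)]
    {H : Type} [CommRing H] [HopfAlgebra (GaloisRep.ratLocalizedAt p) H]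
    [Module.Finite (GaloisRep.ratLocalizedAt p) H] [Module.Flat (GaloisRep.ratLocalizedAt p) H]
    [Coalgebra.IsCocomm (GaloisRep.ratLocalizedAt p) H]
    (hkill : ∀ f : WithConv (H →ₐ[GaloisRep.ratLocalizedAt p] Qb), f ^ p = 1)
    (hNfix : ∀ σ ∈ N, ∀ (f : H →ₐ[GaloisRep.ratLocalizedAt p] Qb) (h : H), σ (f h) = f h)
    (hNker : ∀ σ : GQ,
      (∀ (f : H →ₐ[GaloisRep.ratLocalizedAt p] Qb) (h : H), σ (f h) = f h) → σ ∈ N)
    (π : locRing A N)
    (hπe : A.valuation (p : Qb) = A.valuation (toQb A N π) ^ Fintype.card (inertiaQuot A N))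
    (hgen : ∀ x : locRing A N, ∃ q : (baseSubring A N)[X], aeval π q = x)
    (hlift : ∀ w : Qb, A.valuation w ^ (p - 1) < A.valuation (p : Qb) →
      ∀ y0 : H →ₗ[GaloisRep.ratLocalizedAt p] Qb, y0 1 = 1 → (∀ h, y0 h ∈ A) →
      (∀ h h', A.valuation (y0 (h * h') - y0 h * y0 h') ≤ A.valuation ((p : Qb) * w)) →
      ∃ χ : H →ₐ[GaloisRep.ratLocalizedAt p] Qb, ∀ h, A.valuation (χ h - y0 h) ≤ A.valuation w) :
    ∀ (q : (baseSubring A N)[X]) (β : Qb), q.Monic →
      q.natDegree = Fintype.card (inertiaQuot A N) →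
      (q.map ((ιO A N).comp (baseSubring A N).subtype)).eval β = 0 →
      A.valuation β ^ Fintype.card (inertiaQuot A N) = A.valuation (p : Qb) →
      A.valuation (((PmBound.orbitPoly₀ (baseSubring A N) (hinv A N) π).map
        ((ιO A N).comp (baseSubring A N).subtype)).eval β) ^ (p - 1) < A.valuation (p : Qb) ^ p →
      ∃ x : locRing A N, ιO A N x = β :=
  hPmO_of_stab A N hopen π p ((A.mem_nonunits_iff).mp hA)
    (hPm_of_lift A N hp hA hp3 hkill hNfix hNker π hπe hgen hlift)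

include hp hA in
/-- **The ramification bound for the field of points of a finite flat group scheme killed by
`p`** (in helper26's model; `hlift`, `hgen` are the two remaining binders). -/
theorem ad_mul_le_frozen (hp3 : 3 ≤ p) (hopen : IsOpen (N : Set GQ))
    [Fintype (inertiaQuot A N)] [DecidableEq (inertiaQuot A N)]
    {H : Type} [CommRing H] [HopfAlgebra (GaloisRep.ratLocalizedAt p) H]
    [Module.Finite (GaloisRep.ratLocalizedAt p) H] [Module.Flat (GaloisRep.ratLocalizedAt p) H]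
    [Coalgebra.IsCocomm (GaloisRep.ratLocalizedAt p) H]
    (hkill : ∀ f : WithConv (H →ₐ[GaloisRep.ratLocalizedAt p] Qb), f ^ p = 1)
    (hNfix : ∀ σ ∈ N, ∀ (f : H →ₐ[GaloisRep.ratLocalizedAt p] Qb) (h : H), σ (f h) = f h)
    (hNker : ∀ σ : GQ,
      (∀ (f : H →ₐ[GaloisRep.ratLocalizedAt p] Qb) (h : H), σ (f h) = f h) → σ ∈ N)
    (π : locRing A N) (hπ : Irreducible π) (hπ1 : toQb A N π ∈ A.nonunits)
    (hπe : A.valuation (p : Qb) = A.valuation (toQb A N π) ^ Fintype.card (inertiaQuot A N))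
    (ε₀ : (locRing A N)ˣ)
    (hε : ((p : ℕ) : locRing A N) = ε₀ * π ^ Fintype.card (inertiaQuot A N))
    (a : inertiaQuot A N → ℕ) (t : inertiaQuot A N → (locRing A N)ˣ)
    (ha : ∀ σ : inertiaQuot A N, σ ≠ 1 → σ • π - π = t σ * π ^ a σ)
    (A' : ℕ) (hA2 : 2 ≤ A') (hAle : ∀ σ : inertiaQuot A N, σ ≠ 1 → a σ ≤ A')
    (hAex : ∃ σ : inertiaQuot A N, σ ≠ 1 ∧ a σ = A')
    (hgen : ∀ x : locRing A N, ∃ q : (baseSubring A N)[X], aeval π q = x)
    (hlift : ∀ w : Qb, A.valuation w ^ (p - 1) < A.valuation (p : Qb) →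
      ∀ y0 : H →ₗ[GaloisRep.ratLocalizedAt p] Qb, y0 1 = 1 → (∀ h, y0 h ∈ A) →
      (∀ h h', A.valuation (y0 (h * h') - y0 h * y0 h') ≤ A.valuation ((p : Qb) * w)) →
      ∃ χ : H →ₐ[GaloisRep.ratLocalizedAt p] Qb, ∀ h, A.valuation (χ h - y0 h) ≤ A.valuation w) :
    (p - 1) * (A' + ∑ σ ∈ Finset.univ.erase (1 : inertiaQuot A N), a σ) ≤
      p * Fintype.card (inertiaQuot A N) :=
  ad_mul_le_model A N hp hA hopen π hπ hπ1 hπe ε₀ hε a t ha A' hA2 hAle hAex
    (hPm_of_lift A N hp hA hp3 hkill hNfix hNker π hπe hgen hlift)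

end Fermat.Agent.GP.Flat.PmBoundFrozen
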