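/-
[P-FLAT](iv) of the S56 long shot, node S56-FLAT-PM-HPM part 2 (helper5): `PmBoundFrozen` with the
binder `hgen` (`O = O₀[π]`) DISCHARGED by helper26's `DvrInst.hgen` (`GP/Flat/DvrInst/Gen.lean`).
The only binder left on the whole (iv) chain is `hlift` (the output of Fontaine's lifting lemma in
the frozen shape, `S56-FLAT-LIFTFROZEN`).

* `hPm_of_lift'`, `hPmO_model'` : the stabiliser form of `(P_m)` / the binder `hPmO` of
  `PmRoot.ad_mul_le_of_pm` and `KummerCorFinal` in the model, for every uniformiser `π` with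
  `v p = v(π)^{|G|}`.
* `ad_mul_le_frozen'` : the ramification bound.
-/
import Mathlib
import Fermat.Agent.GP.Flat.PmBoundFrozen
import Fermat.Agent.GP.Flat.DvrInst.Gen

set_option autoImplicit false
set_option linter.unusedVariables false
set_option linter.unusedSectionVars false

open scoped Pointwise
open Polynomial IsLocalRing WithConv
open Fermat.Agent.Common_helper32 Fermat.Agent.S13.Global Fermat.Agent.GL.Local.InertiaField
  Fermat.Agent.GL.Local
open Fermat.Agent.GP.Flat.DvrInst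

namespace Fermat.Agent.GP.Flat.PmBoundFrozen

variable (A : ValuationSubring Qb) (N : Subgroup GQ) [hN : N.Normal]
variable {p : ℕ} (hp : p.Prime) (hA : (p : Qb) ∈ A.nonunits)

include hp hA in
/-- `hgen` in the `Fintype.card` normalisation. -/
theorem hgen_model (hopen : IsOpen (N : Set GQ)) [Fintype (inertiaQuot A N)]
    (π : locRing A N) (hπ1 : toQb A N π ∈ A.nonunits)
    (hπe : A.valuation (p : Qb) = A.valuation (toQb A N π) ^ Fintype.card (inertiaQuot A N))
    (x : locRing A N) : ∃ q : (baseSubring A N)[X], aeval π q = x :=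
  hgen A N hp hA hopen hπ1 (by rw [Nat.card_eq_fintype_card]; exact hπe) x

include hp hA in
/-- **The stabiliser form of `(P_m)` in the model; only `hlift` is left.** -/
theorem hPm_of_lift' (hp3 : 3 ≤ p) (hopen : IsOpen (N : Set GQ)) [Fintype (inertiaQuot A N)]
    {H : Type} [CommRing H] [HopfAlgebra (GaloisRep.ratLocalizedAt p) H]
    [Module.Finite (GaloisRep.ratLocalizedAt p) H] [Module.Flat (GaloisRep.ratLocalizedAt p) H]
    [Coalgebra.IsCocomm (GaloisRep.ratLocalizedAt p) H]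
    (hkill : ∀ f : WithConv (H →ₐ[GaloisRep.ratLocalizedAt p] Qb), f ^ p = 1)
    (hNfix : ∀ σ ∈ N, ∀ (f : H →ₐ[GaloisRep.ratLocalizedAt p] Qb) (h : H), σ (f h) = f h)
    (hNker : ∀ σ : GQ,
      (∀ (f : H →ₐ[GaloisRep.ratLocalizedAt p] Qb) (h : H), σ (f h) = f h) → σ ∈ N)
    (π : locRing A N) (hπ1 : toQb A N π ∈ A.nonunits)
    (hπe : A.valuation (p : Qb) = A.valuation (toQb A N π) ^ Fintype.card (inertiaQuot A N))
    (hlift : ∀ w : Qb, A.valuation w ^ (p - 1) < A.valuation (p : Qb) →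
      ∀ y0 : H →ₗ[GaloisRep.ratLocalizedAt p] Qb, y0 1 = 1 → (∀ h, y0 h ∈ A) →
      (∀ h h', A.valuation (y0 (h * h') - y0 h * y0 h') ≤ A.valuation ((p : Qb) * w)) →
      ∃ χ : H →ₐ[GaloisRep.ratLocalizedAt p] Qb, ∀ h, A.valuation (χ h - y0 h) ≤ A.valuation w) :
    ∀ (q : (baseSubring A N)[X]) (β : Qb), q.Monic →
      q.natDegree = Fintype.card (inertiaQuot A N) →
      (q.map ((ιO A N).comp (baseSubring A N).subtype)).eval β = 0 →
      A.valuation β ^ Fintype.card (inertiaQuot A N) = A.valuation (p : Qb) →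
      A.valuation (((PmBound.orbitPoly₀ (baseSubring A N) (hinv A N) π).map
        ((ιO A N).comp (baseSubring A N).subtype)).eval β) ^ (p - 1) < A.valuation (p : Qb) ^ p →
      ∀ σ : GQ, σ ∈ A.decompositionSubgroup ℚ →
        (∀ t : locRing A N, t ∈ baseSubring A N → σ (toQb A N t) = toQb A N t) →
        σ β = β → σ ∈ N :=
  hPm_of_lift A N hp hA hp3 hkill hNfix hNker π hπe (hgen_model A N hp hA hopen π hπ1 hπe) hlift

include hp hA in
/-- **The binder `hPmO` in the model; only `hlift` is left.** -/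
theorem hPmO_model' (hp3 : 3 ≤ p) (hopen : IsOpen (N : Set GQ)) [Fintype (inertiaQuot A N)]
    {H : Type} [CommRing H] [HopfAlgebra (GaloisRep.ratLocalizedAt p) H]
    [Module.Finite (GaloisRep.ratLocalizedAt p) H] [Module.Flat (GaloisRep.ratLocalizedAt p) H]
    [Coalgebra.IsCocomm (GaloisRep.ratLocalizedAt p) H]
    (hkill : ∀ f : WithConv (H →ₐ[GaloisRep.ratLocalizedAt p] Qb), f ^ p = 1)
    (hNfix : ∀ σ ∈ N, ∀ (f : H →ₐ[GaloisRep.ratLocalizedAt p] Qb) (h : H), σ (f h) = f h)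
    (hNker : ∀ σ : GQ,
      (∀ (f : H →ₐ[GaloisRep.ratLocalizedAt p] Qb) (h : H), σ (f h) = f h) → σ ∈ N)
    (π : locRing A N) (hπ1 : toQb A N π ∈ A.nonunits)
    (hπe : A.valuation (p : Qb) = A.valuation (toQb A N π) ^ Fintype.card (inertiaQuot A N))
    (hlift : ∀ w : Qb, A.valuation w ^ (p - 1) < A.valuation (p : Qb) →
      ∀ y0 : H →ₗ[GaloisRep.ratLocalizedAt p] Qb, y0 1 = 1 → (∀ h, y0 h ∈ A) →
      (∀ h h', A.valuation (y0 (h * h') - y0 h * y0 h') ≤ A.valuation ((p : Qb) * w)) →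
      ∃ χ : H →ₐ[GaloisRep.ratLocalizedAt p] Qb, ∀ h, A.valuation (χ h - y0 h) ≤ A.valuation w) :
    ∀ (q : (baseSubring A N)[X]) (β : Qb), q.Monic →
      q.natDegree = Fintype.card (inertiaQuot A N) →
      (q.map ((ιO A N).comp (baseSubring A N).subtype)).eval β = 0 →
      A.valuation β ^ Fintype.card (inertiaQuot A N) = A.valuation (p : Qb) →
      A.valuation (((PmBound.orbitPoly₀ (baseSubring A N) (hinv A N) π).map
        ((ιO A N).comp (baseSubring A N).subtype)).eval β) ^ (p - 1) < A.valuation (p : Qb) ^ p →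
      ∃ x : locRing A N, ιO A N x = β :=
  hPmO_model A N hp hA hp3 hopen hkill hNfix hNker π hπe
    (hgen_model A N hp hA hopen π hπ1 hπe) hlift

include hp hA in
/-- **The ramification bound; only `hlift` is left.** -/
theorem ad_mul_le_frozen' (hp3 : 3 ≤ p) (hopen : IsOpen (N : Set GQ))
    [Fintype (inertiaQuot A N)] [DecidableEq (inertiaQuot A N)]
    {H : Type} [CommRing H] [HopfAlgebra (GaloisRep.ratLocalizedAt p) H]
    [Module.Finite (GaloisRep.ratLocalizedAt p) H] [Module.Flat (GaloisRep.ratLocalizedAt p) H]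
    [Coalgebra.IsCocomm (GaloisRep.ratLocalizedAt p) H]
    (hkill : ∀ f : WithConv (H →ₐ[GaloisRep.ratLocalizedAt p] Qb), f ^ p = 1)
    (hNfix : ∀ σ ∈ N, ∀ (f : H →ₐ[GaloisRep.ratLocalizedAt p] Qb) (h : H), σ (f h) = f h)
    (hNker : ∀ σ : GQ,
      (∀ (f : H →ₐ[GaloisRep.ratLocalizedAt p] Qb) (h : H), σ (f h) = f h) → σ ∈ N)
    (π : locRing A N) (hπ : Irreducible π) (hπ1 : toQb A N π ∈ A.nonunits)
    (hπe : A.valuation (p : Qb) = A.valuation (toQb A N π) ^ Fintype.card (inertiaQuot A N))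
    (ε₀ : (locRing A N)ˣ)
    (hε : ((p : ℕ) : locRing A N) = ε₀ * π ^ Fintype.card (inertiaQuot A N))
    (a : inertiaQuot A N → ℕ) (t : inertiaQuot A N → (locRing A N)ˣ)
    (ha : ∀ σ : inertiaQuot A N, σ ≠ 1 → σ • π - π = t σ * π ^ a σ)
    (A' : ℕ) (hA2 : 2 ≤ A') (hAle : ∀ σ : inertiaQuot A N, σ ≠ 1 → a σ ≤ A')
    (hAex : ∃ σ : inertiaQuot A N, σ ≠ 1 ∧ a σ = A')
    (hlift : ∀ w : Qb, A.valuation w ^ (p - 1) < A.valuation (p : Qb) →
      ∀ y0 : H →ₗ[GaloisRep.ratLocalizedAt p] Qb, y0 1 = 1 → (∀ h, y0 h ∈ A) →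
      (∀ h h', A.valuation (y0 (h * h') - y0 h * y0 h') ≤ A.valuation ((p : Qb) * w)) →
      ∃ χ : H →ₐ[GaloisRep.ratLocalizedAt p] Qb, ∀ h, A.valuation (χ h - y0 h) ≤ A.valuation w) :
    (p - 1) * (A' + ∑ σ ∈ Finset.univ.erase (1 : inertiaQuot A N), a σ) ≤
      p * Fintype.card (inertiaQuot A N) :=
  ad_mul_le_frozen A N hp hA hp3 hopen hkill hNfix hNker π hπ hπ1 hπe ε₀ hε a t ha A' hA2 hAle
    hAex (hgen_model A N hp hA hopen π hπ1 hπe) hlift

end Fermat.Agent.GP.Flat.PmBoundFrozen
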