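/-
GATE-P / S56 [P-FLAT](iv), node S56-FLAT-KBQB part 4 (helper14): **from the frozen `IsFlatAt` to the
binders of the `(P_m)` chain**.

For a Galois representation `ρ` over a FINITE local ring `R` killed by `p` which is flat at `p`
(frozen `GaloisRepAdic.IsFlatAt`, used at the level `I = ⊥`):

* `exists_hopf_of_isFlatAt` : there is ONE finite flat cocommutative Hopf algebra `H` over `ℤ_(p)` whose
  `ℚ̄`-points are killed by `p` (`hkill`) and such that `σ` fixes all point values iff `ρ σ = 1`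
  (`hNfix`, `hNker` of helper5 `PmBoundFrozen.hPm_of_lift'` for `N = ker ρ`).
* `mem_fixMu_of_detIsCyclotomic` : with `DetIsCyclotomic p`, `ker ρ` fixes `μ_p`; so `N = ker ρ ⊓ Fix μ_p`
  (helper36's `ssN` shape) is still the EXACT kernel of the point values.
* `LiftAll A p` : helper15's `LiftFrozen.exists_point_lift` (Fontaine's lifting lemma in the frozen
  shape) quantified over all `H` — the ONE binder left on the (iv) chain.
* `hPm_of_isFlatAt` : the stabiliser form `hPm` of `(P_m)` in helper26's model for such an `N`.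
-/
import Mathlib
import Fermat.Agent.GP.Flat.AugInv
import Fermat.Agent.GP.Flat.PmBoundFrozenGen
import Fermat.Agent.GP.Flat.SSGKOpen
import Fermat.Agent.GP.Tan.Cocycle

set_option autoImplicit false
set_option linter.unusedSectionVars false
set_option linter.unusedVariables false

open scoped Pointwise
open Polynomial IsLocalRing WithConv
open Fermat.Agent.Common_helper32 Fermat.Agent.S13.Global Fermat.Agent.GL.Local.InertiaField
  Fermat.Agent.GL.Local Fermat.Agent.GP.Flat.DvrInst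

namespace Fermat.Agent.GP.Flat.KbFlat

open Fermat.Agent.GP.Flat.AugInv

/-! ### The abstract extraction -/

section Abstract

variable {p : ℕ} {H : Type} [CommRing H] [Bialgebra (GaloisRep.ratLocalizedAt p) H]
  [Module.Finite (GaloisRep.ratLocalizedAt p) H]
  {V : Type*} [AddCommGroup V] (act : GQ → V → V)
  (e : WithConv (H →ₐ[GaloisRep.ratLocalizedAt p] Qb) ≃ V)
  (he_mul : ∀ f g : WithConv (H →ₐ[GaloisRep.ratLocalizedAt p] Qb), e (f * g) = e f + e g)
  (he_equiv : ∀ (σ : GQ) (f g : WithConv (H →ₐ[GaloisRep.ratLocalizedAt p] Qb)),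
    (∀ h : H, g h = σ (f h)) → e g = act σ (e f))

include he_mul in
theorem pow_eq_one_of_frozen (hV : ∀ u : V, p • u = 0)
    (f : WithConv (H →ₐ[GaloisRep.ratLocalizedAt p] Qb)) : f ^ p = 1 := by
  have he1 : e 1 = 0 := by
    have := he_mul 1 1
    rw [mul_one] at this
    exact left_eq_add.mp this
  have hepow : ∀ (f : WithConv (H →ₐ[GaloisRep.ratLocalizedAt p] Qb)) (n : ℕ),
      e (f ^ n) = n • e f := by
    intro f n
    induction n with
    | zero => rw [pow_zero, zero_smul, he1]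
    | succ n ih => rw [pow_succ, he_mul, ih, succ_nsmul]
  apply e.injective
  rw [hepow, hV, he1]

include he_equiv in
theorem apply_eq_of_act_eq {σ : GQ} (hσ : ∀ u : V, act σ u = u)
    (f : H →ₐ[GaloisRep.ratLocalizedAt p] Qb) (h : H) : σ (f h) = f h := by
  have h1 : galAct σ (fun r => apply_algebraMap_ratLocalizedAt σ r) (toConv f) = toConv f := by
    apply e.injective
    rw [he_equiv σ (toConv f) _ fun h => galAct_apply σ _ (toConv f) h, hσ]
  have h2 := galAct_apply σ (fun r => apply_algebraMap_ratLocalizedAt σ r) (toConv f) h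
  rw [h1] at h2
  exact h2.symm

include he_equiv in
theorem act_eq_of_apply_eq {σ : GQ}
    (hσ : ∀ (f : H →ₐ[GaloisRep.ratLocalizedAt p] Qb) (h : H), σ (f h) = f h) (u : V) :
    act σ u = u := by
  have h1 := he_equiv σ (e.symm u) (e.symm u) fun h => (hσ (e.symm u).ofConv h).symm
  rw [e.apply_symm_apply] at h1
  exact h1.symm

end Abstract

/-! ### Extraction from the frozen `IsFlatAt` -/

section Frozen

variable {R : Type} [CommRing R] [IsLocalRing R]

/-- the level-`⊥` action is trivial iff `ρ σ = 1`. -/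
theorem levelAction_bot_eq_iff (ρ : GaloisRepAdic R) (σ : GQ) :
    (∀ u : ρ.V ⧸ ((⊥ : Ideal R) • (⊤ : Submodule R ρ.V)), ρ.levelAction ⊥ σ u = u) ↔
      ρ.ρ σ = 1 := by
  constructor
  · intro h
    refine LinearMap.ext fun x => ?_
    have h1 := h (Submodule.Quotient.mk x)
    have h2 : ρ.levelAction ⊥ σ (Submodule.Quotient.mk x) = Submodule.Quotient.mk (ρ.ρ σ x) := rfl
    rw [h2, Submodule.Quotient.eq, Submodule.bot_smul, Submodule.mem_bot, sub_eq_zero] at h1
    rw [h1]; rfl
  · intro h u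
    induction u using Submodule.Quotient.induction_on with
    | H x =>
      have h2 : ρ.levelAction ⊥ σ (Submodule.Quotient.mk x) = Submodule.Quotient.mk (ρ.ρ σ x) := rfl
      rw [h2, h]; rfl

/-- **The Hopf algebra of a flat representation over a finite ring killed by `p`.** -/
theorem exists_hopf_of_isFlatAt [Finite R] (ρ : GaloisRepAdic R) {p : ℕ} (hpR : (p : R) = 0)
    (hflat : ρ.IsFlatAt p) :
    ∃ (H : Type) (_ : CommRing H) (_ : HopfAlgebra (GaloisRep.ratLocalizedAt p) H),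
      Module.Finite (GaloisRep.ratLocalizedAt p) H ∧ Module.Flat (GaloisRep.ratLocalizedAt p) H ∧
      Coalgebra.IsCocomm (GaloisRep.ratLocalizedAt p) H ∧
      (∀ f : WithConv (H →ₐ[GaloisRep.ratLocalizedAt p] Qb), f ^ p = 1) ∧
      (∀ σ : GQ, ρ.ρ σ = 1 →
        ∀ (f : H →ₐ[GaloisRep.ratLocalizedAt p] Qb) (h : H), σ (f h) = f h) ∧
      (∀ σ : GQ, (∀ (f : H →ₐ[GaloisRep.ratLocalizedAt p] Qb) (h : H), σ (f h) = f h) →
        ρ.ρ σ = 1) := by
  obtain ⟨_, hH⟩ := hflat
  have hfinq : Finite (R ⧸ (⊥ : Ideal R)) :=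
    Finite.of_surjective (Ideal.Quotient.mk (⊥ : Ideal R)) Ideal.Quotient.mk_surjective
  obtain ⟨H, i1, i2, hfin, hfl, hco, e, he_mul, he_equiv⟩ := hH ⊥ hfinq
  refine ⟨H, i1, i2, hfin, hfl, hco, ?_, ?_, ?_⟩
  · refine pow_eq_one_of_frozen e he_mul ?_
    intro u
    induction u using Submodule.Quotient.induction_on with
    | H x =>
      rw [← Submodule.Quotient.mk_smul, ← Nat.cast_smul_eq_nsmul R, hpR, zero_smul]
      rfl
  · intro σ hσ
    exact apply_eq_of_act_eq (fun σ u => ρ.levelAction ⊥ σ u) e he_equiv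
      ((levelAction_bot_eq_iff ρ σ).2 hσ)
  · intro σ hσ
    exact (levelAction_bot_eq_iff ρ σ).1
      (act_eq_of_apply_eq (fun σ u => ρ.levelAction ⊥ σ u) e he_equiv hσ)

/-- with cyclotomic determinant, the kernel of `ρ` fixes `μ_p` (`R` killed by `p`). -/
theorem mem_fixMu_of_detIsCyclotomic (ρ : GaloisRepAdic R) {p : ℕ} (hp : p.Prime)
    (hpR : (p : R) = 0) (hdet : ρ.DetIsCyclotomic p) {σ : GQ} (hσ : ρ.ρ σ = 1) :
    σ ∈ Fermat.Agent.GP.Flat.SSGK.fixMu p := by
  obtain ⟨a, ha⟩ := Fermat.Agent.GP.Tan.Cocycle.exists_nat_pow_of_aut p hp.pos σ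
  have h1 := hdet.2 1 σ a (by simpa using ha)
  rw [pow_one, hpR, Ideal.span_singleton_eq_bot.mpr rfl, Ideal.mem_bot, sub_eq_zero, hσ,
    map_one] at h1
  -- `(a : R) = 1` forces `a ≡ 1 mod p`
  have hchar : CharP R p := by
    have hdvd : ringChar R ∣ p := (ringChar.spec R p).1 hpR
    rcases (Nat.dvd_prime hp).1 hdvd with h | h
    · exact absurd h (CharP.ringChar_ne_one)
    · rw [← h]; exact ringChar.charP R
  have hmod : a % p = 1 % p := by
    have h2 : ((a : ℕ) : R) = ((1 : ℕ) : R) := by rw [← h1, Nat.cast_one]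
    exact (CharP.natCast_eq_natCast R p).1 h2
  intro μ hμ
  rw [ha μ hμ]
  have h3 : μ ^ a = μ ^ (a % p) := by
    conv_lhs => rw [← Nat.div_add_mod a p, pow_add, pow_mul, hμ, one_pow, one_mul]
  rw [h3, hmod, Nat.mod_eq_of_lt hp.one_lt, pow_one]

end Frozen

/-! ### The lifting lemma as a binder, and `hPm` -/

/-- **helper15's `LiftFrozen.exists_point_lift` quantified over all `H`** (Fontaine's lifting lemma in
the frozen shape): the one binder left on the (iv) chain. -/
def LiftAll (A : ValuationSubring Qb) (p : ℕ) : Prop :=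
  ∀ (H : Type) [CommRing H] [HopfAlgebra (GaloisRep.ratLocalizedAt p) H]
    [Module.Finite (GaloisRep.ratLocalizedAt p) H] [Module.Flat (GaloisRep.ratLocalizedAt p) H]
    [Coalgebra.IsCocomm (GaloisRep.ratLocalizedAt p) H],
    (∀ f : WithConv (H →ₐ[GaloisRep.ratLocalizedAt p] Qb), f ^ p = 1) →
    ∀ w : Qb, A.valuation w ^ (p - 1) < A.valuation (p : Qb) →
      ∀ y0 : H →ₗ[GaloisRep.ratLocalizedAt p] Qb, y0 1 = 1 → (∀ h, y0 h ∈ A) →
      (∀ h h', A.valuation (y0 (h * h') - y0 h * y0 h') ≤ A.valuation ((p : Qb) * w)) →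
      ∃ χ : H →ₐ[GaloisRep.ratLocalizedAt p] Qb, ∀ h, A.valuation (χ h - y0 h) ≤ A.valuation w

section Pm

variable (A : ValuationSubring Qb) (N : Subgroup GQ) [hN : N.Normal]
variable {p : ℕ} (hp : p.Prime) (hA : (p : Qb) ∈ A.nonunits)
variable {R : Type} [CommRing R] [IsLocalRing R]

include hp hA in
/-- **`hPm` (stabiliser form of `(P_m)`) for the field cut out by a flat representation.** -/
theorem hPm_of_isFlatAt (hp3 : 3 ≤ p) (hopen : IsOpen (N : Set GQ)) [Fintype (inertiaQuot A N)]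
    [Finite R] (ρ : GaloisRepAdic R) (hpR : (p : R) = 0) (hflat : ρ.IsFlatAt p)
    (hN1 : ∀ σ ∈ N, ρ.ρ σ = 1) (hN2 : ∀ σ : GQ, ρ.ρ σ = 1 → σ ∈ N)
    (hlift : LiftAll A p)
    (π : locRing A N) (hπ1 : toQb A N π ∈ A.nonunits)
    (hπe : A.valuation (p : Qb) = A.valuation (toQb A N π) ^ Fintype.card (inertiaQuot A N)) :
    ∀ (q : (baseSubring A N)[X]) (β : Qb), q.Monic →
      q.natDegree = Fintype.card (inertiaQuot A N) →
      (q.map ((ιO A N).comp (baseSubring A N).subtype)).eval β = 0 →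
      A.valuation β ^ Fintype.card (inertiaQuot A N) = A.valuation (p : Qb) →
      A.valuation (((PmBound.orbitPoly₀ (baseSubring A N) (DvrInst.hinv A N) π).map
        ((ιO A N).comp (baseSubring A N).subtype)).eval β) ^ (p - 1) < A.valuation (p : Qb) ^ p →
      ∀ σ : GQ, σ ∈ A.decompositionSubgroup ℚ →
        (∀ t : locRing A N, t ∈ baseSubring A N → σ (toQb A N t) = toQb A N t) →
        σ β = β → σ ∈ N := by
  obtain ⟨H, i1, i2, hfin, hfl, hco, hkill, hfix, hker⟩ := exists_hopf_of_isFlatAt ρ hpR hflat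
  exact PmBoundFrozen.hPm_of_lift' A N hp hA hp3 hopen hkill (fun σ hσ => hfix σ (hN1 σ hσ))
    (fun σ hσ => hN2 σ (hker σ hσ)) π hπ1 hπe (hlift H hkill)

end Pm

end Fermat.Agent.GP.Flat.KbFlat
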