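/-
GATE-P / S56 [P-FLAT](iv), node S56-FLAT-KBQB part 2 (helper14): helper28's final abstract theorems
`KummerCorFinal.kummer_level_ge_of_pm` / `kummer_val_false_of_pm` **instantiated in helper26's
henselian `ℚ̄`-model** (`O = locRing A N`, `G = inertiaQuot A N`, `O₀ = baseSubring A N`), in
VALUATION form: every binder is discharged except the stabiliser form `hPm` of Fontaine's `(P_m)`
(the same binder as `DvrInst.ad_mul_le_model`).
-/
import Mathlib
import Fermat.Agent.GP.Flat.DvrInst.Package
import Fermat.Agent.GP.Flat.KummerCorFinal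

set_option autoImplicit false
set_option linter.unusedSectionVars false

open scoped Pointwise
open Polynomial IsLocalRing
open IsDiscreteValuationRing (addVal)
open Fermat.Agent.Common_helper32 Fermat.Agent.S13.Global Fermat.Agent.GL.Local.InertiaField
  Fermat.Agent.GL.Local Fermat.Agent.GP.Flat.DvrInst

namespace Fermat.Agent.GP.Flat.KbModel

variable (A : ValuationSubring Qb) (N : Subgroup GQ) [hN : N.Normal]
variable {p : ℕ} (hp : p.Prime) (hA : (p : Qb) ∈ A.nonunits)

/-! ### The dictionary `addVal ↔ A.valuation` -/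

section Dict

variable [IsDiscreteValuationRing (locRing A N)]
variable {π : locRing A N} (hπ : Irreducible π) (hπ1 : toQb A N π ∈ A.nonunits)

theorem val_toQb_unit {x : locRing A N} (hx : IsUnit x) : A.valuation (toQb A N x) = 1 :=
  PmRoot.val_unit (v := A.valuation) (ι := ιO A N)
    (fun x => (A.valuation_le_one_iff _).mpr (toQb_mem A N x)) hx

include hπ in
/-- `v(x) = v(π)^{addVal x}`. -/
theorem val_toQb_eq_pow {x : locRing A N} (hx : x ≠ 0) {n : ℕ}
    (hn : addVal (locRing A N) x = n) :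
    A.valuation (toQb A N x) = A.valuation (toQb A N π) ^ n := by
  obtain ⟨m, u, hu⟩ := IsDiscreteValuationRing.eq_unit_mul_pow_irreducible hx hπ
  have hm : addVal (locRing A N) x = m := IsDiscreteValuationRing.addVal_def x u hπ m hu
  have hnm : n = m := by
    rw [hn] at hm
    exact_mod_cast hm
  subst hnm
  have h1 : toQb A N x = toQb A N (u : locRing A N) * toQb A N π ^ n := by
    have := congrArg (ιO A N) hu
    rw [map_mul, map_pow] at this
    exact this
  rw [h1, map_mul, map_pow, val_toQb_unit A N u.isUnit, one_mul]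

include hπ hπ1 in
/-- `addVal x = n` as soon as `v(x) = v(π)^n`. -/
theorem addVal_eq_of_val_eq {x : locRing A N} {n : ℕ}
    (hn : A.valuation (toQb A N x) = A.valuation (toQb A N π) ^ n) :
    addVal (locRing A N) x = n := by
  have hπ0 : toQb A N π ≠ 0 := by
    intro h0
    exact hπ.ne_zero (toQb_injective A N (by rw [h0]; rfl))
  have hvπ0 : 0 < A.valuation (toQb A N π) := (A.valuation.pos_iff).mpr hπ0
  have hvπ1 : A.valuation (toQb A N π) < 1 := (A.mem_nonunits_iff).mp hπ1
  have hx : x ≠ 0 := by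
    rintro rfl
    have h0 : toQb A N (0 : locRing A N) = 0 := rfl
    rw [h0, map_zero] at hn
    exact (pow_pos hvπ0 n).ne hn
  obtain ⟨m, u, hu⟩ := IsDiscreteValuationRing.eq_unit_mul_pow_irreducible hx hπ
  have hm : addVal (locRing A N) x = m := IsDiscreteValuationRing.addVal_def x u hπ m hu
  have h2 := val_toQb_eq_pow A N hπ hx hm
  rw [hn] at h2
  have hnm : n = m := by
    rcases lt_trichotomy n m with h | h | h
    · exact absurd h2.symm (ne_of_lt ((pow_lt_pow_iff_right_of_lt_one₀ hvπ0 hvπ1).2 h))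
    · exact h
    · exact absurd h2 (ne_of_lt ((pow_lt_pow_iff_right_of_lt_one₀ hvπ0 hvπ1).2 h))
  rw [hm, hnm]

end Dict

/-! ### helper28's theorems in the model -/

section Model

variable (hopen : IsOpen (N : Set GQ)) [Fintype (inertiaQuot A N)] [DecidableEq (inertiaQuot A N)]
  (π : locRing A N) (hπ : Irreducible π) (hπ1 : toQb A N π ∈ A.nonunits)
  (hπe : A.valuation (p : Qb) = A.valuation (toQb A N π) ^ Fintype.card (inertiaQuot A N))
  (ε₀ : (locRing A N)ˣ)
  (hε : ((p : ℕ) : locRing A N) = ε₀ * π ^ Fintype.card (inertiaQuot A N))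
  (hPm : ∀ (q : (baseSubring A N)[X]) (β : Qb), q.Monic →
    q.natDegree = Fintype.card (inertiaQuot A N) →
    (q.map ((ιO A N).comp (baseSubring A N).subtype)).eval β = 0 →
    A.valuation β ^ Fintype.card (inertiaQuot A N) = A.valuation (p : Qb) →
    A.valuation (((PmBound.orbitPoly₀ (baseSubring A N) (DvrInst.hinv A N) π).map
      ((ιO A N).comp (baseSubring A N).subtype)).eval β) ^ (p - 1) < A.valuation (p : Qb) ^ p →
    ∀ σ : GQ, σ ∈ A.decompositionSubgroup ℚ →
      (∀ t : locRing A N, t ∈ baseSubring A N → σ (toQb A N t) = toQb A N t) →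
      σ β = β → σ ∈ N)

include hp hA hopen hπ hπ1 hπe in
/-- binder `hU` of `KummerCorInv` in the model: the value group of `O₀` is `|G| ℤ`. -/
theorem hU_model [IsDiscreteValuationRing (locRing A N)] :
    ∀ t ∈ baseSubring A N, t ≠ 0 → ∃ k : ℕ,
      addVal (locRing A N) t = ((k * Fintype.card (inertiaQuot A N) : ℕ) : ℕ∞) := by
  intro t ht ht0
  obtain ⟨n, hn⟩ := exists_valuation_eq_pow_of_mem_baseSubring A N hp hA ht ht0
  refine ⟨n, addVal_eq_of_val_eq A N hπ hπ1 ?_⟩
  rw [hn, hπe, ← pow_mul, mul_comm]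

include hp hA hopen hπ hπ1 hπe hε hPm in
/-- **`KummerCorFinal.kummer_level_ge_of_pm` in the model.** -/
theorem kummer_level_ge_model
    (Ng H : Subgroup (inertiaQuot A N)) (hHN : H ≤ Ng) (hindex : Nat.card Ng = p * Nat.card H)
    (e : ℕ) (he : Fintype.card (inertiaQuot A N) = e * Nat.card Ng)
    (z : ℕ) (hz : z * (p - 1) = Fintype.card (inertiaQuot A N))
    {α : locRing A N} (hα : IsUnit α) (hαH : ∀ h ∈ H, h • α = α)
    (hξ : ∀ s ∈ Ng, s ∉ H → ∃ ξ : locRing A N, s • α = ξ * α ∧
      @addVal (locRing A N) _ _ (isDiscreteValuationRing_locRing A N hp hA hopen) (ξ - 1) = z)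
    (j : ℕ)
    (hw : @addVal (locRing A N) _ _ (isDiscreteValuationRing_locRing A N hp hA hopen) (α - 1) =
      ((j * Nat.card H : ℕ) : ℕ∞)) (hj : ¬ p ∣ j) : e ≤ j := by
  have hdvr : IsDiscreteValuationRing (locRing A N) :=
    isDiscreteValuationRing_locRing A N hp hA hopen
  have hfinres : Finite (ResidueField (locRing A N)) := finite_residueField A N hp hA hopen
  have hvp1 : A.valuation (p : Qb) < 1 := (A.mem_nonunits_iff).mp hA
  obtain ⟨a, t, ha⟩ := exists_lower_numbering A N hp hA hopen hπ hπ1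
    (by rw [Nat.card_eq_fintype_card]; exact hπe)
  exact KummerCorFinal.kummer_level_ge_of_pm (v := A.valuation) (ι := ιO A N) (baseSubring A N)
    (DvrInst.hinv A N) (DvrInst.hfix A N) (DvrInst.hres A N hp hA hopen)
    (hU_model A N hp hA hopen π hπ hπ1 hπe) (ιO_injective A N)
    (fun x => (A.valuation_le_one_iff _).mpr (toQb_mem A N x)) π hπ
    ((A.mem_nonunits_iff).mp hπ1) p hp hπe (pBase A N p) ε₀
    (by rw [coe_pBase]; exact hε) a t ha
    (hPmO_of_stab A N hopen π p hvp1 hPm) Ng H hHN hindex e he z hz hα hαH hξ j hw hj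

include hp hA hopen hπ hπ1 hπe hε hPm in
/-- **`KummerCorFinal.kummer_val_false_of_pm` in the model.** -/
theorem kummer_val_false_model
    (Ng H : Subgroup (inertiaQuot A N)) (hHN : H ≤ Ng) (hindex : Nat.card Ng = p * Nat.card H)
    (e : ℕ) (he : Fintype.card (inertiaQuot A N) = e * Nat.card Ng)
    (z : ℕ) (hz : z * (p - 1) = Fintype.card (inertiaQuot A N))
    {α : locRing A N} (hαH : ∀ h ∈ H, h • α = α)
    (hξ : ∀ s ∈ Ng, s ∉ H → ∃ ξ : locRing A N, s • α = ξ * α ∧
      @addVal (locRing A N) _ _ (isDiscreteValuationRing_locRing A N hp hA hopen) (ξ - 1) = z)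
    (j : ℕ)
    (hw : @addVal (locRing A N) _ _ (isDiscreteValuationRing_locRing A N hp hA hopen) α =
      ((j * Nat.card H : ℕ) : ℕ∞)) (hj : ¬ p ∣ j) : False := by
  have hdvr : IsDiscreteValuationRing (locRing A N) :=
    isDiscreteValuationRing_locRing A N hp hA hopen
  have hfinres : Finite (ResidueField (locRing A N)) := finite_residueField A N hp hA hopen
  have hvp1 : A.valuation (p : Qb) < 1 := (A.mem_nonunits_iff).mp hA
  obtain ⟨a, t, ha⟩ := exists_lower_numbering A N hp hA hopen hπ hπ1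
    (by rw [Nat.card_eq_fintype_card]; exact hπe)
  exact KummerCorFinal.kummer_val_false_of_pm (v := A.valuation) (ι := ιO A N) (baseSubring A N)
    (DvrInst.hinv A N) (DvrInst.hfix A N) (DvrInst.hres A N hp hA hopen)
    (hU_model A N hp hA hopen π hπ hπ1 hπe) (ιO_injective A N)
    (fun x => (A.valuation_le_one_iff _).mpr (toQb_mem A N x)) π hπ
    ((A.mem_nonunits_iff).mp hπ1) p hp hπe (pBase A N p) ε₀
    (by rw [coe_pBase]; exact hε) a t ha
    (hPmO_of_stab A N hopen π p hvp1 hPm) Ng H hHN hindex e he z hz hαH hξ j hw hj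

end Model

end Fermat.Agent.GP.Flat.KbModel
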