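/-
GATE-P / S56 [P-FLAT](iv), consumer side (helper28).  **The Kummer-depth inequality**, as a
statement about a finite group with an "Artin function", Mathlib only.

`G₀` = inertia group of `L/K_b` (order `e_L`), `a s = v_L (s Π - Π)`, `A = max a`, `D = ∑_{s ≠ 1} a s`.
`N = Gal(L / K L₀)` (`K` tame over the base, so every `s ∉ N` is tame: `a s ≥ 1`),
`H = Gal(L / M L₀) < N` for a degree-`p` Kummer subextension `M = K(u^{1/p})` with lower break `t`,
so that (Herbrand's quotient formula + the Kummer break) `∑_{h ∈ H} a (s h) ≥ |H| (t + 1)` for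
every `s ∈ N \ H`.  Then

    `|G₀| + |N| t ≤ A + D`,    i.e.   `(A + D)/e_L ≥ 1 + t/e`   (`e = |G₀|/|N|`).

With Fontaine's converse `(A + D)/e_L ≤ p/(p-1)` this gives `t ≤ e/(p-1)`, i.e. the Kummer
generator `u` lies in `(1 + p O_K)(K^×)^p`.
-/
import Mathlib

set_option autoImplicit false

namespace Fermat.Agent.GP.Flat.KummerDepth

open Finset

variable {G₀ : Type*} [Group G₀] [Fintype G₀] [DecidableEq G₀]

/-- **The Kummer-depth inequality** (filter form). -/
theorem card_add_mul_le (a : G₀ → ℕ) (N H : Subgroup G₀)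
    [DecidablePred (· ∈ N)] [DecidablePred (· ∈ H)]
    (hHN : H ≤ N) (hne : ∃ τ ∈ N, τ ∉ H)
    (ha_mul : ∀ s t, s ≠ 1 → t ≠ 1 → s * t ≠ 1 → min (a s) (a t) ≤ a (s * t))
    (ha_inv : ∀ s, a s⁻¹ = a s)
    (ha_pos : ∀ s, s ∉ N → 1 ≤ a s)
    (A : ℕ) (hA : ∀ s, s ≠ 1 → a s ≤ A)
    (t : ℕ)
    (hcoset : ∀ s ∈ N, s ∉ H →
      (univ.filter (· ∈ H)).card * (t + 1) ≤ ∑ h ∈ univ.filter (· ∈ H), a (s * h)) :
    Fintype.card G₀ + (univ.filter (· ∈ N)).card * t ≤
      A + ∑ s ∈ univ.filter (· ≠ (1 : G₀)), a s := by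
  classical
  set FH : Finset G₀ := univ.filter (· ∈ H) with hFH
  set FN : Finset G₀ := univ.filter (· ∈ N) with hFN
  set S1 : Finset G₀ := univ.filter (· ∉ N) with hS1
  set S2 : Finset G₀ := univ.filter (fun s => s ∈ N ∧ s ∉ H) with hS2
  set S3 : Finset G₀ := univ.filter (fun s => s ∈ H ∧ s ≠ 1) with hS3
  -- the decomposition of `{s ≠ 1}`
  have hdisj12 : Disjoint S1 S2 := by
    rw [Finset.disjoint_left]
    intro s h1 h2
    simp only [hS1, hS2, mem_filter, mem_univ, true_and] at h1 h2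
    exact h1 h2.1
  have hdisj3 : Disjoint (S1 ∪ S2) S3 := by
    rw [Finset.disjoint_left]
    intro s h12 h3
    simp only [hS1, hS2, hS3, mem_union, mem_filter, mem_univ, true_and] at h12 h3
    rcases h12 with h | h
    · exact h (hHN h3.1)
    · exact h.2 h3.1
  have hunion : univ.filter (· ≠ (1 : G₀)) = (S1 ∪ S2) ∪ S3 := by
    ext s
    simp only [hS1, hS2, hS3, mem_union, mem_filter, mem_univ, true_and]
    constructor
    · intro hs
      by_cases hN : s ∈ N
      · by_cases hH : s ∈ H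
        · exact Or.inr ⟨hH, hs⟩
        · exact Or.inl (Or.inr ⟨hN, hH⟩)
      · exact Or.inl (Or.inl hN)
    · rintro ((h | h) | h)
      · rintro rfl
        exact h N.one_mem
      · rintro rfl
        exact h.2 H.one_mem
      · exact h.2
  have hD : ∑ s ∈ univ.filter (· ≠ (1 : G₀)), a s
      = ∑ s ∈ S1, a s + ∑ s ∈ S2, a s + ∑ s ∈ S3, a s := by
    rw [hunion, sum_union hdisj3, sum_union hdisj12]
  -- cardinalities
  have hcardN : S1.card + FN.card = Fintype.card G₀ := by
    rw [hS1, hFN, add_comm, ← Finset.card_univ]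
    exact Finset.card_filter_add_card_filter_not (s := (univ : Finset G₀)) (· ∈ N)
  have hcardH : S2.card + FH.card = FN.card := by
    have h1 : FN.filter (· ∈ H) = FH := by
      ext s
      simp only [hFN, hFH, mem_filter, mem_univ, true_and]
      exact ⟨fun h => h.2, fun h => ⟨hHN h, h⟩⟩
    have h2 : FN.filter (· ∉ H) = S2 := by
      ext s
      simp only [hFN, hS2, mem_filter, mem_univ, true_and]
    rw [← h1, ← h2, add_comm]
    exact Finset.card_filter_add_card_filter_not (s := FN) (· ∈ H)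
  have hFHpos : 0 < FH.card :=
    Finset.card_pos.mpr ⟨1, by simp only [hFH, mem_filter, mem_univ, true_and]; exact H.one_mem⟩
  -- (1) tame elements
  have h1 : S1.card ≤ ∑ s ∈ S1, a s := by
    calc S1.card = ∑ _s ∈ S1, 1 := by simp
      _ ≤ ∑ s ∈ S1, a s := Finset.sum_le_sum fun s hs => ha_pos s (by
          simpa only [hS1, mem_filter, mem_univ, true_and] using hs)
  -- (2) the non-trivial cosets of `H` in `N`
  have h2 : S2.card * (t + 1) ≤ ∑ s ∈ S2, a s := by
    have hswap : ∑ h ∈ FH, ∑ s ∈ S2, a (s * h) = FH.card * ∑ s ∈ S2, a s := by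
      rw [Finset.card_eq_sum_ones, Finset.sum_mul]
      refine Finset.sum_congr rfl fun h hh => ?_
      rw [one_mul]
      have hhH : h ∈ H := by simpa only [hFH, mem_filter, mem_univ, true_and] using hh
      refine Finset.sum_equiv (Equiv.mulRight h) ?_ fun s _ => rfl
      intro s
      simp only [hS2, mem_filter, mem_univ, true_and, Equiv.coe_mulRight]
      constructor
      · rintro ⟨hN, hH⟩
        exact ⟨N.mul_mem hN (hHN hhH), fun h' => hH ((H.mul_mem_cancel_right hhH).mp h')⟩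
      · rintro ⟨hN, hH⟩
        exact ⟨(N.mul_mem_cancel_right (hHN hhH)).mp hN,
          fun h' => hH (H.mul_mem h' hhH)⟩
    have hlow : S2.card * (FH.card * (t + 1)) ≤ ∑ s ∈ S2, ∑ h ∈ FH, a (s * h) := by
      rw [Finset.card_eq_sum_ones, Finset.sum_mul]
      refine Finset.sum_le_sum fun s hs => ?_
      rw [one_mul]
      have hs' : s ∈ N ∧ s ∉ H := by
        simpa only [hS2, mem_filter, mem_univ, true_and] using hs
      exact hcoset s hs'.1 hs'.2
    rw [Finset.sum_comm, hswap] at hlow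
    have : FH.card * (S2.card * (t + 1)) ≤ FH.card * ∑ s ∈ S2, a s := by
      calc FH.card * (S2.card * (t + 1)) = S2.card * (FH.card * (t + 1)) := by ring
        _ ≤ _ := hlow
    exact Nat.le_of_mul_le_mul_left this hFHpos
  -- (3) the coset inequality
  have h3 : FH.card * (t + 1) ≤ A + ∑ s ∈ S3, a s := by
    obtain ⟨τ, hτN, hτH⟩ := hne
    -- choose `τ₁ ∈ τ H` with `a` maximal
    obtain ⟨h₀, hh₀, hmax⟩ := Finset.exists_max_image FH (fun h => a (τ * h))
      ⟨1, by simp only [hFH, mem_filter, mem_univ, true_and]; exact H.one_mem⟩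
    have hh₀H : h₀ ∈ H := by simpa only [hFH, mem_filter, mem_univ, true_and] using hh₀
    set τ₁ := τ * h₀ with hτ₁
    have hτ₁N : τ₁ ∈ N := N.mul_mem hτN (hHN hh₀H)
    have hτ₁H : τ₁ ∉ H := fun h' => hτH ((H.mul_mem_cancel_right hh₀H).mp h')
    have hτ₁ne : τ₁ ≠ 1 := fun h' => hτ₁H (h' ▸ H.one_mem)
    have hmax' : ∀ h ∈ H, a (τ₁ * h) ≤ a τ₁ := by
      intro h hh
      have := hmax (h₀ * h) (by
        simp only [hFH, mem_filter, mem_univ, true_and]; exact H.mul_mem hh₀H hh)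
      simpa only [hτ₁, mul_assoc] using this
    have hle : ∀ h ∈ H, h ≠ 1 → a (τ₁ * h) ≤ a h := by
      intro h hh hne1
      have hne2 : τ₁ * h ≠ 1 := by
        intro h'
        apply hτ₁H
        have : τ₁ = h⁻¹ := eq_inv_of_mul_eq_one_left h'
        rw [this]
        exact H.inv_mem hh
      have hinv : τ₁⁻¹ ≠ 1 := inv_ne_one.mpr hτ₁ne
      have hprod : τ₁⁻¹ * (τ₁ * h) ≠ 1 := by rwa [inv_mul_cancel_left]
      have := ha_mul τ₁⁻¹ (τ₁ * h) hinv hne2 hprod
      rw [inv_mul_cancel_left, ha_inv, min_eq_right (hmax' h hh)] at this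
      exact this
    have hS3 : S3 = FH.erase 1 := by
      ext s
      simp only [hS3, hFH, mem_filter, mem_univ, true_and, mem_erase]
      tauto
    have h1mem : (1 : G₀) ∈ FH := by
      simp only [hFH, mem_filter, mem_univ, true_and]; exact H.one_mem
    calc FH.card * (t + 1) ≤ ∑ h ∈ FH, a (τ₁ * h) := hcoset τ₁ hτ₁N hτ₁H
      _ = a (τ₁ * 1) + ∑ h ∈ FH.erase 1, a (τ₁ * h) := (Finset.add_sum_erase FH _ h1mem).symm
      _ ≤ A + ∑ h ∈ FH.erase 1, a h := by
          refine add_le_add (by rw [mul_one]; exact hA τ₁ hτ₁ne) (Finset.sum_le_sum fun h hh => ?_)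
          rw [mem_erase] at hh
          exact hle h (by simpa only [hFH, mem_filter, mem_univ, true_and] using hh.2) hh.1
      _ = A + ∑ s ∈ S3, a s := by rw [hS3]
  -- total
  rw [hD]
  have e1 : Fintype.card G₀ + FN.card * t = S1.card + S2.card * (t + 1) + FH.card * (t + 1) := by
    rw [← hcardN, ← hcardH]
    ring
  rw [e1]
  omega

/-- **Corollary**: with Fontaine's converse bound `(A + D)/e_L ≤ p/(p-1)` (written
`(A + D) (p - 1) ≤ p e_L`) and `e_L = e |N|`, the lower break of the Kummer subextension satisfies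
`t (p - 1) ≤ e`, i.e. `t ≤ e/(p-1)`: the Kummer depth `p e/(p-1) - t` is at least `e`. -/
theorem break_mul_le (a : G₀ → ℕ) (N H : Subgroup G₀)
    [DecidablePred (· ∈ N)] [DecidablePred (· ∈ H)]
    (hHN : H ≤ N) (hne : ∃ τ ∈ N, τ ∉ H)
    (ha_mul : ∀ s t, s ≠ 1 → t ≠ 1 → s * t ≠ 1 → min (a s) (a t) ≤ a (s * t))
    (ha_inv : ∀ s, a s⁻¹ = a s)
    (ha_pos : ∀ s, s ∉ N → 1 ≤ a s)
    (A : ℕ) (hA : ∀ s, s ≠ 1 → a s ≤ A)
    (t : ℕ)
    (hcoset : ∀ s ∈ N, s ∉ H →
      (univ.filter (· ∈ H)).card * (t + 1) ≤ ∑ h ∈ univ.filter (· ∈ H), a (s * h))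
    (p e : ℕ) (hp : 1 ≤ p)
    (he : Fintype.card G₀ = e * (univ.filter (· ∈ N)).card)
    (hconv : (A + ∑ s ∈ univ.filter (· ≠ (1 : G₀)), a s) * (p - 1) ≤ p * Fintype.card G₀) :
    t * (p - 1) ≤ e := by
  classical
  have hmain := card_add_mul_le a N H hHN hne ha_mul ha_inv ha_pos A hA t hcoset
  set n := (univ.filter (· ∈ N)).card with hn
  have hnpos : 0 < n :=
    Finset.card_pos.mpr ⟨1, by simp only [mem_filter, mem_univ, true_and]; exact N.one_mem⟩
  obtain ⟨q, rfl⟩ : ∃ q, p = q + 1 := ⟨p - 1, by omega⟩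
  simp only [Nat.add_sub_cancel] at hconv ⊢
  have h1 : (Fintype.card G₀ + n * t) * q ≤ (q + 1) * Fintype.card G₀ :=
    le_trans (Nat.mul_le_mul_right q hmain) hconv
  have h2 : n * (t * q) ≤ n * e := by
    have : Fintype.card G₀ * q + n * t * q ≤ q * Fintype.card G₀ + Fintype.card G₀ := by
      calc Fintype.card G₀ * q + n * t * q = (Fintype.card G₀ + n * t) * q := by ring
        _ ≤ (q + 1) * Fintype.card G₀ := h1
        _ = q * Fintype.card G₀ + Fintype.card G₀ := by ring
    have h3 : n * t * q ≤ Fintype.card G₀ := by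
      have := this
      rw [mul_comm (Fintype.card G₀) q] at this
      omega
    calc n * (t * q) = n * t * q := by ring
      _ ≤ Fintype.card G₀ := h3
      _ = n * e := by rw [he]; ring
  exact Nat.le_of_mul_le_mul_left h2 hnpos

end Fermat.Agent.GP.Flat.KummerDepth
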