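/-
GATE-P / S56 [P-FLAT](iv), MAIN route glue (helper28).  **The Kummer corollary in the abstract DVR
setting of `GP/Flat/Converse`** (Mathlib + `HerbrandQuot` + `KummerDepth`).

Setting (the same as `Converse.exists_perturbation_no_root`, so ONE adapter serves both):
`O` a discrete valuation ring (`= 𝒪_L`), `G` a finite group acting on `O` by ring automorphisms
(`= Gal(L/L₀)`, `L/L₀` totally ramified), fixing the subring `O₀` pointwise, `π` a uniformizer,
`a σ = v (σ π - π)` (`σ ≠ 1`), `A = max a`, and the **sum bound**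
`(A + ∑_{σ ≠ 1} a σ) (p - 1) ≤ p |G|`  (`= ` the output of Fontaine's `(P_m)` + the converse lemma).

Kummer data: `H ≤ N ≤ G` (`N = Gal(L/K)`, `H = Gal(L/K(α))`), an `H`-invariant `β ≠ 0`
(`β = α - 1`, or `β = α`) with `s β = β (1 + E_s)`, `v E_s = δ > 0` for every `s ∈ N \ H`, and a
uniformizer `y` of `O^H` of the shape `y c = β ^ aa` (`c` fixed by `N`, `aa` prime to `p`) such that
`O^H = O₀[y]`.  Then (`kummer_main`)   `⌊δ / |H|⌋ (p - 1) ≤ e`,   `e = |G| / |N|`.

Corollaries (with `v(ξ - 1) (p - 1) = |G| = v p` for the roots of unity `ξ ≠ 1`, `|N| = p |H|`):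
* `kummer_level_ge` : `α` a unit, `s α = ξ_s α`, `v (α - 1) = j |H|`, `p ∤ j` (so that `y` exists)
  ⟹ `e ≤ j`, i.e. `α ^ p ∈ 1 + p 𝒪_K` (the Kummer generator has level `≥ e`);
* `kummer_val_false` : `v α = j |H|` with a uniformizer `y c = α ^ aa` is impossible
  (the valuation of a Kummer generator is divisible by `p`).
-/
import Mathlib
import Fermat.Agent.GP.Flat.HerbrandQuot
import Fermat.Agent.GP.Flat.KummerDepth

set_option autoImplicit false

namespace Fermat.Agent.GP.Flat.KummerCor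

open IsLocalRing Finset Polynomial
open IsDiscreteValuationRing (addVal)

variable {O : Type*} [CommRing O] [IsDomain O] [IsDiscreteValuationRing O]

/-- `addVal` satisfies the axioms used by `HerbrandQuot`. -/
theorem isVal_addVal : HerbrandQuot.IsVal (fun x : O => addVal O x) where
  map_one := (addVal O).map_one
  map_mul a b := (addVal O).map_mul a b
  nonneg _ := by simp
  map_neg a := (addVal O).map_neg a

/-- `v ((1 + E)^n - 1) = v E` for `E` in the maximal ideal and `n` a unit. -/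
theorem addVal_one_add_pow_sub_one {E : O} (hE : E ∈ maximalIdeal O) {n : ℕ}
    (hn : IsUnit (n : O)) : addVal O ((1 + E) ^ n - 1) = addVal O E := by
  have h1 : (∑ i ∈ range n, (1 + E) ^ i) * E = (1 + E) ^ n - 1 := by
    have := geom_sum_mul (1 + E) n
    rwa [add_sub_cancel_left] at this
  have h2 : ∀ i : ℕ, E ∣ (1 + E) ^ i - 1 := by
    intro i
    have := sub_dvd_pow_sub_pow (1 + E) 1 i
    rwa [add_sub_cancel_left, one_pow] at this
  have h3 : E ∣ (∑ i ∈ range n, (1 + E) ^ i) - (n : O) := by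
    have : (∑ i ∈ range n, (1 + E) ^ i) - (n : O) = ∑ i ∈ range n, ((1 + E) ^ i - 1) := by
      rw [Finset.sum_sub_distrib]
      simp
    rw [this]
    exact Finset.dvd_sum fun i _ => h2 i
  have h4 : IsUnit (∑ i ∈ range n, (1 + E) ^ i) := by
    rw [← notMem_maximalIdeal]
    intro hmem
    obtain ⟨r, hr⟩ := h3
    have : (n : O) ∈ maximalIdeal O := by
      have h5 : (n : O) = (∑ i ∈ range n, (1 + E) ^ i) - E * r := by rw [← hr]; ring
      rw [h5]
      exact Ideal.sub_mem _ hmem (Ideal.mul_mem_right _ _ hE)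
    exact (notMem_maximalIdeal.2 hn) this
  rw [← h1, IsDiscreteValuationRing.addVal_mul]
  obtain ⟨u, hu⟩ := h4
  have : addVal O (∑ i ∈ range n, (1 + E) ^ i) = 0 := by
    rw [← hu]
    simp
  rw [this, zero_add]

/-- a natural number prime to the residue characteristic is a unit -/
theorem isUnit_natCast_of_coprime {p n : ℕ} (hp : (p : O) ∈ maximalIdeal O)
    (h : Nat.Coprime n p) : IsUnit (n : O) := by
  rw [← notMem_maximalIdeal]
  intro hn
  have hc : IsCoprime (n : ℤ) (p : ℤ) := Nat.isCoprime_iff_coprime.2 h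
  obtain ⟨x, y, hxy⟩ := hc
  have h1 : (x : O) * (n : O) + (y : O) * (p : O) = 1 := by
    have := congrArg (Int.cast : ℤ → O) hxy
    push_cast at this
    exact this
  have : (1 : O) ∈ maximalIdeal O := by
    rw [← h1]
    exact Ideal.add_mem _ (Ideal.mul_mem_left _ _ hn) (Ideal.mul_mem_left _ _ hp)
  exact (Ideal.ne_top_iff_one _).1 (maximalIdeal.isMaximal O).ne_top this

variable {G : Type*} [Group G] [MulSemiringAction G O]

/-- ring automorphisms preserve the normalized valuation -/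
theorem addVal_smul (σ : G) (x : O) : addVal O (σ • x) = addVal O x := by
  obtain ⟨ϖ, hϖ⟩ := IsDiscreteValuationRing.exists_irreducible O
  by_cases hx : x = 0
  · rw [hx, smul_zero]
  obtain ⟨n, u, rfl⟩ := IsDiscreteValuationRing.eq_unit_mul_pow_irreducible hx hϖ
  have hσϖ : Irreducible (σ • ϖ) :=
    (MulEquiv.irreducible_iff (MulSemiringAction.toRingEquiv G O σ)).2 hϖ
  have hσu : IsUnit (σ • (u : O)) := u.isUnit.map (MulSemiringAction.toRingEquiv G O σ)
  obtain ⟨u', hu'⟩ := hσu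
  rw [smul_mul', smul_pow', ← hu', IsDiscreteValuationRing.addVal_def' u' hσϖ n,
    IsDiscreteValuationRing.addVal_def' u hϖ n]

omit [IsDiscreteValuationRing O] in
/-- key identity: `s y - y = y ((1 + E)^aa - 1)` when `y c = β ^ aa`, `s c = c`,
`s β = β (1 + E)`. -/
theorem smul_sub_eq {y c β : O} {aa : ℕ} (hyc : y * c = β ^ aa) (hc0 : c ≠ 0) (s : G)
    (hsc : s • c = c) {E : O} (hE : s • β = β * (1 + E)) :
    s • y - y = y * ((1 + E) ^ aa - 1) := by
  have h2 : s • (y * c) = s • (β ^ aa) := by rw [hyc]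
  rw [smul_mul', smul_pow', hsc, hE, mul_pow, ← hyc] at h2
  have h1 : (s • y - y) * c = (y * ((1 + E) ^ aa - 1)) * c := by
    calc (s • y - y) * c = s • y * c - y * c := by ring
      _ = y * c * (1 + E) ^ aa - y * c := by rw [h2]
      _ = _ := by ring
  exact mul_right_cancel₀ hc0 h1

section ArtinFunction

variable {π : O} {a : G → ℕ} (ha : ∀ σ : G, σ ≠ 1 → addVal O (σ • π - π) = a σ)
include ha

theorem a_mul (s t : G) (hs : s ≠ 1) (ht : t ≠ 1) (hst : s * t ≠ 1) :
    min (a s) (a t) ≤ a (s * t) := by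
  have h1 : (s * t) • π - π = s • (t • π - π) + (s • π - π) := by
    rw [mul_smul, smul_sub]; ring
  have h2 := IsDiscreteValuationRing.addVal_add (R := O) (a := s • (t • π - π)) (b := s • π - π)
  rw [← h1, addVal_smul, ha _ hs, ha _ ht, ha _ hst] at h2
  rw [min_comm]
  rcases le_total (a t) (a s) with hab | hab
  · rw [min_eq_left hab]
    rw [min_eq_left (by exact_mod_cast hab)] at h2
    exact_mod_cast h2
  · rw [min_eq_right hab]
    rw [min_eq_right (by exact_mod_cast hab)] at h2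
    exact_mod_cast h2

theorem a_inv (s : G) : a s⁻¹ = a s := by
  by_cases hs : s = 1
  · rw [hs, inv_one]
  have hs' : s⁻¹ ≠ 1 := inv_ne_one.2 hs
  have h1 : s • (s⁻¹ • π - π) = -(s • π - π) := by
    rw [smul_sub, smul_inv_smul]; ring
  have h2 : addVal O (s⁻¹ • π - π) = addVal O (s • π - π) := by
    rw [← addVal_smul s (s⁻¹ • π - π), h1, (addVal O).map_neg]
  rw [ha _ hs', ha _ hs] at h2
  exact_mod_cast h2

theorem a_pos (hπ : Irreducible π) (s : G) (hs : s ≠ 1) : 1 ≤ a s := by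
  have hσπ : Irreducible (s • π) :=
    (MulEquiv.irreducible_iff (MulSemiringAction.toRingEquiv G O s)).2 hπ
  have h1 : s • π - π ∈ maximalIdeal O := by
    refine Ideal.sub_mem _ ?_ ?_
    · rw [mem_maximalIdeal, mem_nonunits_iff]; exact hσπ.not_isUnit
    · rw [mem_maximalIdeal, mem_nonunits_iff]; exact hπ.not_isUnit
  rw [hπ.maximalIdeal_eq, Ideal.mem_span_singleton] at h1
  have h2 := IsDiscreteValuationRing.addVal_le_iff_dvd.2 h1
  rw [IsDiscreteValuationRing.addVal_uniformizer hπ, ha _ hs] at h2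
  exact_mod_cast h2

end ArtinFunction

section Main

variable [Fintype G] [DecidableEq G]

omit [DecidableEq G] in
/-- **The coset-sum inequality** (Herbrand's quotient formula + the Kummer computation):
`|H| + δ ≤ ∑_{h ∈ H} a (s h)` for `s ∉ H` with `s c = c`, `s β = β (1 + E)`, `v E = δ > 0`. -/
theorem card_add_le_coset_sum
    (O₀ : Subring O) (hfix : ∀ (g : G) (x : O), x ∈ O₀ → g • x = x)
    {π : O} {a : G → ℕ} (ha : ∀ σ : G, σ ≠ 1 → addVal O (σ • π - π) = a σ)
    (H : Subgroup G) [DecidablePred (· ∈ H)]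
    {y c β : O} {aa : ℕ} (haa : IsUnit (aa : O)) (hyc : y * c = β ^ aa) (hc0 : c ≠ 0)
    (hyv : addVal O y = (univ.filter (· ∈ H)).card)
    (hy : ∀ x : O, (∀ h ∈ H, h • x = x) → ∃ q : O₀[X], aeval y q = x)
    {δ : ℕ} (hδ : 0 < δ) (s : G) (hsH : s ∉ H) (hsc : s • c = c)
    {E : O} (hE : s • β = β * (1 + E)) (hEv : addVal O E = δ) :
    (univ.filter (· ∈ H)).card + δ ≤ ∑ h ∈ univ.filter (· ∈ H), a (s * h) := by
  have hEm : E ∈ maximalIdeal O := by
    by_contra hcon
    obtain ⟨u, hu⟩ := notMem_maximalIdeal.1 hcon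
    have h0 : addVal O E = 0 := by rw [← hu]; simp
    rw [hEv] at h0
    have : δ = 0 := by exact_mod_cast h0
    omega
  have h1 := smul_sub_eq hyc hc0 s hsc hE
  have h2 : addVal O (s • y - y) = (((univ.filter (· ∈ H)).card + δ : ℕ) : ℕ∞) := by
    rw [h1, IsDiscreteValuationRing.addVal_mul, addVal_one_add_pow_sub_one hEm haa, hyv, hEv]
    push_cast
    rfl
  have h3 := HerbrandQuot.v_sub_le_sum H (isVal_addVal (O := O)) O₀ hfix π y hy s
  have h4 : ∀ h : H, addVal O ((s * (h : G)) • π - π) = a (s * (h : G)) := by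
    intro h
    refine ha _ fun h1 => hsH ?_
    have : s = (h : G)⁻¹ := eq_inv_of_mul_eq_one_left h1
    rw [this]
    exact H.inv_mem h.2
  simp only [h4] at h3
  rw [h2, ← Nat.cast_sum, Nat.cast_le] at h3
  have h5 : ∑ h ∈ univ.filter (· ∈ H), a (s * h) = ∑ h : H, a (s * (h : G)) :=
    Finset.sum_subtype (univ.filter (· ∈ H)) (p := (· ∈ H)) (by simp) (fun h => a (s * h))
  rw [h5]
  exact h3

/-- **The Kummer-depth bound in the abstract DVR setting**: under the sum bound
`(A + D)(p - 1) ≤ p |G|`, a Kummer-type element `β` with relative break `δ`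
(`s β = β (1 + E)`, `v E = δ` for `s ∈ N \ H`) satisfies `⌊δ / |H|⌋ (p - 1) ≤ e`. -/
theorem kummer_main
    (O₀ : Subring O) (hfix : ∀ (g : G) (x : O), x ∈ O₀ → g • x = x)
    {π : O} (hπ : Irreducible π)
    {a : G → ℕ} (ha : ∀ σ : G, σ ≠ 1 → addVal O (σ • π - π) = a σ)
    (A : ℕ) (hA : ∀ σ : G, σ ≠ 1 → a σ ≤ A)
    (p : ℕ) (hp1 : 1 ≤ p)
    (hsum : (A + ∑ σ ∈ univ.erase (1 : G), a σ) * (p - 1) ≤ p * Fintype.card G)
    (N H : Subgroup G) [DecidablePred (· ∈ N)] [DecidablePred (· ∈ H)]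
    (hHN : H ≤ N) (hne : ∃ τ ∈ N, τ ∉ H)
    (e : ℕ) (he : Fintype.card G = e * (univ.filter (· ∈ N)).card)
    {y c β : O} {aa : ℕ} (haa : IsUnit (aa : O)) (hyc : y * c = β ^ aa) (hc0 : c ≠ 0)
    (hcN : ∀ s ∈ N, s • c = c)
    (hyv : addVal O y = (univ.filter (· ∈ H)).card)
    (hy : ∀ x : O, (∀ h ∈ H, h • x = x) → ∃ q : O₀[X], aeval y q = x)
    {δ : ℕ} (hδ : 0 < δ)
    (hE : ∀ s ∈ N, s ∉ H → ∃ E : O, s • β = β * (1 + E) ∧ addVal O E = δ) :
    (δ / (univ.filter (· ∈ H)).card) * (p - 1) ≤ e := by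
  refine KummerDepth.break_mul_le a N H hHN hne (a_mul ha) (a_inv ha)
    (fun s hs => a_pos ha hπ s fun h1 => hs (h1 ▸ N.one_mem)) A hA _ ?_ p e hp1 he ?_
  · intro s hsN hsH
    obtain ⟨E, hE1, hE2⟩ := hE s hsN hsH
    have h1 := card_add_le_coset_sum O₀ hfix ha H haa hyc hc0 hyv hy hδ s hsH (hcN s hsN) hE1 hE2
    have h2 : (univ.filter (· ∈ H)).card * (δ / (univ.filter (· ∈ H)).card) ≤ δ :=
      Nat.mul_div_le _ _
    calc (univ.filter (· ∈ H)).card * (δ / (univ.filter (· ∈ H)).card + 1)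
        = (univ.filter (· ∈ H)).card * (δ / (univ.filter (· ∈ H)).card)
          + (univ.filter (· ∈ H)).card := by ring
      _ ≤ δ + (univ.filter (· ∈ H)).card := Nat.add_le_add_right h2 _
      _ = (univ.filter (· ∈ H)).card + δ := add_comm _ _
      _ ≤ _ := h1
  · rwa [Finset.filter_ne' univ (1 : G)]

/-- arithmetic core of the two corollaries -/
theorem arith_core {z P e h T q j : ℕ} (hP : 1 ≤ P)
    (hz : z * P = e * ((P + 1) * h)) (hT : T + j * h = z)
    (hq1 : T < h * (q + 1)) (hq2 : q * P ≤ e) : e ≤ j := by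
  by_contra hcon
  have hje : j + 1 ≤ e := by omega
  -- `T P = h (e P + e - j P)`
  have h1 : T * P + j * h * P = e * ((P + 1) * h) := by rw [← hz, ← hT]; ring
  -- `T P < h (e + P)`
  have h2 : T * P < h * (e + P) := by
    calc T * P < h * (q + 1) * P := Nat.mul_lt_mul_of_pos_right hq1 hP
      _ = h * (q * P + P) := by ring
      _ ≤ h * (e + P) := Nat.mul_le_mul_left _ (Nat.add_le_add_right hq2 _)
  -- `h (e + P) ≤ T P`
  have h3 : h * (e + P) + j * h * P ≤ T * P + j * h * P := by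
    rw [h1]
    have h4 : (j + 1) * (h * P) ≤ e * (h * P) := Nat.mul_le_mul_right _ hje
    calc h * (e + P) + j * h * P = h * e + (j + 1) * (h * P) := by ring
      _ ≤ h * e + e * (h * P) := Nat.add_le_add_left h4 _
      _ = e * ((P + 1) * h) := by ring
  omega

/-- **Corollary (unit case): the Kummer generator has level `≥ e`.**  `α` a unit with
`s α = ξ_s α`, `v (ξ_s - 1) = z`, `z (p - 1) = |G| = v p` (`s ∈ N \ H`), `v (α - 1) = j |H|`,
and a uniformizer `y` of `O^H` with `y c = (α - 1) ^ aa`, `O^H = O₀[y]`.  Then `e ≤ j`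
(`e = |G| / |N|`, `|N| = p |H|`): in `K = L^N` the Kummer generator `α ^ p` is `≡ 1 mod p`. -/
theorem kummer_level_ge
    (O₀ : Subring O) (hfix : ∀ (g : G) (x : O), x ∈ O₀ → g • x = x)
    {π : O} (hπ : Irreducible π)
    {a : G → ℕ} (ha : ∀ σ : G, σ ≠ 1 → addVal O (σ • π - π) = a σ)
    (A : ℕ) (hA : ∀ σ : G, σ ≠ 1 → a σ ≤ A)
    (p : ℕ) (hp2 : 2 ≤ p)
    (hsum : (A + ∑ σ ∈ univ.erase (1 : G), a σ) * (p - 1) ≤ p * Fintype.card G)
    (N H : Subgroup G) [DecidablePred (· ∈ N)] [DecidablePred (· ∈ H)]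
    (hHN : H ≤ N) (hne : ∃ τ ∈ N, τ ∉ H)
    (hindex : (univ.filter (· ∈ N)).card = p * (univ.filter (· ∈ H)).card)
    (e : ℕ) (he : Fintype.card G = e * (univ.filter (· ∈ N)).card)
    (z : ℕ) (hz : z * (p - 1) = Fintype.card G)
    {α : O} (hα : IsUnit α)
    (hξ : ∀ s ∈ N, s ∉ H → ∃ ξ : O, s • α = ξ * α ∧ addVal O (ξ - 1) = z)
    (j : ℕ) (hw : addVal O (α - 1) = ((j * (univ.filter (· ∈ H)).card : ℕ) : ℕ∞))
    {y c : O} {aa : ℕ} (haa : IsUnit (aa : O)) (hyc : y * c = (α - 1) ^ aa) (hc0 : c ≠ 0)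
    (hcN : ∀ s ∈ N, s • c = c)
    (hyv : addVal O y = (univ.filter (· ∈ H)).card)
    (hy : ∀ x : O, (∀ h ∈ H, h • x = x) → ∃ q : O₀[X], aeval y q = x) :
    e ≤ j := by
  set h := (univ.filter (· ∈ H)).card with hh
  have hhpos : 0 < h :=
    Finset.card_pos.mpr ⟨1, by simp only [mem_filter, mem_univ, true_and]; exact H.one_mem⟩
  obtain ⟨P, rfl⟩ : ∃ P, p = P + 1 := ⟨p - 1, by omega⟩
  have hP : 1 ≤ P := by omega
  simp only [Nat.add_sub_cancel] at hz hsum
  have hzP : z * P = e * ((P + 1) * h) := by rw [hz, he, hindex]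
  by_cases hlt : j * h < z
  · -- the main case
    have hδ : 0 < z - j * h := by omega
    have hE : ∀ s ∈ N, s ∉ H → ∃ E : O, s • (α - 1) = (α - 1) * (1 + E) ∧
        addVal O E = ((z - j * h : ℕ) : ℕ∞) := by
      intro s hsN hsH
      obtain ⟨ξ, hξ1, hξ2⟩ := hξ s hsN hsH
      have hαv : addVal O α = 0 := by
        obtain ⟨u, hu⟩ := hα
        rw [← hu]; simp
      have h1 : addVal O ((ξ - 1) * α) = z := by
        rw [IsDiscreteValuationRing.addVal_mul, hξ2, hαv, add_zero]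
      have h2 : (α - 1) ∣ (ξ - 1) * α := by
        rw [← IsDiscreteValuationRing.addVal_le_iff_dvd, h1, hw]
        exact_mod_cast hlt.le
      obtain ⟨E, hE⟩ := h2
      refine ⟨E, ?_, ?_⟩
      · rw [smul_sub, smul_one, hξ1, mul_add, mul_one, ← hE]; ring
      · have h3 : addVal O (α - 1) + addVal O E = z := by
          rw [← IsDiscreteValuationRing.addVal_mul, ← hE, h1]
        rw [hw] at h3
        have h4 : addVal O E ≠ ⊤ := by
          intro htop
          rw [htop, add_top] at h3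
          exact ENat.top_ne_natCast z h3
        obtain ⟨m, hm⟩ := ENat.ne_top_iff_exists.1 h4
        rw [← hm] at h3 ⊢
        have h5 : j * h + m = z := by exact_mod_cast h3
        have : m = z - j * h := by omega
        rw [this]
    have hmain := kummer_main O₀ hfix hπ ha A hA (P + 1) (by omega)
      (by simpa only [Nat.add_sub_cancel] using hsum) N H hHN hne e he haa hyc hc0 hcN hyv hy hδ hE
    simp only [Nat.add_sub_cancel] at hmain
    exact arith_core hP hzP (Nat.sub_add_cancel hlt.le) (Nat.lt_mul_div_succ _ hhpos) hmain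
  · -- `v (α - 1) ≥ v (ζ - 1)`: nothing to prove
    have hge : z ≤ j * h := by omega
    have h1 : e * ((P + 1) * h) ≤ j * ((P + 1) * h) := by
      calc e * ((P + 1) * h) = z * P := hzP.symm
        _ ≤ j * h * P := Nat.mul_le_mul_right _ hge
        _ ≤ j * h * (P + 1) := Nat.mul_le_mul_left _ (Nat.le_succ _)
        _ = j * ((P + 1) * h) := by ring
    exact Nat.le_of_mul_le_mul_right h1 (Nat.mul_pos (Nat.succ_pos _) hhpos)

/-- **Corollary (valuation case): the valuation of a Kummer generator is divisible by `p`.**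
If `s α = ξ_s α`, `v (ξ_s - 1) = z`, `z (p - 1) = |G|` for `s ∈ N \ H`, there is NO uniformizer `y`
of `O^H` of the shape `y c = α ^ aa` (`aa` prime to `p`, `c` fixed by `N`) with `O^H = O₀[y]`. -/
theorem kummer_val_false
    (O₀ : Subring O) (hfix : ∀ (g : G) (x : O), x ∈ O₀ → g • x = x)
    {π : O} (hπ : Irreducible π)
    {a : G → ℕ} (ha : ∀ σ : G, σ ≠ 1 → addVal O (σ • π - π) = a σ)
    (A : ℕ) (hA : ∀ σ : G, σ ≠ 1 → a σ ≤ A)
    (p : ℕ) (hp2 : 2 ≤ p)
    (hsum : (A + ∑ σ ∈ univ.erase (1 : G), a σ) * (p - 1) ≤ p * Fintype.card G)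
    (N H : Subgroup G) [DecidablePred (· ∈ N)] [DecidablePred (· ∈ H)]
    (hHN : H ≤ N) (hne : ∃ τ ∈ N, τ ∉ H)
    (hindex : (univ.filter (· ∈ N)).card = p * (univ.filter (· ∈ H)).card)
    (e : ℕ) (he : Fintype.card G = e * (univ.filter (· ∈ N)).card)
    (z : ℕ) (hz : z * (p - 1) = Fintype.card G)
    {α : O}
    (hξ : ∀ s ∈ N, s ∉ H → ∃ ξ : O, s • α = ξ * α ∧ addVal O (ξ - 1) = z)
    {y c : O} {aa : ℕ} (haa : IsUnit (aa : O)) (hyc : y * c = α ^ aa) (hc0 : c ≠ 0)
    (hcN : ∀ s ∈ N, s • c = c)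
    (hyv : addVal O y = (univ.filter (· ∈ H)).card)
    (hy : ∀ x : O, (∀ h ∈ H, h • x = x) → ∃ q : O₀[X], aeval y q = x) :
    False := by
  set h := (univ.filter (· ∈ H)).card with hh
  have hhpos : 0 < h :=
    Finset.card_pos.mpr ⟨1, by simp only [mem_filter, mem_univ, true_and]; exact H.one_mem⟩
  obtain ⟨P, rfl⟩ : ∃ P, p = P + 1 := ⟨p - 1, by omega⟩
  have hP : 1 ≤ P := by omega
  simp only [Nat.add_sub_cancel] at hz hsum
  have hzP : z * P = e * ((P + 1) * h) := by rw [hz, he, hindex]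
  have hGpos : 0 < Fintype.card G := Fintype.card_pos
  have hzpos : 0 < z := by
    rcases Nat.eq_zero_or_pos z with h0 | h0
    · rw [h0, zero_mul] at hz; omega
    · exact h0
  have hE : ∀ s ∈ N, s ∉ H → ∃ E : O, s • α = α * (1 + E) ∧ addVal O E = ((z : ℕ) : ℕ∞) := by
    intro s hsN hsH
    obtain ⟨ξ, hξ1, hξ2⟩ := hξ s hsN hsH
    exact ⟨ξ - 1, by rw [hξ1]; ring, hξ2⟩
  have hmain := kummer_main O₀ hfix hπ ha A hA (P + 1) (by omega)
    (by simpa only [Nat.add_sub_cancel] using hsum) N H hHN hne e he haa hyc hc0 hcN hyv hy hzpos hE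
  simp only [Nat.add_sub_cancel] at hmain
  have h0 : e ≤ 0 :=
    arith_core (j := 0) hP hzP (by simp) (Nat.lt_mul_div_succ _ hhpos) hmain
  have he0 : e = 0 := by omega
  rw [he0, zero_mul] at he
  omega

end Main

end Fermat.Agent.GP.Flat.KummerCor
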