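/-
GATE-P / S56 [P-FLAT](iv), MAIN route glue, part 3 (helper28): **`KummerCor` without any
monogenicity input for the intermediate ring `O^H`**.

`KummerCor.kummer_level_ge` asks the adapter for a uniformizer `y` of `O^H` with `O^H = O₀[y]`.
Here both are *constructed/proved* inside the abstract DVR setting of `Converse`/`PmBound`
(`O` DVR, `G` finite acting, `O₀ = O^G` (`hinv`, `hfix`), `hres`: `O₀ → O/𝔪` onto), from the single
extra hypothesis

  `hU : ∀ t ∈ O₀, t ≠ 0 → ∃ k, v t = k |G|`      (the value group of `O₀` is `|G| ℤ`; `= (U)`).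

* `exists_addVal_eq_mul_card` : an `H`-invariant `x ≠ 0` has `v x ∈ |H| ℕ`  (norm to `O₀`);
* `smul_sub_dvd_of_invariant` : for an `H`-invariant `y` with `v y = |H|` and every `H`-invariant
  `c`:  `σ y - y ∣ σ c - c`  (successive approximation `c = c₀ + y c'`, no finiteness);
* `addVal_sub_le_sum` : Herbrand's easy half `v (σ y - y) ≤ ∑_{h ∈ H} v (σ h π - π)`;
* `exists_uniformizer` : `y c = β ^ aa`, `c = (∏_{s ∈ N} s π) ^ b`, `v y = |H|`;
* `kummer_level_ge`, `kummer_val_false` : the two corollaries with Kummer data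
  `(N, H, α, ξ_s, j)` only.
-/
import Mathlib
import Fermat.Agent.GP.Flat.KummerCor

set_option autoImplicit false
set_option linter.unusedSectionVars false

namespace Fermat.Agent.GP.Flat.KummerCorInv

open IsLocalRing Finset Polynomial
open IsDiscreteValuationRing (addVal)

variable {O : Type*} [CommRing O] [IsDomain O] [IsDiscreteValuationRing O]
variable {G : Type*} [Group G] [Fintype G] [MulSemiringAction G O]

open Classical in
/-- the "norm" `∏_{q ∈ G/H} q x` of an `H`-invariant element -/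
noncomputable def quotNorm (H : Subgroup G) (x : O) (hxH : ∀ h ∈ H, h • x = x) : O :=
  ∏ q : G ⧸ H, Quotient.liftOn' q (fun g => g • x) (fun g₁ g₂ h => by
    rw [QuotientGroup.leftRel_apply] at h
    have := hxH _ h
    rw [mul_smul, inv_smul_eq_iff] at this
    exact this.symm)

open Classical in
theorem smul_quotNorm (H : Subgroup G) (x : O) (hxH : ∀ h ∈ H, h • x = x) (g : G) :
    g • quotNorm H x hxH = quotNorm H x hxH := by
  unfold quotNorm
  rw [Finset.smul_prod']
  refine Fintype.prod_equiv (MulAction.toPerm g) _ _ fun q => ?_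
  induction q using QuotientGroup.induction_on with
  | H g' =>
    simp only [MulAction.toPerm_apply]
    rw [MulAction.Quotient.smul_mk]
    show g • (g' • x) = (g • g') • x
    rw [smul_eq_mul, mul_smul]

open Classical in
theorem addVal_quotNorm (H : Subgroup G) (x : O) (hxH : ∀ h ∈ H, h • x = x) :
    addVal O (quotNorm H x hxH) = Nat.card (G ⧸ H) • addVal O x := by
  unfold quotNorm
  rw [(KummerCor.isVal_addVal (O := O)).map_prod]
  have : ∀ q : G ⧸ H, addVal O (Quotient.liftOn' q (fun g => g • x) (fun g₁ g₂ h => by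
      rw [QuotientGroup.leftRel_apply] at h
      have := hxH _ h
      rw [mul_smul, inv_smul_eq_iff] at this
      exact this.symm)) = addVal O x := by
    intro q
    induction q using QuotientGroup.induction_on with
    | H g' => exact KummerCor.addVal_smul g' x
  rw [Finset.sum_congr rfl fun q _ => this q, Finset.sum_const, Finset.card_univ,
    Nat.card_eq_fintype_card]

/-- **An `H`-invariant element has valuation in `|H| ℕ`.** -/
theorem exists_addVal_eq_mul_card (O₀ : Subring O)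
    (hinv : ∀ x : O, (∀ g : G, g • x = x) → x ∈ O₀)
    (hU : ∀ t ∈ O₀, t ≠ 0 → ∃ k : ℕ, addVal O t = ((k * Fintype.card G : ℕ) : ℕ∞))
    (H : Subgroup G) {x : O} (hx : x ≠ 0) (hxH : ∀ h ∈ H, h • x = x) :
    ∃ k : ℕ, addVal O x = ((k * Nat.card H : ℕ) : ℕ∞) := by
  have h1 : quotNorm H x hxH ∈ O₀ := hinv _ (smul_quotNorm H x hxH)
  have hxtop : addVal O x ≠ ⊤ := fun h => hx (IsDiscreteValuationRing.addVal_eq_top_iff.1 h)
  obtain ⟨n, hn⟩ := ENat.ne_top_iff_exists.1 hxtop
  have h2 : addVal O (quotNorm H x hxH) = ((Nat.card (G ⧸ H) * n : ℕ) : ℕ∞) := by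
    rw [addVal_quotNorm, ← hn]
    push_cast
    rw [nsmul_eq_mul]
  have h3 : quotNorm H x hxH ≠ 0 := by
    intro h0
    rw [h0, IsDiscreteValuationRing.addVal_zero] at h2
    exact ENat.top_ne_natCast _ h2
  obtain ⟨k, hk⟩ := hU _ h1 h3
  rw [h2] at hk
  have h4 : Nat.card (G ⧸ H) * n = k * Fintype.card G := by exact_mod_cast hk
  have h5 : Fintype.card G = Nat.card (G ⧸ H) * Nat.card H := by
    rw [← Nat.card_eq_fintype_card]
    exact Subgroup.card_eq_card_quotient_mul_card_subgroup H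
  have hpos : 0 < Nat.card (G ⧸ H) := Nat.card_pos
  refine ⟨k, ?_⟩
  rw [← hn]
  have h6 : Nat.card (G ⧸ H) * n = Nat.card (G ⧸ H) * (k * Nat.card H) := by
    rw [h4, h5]; ring
  have := Nat.eq_of_mul_eq_mul_left hpos h6
  exact_mod_cast this

section Approx

variable (O₀ : Subring O) (hinv : ∀ x : O, (∀ g : G, g • x = x) → x ∈ O₀)
  (hfix : ∀ (g : G) (x : O), x ∈ O₀ → g • x = x)
  (hres : ∀ x : O, ∃ x₀ ∈ O₀, x - x₀ ∈ maximalIdeal O)
  (hU : ∀ t ∈ O₀, t ≠ 0 → ∃ k : ℕ, addVal O t = ((k * Fintype.card G : ℕ) : ℕ∞))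
  (H : Subgroup G) {y : O} (hyH : ∀ h ∈ H, h • y = y) (hyv : addVal O y = (Nat.card H : ℕ))

include hinv hfix hres hU hyH hyv

/-- one approximation step: an `H`-invariant `c` is `c₀ + y c'`, `c₀ ∈ O₀`, `c'` `H`-invariant -/
theorem exists_approx (c : O) (hc : ∀ h ∈ H, h • c = c) :
    ∃ c₀ ∈ O₀, ∃ c' : O, (∀ h ∈ H, h • c' = c') ∧ c = c₀ + y * c' := by
  obtain ⟨c₀, hc₀, hm⟩ := hres c
  have hy0 : y ≠ 0 := by
    intro h0
    rw [h0, IsDiscreteValuationRing.addVal_zero] at hyv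
    exact ENat.top_ne_natCast _ hyv
  have hinvd : ∀ h ∈ H, h • (c - c₀) = c - c₀ := fun h hh => by
    rw [smul_sub, hc h hh, hfix h c₀ hc₀]
  have hdvd : y ∣ c - c₀ := by
    by_cases h0 : c - c₀ = 0
    · rw [h0]; exact dvd_zero _
    obtain ⟨k, hk⟩ := exists_addVal_eq_mul_card O₀ hinv hU H h0 hinvd
    rw [← IsDiscreteValuationRing.addVal_le_iff_dvd, hyv, hk]
    have hk0 : k ≠ 0 := by
      rintro rfl
      rw [zero_mul, Nat.cast_zero] at hk
      have hunit : IsUnit (c - c₀) := by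
        obtain ⟨ϖ, hϖ⟩ := IsDiscreteValuationRing.exists_irreducible O
        obtain ⟨n, u, hu⟩ := IsDiscreteValuationRing.eq_unit_mul_pow_irreducible h0 hϖ
        have := IsDiscreteValuationRing.addVal_def (c - c₀) u hϖ n hu
        rw [hk] at this
        have hn : n = 0 := by exact_mod_cast this.symm
        rw [hu, hn, pow_zero, mul_one]
        exact u.isUnit
      exact (notMem_maximalIdeal.2 hunit) hm
    have : Nat.card H ≤ k * Nat.card H := Nat.le_mul_of_pos_left _ (Nat.pos_of_ne_zero hk0)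
    exact_mod_cast this
  obtain ⟨c', hc'⟩ := hdvd
  refine ⟨c₀, hc₀, c', fun h hh => ?_, by rw [← hc']; ring⟩
  have h1 := hinvd h hh
  rw [hc', smul_mul', hyH h hh] at h1
  exact mul_left_cancel₀ hy0 h1

/-- the approximation estimate: `min (v (σ y - y)) (k |H|) ≤ v (σ c - c)` -/
theorem min_le_addVal_smul_sub (σ : G) (k : ℕ) (c : O) (hc : ∀ h ∈ H, h • c = c) :
    min (addVal O (σ • y - y)) ((k * Nat.card H : ℕ) : ℕ∞) ≤ addVal O (σ • c - c) := by
  induction k generalizing c with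
  | zero => simp
  | succ k ih =>
    obtain ⟨c₀, hc₀, c', hc'H, rfl⟩ := exists_approx O₀ hinv hfix hres hU H hyH hyv c hc
    have h1 : σ • (c₀ + y * c') - (c₀ + y * c') = (σ • y - y) * σ • c' + y * (σ • c' - c') := by
      rw [smul_add, smul_mul', hfix σ c₀ hc₀]; ring
    rw [h1]
    refine le_trans ?_ IsDiscreteValuationRing.addVal_add
    refine le_min ?_ ?_
    · refine le_trans (min_le_left _ _) ?_
      rw [IsDiscreteValuationRing.addVal_mul]
      exact le_self_add
    · rw [IsDiscreteValuationRing.addVal_mul, hyv]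
      have h2 := ih c' hc'H
      have h3 : min (addVal O (σ • y - y)) (((k + 1) * Nat.card H : ℕ) : ℕ∞)
          ≤ (Nat.card H : ℕ∞) + min (addVal O (σ • y - y)) ((k * Nat.card H : ℕ) : ℕ∞) := by
        rcases le_total (addVal O (σ • y - y)) ((k * Nat.card H : ℕ) : ℕ∞) with h4 | h4
        · rw [min_eq_left h4]
          exact le_trans (min_le_left _ _) le_add_self
        · rw [min_eq_right h4]
          refine le_trans (min_le_right _ _) ?_
          have : (k + 1) * Nat.card H = Nat.card H + k * Nat.card H := by ring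
          rw [this]
          push_cast
          exact le_rfl
      exact le_trans h3 (add_le_add le_rfl h2)

/-- **`σ y - y` divides `σ c - c` for every `H`-invariant `c`.** -/
theorem smul_sub_dvd_of_invariant (σ : G) (c : O) (hc : ∀ h ∈ H, h • c = c) :
    σ • y - y ∣ σ • c - c := by
  rw [← IsDiscreteValuationRing.addVal_le_iff_dvd]
  have hHpos : 0 < Nat.card H := Nat.card_pos
  by_cases htop : addVal O (σ • y - y) = ⊤
  · -- then `σ c = c`
    rw [htop, top_le_iff]
    by_contra hne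
    obtain ⟨n, hn⟩ := ENat.ne_top_iff_exists.1 hne
    have h1 := min_le_addVal_smul_sub O₀ hinv hfix hres hU H hyH hyv σ (n + 1) c hc
    rw [htop, min_eq_right le_top, ← hn] at h1
    have h2 : (n + 1) * Nat.card H ≤ n := by exact_mod_cast h1
    have h3 : n + 1 ≤ (n + 1) * Nat.card H := Nat.le_mul_of_pos_right _ hHpos
    omega
  · obtain ⟨n, hn⟩ := ENat.ne_top_iff_exists.1 htop
    have h1 := min_le_addVal_smul_sub O₀ hinv hfix hres hU H hyH hyv σ n c hc
    rw [← hn] at h1 ⊢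
    have h2 : (n : ℕ∞) ≤ ((n * Nat.card H : ℕ) : ℕ∞) := by
      have : n ≤ n * Nat.card H := Nat.le_mul_of_pos_right _ hHpos
      exact_mod_cast this
    rwa [min_eq_left h2] at h1

/-- **Herbrand's quotient formula, the easy half, without monogenicity**:
`v (σ y - y) ≤ ∑_{h ∈ H} v (σ h x - x)` for every `x`. -/
theorem addVal_sub_le_sum [DecidablePred (· ∈ H)] (x : O) (σ : G) :
    addVal O (σ • y - y) ≤ ∑ h : H, addVal O ((σ * (h : G)) • x - x) := by
  classical
  set f := HerbrandQuot.orbitPoly H x with hf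
  have hcoeff : ∀ n, σ • y - y ∣ σ • f.coeff n - f.coeff n := fun n =>
    smul_sub_dvd_of_invariant O₀ hinv hfix hres hU H hyH hyv σ _
      fun h hh => HerbrandQuot.orbitPoly_coeff_smul H x hh n
  have hdeg : (f.map (MulSemiringAction.toRingHom G O σ)).natDegree = f.natDegree :=
    (HerbrandQuot.orbitPoly_monic H x).natDegree_map _
  have hdvd : σ • y - y ∣ (f.map (MulSemiringAction.toRingHom G O σ)).eval x - f.eval x := by
    rw [eval_eq_sum_range' (n := f.natDegree + 1) (by rw [hdeg]; exact Nat.lt_succ_self _),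
      eval_eq_sum_range' (n := f.natDegree + 1) (Nat.lt_succ_self _), ← Finset.sum_sub_distrib]
    refine Finset.dvd_sum fun n _ => ?_
    rw [← sub_mul, coeff_map]
    exact Dvd.dvd.mul_right (hcoeff n) _
  rw [HerbrandQuot.orbitPoly_eval_self, sub_zero, HerbrandQuot.orbitPoly_map_eval] at hdvd
  have hv := KummerCor.isVal_addVal (O := O)
  calc addVal O (σ • y - y) ≤ addVal O (∏ h : H, (x - (σ * (h : G)) • x)) :=
        IsDiscreteValuationRing.addVal_le_iff_dvd.2 hdvd
    _ = ∑ h : H, addVal O (x - (σ * (h : G)) • x) := hv.map_prod _ _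
    _ = ∑ h : H, addVal O ((σ * (h : G)) • x - x) :=
        Finset.sum_congr rfl fun h _ => hv.map_sub_comm _ _

end Approx

section Main

variable [DecidableEq G]

theorem card_filter_mem (H : Subgroup G) [DecidablePred (· ∈ H)] :
    (univ.filter (· ∈ H)).card = Nat.card H := by
  rw [Nat.card_eq_fintype_card, Fintype.card_subtype]

/-- the coset-sum inequality, monogenicity-free version -/
theorem card_add_le_coset_sum
    (O₀ : Subring O) (hinv : ∀ x : O, (∀ g : G, g • x = x) → x ∈ O₀)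
    (hfix : ∀ (g : G) (x : O), x ∈ O₀ → g • x = x)
    (hres : ∀ x : O, ∃ x₀ ∈ O₀, x - x₀ ∈ maximalIdeal O)
    (hU : ∀ t ∈ O₀, t ≠ 0 → ∃ k : ℕ, addVal O t = ((k * Fintype.card G : ℕ) : ℕ∞))
    {π : O} {a : G → ℕ} (ha : ∀ σ : G, σ ≠ 1 → addVal O (σ • π - π) = a σ)
    (H : Subgroup G) [DecidablePred (· ∈ H)]
    {y c β : O} {aa : ℕ} (haa : IsUnit (aa : O)) (hyc : y * c = β ^ aa) (hc0 : c ≠ 0)
    (hyH : ∀ h ∈ H, h • y = y) (hyv : addVal O y = (Nat.card H : ℕ))
    {δ : ℕ} (hδ : 0 < δ) (s : G) (hsH : s ∉ H) (hsc : s • c = c)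
    {E : O} (hE : s • β = β * (1 + E)) (hEv : addVal O E = δ) :
    (univ.filter (· ∈ H)).card + δ ≤ ∑ h ∈ univ.filter (· ∈ H), a (s * h) := by
  have hEm : E ∈ maximalIdeal O := by
    by_contra hcon
    obtain ⟨u, hu⟩ := notMem_maximalIdeal.1 hcon
    have h0 : addVal O E = 0 := by rw [← hu]; simp
    rw [hEv] at h0
    have : δ = 0 := by exact_mod_cast h0
    omega
  have h1 := KummerCor.smul_sub_eq hyc hc0 s hsc hE
  have h2 : addVal O (s • y - y) = (((univ.filter (· ∈ H)).card + δ : ℕ) : ℕ∞) := by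
    rw [h1, IsDiscreteValuationRing.addVal_mul, KummerCor.addVal_one_add_pow_sub_one hEm haa, hyv,
      hEv, card_filter_mem]
    push_cast
    rfl
  have h3 := addVal_sub_le_sum O₀ hinv hfix hres hU H hyH hyv π s
  have h4 : ∀ h : H, addVal O ((s * (h : G)) • π - π) = a (s * (h : G)) := by
    intro h
    refine ha _ fun h1 => hsH ?_
    have : s = (h : G)⁻¹ := eq_inv_of_mul_eq_one_left h1
    rw [this]
    exact H.inv_mem h.2
  simp only [h4] at h3
  rw [h2, ← Nat.cast_sum, Nat.cast_le] at h3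
  have h5 : ∑ h ∈ univ.filter (· ∈ H), a (s * h) = ∑ h : H, a (s * (h : G)) :=
    Finset.sum_subtype (univ.filter (· ∈ H)) (p := (· ∈ H)) (by simp) (fun h => a (s * h))
  rw [h5]
  exact h3

/-- the Kummer-depth bound, monogenicity-free version -/
theorem kummer_main
    (O₀ : Subring O) (hinv : ∀ x : O, (∀ g : G, g • x = x) → x ∈ O₀)
    (hfix : ∀ (g : G) (x : O), x ∈ O₀ → g • x = x)
    (hres : ∀ x : O, ∃ x₀ ∈ O₀, x - x₀ ∈ maximalIdeal O)
    (hU : ∀ t ∈ O₀, t ≠ 0 → ∃ k : ℕ, addVal O t = ((k * Fintype.card G : ℕ) : ℕ∞))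
    {π : O} (hπ : Irreducible π)
    {a : G → ℕ} (ha : ∀ σ : G, σ ≠ 1 → addVal O (σ • π - π) = a σ)
    (A : ℕ) (hA : ∀ σ : G, σ ≠ 1 → a σ ≤ A)
    (p : ℕ) (hp1 : 1 ≤ p)
    (hsum : (A + ∑ σ ∈ univ.erase (1 : G), a σ) * (p - 1) ≤ p * Fintype.card G)
    (N H : Subgroup G) (hHN : H ≤ N) (hne : ∃ τ ∈ N, τ ∉ H)
    (e : ℕ) (he : Fintype.card G = e * Nat.card N)
    {y c β : O} {aa : ℕ} (haa : IsUnit (aa : O)) (hyc : y * c = β ^ aa) (hc0 : c ≠ 0)
    (hcN : ∀ s ∈ N, s • c = c)
    (hyH : ∀ h ∈ H, h • y = y) (hyv : addVal O y = (Nat.card H : ℕ))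
    {δ : ℕ} (hδ : 0 < δ)
    (hE : ∀ s ∈ N, s ∉ H → ∃ E : O, s • β = β * (1 + E) ∧ addVal O E = δ) :
    (δ / Nat.card H) * (p - 1) ≤ e := by
  classical
  rw [← card_filter_mem H]
  refine KummerDepth.break_mul_le a N H hHN hne (KummerCor.a_mul ha) (KummerCor.a_inv ha)
    (fun s hs => KummerCor.a_pos ha hπ s fun h1 => hs (h1 ▸ N.one_mem)) A hA _ ?_ p e hp1
    (by rw [card_filter_mem N]; exact he) ?_
  · intro s hsN hsH
    obtain ⟨E, hE1, hE2⟩ := hE s hsN hsH
    have h1 := card_add_le_coset_sum O₀ hinv hfix hres hU ha H haa hyc hc0 hyH hyv hδ s hsH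
      (hcN s hsN) hE1 hE2
    have h2 : (univ.filter (· ∈ H)).card * (δ / (univ.filter (· ∈ H)).card) ≤ δ :=
      Nat.mul_div_le _ _
    calc (univ.filter (· ∈ H)).card * (δ / (univ.filter (· ∈ H)).card + 1)
        = (univ.filter (· ∈ H)).card * (δ / (univ.filter (· ∈ H)).card)
          + (univ.filter (· ∈ H)).card := by ring
      _ ≤ δ + (univ.filter (· ∈ H)).card := Nat.add_le_add_right h2 _
      _ = (univ.filter (· ∈ H)).card + δ := add_comm _ _
      _ ≤ _ := h1
  · rwa [Finset.filter_ne' univ (1 : G)]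

/-- **Construction of the uniformizer of `O^H`**: `y c = β ^ aa` with
`c = (∏_{s ∈ N} s π) ^ b` (fixed by `N`) and `v y = |H|`, when `v β = j |H|`, `aa j = 1 + p b`,
`|N| = p |H|`. -/
theorem exists_uniformizer {π : O} (hπ : Irreducible π) (N H : Subgroup G) (hHN : H ≤ N)
    {p : ℕ} (hindex : Nat.card N = p * Nat.card H)
    {β : O} (hβH : ∀ h ∈ H, h • β = β) {j aa b : ℕ}
    (hβv : addVal O β = ((j * Nat.card H : ℕ) : ℕ∞)) (hab : aa * j = 1 + p * b) :
    ∃ y c : O, y * c = β ^ aa ∧ c ≠ 0 ∧ (∀ s ∈ N, s • c = c) ∧ (∀ h ∈ H, h • y = y) ∧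
      addVal O y = (Nat.card H : ℕ) := by
  classical
  set c₁ : O := ∏ s : N, (s : G) • π with hc₁
  have hc₁N : ∀ t ∈ N, t • c₁ = c₁ := by
    intro t ht
    rw [hc₁, Finset.smul_prod']
    refine Fintype.prod_equiv (Equiv.mulLeft (⟨t, ht⟩ : N)) _ _ fun s => ?_
    simp [mul_smul]
  have hc₁v : addVal O c₁ = (Nat.card N : ℕ) := by
    rw [hc₁, (KummerCor.isVal_addVal (O := O)).map_prod]
    have : ∀ s : N, addVal O ((s : G) • π) = 1 := fun s => by
      rw [KummerCor.addVal_smul, IsDiscreteValuationRing.addVal_uniformizer hπ]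
    rw [Finset.sum_congr rfl fun s _ => this s, Finset.sum_const, Finset.card_univ,
      Nat.card_eq_fintype_card]
    simp
  set c : O := c₁ ^ b with hc
  have hcv : addVal O c = ((b * Nat.card N : ℕ) : ℕ∞) := by
    rw [hc, IsDiscreteValuationRing.addVal_pow, hc₁v]
    push_cast
    rw [nsmul_eq_mul]
  have hc0 : c ≠ 0 := by
    intro h0
    rw [h0, IsDiscreteValuationRing.addVal_zero] at hcv
    exact ENat.top_ne_natCast _ hcv
  have hβaa : addVal O (β ^ aa) = ((Nat.card H + b * Nat.card N : ℕ) : ℕ∞) := by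
    rw [IsDiscreteValuationRing.addVal_pow, hβv, hindex]
    have : aa * (j * Nat.card H) = Nat.card H + b * (p * Nat.card H) := by
      calc aa * (j * Nat.card H) = (aa * j) * Nat.card H := by ring
        _ = (1 + p * b) * Nat.card H := by rw [hab]
        _ = _ := by ring
    rw [← this]
    push_cast
    rw [nsmul_eq_mul]
  have hdvd : c ∣ β ^ aa := by
    rw [← IsDiscreteValuationRing.addVal_le_iff_dvd, hcv, hβaa]
    exact_mod_cast Nat.le_add_left _ _
  obtain ⟨y, hy⟩ := hdvd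
  have hcN : ∀ s ∈ N, s • c = c := fun s hs => by rw [hc, smul_pow', hc₁N s hs]
  refine ⟨y, c, by rw [hy]; ring, hc0, hcN, fun h hh => ?_, ?_⟩
  · have h1 : h • (β ^ aa) = β ^ aa := by rw [smul_pow', hβH h hh]
    rw [hy, smul_mul', hcN h (hHN hh)] at h1
    exact mul_left_cancel₀ hc0 h1
  · have h1 : addVal O c + addVal O y = ((Nat.card H + b * Nat.card N : ℕ) : ℕ∞) := by
      rw [← IsDiscreteValuationRing.addVal_mul, ← hy, hβaa]
    rw [hcv] at h1
    have h2 : addVal O y ≠ ⊤ := by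
      intro htop
      rw [htop, add_top] at h1
      exact ENat.top_ne_natCast _ h1
    obtain ⟨m, hm⟩ := ENat.ne_top_iff_exists.1 h2
    rw [← hm] at h1 ⊢
    have h3 : b * Nat.card N + m = Nat.card H + b * Nat.card N := by exact_mod_cast h1
    have : m = Nat.card H := by omega
    rw [this]

/-- `p ∤ j` gives the exponents `aa j = 1 + p b` with `aa` a unit of `O`. -/
theorem exists_exponents {p : ℕ} (hp : p.Prime) (hpO : (p : O) ∈ maximalIdeal O) {j : ℕ}
    (hj : ¬ p ∣ j) : ∃ aa b : ℕ, aa * j = 1 + p * b ∧ IsUnit (aa : O) := by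
  have hcop : Nat.Coprime j p := ((Nat.Prime.coprime_iff_not_dvd hp).2 hj).symm
  obtain ⟨m, -, hm⟩ := Nat.exists_mul_mod_eq_one_of_coprime hcop hp.one_lt
  refine ⟨m, j * m / p, ?_, ?_⟩
  · have := Nat.div_add_mod (j * m) p
    rw [hm] at this
    rw [mul_comm m j]
    omega
  · refine KummerCor.isUnit_natCast_of_coprime hpO ?_
    rw [Nat.coprime_comm, Nat.Prime.coprime_iff_not_dvd hp]
    intro hdvd
    have : j * m % p = 0 := Nat.mod_eq_zero_of_dvd (Dvd.dvd.mul_left hdvd j)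
    omega

theorem exists_mem_not_mem (N H : Subgroup G) (hHN : H ≤ N) {p : ℕ} (hp2 : 2 ≤ p)
    (hindex : Nat.card N = p * Nat.card H) : ∃ τ ∈ N, τ ∉ H := by
  by_contra hcon
  have hcon' : N ≤ H := fun τ hτ => by_contra fun h => hcon ⟨τ, hτ, h⟩
  have hNH : N = H := le_antisymm hcon' hHN
  rw [hNH] at hindex
  have hpos : 0 < Nat.card H := Nat.card_pos
  have : 2 * Nat.card H ≤ p * Nat.card H := Nat.mul_le_mul_right _ hp2
  omega

/-- **Kummer generators have level `≥ e`** (final abstract form, Kummer data only).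
`O` DVR, `G` finite acting, `O₀ = O^G`, `hres`, `hU`; sum bound `(A + D)(p-1) ≤ p |G|`;
`H ≤ N ≤ G`, `|N| = p |H|`, `|G| = e |N|`; `α` an `H`-invariant unit with `s α = ξ_s α`,
`v (ξ_s - 1) = z`, `z (p-1) = |G|` for `s ∈ N \ H`; `v (α - 1) = j |H|`, `p ∤ j`.  Then `e ≤ j`. -/
theorem kummer_level_ge
    (O₀ : Subring O) (hinv : ∀ x : O, (∀ g : G, g • x = x) → x ∈ O₀)
    (hfix : ∀ (g : G) (x : O), x ∈ O₀ → g • x = x)
    (hres : ∀ x : O, ∃ x₀ ∈ O₀, x - x₀ ∈ maximalIdeal O)
    (hU : ∀ t ∈ O₀, t ≠ 0 → ∃ k : ℕ, addVal O t = ((k * Fintype.card G : ℕ) : ℕ∞))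
    {π : O} (hπ : Irreducible π)
    {a : G → ℕ} (ha : ∀ σ : G, σ ≠ 1 → addVal O (σ • π - π) = a σ)
    (A : ℕ) (hA : ∀ σ : G, σ ≠ 1 → a σ ≤ A)
    (p : ℕ) (hp : p.Prime) (hpO : (p : O) ∈ maximalIdeal O)
    (hsum : (A + ∑ σ ∈ univ.erase (1 : G), a σ) * (p - 1) ≤ p * Fintype.card G)
    (N H : Subgroup G) (hHN : H ≤ N) (hindex : Nat.card N = p * Nat.card H)
    (e : ℕ) (he : Fintype.card G = e * Nat.card N)
    (z : ℕ) (hz : z * (p - 1) = Fintype.card G)
    {α : O} (hα : IsUnit α) (hαH : ∀ h ∈ H, h • α = α)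
    (hξ : ∀ s ∈ N, s ∉ H → ∃ ξ : O, s • α = ξ * α ∧ addVal O (ξ - 1) = z)
    (j : ℕ) (hw : addVal O (α - 1) = ((j * Nat.card H : ℕ) : ℕ∞)) (hj : ¬ p ∣ j) :
    e ≤ j := by
  have hp2 : 2 ≤ p := hp.two_le
  have hne := exists_mem_not_mem N H hHN hp2 hindex
  set h := Nat.card H with hh
  have hhpos : 0 < h := Nat.card_pos
  obtain ⟨aa, b, hab, haa⟩ := exists_exponents hp hpO hj
  have hβH : ∀ g ∈ H, g • (α - 1) = α - 1 := fun g hg => by rw [smul_sub, smul_one, hαH g hg]
  obtain ⟨y, c, hyc, hc0, hcN, hyH, hyv⟩ := exists_uniformizer hπ N H hHN hindex hβH hw hab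
  obtain ⟨P, rfl⟩ : ∃ P, p = P + 1 := ⟨p - 1, by omega⟩
  have hP : 1 ≤ P := by omega
  simp only [Nat.add_sub_cancel] at hz hsum
  have hzP : z * P = e * ((P + 1) * h) := by rw [hz, he, hindex]
  by_cases hlt : j * h < z
  · have hδ : 0 < z - j * h := by omega
    have hE : ∀ s ∈ N, s ∉ H → ∃ E : O, s • (α - 1) = (α - 1) * (1 + E) ∧
        addVal O E = ((z - j * h : ℕ) : ℕ∞) := by
      intro s hsN hsH
      obtain ⟨ξ, hξ1, hξ2⟩ := hξ s hsN hsH
      have hαv : addVal O α = 0 := by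
        obtain ⟨u, hu⟩ := hα
        rw [← hu]; simp
      have h1 : addVal O ((ξ - 1) * α) = z := by
        rw [IsDiscreteValuationRing.addVal_mul, hξ2, hαv, add_zero]
      have h2 : (α - 1) ∣ (ξ - 1) * α := by
        rw [← IsDiscreteValuationRing.addVal_le_iff_dvd, h1, hw]
        exact_mod_cast hlt.le
      obtain ⟨E, hE⟩ := h2
      refine ⟨E, ?_, ?_⟩
      · rw [smul_sub, smul_one, hξ1, mul_add, mul_one, ← hE]; ring
      · have h3 : addVal O (α - 1) + addVal O E = z := by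
          rw [← IsDiscreteValuationRing.addVal_mul, ← hE, h1]
        rw [hw] at h3
        have h4 : addVal O E ≠ ⊤ := by
          intro htop
          rw [htop, add_top] at h3
          exact ENat.top_ne_natCast z h3
        obtain ⟨m, hm⟩ := ENat.ne_top_iff_exists.1 h4
        rw [← hm] at h3 ⊢
        have h5 : j * h + m = z := by exact_mod_cast h3
        have : m = z - j * h := by omega
        rw [this]
    have hmain := kummer_main O₀ hinv hfix hres hU hπ ha A hA (P + 1) (by omega)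
      (by simpa only [Nat.add_sub_cancel] using hsum) N H hHN hne e he haa hyc hc0 hcN hyH hyv
      hδ hE
    simp only [Nat.add_sub_cancel] at hmain
    exact KummerCor.arith_core hP hzP (Nat.sub_add_cancel hlt.le)
      (Nat.lt_mul_div_succ _ hhpos) hmain
  · have hge : z ≤ j * h := by omega
    have h1 : e * ((P + 1) * h) ≤ j * ((P + 1) * h) := by
      calc e * ((P + 1) * h) = z * P := hzP.symm
        _ ≤ j * h * P := Nat.mul_le_mul_right _ hge
        _ ≤ j * h * (P + 1) := Nat.mul_le_mul_left _ (Nat.le_succ _)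
        _ = j * ((P + 1) * h) := by ring
    exact Nat.le_of_mul_le_mul_right h1 (Nat.mul_pos (Nat.succ_pos _) hhpos)

/-- **The valuation of a Kummer generator is divisible by `p`** (final abstract form): an
`H`-invariant `α` with `s α = ξ_s α`, `v (ξ_s - 1) = z`, `z (p-1) = |G|` (`s ∈ N \ H`) cannot
have `v α = j |H|` with `p ∤ j`. -/
theorem kummer_val_false
    (O₀ : Subring O) (hinv : ∀ x : O, (∀ g : G, g • x = x) → x ∈ O₀)
    (hfix : ∀ (g : G) (x : O), x ∈ O₀ → g • x = x)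
    (hres : ∀ x : O, ∃ x₀ ∈ O₀, x - x₀ ∈ maximalIdeal O)
    (hU : ∀ t ∈ O₀, t ≠ 0 → ∃ k : ℕ, addVal O t = ((k * Fintype.card G : ℕ) : ℕ∞))
    {π : O} (hπ : Irreducible π)
    {a : G → ℕ} (ha : ∀ σ : G, σ ≠ 1 → addVal O (σ • π - π) = a σ)
    (A : ℕ) (hA : ∀ σ : G, σ ≠ 1 → a σ ≤ A)
    (p : ℕ) (hp : p.Prime) (hpO : (p : O) ∈ maximalIdeal O)
    (hsum : (A + ∑ σ ∈ univ.erase (1 : G), a σ) * (p - 1) ≤ p * Fintype.card G)
    (N H : Subgroup G) (hHN : H ≤ N) (hindex : Nat.card N = p * Nat.card H)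
    (e : ℕ) (he : Fintype.card G = e * Nat.card N)
    (z : ℕ) (hz : z * (p - 1) = Fintype.card G)
    {α : O} (hαH : ∀ h ∈ H, h • α = α)
    (hξ : ∀ s ∈ N, s ∉ H → ∃ ξ : O, s • α = ξ * α ∧ addVal O (ξ - 1) = z)
    (j : ℕ) (hw : addVal O α = ((j * Nat.card H : ℕ) : ℕ∞)) (hj : ¬ p ∣ j) :
    False := by
  have hp2 : 2 ≤ p := hp.two_le
  have hne := exists_mem_not_mem N H hHN hp2 hindex
  set h := Nat.card H with hh
  have hhpos : 0 < h := Nat.card_pos
  obtain ⟨aa, b, hab, haa⟩ := exists_exponents hp hpO hj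
  obtain ⟨y, c, hyc, hc0, hcN, hyH, hyv⟩ := exists_uniformizer hπ N H hHN hindex hαH hw hab
  obtain ⟨P, rfl⟩ : ∃ P, p = P + 1 := ⟨p - 1, by omega⟩
  have hP : 1 ≤ P := by omega
  simp only [Nat.add_sub_cancel] at hz hsum
  have hzP : z * P = e * ((P + 1) * h) := by rw [hz, he, hindex]
  have hGpos : 0 < Fintype.card G := Fintype.card_pos
  have hzpos : 0 < z := by
    rcases Nat.eq_zero_or_pos z with h0 | h0
    · rw [h0, zero_mul] at hz; omega
    · exact h0
  have hE : ∀ s ∈ N, s ∉ H → ∃ E : O, s • α = α * (1 + E) ∧ addVal O E = ((z : ℕ) : ℕ∞) := by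
    intro s hsN hsH
    obtain ⟨ξ, hξ1, hξ2⟩ := hξ s hsN hsH
    exact ⟨ξ - 1, by rw [hξ1]; ring, hξ2⟩
  have hmain := kummer_main O₀ hinv hfix hres hU hπ ha A hA (P + 1) (by omega)
    (by simpa only [Nat.add_sub_cancel] using hsum) N H hHN hne e he haa hyc hc0 hcN hyH hyv
    hzpos hE
  simp only [Nat.add_sub_cancel] at hmain
  have h0 : e ≤ 0 :=
    KummerCor.arith_core (j := 0) hP hzP (by simp) (Nat.lt_mul_div_succ _ hhpos) hmain
  have he0 : e = 0 := by omega
  rw [he0, zero_mul] at he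
  omega

end Main

end Fermat.Agent.GP.Flat.KummerCorInv
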