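/-
GATE-P / S56 [P-FLAT](iv), MAIN route glue, part 2 (helper28): `KummerCor` fed by helper5's
`PmBound.ad_mul_le_of_roots`.  In the abstract DVR setting of `Converse` / `PmBound`:

  **root property** (`hroot`, the only use of Fontaine's `(P_m)`)  +  Kummer data
      ⟹  the Kummer generator has level `≥ e`   (`kummer_level_ge_of_roots`),
      ⟹  its valuation is divisible by `p`       (`kummer_val_false_of_roots`).

No `A`, no sum bound in the statements: the tame case `A ≤ 1` is handled here.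
-/
import Mathlib
import Fermat.Agent.GP.Flat.PmBound2
import Fermat.Agent.GP.Flat.KummerCor

set_option autoImplicit false

namespace Fermat.Agent.GP.Flat.KummerCorRoots

open Polynomial IsLocalRing Finset
open IsDiscreteValuationRing (addVal)

variable {O : Type*} [CommRing O] [IsDomain O] [IsDiscreteValuationRing O]
variable {G : Type*} [Group G] [Fintype G] [DecidableEq G] [MulSemiringAction G O]

omit [Fintype G] [DecidableEq G] in
/-- the valuation form of the ramification data -/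
theorem addVal_of_eq {π : O} (hπ : Irreducible π) {a : G → ℕ} {t : G → Oˣ}
    (ha : ∀ σ : G, σ ≠ 1 → σ • π - π = t σ * π ^ a σ) :
    ∀ σ : G, σ ≠ 1 → addVal O (σ • π - π) = a σ := fun σ hσ => by
  rw [ha σ hσ]
  exact IsDiscreteValuationRing.addVal_def' (t σ) hπ (a σ)

/-- **The sum bound from the root property**, including the tame case: there is `A` bounding `a`
with `(A + D)(p - 1) ≤ p |G|`. -/
theorem exists_sum_bound [Finite (ResidueField O)]
    (O₀ : Subring O) (hinv : ∀ x : O, (∀ g : G, g • x = x) → x ∈ O₀)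
    (hfix : ∀ (g : G) (x : O), x ∈ O₀ → g • x = x)
    (hres : ∀ x : O, ∃ y ∈ O₀, x - y ∈ maximalIdeal O)
    (π : O) (hπ : Irreducible π) (ϖ₀ : O₀) (ε₀ : Oˣ)
    (hϖ₀e : (ϖ₀ : O) = ε₀ * π ^ Fintype.card G)
    (a : G → ℕ) (t : G → Oˣ) (ha : ∀ σ : G, σ ≠ 1 → σ • π - π = t σ * π ^ a σ)
    (p : ℕ)
    (hroot : ∀ (u : O₀) (n r : ℕ), IsUnit (u : O) → r < Fintype.card G → 1 ≤ n →
      (r = 0 → 2 ≤ n) → p * Fintype.card G < (p - 1) * (n * Fintype.card G + r) →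
      ∃ x : O, aeval x (PmBound.pertPoly O₀ hinv π (u * ϖ₀ ^ n) r) = 0) :
    ∃ A : ℕ, (∀ σ : G, σ ≠ 1 → a σ ≤ A) ∧
      (A + ∑ σ ∈ univ.erase (1 : G), a σ) * (p - 1) ≤ p * Fintype.card G := by
  have hav := addVal_of_eq hπ ha
  by_cases hne : (univ.erase (1 : G)).Nonempty
  · obtain ⟨σ₀, hσ₀, hmax⟩ := Finset.exists_max_image (univ.erase (1 : G)) a hne
    have hσ₀1 : σ₀ ≠ 1 := Finset.ne_of_mem_erase hσ₀
    have hAle : ∀ σ : G, σ ≠ 1 → a σ ≤ a σ₀ := fun σ hσ =>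
      hmax σ (Finset.mem_erase.2 ⟨hσ, Finset.mem_univ _⟩)
    refine ⟨a σ₀, hAle, ?_⟩
    by_cases hA2 : 2 ≤ a σ₀
    · have := PmBound.ad_mul_le_of_roots O₀ hinv hfix hres π hπ ϖ₀ ε₀ hϖ₀e a t ha (a σ₀) hA2 hAle
        ⟨σ₀, hσ₀1, rfl⟩ p hroot
      rwa [mul_comm] at this
    · -- tame: all `a σ = 1`
      have h1 : ∀ σ : G, σ ≠ 1 → a σ = 1 := fun σ hσ =>
        le_antisymm (by have := hAle σ hσ; omega) (KummerCor.a_pos hav hπ σ hσ)
      have h2 : ∑ σ ∈ univ.erase (1 : G), a σ = Fintype.card G - 1 := by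
        rw [Finset.sum_congr rfl fun σ hσ => h1 σ (Finset.ne_of_mem_erase hσ), Finset.sum_const,
          Finset.card_erase_of_mem (Finset.mem_univ _), Finset.card_univ, smul_eq_mul, mul_one]
      have hG : 0 < Fintype.card G := Fintype.card_pos
      rw [h2, h1 σ₀ hσ₀1]
      have h3 : 1 + (Fintype.card G - 1) = Fintype.card G := by omega
      rw [h3, mul_comm]
      exact Nat.mul_le_mul_right _ (Nat.sub_le _ _)
  · refine ⟨0, fun σ hσ => ?_, ?_⟩
    · exact absurd ⟨σ, Finset.mem_erase.2 ⟨hσ, Finset.mem_univ _⟩⟩ hne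
    · rw [Finset.not_nonempty_iff_eq_empty.1 hne, Finset.sum_empty, add_zero, zero_mul]
      exact Nat.zero_le _

/-- **Kummer generators have level `≥ e`** (root-property form; see `KummerCor.kummer_level_ge`
for the meaning of the Kummer data). -/
theorem kummer_level_ge_of_roots [Finite (ResidueField O)]
    (O₀ : Subring O) (hinv : ∀ x : O, (∀ g : G, g • x = x) → x ∈ O₀)
    (hfix : ∀ (g : G) (x : O), x ∈ O₀ → g • x = x)
    (hres : ∀ x : O, ∃ y ∈ O₀, x - y ∈ maximalIdeal O)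
    (π : O) (hπ : Irreducible π) (ϖ₀ : O₀) (ε₀ : Oˣ)
    (hϖ₀e : (ϖ₀ : O) = ε₀ * π ^ Fintype.card G)
    (a : G → ℕ) (t : G → Oˣ) (ha : ∀ σ : G, σ ≠ 1 → σ • π - π = t σ * π ^ a σ)
    (p : ℕ) (hp2 : 2 ≤ p)
    (hroot : ∀ (u : O₀) (n r : ℕ), IsUnit (u : O) → r < Fintype.card G → 1 ≤ n →
      (r = 0 → 2 ≤ n) → p * Fintype.card G < (p - 1) * (n * Fintype.card G + r) →
      ∃ x : O, aeval x (PmBound.pertPoly O₀ hinv π (u * ϖ₀ ^ n) r) = 0)
    (N H : Subgroup G) [DecidablePred (· ∈ N)] [DecidablePred (· ∈ H)]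
    (hHN : H ≤ N) (hne : ∃ τ ∈ N, τ ∉ H)
    (hindex : (univ.filter (· ∈ N)).card = p * (univ.filter (· ∈ H)).card)
    (e : ℕ) (he : Fintype.card G = e * (univ.filter (· ∈ N)).card)
    (z : ℕ) (hz : z * (p - 1) = Fintype.card G)
    {α : O} (hα : IsUnit α)
    (hξ : ∀ s ∈ N, s ∉ H → ∃ ξ : O, s • α = ξ * α ∧ addVal O (ξ - 1) = z)
    (j : ℕ) (hw : addVal O (α - 1) = ((j * (univ.filter (· ∈ H)).card : ℕ) : ℕ∞))
    {y c : O} {aa : ℕ} (haa : IsUnit (aa : O)) (hyc : y * c = (α - 1) ^ aa) (hc0 : c ≠ 0)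
    (hcN : ∀ s ∈ N, s • c = c)
    (hyv : addVal O y = (univ.filter (· ∈ H)).card)
    (hy : ∀ x : O, (∀ h ∈ H, h • x = x) → ∃ q : O₀[X], aeval y q = x) :
    e ≤ j := by
  obtain ⟨A, hA, hsum⟩ := exists_sum_bound O₀ hinv hfix hres π hπ ϖ₀ ε₀ hϖ₀e a t ha p hroot
  exact KummerCor.kummer_level_ge O₀ hfix hπ (addVal_of_eq hπ ha) A hA p hp2 hsum N H hHN hne
    hindex e he z hz hα hξ j hw haa hyc hc0 hcN hyv hy

/-- **The valuation of a Kummer generator is divisible by `p`** (root-property form; see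
`KummerCor.kummer_val_false`). -/
theorem kummer_val_false_of_roots [Finite (ResidueField O)]
    (O₀ : Subring O) (hinv : ∀ x : O, (∀ g : G, g • x = x) → x ∈ O₀)
    (hfix : ∀ (g : G) (x : O), x ∈ O₀ → g • x = x)
    (hres : ∀ x : O, ∃ y ∈ O₀, x - y ∈ maximalIdeal O)
    (π : O) (hπ : Irreducible π) (ϖ₀ : O₀) (ε₀ : Oˣ)
    (hϖ₀e : (ϖ₀ : O) = ε₀ * π ^ Fintype.card G)
    (a : G → ℕ) (t : G → Oˣ) (ha : ∀ σ : G, σ ≠ 1 → σ • π - π = t σ * π ^ a σ)
    (p : ℕ) (hp2 : 2 ≤ p)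
    (hroot : ∀ (u : O₀) (n r : ℕ), IsUnit (u : O) → r < Fintype.card G → 1 ≤ n →
      (r = 0 → 2 ≤ n) → p * Fintype.card G < (p - 1) * (n * Fintype.card G + r) →
      ∃ x : O, aeval x (PmBound.pertPoly O₀ hinv π (u * ϖ₀ ^ n) r) = 0)
    (N H : Subgroup G) [DecidablePred (· ∈ N)] [DecidablePred (· ∈ H)]
    (hHN : H ≤ N) (hne : ∃ τ ∈ N, τ ∉ H)
    (hindex : (univ.filter (· ∈ N)).card = p * (univ.filter (· ∈ H)).card)
    (e : ℕ) (he : Fintype.card G = e * (univ.filter (· ∈ N)).card)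
    (z : ℕ) (hz : z * (p - 1) = Fintype.card G)
    {α : O}
    (hξ : ∀ s ∈ N, s ∉ H → ∃ ξ : O, s • α = ξ * α ∧ addVal O (ξ - 1) = z)
    {y c : O} {aa : ℕ} (haa : IsUnit (aa : O)) (hyc : y * c = α ^ aa) (hc0 : c ≠ 0)
    (hcN : ∀ s ∈ N, s • c = c)
    (hyv : addVal O y = (univ.filter (· ∈ H)).card)
    (hy : ∀ x : O, (∀ h ∈ H, h • x = x) → ∃ q : O₀[X], aeval y q = x) :
    False := by
  obtain ⟨A, hA, hsum⟩ := exists_sum_bound O₀ hinv hfix hres π hπ ϖ₀ ε₀ hϖ₀e a t ha p hroot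
  exact KummerCor.kummer_val_false O₀ hfix hπ (addVal_of_eq hπ ha) A hA p hp2 hsum N H hHN hne
    hindex e he z hz hξ haa hyc hc0 hcN hyv hy

end Fermat.Agent.GP.Flat.KummerCorRoots
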