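/-
GATE-P / S56 [P-FLAT](iv), MAIN route glue, part 4 (helper28): the END of the abstract main route.
In the abstract DVR setting of `Converse` / `PmBound` / `PmRoot` (helper5):

  `(P_m)` + root bridge (`hPmO`, = helper15 `fixes_points` ∘ helper26 `DvrInst`)  [or `hroot`]
  + `hU` (value group of `O₀` is `|G| ℤ`)  +  KUMMER DATA ONLY
      (`H ≤ N ≤ G`, `|N| = p |H|`, `|G| = e |N|`, an `H`-invariant `α` with `s α = ξ_s α`,
       `v (ξ_s - 1) (p - 1) = |G|` for `s ∈ N \ H`)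
  ⟹ `kummer_level_ge_of_pm`  : `α` a unit, `v (α - 1) = j |H|`, `p ∤ j`  ⟹  `e ≤ j`;
  ⟹ `kummer_val_false_of_pm` : `v α = j |H|`, `p ∤ j`  ⟹  `False`.

I.e. every Kummer generator `u = α ^ p` of a degree-`p` subextension of `L/K` (`K = L^N`) has
`p ∣ v_K u`, and, once `p ∤ j = v_K (u - 1) < p e/(p-1)`, has `j ≥ e`: `u ∈ (1 + p 𝒪_K)`.
No uniformizer / monogenicity / `A` / sum bound appears in the statements.
-/
import Mathlib
import Fermat.Agent.GP.Flat.PmRoot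
import Fermat.Agent.GP.Flat.KummerCorRoots
import Fermat.Agent.GP.Flat.KummerCorInv

set_option autoImplicit false
set_option linter.unusedSectionVars false

namespace Fermat.Agent.GP.Flat.KummerCorFinal

open Polynomial IsLocalRing Finset
open IsDiscreteValuationRing (addVal)

variable {O : Type*} [CommRing O] [IsDomain O] [IsDiscreteValuationRing O]
variable {G : Type*} [Group G] [Fintype G] [DecidableEq G] [MulSemiringAction G O]

section Roots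

variable [Finite (ResidueField O)]
  (O₀ : Subring O) (hinv : ∀ x : O, (∀ g : G, g • x = x) → x ∈ O₀)
  (hfix : ∀ (g : G) (x : O), x ∈ O₀ → g • x = x)
  (hres : ∀ x : O, ∃ y ∈ O₀, x - y ∈ maximalIdeal O)
  (hU : ∀ t ∈ O₀, t ≠ 0 → ∃ k : ℕ, addVal O t = ((k * Fintype.card G : ℕ) : ℕ∞))
  (π : O) (hπ : Irreducible π) (ϖ₀ : O₀) (ε₀ : Oˣ)
  (hϖ₀e : (ϖ₀ : O) = ε₀ * π ^ Fintype.card G)
  (a : G → ℕ) (t : G → Oˣ) (ha : ∀ σ : G, σ ≠ 1 → σ • π - π = t σ * π ^ a σ)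
  (p : ℕ) (hp : p.Prime) (hpO : (p : O) ∈ maximalIdeal O)
  (hroot : ∀ (u : O₀) (n r : ℕ), IsUnit (u : O) → r < Fintype.card G → 1 ≤ n →
    (r = 0 → 2 ≤ n) → p * Fintype.card G < (p - 1) * (n * Fintype.card G + r) →
    ∃ x : O, aeval x (PmBound.pertPoly O₀ hinv π (u * ϖ₀ ^ n) r) = 0)
  (N H : Subgroup G) (hHN : H ≤ N) (hindex : Nat.card N = p * Nat.card H)
  (e : ℕ) (he : Fintype.card G = e * Nat.card N)
  (z : ℕ) (hz : z * (p - 1) = Fintype.card G)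

include hinv hfix hres hU hπ hϖ₀e ha hp hpO hroot hHN hindex he hz

/-- root-property form of `KummerCorInv.kummer_level_ge` -/
theorem kummer_level_ge_of_roots {α : O} (hα : IsUnit α) (hαH : ∀ h ∈ H, h • α = α)
    (hξ : ∀ s ∈ N, s ∉ H → ∃ ξ : O, s • α = ξ * α ∧ addVal O (ξ - 1) = z)
    (j : ℕ) (hw : addVal O (α - 1) = ((j * Nat.card H : ℕ) : ℕ∞)) (hj : ¬ p ∣ j) :
    e ≤ j := by
  obtain ⟨A, hA, hsum⟩ :=
    KummerCorRoots.exists_sum_bound O₀ hinv hfix hres π hπ ϖ₀ ε₀ hϖ₀e a t ha p hroot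
  exact KummerCorInv.kummer_level_ge O₀ hinv hfix hres hU hπ (KummerCorRoots.addVal_of_eq hπ ha)
    A hA p hp hpO hsum N H hHN hindex e he z hz hα hαH hξ j hw hj

/-- root-property form of `KummerCorInv.kummer_val_false` -/
theorem kummer_val_false_of_roots {α : O} (hαH : ∀ h ∈ H, h • α = α)
    (hξ : ∀ s ∈ N, s ∉ H → ∃ ξ : O, s • α = ξ * α ∧ addVal O (ξ - 1) = z)
    (j : ℕ) (hw : addVal O α = ((j * Nat.card H : ℕ) : ℕ∞)) (hj : ¬ p ∣ j) :
    False := by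
  obtain ⟨A, hA, hsum⟩ :=
    KummerCorRoots.exists_sum_bound O₀ hinv hfix hres π hπ ϖ₀ ε₀ hϖ₀e a t ha p hroot
  exact KummerCorInv.kummer_val_false O₀ hinv hfix hres hU hπ (KummerCorRoots.addVal_of_eq hπ ha)
    A hA p hp hpO hsum N H hHN hindex e he z hz hαH hξ j hw hj

end Roots

section NatCast

variable {M : Type*} [Field M] {Γ₀ : Type*} [LinearOrderedCommGroupWithZero Γ₀]
  (v : Valuation M Γ₀) (ι : O →+* M)

omit [Fintype G] [DecidableEq G] [MulSemiringAction G O] [Group G] in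
/-- `p` lies in the maximal ideal of `O` as soon as `v p = v π ^ n < 1` -/
theorem natCast_mem_maximalIdeal (hvO : ∀ x : O, v (ι x) ≤ 1) {π : O} (hvπ : v (ι π) < 1)
    {p n : ℕ} (hn : n ≠ 0) (hvp : v (p : M) = v (ι π) ^ n) : (p : O) ∈ maximalIdeal O := by
  by_contra hcon
  have hunit : IsUnit (p : O) := notMem_maximalIdeal.1 hcon
  have h1 : v (ι (p : O)) = 1 := PmRoot.val_unit v ι hvO hunit
  rw [map_natCast, hvp] at h1
  have h2 : v (ι π) ^ n < 1 := pow_lt_one₀ zero_le hvπ hn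
  rw [h1] at h2
  exact lt_irrefl _ h2

end NatCast

section Pm

variable {M : Type*} [Field M] [IsAlgClosed M] {Γ₀ : Type*} [LinearOrderedCommGroupWithZero Γ₀]
  (v : Valuation M Γ₀) (ι : O →+* M)
  [Finite (ResidueField O)]
  (O₀ : Subring O) (hinv : ∀ x : O, (∀ g : G, g • x = x) → x ∈ O₀)
  (hfix : ∀ (g : G) (x : O), x ∈ O₀ → g • x = x)
  (hres : ∀ x : O, ∃ y ∈ O₀, x - y ∈ maximalIdeal O)
  (hU : ∀ t ∈ O₀, t ≠ 0 → ∃ k : ℕ, addVal O t = ((k * Fintype.card G : ℕ) : ℕ∞))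
  (hι : Function.Injective ι) (hvO : ∀ x : O, v (ι x) ≤ 1)
  (π : O) (hπ : Irreducible π) (hvπ : v (ι π) < 1)
  (p : ℕ) (hp : p.Prime) (hvp : v (p : M) = v (ι π) ^ Fintype.card G)
  (ϖ₀ : O₀) (ε₀ : Oˣ) (hϖ₀e : (ϖ₀ : O) = ε₀ * π ^ Fintype.card G)
  (a : G → ℕ) (t : G → Oˣ) (ha : ∀ σ : G, σ ≠ 1 → σ • π - π = t σ * π ^ a σ)
  (hPmO : ∀ (q : O₀[X]) (β : M), q.Monic → q.natDegree = Fintype.card G →
    (q.map (ι.comp O₀.subtype)).eval β = 0 →
    v β ^ Fintype.card G = v (p : M) →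
    v (((PmBound.orbitPoly₀ O₀ hinv π).map (ι.comp O₀.subtype)).eval β) ^ (p - 1)
      < v (p : M) ^ p →
    ∃ x : O, ι x = β)
  (N H : Subgroup G) (hHN : H ≤ N) (hindex : Nat.card N = p * Nat.card H)
  (e : ℕ) (he : Fintype.card G = e * Nat.card N)
  (z : ℕ) (hz : z * (p - 1) = Fintype.card G)

include hinv hfix hres hU hι hvO hπ hvπ hp hvp hϖ₀e ha hPmO hHN hindex he hz

/-- **Kummer generators have level `≥ e`**, from `(P_m)` + root bridge. -/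
theorem kummer_level_ge_of_pm {α : O} (hα : IsUnit α) (hαH : ∀ h ∈ H, h • α = α)
    (hξ : ∀ s ∈ N, s ∉ H → ∃ ξ : O, s • α = ξ * α ∧ addVal O (ξ - 1) = z)
    (j : ℕ) (hw : addVal O (α - 1) = ((j * Nat.card H : ℕ) : ℕ∞)) (hj : ¬ p ∣ j) :
    e ≤ j :=
  kummer_level_ge_of_roots O₀ hinv hfix hres hU π hπ ϖ₀ ε₀ hϖ₀e a t ha p hp
    (natCast_mem_maximalIdeal v ι hvO hvπ Fintype.card_ne_zero hvp)
    (fun u n r hu hr hn hr0 hprec =>
      PmRoot.exists_root_of_pm v ι O₀ hinv hι hvO π hπ hvπ p hvp ϖ₀ ε₀ hϖ₀e hPmO u n r hu hr hn hr0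
        hprec)
    N H hHN hindex e he z hz hα hαH hξ j hw hj

/-- **The valuation of a Kummer generator is divisible by `p`**, from `(P_m)` + root bridge. -/
theorem kummer_val_false_of_pm {α : O} (hαH : ∀ h ∈ H, h • α = α)
    (hξ : ∀ s ∈ N, s ∉ H → ∃ ξ : O, s • α = ξ * α ∧ addVal O (ξ - 1) = z)
    (j : ℕ) (hw : addVal O α = ((j * Nat.card H : ℕ) : ℕ∞)) (hj : ¬ p ∣ j) :
    False :=
  kummer_val_false_of_roots O₀ hinv hfix hres hU π hπ ϖ₀ ε₀ hϖ₀e a t ha p hp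
    (natCast_mem_maximalIdeal v ι hvO hvπ Fintype.card_ne_zero hvp)
    (fun u n r hu hr hn hr0 hprec =>
      PmRoot.exists_root_of_pm v ι O₀ hinv hι hvO π hπ hvπ p hvp ϖ₀ ε₀ hϖ₀e hPmO u n r hu hr hn hr0
        hprec)
    N H hHN hindex e he z hz hαH hξ j hw hj

end Pm

end Fermat.Agent.GP.Flat.KummerCorFinal
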