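/-
GATE-P / S56 [P-FLAT](iv), MAIN route glue, part 5 (helper28): **the normal-form step**, in the
abstract DVR setting of `Converse` / `PmBound` (helper5).

Input: the level bound `hlevel` (= `KummerCorFinal.kummer_level_ge_of_pm`, or any other producer,
e.g. the hedge route) in the form
  "an `H`-invariant unit `α` (`H ≤ N`, `|N| = p |H|`) with `s α = ξ_s α`, `v (ξ_s - 1) = z`
   (`s ∈ N \ H`), `v (α - 1) = j |H|`, `p ∤ j` has `e ≤ j`".
Output (`exists_unit_mul_pow_sub_one_dvd`): for every unit `α` of `O` whose `p`-th power is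
`N`-invariant (a Kummer generator `u = α ^ p ∈ K = L^N`) there is an `N`-invariant unit `w` with

        `p ∣ (α w) ^ p - 1`,       i.e.   `u ∈ (1 + p 𝒪_K) (K^×)^p`.

Ingredients proved here: Kummer characters (`s α = ζ ^ k α`), the index of the stabiliser is `1` or
`p`, `v (ζ ^ k - 1) (p - 1) = v p`, `v (α ^ p - 1) = p v (α - 1)` below the top level, level raising
at the levels divisible by `p` (perfect residue field), induction on the level.
-/
import Mathlib
import Fermat.Agent.GP.Flat.KummerCorInv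

set_option autoImplicit false
set_option linter.unusedSectionVars false

namespace Fermat.Agent.GP.Flat.KummerCorNF

open IsLocalRing Finset Polynomial
open IsDiscreteValuationRing (addVal)

variable {O : Type*} [CommRing O] [IsDomain O] [IsDiscreteValuationRing O]

section Basic

theorem addVal_eq_zero_of_isUnit {x : O} (h : IsUnit x) : addVal O x = 0 :=
  IsDiscreteValuationRing.addVal_eq_zero_iff.2 h

theorem addVal_pos_of_mem {x : O} (h : x ∈ maximalIdeal O) : 0 < addVal O x := by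
  rw [pos_iff_ne_zero]
  intro h0
  exact (notMem_maximalIdeal.2 (IsDiscreteValuationRing.addVal_eq_zero_iff.1 h0)) h

theorem mem_of_addVal_pos {x : O} (h : 0 < addVal O x) : x ∈ maximalIdeal O := by
  by_contra hcon
  rw [addVal_eq_zero_of_isUnit (notMem_maximalIdeal.1 hcon)] at h
  exact lt_irrefl _ h

theorem addVal_add_eq_of_lt {a b : O} (h : addVal O a < addVal O b) :
    addVal O (a + b) = addVal O a :=
  (addVal O).map_add_eq_of_lt_left h

/-- `1 + m` is a unit for `m` in the maximal ideal -/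
theorem isUnit_one_add {m : O} (hm : m ∈ maximalIdeal O) : IsUnit (1 + m) := by
  rw [← notMem_maximalIdeal]
  intro h
  have : (1 : O) ∈ maximalIdeal O := by
    have h1 : (1 : O) = (1 + m) - m := by ring
    rw [h1]
    exact Ideal.sub_mem _ h hm
  exact (Ideal.ne_top_iff_one _).1 (maximalIdeal.isMaximal O).ne_top this

end Basic

section Roots

variable {p : ℕ} {ζ : O}

/-- `ζ ^ a = ζ ^ b` forces `a = b` in `ZMod p`. -/
theorem natCast_eq_of_pow_eq (hp : p.Prime) (hζ : IsPrimitiveRoot ζ p) {a b : ℕ}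
    (h : ζ ^ a = ζ ^ b) : (a : ZMod p) = (b : ZMod p) := by
  have hp1 : 1 ≤ p := hp.one_lt.le
  have h1 : ζ ^ (a + (p - 1) * b) = 1 := by
    rw [pow_add, h, ← pow_add]
    have : b + (p - 1) * b = p * b := by
      obtain ⟨q, rfl⟩ : ∃ q, p = q + 1 := ⟨p - 1, by omega⟩
      simp only [Nat.add_sub_cancel]; ring
    rw [this, pow_mul, hζ.pow_eq_one, one_pow]
  have h2 : p ∣ a + (p - 1) * b := (hζ.pow_eq_one_iff_dvd _).1 h1
  have h3 : ((a + (p - 1) * b : ℕ) : ZMod p) = 0 := (ZMod.natCast_eq_zero_iff _ _).2 h2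
  push_cast at h3
  have h4 : ((p - 1 : ℕ) : ZMod p) = -1 := by
    have : ((p - 1 : ℕ) : ZMod p) + 1 = 0 := by
      have h5 : ((p - 1 + 1 : ℕ) : ZMod p) = 0 := by
        rw [Nat.sub_add_cancel hp1]; exact ZMod.natCast_self p
      push_cast at h5
      exact h5
    exact eq_neg_of_add_eq_zero_left this
  rw [h4] at h3
  linear_combination h3

/-- `v (ζ ^ k - 1) = v (ζ - 1)` for `p ∤ k`. -/
theorem addVal_pow_sub_one (hp : p.Prime) (hζ : IsPrimitiveRoot ζ p) {k : ℕ} (hk : ¬ p ∣ k) :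
    addVal O (ζ ^ k - 1) = addVal O (ζ - 1) := by
  have hcop : k.Coprime p := ((Nat.Prime.coprime_iff_not_dvd hp).2 hk).symm
  obtain ⟨h1, h2⟩ := (hζ.associated_sub_one_pow_sub_one_of_coprime hcop).dvd_dvd
  exact le_antisymm (IsDiscreteValuationRing.addVal_le_iff_dvd.2 h2)
    (IsDiscreteValuationRing.addVal_le_iff_dvd.2 h1)

/-- `(p - 1) v (ζ - 1) = v p`. -/
theorem addVal_sub_one_mul (hp : p.Prime) (hζ : IsPrimitiveRoot ζ p) :
    (p - 1) • addVal O (ζ - 1) = addVal O (p : O) := by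
  obtain ⟨n, rfl⟩ : ∃ n, p = n + 1 := ⟨p - 1, by have := hp.one_lt; omega⟩
  have h1 := hζ.prod_one_sub_pow_eq_order
  have h2 : addVal O (∏ k ∈ range n, (1 - ζ ^ (k + 1))) = ∑ _k ∈ range n, addVal O (ζ - 1) := by
    rw [(KummerCor.isVal_addVal (O := O)).map_prod]
    refine Finset.sum_congr rfl fun k hk => ?_
    rw [(KummerCor.isVal_addVal (O := O)).map_sub_comm]
    refine addVal_pow_sub_one hp hζ ?_
    intro hdvd
    have := Nat.le_of_dvd (Nat.succ_pos k) hdvd
    rw [Finset.mem_range] at hk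
    omega
  rw [h1, Finset.sum_const, Finset.card_range] at h2
  rw [Nat.add_sub_cancel, ← h2]
  push_cast
  rfl

end Roots

variable {G : Type*} [Group G] [MulSemiringAction G O]

section Character

variable {p : ℕ} {ζ : O} (hp : p.Prime) (hζ : IsPrimitiveRoot ζ p)
  (N : Subgroup G) (hζN : ∀ s ∈ N, s • ζ = ζ)
  {α : O} (hα0 : α ≠ 0) (hαp : ∀ s ∈ N, s • (α ^ p) = α ^ p)

include hp hζ hα0 hαp in
/-- **Kummer character**: `s α = ζ ^ k α`. -/
theorem exists_pow_smul_eq (s : G) (hs : s ∈ N) : ∃ k : ℕ, s • α = ζ ^ k * α := by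
  have h1 : (s • α) ^ p - α ^ p = 0 := by rw [← smul_pow', hαp s hs, sub_self]
  rw [hζ.pow_sub_pow_eq_prod_sub_mul _ _ hp.pos, Finset.prod_eq_zero_iff] at h1
  obtain ⟨μ, hμ, h2⟩ := h1
  have : NeZero p := ⟨hp.ne_zero⟩
  have hμp : μ ^ p = 1 := ((mem_nthRootsFinset hp.pos (1 : O)).1 hμ)
  obtain ⟨i, -, hi⟩ := hζ.eq_pow_of_pow_eq_one hμp
  exact ⟨i, by rw [hi]; exact sub_eq_zero.1 h2⟩

/-- the stabiliser of `α` in `N` -/
def stab (N : Subgroup G) (α : O) : Subgroup G := N ⊓ MulAction.stabilizer G α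

omit [IsDiscreteValuationRing O] [IsDomain O] in
theorem mem_stab {N : Subgroup G} {α : O} {s : G} : s ∈ stab N α ↔ s ∈ N ∧ s • α = α := by
  unfold stab
  rw [Subgroup.mem_inf, MulAction.mem_stabilizer_iff]

omit [IsDiscreteValuationRing O] [IsDomain O] in
theorem stab_le (N : Subgroup G) (α : O) : stab N α ≤ N := inf_le_left

variable (k : G → ℕ) (hk : ∀ s ∈ N, s • α = ζ ^ k s * α)

include hp hζ hζN hα0 hk in
theorem natCast_mul (s t : G) (hs : s ∈ N) (ht : t ∈ N) :
    (k (s * t) : ZMod p) = k s + k t := by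
  have h1 : (s * t) • α = ζ ^ (k s + k t) * α := by
    rw [mul_smul, hk t ht, smul_mul', smul_pow', hζN s hs, hk s hs, pow_add]; ring
  rw [hk _ (N.mul_mem hs ht)] at h1
  have h2 := natCast_eq_of_pow_eq hp hζ (mul_right_cancel₀ hα0 h1)
  rw [h2]
  push_cast
  rfl

include hp hζ hα0 hk in
theorem natCast_eq_zero_iff (s : G) (hs : s ∈ N) : (k s : ZMod p) = 0 ↔ s • α = α := by
  constructor
  · intro h
    have hd : p ∣ k s := (ZMod.natCast_eq_zero_iff _ _).1 h
    rw [hk s hs, (hζ.pow_eq_one_iff_dvd _).2 hd, one_mul]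
  · intro h
    have h1 := hk s hs
    rw [h] at h1
    have h2 : ζ ^ k s = ζ ^ 0 := by
      rw [pow_zero]
      have : (1 : O) * α = ζ ^ k s * α := by rw [one_mul]; exact h1
      exact (mul_right_cancel₀ hα0 this).symm
    have := natCast_eq_of_pow_eq hp hζ h2
    simpa using this

/-- the Kummer character as a group homomorphism -/
noncomputable def kumHom (hmul : ∀ s t : G, s ∈ N → t ∈ N → (k (s * t) : ZMod p) = k s + k t) :
    N →* Multiplicative (ZMod p) where
  toFun s := Multiplicative.ofAdd (k (s : G) : ZMod p)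
  map_one' := by
    have h := hmul 1 1 N.one_mem N.one_mem
    rw [mul_one] at h
    have h0 : (k (1 : G) : ZMod p) = 0 := by linear_combination (-1 : ZMod p) * h
    show Multiplicative.ofAdd (k ((1 : N) : G) : ZMod p) = 1
    rw [Subgroup.coe_one, h0]
    rfl
  map_mul' s t := by
    show Multiplicative.ofAdd (k ((s * t : N) : G) : ZMod p) = _
    rw [Subgroup.coe_mul, hmul _ _ s.2 t.2]
    rfl

include hp hζ hζN hα0 hk in
/-- **The stabiliser of a Kummer element has index `1` or `p`.** -/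
theorem stab_eq_or_card [Finite G] :
    stab N α = N ∨ Nat.card N = p * Nat.card (stab N α) := by
  have : Fact p.Prime := ⟨hp⟩
  set φ := kumHom N k (natCast_mul hp hζ N hζN hα0 k hk) with hφ
  have hker : ∀ s : N, s ∈ φ.ker ↔ (s : G) • α = α := by
    intro s
    rw [MonoidHom.mem_ker]
    show Multiplicative.ofAdd (k (s : G) : ZMod p) = 1 ↔ _
    rw [← natCast_eq_zero_iff hp hζ N hα0 k hk s s.2]
    exact Iff.rfl
  have hmap : φ.ker.map N.subtype = stab N α := by
    ext s
    rw [Subgroup.mem_map, mem_stab]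
    constructor
    · rintro ⟨t, ht, rfl⟩
      exact ⟨t.2, (hker t).1 ht⟩
    · rintro ⟨hsN, hs⟩
      exact ⟨⟨s, hsN⟩, (hker ⟨s, hsN⟩).2 hs, rfl⟩
  have hcard : Nat.card (stab N α) = Nat.card φ.ker := by
    rw [← hmap]
    exact Subgroup.card_map_of_injective N.subtype_injective
  have h1 : Nat.card φ.ker * φ.ker.index = Nat.card N := Subgroup.card_mul_index _
  have h2 : φ.ker.index = Nat.card φ.range := Subgroup.index_ker φ
  have h3 : Nat.card φ.range ∣ p := by
    have := Subgroup.card_subgroup_dvd_card φ.range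
    rwa [Nat.card_eq_fintype_card (α := Multiplicative (ZMod p)), Fintype.card_multiplicative,
      ZMod.card] at this
  rcases (Nat.dvd_prime hp).1 h3 with h4 | h4
  · left
    have h5 : φ.ker.index = 1 := by rw [h2, h4]
    have h6 : φ.ker = ⊤ := Subgroup.index_eq_one.1 h5
    refine le_antisymm (stab_le N α) fun s hs => ?_
    rw [mem_stab]
    refine ⟨hs, (hker ⟨s, hs⟩).1 ?_⟩
    rw [h6]
    exact Subgroup.mem_top _
  · right
    rw [hcard, ← h1, h2, h4, mul_comm]

end Character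

section Unif

variable [Fintype G]

open Classical in
/-- a uniformizer of `O^N`: the norm `∏_{s ∈ N} s π` -/
noncomputable def unifN (N : Subgroup G) (π : O) : O := ∏ s : N, (s : G) • π

open Classical in
theorem smul_unifN (N : Subgroup G) (π : O) {t : G} (ht : t ∈ N) : t • unifN N π = unifN N π := by
  unfold unifN
  rw [Finset.smul_prod']
  refine Fintype.prod_equiv (Equiv.mulLeft (⟨t, ht⟩ : N)) _ _ fun s => ?_
  simp [mul_smul]

open Classical in
theorem addVal_unifN (N : Subgroup G) {π : O} (hπ : Irreducible π) :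
    addVal O (unifN N π) = (Nat.card N : ℕ) := by
  unfold unifN
  rw [(KummerCor.isVal_addVal (O := O)).map_prod]
  have : ∀ s : N, addVal O ((s : G) • π) = 1 := fun s => by
    rw [KummerCor.addVal_smul, IsDiscreteValuationRing.addVal_uniformizer hπ]
  rw [Finset.sum_congr rfl fun s _ => this s, Finset.sum_const, Finset.card_univ,
    Nat.card_eq_fintype_card]
  simp

theorem addVal_unifN_pow (N : Subgroup G) {π : O} (hπ : Irreducible π) (m : ℕ) :
    addVal O (unifN N π ^ m) = ((m * Nat.card N : ℕ) : ℕ∞) := by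
  rw [IsDiscreteValuationRing.addVal_pow, addVal_unifN N hπ]
  push_cast
  rw [nsmul_eq_mul]

theorem unifN_ne_zero (N : Subgroup G) {π : O} (hπ : Irreducible π) : unifN N π ≠ 0 := by
  intro h0
  have := addVal_unifN N hπ
  rw [h0, IsDiscreteValuationRing.addVal_zero] at this
  exact ENat.top_ne_natCast _ this

/-- an element whose valuation is `m |N|` is `(unit) * unifN ^ m`; if it is `N`-invariant, so is
the unit -/
theorem exists_eq_unifN_pow_mul (N : Subgroup G) {π : O} (hπ : Irreducible π) {x : O} {m : ℕ}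
    (hx : addVal O x = ((m * Nat.card N : ℕ) : ℕ∞)) :
    ∃ c : O, IsUnit c ∧ x = unifN N π ^ m * c ∧
      ((∀ s ∈ N, s • x = x) → ∀ s ∈ N, s • c = c) := by
  have hdvd : unifN N π ^ m ∣ x := by
    rw [← IsDiscreteValuationRing.addVal_le_iff_dvd, addVal_unifN_pow N hπ, hx]
  obtain ⟨c, hc⟩ := hdvd
  have hne : unifN N π ^ m ≠ 0 := pow_ne_zero _ (unifN_ne_zero N hπ)
  refine ⟨c, ?_, hc, fun hxN s hs => ?_⟩
  · rw [← IsDiscreteValuationRing.addVal_eq_zero_iff]
    have h1 : addVal O (unifN N π ^ m) + addVal O c = ((m * Nat.card N : ℕ) : ℕ∞) := by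
      rw [← IsDiscreteValuationRing.addVal_mul, ← hc, hx]
    rw [addVal_unifN_pow N hπ] at h1
    have h2 : addVal O c ≠ ⊤ := by
      intro htop
      rw [htop, add_top] at h1
      exact ENat.top_ne_natCast _ h1
    obtain ⟨n, hn⟩ := ENat.ne_top_iff_exists.1 h2
    rw [← hn] at h1 ⊢
    have h3 : m * Nat.card N + n = m * Nat.card N := by exact_mod_cast h1
    have : n = 0 := by omega
    rw [this]
    rfl
  · have h1 := hxN s hs
    rw [hc, smul_mul', smul_pow', smul_unifN N π hs] at h1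
    exact mul_left_cancel₀ hne h1

end Unif

section PowSubOne

variable {p : ℕ} (hp : p.Prime)

include hp in
/-- `α ^ p - 1 = (α - 1) ^ p + p (α - 1) S` -/
theorem pow_sub_one_eq (α : O) : ∃ S : O, α ^ p - 1 = (α - 1) ^ p + (p : O) * (α - 1) * S := by
  have h := add_pow_prime_eq hp (1 : O) (α - 1)
  have h1 : (1 : O) + (α - 1) = α := by ring
  rw [h1, one_pow] at h
  refine ⟨∑ k ∈ Finset.Ioo 0 p, 1 ^ (k - 1) * (α - 1) ^ (p - k - 1) * ((p.choose k / p : ℕ) : O),
    ?_⟩
  rw [h]; ring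

include hp in
/-- below the top level `v (α ^ p - 1) = p v (α - 1)` -/
theorem addVal_pow_sub_one_eq {α : O} {z g : ℕ} (hz : z * (p - 1) = g)
    (hpv : addVal O (p : O) = (g : ℕ))
    (hlt : addVal O (α ^ p - 1) < ((p * z : ℕ) : ℕ∞)) :
    addVal O (α ^ p - 1) = p • addVal O (α - 1) := by
  obtain ⟨S, hS⟩ := pow_sub_one_eq hp α
  have hp1 : 1 ≤ p := hp.one_lt.le
  by_cases hβ : α - 1 = 0
  · exfalso
    rw [hS, hβ, zero_pow hp.ne_zero, mul_zero, zero_mul, add_zero,
      IsDiscreteValuationRing.addVal_zero] at hlt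
    exact not_top_lt hlt
  have hβtop : addVal O (α - 1) ≠ ⊤ := fun h => hβ (IsDiscreteValuationRing.addVal_eq_top_iff.1 h)
  obtain ⟨n, hn⟩ := ENat.ne_top_iff_exists.1 hβtop
  have h1 : addVal O ((α - 1) ^ p) = ((p * n : ℕ) : ℕ∞) := by
    rw [IsDiscreteValuationRing.addVal_pow, ← hn]
    push_cast
    rw [nsmul_eq_mul]
  have h2 : ((g + n : ℕ) : ℕ∞) ≤ addVal O ((p : O) * (α - 1) * S) := by
    rw [IsDiscreteValuationRing.addVal_mul, IsDiscreteValuationRing.addVal_mul, hpv, ← hn]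
    push_cast
    exact le_self_add
  obtain ⟨P, rfl⟩ : ∃ P, p = P + 1 := ⟨p - 1, by omega⟩
  simp only [Nat.add_sub_cancel] at hz
  by_cases hnz : n < z
  · have h3 : (P + 1) * n < g + n := by
      rw [← hz]
      have : P * n ≤ z * P := by rw [mul_comm]; exact Nat.mul_le_mul_right _ hnz.le
      rcases Nat.eq_zero_or_pos P with hP0 | hPpos
      · subst hP0
        exact absurd hp (by decide)
      · have : P * n < z * P := by
          rw [mul_comm z P]
          exact Nat.mul_lt_mul_of_pos_left hnz hPpos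
        nlinarith
    have h4 : addVal O ((α - 1) ^ (P + 1)) < addVal O (((P + 1 : ℕ) : O) * (α - 1) * S) := by
      rw [h1]
      refine lt_of_lt_of_le ?_ h2
      exact_mod_cast h3
    rw [hS, addVal_add_eq_of_lt h4, h1, ← hn]
    push_cast
    rw [nsmul_eq_mul]
    push_cast
    rfl
  · exfalso
    have hzn : z ≤ n := by omega
    have h3 : ((P + 1) * z : ℕ) ≤ (P + 1) * n := Nat.mul_le_mul_left _ hzn
    have h4 : ((P + 1) * z : ℕ) ≤ g + n := by
      rw [← hz]
      nlinarith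
    have h5 : (((P + 1) * z : ℕ) : ℕ∞) ≤ addVal O (α ^ (P + 1) - 1) := by
      rw [hS]
      refine le_trans (le_min ?_ ?_) IsDiscreteValuationRing.addVal_add
      · rw [h1]; exact_mod_cast h3
      · refine le_trans ?_ h2
        exact_mod_cast h4
    exact absurd hlt (not_lt.2 h5)

end PowSubOne

section Raise

variable [Fintype G]
  (O₀ : Subring O) (hinv : ∀ x : O, (∀ g : G, g • x = x) → x ∈ O₀)
  (hfix : ∀ (g : G) (x : O), x ∈ O₀ → g • x = x)
  (hU : ∀ t ∈ O₀, t ≠ 0 → ∃ k : ℕ, addVal O t = ((k * Fintype.card G : ℕ) : ℕ∞))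
  {π : O} (hπ : Irreducible π)
  {p : ℕ} (hp : p.Prime) (hp2 : p ≠ 2) (hpv : addVal O (p : O) = (Fintype.card G : ℕ))
  (hperf : ∀ x : O, ∃ d ∈ O₀, x - d ^ p ∈ maximalIdeal O)
  (N : Subgroup G) (e : ℕ) (he : Fintype.card G = e * Nat.card N)

include hinv hU in
/-- rounding up to the next multiple of `|N|` for `N`-invariant elements -/
theorem le_addVal_of_invariant {x : O} (hxN : ∀ s ∈ N, s • x = x) {i : ℕ}
    (h : ((i * Nat.card N + 1 : ℕ) : ℕ∞) ≤ addVal O x) :
    (((i + 1) * Nat.card N : ℕ) : ℕ∞) ≤ addVal O x := by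
  by_cases hx : x = 0
  · rw [hx, IsDiscreteValuationRing.addVal_zero]; exact le_top
  obtain ⟨k, hk⟩ := KummerCorInv.exists_addVal_eq_mul_card O₀ hinv hU N hx hxN
  rw [hk] at h ⊢
  have h1 : i * Nat.card N + 1 ≤ k * Nat.card N := by exact_mod_cast h
  have hNpos : 0 < Nat.card N := Nat.card_pos
  have h2 : i + 1 ≤ k := by
    by_contra hcon
    have : k ≤ i := by omega
    have := Nat.mul_le_mul_right (Nat.card N) this
    omega
  exact_mod_cast Nat.mul_le_mul_right (Nat.card N) h2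

include hinv hfix hU hπ hp hp2 hpv hperf he in
/-- **Level raising** at a level `i < e` divisible by `p`. -/
theorem exists_raise {u : O} (hu : IsUnit u) (huN : ∀ s ∈ N, s • u = u) {i : ℕ}
    (hi : addVal O (u - 1) = ((i * Nat.card N : ℕ) : ℕ∞)) (hpi : p ∣ i) (hie : i < e) :
    ∃ w : O, IsUnit w ∧ (∀ s ∈ N, s • w = w) ∧
      (((i + 1) * Nat.card N : ℕ) : ℕ∞) ≤ addVal O (u * w ^ p - 1) := by
  have hNpos : 0 < Nat.card N := Nat.card_pos
  rcases Nat.eq_zero_or_pos i with hi0 | hipos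
  · -- level `0`
    subst hi0
    obtain ⟨d, hd, hud⟩ := hperf u
    have hdu : IsUnit d := by
      rw [← notMem_maximalIdeal]
      intro hdm
      have : u ∈ maximalIdeal O := by
        have h1 : u = (u - d ^ p) + d ^ p := by ring
        rw [h1]
        exact Ideal.add_mem _ hud (Ideal.pow_mem_of_mem _ hdm p hp.pos)
      exact (notMem_maximalIdeal.2 hu) this
    obtain ⟨w, hw⟩ := hdu.exists_right_inv
    have hd0 : d ≠ 0 := hdu.ne_zero
    have hwu : IsUnit w := IsUnit.of_mul_eq_one d (by rw [mul_comm]; exact hw)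
    have hwN : ∀ s ∈ N, s • w = w := fun s _ => by
      have h1 : s • (d * w) = s • (1 : O) := by rw [hw]
      rw [smul_mul', hfix s d hd, smul_one, ← hw] at h1
      exact mul_left_cancel₀ hd0 h1
    refine ⟨w, hwu, hwN, ?_⟩
    have h2 : u * w ^ p - 1 = (u - d ^ p) * w ^ p := by
      have : d ^ p * w ^ p = 1 := by rw [← mul_pow, hw, one_pow]
      linear_combination this
    refine le_addVal_of_invariant O₀ hinv hU N (fun s hs => ?_) ?_
    · rw [smul_sub, smul_mul', smul_pow', huN s hs, hwN s hs, smul_one]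
    · rw [h2]
      have h3 : (u - d ^ p) * w ^ p ∈ maximalIdeal O := Ideal.mul_mem_right _ _ hud
      have h4 := addVal_pos_of_mem h3
      rw [zero_mul, zero_add]
      exact Order.one_le_iff_pos.2 h4
  · -- level `i = p m > 0`
    obtain ⟨m, rfl⟩ := hpi
    have hmpos : 0 < m := Nat.pos_of_mul_pos_left hipos
    have hu1N : ∀ s ∈ N, s • (u - 1) = u - 1 := fun s hs => by
      rw [smul_sub, huN s hs, smul_one]
    obtain ⟨c, hcu, hc, hcN⟩ := exists_eq_unifN_pow_mul N hπ hi
    have hcN' := hcN hu1N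
    obtain ⟨d, hd, hcd⟩ := hperf c
    set ϖ := unifN N π with hϖ
    have hϖm : ϖ ∈ maximalIdeal O := by
      refine mem_of_addVal_pos ?_
      rw [hϖ, addVal_unifN N hπ]
      exact_mod_cast hNpos
    set t := d * ϖ ^ m with ht
    have htm : -t ∈ maximalIdeal O :=
      (Ideal.neg_mem_iff _).2 (Ideal.mul_mem_left _ _ (Ideal.pow_mem_of_mem _ hϖm m hmpos))
    have hwu : IsUnit (1 + -t) := isUnit_one_add htm
    have hwN : ∀ s ∈ N, s • (1 + -t) = 1 + -t := fun s hs => by
      rw [smul_add, smul_one, smul_neg, ht, smul_mul', smul_pow', hfix s d hd, smul_unifN N π hs]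
    refine ⟨1 + -t, hwu, hwN, ?_⟩
    have hodd : Odd p := hp.odd_of_ne_two hp2
    have hpow := add_pow_prime_eq hp (1 : O) (-t)
    rw [one_pow, hodd.neg_pow] at hpow
    set S := ∑ k ∈ Finset.Ioo 0 p, (1 : O) ^ (k - 1) * (-t) ^ (p - k - 1) * ((p.choose k / p : ℕ) : O)
      with hS
    have htp : t ^ p = d ^ p * ϖ ^ (p * m) := by rw [ht, mul_pow, ← pow_mul, mul_comm m p]
    have hw : (1 + -t) ^ p = 1 - d ^ p * ϖ ^ (p * m) - (p : O) * t * S := by
      rw [hpow, htp]; ring
    have hkey : u * (1 + -t) ^ p - 1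
        = ϖ ^ (p * m) * (c - d ^ p) - ϖ ^ (p * m) * ϖ ^ (p * m) * (c * d ^ p)
          - u * ((p : O) * t * S) := by
      linear_combination u * hw + (1 - d ^ p * ϖ ^ (p * m)) * hc
    refine le_addVal_of_invariant O₀ hinv hU N (fun s hs => ?_) ?_
    · rw [smul_sub, smul_mul', smul_pow', huN s hs, hwN s hs, smul_one]
    · rw [hkey]
      have hϖv : addVal O (ϖ ^ (p * m)) = ((p * m * Nat.card N : ℕ) : ℕ∞) :=
        addVal_unifN_pow N hπ (p * m)
      have hT1 : ((p * m * Nat.card N + 1 : ℕ) : ℕ∞) ≤ addVal O (ϖ ^ (p * m) * (c - d ^ p)) := by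
        rw [IsDiscreteValuationRing.addVal_mul, hϖv]
        push_cast
        exact add_le_add le_rfl (Order.one_le_iff_pos.2 (addVal_pos_of_mem hcd))
      have hT2 : ((p * m * Nat.card N + 1 : ℕ) : ℕ∞)
          ≤ addVal O (ϖ ^ (p * m) * ϖ ^ (p * m) * (c * d ^ p)) := by
        rw [IsDiscreteValuationRing.addVal_mul, IsDiscreteValuationRing.addVal_mul, hϖv]
        refine le_trans ?_ le_self_add
        have : p * m * Nat.card N + 1 ≤ p * m * Nat.card N + p * m * Nat.card N := by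
          have : 1 ≤ p * m * Nat.card N := Nat.mul_pos hipos hNpos
          omega
        exact_mod_cast this
      have hT3 : ((p * m * Nat.card N + 1 : ℕ) : ℕ∞) ≤ addVal O (u * ((p : O) * t * S)) := by
        rw [IsDiscreteValuationRing.addVal_mul, IsDiscreteValuationRing.addVal_mul,
          IsDiscreteValuationRing.addVal_mul, hpv, addVal_eq_zero_of_isUnit hu, zero_add, add_assoc]
        refine le_trans ?_ le_self_add
        have : p * m * Nat.card N + 1 ≤ Fintype.card G := by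
          rw [he]
          have h1 : (p * m + 1) * Nat.card N ≤ e * Nat.card N := Nat.mul_le_mul_right _ hie
          have h2 : p * m * Nat.card N + 1 ≤ (p * m + 1) * Nat.card N := by
            rw [add_mul, one_mul]; omega
          exact le_trans h2 h1
        exact_mod_cast this
      refine le_trans (le_min (le_trans (le_min hT1 hT2) ((addVal O).map_sub _ _)) hT3)
        ((addVal O).map_sub _ _)

end Raise

section Main

variable [Fintype G]
  (O₀ : Subring O) (hinv : ∀ x : O, (∀ g : G, g • x = x) → x ∈ O₀)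
  (hfix : ∀ (g : G) (x : O), x ∈ O₀ → g • x = x)
  (hU : ∀ t ∈ O₀, t ≠ 0 → ∃ k : ℕ, addVal O t = ((k * Fintype.card G : ℕ) : ℕ∞))
  {π : O} (hπ : Irreducible π)
  {p : ℕ} (hp : p.Prime) (hp2 : p ≠ 2) (hpv : addVal O (p : O) = (Fintype.card G : ℕ))
  (hperf : ∀ x : O, ∃ d ∈ O₀, x - d ^ p ∈ maximalIdeal O)
  (N : Subgroup G) (e : ℕ) (he : Fintype.card G = e * Nat.card N)
  {ζ : O} (hζ : IsPrimitiveRoot ζ p) (hζN : ∀ s ∈ N, s • ζ = ζ)

include hp hpv hζ in
/-- `z = v (ζ - 1)` is a natural number with `z (p - 1) = |G|` -/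
theorem exists_z : ∃ z : ℕ, addVal O (ζ - 1) = z ∧ z * (p - 1) = Fintype.card G := by
  have h1 := addVal_sub_one_mul (O := O) hp hζ
  rw [hpv] at h1
  have hp1 : 1 ≤ p - 1 := by have := hp.two_le; omega
  have htop : addVal O (ζ - 1) ≠ ⊤ := by
    intro h
    rw [h] at h1
    have : (p - 1) • (⊤ : ℕ∞) = ⊤ := by
      rw [nsmul_eq_mul]
      exact ENat.mul_top (by exact_mod_cast (by omega : p - 1 ≠ 0))
    rw [this] at h1
    exact ENat.top_ne_natCast _ h1
  obtain ⟨z, hz⟩ := ENat.ne_top_iff_exists.1 htop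
  refine ⟨z, hz.symm, ?_⟩
  rw [← hz, nsmul_eq_mul] at h1
  have : (p - 1) * z = Fintype.card G := by exact_mod_cast h1
  rw [mul_comm]; exact this

variable
  (hlevel : ∀ (H : Subgroup G), H ≤ N → Nat.card N = p * Nat.card H →
      ∀ (z : ℕ), z * (p - 1) = Fintype.card G →
      ∀ {α : O}, IsUnit α → (∀ h ∈ H, h • α = α) →
      (∀ s ∈ N, s ∉ H → ∃ ξ : O, s • α = ξ * α ∧ addVal O (ξ - 1) = z) →
      ∀ j : ℕ, addVal O (α - 1) = ((j * Nat.card H : ℕ) : ℕ∞) → ¬ p ∣ j → e ≤ j)

include hp hpv he hζ hζN hlevel in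
/-- at a level `i < e` prime to `p` the Kummer element is already in `K` -/
theorem exists_inv_of_not_dvd {α : O} (hα : IsUnit α) (hαp : ∀ s ∈ N, s • (α ^ p) = α ^ p)
    {i : ℕ} (hi : addVal O (α ^ p - 1) = ((i * Nat.card N : ℕ) : ℕ∞)) (hie : i < e)
    (hpi : ¬ p ∣ i) :
    ∃ w : O, IsUnit w ∧ (∀ s ∈ N, s • w = w) ∧ (α * w) ^ p - 1 = 0 := by
  have hα0 : α ≠ 0 := hα.ne_zero
  have hk := fun s (hs : s ∈ N) => exists_pow_smul_eq hp hζ N hα0 hαp s hs
  classical
  let k : G → ℕ := fun s => if hs : s ∈ N then Classical.choose (hk s hs) else 0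
  have hkk : ∀ s ∈ N, s • α = ζ ^ k s * α := fun s hs => by
    simp only [k, dif_pos hs]
    exact Classical.choose_spec (hk s hs)
  rcases stab_eq_or_card hp hζ N hζN hα0 k hkk with hst | hst
  · -- `α` is `N`-invariant
    obtain ⟨w, hw⟩ := hα.exists_right_inv
    have hwu : IsUnit w := IsUnit.of_mul_eq_one α (by rw [mul_comm]; exact hw)
    refine ⟨w, hwu, fun s hs => ?_, by rw [hw, one_pow, sub_self]⟩
    have hsα : s • α = α := by
      have : s ∈ stab N α := by rw [hst]; exact hs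
      exact (mem_stab.1 this).2
    have h1 : s • (α * w) = s • (1 : O) := by rw [hw]
    rw [smul_mul', hsα, smul_one, ← hw] at h1
    exact mul_left_cancel₀ hα0 h1
  · -- index `p`: contradiction with the level bound
    exfalso
    obtain ⟨z, hz1, hz2⟩ := exists_z hp hpv hζ
    have hNpos : 0 < Nat.card N := Nat.card_pos
    have hHpos : 0 < Nat.card (stab N α) := Nat.card_pos
    have hp1 : 1 ≤ p := hp.one_lt.le
    -- `v (α^p - 1) < p z`
    have hlt : addVal O (α ^ p - 1) < ((p * z : ℕ) : ℕ∞) := by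
      rw [hi]
      have h1 : i * Nat.card N < e * Nat.card N := Nat.mul_lt_mul_of_pos_right hie hNpos
      have h2 : e * Nat.card N = z * (p - 1) := by rw [← he, hz2]
      have h3 : z * (p - 1) ≤ p * z := by
        rw [mul_comm]; exact Nat.mul_le_mul_right _ (Nat.sub_le _ _)
      exact_mod_cast lt_of_lt_of_le h1 (h2 ▸ h3)
    have hpow := addVal_pow_sub_one_eq hp hz2 hpv hlt
    -- `v (α - 1) = i |H|`
    have hw : addVal O (α - 1) = ((i * Nat.card (stab N α) : ℕ) : ℕ∞) := by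
      have htop : addVal O (α - 1) ≠ ⊤ := by
        intro h
        rw [h] at hpow
        have : p • (⊤ : ℕ∞) = ⊤ := by
          rw [nsmul_eq_mul]
          exact ENat.mul_top (by exact_mod_cast hp.ne_zero)
        rw [this, hi] at hpow
        exact ENat.top_ne_natCast _ hpow.symm
      obtain ⟨n, hn⟩ := ENat.ne_top_iff_exists.1 htop
      rw [← hn, hi, nsmul_eq_mul] at hpow
      rw [← hn]
      have h1 : i * Nat.card N = p * n := by exact_mod_cast hpow
      rw [hst] at h1
      have h2 : p * (i * Nat.card (stab N α)) = p * n := by rw [← h1]; ring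
      have := Nat.eq_of_mul_eq_mul_left hp.pos h2
      exact_mod_cast this.symm
    have hξ : ∀ s ∈ N, s ∉ stab N α → ∃ ξ : O, s • α = ξ * α ∧ addVal O (ξ - 1) = z := by
      intro s hs hsH
      refine ⟨ζ ^ k s, hkk s hs, ?_⟩
      rw [← hz1]
      refine addVal_pow_sub_one hp hζ fun hdvd => hsH ?_
      rw [mem_stab]
      refine ⟨hs, ?_⟩
      rw [hkk s hs, (hζ.pow_eq_one_iff_dvd _).2 hdvd, one_mul]
    have := hlevel (stab N α) (stab_le N α) hst z hz2 hα (fun h hh => (mem_stab.1 hh).2) hξ i hw hpi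
    omega

include hinv hfix hU hπ hp hp2 hpv hperf he hζ hζN hlevel in
/-- the induction on the level -/
theorem exists_unit_of_level (n : ℕ) : ∀ (i : ℕ) (α : O), IsUnit α →
    (∀ s ∈ N, s • (α ^ p) = α ^ p) → ((i * Nat.card N : ℕ) : ℕ∞) ≤ addVal O (α ^ p - 1) →
    e ≤ i + n →
    ∃ w : O, IsUnit w ∧ (∀ s ∈ N, s • w = w) ∧
      ((Fintype.card G : ℕ) : ℕ∞) ≤ addVal O ((α * w) ^ p - 1) := by
  have hdone : ∀ (i : ℕ) (α : O), ((i * Nat.card N : ℕ) : ℕ∞) ≤ addVal O (α ^ p - 1) → e ≤ i →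
      ∃ w : O, IsUnit w ∧ (∀ s ∈ N, s • w = w) ∧
        ((Fintype.card G : ℕ) : ℕ∞) ≤ addVal O ((α * w) ^ p - 1) := by
    intro i α hi hei
    refine ⟨1, isUnit_one, fun s _ => smul_one s, ?_⟩
    rw [mul_one]
    refine le_trans ?_ hi
    rw [he]
    exact_mod_cast Nat.mul_le_mul_right _ hei
  induction n with
  | zero =>
    intro i α _ _ hi hei
    exact hdone i α hi (by omega)
  | succ n ih =>
    intro i α hα hαp hi hei
    by_cases hie : e ≤ i
    · exact hdone i α hi hie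
    rw [not_le] at hie
    by_cases hnext : (((i + 1) * Nat.card N : ℕ) : ℕ∞) ≤ addVal O (α ^ p - 1)
    · exact ih (i + 1) α hα hαp hnext (by omega)
    -- the level is exactly `i`
    have hu1N : ∀ s ∈ N, s • (α ^ p - 1) = α ^ p - 1 := fun s hs => by
      rw [smul_sub, hαp s hs, smul_one]
    have hne : α ^ p - 1 ≠ 0 := by
      intro h0
      rw [h0, IsDiscreteValuationRing.addVal_zero] at hnext
      exact hnext le_top
    obtain ⟨k, hk⟩ := KummerCorInv.exists_addVal_eq_mul_card O₀ hinv hU N hne hu1N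
    have hNpos : 0 < Nat.card N := Nat.card_pos
    have hki : k = i := by
      rw [hk] at hi hnext
      have h1 : i * Nat.card N ≤ k * Nat.card N := by exact_mod_cast hi
      have h2 : ¬ (i + 1) * Nat.card N ≤ k * Nat.card N := by exact_mod_cast hnext
      have h3 : i ≤ k := Nat.le_of_mul_le_mul_right h1 hNpos
      have h4 : k < i + 1 := by
        by_contra hcon
        exact h2 (Nat.mul_le_mul_right _ (by omega))
      omega
    rw [hki] at hk
    by_cases hpi : p ∣ i
    · -- raise the level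
      obtain ⟨w₁, hw₁u, hw₁N, hw₁⟩ := exists_raise O₀ hinv hfix hU hπ hp hp2 hpv hperf N e he
        (hα.pow p) hαp hk hpi hie
      have hα₁ : IsUnit (α * w₁) := hα.mul hw₁u
      have hα₁p : ∀ s ∈ N, s • ((α * w₁) ^ p) = (α * w₁) ^ p := fun s hs => by
        rw [mul_pow, smul_mul', hαp s hs, smul_pow', hw₁N s hs]
      have hlev : (((i + 1) * Nat.card N : ℕ) : ℕ∞) ≤ addVal O ((α * w₁) ^ p - 1) := by
        rw [mul_pow]; exact hw₁
      obtain ⟨w₂, hw₂u, hw₂N, hw₂⟩ := ih (i + 1) (α * w₁) hα₁ hα₁p hlev (by omega)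
      refine ⟨w₁ * w₂, hw₁u.mul hw₂u, fun s hs => ?_, ?_⟩
      · rw [smul_mul', hw₁N s hs, hw₂N s hs]
      · rw [← mul_assoc]; exact hw₂
    · obtain ⟨w, hwu, hwN, hw⟩ := exists_inv_of_not_dvd hp hpv N e he hζ hζN hlevel hα hαp hk hie hpi
      refine ⟨w, hwu, hwN, ?_⟩
      rw [hw, IsDiscreteValuationRing.addVal_zero]
      exact le_top

include hinv hfix hU hπ hp hp2 hpv hperf he hζ hζN hlevel in
/-- **Normal form (unit case)**: a unit `α` with `α ^ p ∈ O^N` can be multiplied by an `N`-invariant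
unit `w` such that `(α w) ^ p ≡ 1 mod p`:  `u = α ^ p ∈ (1 + p 𝒪_K)(K^×)^p`. -/
theorem exists_unit_mul_pow_sub_one_dvd {α : O} (hα : IsUnit α)
    (hαp : ∀ s ∈ N, s • (α ^ p) = α ^ p) :
    ∃ w : O, IsUnit w ∧ (∀ s ∈ N, s • w = w) ∧ (p : O) ∣ (α * w) ^ p - 1 := by
  obtain ⟨w, hwu, hwN, hw⟩ := exists_unit_of_level O₀ hinv hfix hU hπ hp hp2 hpv hperf N e he hζ hζN
    hlevel e 0 α hα hαp (by simp) (by omega)
  refine ⟨w, hwu, hwN, ?_⟩
  rw [← IsDiscreteValuationRing.addVal_le_iff_dvd, hpv]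
  exact hw

variable
  (hvalF : ∀ (H : Subgroup G), H ≤ N → Nat.card N = p * Nat.card H →
      ∀ (z : ℕ), z * (p - 1) = Fintype.card G →
      ∀ {α : O}, (∀ h ∈ H, h • α = α) →
      (∀ s ∈ N, s ∉ H → ∃ ξ : O, s • α = ξ * α ∧ addVal O (ξ - 1) = z) →
      ∀ j : ℕ, addVal O α = ((j * Nat.card H : ℕ) : ℕ∞) → ¬ p ∣ j → False)

include hinv hU hπ hp hpv hζ hζN hvalF in
/-- **Normal form (valuation)**: a nonzero `α` with `α ^ p ∈ O^N` is `unifN ^ m * (unit)`, and the
unit is again a Kummer element. -/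
theorem exists_eq_unifN_pow_mul_unit {α : O} (hα0 : α ≠ 0)
    (hαp : ∀ s ∈ N, s • (α ^ p) = α ^ p) :
    ∃ (m : ℕ) (α' : O), α = unifN N π ^ m * α' ∧ IsUnit α' ∧
      ∀ s ∈ N, s • (α' ^ p) = α' ^ p := by
  have hk := fun s (hs : s ∈ N) => exists_pow_smul_eq hp hζ N hα0 hαp s hs
  classical
  let k : G → ℕ := fun s => if hs : s ∈ N then Classical.choose (hk s hs) else 0
  have hkk : ∀ s ∈ N, s • α = ζ ^ k s * α := fun s hs => by
    simp only [k, dif_pos hs]
    exact Classical.choose_spec (hk s hs)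
  have hfin : ∀ {m : ℕ}, addVal O α = ((m * Nat.card N : ℕ) : ℕ∞) →
      ∃ (m : ℕ) (α' : O), α = unifN N π ^ m * α' ∧ IsUnit α' ∧
        ∀ s ∈ N, s • (α' ^ p) = α' ^ p := by
    intro m hm
    obtain ⟨c, hcu, hc, -⟩ := exists_eq_unifN_pow_mul N hπ hm
    refine ⟨m, c, hc, hcu, fun s hs => ?_⟩
    have h1 := hαp s hs
    rw [hc, mul_pow, smul_mul', smul_pow', smul_pow', smul_unifN N π hs] at h1
    exact mul_left_cancel₀ (pow_ne_zero _ (pow_ne_zero _ (unifN_ne_zero N hπ))) h1
  rcases stab_eq_or_card hp hζ N hζN hα0 k hkk with hst | hst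
  · have hαN : ∀ s ∈ N, s • α = α := fun s hs => by
      have : s ∈ stab N α := by rw [hst]; exact hs
      exact (mem_stab.1 this).2
    obtain ⟨m, hm⟩ := KummerCorInv.exists_addVal_eq_mul_card O₀ hinv hU N hα0 hαN
    exact hfin hm
  · obtain ⟨z, hz1, hz2⟩ := exists_z hp hpv hζ
    obtain ⟨j, hj⟩ := KummerCorInv.exists_addVal_eq_mul_card O₀ hinv hU (stab N α) hα0
      (fun h hh => (mem_stab.1 hh).2)
    have hξ : ∀ s ∈ N, s ∉ stab N α → ∃ ξ : O, s • α = ξ * α ∧ addVal O (ξ - 1) = z := by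
      intro s hs hsH
      refine ⟨ζ ^ k s, hkk s hs, ?_⟩
      rw [← hz1]
      refine addVal_pow_sub_one hp hζ fun hdvd => hsH ?_
      rw [mem_stab]
      refine ⟨hs, ?_⟩
      rw [hkk s hs, (hζ.pow_eq_one_iff_dvd _).2 hdvd, one_mul]
    by_cases hpj : p ∣ j
    · obtain ⟨m, rfl⟩ := hpj
      refine hfin (m := m) ?_
      rw [hj, hst]
      congr 1
      ring
    · exact (hvalF (stab N α) (stab_le N α) hst z hz2 (fun h hh => (mem_stab.1 hh).2) hξ j hj
        hpj).elim

end Main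

section Perfect

variable [Finite (ResidueField O)]

/-- the residue field is perfect: every `x` is a `p`-th power of an element of `O₀` mod `𝔪` -/
theorem exists_pow_sub_mem (O₀ : Subring O) (hres : ∀ x : O, ∃ y ∈ O₀, x - y ∈ maximalIdeal O)
    {p : ℕ} (hp : p.Prime) (hpO : (p : O) ∈ maximalIdeal O) (x : O) :
    ∃ d ∈ O₀, x - d ^ p ∈ maximalIdeal O := by
  classical
  have : Fintype (ResidueField O) := Fintype.ofFinite _
  obtain ⟨p', hchar, n, hp', hcard⟩ := FiniteField.card' (ResidueField O)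
  have hp0 : ((p : ℕ) : ResidueField O) = 0 := by
    have := (residue_eq_zero_iff (p : O)).2 hpO
    rwa [map_natCast] at this
  have hdvd : p' ∣ p := (CharP.cast_eq_zero_iff (ResidueField O) p' p).1 hp0
  have hpp : p' = p := by
    rcases (Nat.dvd_prime hp).1 hdvd with h1 | h1
    · exact absurd h1 hp'.ne_one
    · exact h1
  rw [hpp] at hcard
  obtain ⟨m, hm⟩ : ∃ m : ℕ, (n : ℕ) = m + 1 := ⟨n - 1, by have := n.pos; omega⟩
  obtain ⟨d, hd, hxd⟩ := hres (x ^ p ^ m)
  refine ⟨d, hd, ?_⟩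
  rw [← residue_eq_zero_iff, map_sub, map_pow, sub_eq_zero]
  have h1 : residue O d = residue O x ^ p ^ m := by
    have := (residue_eq_zero_iff _).2 hxd
    rw [map_sub, map_pow, sub_eq_zero] at this
    exact this.symm
  rw [h1, ← pow_mul, ← pow_succ, ← hm, ← hcard, FiniteField.pow_card]

end Perfect

end Fermat.Agent.GP.Flat.KummerCorNF
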