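/-
GATE-P / S56 [P-FLAT](iv), MAIN route glue, part 7 (helper28): **the normal form with multipliers
in a subring `W ⊆ O^N`** — the descent from `K' = K·L₀ = L^N` to `K` (`W = O ∩ K`).

Same abstract DVR setting as `KummerCorNF`; extra binders for `W : Subring O`:
  (W1) `∀ s ∈ N, ∀ x ∈ W, s • x = x`                  (`K ⊆ K'`)
  (W2) `∀ x ∈ W, ∃ d ∈ W, x - d ^ p ∈ 𝔪`              (perfect residue field of `K`)
  (W3) `ϖ ∈ W`, `v ϖ = |N|`                            (a uniformizer of `K` is one of `K'`)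
  (W4) `x, y ∈ W`, `y ≠ 0`, `x = y * c` ⟹ `c ∈ W`      (`W = O ∩ K`, exact division)
Output (`kummer_normal_form_sub_of_pm`): every `α ≠ 0` of `O` with `α ^ p ∈ W` is `ϖ ^ m * α'`, `α'` a
unit with `α' ^ p ∈ W`, and there is a unit `w ∈ W` with `p ∣ (α' w) ^ p - 1`:
        `K^× ∩ (L^×)^p ⊆ (1 + p 𝒪_K)(K^×)^p`.
Key point: at an exact level `i < e` prime to `p` the case "`α` is `N`-invariant" is impossible
(`false_of_not_dvd`), so no multiplier outside `W` is ever needed.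
-/
import Mathlib
import Fermat.Agent.GP.Flat.KummerCorFinal
import Fermat.Agent.GP.Flat.KummerCorNF

set_option autoImplicit false
set_option linter.unusedSectionVars false

namespace Fermat.Agent.GP.Flat.KummerCorSub

open IsLocalRing Finset Polynomial KummerCorNF
open IsDiscreteValuationRing (addVal)

variable {O : Type*} [CommRing O] [IsDomain O] [IsDiscreteValuationRing O]
variable {G : Type*} [Group G] [MulSemiringAction G O] [Fintype G]

section Main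

variable
  (O₀ : Subring O) (hinv : ∀ x : O, (∀ g : G, g • x = x) → x ∈ O₀)
  (hU : ∀ t ∈ O₀, t ≠ 0 → ∃ k : ℕ, addVal O t = ((k * Fintype.card G : ℕ) : ℕ∞))
  {p : ℕ} (hp : p.Prime) (hp2 : p ≠ 2) (hpv : addVal O (p : O) = (Fintype.card G : ℕ))
  (N : Subgroup G) (e : ℕ) (he : Fintype.card G = e * Nat.card N)
  {ζ : O} (hζ : IsPrimitiveRoot ζ p) (hζN : ∀ s ∈ N, s • ζ = ζ)
  (hlevel : ∀ (H : Subgroup G), H ≤ N → Nat.card N = p * Nat.card H →
      ∀ (z : ℕ), z * (p - 1) = Fintype.card G →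
      ∀ {α : O}, IsUnit α → (∀ h ∈ H, h • α = α) →
      (∀ s ∈ N, s ∉ H → ∃ ξ : O, s • α = ξ * α ∧ addVal O (ξ - 1) = z) →
      ∀ j : ℕ, addVal O (α - 1) = ((j * Nat.card H : ℕ) : ℕ∞) → ¬ p ∣ j → e ≤ j)

include hinv hU hp hpv he hζ hζN hlevel in
/-- **An exact level `i < e` prime to `p` is impossible** for a Kummer element. -/
theorem false_of_not_dvd {α : O} (hα : IsUnit α) (hαp : ∀ s ∈ N, s • (α ^ p) = α ^ p)
    {i : ℕ} (hi : addVal O (α ^ p - 1) = ((i * Nat.card N : ℕ) : ℕ∞)) (hie : i < e)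
    (hpi : ¬ p ∣ i) : False := by
  have hα0 : α ≠ 0 := hα.ne_zero
  have hk := fun s (hs : s ∈ N) => exists_pow_smul_eq hp hζ N hα0 hαp s hs
  classical
  let k : G → ℕ := fun s => if hs : s ∈ N then Classical.choose (hk s hs) else 0
  have hkk : ∀ s ∈ N, s • α = ζ ^ k s * α := fun s hs => by
    simp only [k, dif_pos hs]
    exact Classical.choose_spec (hk s hs)
  obtain ⟨z, hz1, hz2⟩ := exists_z hp hpv hζ
  have hNpos : 0 < Nat.card N := Nat.card_pos
  have hlt : addVal O (α ^ p - 1) < ((p * z : ℕ) : ℕ∞) := by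
    rw [hi]
    have h1 : i * Nat.card N < e * Nat.card N := Nat.mul_lt_mul_of_pos_right hie hNpos
    have h2 : e * Nat.card N = z * (p - 1) := by rw [← he, hz2]
    have h3 : z * (p - 1) ≤ p * z := by
      rw [mul_comm]; exact Nat.mul_le_mul_right _ (Nat.sub_le _ _)
    exact_mod_cast lt_of_lt_of_le h1 (h2 ▸ h3)
  have hpow := addVal_pow_sub_one_eq hp hz2 hpv hlt
  have htop : addVal O (α - 1) ≠ ⊤ := by
    intro h
    rw [h] at hpow
    have : p • (⊤ : ℕ∞) = ⊤ := by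
      rw [nsmul_eq_mul]
      exact ENat.mul_top (by exact_mod_cast hp.ne_zero)
    rw [this, hi] at hpow
    exact ENat.top_ne_natCast _ hpow.symm
  obtain ⟨n, hn⟩ := ENat.ne_top_iff_exists.1 htop
  have hβ0 : α - 1 ≠ 0 := fun h0 => htop (by rw [h0, IsDiscreteValuationRing.addVal_zero])
  rw [← hn, hi, nsmul_eq_mul] at hpow
  have hin : i * Nat.card N = p * n := by exact_mod_cast hpow
  rcases stab_eq_or_card hp hζ N hζN hα0 k hkk with hst | hst
  · -- `α` is `N`-invariant: `v (α - 1) ∈ |N| ℕ`, so `p ∣ i`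
    have hαN : ∀ s ∈ N, s • (α - 1) = α - 1 := fun s hs => by
      have : s ∈ stab N α := by rw [hst]; exact hs
      rw [smul_sub, smul_one, (mem_stab.1 this).2]
    obtain ⟨k', hk'⟩ := KummerCorInv.exists_addVal_eq_mul_card O₀ hinv hU N hβ0 hαN
    rw [← hn] at hk'
    have h1 : n = k' * Nat.card N := by exact_mod_cast hk'
    rw [h1] at hin
    have h2 : i * Nat.card N = (p * k') * Nat.card N := by rw [hin]; ring
    have h3 : i = p * k' := Nat.eq_of_mul_eq_mul_right hNpos h2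
    exact hpi ⟨k', h3⟩
  · -- index `p`: the level bound
    have hw : addVal O (α - 1) = ((i * Nat.card (stab N α) : ℕ) : ℕ∞) := by
      rw [← hn]
      rw [hst] at hin
      have h2 : p * (i * Nat.card (stab N α)) = p * n := by rw [← hin]; ring
      have := Nat.eq_of_mul_eq_mul_left hp.pos h2
      exact_mod_cast this.symm
    have hξ : ∀ s ∈ N, s ∉ stab N α → ∃ ξ : O, s • α = ξ * α ∧ addVal O (ξ - 1) = z := by
      intro s hs hsH
      refine ⟨ζ ^ k s, hkk s hs, ?_⟩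
      rw [← hz1]
      refine addVal_pow_sub_one hp hζ fun hdvd => hsH ?_
      rw [mem_stab]
      refine ⟨hs, ?_⟩
      rw [hkk s hs, (hζ.pow_eq_one_iff_dvd _).2 hdvd, one_mul]
    have := hlevel (stab N α) (stab_le N α) hst z hz2 hα (fun h hh => (mem_stab.1 hh).2) hξ i hw hpi
    omega

variable (W : Subring O) (hWN : ∀ s ∈ N, ∀ x ∈ W, s • x = x)
  (hperfW : ∀ x ∈ W, ∃ d ∈ W, x - d ^ p ∈ maximalIdeal O)
  {ϖ : O} (hϖW : ϖ ∈ W) (hϖv : addVal O ϖ = (Nat.card N : ℕ))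
  (hdiv : ∀ x ∈ W, ∀ y ∈ W, ∀ c : O, y ≠ 0 → x = y * c → c ∈ W)

include hϖv in
theorem addVal_pow (m : ℕ) : addVal O (ϖ ^ m) = ((m * Nat.card N : ℕ) : ℕ∞) := by
  rw [IsDiscreteValuationRing.addVal_pow, hϖv]
  push_cast
  rw [nsmul_eq_mul]

include hϖv in
theorem ne_zero : ϖ ≠ 0 := by
  intro h0
  rw [h0, IsDiscreteValuationRing.addVal_zero] at hϖv
  exact ENat.top_ne_natCast _ hϖv

include hϖv in
/-- an element of valuation `m |N|` is `ϖ ^ m * (unit)` -/
theorem exists_eq_pow_mul {x : O} {m : ℕ} (hx : addVal O x = ((m * Nat.card N : ℕ) : ℕ∞)) :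
    ∃ c : O, IsUnit c ∧ x = ϖ ^ m * c := by
  have hdvd : ϖ ^ m ∣ x := by
    rw [← IsDiscreteValuationRing.addVal_le_iff_dvd, addVal_pow N hϖv, hx]
  obtain ⟨c, hc⟩ := hdvd
  refine ⟨c, ?_, hc⟩
  rw [← IsDiscreteValuationRing.addVal_eq_zero_iff]
  have h1 : addVal O (ϖ ^ m) + addVal O c = ((m * Nat.card N : ℕ) : ℕ∞) := by
    rw [← IsDiscreteValuationRing.addVal_mul, ← hc, hx]
  rw [addVal_pow N hϖv] at h1
  have h2 : addVal O c ≠ ⊤ := by
    intro htop
    rw [htop, add_top] at h1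
    exact ENat.top_ne_natCast _ h1
  obtain ⟨n, hn⟩ := ENat.ne_top_iff_exists.1 h2
  rw [← hn] at h1 ⊢
  have h3 : m * Nat.card N + n = m * Nat.card N := by exact_mod_cast h1
  have : n = 0 := by omega
  rw [this]
  rfl

include hinv hU hp hp2 hpv he hWN hperfW hϖW hϖv hdiv in
/-- **Level raising inside `W`** at a level `i < e` divisible by `p`. -/
theorem exists_raise {u : O} (hu : IsUnit u) (huW : u ∈ W) {i : ℕ}
    (hi : addVal O (u - 1) = ((i * Nat.card N : ℕ) : ℕ∞)) (hpi : p ∣ i) (hie : i < e) :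
    ∃ w ∈ W, IsUnit w ∧ (((i + 1) * Nat.card N : ℕ) : ℕ∞) ≤ addVal O (u * w ^ p - 1) := by
  have hNpos : 0 < Nat.card N := Nat.card_pos
  have hinvW : ∀ {x : O}, x ∈ W → ∀ s ∈ N, s • x = x := fun hx s hs => hWN s hs _ hx
  rcases Nat.eq_zero_or_pos i with hi0 | hipos
  · subst hi0
    obtain ⟨d, hd, hud⟩ := hperfW u huW
    have hdu : IsUnit d := by
      rw [← notMem_maximalIdeal]
      intro hdm
      have : u ∈ maximalIdeal O := by
        have h1 : u = (u - d ^ p) + d ^ p := by ring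
        rw [h1]
        exact Ideal.add_mem _ hud (Ideal.pow_mem_of_mem _ hdm p hp.pos)
      exact (notMem_maximalIdeal.2 hu) this
    obtain ⟨w, hw⟩ := hdu.exists_right_inv
    have hd0 : d ≠ 0 := hdu.ne_zero
    have hwu : IsUnit w := IsUnit.of_mul_eq_one d (by rw [mul_comm]; exact hw)
    have hwW : w ∈ W := hdiv 1 W.one_mem d hd w hd0 hw.symm
    refine ⟨w, hwW, hwu, ?_⟩
    have h2 : u * w ^ p - 1 = (u - d ^ p) * w ^ p := by
      have : d ^ p * w ^ p = 1 := by rw [← mul_pow, hw, one_pow]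
      linear_combination this
    have hmem : u * w ^ p - 1 ∈ W :=
      W.sub_mem (W.mul_mem huW (W.pow_mem hwW p)) W.one_mem
    refine le_addVal_of_invariant O₀ hinv hU N (hinvW hmem) ?_
    rw [h2]
    have h3 : (u - d ^ p) * w ^ p ∈ maximalIdeal O := Ideal.mul_mem_right _ _ hud
    have h4 := addVal_pos_of_mem h3
    rw [zero_mul, zero_add]
    exact Order.one_le_iff_pos.2 h4
  · obtain ⟨m, rfl⟩ := hpi
    have hmpos : 0 < m := Nat.pos_of_mul_pos_left hipos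
    obtain ⟨c, hcu, hc⟩ := exists_eq_pow_mul N hϖv hi
    have hϖ0 : ϖ ≠ 0 := ne_zero N hϖv
    have hcW : c ∈ W := hdiv (u - 1) (W.sub_mem huW W.one_mem) (ϖ ^ (p * m)) (W.pow_mem hϖW _) c
      (pow_ne_zero _ hϖ0) hc
    obtain ⟨d, hd, hcd⟩ := hperfW c hcW
    have hϖm : ϖ ∈ maximalIdeal O := by
      refine mem_of_addVal_pos ?_
      rw [hϖv]
      exact_mod_cast hNpos
    set t := d * ϖ ^ m with ht
    have htW : t ∈ W := W.mul_mem hd (W.pow_mem hϖW m)
    have htm : -t ∈ maximalIdeal O :=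
      (Ideal.neg_mem_iff _).2 (Ideal.mul_mem_left _ _ (Ideal.pow_mem_of_mem _ hϖm m hmpos))
    have hwu : IsUnit (1 + -t) := isUnit_one_add htm
    have hwW : 1 + -t ∈ W := W.add_mem W.one_mem (W.neg_mem htW)
    refine ⟨1 + -t, hwW, hwu, ?_⟩
    have hodd : Odd p := hp.odd_of_ne_two hp2
    have hpow := add_pow_prime_eq hp (1 : O) (-t)
    rw [one_pow, hodd.neg_pow] at hpow
    set S := ∑ k ∈ Finset.Ioo 0 p, (1 : O) ^ (k - 1) * (-t) ^ (p - k - 1) * ((p.choose k / p : ℕ) : O)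
      with hS
    have htp : t ^ p = d ^ p * ϖ ^ (p * m) := by rw [ht, mul_pow, ← pow_mul, mul_comm m p]
    have hw : (1 + -t) ^ p = 1 - d ^ p * ϖ ^ (p * m) - (p : O) * t * S := by
      rw [hpow, htp]; ring
    have hkey : u * (1 + -t) ^ p - 1
        = ϖ ^ (p * m) * (c - d ^ p) - ϖ ^ (p * m) * ϖ ^ (p * m) * (c * d ^ p)
          - u * ((p : O) * t * S) := by
      linear_combination u * hw + (1 - d ^ p * ϖ ^ (p * m)) * hc
    have hmem : u * (1 + -t) ^ p - 1 ∈ W :=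
      W.sub_mem (W.mul_mem huW (W.pow_mem hwW p)) W.one_mem
    refine le_addVal_of_invariant O₀ hinv hU N (hinvW hmem) ?_
    rw [hkey]
    have hϖv' : addVal O (ϖ ^ (p * m)) = ((p * m * Nat.card N : ℕ) : ℕ∞) :=
      addVal_pow N hϖv (p * m)
    have hT1 : ((p * m * Nat.card N + 1 : ℕ) : ℕ∞) ≤ addVal O (ϖ ^ (p * m) * (c - d ^ p)) := by
      rw [IsDiscreteValuationRing.addVal_mul, hϖv']
      push_cast
      exact add_le_add le_rfl (Order.one_le_iff_pos.2 (addVal_pos_of_mem hcd))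
    have hT2 : ((p * m * Nat.card N + 1 : ℕ) : ℕ∞)
        ≤ addVal O (ϖ ^ (p * m) * ϖ ^ (p * m) * (c * d ^ p)) := by
      rw [IsDiscreteValuationRing.addVal_mul, IsDiscreteValuationRing.addVal_mul, hϖv']
      refine le_trans ?_ le_self_add
      have : p * m * Nat.card N + 1 ≤ p * m * Nat.card N + p * m * Nat.card N := by
        have : 1 ≤ p * m * Nat.card N := Nat.mul_pos hipos hNpos
        omega
      exact_mod_cast this
    have hT3 : ((p * m * Nat.card N + 1 : ℕ) : ℕ∞) ≤ addVal O (u * ((p : O) * t * S)) := by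
      rw [IsDiscreteValuationRing.addVal_mul, IsDiscreteValuationRing.addVal_mul,
        IsDiscreteValuationRing.addVal_mul, hpv, addVal_eq_zero_of_isUnit hu, zero_add, add_assoc]
      refine le_trans ?_ le_self_add
      have : p * m * Nat.card N + 1 ≤ Fintype.card G := by
        rw [he]
        have h1 : (p * m + 1) * Nat.card N ≤ e * Nat.card N := Nat.mul_le_mul_right _ hie
        have h2 : p * m * Nat.card N + 1 ≤ (p * m + 1) * Nat.card N := by
          rw [add_mul, one_mul]; omega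
        exact le_trans h2 h1
      exact_mod_cast this
    refine le_trans (le_min (le_trans (le_min hT1 hT2) ((addVal O).map_sub _ _)) hT3)
      ((addVal O).map_sub _ _)

include hinv hU hp hp2 hpv he hζ hζN hlevel hWN hperfW hϖW hϖv hdiv in
/-- the induction on the level, multipliers in `W` -/
theorem exists_unit_of_level (n : ℕ) : ∀ (i : ℕ) (α : O), IsUnit α → α ^ p ∈ W →
    ((i * Nat.card N : ℕ) : ℕ∞) ≤ addVal O (α ^ p - 1) → e ≤ i + n →
    ∃ w ∈ W, IsUnit w ∧ ((Fintype.card G : ℕ) : ℕ∞) ≤ addVal O ((α * w) ^ p - 1) := by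
  have hdone : ∀ (i : ℕ) (α : O), ((i * Nat.card N : ℕ) : ℕ∞) ≤ addVal O (α ^ p - 1) → e ≤ i →
      ∃ w ∈ W, IsUnit w ∧ ((Fintype.card G : ℕ) : ℕ∞) ≤ addVal O ((α * w) ^ p - 1) := by
    intro i α hi hei
    refine ⟨1, W.one_mem, isUnit_one, ?_⟩
    rw [mul_one]
    refine le_trans ?_ hi
    rw [he]
    exact_mod_cast Nat.mul_le_mul_right _ hei
  induction n with
  | zero =>
    intro i α _ _ hi hei
    exact hdone i α hi (by omega)
  | succ n ih =>
    intro i α hα hαW hi hei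
    by_cases hie : e ≤ i
    · exact hdone i α hi hie
    rw [not_le] at hie
    by_cases hnext : (((i + 1) * Nat.card N : ℕ) : ℕ∞) ≤ addVal O (α ^ p - 1)
    · exact ih (i + 1) α hα hαW hnext (by omega)
    have hαp : ∀ s ∈ N, s • (α ^ p) = α ^ p := fun s hs => hWN s hs _ hαW
    have hu1N : ∀ s ∈ N, s • (α ^ p - 1) = α ^ p - 1 := fun s hs => by
      rw [smul_sub, hαp s hs, smul_one]
    have hne : α ^ p - 1 ≠ 0 := by
      intro h0
      rw [h0, IsDiscreteValuationRing.addVal_zero] at hnext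
      exact hnext le_top
    obtain ⟨k, hk⟩ := KummerCorInv.exists_addVal_eq_mul_card O₀ hinv hU N hne hu1N
    have hNpos : 0 < Nat.card N := Nat.card_pos
    have hki : k = i := by
      rw [hk] at hi hnext
      have h1 : i * Nat.card N ≤ k * Nat.card N := by exact_mod_cast hi
      have h2 : ¬ (i + 1) * Nat.card N ≤ k * Nat.card N := by exact_mod_cast hnext
      have h3 : i ≤ k := Nat.le_of_mul_le_mul_right h1 hNpos
      have h4 : k < i + 1 := by
        by_contra hcon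
        exact h2 (Nat.mul_le_mul_right _ (by omega))
      omega
    rw [hki] at hk
    by_cases hpi : p ∣ i
    · obtain ⟨w₁, hw₁W, hw₁u, hw₁⟩ := exists_raise O₀ hinv hU hp hp2 hpv N e he W hWN hperfW hϖW hϖv
        hdiv (hα.pow p) hαW hk hpi hie
      have hα₁ : IsUnit (α * w₁) := hα.mul hw₁u
      have hα₁W : (α * w₁) ^ p ∈ W := by
        rw [mul_pow]; exact W.mul_mem hαW (W.pow_mem hw₁W p)
      have hlev : (((i + 1) * Nat.card N : ℕ) : ℕ∞) ≤ addVal O ((α * w₁) ^ p - 1) := by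
        rw [mul_pow]; exact hw₁
      obtain ⟨w₂, hw₂W, hw₂u, hw₂⟩ := ih (i + 1) (α * w₁) hα₁ hα₁W hlev (by omega)
      refine ⟨w₁ * w₂, W.mul_mem hw₁W hw₂W, hw₁u.mul hw₂u, ?_⟩
      rw [← mul_assoc]; exact hw₂
    · exact (false_of_not_dvd O₀ hinv hU hp hpv N e he hζ hζN hlevel hα hαp hk hie hpi).elim

include hinv hU hp hp2 hpv he hζ hζN hlevel hWN hperfW hϖW hϖv hdiv in
/-- **Normal form, unit case, multipliers in `W`.** -/
theorem exists_unit_mul_pow_sub_one_dvd {α : O} (hα : IsUnit α) (hαW : α ^ p ∈ W) :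
    ∃ w ∈ W, IsUnit w ∧ (p : O) ∣ (α * w) ^ p - 1 := by
  obtain ⟨w, hwW, hwu, hw⟩ := exists_unit_of_level O₀ hinv hU hp hp2 hpv N e he hζ hζN hlevel W hWN
    hperfW hϖW hϖv hdiv e 0 α hα hαW (by simp) (by omega)
  refine ⟨w, hwW, hwu, ?_⟩
  rw [← IsDiscreteValuationRing.addVal_le_iff_dvd, hpv]
  exact hw

variable
  (hvalF : ∀ (H : Subgroup G), H ≤ N → Nat.card N = p * Nat.card H →
      ∀ (z : ℕ), z * (p - 1) = Fintype.card G →
      ∀ {α : O}, (∀ h ∈ H, h • α = α) →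
      (∀ s ∈ N, s ∉ H → ∃ ξ : O, s • α = ξ * α ∧ addVal O (ξ - 1) = z) →
      ∀ j : ℕ, addVal O α = ((j * Nat.card H : ℕ) : ℕ∞) → ¬ p ∣ j → False)

include hinv hU hp hpv hζ hζN hvalF hWN hϖW hϖv hdiv in
/-- **Normal form, valuation part, in `W`.** -/
theorem exists_eq_pow_mul_unit {α : O} (hα0 : α ≠ 0) (hαW : α ^ p ∈ W) :
    ∃ (m : ℕ) (α' : O), α = ϖ ^ m * α' ∧ IsUnit α' ∧ α' ^ p ∈ W := by
  have hαp : ∀ s ∈ N, s • (α ^ p) = α ^ p := fun s hs => hWN s hs _ hαW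
  have hk := fun s (hs : s ∈ N) => exists_pow_smul_eq hp hζ N hα0 hαp s hs
  classical
  let k : G → ℕ := fun s => if hs : s ∈ N then Classical.choose (hk s hs) else 0
  have hkk : ∀ s ∈ N, s • α = ζ ^ k s * α := fun s hs => by
    simp only [k, dif_pos hs]
    exact Classical.choose_spec (hk s hs)
  have hϖ0 : ϖ ≠ 0 := ne_zero N hϖv
  have hfin : ∀ {m : ℕ}, addVal O α = ((m * Nat.card N : ℕ) : ℕ∞) →
      ∃ (m : ℕ) (α' : O), α = ϖ ^ m * α' ∧ IsUnit α' ∧ α' ^ p ∈ W := by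
    intro m hm
    obtain ⟨c, hcu, hc⟩ := exists_eq_pow_mul N hϖv hm
    refine ⟨m, c, hc, hcu, ?_⟩
    refine hdiv (α ^ p) hαW ((ϖ ^ m) ^ p) (W.pow_mem (W.pow_mem hϖW m) p) (c ^ p)
      (pow_ne_zero _ (pow_ne_zero _ hϖ0)) ?_
    rw [hc, mul_pow]
  rcases stab_eq_or_card hp hζ N hζN hα0 k hkk with hst | hst
  · have hαN : ∀ s ∈ N, s • α = α := fun s hs => by
      have : s ∈ stab N α := by rw [hst]; exact hs
      exact (mem_stab.1 this).2
    obtain ⟨m, hm⟩ := KummerCorInv.exists_addVal_eq_mul_card O₀ hinv hU N hα0 hαN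
    exact hfin hm
  · obtain ⟨z, hz1, hz2⟩ := exists_z hp hpv hζ
    obtain ⟨j, hj⟩ := KummerCorInv.exists_addVal_eq_mul_card O₀ hinv hU (stab N α) hα0
      (fun h hh => (mem_stab.1 hh).2)
    have hξ : ∀ s ∈ N, s ∉ stab N α → ∃ ξ : O, s • α = ξ * α ∧ addVal O (ξ - 1) = z := by
      intro s hs hsH
      refine ⟨ζ ^ k s, hkk s hs, ?_⟩
      rw [← hz1]
      refine addVal_pow_sub_one hp hζ fun hdvd => hsH ?_
      rw [mem_stab]
      refine ⟨hs, ?_⟩
      rw [hkk s hs, (hζ.pow_eq_one_iff_dvd _).2 hdvd, one_mul]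
    by_cases hpj : p ∣ j
    · obtain ⟨m, rfl⟩ := hpj
      refine hfin (m := m) ?_
      rw [hj, hst]
      congr 1
      ring
    · exact (hvalF (stab N α) (stab_le N α) hst z hz2 (fun h hh => (mem_stab.1 hh).2) hξ j hj
        hpj).elim

end Main

section Perfect

variable [Finite (ResidueField O)]

/-- every subring of `O` has perfect residue image: `x ≡ (x ^ (p ^ m)) ^ p` mod `𝔪` -/
theorem exists_pow_sub_mem_subring (W : Subring O) {p : ℕ} (hp : p.Prime)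
    (hpO : (p : O) ∈ maximalIdeal O) : ∀ x ∈ W, ∃ d ∈ W, x - d ^ p ∈ maximalIdeal O := by
  classical
  intro x hx
  have : Fintype (ResidueField O) := Fintype.ofFinite _
  obtain ⟨p', hchar, n, hp', hcard⟩ := FiniteField.card' (ResidueField O)
  have hp0 : ((p : ℕ) : ResidueField O) = 0 := by
    have := (residue_eq_zero_iff (p : O)).2 hpO
    rwa [map_natCast] at this
  have hdvd : p' ∣ p := (CharP.cast_eq_zero_iff (ResidueField O) p' p).1 hp0
  have hpp : p' = p := by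
    rcases (Nat.dvd_prime hp).1 hdvd with h1 | h1
    · exact absurd h1 hp'.ne_one
    · exact h1
  rw [hpp] at hcard
  obtain ⟨m, hm⟩ : ∃ m : ℕ, (n : ℕ) = m + 1 := ⟨n - 1, by have := n.pos; omega⟩
  refine ⟨x ^ p ^ m, W.pow_mem hx _, ?_⟩
  rw [← residue_eq_zero_iff, map_sub, map_pow, map_pow, sub_eq_zero, ← pow_mul, ← pow_succ, ← hm,
    ← hcard, FiniteField.pow_card]

end Perfect

section Top

variable [DecidableEq G]
variable {M : Type*} [Field M] [IsAlgClosed M] {Γ₀ : Type*} [LinearOrderedCommGroupWithZero Γ₀]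

/-- **The Kummer normal form from `(P_m)`, multipliers in `W ⊆ O^N`** (see the file header):
`K^× ∩ (L^×)^p ⊆ (1 + p 𝒪_K)(K^×)^p` with `W = O ∩ K`, `K ⊆ K' = L^N`, `K'/K` unramified. -/
theorem kummer_normal_form_sub_of_pm
    (v : Valuation M Γ₀) (ι : O →+* M) [Finite (ResidueField O)]
    (O₀ : Subring O) (hinv : ∀ x : O, (∀ g : G, g • x = x) → x ∈ O₀)
    (hfix : ∀ (g : G) (x : O), x ∈ O₀ → g • x = x)
    (hres : ∀ x : O, ∃ y ∈ O₀, x - y ∈ maximalIdeal O)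
    (hU : ∀ t ∈ O₀, t ≠ 0 → ∃ k : ℕ, addVal O t = ((k * Fintype.card G : ℕ) : ℕ∞))
    (hι : Function.Injective ι) (hvO : ∀ x : O, v (ι x) ≤ 1)
    (π : O) (hπ : Irreducible π) (hvπ : v (ι π) < 1)
    (p : ℕ) (hp : p.Prime) (hp2 : p ≠ 2) (hvp : v (p : M) = v (ι π) ^ Fintype.card G)
    (ϖ₀ : O₀) (ε₀ : Oˣ) (hϖ₀e : (ϖ₀ : O) = ε₀ * π ^ Fintype.card G) (hϖ₀p : (ϖ₀ : O) = (p : O))
    (a : G → ℕ) (t : G → Oˣ) (ha : ∀ σ : G, σ ≠ 1 → σ • π - π = t σ * π ^ a σ)
    (hPmO : ∀ (q : O₀[X]) (β : M), q.Monic → q.natDegree = Fintype.card G →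
      (q.map (ι.comp O₀.subtype)).eval β = 0 →
      v β ^ Fintype.card G = v (p : M) →
      v (((PmBound.orbitPoly₀ O₀ hinv π).map (ι.comp O₀.subtype)).eval β) ^ (p - 1)
        < v (p : M) ^ p →
      ∃ x : O, ι x = β)
    (N : Subgroup G) (e : ℕ) (he : Fintype.card G = e * Nat.card N)
    {ζ : O} (hζ : IsPrimitiveRoot ζ p) (hζN : ∀ s ∈ N, s • ζ = ζ)
    (W : Subring O) (hWN : ∀ s ∈ N, ∀ x ∈ W, s • x = x)
    {ϖ : O} (hϖW : ϖ ∈ W) (hϖv : addVal O ϖ = (Nat.card N : ℕ))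
    (hdiv : ∀ x ∈ W, ∀ y ∈ W, ∀ c : O, y ≠ 0 → x = y * c → c ∈ W)
    {α : O} (hα0 : α ≠ 0) (hαW : α ^ p ∈ W) :
    ∃ (m : ℕ) (α' w : O), α = ϖ ^ m * α' ∧ IsUnit α' ∧ α' ^ p ∈ W ∧ w ∈ W ∧ IsUnit w ∧
      (p : O) ∣ (α' * w) ^ p - 1 := by
  have hpv : addVal O (p : O) = (Fintype.card G : ℕ) := by
    rw [← hϖ₀p, hϖ₀e]
    exact IsDiscreteValuationRing.addVal_def' ε₀ hπ _
  have hpO : (p : O) ∈ maximalIdeal O :=
    KummerCorFinal.natCast_mem_maximalIdeal v ι hvO hvπ Fintype.card_ne_zero hvp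
  have hperfW := exists_pow_sub_mem_subring W hp hpO
  have hlevel : ∀ (H : Subgroup G), H ≤ N → Nat.card N = p * Nat.card H →
      ∀ (z : ℕ), z * (p - 1) = Fintype.card G →
      ∀ {α : O}, IsUnit α → (∀ h ∈ H, h • α = α) →
      (∀ s ∈ N, s ∉ H → ∃ ξ : O, s • α = ξ * α ∧ addVal O (ξ - 1) = z) →
      ∀ j : ℕ, addVal O (α - 1) = ((j * Nat.card H : ℕ) : ℕ∞) → ¬ p ∣ j → e ≤ j :=
    fun H hHN hindex z hz _ hα hαH hξ j hw hj =>
      KummerCorFinal.kummer_level_ge_of_pm v ι O₀ hinv hfix hres hU hι hvO π hπ hvπ p hp hvp ϖ₀ ε₀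
        hϖ₀e a t ha hPmO N H hHN hindex e he z hz hα hαH hξ j hw hj
  have hvalF : ∀ (H : Subgroup G), H ≤ N → Nat.card N = p * Nat.card H →
      ∀ (z : ℕ), z * (p - 1) = Fintype.card G →
      ∀ {α : O}, (∀ h ∈ H, h • α = α) →
      (∀ s ∈ N, s ∉ H → ∃ ξ : O, s • α = ξ * α ∧ addVal O (ξ - 1) = z) →
      ∀ j : ℕ, addVal O α = ((j * Nat.card H : ℕ) : ℕ∞) → ¬ p ∣ j → False :=
    fun H hHN hindex z hz _ hαH hξ j hw hj =>
      KummerCorFinal.kummer_val_false_of_pm v ι O₀ hinv hfix hres hU hι hvO π hπ hvπ p hp hvp ϖ₀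
        ε₀ hϖ₀e a t ha hPmO N H hHN hindex e he z hz hαH hξ j hw hj
  obtain ⟨m, α', hαα', hα'u, hα'W⟩ := exists_eq_pow_mul_unit O₀ hinv hU hp hpv N hζ hζN W hWN hϖW
    hϖv hdiv hvalF hα0 hαW
  obtain ⟨w, hwW, hwu, hw⟩ := exists_unit_mul_pow_sub_one_dvd O₀ hinv hU hp hp2 hpv N e he hζ hζN
    hlevel W hWN hperfW hϖW hϖv hdiv hα'u hα'W
  exact ⟨m, α', w, hαα', hα'u, hα'W, hwW, hwu, hw⟩

end Top

end Fermat.Agent.GP.Flat.KummerCorSub
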