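/-
GATE-P / S56 [P-FLAT](iv), node S56-FLAT-KBQB part 3 (helper14): **the Kummer bound (KB) in `ℚ̄`-form**.

In helper26's henselian model (`L = locField A N`, `O = locRing A N`, `G = inertiaQuot A N`,
`N` open normal in `G_ℚ`, `A | p`), with the stabiliser form `hPm` of Fontaine's `(P_m)` for `L`
(the binder of `DvrInst.ad_mul_le_model`, discharged by helper5 `PmBoundFrozen.hPm_of_lift`):

  let `F ⊆ L` be a subfield fixed by a subgroup `Ng ≤ G`, containing `ζ_p` and an element `πF` with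
  `v p = v πF ^ eF` and `|G| = eF · |Ng|` (so `πF` is a uniformiser of `F` and `L / F·L₀` is totally
  ramified with group `Ng`).  Then every `y ∈ L^×` with `y ^ p ∈ F` has
        `∃ w ∈ F^×, v (y ^ p w ^ p - 1) ≤ v p`,
  i.e. `F^× ∩ (L^×)^p ⊆ (1 + p 𝒪_F)(F^×)^p`

— the conclusion of helper75's `SSChain.Lev … (v p)` for the generator `y` (= helper50's (E), helper47's
(KB t)).  Proof: helper28's abstract `KummerCorSub.kummer_normal_form_sub_of_pm` with `W := O ∩ F`,
all binders discharged in the model.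
-/
import Mathlib
import Fermat.Agent.GP.Flat.KbModel
import Fermat.Agent.GP.Flat.KummerCorSub
import Fermat.Agent.GP.Ram.KummerBreak

set_option autoImplicit false
set_option linter.unusedSectionVars false
set_option linter.style.haveILetI false

open scoped Pointwise
open Polynomial IsLocalRing
open IsDiscreteValuationRing (addVal)
open Fermat.Agent.Common_helper32 Fermat.Agent.S13.Global Fermat.Agent.GL.Local.InertiaField
  Fermat.Agent.GL.Local Fermat.Agent.GP.Flat.DvrInst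

namespace Fermat.Agent.GP.Flat.KbMain

/-! ### Valuation bookkeeping -/

section Val

variable {K : Type*} [Field K] {Γ₀ : Type*} [LinearOrderedCommGroupWithZero Γ₀] (v : Valuation K Γ₀)

theorem eq_of_pow_eq_pow {x y : Γ₀} {n : ℕ} (hn : n ≠ 0) (h : x ^ n = y ^ n) : x = y :=
  (pow_left_inj₀ zero_le zero_le hn).1 h

/-- `v (T⁻¹ - 1) = v (T - 1)` for a principal unit `T`. -/
theorem val_inv_sub_one {T : K} (hT : v (T - 1) < 1) : v (T⁻¹ - 1) = v (T - 1) := by
  have hT1 : v T = 1 := by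
    have : T = 1 + (T - 1) := by ring
    rw [this]; exact v.map_one_add_of_lt hT
  have hT0 : T ≠ 0 := by
    intro h0
    rw [h0, map_zero] at hT1
    exact zero_ne_one hT1
  have : T⁻¹ - 1 = -(T - 1) * T⁻¹ := by
    field_simp
    ring
  rw [this, map_mul, Valuation.map_neg, map_inv₀, hT1, inv_one, mul_one]

end Val

variable (A : ValuationSubring Qb) (N : Subgroup GQ) [hN : N.Normal]
variable {p : ℕ} (hp : p.Prime) (hA : (p : Qb) ∈ A.nonunits)

/-- `W = O ∩ F`. -/
noncomputable def subW (F : Subfield Qb) : Subring (locRing A N) := F.toSubring.comap (ιO A N)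

theorem mem_subW_iff (F : Subfield Qb) (x : locRing A N) :
    x ∈ subW A N F ↔ toQb A N x ∈ F := Iff.rfl

section Model

variable (hp3 : 3 ≤ p) (hopen : IsOpen (N : Set GQ))
  [Fintype (inertiaQuot A N)] [DecidableEq (inertiaQuot A N)]
  (π : locRing A N) (hπ : Irreducible π) (hπ1 : toQb A N π ∈ A.nonunits)
  (hπe : A.valuation (p : Qb) = A.valuation (toQb A N π) ^ Fintype.card (inertiaQuot A N))
  (ε₀ : (locRing A N)ˣ)
  (hε : ((p : ℕ) : locRing A N) = ε₀ * π ^ Fintype.card (inertiaQuot A N))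
  (hPm : ∀ (q : (baseSubring A N)[X]) (β : Qb), q.Monic →
    q.natDegree = Fintype.card (inertiaQuot A N) →
    (q.map ((ιO A N).comp (baseSubring A N).subtype)).eval β = 0 →
    A.valuation β ^ Fintype.card (inertiaQuot A N) = A.valuation (p : Qb) →
    A.valuation (((PmBound.orbitPoly₀ (baseSubring A N) (DvrInst.hinv A N) π).map
      ((ιO A N).comp (baseSubring A N).subtype)).eval β) ^ (p - 1) < A.valuation (p : Qb) ^ p →
    ∀ σ : GQ, σ ∈ A.decompositionSubgroup ℚ →
      (∀ t : locRing A N, t ∈ baseSubring A N → σ (toQb A N t) = toQb A N t) →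
      σ β = β → σ ∈ N)
  (Ng : Subgroup (inertiaQuot A N)) (F : Subfield Qb)
  (hFL : ∀ x ∈ F, x ∈ locField A N)
  (hFN : ∀ x : locField A N, (x : Qb) ∈ F → ∀ s ∈ Ng, s • x = x)
  {πF : Qb} (hπF : πF ∈ F) (hπF1 : A.valuation πF < 1)
  (eF : ℕ) (heF : A.valuation (p : Qb) = A.valuation πF ^ eF)
  (hcard : Fintype.card (inertiaQuot A N) = eF * Nat.card Ng)
  {ζ : Qb} (hζ : IsPrimitiveRoot ζ p) (hζF : ζ ∈ F)

include hp hA hp3 hopen hπ hπ1 hπe hε hPm hFL hFN hπF hπF1 heF hcard hζ hζF in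
/-- the integral case `y ∈ A`. -/
theorem kb_qb_integral {y : Qb} (hy0 : y ≠ 0) (hyL : y ∈ locField A N) (hyA : y ∈ A)
    (hyF : y ^ p ∈ F) :
    ∃ w ∈ F, w ≠ 0 ∧ A.valuation (y ^ p * w ^ p - 1) ≤ A.valuation (p : Qb) := by
  have hdvr : IsDiscreteValuationRing (locRing A N) :=
    isDiscreteValuationRing_locRing A N hp hA hopen
  have hfinres : Finite (ResidueField (locRing A N)) := finite_residueField A N hp hA hopen
  have hvp1 : A.valuation (p : Qb) < 1 := (A.mem_nonunits_iff).mp hA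
  haveI : Fact p.Prime := ⟨hp⟩
  obtain ⟨a, t, ha⟩ := exists_lower_numbering A N hp hA hopen hπ hπ1
    (by rw [Nat.card_eq_fintype_card]; exact hπe)
  have hp0 : (p : Qb) ≠ 0 := Nat.cast_ne_zero.mpr hp.ne_zero
  have heF0 : eF ≠ 0 := by
    rintro rfl
    rw [pow_zero] at heF
    exact hvp1.ne heF
  have hπF0 : πF ≠ 0 := by
    rintro rfl
    rw [map_zero, zero_pow heF0] at heF
    exact ((A.valuation.pos_iff).mpr hp0).ne' heF
  -- `v πF = v π ^ |Ng|`
  have hvπF : A.valuation πF = A.valuation (toQb A N π) ^ Nat.card Ng := by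
    apply eq_of_pow_eq_pow heF0
    rw [← heF, hπe, hcard, ← pow_mul, mul_comm]
  have hπFA : πF ∈ A := (A.valuation_le_one_iff _).mp hπF1.le
  set ϖ : locRing A N := ⟨⟨πF, hFL _ hπF⟩, hπFA⟩ with hϖ
  have hϖQ : toQb A N ϖ = πF := rfl
  have hϖv : addVal (locRing A N) ϖ = (Nat.card Ng : ℕ) :=
    KbModel.addVal_eq_of_val_eq A N hπ hπ1 hvπF
  have hϖW : ϖ ∈ subW A N F := hπF
  -- `ζ`
  have hζA : ζ ∈ A :=
    (A.valuation_le_one_iff _).mp (Fermat.Agent.GP.Ram.KummerBreak.val_zeta A.valuation hζ).le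
  set ζO : locRing A N := ⟨⟨ζ, hFL _ hζF⟩, hζA⟩ with hζOdef
  have hζO : IsPrimitiveRoot ζO p :=
    IsPrimitiveRoot.of_map_of_injective (f := ιO A N) hζ (ιO_injective A N)
  have hWN : ∀ s ∈ Ng, ∀ x ∈ subW A N F, s • x = x := by
    intro s hs x hx
    apply Subtype.ext
    rw [coe_smul_locRing]
    exact hFN (x : locField A N) hx s hs
  have hζN : ∀ s ∈ Ng, s • ζO = ζO := fun s hs => hWN s hs ζO hζF
  have hdiv : ∀ x ∈ subW A N F, ∀ y ∈ subW A N F, ∀ c : locRing A N, y ≠ 0 → x = y * c →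
      c ∈ subW A N F := by
    intro x hx y hy c hy0 hxy
    rw [mem_subW_iff] at hx hy ⊢
    have hy0' : toQb A N y ≠ 0 := fun h0 => hy0 (toQb_injective A N (by rw [h0]; rfl))
    have h1 : toQb A N x = toQb A N y * toQb A N c := by
      have := congrArg (ιO A N) hxy
      rwa [map_mul] at this
    have h2 : toQb A N c = toQb A N x / toQb A N y := by
      rw [h1, mul_div_cancel_left₀ _ hy0']
    rw [h2]
    exact F.div_mem hx hy
  -- `α`
  set α : locRing A N := ⟨⟨y, hyL⟩, hyA⟩ with hαdef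
  have hα0 : α ≠ 0 := by
    intro h0
    apply hy0
    have := congrArg (toQb A N) h0
    exact this
  have hαW : α ^ p ∈ subW A N F := by
    rw [mem_subW_iff]
    have : toQb A N (α ^ p) = y ^ p := map_pow (ιO A N) α p
    rw [this]
    exact hyF
  obtain ⟨m, α', w, hαα', hα'u, -, hwW, hwu, c, hc⟩ :=
    KummerCorSub.kummer_normal_form_sub_of_pm (v := A.valuation) (ι := ιO A N)
      (baseSubring A N) (DvrInst.hinv A N) (DvrInst.hfix A N) (DvrInst.hres A N hp hA hopen)
      (KbModel.hU_model A N hp hA hopen π hπ hπ1 hπe) (ιO_injective A N)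
      (fun x => (A.valuation_le_one_iff _).mpr (toQb_mem A N x)) π hπ
      ((A.mem_nonunits_iff).mp hπ1) p hp (by omega) hπe (pBase A N p) ε₀
      (by rw [coe_pBase]; exact hε) (coe_pBase A N p) a t ha
      (hPmO_of_stab A N hopen π p hvp1 hPm) Ng eF hcard hζO hζN (subW A N F) hWN hϖW hϖv hdiv
      hα0 hαW
  -- back to `ℚ̄`
  have hw0 : toQb A N w ≠ 0 := by
    intro h0
    exact hwu.ne_zero (toQb_injective A N (by rw [h0]; rfl))
  have hy : y = πF ^ m * toQb A N α' := by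
    have := congrArg (ιO A N) hαα'
    rw [map_mul, map_pow] at this
    exact this
  refine ⟨toQb A N w / πF ^ m, F.div_mem hwW (F.pow_mem hπF m), div_ne_zero hw0 (pow_ne_zero _ hπF0),
    ?_⟩
  have h1 : y ^ p * (toQb A N w / πF ^ m) ^ p - 1 = (p : Qb) * toQb A N c := by
    have h2 : y * (toQb A N w / πF ^ m) = toQb A N (α' * w) := by
      have : toQb A N (α' * w) = toQb A N α' * toQb A N w := map_mul (ιO A N) α' w
      rw [this, hy]
      field_simp
    have h3 := congrArg (ιO A N) hc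
    rw [map_sub, map_pow, map_one, map_mul (ιO A N) (p : locRing A N) c, map_natCast] at h3
    rw [← mul_pow, h2]
    exact h3
  rw [h1, map_mul]
  calc A.valuation (p : Qb) * A.valuation (toQb A N c)
      ≤ A.valuation (p : Qb) * 1 :=
        mul_le_mul' le_rfl ((A.valuation_le_one_iff _).mpr (toQb_mem A N c))
    _ = A.valuation (p : Qb) := mul_one _

include hp hA hp3 hopen hπ hπ1 hπe hε hPm hFL hFN hπF hπF1 heF hcard hζ hζF in
/-- **The Kummer bound (KB) in `ℚ̄`-form.** -/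
theorem kb_qb {y : Qb} (hy0 : y ≠ 0) (hyL : y ∈ locField A N) (hyF : y ^ p ∈ F) :
    ∃ w ∈ F, w ≠ 0 ∧ A.valuation (y ^ p * w ^ p - 1) ≤ A.valuation (p : Qb) := by
  have hvp1 : A.valuation (p : Qb) < 1 := (A.mem_nonunits_iff).mp hA
  by_cases hyA : y ∈ A
  · exact kb_qb_integral A N hp hA hp3 hopen π hπ hπ1 hπe ε₀ hε hPm Ng F hFL hFN hπF hπF1 eF heF
      hcard hζ hζF hy0 hyL hyA hyF
  · have hyinvA : y⁻¹ ∈ A := (A.mem_or_inv_mem y).resolve_left hyA
    obtain ⟨w, hwF, hw0, hw⟩ := kb_qb_integral A N hp hA hp3 hopen π hπ hπ1 hπe ε₀ hε hPm Ng F hFL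
      hFN hπF hπF1 eF heF hcard hζ hζF (inv_ne_zero hy0) ((locField A N).inv_mem hyL) hyinvA
      (by rw [inv_pow]; exact F.inv_mem hyF)
    refine ⟨w⁻¹, F.inv_mem hwF, inv_ne_zero hw0, ?_⟩
    have h1 : y ^ p * w⁻¹ ^ p = (y⁻¹ ^ p * w ^ p)⁻¹ := by
      rw [inv_pow, inv_pow, mul_inv, inv_inv]
    rw [h1, val_inv_sub_one A.valuation (lt_of_le_of_lt hw hvp1)]
    exact hw

end Model

end Fermat.Agent.GP.Flat.KbMain
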