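/-
GATE-P / S56 [P-FLAT](iv), node S56-FLAT-KBQB part 1 (helper14): the **NORMAL FORM of an element of
a discretely valued field modulo `p`-th powers** (Mathlib + helper75 `GP/Ram/UnitFilt`).

`v : Valuation K Γ₀`, `π` with `v π < 1` generating the value group (`hU`), `v p = v π ^ e`,
perfect residue field (`hperf`, in valuation form).  Every `u ≠ 0` is, up to a `p`-th power `w ^ p`:

* **(V)** of valuation `v π ^ i`, `0 < i < p`                      (valuation prime to `p`), or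
* **(L)** a principal unit of exact level `j`, `p ∤ j`, `j (p - 1) < p e`   (below the Hensel bound), or
* **(T)** a principal unit of level `≥ j` with `p e ≤ j (p - 1)`          (`u w ^ p ∈ 1 + p (ζ - 1) 𝒪`).

This is the input normalisation for `KummerCor.kummer_level_ge` (case (L)) and
`KummerCor.kummer_val_false` (case (V)); in case (T) there is nothing to prove.
-/
import Mathlib
import Fermat.Agent.GP.Ram.UnitFilt

set_option autoImplicit false

namespace Fermat.Agent.GP.Flat.KbNormalForm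

open Fermat.Agent.GP.Ram.UnitFilt

variable {K : Type*} [Field K] {Γ₀ : Type*} [LinearOrderedCommGroupWithZero Γ₀]
  (v : Valuation K Γ₀)

section Level

variable {π : K} (hπ0 : π ≠ 0) (hπ1 : v π < 1)
  (hU : ∀ x : K, x ≠ 0 → ∃ m : ℤ, v x = v π ^ m)

include hπ0 in
theorem val_unif_pos : 0 < v π := (v.pos_iff).mpr hπ0

include hπ0 hπ1 hU in
/-- a nonzero element of the maximal ideal has a positive natural level. -/
theorem exists_nat_level {x : K} (hx0 : x ≠ 0) (hx1 : v x < 1) :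
    ∃ j : ℕ, 0 < j ∧ v x = v π ^ j := by
  obtain ⟨m, hm⟩ := hU x hx0
  have hpos := val_unif_pos v hπ0
  have hm0 : 0 < m := by
    have h1 : v π ^ m < v π ^ (0 : ℤ) := by rw [zpow_zero, ← hm]; exact hx1
    exact (zpow_lt_zpow_iff_right_of_lt_one₀ hpos hπ1).1 h1
  refine ⟨m.toNat, by omega, ?_⟩
  rw [hm, ← zpow_natCast, Int.toNat_of_nonneg hm0.le]

include hπ0 hπ1 hU in
/-- an element strictly deeper than level `j` is `0` or has an exact level `> j`. -/
theorem exists_nat_level_gt {x : K} (hx0 : x ≠ 0) {j : ℕ} (hx1 : v x < v π ^ j) :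
    ∃ j' : ℕ, j < j' ∧ v x = v π ^ j' := by
  have hpos := val_unif_pos v hπ0
  have hlt1 : v x < 1 := lt_of_lt_of_le hx1 (pow_le_one₀ hpos.le hπ1.le)
  obtain ⟨j', hj', hx⟩ := exists_nat_level v hπ0 hπ1 hU hx0 hlt1
  refine ⟨j', ?_, hx⟩
  rw [hx] at hx1
  exact (pow_lt_pow_iff_right_of_lt_one₀ hpos hπ1).1 hx1

end Level

section NormalForm

variable {p : ℕ} [hp : Fact p.Prime]
variable (hperf : ∀ a : K, v a ≤ 1 → ∃ b : K, v b ≤ 1 ∧ v (b ^ p - a) < 1)
variable {π : K} (hπ0 : π ≠ 0) (hπ1 : v π < 1)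
  (hU : ∀ x : K, x ≠ 0 → ∃ m : ℤ, v x = v π ^ m)
variable {e : ℕ} (he : v (p : K) = v π ^ e)

/-- the conclusion of the normal form for principal units: exact level `j` prime to `p` below the
Hensel bound, or level above the Hensel bound. -/
def UnitNF (π : K) (e : ℕ) (x : K) : Prop :=
  (∃ j : ℕ, 0 < j ∧ ¬ p ∣ j ∧ j * (p - 1) < p * e ∧ v (x - 1) = v π ^ j) ∨
  (∃ j : ℕ, p * e ≤ j * (p - 1) ∧ v (x - 1) ≤ v π ^ j)

include hperf hπ0 hπ1 hU he in
/-- **principal units**: induction on the distance to the Hensel bound. -/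
theorem exists_unitNF_aux (n : ℕ) : ∀ x : K,
    (x = 1 ∨ ∃ j : ℕ, 0 < j ∧ v (x - 1) = v π ^ j ∧ p * e ≤ j * (p - 1) + n) →
    ∃ w : K, w ≠ 0 ∧ UnitNF (p := p) v π e (x * w ^ p) := by
  have hpos := val_unif_pos v hπ0
  induction n with
  | zero =>
    rintro x (rfl | ⟨j, hj0, hxj, hbd⟩)
    · refine ⟨1, one_ne_zero, Or.inr ⟨p * e, ?_, ?_⟩⟩
      · have := hp.out.two_le
        exact Nat.le_mul_of_pos_right _ (by omega)
      · rw [one_pow, mul_one, sub_self, map_zero]; exact zero_le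
    · refine ⟨1, one_ne_zero, Or.inr ⟨j, by omega, ?_⟩⟩
      rw [one_pow, mul_one, hxj]
  | succ n ih =>
    rintro x (rfl | ⟨j, hj0, hxj, hbd⟩)
    · exact ih 1 (Or.inl rfl)
    by_cases hT : p * e ≤ j * (p - 1)
    · exact ih x (Or.inr ⟨j, hj0, hxj, by omega⟩)
    rw [not_le] at hT
    by_cases hdvd : p ∣ j
    · -- level raising
      obtain ⟨s, rfl⟩ := hdvd
      have hs0 : 0 < s := by
        rcases Nat.eq_zero_or_pos s with h | h
        · rw [h, mul_zero] at hj0; exact absurd hj0 (lt_irrefl 0)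
        · exact h
      have hp2 := hp.out.two_le
      have hϖ0 : π ^ s ≠ 0 := pow_ne_zero _ hπ0
      have hϖ1 : v (π ^ s) < 1 := by
        rw [v.map_pow]; exact pow_lt_one₀ hpos.le hπ1 hs0.ne'
      have hsh : v (p : K) * v (π ^ s) < v (π ^ s) ^ p := by
        rw [he, v.map_pow, ← pow_add, ← pow_mul]
        refine (pow_lt_pow_iff_right_of_lt_one₀ hpos hπ1).2 ?_
        -- `s * p < e + s`  from  `p * s * (p - 1) < p * e`
        have h1 : s * (p - 1) < e := by
          have h2 : p * (s * (p - 1)) < p * e := by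
            calc p * (s * (p - 1)) = p * s * (p - 1) := by ring
              _ < p * e := hT
          exact Nat.lt_of_mul_lt_mul_left h2
        have h3 : s * p = s * (p - 1) + s := by
          have : p = (p - 1) + 1 := by omega
          conv_lhs => rw [this]
          ring
        omega
      have hxle : v (x - 1) ≤ v (π ^ s) ^ p := by
        rw [hxj, v.map_pow, ← pow_mul, mul_comm]
      obtain ⟨w₁, hw₁, hlt⟩ := level_raise (p := p) v hperf hϖ0 hϖ1 hsh hxle
      have hw₁0 : w₁ ≠ 0 := by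
        intro h0
        rw [h0, zero_sub, Valuation.map_neg, map_one] at hw₁
        exact absurd (lt_of_le_of_lt hw₁ hϖ1) (lt_irrefl 1)
      have hlt' : v (x * w₁ ^ p - 1) < v π ^ (p * s) := by
        rw [v.map_pow, ← pow_mul, mul_comm s p] at hlt; exact hlt
      have hcase : x * w₁ ^ p = 1 ∨ ∃ j' : ℕ, 0 < j' ∧ v (x * w₁ ^ p - 1) = v π ^ j' ∧
          p * e ≤ j' * (p - 1) + n := by
        by_cases h1 : x * w₁ ^ p = 1
        · exact Or.inl h1
        · obtain ⟨j', hj', hx'⟩ :=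
            exists_nat_level_gt v hπ0 hπ1 hU (sub_ne_zero.2 h1) hlt'
          refine Or.inr ⟨j', by omega, hx', ?_⟩
          have h2 : (p * s + 1) * (p - 1) ≤ j' * (p - 1) := Nat.mul_le_mul_right _ hj'
          have h3 : (p * s + 1) * (p - 1) = p * s * (p - 1) + (p - 1) := by ring
          omega
      obtain ⟨w₂, hw₂0, hNF⟩ := ih _ hcase
      refine ⟨w₁ * w₂, mul_ne_zero hw₁0 hw₂0, ?_⟩
      have : x * (w₁ * w₂) ^ p = x * w₁ ^ p * w₂ ^ p := by ring
      rw [this]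
      exact hNF
    · refine ⟨1, one_ne_zero, Or.inl ⟨j, hj0, hdvd, hT, ?_⟩⟩
      rw [one_pow, mul_one, hxj]

include hperf hπ0 hπ1 hU he in
/-- every principal unit has a unit normal form modulo `p`-th powers. -/
theorem exists_unitNF {x : K} (hx : v (x - 1) < 1) :
    ∃ w : K, w ≠ 0 ∧ UnitNF (p := p) v π e (x * w ^ p) := by
  by_cases h1 : x = 1
  · exact exists_unitNF_aux v hperf hπ0 hπ1 hU he 0 x (Or.inl h1)
  · obtain ⟨j, hj0, hxj⟩ := exists_nat_level v hπ0 hπ1 hU (sub_ne_zero.2 h1) hx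
    exact exists_unitNF_aux v hperf hπ0 hπ1 hU he (p * e) x
      (Or.inr ⟨j, hj0, hxj, Nat.le_add_left _ _⟩)

include hperf hπ0 hπ1 hU he in
/-- **Normal form modulo `p`-th powers.** -/
theorem exists_normal_form {u : K} (hu : u ≠ 0) :
    ∃ w : K, w ≠ 0 ∧
      ((∃ i : ℕ, 0 < i ∧ i < p ∧ v (u * w ^ p) = v π ^ i) ∨
        UnitNF (p := p) v π e (u * w ^ p)) := by
  have hpos := val_unif_pos v hπ0
  obtain ⟨m, hm⟩ := hU u hu
  have hp0 : (0 : ℤ) < p := by exact_mod_cast hp.out.pos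
  -- remove the `p`-divisible part of the valuation
  set q : ℤ := m / p with hq
  set i : ℤ := m % p with hi
  have hmi : m = p * q + i := (Int.mul_ediv_add_emod m p).symm
  have hi0 : 0 ≤ i := Int.emod_nonneg _ hp0.ne'
  have hip : i < p := Int.emod_lt_of_pos _ hp0
  set w₀ : K := π ^ (-q) with hw₀
  have hw₀0 : w₀ ≠ 0 := zpow_ne_zero _ hπ0
  have hv1 : v (u * w₀ ^ p) = v π ^ i := by
    rw [map_mul, v.map_pow, hw₀, map_zpow₀, hm, ← zpow_natCast (v π ^ (-q)) p, ← zpow_mul,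
      ← zpow_add₀ hpos.ne']
    congr 1
    rw [hmi]; ring
  by_cases hi1 : 0 < i
  · refine ⟨w₀, hw₀0, Or.inl ⟨i.toNat, by omega, by omega, ?_⟩⟩
    rw [hv1, ← zpow_natCast, Int.toNat_of_nonneg hi0]
  · have hi00 : i = 0 := by omega
    rw [hi00, zpow_zero] at hv1
    -- make it a principal unit
    set u₁ := u * w₀ ^ p with hu₁
    have hu₁0 : u₁ ≠ 0 := mul_ne_zero hu (pow_ne_zero _ hw₀0)
    have hinv : v u₁⁻¹ = 1 := by rw [map_inv₀, hv1, inv_one]
    obtain ⟨b, -, hb⟩ := hperf u₁⁻¹ hinv.le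
    have hb0 : b ≠ 0 := by
      intro h0
      rw [h0, zero_pow hp.out.ne_zero, zero_sub, Valuation.map_neg, hinv] at hb
      exact lt_irrefl 1 hb
    have hpu : v (u₁ * b ^ p - 1) < 1 := by
      have : u₁ * b ^ p - 1 = u₁ * (b ^ p - u₁⁻¹) := by
        rw [mul_sub, mul_inv_cancel₀ hu₁0]
      rw [this, map_mul, hv1, one_mul]
      exact hb
    obtain ⟨w₂, hw₂0, hNF⟩ := exists_unitNF v hperf hπ0 hπ1 hU he hpu
    refine ⟨w₀ * b * w₂, mul_ne_zero (mul_ne_zero hw₀0 hb0) hw₂0, Or.inr ?_⟩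
    have : u * (w₀ * b * w₂) ^ p = u₁ * b ^ p * w₂ ^ p := by rw [hu₁]; ring
    rw [this]
    exact hNF

omit hp in
/-- in case (T) the element is `≡ 1` modulo `p (ζ - 1)`: `v (x - 1) ^ (p - 1) ≤ v p ^ p`. -/
theorem val_pow_le_of_top (hπ0 : π ≠ 0) (hπ1 : v π < 1) (he : v (p : K) = v π ^ e) {x : K} {j : ℕ}
    (hj : p * e ≤ j * (p - 1)) (hx : v (x - 1) ≤ v π ^ j) :
    v (x - 1) ^ (p - 1) ≤ v (p : K) ^ p := by
  have hpos := val_unif_pos v hπ0
  calc v (x - 1) ^ (p - 1) ≤ (v π ^ j) ^ (p - 1) := pow_le_pow_left₀ zero_le hx _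
    _ = v π ^ (j * (p - 1)) := by rw [← pow_mul]
    _ ≤ v π ^ (p * e) := (pow_le_pow_iff_right_of_lt_one₀ hpos hπ1).2 hj
    _ = v (p : K) ^ p := by rw [he, ← pow_mul, mul_comm]

/-- in case (T) the element is in particular `≡ 1` modulo `p`. -/
theorem val_le_of_top (hπ0 : π ≠ 0) (hπ1 : v π < 1) (he : v (p : K) = v π ^ e) {x : K} {j : ℕ}
    (hj : p * e ≤ j * (p - 1)) (hx : v (x - 1) ≤ v π ^ j) : v (x - 1) ≤ v (p : K) := by
  have hpos := val_unif_pos v hπ0
  refine hx.trans ?_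
  rw [he]
  refine (pow_le_pow_iff_right_of_lt_one₀ hpos hπ1).2 ?_
  -- `e ≤ j` from `p e ≤ j (p - 1) ≤ j p`
  have h1 : p * e ≤ p * j := by
    calc p * e ≤ j * (p - 1) := hj
      _ ≤ j * p := Nat.mul_le_mul_left _ (Nat.sub_le _ _)
      _ = p * j := mul_comm _ _
  exact Nat.le_of_mul_le_mul_left h1 hp.out.pos

end NormalForm

end Fermat.Agent.GP.Flat.KbNormalForm
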