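/-
GATE-P / S56 [P-FLAT](iv), node S56-FLAT-KBQB part 5 (helper14): **the ORD-branch instance of the
Kummer bound**: helper47's consumer binder `OrdKb.KBsub P p (OrdKb.kerMu P p t)` for a flat lift `t`
with cyclotomic determinant, from `KbMain.kb_qb` at

  `N := ker t ⊓ Fix μ_p` (open normal; `= ker t` by `DetIsCyclotomic`),
  `F := ordK P p ⊓ locField P N`, `πF := ζ - 1`, `eF := p - 1`, `Ng := imG P N (Fix μ_p)`,

`hcard : |G| = (p - 1) · |Ng|` from `[I_P : I_P ∩ Fix μ_p] = p - 1` (the mod-`p` cyclotomic character is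
surjective on inertia: helper26 `TameZeta.exists_mem_inertia_apply_zeta`), and `hPm` from
`KbFlat.hPm_of_isFlatAt` (binder `LiftAll P p` = helper15's lifting lemma).
-/
import Mathlib
import Fermat.Agent.GP.Flat.KbMain
import Fermat.Agent.GP.Flat.KbFlat
import Fermat.Agent.GP.Flat.OrdKb
import Fermat.Agent.GP.Flat.DvrInst.SubImage

set_option autoImplicit false
set_option linter.unusedSectionVars false
set_option linter.style.haveILetI false

open scoped Pointwise
open Polynomial IsLocalRing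
open Fermat.Agent.Common_helper32 Fermat.Agent.S13.Global Fermat.Agent.GL.Local.InertiaField
  Fermat.Agent.GL.Local Fermat.Agent.GP.Flat.DvrInst
  Fermat.Agent.GP.Tan.Cocycle Fermat.Agent.GP.Flat.SSGK Fermat.Agent.GP.Flat.OrdFrame
  Fermat.Agent.GP.Flat.OrdLocal

namespace Fermat.Agent.GP.Flat.KbOrd

/-! ### `[I_P : I_P ∩ Fix μ_p] = p - 1` -/

/-- **the mod-`p` cyclotomic character maps the inertia group at `P | p` onto `(ℤ/p)ˣ`**:
`[I_P : I_P ∩ Fix μ_p] = p - 1`. -/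
theorem relIndex_fixMu_inertia (P : ValuationSubring Qb) {p : ℕ} (hp : p.Prime)
    (hP : (p : Qb) ∈ P.nonunits) :
    (fixMu p).relIndex (P.inertiaSubgroupIn ℚ) = p - 1 := by
  haveI : NeZero p := ⟨hp.ne_zero⟩
  haveI : Fact p.Prime := ⟨hp⟩
  haveI : NeZero (p : Qb) := ⟨by exact_mod_cast hp.ne_zero⟩
  obtain ⟨ζ, hζ⟩ : ∃ ζ : Qb, IsPrimitiveRoot ζ p :=
    HasEnoughRootsOfUnity.exists_primitiveRoot Qb p
  have hker : (hζ.autToPow ℚ).ker = fixMu p := by
    ext σ
    rw [MonoidHom.mem_ker, mem_fixMu_iff]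
    constructor
    · intro h μ hμ
      exact apply_root_of_autToPow_eq_one hp hζ h hμ
    · intro h
      have h2 := hζ.autToPow_spec ℚ σ
      rw [h ζ hζ.pow_eq_one] at h2
      have h3 : ((hζ.autToPow ℚ σ : (ZMod p)ˣ) : ZMod p).val = 1 :=
        hζ.pow_inj (ZMod.val_lt _) hp.one_lt (h2.trans (pow_one ζ).symm)
      apply Units.ext
      rw [Units.val_one]
      apply ZMod.val_injective p
      rw [h3, ZMod.val_one]
  have hsurj : (P.inertiaSubgroupIn ℚ).map (hζ.autToPow ℚ) = ⊤ := by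
    rw [eq_top_iff]
    intro u _
    have hk : ¬ p ∣ (u : ZMod p).val := by
      intro hdvd
      have h0 : ((u : ZMod p).val : ZMod p) = 0 := (ZMod.natCast_eq_zero_iff _ _).2 hdvd
      rw [ZMod.natCast_zmod_val] at h0
      exact u.ne_zero h0
    obtain ⟨σ, hσ, hσζ⟩ := exists_mem_inertia_apply_zeta P hp hP hζ hk
    refine ⟨σ, hσ, ?_⟩
    have h2 := hζ.autToPow_spec ℚ σ
    rw [hσζ] at h2
    have h3 := hζ.pow_inj (ZMod.val_lt _) (ZMod.val_lt _) h2
    apply Units.ext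
    exact ZMod.val_injective p h3
  rw [← hker, Subgroup.relIndex_ker, hsurj, Subgroup.card_top, Nat.card_eq_fintype_card,
    ZMod.card_units_eq_totient, Nat.totient_prime hp]

/-! ### The instance -/

section Inst

variable {k : Type} [Field k] [Finite k]

theorem natCast_dualNumber_eq_zero {p : ℕ} [CharP k p] : ((p : ℕ) : DualNumber k) = 0 := by
  apply TrivSqZeroExt.ext
  · rw [TrivSqZeroExt.fst_natCast, CharP.cast_eq_zero, TrivSqZeroExt.fst_zero]
  · rw [TrivSqZeroExt.snd_natCast, TrivSqZeroExt.snd_zero]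

theorem finite_dualNumber : Finite (DualNumber k) :=
  Finite.of_injective (fun x : DualNumber k => (x.fst, x.snd)) fun _ _ h =>
    TrivSqZeroExt.ext (congrArg Prod.fst h) (congrArg Prod.snd h)

/-- **helper47's `KBsub` for a flat lift with cyclotomic determinant.** -/
theorem kbsub_of_isFlatAt (P : ValuationSubring Qb) {p : ℕ} (hp : p.Prime)
    (hP : (p : Qb) ∈ P.nonunits) (hp3 : 3 ≤ p) [CharP k p]
    (t : GQ →* Matrix (Fin 2) (Fin 2) (DualNumber k)) (ht : Fermat.Agent.S53_helper35.MatCont t)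
    (hflat : (Fermat.Agent.S53_helper35.ofMat t ht).IsFlatAt p) (hdet : (Fermat.Agent.S53_helper35.ofMat t ht).DetIsCyclotomic p)
    (hlift : KbFlat.LiftAll P p) :
    OrdKb.KBsub P p (OrdKb.kerMu P p t) := by
  classical
  haveI : Fact p.Prime := ⟨hp⟩
  haveI : NeZero p := ⟨hp.ne_zero⟩
  haveI : NeZero (p : Qb) := ⟨by exact_mod_cast hp.ne_zero⟩
  haveI : Finite (DualNumber k) := finite_dualNumber
  intro y hy0 hyT hyK
  have hpR : ((p : ℕ) : DualNumber k) = 0 := natCast_dualNumber_eq_zero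
  -- the open normal subgroup
  set N : Subgroup GQ := t.ker ⊓ fixMu p with hNdef
  have hNnormal : N.Normal := by rw [hNdef]; infer_instance
  have hopen : IsOpen (N : Set GQ) := by
    obtain ⟨L, hL, hL1⟩ := exists_eq_one_of_matCont t ht
    have hker : IsOpen (t.ker : Set GQ) := by
      refine Subgroup.isOpen_mono (H₁ := L.fixingSubgroup) ?_
        (IntermediateField.fixingSubgroup_isOpen L)
      intro σ hσ
      rw [MonoidHom.mem_ker]
      exact hL1 σ fun x hx => (IntermediateField.mem_fixingSubgroup_iff L σ).1 hσ x hx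
    exact hker.inter (isOpen_fixMu p hp)
  have hN1 : ∀ σ ∈ N, (Fermat.Agent.S53_helper35.ofMat t ht).ρ σ = 1 := fun σ hσ =>
    (ofMat_ρ_eq_one_iff t ht σ).2 (MonoidHom.mem_ker.1 hσ.1)
  have hN2 : ∀ σ : GQ, (Fermat.Agent.S53_helper35.ofMat t ht).ρ σ = 1 → σ ∈ N := fun σ hσ =>
    ⟨MonoidHom.mem_ker.2 ((ofMat_ρ_eq_one_iff t ht σ).1 hσ),
      KbFlat.mem_fixMu_of_detIsCyclotomic (Fermat.Agent.S53_helper35.ofMat t ht) hp hpR hdet hσ⟩
  have hNμ : N ≤ fixMu p := inf_le_right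
  haveI : Finite (inertiaQuot P N) := finite_inertiaQuot P N hopen
  haveI : Fintype (inertiaQuot P N) := Fintype.ofFinite _
  obtain ⟨π, ε₀, hπ, hε, hπe, hπ1⟩ := exists_irreducible_pow P N hp hP hopen
  rw [Nat.card_eq_fintype_card] at hε hπe
  have hPm := KbFlat.hPm_of_isFlatAt P N hp hP hp3 hopen (Fermat.Agent.S53_helper35.ofMat t ht) hpR hflat hN1 hN2 hlift π hπ1
    hπe
  -- the root of unity
  obtain ⟨ζ, hζ⟩ : ∃ ζ : Qb, IsPrimitiveRoot ζ p :=
    HasEnoughRootsOfUnity.exists_primitiveRoot Qb p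
  have hζL : ζ ∈ locField P N := by
    rw [mem_locField_iff]
    intro σ _ hσN
    exact hNμ hσN ζ hζ.pow_eq_one
  -- the small field
  set F : Subfield Qb := ordK P p ⊓ (locField P N).toSubfield with hFdef
  have hFL : ∀ x ∈ F, x ∈ locField P N := fun x hx => hx.2
  have hFN : ∀ x : locField P N, (x : Qb) ∈ F → ∀ s ∈ imG P N (fixMu p), s • x = x := by
    intro x hx
    rw [forall_mem_imG_smul_eq_iff]
    intro σ hσI hσμ
    exact hx.1 ⟨σ, inertia_le_decomp hσI⟩ ⟨hσI, hσμ⟩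
  have hζF : ζ ∈ F := ⟨zeta_mem_ordK P p hζ.pow_eq_one, hζL⟩
  have hπF : ζ - 1 ∈ F := F.sub_mem hζF F.one_mem
  have hπF1 : P.valuation (ζ - 1) < 1 := by
    rw [Valuation.map_sub_swap]
    exact P.mem_nonunits_iff.1 (one_sub_zeta_mem_nonunits P hp hP hζ)
  have heF : P.valuation (p : Qb) = P.valuation (ζ - 1) ^ (p - 1) :=
    Fermat.Agent.GP.Ram.KummerBreak.val_p_eq P.valuation hζ
  have hcard : Fintype.card (inertiaQuot P N) = (p - 1) * Nat.card (imG P N (fixMu p)) := by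
    rw [← Nat.card_eq_fintype_card, card_eq_relIndex_mul_card_imG P N hNμ,
      relIndex_fixMu_inertia P hp hP]
  -- `y ∈ L`
  have hyL : y ∈ locField P N := by
    rw [mem_locField_iff]
    intro σ hσD hσN
    exact hyT ⟨σ, hσD⟩ ⟨MonoidHom.mem_ker.1 hσN.1, hσN.2⟩
  have hypL : y ^ p ∈ locField P N := pow_mem hyL p
  obtain ⟨w, hwF, hw0, hw⟩ := KbMain.kb_qb P N hp hP hp3 hopen π hπ hπ1 hπe ε₀ hε hPm
    (imG P N (fixMu p)) F hFL hFN hπF hπF1 (p - 1) heF hcard hζ hζF hy0 hyL ⟨hyK, hypL⟩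
  exact ⟨w, hwF.1, hw0, hw⟩

end Inst

end Fermat.Agent.GP.Flat.KbOrd
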