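import Fermat.Agent.GP.Flat.FnModel
import Fermat.Agent.GP.Flat.FourierRoot
import Fermat.Agent.GP.Flat.Cartier

/-!
# Lifting approximate points of a finite flat group scheme killed by `p` (helper15, FLAT-LIFTFROZEN)

`H` a finite free commutative cocommutative Hopf algebra over `R₀`, `K` an algebraically closed
valued field of characteristic `0` whose valuation is "archimedean with respect to `p`", all points
`H → K` killed by `p`.  An `R₀`-linear map `y₀ : H → K`, integral valued, unital, multiplicative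
modulo `p w` with `|w|^(p-1) < |p|`, is congruent modulo `w` to a genuine point.
-/

set_option linter.unusedSectionVars false
set_option linter.style.haveILetI false

noncomputable section

namespace Fermat.Agent.GP.Flat.LiftFrozen

open TensorProduct WithConv Fermat.Agent.GP.Flat.GroupBasis Fermat.Agent.GP.Flat.Absorb
  Fermat.Agent.GP.Flat.FnModel Fermat.Agent.GP.Flat

section Aux

variable {R₀ : Type*} [CommRing R₀] {B : Type*} [CommRing B] [Bialgebra R₀ B]
  [Coalgebra.IsCocomm R₀ B] [Module.Finite R₀ B] [Module.Free R₀ B]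
  {K : Type*} [Field K] [Algebra R₀ K]
  {O : Type*} [CommRing O] [Algebra R₀ O] [Algebra O K] [IsScalarTower R₀ O K]
  {Γ₀ : Type*} [LinearOrderedCommGroupWithZero Γ₀] {v : Valuation K Γ₀}

/-- a functional all of whose values are divisible by `c` is a multiple of `c`. -/
theorem exists_smul_eq (hO : v.Integers O) (F : WithConv (B →ₗ[R₀] O)) (c : O) (hc : c ≠ 0)
    (hF : ∀ t, v (algebraMap O K (F t)) ≤ v (algebraMap O K c)) :
    ∃ β : WithConv (B →ₗ[R₀] O), F = c • β := by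
  have hcK : algebraMap O K c ≠ 0 := fun h => hc (hO.hom_inj (by rw [h, map_zero]))
  have hG : ∀ t, v (((algebraMap O K c)⁻¹ • toKAlg (K := K) F) t) ≤ 1 := by
    intro t
    have : ((algebraMap O K c)⁻¹ • toKAlg (K := K) F) t
        = (algebraMap O K c)⁻¹ * algebraMap O K (F t) := rfl
    rw [this, map_mul, map_inv₀]
    have hv : v (algebraMap O K c) ≠ 0 := by rwa [Ne, map_eq_zero]
    rw [inv_mul_le_iff₀ (zero_lt_iff.mpr hv), mul_one]
    exact hF t
  obtain ⟨β, hβ⟩ := exists_toKAlg_eq hO _ hG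
  refine ⟨β, ?_⟩
  apply toKAlg_injective (K := K) hO
  rw [map_smul, hβ]
  apply WithConv.ofConv_injective
  ext t
  show algebraMap O K (F t) = c • ((algebraMap O K c)⁻¹ * algebraMap O K (F t))
  rw [Algebra.smul_def, ← mul_assoc, mul_inv_cancel₀ hcK, one_mul]

end Aux

section Main

variable {R₀ : Type*} [CommRing R₀] {H : Type*} [CommRing H] [Bialgebra R₀ H]
  [Coalgebra.IsCocomm R₀ H] [Module.Finite R₀ H] [Module.Free R₀ H]
  {K : Type*} [Field K] [Algebra R₀ K] [IsAlgClosed K] [CharZero K]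
  {O : Type*} [CommRing O] [Algebra R₀ O] [Algebra O K] [IsScalarTower R₀ O K]
  {Γ₀ : Type*} [LinearOrderedCommGroupWithZero Γ₀] {v : Valuation K Γ₀}

set_option maxHeartbeats 400000 in
theorem exists_point_lift_aux (hO : v.Integers O) {p : ℕ} (hp : p.Prime)
    (hcard : Fintype.card (WithConv (H →ₐ[R₀] K)) = Module.finrank R₀ H)
    (harch : ∀ x : K, v x < 1 → ∃ n : ℕ, v x ^ n ≤ v (p : K))
    (hkill : ∀ f : WithConv (H →ₐ[R₀] K), f ^ p = 1)
    {w : K} (hw0 : w ≠ 0) (hw : v w ^ (p - 1) < v (p : K))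
    (y₀ : H →ₗ[R₀] K) (hy1 : y₀ 1 = 1) (hyA : ∀ h, v (y₀ h) ≤ 1)
    (hy : ∀ h h', v (y₀ (h * h') - y₀ h * y₀ h') ≤ v ((p : K) * w)) :
    ∃ f : H →ₐ[R₀] K, ∀ h, v (f h - y₀ h) ≤ v w := by
  classical
  have hS : ∀ g : WithConv (H →ₐ[R₀] K), IsUnit g :=
    fun g => IsUnit.of_pow_eq_one (hkill g) hp.ne_zero
  haveI hroots := hasEnoughRootsOfUnity_of_isUnit hS K
  haveI hfinD : Finite (WithConv (H →ₐ[R₀] K) →* Kˣ) := finite_dual hS
  haveI : IsDomain O := Function.Injective.isDomain (algebraMap O K) hO.hom_inj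
  have hinj₁ := ev₁_injective (O := O) hcard hO hS
  have hinj₂ := ev₂_injective (O := O) hcard hO hS
  have habs₂ := ev₂_absorbs (O := O) hcard hO hS
  have hp0 : (p : K) ≠ 0 := Nat.cast_ne_zero.mpr hp.ne_zero
  have hvp1 : v (p : K) ≤ 1 := Lift.natCast_le_one v p
  have hp1 : p - 1 ≠ 0 := by have := hp.two_le; omega
  have hw1 : v w < 1 := by
    by_contra hge
    rw [not_lt] at hge
    exact absurd (hw.trans_le hvp1) (not_lt.mpr (one_le_pow_of_one_le' hge _))
  obtain ⟨ϖ, hϖ⟩ := hO.exists_of_le_one hw1.le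
  have hϖ0 : ϖ ≠ 0 := by
    rintro rfl
    rw [map_zero] at hϖ
    exact hw0 hϖ.symm
  -- the integral model of `y₀`
  obtain ⟨y, hyK⟩ := exists_toKAlg_eq (R₀ := R₀) (B := H) hO (toConv y₀) hyA
  have hyx : ∀ h, algebraMap O K (y h) = y₀ h := by
    intro h
    have := congrArg (fun F : WithConv (H →ₗ[R₀] K) => F h) hyK
    simpa using this
  have hy1' : y 1 = 1 := hO.hom_inj (by rw [hyx, hy1, map_one])
  set E₁ := ev₁ (K := K) (O := O) hcard hO with hE₁
  set E₂ := ev₂ (K := K) (O := O) hcard hO with hE₂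
  set F₁ : WithConv (H ⊗[R₀] H →ₗ[R₀] O) := pullO (Algebra.TensorProduct.lmul' R₀ (S := H)) y
    with hF₁
  set P₁ : WithConv (H ⊗[R₀] H →ₗ[R₀] O) := pullO proj₁ y with hP₁
  set P₂ : WithConv (H ⊗[R₀] H →ₗ[R₀] O) := pullO proj₂ y with hP₂
  set u : WithConv (H ⊗[R₀] H →ₗ[R₀] O) := P₁ * P₂ with hu
  have hpϖ : algebraMap O K ((p : O) * ϖ) = (p : K) * w := by rw [map_mul, map_natCast, hϖ]
  have hpϖ0 : (p : O) * ϖ ≠ 0 := by
    intro h
    have := congrArg (algebraMap O K) h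
    rw [hpϖ, map_zero] at this
    exact mul_ne_zero hp0 hw0 this
  -- the defect is divisible by `p ϖ`
  have hdef : ∀ t : H ⊗[R₀] H,
      v (algebraMap O K ((F₁ - u) t)) ≤ v (algebraMap O K ((p : O) * ϖ)) := by
    intro t
    induction t using TensorProduct.induction_on with
    | zero => simp
    | tmul a b =>
      have h1 : (F₁ - u) (a ⊗ₜ[R₀] b) = y (a * b) - y a * y b := by
        have : u (a ⊗ₜ[R₀] b) = y a * y b := pull_proj_mul_apply y y a b
        show F₁ (a ⊗ₜ[R₀] b) - u (a ⊗ₜ[R₀] b) = _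
        rw [this]
        rfl
      rw [h1, map_sub, RingHom.map_mul, hyx, hyx, hyx, hpϖ]
      exact hy a b
    | add s t hs ht =>
      have : (F₁ - u) (s + t) = (F₁ - u) s + (F₁ - u) t := map_add (F₁ - u).ofConv s t
      rw [this, map_add]
      exact (v.map_add_le hs ht)
  obtain ⟨β', hβ'⟩ := exists_smul_eq hO (F₁ - u) ((p : O) * ϖ) hpϖ0 hdef
  -- evaluations
  have hEF₁ : ∀ x x', E₂ F₁ (x, x') = E₁ y (x + x') := fun x x' => ev₂_pull_mul hcard hO y x x'
  have hEu : ∀ x x', E₂ u (x, x') = E₁ y x * E₁ y x' := by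
    intro x x'
    rw [hu, map_mul, Pi.mul_apply]
    rw [show E₂ P₁ (x, x') = E₁ y x from ev₂_pull_proj₁ hcard hO y x x',
      show E₂ P₂ (x, x') = E₁ y x' from ev₂_pull_proj₂ hcard hO y x x']
  have hEy : ∀ x x', E₁ y (x + x') = E₁ y x * E₁ y x' + ((p : O) * ϖ) * E₂ β' (x, x') := by
    intro x x'
    have h1 : F₁ = u + ((p : O) * ϖ) • β' := by rw [← hβ']; abel
    have h2 := congrFun (congrArg E₂ h1) (x, x')
    rw [map_add, map_smul, Pi.add_apply, Pi.smul_apply, smul_eq_mul, hEF₁, hEu] at h2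
    exact h2
  have hE0 : E₁ y 0 = 1 := by
    rw [show E₁ y 0 = y 1 from ev₁_zero hcard hO y, hy1']
  have hsmall : ∀ c : O, v (algebraMap O K ((p : O) * ϖ * c)) < 1 := by
    intro c
    rw [map_mul, hpϖ, map_mul, map_mul]
    calc v (p : K) * v w * v (algebraMap O K c) ≤ 1 * v w * 1 := by
          gcongr
          exact hO.map_le_one c
      _ = v w := by rw [one_mul, mul_one]
      _ < 1 := hw1
  have hunit : ∀ x, IsUnit (E₁ y x) := by
    intro x
    have h1 := hEy x (-x)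
    have e : x + -x = 0 := add_neg_cancel x
    rw [e, hE0] at h1
    have h2 : IsUnit (E₁ y x * E₁ y (-x)) := by
      have h3 : E₁ y x * E₁ y (-x) = 1 - ((p : O) * ϖ) * E₂ β' (x, -x) := by
        rw [h1]; ring
      rw [h3]
      apply hO.isUnit_of_one'
      rw [map_sub, map_one]
      exact v.map_one_sub_of_lt (hsmall _)
    exact isUnit_of_mul_isUnit_left h2
  haveI : Finite (Dual R₀ H K) := inferInstanceAs (Finite (Additive _))
  have huU : IsUnit u := by
    apply isUnit_of_forall_isUnit hinj₂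
    rintro ⟨x, x'⟩
    rw [hEu]
    exact (hunit x).mul (hunit x')
  obtain ⟨u', hu'⟩ := huU.exists_right_inv
  set β : WithConv (H ⊗[R₀] H →ₗ[R₀] O) := β' * u' with hβ
  have hF₁u : F₁ = u * (1 + ((p : O) * ϖ) • β) := by
    have h1 : F₁ = u + ((p : O) * ϖ) • β' := by rw [← hβ']; abel
    rw [h1, hβ, mul_add, mul_one, mul_smul_comm, ← mul_assoc, mul_comm u β', mul_assoc, hu',
      mul_one]
  have hy' : ∀ x x', E₁ y (x + x')
      = E₁ y x * E₁ y x' * (1 + ((p : O) * ϖ) • E₂ β (x, x')) := by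
    intro x x'
    have h2 := congrFun (congrArg E₂ hF₁u) (x, x')
    rw [map_mul, map_add, map_one, map_smul, Pi.mul_apply, Pi.add_apply, Pi.one_apply,
      Pi.smul_apply, hEF₁, hEu] at h2
    exact h2
  -- `D` is killed by `p`
  have hD : ∀ x : Dual R₀ H K, p • x = 0 := by
    intro x
    apply Additive.toMul.injective
    ext g
    rw [toMul_nsmul, MonoidHom.pow_apply, ← map_pow, hkill g, map_one, toMul_zero,
      MonoidHom.one_apply]
  -- graphs
  have hγ : ∀ (j : ℕ) (F : WithConv (H ⊗[R₀] H →ₗ[R₀] O)) (x : Dual R₀ H K),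
      E₁ (pullO (theta j) F) x = E₂ F (x, j • x) := fun j F x => ev₁_pull_theta hcard hO F j x
  -- `p`-th roots by absorption
  have hμ1 : v (w ^ (p - 1) / (p : K)) < 1 := by
    rw [map_div₀, map_pow]
    have hv : v (p : K) ≠ 0 := by rwa [Ne, map_eq_zero]
    rw [div_lt_one₀ (zero_lt_iff.mpr hv)]
    exact hw
  obtain ⟨μ, hμ⟩ := hO.exists_of_le_one hμ1.le
  have hϖμ : ϖ ^ (p - 1) = (p : O) * μ := by
    apply hO.hom_inj
    rw [map_pow, hϖ, map_mul, map_natCast, hμ, mul_div_cancel₀ _ hp0]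
  obtain ⟨ν, hνϖ, hνμ, hν1⟩ : ∃ ν : O, ν ∣ ϖ ∧ ν ∣ μ ∧ v (algebraMap O K ν) < 1 := by
    rcases le_total (v (algebraMap O K μ)) (v (algebraMap O K ϖ)) with h | h
    · exact ⟨ϖ, dvd_rfl, hO.dvd_of_le h, by rw [hϖ]; exact hw1⟩
    · exact ⟨μ, hO.dvd_of_le h, dvd_rfl, by rw [hμ]; exact hμ1⟩
  obtain ⟨M, hM⟩ : ∃ M : ℕ, ((Fintype.card (WithConv (H →ₐ[R₀] K) × WithConv (H →ₐ[R₀] K)) : ℕ) : O)
      ∣ ν ^ M := by
    obtain ⟨n, hn⟩ := harch _ hν1
    have hpν : (p : O) ∣ ν ^ n := by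
      apply hO.dvd_of_le
      rw [map_pow, map_pow, map_natCast]
      exact hn
    obtain ⟨k, hk⟩ : ∃ k, Fintype.card (WithConv (H →ₐ[R₀] K)) = p ^ k := by
      letI : CommGroup (WithConv (H →ₐ[R₀] K)) := commGroupOfIsUnit hS
      haveI : Fact p.Prime := ⟨hp⟩
      have hpg : IsPGroup p (WithConv (H →ₐ[R₀] K)) := fun g => ⟨1, by rw [pow_one]; exact hkill g⟩
      obtain ⟨k, hk⟩ := hpg.exists_card_eq
      exact ⟨k, by rw [← hk, Nat.card_eq_fintype_card]⟩
    refine ⟨n * (k + k), ?_⟩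
    rw [Fintype.card_prod, hk, ← pow_add, Nat.cast_pow, pow_mul]
    exact pow_dvd_pow_of_dvd hpν _
  have hpt : ∀ b : O, ∃ a : O, (1 + ϖ * a) ^ p = 1 + (p : O) * ϖ * b := by
    intro b
    obtain ⟨a, ha1, ha⟩ := FourierRoot.exists_root_one_add v hp hp0 hw0 hw (hO.map_le_one b)
    obtain ⟨a', rfl⟩ := hO.exists_of_le_one ha1
    refine ⟨a', hO.hom_inj ?_⟩
    rw [map_pow, map_add, map_one, map_mul, hϖ, ha, map_add, map_one, map_mul, map_mul,
      map_natCast, hϖ]
  have hroot : ∀ β : WithConv (H ⊗[R₀] H →ₗ[R₀] O),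
      ∃ α : WithConv (H ⊗[R₀] H →ₗ[R₀] O), (1 + ϖ • α) ^ p = 1 + ((p : O) * ϖ) • β :=
    fun β => Absorb.exists_root hp hinj₂ hϖμ hνϖ hνμ hM habs₂ hpt
      (IsRegular.of_ne_zero hpϖ0).left β
  have huniq : ∀ a ∈ Lift.oneUnits (O' := O) ϖ, ∀ b ∈ Lift.oneUnits (O' := O) ϖ,
      a ^ p = b ^ p → a = b :=
    Lift.huniq_of_valuation (O := O) (O' := O) v (algebraMap O K) hO.hom_inj hO.map_le_one hp ϖ
      (by rw [Algebra.algebraMap_self, RingHom.id_apply, hϖ]; exact hw)
  have hreg' : ∀ x, IsLeftRegular (E₁ y x) := fun x => (hunit x).isRegular.left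
  have key : ∃ δ : WithConv (H →ₗ[R₀] O), (∀ x x', E₁ (y * (1 + ϖ • δ)) (x + x')
        = E₁ (y * (1 + ϖ • δ)) x * E₁ (y * (1 + ϖ • δ)) x') ∧
      E₁ (y * (1 + ϖ • δ)) 0 = 1 := by
    refine Lift.exists_character_lift_ev (O := O) (O' := O) (D := Dual R₀ H K) (p := p) hD ϖ E₁ E₂
      ?_ ?_ ?_ ?_ y ?_ ?_ β ?_
    · exact (fun j => pullO (theta j))
    · exact hγ
    · exact hroot
    · exact huniq
    · exact hreg'
    · exact hE0
    · exact hy'
  obtain ⟨δ, hδmul, hδ0⟩ := key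
  set f : WithConv (H →ₗ[R₀] O) := y * (1 + ϖ • δ) with hf
  -- the character of the dual group defined by `f`
  have hfne : ∀ x, algebraMap O K (E₁ f x) ≠ 0 := by
    intro x
    have h1 : E₁ f x * E₁ f (-x) = 1 := by
      have e : x + -x = 0 := add_neg_cancel x
      rw [← hδmul, e, hδ0]
    intro h0
    have := congrArg (algebraMap O K) h1
    rw [map_mul, h0, zero_mul, map_one] at this
    exact zero_ne_one this
  let Φ : (WithConv (H →ₐ[R₀] K) →* Kˣ) →* Kˣ :=
    { toFun := fun ψ => Units.mk0 (algebraMap O K (E₁ f (Additive.ofMul ψ))) (hfne _)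
      map_one' := by
        apply Units.ext
        show algebraMap O K (E₁ f 0) = 1
        rw [hδ0, map_one]
      map_mul' := fun ψ ψ' => by
        apply Units.ext
        show algebraMap O K (E₁ f (Additive.ofMul ψ + Additive.ofMul ψ')) = _
        rw [hδmul, map_mul]
        rfl }
  letI : CommGroup (WithConv (H →ₐ[R₀] K)) := commGroupOfIsUnit hS
  set g : WithConv (H →ₐ[R₀] K) := CommGroup.monoidHomMonoidHomEquiv _ K Φ with hg
  have hgΦ : ∀ ψ : WithConv (H →ₐ[R₀] K) →* Kˣ, ψ g = Φ ψ :=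
    fun ψ => CommGroup.apply_monoidHomMonoidHomEquiv K ψ Φ
  -- `f` is the point `g`
  have hfg : toKAlg (K := K) f = ptB hcard g := by
    rw [← sub_eq_zero]
    haveI : Fintype (WithConv (H →ₐ[R₀] K) →* Kˣ) := Fintype.ofFinite _
    apply eq_zero_of_evalChar_eq_zero hS (ptB_isGroupBasis hcard)
    intro ψ
    rw [map_sub, evalChar_basis, sub_eq_zero]
    have h1 : evalChar (ptB_isGroupBasis hcard) (toK ψ) (toKAlg f)
        = algebraMap O K (E₁ f (Additive.ofMul ψ)) :=
      (algebraMap_evO hO (ptB_isGroupBasis hcard) chr₁ f (Additive.ofMul ψ)).symm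
    rw [h1, toK_apply', hgΦ ψ]
    rfl
  refine ⟨g.ofConv, fun h => ?_⟩
  have h1 : g h = algebraMap O K (f h) := by
    have := congrArg (fun F : WithConv (H →ₗ[R₀] K) => F h) hfg
    simp only [toKAlg_apply, ptB_apply] at this
    exact this.symm
  have h2 : f h = y h + ϖ * (y * δ) h := by
    have : f = y + ϖ • (y * δ) := by rw [hf, mul_add, mul_one, mul_smul_comm]
    rw [this]
    rfl
  show v (g h - y₀ h) ≤ v w
  rw [h1, h2, map_add, hyx, add_sub_cancel_left, map_mul, hϖ, map_mul]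
  calc v w * v (algebraMap O K ((y * δ) h)) ≤ v w * 1 := by
        gcongr
        exact hO.map_le_one _
    _ = v w := mul_one _

end Main

section Final

variable {R₀ : Type*} [CommRing R₀] {H : Type*} [CommRing H] [HopfAlgebra R₀ H]
  [Coalgebra.IsCocomm R₀ H] [Module.Finite R₀ H] [Module.Free R₀ H]
  {K : Type*} [Field K] [Algebra R₀ K] [IsAlgClosed K] [CharZero K]
  {Γ₀ : Type*} [LinearOrderedCommGroupWithZero Γ₀]

/-- **Lifting approximate points.**  `H` a finite free commutative cocommutative Hopf algebra over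
`R₀`, all of whose `K`-points are killed by `p`; `K` algebraically closed of characteristic `0` with
a valuation `v`, integral on `R₀` and archimedean with respect to `p`.  An `R₀`-linear, unital,
integral-valued `y₀ : H → K` which is multiplicative modulo `p w`, `|w|^(p-1) < |p|`, is congruent
modulo `w` to a point of `H`. -/
theorem exists_point_lift (v : Valuation K Γ₀) {p : ℕ} (hp : p.Prime)
    (hint : ∀ r : R₀, v (algebraMap R₀ K r) ≤ 1)
    (harch : ∀ x : K, v x < 1 → ∃ n : ℕ, v x ^ n ≤ v (p : K))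
    (hkill : ∀ f : WithConv (H →ₐ[R₀] K), f ^ p = 1)
    {w : K} (hw : v w ^ (p - 1) < v (p : K))
    (y₀ : H →ₗ[R₀] K) (hy1 : y₀ 1 = 1) (hyA : ∀ h, v (y₀ h) ≤ 1)
    (hy : ∀ h h', v (y₀ (h * h') - y₀ h * y₀ h') ≤ v ((p : K) * w)) :
    ∃ f : H →ₐ[R₀] K, ∀ h, v (f h - y₀ h) ≤ v w := by
  by_cases hw0 : w = 0
  · subst hw0
    have hmul : ∀ h h', y₀ (h * h') = y₀ h * y₀ h' := by
      intro h h'
      have := hy h h'
      rw [mul_zero, map_zero, le_zero_iff, map_eq_zero, sub_eq_zero] at this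
      exact this
    refine ⟨AlgHom.ofLinearMap y₀ hy1 hmul, fun h => ?_⟩
    simp
  · letI : Algebra R₀ v.integer :=
      ((algebraMap R₀ K).codRestrict v.integer (fun r => (Valuation.mem_integer_iff v _).mpr (hint r))).toAlgebra
    haveI : IsScalarTower R₀ v.integer K := IsScalarTower.of_algebraMap_eq (fun r => rfl)
    have hcard : Fintype.card (WithConv (H →ₐ[R₀] K)) = Module.finrank R₀ H := by
      rw [← Cartier.card_points_base R₀ K H, ← Nat.card_eq_fintype_card]
      exact Nat.card_congr (WithConv.equiv _)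
    exact exists_point_lift_aux (Valuation.integer.integers v) hp hcard harch hkill hw0 hw y₀ hy1
      hyA hy

end Final

end Fermat.Agent.GP.Flat.LiftFrozen
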