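/-
GATE-P (S56 long shot) / [P-FLAT] node S56-FLAT-PM (helper15): Fontaine's property `(P_m)`,
`m = p/(p-1)`, for a finite flat group scheme killed by `p` over `ℤ_(p)`, in the PINNED monogenic
form of board 4059 §2, with NO binder left:

* `Pm.hlift` = the lifting lemma `LiftFrozen.exists_point_lift` in the frozen shape
  (`K = ℚ̄`, `v = A.valuation`, `R₀ = ℤ_(p)`), the archimedean input from `Arch.harch` (helper96) and
  freeness from `CartierFrozen.free` (helper65);
* `Pm.fixes_points` = `PmAsmFrozen.fixes_points_of_lift` (helper53) with `hlift` discharged.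
-/
import Fermat.Agent.GP.Flat.PmAsmFrozen
import Fermat.Agent.GP.Flat.LiftFrozen
import Fermat.Agent.GP.Flat.Arch
import Fermat.Agent.GP.Flat.CartierFrozen

set_option autoImplicit false
set_option linter.unusedVariables false
set_option linter.unusedSectionVars false

open Fermat.Agent.Common_helper32
open Polynomial WithConv

namespace Fermat.Agent.GP.Flat.Pm

/-- **Fontaine's lifting lemma, frozen shape**: the binder `hlift` of
`PmAsmFrozen.fixes_points_of_lift`. -/
theorem hlift {p : ℕ} (hp : p.Prime) (A : ValuationSubring Qb)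
    (hpA : (p : Qb) ∈ A.nonunits)
    {H : Type} [CommRing H] [HopfAlgebra (GaloisRep.ratLocalizedAt p) H]
    [Module.Finite (GaloisRep.ratLocalizedAt p) H] [Module.Flat (GaloisRep.ratLocalizedAt p) H]
    [Coalgebra.IsCocomm (GaloisRep.ratLocalizedAt p) H]
    (hkill : ∀ f : WithConv (H →ₐ[GaloisRep.ratLocalizedAt p] Qb), f ^ p = 1) :
    ∀ w : Qb, A.valuation w ^ (p - 1) < A.valuation (p : Qb) →
      ∀ y0 : H →ₗ[GaloisRep.ratLocalizedAt p] Qb, y0 1 = 1 → (∀ h, y0 h ∈ A) →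
      (∀ h h', A.valuation (y0 (h * h') - y0 h * y0 h') ≤ A.valuation ((p : Qb) * w)) →
      ∃ χ : H →ₐ[GaloisRep.ratLocalizedAt p] Qb, ∀ h, A.valuation (χ h - y0 h) ≤ A.valuation w := by
  intro w hw y0 h1 hA hmul
  have : Fact p.Prime := ⟨hp⟩
  have : Module.Free (GaloisRep.ratLocalizedAt p) H := CartierFrozen.free p H
  have hAp : A.LiesOverPrime p := hpA
  have hint : ∀ r : GaloisRep.ratLocalizedAt p,
      A.valuation (algebraMap (GaloisRep.ratLocalizedAt p) Qb r) ≤ 1 := fun r =>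
    (A.valuation_le_one_iff _).mpr (AugInv.algebraMap_ratLocalizedAt_mem hp A hAp r)
  exact LiftFrozen.exists_point_lift A.valuation hp hint (Arch.harch A hp hpA) hkill hw y0 h1
    (fun h => (A.valuation_le_one_iff _).mpr (hA h)) hmul

/-- **Fontaine's property `(P_m)`, `m = p/(p-1)`, monogenic form** (board 4059 §2, no binder). -/
theorem fixes_points {p : ℕ} (hp : p.Prime) (hp3 : 3 ≤ p) (A : ValuationSubring Qb)
    (hpA : (p : Qb) ∈ A.nonunits)
    {H : Type} [CommRing H] [HopfAlgebra (GaloisRep.ratLocalizedAt p) H]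
    [Module.Finite (GaloisRep.ratLocalizedAt p) H] [Module.Flat (GaloisRep.ratLocalizedAt p) H]
    [Coalgebra.IsCocomm (GaloisRep.ratLocalizedAt p) H]
    (hkill : ∀ f : WithConv (H →ₐ[GaloisRep.ratLocalizedAt p] Qb), f ^ p = 1)
    (Wb : Subring Qb) (hWA : ∀ t ∈ Wb, t ∈ A)
    (hWu : ∀ t ∈ Wb, t ≠ 0 → ∃ n : ℕ, A.valuation t = A.valuation (p : Qb) ^ n)
    (Pi : Qb) (e : ℕ) (he : 0 < e) (P : Polynomial Qb) (hPm : P.Monic) (hPd : P.natDegree = e)
    (hPW : ∀ i, P.coeff i ∈ Wb) (hPi : P.eval Pi = 0)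
    (hPiv : A.valuation Pi ^ e = A.valuation (p : Qb))
    (hval : ∀ (f : H →ₐ[GaloisRep.ratLocalizedAt p] Qb) (h : H), f h ∈ Algebra.adjoin Wb {Pi})
    (beta : Qb) (hbv : A.valuation beta ^ e = A.valuation (p : Qb))
    (hPb : A.valuation (P.eval beta) ^ (p - 1) < A.valuation (p : Qb) ^ p)
    (sigma : GQ) (hsA : ∀ x, sigma x ∈ A ↔ x ∈ A) (hsW : ∀ t ∈ Wb, sigma t = t)
    (hsb : sigma beta = beta) :
    ∀ (f : H →ₐ[GaloisRep.ratLocalizedAt p] Qb) (h : H), sigma (f h) = f h :=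
  PmAsmFrozen.fixes_points_of_lift hp hp3 A hpA hkill Wb hWA hWu Pi e he P hPm hPd hPW hPi hPiv
    hval beta hbv hPb (hlift hp A hpA hkill) sigma hsA hsW hsb

end Fermat.Agent.GP.Flat.Pm
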