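/-
GATE-P / S56 [P-FLAT](iv), node S56-FLAT-KBQB part 6 (helper14): **the binder-free forms**.
helper15's `Pm.hlift` (Fontaine's lifting lemma, frozen shape) proves `KbFlat.LiftAll A p`, so

* `liftAll` : `KbFlat.LiftAll A p`;
* `hPm_flat` : the stabiliser form `hPm` of `(P_m)` in helper26's model for the field cut out by a flat
  representation over a finite ring killed by `p` — NO binder (plug into `KbMain.kb_qb` / helper28 `KbSS`);
* `kbsub_flat` : helper47's `OrdKb.KBsub P p (OrdKb.kerMu P p t)` for every flat lift `t` with cyclotomic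
  determinant — NO binder (the `hKB` binder of helper90 `OrdLocalCond.localCond_ord`).
-/
import Mathlib
import Fermat.Agent.GP.Flat.KbOrd
import Fermat.Agent.GP.Flat.Pm

set_option autoImplicit false
set_option linter.unusedSectionVars false

open scoped Pointwise
open Polynomial IsLocalRing WithConv
open Fermat.Agent.Common_helper32 Fermat.Agent.S13.Global Fermat.Agent.GL.Local.InertiaField
  Fermat.Agent.GL.Local Fermat.Agent.GP.Flat.DvrInst

namespace Fermat.Agent.GP.Flat.KbPm

/-- **Fontaine's lifting lemma for all finite flat `H` killed by `p`** (helper15 `Pm.hlift`). -/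
theorem liftAll (A : ValuationSubring Qb) {p : ℕ} (hp : p.Prime) (hA : (p : Qb) ∈ A.nonunits) :
    KbFlat.LiftAll A p :=
  fun _ _ _ _ _ _ hkill => Pm.hlift hp A hA hkill

section Pm

variable (A : ValuationSubring Qb) (N : Subgroup GQ) [hN : N.Normal]
variable {p : ℕ} (hp : p.Prime) (hA : (p : Qb) ∈ A.nonunits)
variable {R : Type} [CommRing R] [IsLocalRing R]

include hp hA in
/-- **`hPm` for the field cut out by a flat representation, no binder.** -/
theorem hPm_flat (hp3 : 3 ≤ p) (hopen : IsOpen (N : Set GQ)) [Fintype (inertiaQuot A N)]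
    [Finite R] (ρ : GaloisRepAdic R) (hpR : (p : R) = 0) (hflat : ρ.IsFlatAt p)
    (hN1 : ∀ σ ∈ N, ρ.ρ σ = 1) (hN2 : ∀ σ : GQ, ρ.ρ σ = 1 → σ ∈ N)
    (π : locRing A N) (hπ1 : toQb A N π ∈ A.nonunits)
    (hπe : A.valuation (p : Qb) = A.valuation (toQb A N π) ^ Fintype.card (inertiaQuot A N)) :
    ∀ (q : (baseSubring A N)[X]) (β : Qb), q.Monic →
      q.natDegree = Fintype.card (inertiaQuot A N) →
      (q.map ((ιO A N).comp (baseSubring A N).subtype)).eval β = 0 →
      A.valuation β ^ Fintype.card (inertiaQuot A N) = A.valuation (p : Qb) →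
      A.valuation (((PmBound.orbitPoly₀ (baseSubring A N) (DvrInst.hinv A N) π).map
        ((ιO A N).comp (baseSubring A N).subtype)).eval β) ^ (p - 1) < A.valuation (p : Qb) ^ p →
      ∀ σ : GQ, σ ∈ A.decompositionSubgroup ℚ →
        (∀ t : locRing A N, t ∈ baseSubring A N → σ (toQb A N t) = toQb A N t) →
        σ β = β → σ ∈ N :=
  KbFlat.hPm_of_isFlatAt A N hp hA hp3 hopen ρ hpR hflat hN1 hN2 (liftAll A hp hA) π hπ1 hπe

end Pm

/-- **helper47's `KBsub` for a flat lift with cyclotomic determinant, no binder.** -/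
theorem kbsub_flat {k : Type} [Field k] [Finite k] (P : ValuationSubring Qb) {p : ℕ}
    (hp : p.Prime) (hP : (p : Qb) ∈ P.nonunits) (hp3 : 3 ≤ p) [CharP k p]
    (t : GQ →* Matrix (Fin 2) (Fin 2) (DualNumber k)) (ht : Fermat.Agent.S53_helper35.MatCont t)
    (hflat : (Fermat.Agent.S53_helper35.ofMat t ht).IsFlatAt p)
    (hdet : (Fermat.Agent.S53_helper35.ofMat t ht).DetIsCyclotomic p) :
    OrdKb.KBsub P p (OrdKb.kerMu P p t) :=
  KbOrd.kbsub_of_isFlatAt P hp hP hp3 t ht hflat hdet (liftAll P hp hP)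

end Fermat.Agent.GP.Flat.KbPm
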