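/-
GATE-P / S56 [P-FLAT](iv), node S56-FLAT-KBSS (helper28): **the SS-branch instance of the Kummer
bound** `KbMain.kb_qb` (helper14), in the shape `KB` of helper84's `SSMember.mem_HLev_of_KB`
(= helper50's SSASM (E)).

Frame (helper75 `SSInst`): `A | p`, two open normal subgroups `NL ≤ NK` of `G_ℚ`,
`GK = gK A NK = D_A ⊓ NK`, `K = fK A NK = ℚ̄^{GK}`, `L = locField A NL` carrying the stabiliser form
`hPm` of Fontaine's `(P_m)` (binder of `kb_qb`, VERBATIM).  Then

* `lev_of_vanish` : every `χ : G_ℚ → 𝔽_p` vanishing on `GK ⊓ NL` has `SSChain.Lev … (v p)`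
  (every Kummer generator `y` is a `p`-th root of an element of `(1 + p 𝒪_K) K^{× p}`);
* `kb_of_le` : the binder `KB` of `SSMember.mem_HLev_of_KB` for any predicate `T` with `NL ⊆ T`
  (consumer: `T σ := t σ = 1`, `NL ≤ ker t`).

Instance data: `F := fK A NK`, `Ng := imG A NL NK`, `πF` = a uniformiser of `locField A NK`,
`eF := |I_A NK / NK|`, `hcard` = helper26 `card_eq_relIndex_mul_card_imG`.
-/
import Mathlib
import Fermat.Agent.GP.Flat.KbMain
import Fermat.Agent.GP.Flat.SSInst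
import Fermat.Agent.GP.Flat.DvrInst.SubImage

set_option autoImplicit false
set_option linter.unusedSectionVars false

open scoped Pointwise
open Polynomial IsLocalRing
open Fermat.Agent.Common_helper32 Fermat.Agent.S13.Global Fermat.Agent.GL.Local.InertiaField
  Fermat.Agent.GL.Local Fermat.Agent.GP.Flat.DvrInst Fermat.Agent.GP.Flat.SSChain
  Fermat.Agent.GP.Flat.SSKummer

namespace Fermat.Agent.GP.Flat.KbSS

variable (A : ValuationSubring Qb) (NL : Subgroup GQ) [hNL : NL.Normal]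
variable {p : ℕ} [hpF : Fact p.Prime] (hA : (p : Qb) ∈ A.nonunits)

section Model

variable (hp3 : 3 ≤ p) (hopenL : IsOpen (NL : Set GQ))
  [Fintype (inertiaQuot A NL)] [DecidableEq (inertiaQuot A NL)]
  (π : locRing A NL) (hπ : Irreducible π) (hπ1 : toQb A NL π ∈ A.nonunits)
  (hπe : A.valuation (p : Qb) = A.valuation (toQb A NL π) ^ Fintype.card (inertiaQuot A NL))
  (ε₀ : (locRing A NL)ˣ)
  (hε : ((p : ℕ) : locRing A NL) = ε₀ * π ^ Fintype.card (inertiaQuot A NL))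
  (hPm : ∀ (q : (baseSubring A NL)[X]) (β : Qb), q.Monic →
    q.natDegree = Fintype.card (inertiaQuot A NL) →
    (q.map ((ιO A NL).comp (baseSubring A NL).subtype)).eval β = 0 →
    A.valuation β ^ Fintype.card (inertiaQuot A NL) = A.valuation (p : Qb) →
    A.valuation (((PmBound.orbitPoly₀ (baseSubring A NL) (DvrInst.hinv A NL) π).map
      ((ιO A NL).comp (baseSubring A NL).subtype)).eval β) ^ (p - 1) < A.valuation (p : Qb) ^ p →
    ∀ σ : GQ, σ ∈ A.decompositionSubgroup ℚ →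
      (∀ t : locRing A NL, t ∈ baseSubring A NL → σ (toQb A NL t) = toQb A NL t) →
      σ β = β → σ ∈ NL)
  (NK : Subgroup GQ) [hNK : NK.Normal] (hopenK : IsOpen (NK : Set GQ)) (hLK : NL ≤ NK)
  {ζ : Qb} (hζ : IsPrimitiveRoot ζ p) (hζK : ζ ∈ SSInst.fK A NK)

include hA hp3 hopenL hπ hπ1 hπe hε hPm hopenK hLK hζ hζK in
/-- **(E) of SSASM**: a character vanishing on `GK ⊓ NL` has level `≥ v p`. -/
theorem lev_of_vanish (χ : GQ → ZMod p)
    (hχ : ∀ σ ∈ SSInst.gK A NK, σ ∈ NL → χ σ = 0) :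
    Lev A.valuation (SSInst.gK A NK) (SSInst.fK A NK) ζ (A.valuation (p : Qb)) χ := by
  have hp : p.Prime := hpF.out
  intro y hy
  -- `y ^ p ∈ K`
  have hyK : y ^ p ∈ SSInst.fK A NK :=
    gen_pow_mem (SSInst.hK A NK) hζ hζK hy
  -- `y ∈ L`
  have hyL : y ∈ locField A NL := by
    rw [mem_locField_iff]
    intro σ hσD hσN
    have hσK : σ ∈ SSInst.gK A NK := ⟨hσD, hLK hσN⟩
    have := hy.2 σ hσK
    rw [hχ σ hσK hσN, zpw_zero, one_mul] at this
    exact this
  -- the pair `(F, Ng)`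
  have hFL : ∀ x ∈ SSInst.fK A NK, x ∈ locField A NL := by
    intro x hx
    rw [SSInst.mem_fK_iff, mem_locField_iff] at hx
    rw [mem_locField_iff]
    intro σ hσD hσN
    exact hx σ hσD (hLK hσN)
  have hFN : ∀ x : locField A NL, (x : Qb) ∈ SSInst.fK A NK →
      ∀ s ∈ imG A NL NK, s • x = x := by
    intro x hx
    rw [forall_mem_imG_smul_eq_iff]
    intro σ hσI hσK
    rw [SSInst.mem_fK_iff, mem_locField_iff] at hx
    exact hx σ (inertia_le_decomp hσI) hσK
  obtain ⟨πF, hπFK, hπF0, hπF1, hπFe, -⟩ := SSInst.exists_unif_fK A NK hp hA hopenK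
  have hcard : Fintype.card (inertiaQuot A NL)
      = Nat.card (inertiaQuot A NK) * Nat.card (imG A NL NK) := by
    rw [← Nat.card_eq_fintype_card, card_eq_relIndex_mul_card_imG A NL hLK,
      card_inertiaQuot_eq_relIndex A NK]
  exact KbMain.kb_qb A NL hp hA hp3 hopenL π hπ hπ1 hπe ε₀ hε hPm (imG A NL NK)
    (SSInst.fK A NK) hFL hFN hπFK hπF1 (Nat.card (inertiaQuot A NK)) hπFe.symm hcard hζ hζK
    hy.1 hyL hyK

include hA hp3 hopenL hπ hπ1 hπe hε hPm hopenK hLK hζ hζK in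
/-- **The binder `KB` of `SSMember.mem_HLev_of_KB`** (with `T σ := t σ = 1`, `NL ≤ ker t`). -/
theorem kb_of_le (T : GQ → Prop) (hT : ∀ σ ∈ NL, T σ) :
    ∀ χ : GQ → ZMod p,
      (∀ g ∈ SSInst.gK A NK, ∀ g' ∈ SSInst.gK A NK, χ (g * g') = χ g + χ g') →
      (∃ s : Finset Qb, ∀ g ∈ SSInst.gK A NK, (∀ x ∈ s, g • x = x) → χ g = 0) →
      (∀ σ ∈ SSInst.gK A NK, T σ → χ σ = 0) →
      Lev A.valuation (SSInst.gK A NK) (SSInst.fK A NK) ζ (A.valuation (p : Qb)) χ :=
  fun χ _ _ hχ =>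
    lev_of_vanish A NL hA hp3 hopenL π hπ hπ1 hπe ε₀ hε hPm NK hopenK hLK hζ hζK χ
      (fun σ hσK hσN => hχ σ hσK (hT σ hσN))

end Model

end Fermat.Agent.GP.Flat.KbSS
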