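/-
GATE-P / S56 [P-FLAT], node S56-FLAT-KBSSFLAT (helper14): **the SS-branch Kummer bound, binder-free**.

The binder `KB` of helper84's `SSEnd.localCond_ss_of_count(')` (= `SSMember.mem_HLev_of_KB`), for every
continuous lift `t` of `ρbar` to `k[ε]` which is flat at `p` with cyclotomic determinant, on the frame

  `GK := SSInst.gK A NK`, `K := SSInst.fK A NK`, `v := A.valuation`, `γ := v p`,

`NK` any open normal subgroup of `G_ℚ` containing `ker t ⊓ Fix μ_p` with `ζ_p ∈ K`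
(`kb_flat_of_le`), in particular `NK := SSGK.ssN ρbar.ρ p` (`kb_ss_flat`; then `GK = ssGK ρbar.ρ A p`).

Proof: helper28 `KbSS.kb_of_le` at `NL := ker t ⊓ Fix μ_p` with `hPm := KbPm.hPm_flat`.
-/
import Mathlib
import Fermat.Agent.GP.Flat.KbSS
import Fermat.Agent.GP.Flat.KbPm
import Fermat.Agent.GP.Flat.SSGKOpen

set_option autoImplicit false
set_option linter.unusedSectionVars false
set_option linter.style.haveILetI false

open scoped Pointwise
open Polynomial IsLocalRing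
open Fermat.Agent.Common_helper32 Fermat.Agent.S13.Global Fermat.Agent.GL.Local.InertiaField
  Fermat.Agent.GL.Local Fermat.Agent.GP.Flat.DvrInst
  Fermat.Agent.GP.Tan.Cocycle Fermat.Agent.GP.Flat.SSGK Fermat.Agent.GP.Flat.SSChain

namespace Fermat.Agent.GP.Flat.KbSSFlat

variable {k : Type} [Field k] [Finite k]

/-- **(KB) for a flat lift, generic frame `NK ⊇ ker t ⊓ Fix μ_p`.** -/
theorem kb_flat_of_le (A : ValuationSubring Qb) {p : ℕ} (hp : p.Prime)
    (hA : (p : Qb) ∈ A.nonunits) (hp3 : 3 ≤ p) [CharP k p]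
    (NK : Subgroup GQ) [hNK : NK.Normal] (hopenK : IsOpen (NK : Set GQ))
    {ζ : Qb} (hζ : IsPrimitiveRoot ζ p) (hζK : ζ ∈ SSInst.fK A NK)
    (t : GQ →* Matrix (Fin 2) (Fin 2) (DualNumber k)) (ht : Fermat.Agent.S53_helper35.MatCont t)
    (hflat : (Fermat.Agent.S53_helper35.ofMat t ht).IsFlatAt p)
    (hdet : (Fermat.Agent.S53_helper35.ofMat t ht).DetIsCyclotomic p)
    (hLK : ∀ σ : GQ, t σ = 1 → (∀ μ : Qb, μ ^ p = 1 → σ μ = μ) → σ ∈ NK) :
    ∀ χ : GQ → ZMod p,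
      (∀ g ∈ SSInst.gK A NK, ∀ g' ∈ SSInst.gK A NK, χ (g * g') = χ g + χ g') →
      (∃ s : Finset Qb, ∀ g ∈ SSInst.gK A NK, (∀ x ∈ s, g • x = x) → χ g = 0) →
      (∀ σ ∈ SSInst.gK A NK, t σ = 1 → χ σ = 0) →
      Lev A.valuation (SSInst.gK A NK) (SSInst.fK A NK) ζ (A.valuation (p : Qb)) χ := by
  classical
  haveI : Fact p.Prime := ⟨hp⟩
  haveI : Finite (DualNumber k) := KbOrd.finite_dualNumber
  have hpR : ((p : ℕ) : DualNumber k) = 0 := KbOrd.natCast_dualNumber_eq_zero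
  set N : Subgroup GQ := t.ker ⊓ fixMu p with hNdef
  have hNnormal : N.Normal := by rw [hNdef]; infer_instance
  have hopen : IsOpen (N : Set GQ) := by
    obtain ⟨L, hL, hL1⟩ := exists_eq_one_of_matCont t ht
    have hker : IsOpen (t.ker : Set GQ) := by
      refine Subgroup.isOpen_mono (H₁ := L.fixingSubgroup) ?_
        (IntermediateField.fixingSubgroup_isOpen L)
      intro σ hσ
      rw [MonoidHom.mem_ker]
      exact hL1 σ fun x hx => (IntermediateField.mem_fixingSubgroup_iff L σ).1 hσ x hx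
    exact hker.inter (isOpen_fixMu p hp)
  have hN1 : ∀ σ ∈ N, (Fermat.Agent.S53_helper35.ofMat t ht).ρ σ = 1 := fun σ hσ =>
    (ofMat_ρ_eq_one_iff t ht σ).2 (MonoidHom.mem_ker.1 hσ.1)
  have hN2 : ∀ σ : GQ, (Fermat.Agent.S53_helper35.ofMat t ht).ρ σ = 1 → σ ∈ N := fun σ hσ =>
    ⟨MonoidHom.mem_ker.2 ((ofMat_ρ_eq_one_iff t ht σ).1 hσ),
      KbFlat.mem_fixMu_of_detIsCyclotomic (Fermat.Agent.S53_helper35.ofMat t ht) hp hpR hdet hσ⟩
  have hNK' : N ≤ NK := fun σ hσ => hLK σ (MonoidHom.mem_ker.1 hσ.1) hσ.2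
  haveI : Finite (inertiaQuot A N) := finite_inertiaQuot A N hopen
  haveI : Fintype (inertiaQuot A N) := Fintype.ofFinite _
  obtain ⟨π, ε₀, hπ, hε, hπe, hπ1⟩ := exists_irreducible_pow A N hp hA hopen
  rw [Nat.card_eq_fintype_card] at hε hπe
  have hPm := KbPm.hPm_flat A N hp hA hp3 hopen (Fermat.Agent.S53_helper35.ofMat t ht) hpR hflat
    hN1 hN2 π hπ1 hπe
  exact KbSS.kb_of_le A N hA hp3 hopen π hπ hπ1 hπe ε₀ hε hPm NK hopenK hNK' hζ hζK
    (fun σ => t σ = 1) (fun σ hσ => MonoidHom.mem_ker.1 hσ.1)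

/-- `toMatRes ρbar b σ = 1 → ρbar.ρ σ = 1`. -/
theorem rho_eq_one_of_toMatRes_eq_one (ρbar : ResidualGaloisRep k)
    (b : Module.Basis (Fin 2) k ρbar.V) {σ : GQ}
    (h : Fermat.Agent.S53_helper35.toMatRes ρbar b σ = 1) : ρbar.ρ σ = 1 := by
  rw [Fermat.Agent.S53_helper35.toMatRes_apply] at h
  apply (LinearMap.toMatrix b b).injective
  rw [h]
  exact (LinearMap.toMatrix_one b).symm

/-- **(KB) for a flat lift of `ρbar` on the frame `ssGK`: the `KB` binder of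
`SSEnd.localCond_ss_of_count'` at `GK := gK A (ssN ρbar.ρ p)`, no binder left.** -/
theorem kb_ss_flat (ρbar : ResidualGaloisRep k) (b : Module.Basis (Fin 2) k ρbar.V)
    (A : ValuationSubring Qb) {p : ℕ} (hp : p.Prime) (hA : (p : Qb) ∈ A.nonunits) (hp3 : 3 ≤ p)
    [CharP k p] {ζ : Qb} (hζ : IsPrimitiveRoot ζ p) :
    ∀ (t : GQ →* Matrix (Fin 2) (Fin 2) (DualNumber k))
      (ht : Fermat.Agent.S53_helper35.MatCont t),
      rfst t = Fermat.Agent.S53_helper35.toMatRes ρbar b →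
      (Fermat.Agent.S53_helper35.ofMat t ht).DetIsCyclotomic p →
      (Fermat.Agent.S53_helper35.ofMat t ht).IsFlatAt p →
      ∀ χ : GQ → ZMod p,
        (∀ g ∈ SSInst.gK A (ssN ρbar.ρ p), ∀ g' ∈ SSInst.gK A (ssN ρbar.ρ p),
          χ (g * g') = χ g + χ g') →
        (∃ s : Finset Qb, ∀ g ∈ SSInst.gK A (ssN ρbar.ρ p), (∀ x ∈ s, g • x = x) → χ g = 0) →
        (∀ σ ∈ SSInst.gK A (ssN ρbar.ρ p), t σ = 1 → χ σ = 0) →
        Lev A.valuation (SSInst.gK A (ssN ρbar.ρ p)) (SSInst.fK A (ssN ρbar.ρ p)) ζ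
          (A.valuation (p : Qb)) χ := by
  intro t ht hfst hdet hflat
  refine kb_flat_of_le A hp hA hp3 (ssN ρbar.ρ p) (isOpen_ssN_residual ρbar p hp) hζ
    (zeta_mem_fK_ssN ρbar p A hζ.pow_eq_one) t ht hflat hdet ?_
  intro σ hσ hμ
  rw [mem_ssN_iff]
  refine ⟨rho_eq_one_of_toMatRes_eq_one ρbar b ?_, hμ⟩
  rw [← hfst, rfst_apply, hσ, mfst_one]

end Fermat.Agent.GP.Flat.KbSSFlat
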