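/-
GATE-P / S56 [P-FLAT](iv), consumer side (helper28).  **The break of a cyclic Kummer extension**,
as an abstract valuation computation, Mathlib only.

`M` a field with a valuation `v` (multiplicative notation), `σ : M →+* M` any ring endomorphism,
`σ α = ζ α`, `y = α - 1` with `v (ζ - 1) < v y < 1`, `Π = y ^ a * c` with `σ c = c` and the integer
`a` a `v`-unit (in the application `a i + p b = 1`, `c = π ^ b`, so that `Π` is a uniformizer).  Then

    `v (σ Π - Π) = v Π * (v (ζ - 1) / v y)`,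

i.e. additively `v_M (σ Π - Π) = 1 + (p e/(p-1) - i)`: the lower break of `M = K(u^{1/p})`,
`u = 1 + a π^i`, is `t = p e/(p-1) - i`.  Also the case `p ∤ v (u)` (`kummer_break_unif`).
-/
import Mathlib

set_option autoImplicit false

namespace Fermat.Agent.GP.Flat.KummerBreak

open Finset

variable {M : Type*} [Field M] {Γ₀ : Type*} [LinearOrderedCommGroupWithZero Γ₀]
  (v : Valuation M Γ₀)

/-- `v (x - 1) < 1 → v (x ^ k - 1) < 1`. -/
lemma map_pow_sub_one_lt {x : M} (hx : v (x - 1) < 1) (k : ℕ) : v (x ^ k - 1) < 1 := by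
  have hx1 : v x = 1 := by
    have : x = 1 + (x - 1) := by ring
    rw [this]
    exact v.map_one_add_of_lt hx
  induction k with
  | zero => simp
  | succ k ih =>
    have : x ^ (k + 1) - 1 = x ^ k * (x - 1) + (x ^ k - 1) := by ring
    rw [this]
    refine v.map_add_lt ?_ ih
    rw [v.map_mul, v.map_pow, hx1, one_pow, one_mul]
    exact hx

/-- `v ((1 + w) ^ n - 1) = v w` for `v w < 1` and `n` a `v`-unit natural number. -/
lemma map_one_add_pow_sub_one {w : M} (hw : v w < 1) {n : ℕ} (hn : v (n : M) = 1) :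
    v ((1 + w) ^ n - 1) = v w := by
  have hx : v ((1 + w) - 1) < 1 := by simpa using hw
  have hgeom : (∑ i ∈ range n, (1 + w) ^ i) * ((1 + w) - 1) = (1 + w) ^ n - 1 := geom_sum_mul _ _
  have hS : v (∑ i ∈ range n, (1 + w) ^ i) = 1 := by
    have h1 : ∑ i ∈ range n, (1 + w) ^ i = (n : M) + ∑ i ∈ range n, ((1 + w) ^ i - 1) := by
      rw [Finset.sum_sub_distrib]
      simp
    have h2 : v (∑ i ∈ range n, ((1 + w) ^ i - 1)) < 1 :=
      v.map_sum_lt one_ne_zero fun i _ => map_pow_sub_one_lt v hx i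
    rw [h1, ← hn]
    exact v.map_add_eq_of_lt_left (by rw [hn]; exact h2)
  rw [← hgeom, v.map_mul, hS, one_mul]
  simp

/-- `v ((1 + w) ^ a - 1) = v w` for `v w < 1` and `a` a `v`-unit integer. -/
lemma map_one_add_zpow_sub_one {w : M} (hw : v w < 1) {a : ℤ} (ha : v (a : M) = 1) :
    v ((1 + w) ^ a - 1) = v w := by
  have h1w : v (1 + w) = 1 := v.map_one_add_of_lt hw
  have hne : (1 + w) ≠ 0 := by
    intro h
    rw [h, map_zero] at h1w
    exact zero_ne_one h1w
  obtain ⟨n, rfl | rfl⟩ := a.eq_nat_or_neg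
  · have hn : v (n : M) = 1 := by simpa using ha
    rw [zpow_natCast]
    exact map_one_add_pow_sub_one v hw hn
  · have hn : v (n : M) = 1 := by
      have : v (-(n : M)) = 1 := by simpa using ha
      rwa [Valuation.map_neg] at this
    rw [zpow_neg, zpow_natCast]
    have hpne : (1 + w) ^ n ≠ 0 := pow_ne_zero _ hne
    have : ((1 + w) ^ n)⁻¹ - 1 = -(((1 + w) ^ n - 1) * ((1 + w) ^ n)⁻¹) := by
      field_simp
      ring
    rw [this, Valuation.map_neg, v.map_mul, map_inv₀, v.map_pow, h1w, one_pow, inv_one, mul_one]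
    exact map_one_add_pow_sub_one v hw hn

variable (σ : M →+* M)

/-- **The Kummer break** (unit case). -/
theorem kummer_break {ζ α c : M} (hα : σ α = ζ * α) (hc : σ c = c)
    (hy1 : v (α - 1) < 1) (hζy : v (ζ - 1) < v (α - 1))
    {a : ℤ} (ha : v (a : M) = 1) :
    v (σ ((α - 1) ^ a * c) - (α - 1) ^ a * c)
      = v ((α - 1) ^ a * c) * (v (ζ - 1) / v (α - 1)) := by
  set y := α - 1 with hy
  have hy0 : v y ≠ 0 := ne_of_gt (lt_of_le_of_lt zero_le hζy)
  have hyne : y ≠ 0 := fun h => hy0 (by rw [h, map_zero])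
  set w := (ζ - 1) * (1 + y) / y with hw
  have h1y : v (1 + y) = 1 := v.map_one_add_of_lt hy1
  have hvw : v w = v (ζ - 1) / v y := by
    rw [hw, map_div₀, v.map_mul, h1y, mul_one]
  have hw1 : v w < 1 := by
    rw [hvw]
    exact (div_lt_one₀ (lt_of_le_of_ne zero_le (Ne.symm hy0))).mpr hζy
  have hσy : σ y = y * (1 + w) := by
    rw [hy, map_sub, map_one, hα, hw]
    field_simp
    ring
  have hsP : σ (y ^ a * c) - y ^ a * c = y ^ a * c * ((1 + w) ^ a - 1) := by
    rw [map_mul, map_zpow₀, hσy, hc, mul_zpow]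
    ring
  rw [hsP, v.map_mul, map_one_add_zpow_sub_one v hw1 ha, hvw]

/-- **The Kummer break** (case `p ∤ v(u)`: `Π = α ^ a * c`). -/
theorem kummer_break_unif {ζ α c : M} (hα : σ α = ζ * α) (hc : σ c = c)
    (hζ1 : v (ζ - 1) < 1) {a : ℤ} (ha : v (a : M) = 1) :
    v (σ (α ^ a * c) - α ^ a * c) = v (α ^ a * c) * v (ζ - 1) := by
  have hsP : σ (α ^ a * c) - α ^ a * c = α ^ a * c * ((1 + (ζ - 1)) ^ a - 1) := by
    rw [map_mul, map_zpow₀, hα, hc, mul_zpow, add_sub_cancel]
    ring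
  rw [hsP, v.map_mul, map_one_add_zpow_sub_one v hζ1 ha]

end Fermat.Agent.GP.Flat.KummerBreak
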