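/-
GATE-P / S56 [P-FLAT](iv), MAIN route glue, part 6 = TOP of the abstract main route (helper28).

In helper5's abstract DVR setting (`Converse` / `PmBound` / `PmRoot`: `O` DVR with finite residue
field, `G` finite acting, `O₀ = O^G`, `hres`, `π` uniformizer, `p = ε₀ π ^ |G|`, ramification data
`a`, `t`), with the ONE hypothesis `hPmO` (= helper15's `(P_m)` ∘ helper26's root bridge), plus
`hU` (value group of `O₀` is `|G| ℤ`) and a primitive `p`-th root of unity `ζ ∈ O` fixed by `N ≤ G`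
(`p ≠ 2`):

  `kummer_normal_form_of_pm` : every `α ≠ 0` in `O` with `α ^ p` fixed by `N` is
        `α = ϖ_N ^ m * α'`,  `α'` a unit,  and there is an `N`-invariant unit `w` with
        `p ∣ (α' * w) ^ p - 1`          (`ϖ_N = ∏_{s ∈ N} s π`, an `N`-invariant element).

I.e.  `K^× ∩ (L^×)^p ⊆ (1 + p 𝒪_K) (K^×)^p`  for `K = L^N`:  the statement the count assembly
consumes (helper15 4059 §5, helper50 4175 (E)).
-/
import Mathlib
import Fermat.Agent.GP.Flat.KummerCorFinal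
import Fermat.Agent.GP.Flat.KummerCorNF

set_option autoImplicit false
set_option linter.unusedSectionVars false

namespace Fermat.Agent.GP.Flat.KummerCorTop

open Polynomial IsLocalRing Finset
open IsDiscreteValuationRing (addVal)

variable {O : Type*} [CommRing O] [IsDomain O] [IsDiscreteValuationRing O]
variable {G : Type*} [Group G] [Fintype G] [DecidableEq G] [MulSemiringAction G O]
variable {M : Type*} [Field M] [IsAlgClosed M] {Γ₀ : Type*} [LinearOrderedCommGroupWithZero Γ₀]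

/-- **The Kummer normal form from `(P_m)`** (see the file header). -/
theorem kummer_normal_form_of_pm
    (v : Valuation M Γ₀) (ι : O →+* M) [Finite (ResidueField O)]
    (O₀ : Subring O) (hinv : ∀ x : O, (∀ g : G, g • x = x) → x ∈ O₀)
    (hfix : ∀ (g : G) (x : O), x ∈ O₀ → g • x = x)
    (hres : ∀ x : O, ∃ y ∈ O₀, x - y ∈ maximalIdeal O)
    (hU : ∀ t ∈ O₀, t ≠ 0 → ∃ k : ℕ, addVal O t = ((k * Fintype.card G : ℕ) : ℕ∞))
    (hι : Function.Injective ι) (hvO : ∀ x : O, v (ι x) ≤ 1)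
    (π : O) (hπ : Irreducible π) (hvπ : v (ι π) < 1)
    (p : ℕ) (hp : p.Prime) (hp2 : p ≠ 2) (hvp : v (p : M) = v (ι π) ^ Fintype.card G)
    (ϖ₀ : O₀) (ε₀ : Oˣ) (hϖ₀e : (ϖ₀ : O) = ε₀ * π ^ Fintype.card G) (hϖ₀p : (ϖ₀ : O) = (p : O))
    (a : G → ℕ) (t : G → Oˣ) (ha : ∀ σ : G, σ ≠ 1 → σ • π - π = t σ * π ^ a σ)
    (hPmO : ∀ (q : O₀[X]) (β : M), q.Monic → q.natDegree = Fintype.card G →
      (q.map (ι.comp O₀.subtype)).eval β = 0 →
      v β ^ Fintype.card G = v (p : M) →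
      v (((PmBound.orbitPoly₀ O₀ hinv π).map (ι.comp O₀.subtype)).eval β) ^ (p - 1)
        < v (p : M) ^ p →
      ∃ x : O, ι x = β)
    (N : Subgroup G) (e : ℕ) (he : Fintype.card G = e * Nat.card N)
    {ζ : O} (hζ : IsPrimitiveRoot ζ p) (hζN : ∀ s ∈ N, s • ζ = ζ)
    {α : O} (hα0 : α ≠ 0) (hαp : ∀ s ∈ N, s • (α ^ p) = α ^ p) :
    ∃ (m : ℕ) (α' w : O), α = KummerCorNF.unifN N π ^ m * α' ∧ IsUnit α' ∧ IsUnit w ∧
      (∀ s ∈ N, s • w = w) ∧ (p : O) ∣ (α' * w) ^ p - 1 := by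
  have hpv : addVal O (p : O) = (Fintype.card G : ℕ) := by
    rw [← hϖ₀p, hϖ₀e]
    exact IsDiscreteValuationRing.addVal_def' ε₀ hπ _
  have hpO : (p : O) ∈ maximalIdeal O :=
    KummerCorFinal.natCast_mem_maximalIdeal v ι hvO hvπ Fintype.card_ne_zero hvp
  have hperf := KummerCorNF.exists_pow_sub_mem O₀ hres hp hpO
  have hlevel : ∀ (H : Subgroup G), H ≤ N → Nat.card N = p * Nat.card H →
      ∀ (z : ℕ), z * (p - 1) = Fintype.card G →
      ∀ {α : O}, IsUnit α → (∀ h ∈ H, h • α = α) →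
      (∀ s ∈ N, s ∉ H → ∃ ξ : O, s • α = ξ * α ∧ addVal O (ξ - 1) = z) →
      ∀ j : ℕ, addVal O (α - 1) = ((j * Nat.card H : ℕ) : ℕ∞) → ¬ p ∣ j → e ≤ j :=
    fun H hHN hindex z hz _ hα hαH hξ j hw hj =>
      KummerCorFinal.kummer_level_ge_of_pm v ι O₀ hinv hfix hres hU hι hvO π hπ hvπ p hp hvp ϖ₀ ε₀
        hϖ₀e a t ha hPmO N H hHN hindex e he z hz hα hαH hξ j hw hj
  have hvalF : ∀ (H : Subgroup G), H ≤ N → Nat.card N = p * Nat.card H →
      ∀ (z : ℕ), z * (p - 1) = Fintype.card G →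
      ∀ {α : O}, (∀ h ∈ H, h • α = α) →
      (∀ s ∈ N, s ∉ H → ∃ ξ : O, s • α = ξ * α ∧ addVal O (ξ - 1) = z) →
      ∀ j : ℕ, addVal O α = ((j * Nat.card H : ℕ) : ℕ∞) → ¬ p ∣ j → False :=
    fun H hHN hindex z hz _ hαH hξ j hw hj =>
      KummerCorFinal.kummer_val_false_of_pm v ι O₀ hinv hfix hres hU hι hvO π hπ hvπ p hp hvp ϖ₀
        ε₀ hϖ₀e a t ha hPmO N H hHN hindex e he z hz hαH hξ j hw hj
  obtain ⟨m, α', hαα', hα'u, hα'p⟩ := KummerCorNF.exists_eq_unifN_pow_mul_unit O₀ hinv hU hπ hp hpv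
    N hζ hζN hvalF hα0 hαp
  obtain ⟨w, hwu, hwN, hw⟩ := KummerCorNF.exists_unit_mul_pow_sub_one_dvd O₀ hinv hfix hU hπ hp hp2
    hpv hperf N e he hζ hζN hlevel hα'u hα'p
  exact ⟨m, α', w, hαα', hα'u, hwu, hwN, hw⟩

end Fermat.Agent.GP.Flat.KummerCorTop
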