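/-
GATE-P / S56 [P-FLAT] S56-FLAT-KUMMERMAP (helper84; assigned by the graph-keeper, board 4119).

**The Kummer map between characters of `G_K` and Kummer generators**, for an intermediate field
`K` of a Galois extension `E/F` (consumers: `F = ℚ`, `E = ℚ̄`) containing a `p`-th root of unity
`ζ`.  Everything is stated with representatives (`y ∈ E`, `y ^ p ∈ K`), no quotient groups.

`G_K` is `{σ : E ≃ₐ[F] E | ∀ x ∈ K, σ x = x}`; a "character" is a function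
`χ : (E ≃ₐ[F] E) → ZMod p` that is additive on `G_K` and level-constant (kills `G_K ∩ G_L` for
some finite `L/F`) — the shape of `GP/Tan/Cocycle.exists_levelConstant`.

* `IsKummerGen K ζ χ y` : `y ≠ 0` and `σ y = ζ ^ (χ σ) * y` for every `σ ∈ G_K`.
* (a) `exists_isKummerGen` : every level-constant character has a Kummer generator
  (Lagrange resolvent + Dedekind independence; no Galois correspondence);
  `IsKummerGen.pow_mem` : `y ^ p ∈ K`; `IsKummerGen.unique` : unique up to `K^×`.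
* (b) `IsKummerGen.mul`, `.inv`, `.of_mem`, `IsKummerGen.mem_iff`, `IsKummerGen.pow_eq_pow_iff` :
  additivity, and `u_χ ∈ K^{×p} ↔ χ = 0 on G_K`.
* (c) `IsKummerGen.conj` : `δ K = K`, `δ ζ = ζ ^ a` ⟹ `δ y` is a Kummer generator of
  `σ ↦ a * χ (δ⁻¹ σ δ)`; `IsKummerGen.conj_pow` : `(δ y) ^ a'` is one of `σ ↦ χ (δ⁻¹ σ δ)` when
  `a * a' = 1` in `ZMod p` (the `(-1)`-twist).
* (d) vector form: `exists_isKummerGen_dual`, `eq_on_of_forall_dual` (the family of classes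
  `λ ↦ u_{λ ∘ c}` determines `c` on `G_K`), `IsKummerGen.dual_conj` (equivariance).
* `exists_zmod_pow_eq` : `δ ζ = ζ ^ a` with `a' * a = 1` in `ZMod p`, for every automorphism `δ`.
* (e) `exists_character_of_pow_mem` : every `y` with `y ^ p ∈ K` is the Kummer generator of a
  level-constant character (`H¹(G_K, μ_p) = K^× / K^{×p}`).
-/
import Mathlib

set_option autoImplicit false

namespace Fermat.Agent.GP.Flat.KummerMap

variable {F E : Type*} [Field F] [Field E] [Algebra F E]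

/-! ### powers of a root of unity indexed by `ZMod p` -/

section zmodPow

variable {p : ℕ} [Fact p.Prime] {ζ : E}

theorem pow_val_add (hζ : ζ ^ p = 1) (i j : ZMod p) :
    ζ ^ (i + j).val = ζ ^ i.val * ζ ^ j.val := by
  rw [ZMod.val_add, ← pow_add, ← pow_eq_pow_mod _ hζ]

theorem pow_val_neg_mul (hζ : ζ ^ p = 1) (i : ZMod p) : ζ ^ (-i).val * ζ ^ i.val = 1 := by
  rw [← pow_val_add hζ, neg_add_cancel, ZMod.val_zero, pow_zero]

theorem pow_val_ne_zero (hζ : ζ ^ p = 1) (i : ZMod p) : ζ ^ i.val ≠ 0 := by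
  intro h
  have h1 := pow_val_neg_mul hζ i
  rw [h, mul_zero] at h1
  exact zero_ne_one h1

theorem pow_val_mul (hζ : ζ ^ p = 1) (a i : ZMod p) :
    ζ ^ (a * i).val = (ζ ^ i.val) ^ a.val := by
  rw [ZMod.val_mul, ← pow_mul, mul_comm, ← pow_eq_pow_mod _ hζ]

theorem pow_val_injective (hζ : IsPrimitiveRoot ζ p) {i j : ZMod p}
    (h : ζ ^ i.val = ζ ^ j.val) : i = j :=
  ZMod.val_injective p (hζ.pow_inj (ZMod.val_lt i) (ZMod.val_lt j) h)

/-- the "cyclotomic character" of an automorphism on a primitive `p`-th root of unity: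
`δ ζ = ζ ^ a` with `a` invertible in `ZMod p`. -/
theorem exists_zmod_pow_eq (hζ : IsPrimitiveRoot ζ p) (δ : E ≃ₐ[F] E) :
    ∃ a a' : ZMod p, δ ζ = ζ ^ a.val ∧ a' * a = 1 := by
  have hp : NeZero p := ⟨(Fact.out : p.Prime).ne_zero⟩
  have h1 : (δ ζ) ^ p = 1 := by rw [← map_pow, hζ.pow_eq_one, map_one]
  obtain ⟨i, hi, hiy⟩ := hζ.eq_pow_of_pow_eq_one h1
  have ha : ((i : ZMod p)).val = i := ZMod.val_natCast_of_lt hi
  have ha0 : (i : ZMod p) ≠ 0 := by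
    intro h0
    rw [h0, ZMod.val_zero] at ha
    rw [← ha, pow_zero] at hiy
    have h2 : δ ζ = δ 1 := by rw [map_one]; exact hiy.symm
    have h3 : ζ = 1 := δ.injective h2
    exact (Fact.out : p.Prime).one_lt.ne' (hζ.unique (h3 ▸ IsPrimitiveRoot.one))
  exact ⟨(i : ZMod p), (i : ZMod p)⁻¹, by rw [ha]; exact hiy.symm, inv_mul_cancel₀ ha0⟩

end zmodPow

/-! ### Kummer generators -/

/-- `y` is a Kummer generator of the character `χ` of `G_K = {σ | σ fixes K}`: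
`σ y = ζ ^ (χ σ) * y` for all `σ ∈ G_K`, and `y ≠ 0`. -/
def IsKummerGen {p : ℕ} (K : IntermediateField F E) (ζ : E) (χ : (E ≃ₐ[F] E) → ZMod p) (y : E) :
    Prop :=
  y ≠ 0 ∧ ∀ σ : E ≃ₐ[F] E, (∀ x ∈ K, σ x = x) → σ y = ζ ^ (χ σ).val * y

section existence

variable {p : ℕ} [Fact p.Prime]

/-- **(a) existence of a Kummer generator** (Lagrange resolvent). -/
theorem exists_isKummerGen [Normal F E] (K : IntermediateField F E) {ζ : E} (hζ : ζ ^ p = 1) (hζK : ζ ∈ K)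
    (χ : (E ≃ₐ[F] E) → ZMod p)
    (hadd : ∀ σ τ : E ≃ₐ[F] E, (∀ x ∈ K, σ x = x) → (∀ x ∈ K, τ x = x) →
      χ (σ * τ) = χ σ + χ τ)
    (hlev : ∃ L : IntermediateField F E, FiniteDimensional F L ∧
      ∀ σ : E ≃ₐ[F] E, (∀ x ∈ K, σ x = x) → (∀ x ∈ L, σ x = x) → χ σ = 0) :
    ∃ y : E, IsKummerGen K ζ χ y := by
  classical
  obtain ⟨L, hLfin, hL⟩ := hlev
  set N : IntermediateField F E := IntermediateField.normalClosure F L E with hN
  have hLN : L ≤ N := IntermediateField.le_normalClosure L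
  have hres : ∀ (σ : E ≃ₐ[F] E) (z : N),
      ((AlgEquiv.restrictNormalHom N σ z : N) : E) = σ (z : E) :=
    fun σ z => AlgEquiv.restrictNormal_commutes σ N z
  have hχ1 : χ 1 = 0 := by
    have h := hadd 1 1 (fun _ _ => rfl) (fun _ _ => rfl)
    rw [mul_one] at h
    exact left_eq_add.mp h
  -- `χ` only depends on the restriction to `N`
  have hwd : ∀ σ τ : E ≃ₐ[F] E, (∀ x ∈ K, σ x = x) → (∀ x ∈ K, τ x = x) →
      AlgEquiv.restrictNormalHom N σ = AlgEquiv.restrictNormalHom N τ → χ σ = χ τ := by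
    intro σ τ hσ hτ hst
    have h1 : ∀ x ∈ K, (σ⁻¹ * τ) x = x := by
      intro x hx
      rw [AlgEquiv.mul_apply, hτ x hx]
      have h2 := hσ x hx
      exact (AlgEquiv.symm_apply_eq σ).mpr h2.symm
    have h2 : ∀ x ∈ L, (σ⁻¹ * τ) x = x := by
      intro x hx
      have h3 : AlgEquiv.restrictNormalHom N (σ⁻¹ * τ) = 1 := by
        rw [map_mul, map_inv, hst, inv_mul_cancel]
      have h4 := hres (σ⁻¹ * τ) ⟨x, hLN hx⟩
      rw [h3] at h4
      exact h4.symm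
    have h3 := hL _ h1 h2
    have h4 := hadd σ (σ⁻¹ * τ) hσ h1
    rw [mul_inv_cancel_left, h3, add_zero] at h4
    exact h4.symm
  -- the weights
  let w : (N ≃ₐ[F] N) → E := fun g =>
    if h : ∃ τ : E ≃ₐ[F] E, (∀ x ∈ K, τ x = x) ∧ AlgEquiv.restrictNormalHom N τ = g
    then ζ ^ (χ h.choose).val else 0
  have hw : ∀ τ : E ≃ₐ[F] E, (∀ x ∈ K, τ x = x) →
      w (AlgEquiv.restrictNormalHom N τ) = ζ ^ (χ τ).val := by
    intro τ hτ
    have hex : ∃ τ' : E ≃ₐ[F] E, (∀ x ∈ K, τ' x = x) ∧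
        AlgEquiv.restrictNormalHom N τ' = AlgEquiv.restrictNormalHom N τ := ⟨τ, hτ, rfl⟩
    simp only [w, dif_pos hex]
    rw [hwd _ _ hex.choose_spec.1 hτ hex.choose_spec.2]
  have hw0 : ∀ g : N ≃ₐ[F] N,
      (¬ ∃ τ : E ≃ₐ[F] E, (∀ x ∈ K, τ x = x) ∧ AlgEquiv.restrictNormalHom N τ = g) → w g = 0 := by
    intro g hg
    simp only [w, dif_neg hg]
  have hζfix : ∀ (σ : E ≃ₐ[F] E), (∀ x ∈ K, σ x = x) → ∀ n : ℕ, σ (ζ ^ n) = ζ ^ n := by
    intro σ hσ n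
    rw [map_pow, hσ ζ hζK]
  have hwK : ∀ (g : N ≃ₐ[F] N) (σ : E ≃ₐ[F] E), (∀ x ∈ K, σ x = x) → σ (w g) = w g := by
    intro g σ hσ
    by_cases hg : ∃ τ : E ≃ₐ[F] E, (∀ x ∈ K, τ x = x) ∧ AlgEquiv.restrictNormalHom N τ = g
    · obtain ⟨τ, hτ, rfl⟩ := hg
      rw [hw τ hτ, hζfix σ hσ]
    · rw [hw0 g hg, map_zero]
  -- translation
  have hwt : ∀ σ : E ≃ₐ[F] E, (∀ x ∈ K, σ x = x) → ∀ g : N ≃ₐ[F] N,
      ζ ^ (χ σ).val * w ((AlgEquiv.restrictNormalHom N σ)⁻¹ * g) = w g := by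
    intro σ hσ g
    have hσinv : ∀ x ∈ K, σ⁻¹ x = x := by
      intro x hx
      exact (AlgEquiv.symm_apply_eq σ).mpr (hσ x hx).symm
    by_cases hg : ∃ τ : E ≃ₐ[F] E, (∀ x ∈ K, τ x = x) ∧ AlgEquiv.restrictNormalHom N τ = g
    · obtain ⟨τ, hτ, rfl⟩ := hg
      have h1 : ∀ x ∈ K, (σ⁻¹ * τ) x = x := by
        intro x hx
        rw [AlgEquiv.mul_apply, hτ x hx, hσinv x hx]
      rw [← map_inv, ← map_mul, hw _ h1, hw τ hτ, ← pow_val_add hζ]
      congr 2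
      have h2 := hadd σ (σ⁻¹ * τ) hσ h1
      rw [mul_inv_cancel_left] at h2
      exact h2.symm
    · have hg' : ¬ ∃ τ : E ≃ₐ[F] E, (∀ x ∈ K, τ x = x) ∧
          AlgEquiv.restrictNormalHom N τ = (AlgEquiv.restrictNormalHom N σ)⁻¹ * g := by
        rintro ⟨τ, hτ, hτg⟩
        apply hg
        refine ⟨σ * τ, ?_, ?_⟩
        · intro x hx
          rw [AlgEquiv.mul_apply, hτ x hx, hσ x hx]
        · rw [map_mul, hτg, mul_inv_cancel_left]
      rw [hw0 g hg, hw0 _ hg', mul_zero]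
  -- Dedekind independence
  have hli : LinearIndependent E (fun g : N ≃ₐ[F] N => (fun z : N => ((g z : N) : E))) := by
    have h := linearIndependent_monoidHom N E
    let φ : (N ≃ₐ[F] N) → (N →* E) := fun g =>
      ((algebraMap N E : N →+* E) : N →* E).comp ((g : N →+* N) : N →* N)
    have hφ : Function.Injective φ := by
      intro g g' hgg
      ext z
      have h1 := DFunLike.congr_fun hgg z
      exact h1
    exact h.comp φ hφ
  have hex : ∃ z : N, ∑ g : N ≃ₐ[F] N, w g * ((g z : N) : E) ≠ 0 := by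
    by_contra hall
    push Not at hall
    have h0 : ∑ g : N ≃ₐ[F] N, w g • (fun z : N => ((g z : N) : E)) = 0 := by
      funext z
      rw [Finset.sum_apply]
      simp only [Pi.smul_apply, smul_eq_mul, Pi.zero_apply]
      exact hall z
    have h1 := Fintype.linearIndependent_iff.mp hli w h0 1
    have h2 := hw 1 (fun _ _ => rfl)
    rw [map_one, hχ1, ZMod.val_zero, pow_zero] at h2
    rw [h1] at h2
    exact zero_ne_one h2
  obtain ⟨z, hz⟩ := hex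
  set y₀ : E := ∑ g : N ≃ₐ[F] N, w g * ((g z : N) : E) with hy₀
  have hy₀σ : ∀ σ : E ≃ₐ[F] E, (∀ x ∈ K, σ x = x) → ζ ^ (χ σ).val * σ y₀ = y₀ := by
    intro σ hσ
    rw [hy₀, map_sum, Finset.mul_sum]
    rw [← Fintype.sum_equiv (Equiv.mulLeft (AlgEquiv.restrictNormalHom N σ))
      (fun g => ζ ^ (χ σ).val * σ (w g * ((g z : N) : E)))
      (fun g' => w g' * ((g' z : N) : E))]
    intro g
    have h1 := hwt σ hσ (AlgEquiv.restrictNormalHom N σ * g)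
    rw [inv_mul_cancel_left] at h1
    rw [map_mul, hwK g σ hσ, ← hres σ (g z), Equiv.coe_mulLeft, ← h1, AlgEquiv.mul_apply,
      mul_assoc]
  refine ⟨y₀⁻¹, inv_ne_zero hz, fun σ hσ => ?_⟩
  rw [map_inv₀]
  have h1 := hy₀σ σ hσ
  have h3 : y₀⁻¹ = (ζ ^ (χ σ).val)⁻¹ * (σ y₀)⁻¹ := by rw [← mul_inv, h1]
  rw [h3, ← mul_assoc, mul_inv_cancel₀ (pow_val_ne_zero hζ _), one_mul]

end existence

/-! ### basic calculus of Kummer generators -/

/-- an element fixed by `G_K` lies in `K`. -/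
theorem mem_of_forall_fixed [IsGalois F E] (K : IntermediateField F E) {x : E}
    (h : ∀ σ : E ≃ₐ[F] E, (∀ t ∈ K, σ t = t) → σ x = x) : x ∈ K := by
  rw [← InfiniteGalois.fixedField_fixingSubgroup K, IntermediateField.mem_fixedField_iff]
  intro σ hσ
  exact h σ ((IntermediateField.mem_fixingSubgroup_iff K σ).mp hσ)

section basic

variable {p : ℕ} [Fact p.Prime] {K : IntermediateField F E} {ζ : E}
  {χ χ' : (E ≃ₐ[F] E) → ZMod p} {y y' : E}

omit [Fact p.Prime] in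
theorem IsKummerGen.ne_zero (h : IsKummerGen K ζ χ y) : y ≠ 0 := h.1

omit [Fact p.Prime] in
theorem IsKummerGen.apply (h : IsKummerGen K ζ χ y) {σ : E ≃ₐ[F] E} (hσ : ∀ x ∈ K, σ x = x) :
    σ y = ζ ^ (χ σ).val * y := h.2 σ hσ

omit [Fact p.Prime] in
/-- characters agreeing on `G_K` have the same Kummer generators. -/
theorem IsKummerGen.congr (h : IsKummerGen K ζ χ y)
    (hχ : ∀ σ : E ≃ₐ[F] E, (∀ x ∈ K, σ x = x) → χ σ = χ' σ) : IsKummerGen K ζ χ' y :=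
  ⟨h.1, fun σ hσ => by rw [← hχ σ hσ]; exact h.2 σ hσ⟩

omit [Fact p.Prime] in
/-- `y ^ p ∈ K`. -/
theorem IsKummerGen.pow_mem [IsGalois F E] (hζ : ζ ^ p = 1) (h : IsKummerGen K ζ χ y) :
    y ^ p ∈ K := by
  apply mem_of_forall_fixed K
  intro σ hσ
  have h1 : (ζ ^ (χ σ).val) ^ p = 1 := by rw [← pow_mul, mul_comm, pow_mul, hζ, one_pow]
  rw [map_pow, h.2 σ hσ, mul_pow, h1, one_mul]

/-- **uniqueness**: two Kummer generators of the same character differ by an element of `K^×`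
(so `u_χ = y ^ p` is well defined in `K^× / K^{×p}`). -/
theorem IsKummerGen.unique [IsGalois F E] (hζ : ζ ^ p = 1) (h : IsKummerGen K ζ χ y)
    (h' : IsKummerGen K ζ χ y') : ∃ t ∈ K, t ≠ 0 ∧ y' = t * y := by
  refine ⟨y' / y, ?_, div_ne_zero h'.1 h.1, ?_⟩
  · apply mem_of_forall_fixed K
    intro σ hσ
    rw [map_div₀, h.2 σ hσ, h'.2 σ hσ, mul_div_mul_left _ _ (pow_val_ne_zero hζ _)]
  · rw [div_mul_cancel₀ _ h.1]

/-- elements of `K^×` are the Kummer generators of the characters vanishing on `G_K`. -/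
theorem IsKummerGen.of_mem (hy : y ∈ K) (hy0 : y ≠ 0)
    (hχ : ∀ σ : E ≃ₐ[F] E, (∀ x ∈ K, σ x = x) → χ σ = 0) : IsKummerGen K ζ χ y :=
  ⟨hy0, fun σ hσ => by rw [hχ σ hσ, ZMod.val_zero, pow_zero, one_mul, hσ y hy]⟩

/-- **(b) additivity**. -/
theorem IsKummerGen.mul (hζ : ζ ^ p = 1) (h : IsKummerGen K ζ χ y)
    (h' : IsKummerGen K ζ χ' y') : IsKummerGen K ζ (fun σ => χ σ + χ' σ) (y * y') :=
  ⟨mul_ne_zero h.1 h'.1, fun σ hσ => by
    rw [map_mul, h.2 σ hσ, h'.2 σ hσ, pow_val_add hζ]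
    ring⟩

theorem IsKummerGen.inv (hζ : ζ ^ p = 1) (h : IsKummerGen K ζ χ y) :
    IsKummerGen K ζ (fun σ => -χ σ) y⁻¹ :=
  ⟨inv_ne_zero h.1, fun σ hσ => by
    rw [map_inv₀, h.2 σ hσ, mul_inv]
    congr 1
    exact (eq_inv_of_mul_eq_one_left (pow_val_neg_mul hζ _)).symm⟩

/-- powers: `y ^ a` is a Kummer generator of `a * χ`. -/
theorem IsKummerGen.pow_val (hζ : ζ ^ p = 1) (h : IsKummerGen K ζ χ y) (a : ZMod p) :
    IsKummerGen K ζ (fun σ => a * χ σ) (y ^ a.val) :=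
  ⟨pow_ne_zero _ h.1, fun σ hσ => by
    rw [map_pow, h.2 σ hσ, mul_pow, pow_val_mul hζ]⟩

/-- **(b) kernel**, first form: a Kummer generator lies in `K` iff the character vanishes on
`G_K`. -/
theorem IsKummerGen.mem_iff [IsGalois F E] (hζ : IsPrimitiveRoot ζ p) (h : IsKummerGen K ζ χ y) :
    y ∈ K ↔ ∀ σ : E ≃ₐ[F] E, (∀ x ∈ K, σ x = x) → χ σ = 0 := by
  constructor
  · intro hy σ hσ
    have h1 := h.2 σ hσ
    rw [hσ y hy] at h1
    have h2 : ζ ^ (χ σ).val = ζ ^ (0 : ZMod p).val := by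
      rw [ZMod.val_zero, pow_zero]
      have h3 : (ζ ^ (χ σ).val - 1) * y = 0 := by rw [sub_mul, one_mul, ← h1, sub_self]
      rcases mul_eq_zero.mp h3 with h4 | h4
      · exact sub_eq_zero.mp h4
      · exact absurd h4 h.1
    exact pow_val_injective hζ h2
  · intro hχ
    apply mem_of_forall_fixed K
    intro σ hσ
    rw [h.2 σ hσ, hχ σ hσ, ZMod.val_zero, pow_zero, one_mul]

/-- **(b) kernel**: `u_χ = y ^ p` is a `p`-th power in `K` iff `χ` vanishes on `G_K`. -/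
theorem IsKummerGen.pow_eq_pow_iff [IsGalois F E] (hζ : IsPrimitiveRoot ζ p) (hζK : ζ ∈ K)
    (h : IsKummerGen K ζ χ y) :
    (∃ t ∈ K, y ^ p = t ^ p) ↔ ∀ σ : E ≃ₐ[F] E, (∀ x ∈ K, σ x = x) → χ σ = 0 := by
  have hp0 : 0 < p := (Fact.out : p.Prime).pos
  rw [← h.mem_iff hζ]
  constructor
  · rintro ⟨t, ht, hyt⟩
    have ht0 : t ≠ 0 := by
      rintro rfl
      rw [zero_pow hp0.ne'] at hyt
      exact h.1 (pow_eq_zero_iff hp0.ne' |>.mp hyt)
    have h1 : (y / t) ^ p = 1 := by rw [div_pow, hyt, div_self (pow_ne_zero _ ht0)]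
    obtain ⟨i, -, hi⟩ := hζ.eq_pow_of_pow_eq_one h1
    have h2 : y = ζ ^ i * t := by rw [hi, div_mul_cancel₀ _ ht0]
    rw [h2]
    exact K.mul_mem (_root_.pow_mem hζK i) ht
  · intro hy
    exact ⟨y, hy, rfl⟩

/-- **(c) equivariance**: if `δ` maps `K` into itself and `δ ζ = ζ ^ a`, then `δ y` is a Kummer
generator of `σ ↦ a * χ (δ⁻¹ σ δ)`. -/
theorem IsKummerGen.conj (hζ : ζ ^ p = 1) (h : IsKummerGen K ζ χ y) (δ : E ≃ₐ[F] E)
    (hδK : ∀ x ∈ K, δ x ∈ K) {a : ZMod p} (hδζ : δ ζ = ζ ^ a.val) :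
    IsKummerGen K ζ (fun σ => a * χ (δ⁻¹ * σ * δ)) (δ y) := by
  refine ⟨(map_ne_zero δ).mpr h.1, fun σ hσ => ?_⟩
  have h1 : ∀ x ∈ K, (δ⁻¹ * σ * δ) x = x := by
    intro x hx
    rw [AlgEquiv.mul_apply, AlgEquiv.mul_apply, hσ (δ x) (hδK x hx)]
    exact (AlgEquiv.symm_apply_eq δ).mpr rfl
  have h2 := h.2 _ h1
  have h3 : σ (δ y) = δ ((δ⁻¹ * σ * δ) y) := by
    rw [AlgEquiv.mul_apply, AlgEquiv.mul_apply]
    exact ((AlgEquiv.apply_symm_apply δ _).symm)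
  rw [h3, h2, map_mul, map_pow, hδζ, pow_val_mul hζ, ← pow_mul, ← pow_mul, Nat.mul_comm]

/-- **(c) equivariance, `(-1)`-twisted form**: `(δ y) ^ a'` is a Kummer generator of
`σ ↦ χ (δ⁻¹ σ δ)` when `δ ζ = ζ ^ a` and `a' * a = 1`, i.e.
`u_{χ ∘ conj δ⁻¹} = δ (u_χ) ^ a'` modulo `p`-th powers. -/
theorem IsKummerGen.conj_pow (hζ : ζ ^ p = 1) (h : IsKummerGen K ζ χ y) (δ : E ≃ₐ[F] E)
    (hδK : ∀ x ∈ K, δ x ∈ K) {a a' : ZMod p} (hδζ : δ ζ = ζ ^ a.val) (haa : a' * a = 1) :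
    IsKummerGen K ζ (fun σ => χ (δ⁻¹ * σ * δ)) ((δ y) ^ a'.val) := by
  refine ((h.conj hζ δ hδK hδζ).pow_val hζ a').congr fun σ _ => ?_
  rw [← mul_assoc, haa, one_mul]

end basic

/-! ### (d) vector form -/

section vector

variable {p : ℕ} [Fact p.Prime] {K : IntermediateField F E} {ζ : E}
  {M : Type*} [AddCommGroup M] [Module (ZMod p) M]

/-- **(d) existence**: for a level-constant homomorphism `c : G_K → M` into an `𝔽_p`-vector space
and every linear form `l`, the character `l ∘ c` has a Kummer generator `y_l`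
(`u_{l ∘ c} = y_l ^ p`). -/
theorem exists_isKummerGen_dual [Normal F E] (K : IntermediateField F E) (hζ : ζ ^ p = 1)
    (hζK : ζ ∈ K) (c : (E ≃ₐ[F] E) → M)
    (hadd : ∀ σ τ : E ≃ₐ[F] E, (∀ x ∈ K, σ x = x) → (∀ x ∈ K, τ x = x) →
      c (σ * τ) = c σ + c τ)
    (hlev : ∃ L : IntermediateField F E, FiniteDimensional F L ∧
      ∀ σ : E ≃ₐ[F] E, (∀ x ∈ K, σ x = x) → (∀ x ∈ L, σ x = x) → c σ = 0)
    (l : Module.Dual (ZMod p) M) : ∃ y : E, IsKummerGen K ζ (fun σ => l (c σ)) y := by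
  refine exists_isKummerGen K hζ hζK _ (fun σ τ hσ hτ => ?_) ?_
  · rw [hadd σ τ hσ hτ, map_add]
  · obtain ⟨L, hL, h⟩ := hlev
    exact ⟨L, hL, fun σ h1 h2 => by rw [h σ h1 h2, map_zero]⟩

/-- additivity in `l`: `u_{(l + l') ∘ c} = u_{l ∘ c} * u_{l' ∘ c}`. -/
theorem IsKummerGen.dual_add (hζ : ζ ^ p = 1) {c : (E ≃ₐ[F] E) → M}
    {l l' : Module.Dual (ZMod p) M} {y y' : E}
    (h : IsKummerGen K ζ (fun σ => l (c σ)) y) (h' : IsKummerGen K ζ (fun σ => l' (c σ)) y') :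
    IsKummerGen K ζ (fun σ => (l + l') (c σ)) (y * y') :=
  (h.mul hζ h').congr fun _ _ => rfl

/-- additivity in `c`: `u_{l ∘ (c + c')} = u_{l ∘ c} * u_{l ∘ c'}`. -/
theorem IsKummerGen.add_dual (hζ : ζ ^ p = 1) {c c' : (E ≃ₐ[F] E) → M}
    {l : Module.Dual (ZMod p) M} {y y' : E}
    (h : IsKummerGen K ζ (fun σ => l (c σ)) y) (h' : IsKummerGen K ζ (fun σ => l (c' σ)) y') :
    IsKummerGen K ζ (fun σ => l (c σ + c' σ)) (y * y') :=
  (h.mul hζ h').congr fun σ _ => (map_add l (c σ) (c' σ)).symm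

/-- **(d) injectivity**: the family of Kummer classes `l ↦ u_{l ∘ c}` determines `c` on `G_K`:
if for every linear form `l` the homomorphisms `l ∘ c` and `l ∘ c'` have Kummer generators with
ratio in `K`, then `c = c'` on `G_K`. -/
theorem eq_on_of_forall_dual (hζ : IsPrimitiveRoot ζ p) {c c' : (E ≃ₐ[F] E) → M}
    (h : ∀ l : Module.Dual (ZMod p) M, ∃ y y' : E, IsKummerGen K ζ (fun σ => l (c σ)) y ∧
      IsKummerGen K ζ (fun σ => l (c' σ)) y' ∧ y' / y ∈ K)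
    {σ : E ≃ₐ[F] E} (hσ : ∀ x ∈ K, σ x = x) : c σ = c' σ := by
  have hζp : ζ ^ p = 1 := hζ.pow_eq_one
  rw [← sub_eq_zero, ← Module.forall_dual_apply_eq_zero_iff (ZMod p)]
  intro l
  obtain ⟨y, y', hy, hy', hK⟩ := h l
  have h1 : y' = (y' / y) * y := by rw [div_mul_cancel₀ _ hy.1]
  have h2 : σ y' = ζ ^ (l (c σ)).val * y' := by
    conv_lhs => rw [h1]
    rw [map_mul, hσ _ hK, hy.2 σ hσ]
    conv_rhs => rw [h1]
    ring
  have h3 := hy'.2 σ hσ
  rw [h2] at h3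
  have h4 : ζ ^ (l (c σ)).val = ζ ^ (l (c' σ)).val := mul_right_cancel₀ hy'.1 h3
  rw [map_sub, sub_eq_zero]
  exact pow_val_injective hζ h4

/-- **(d) equivariance**: if `c (δ⁻¹ σ δ) = r (c σ)` on `G_K` for a linear map `r` (the action of
`δ⁻¹` on `M`), `δ K ⊆ K`, `δ ζ = ζ ^ a` and `a' * a = 1`, then
`u_{(l ∘ r) ∘ c} = δ (u_{l ∘ c}) ^ a'` modulo `p`-th powers: the Kummer map
`l ↦ u_{l ∘ c}` is equivariant for the `(-1)`-twisted action. -/
theorem IsKummerGen.dual_conj (hζ : ζ ^ p = 1) {c : (E ≃ₐ[F] E) → M}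
    {l : Module.Dual (ZMod p) M} {y : E} (h : IsKummerGen K ζ (fun σ => l (c σ)) y)
    (δ : E ≃ₐ[F] E) (hδK : ∀ x ∈ K, δ x ∈ K) {a a' : ZMod p} (hδζ : δ ζ = ζ ^ a.val)
    (haa : a' * a = 1) (r : M →ₗ[ZMod p] M)
    (hc : ∀ σ : E ≃ₐ[F] E, (∀ x ∈ K, σ x = x) → c (δ⁻¹ * σ * δ) = r (c σ)) :
    IsKummerGen K ζ (fun σ => (l ∘ₗ r) (c σ)) ((δ y) ^ a'.val) :=
  (h.conj_pow hζ δ hδK hδζ haa).congr fun σ hσ => by
    rw [hc σ hσ]
    rfl

end vector

/-! ### (e) every radical comes from a character -/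

section converse

variable {p : ℕ} [Fact p.Prime]

/-- **(e)**: every `y ≠ 0` with `y ^ p ∈ K` is a Kummer generator of a level-constant character
of `G_K` (so `Hom_lc(G_K, ZMod p) ≅ K^× / K^{×p}` via `χ ↦ u_χ`). -/
theorem exists_character_of_pow_mem [IsGalois F E] (K : IntermediateField F E) {ζ : E}
    (hζ : IsPrimitiveRoot ζ p) (hζK : ζ ∈ K) {y : E} (hy0 : y ≠ 0) (hy : y ^ p ∈ K) :
    ∃ χ : (E ≃ₐ[F] E) → ZMod p,
      (∀ σ τ : E ≃ₐ[F] E, (∀ x ∈ K, σ x = x) → (∀ x ∈ K, τ x = x) → χ (σ * τ) = χ σ + χ τ) ∧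
      (∃ L : IntermediateField F E, FiniteDimensional F L ∧
        ∀ σ : E ≃ₐ[F] E, (∀ x ∈ K, σ x = x) → (∀ x ∈ L, σ x = x) → χ σ = 0) ∧
      IsKummerGen K ζ χ y := by
  classical
  have hζp : ζ ^ p = 1 := hζ.pow_eq_one
  have hp : NeZero p := ⟨(Fact.out : p.Prime).ne_zero⟩
  -- the exponent
  have hex : ∀ σ : E ≃ₐ[F] E, (∀ x ∈ K, σ x = x) → ∃ j : ZMod p, σ y = ζ ^ j.val * y := by
    intro σ hσ
    have h1 : (σ y / y) ^ p = 1 := by
      rw [div_pow, ← map_pow, hσ _ hy, div_self (pow_ne_zero _ hy0)]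
    obtain ⟨i, hi, hiy⟩ := hζ.eq_pow_of_pow_eq_one h1
    refine ⟨(i : ZMod p), ?_⟩
    rw [ZMod.val_natCast_of_lt hi, hiy, div_mul_cancel₀ _ hy0]
  let χ : (E ≃ₐ[F] E) → ZMod p := fun σ =>
    if h : ∀ x ∈ K, σ x = x then (hex σ h).choose else 0
  have hχ : ∀ σ : E ≃ₐ[F] E, (∀ x ∈ K, σ x = x) → σ y = ζ ^ (χ σ).val * y := by
    intro σ hσ
    simp only [χ, dif_pos hσ]
    exact (hex σ hσ).choose_spec
  have hgen : IsKummerGen K ζ χ y := ⟨hy0, hχ⟩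
  refine ⟨χ, ?_, ?_, hgen⟩
  · intro σ τ hσ hτ
    have hστ : ∀ x ∈ K, (σ * τ) x = x := by
      intro x hx
      rw [AlgEquiv.mul_apply, hτ x hx, hσ x hx]
    have h1 := hχ _ hστ
    rw [AlgEquiv.mul_apply, hχ τ hτ, map_mul, map_pow, hσ ζ hζK, hχ σ hσ, ← mul_assoc,
      ← pow_val_add hζp] at h1
    have h2 := mul_right_cancel₀ hy0 h1
    rw [add_comm]
    exact (pow_val_injective hζ h2).symm
  · have hint : IsIntegral F y := Algebra.IsIntegral.isIntegral y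
    refine ⟨IntermediateField.adjoin F {y}, IntermediateField.adjoin.finiteDimensional hint, ?_⟩
    intro σ hσ hσL
    have h1 := hχ σ hσ
    rw [hσL y (IntermediateField.mem_adjoin_simple_self F y)] at h1
    have h2 : ζ ^ (χ σ).val = ζ ^ (0 : ZMod p).val := by
      rw [ZMod.val_zero, pow_zero]
      have h3 : (ζ ^ (χ σ).val - 1) * y = 0 := by rw [sub_mul, one_mul, ← h1, sub_self]
      rcases mul_eq_zero.mp h3 with h4 | h4
      · exact sub_eq_zero.mp h4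
      · exact absurd h4 hy0
    exact pow_val_injective hζ h2

end converse

/-! ### specialisation to `ℚ̄ / ℚ` (instance check for the consumers) -/

section Qbar

/-- (local) `ℚ̄/ℚ` is algebraic, for the default `ℚ`-algebra structure of a division ring. -/
theorem isAlgebraicQbar_kummerMap : Algebra.IsAlgebraic ℚ (AlgebraicClosure ℚ) :=
  AlgebraicClosure.isAlgebraic ℚ

/-- (local) `ℚ̄` is an algebraic closure of `ℚ`. -/
theorem isAlgClosureQbar_kummerMap : IsAlgClosure ℚ (AlgebraicClosure ℚ) :=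
  ⟨inferInstance, isAlgebraicQbar_kummerMap⟩

/-- `ℚ̄/ℚ` is Galois (for the default `ℚ`-algebra structure of a division ring). -/
theorem isGaloisQbar_kummerMap : IsGalois ℚ (AlgebraicClosure ℚ) :=
  have := isAlgClosureQbar_kummerMap
  IsAlgClosure.isGalois ℚ (AlgebraicClosure ℚ)

attribute [local instance] isAlgClosureQbar_kummerMap isGaloisQbar_kummerMap

variable {p : ℕ} [Fact p.Prime]

/-- (a) over `ℚ̄`, in the level-constant shape of `GP/Tan/Cocycle.exists_levelConstant`. -/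
theorem exists_isKummerGen_Qbar (K : IntermediateField ℚ (AlgebraicClosure ℚ))
    {ζ : AlgebraicClosure ℚ} (hζ : ζ ^ p = 1) (hζK : ζ ∈ K)
    (χ : (AlgebraicClosure ℚ ≃ₐ[ℚ] AlgebraicClosure ℚ) → ZMod p)
    (hadd : ∀ σ τ : AlgebraicClosure ℚ ≃ₐ[ℚ] AlgebraicClosure ℚ,
      (∀ x ∈ K, σ x = x) → (∀ x ∈ K, τ x = x) → χ (σ * τ) = χ σ + χ τ)
    (hlev : ∃ L : IntermediateField ℚ (AlgebraicClosure ℚ), FiniteDimensional ℚ L ∧
      ∀ σ : AlgebraicClosure ℚ ≃ₐ[ℚ] AlgebraicClosure ℚ,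
        (∀ x ∈ K, σ x = x) → (∀ x ∈ L, σ x = x) → χ σ = 0) :
    ∃ y : AlgebraicClosure ℚ, IsKummerGen K ζ χ y ∧ y ^ p ∈ K := by
  obtain ⟨y, hy⟩ := exists_isKummerGen K hζ hζK χ hadd hlev
  exact ⟨y, hy, hy.pow_mem hζ⟩

/-- (e) over `ℚ̄`: every `u ∈ K^×` is `u_χ` for a level-constant character `χ` of `G_K`. -/
theorem exists_character_of_mem_Qbar (K : IntermediateField ℚ (AlgebraicClosure ℚ))
    {ζ : AlgebraicClosure ℚ} (hζ : IsPrimitiveRoot ζ p) (hζK : ζ ∈ K)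
    {u : AlgebraicClosure ℚ} (hu0 : u ≠ 0) (hu : u ∈ K) :
    ∃ (y : AlgebraicClosure ℚ) (χ : (AlgebraicClosure ℚ ≃ₐ[ℚ] AlgebraicClosure ℚ) → ZMod p),
      y ^ p = u ∧
      (∀ σ τ : AlgebraicClosure ℚ ≃ₐ[ℚ] AlgebraicClosure ℚ,
        (∀ x ∈ K, σ x = x) → (∀ x ∈ K, τ x = x) → χ (σ * τ) = χ σ + χ τ) ∧
      (∃ L : IntermediateField ℚ (AlgebraicClosure ℚ), FiniteDimensional ℚ L ∧
        ∀ σ : AlgebraicClosure ℚ ≃ₐ[ℚ] AlgebraicClosure ℚ,
          (∀ x ∈ K, σ x = x) → (∀ x ∈ L, σ x = x) → χ σ = 0) ∧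
      IsKummerGen K ζ χ y := by
  have hp0 : 0 < p := (Fact.out : p.Prime).pos
  obtain ⟨y, hy⟩ := IsAlgClosed.exists_pow_nat_eq u hp0
  have hy0 : y ≠ 0 := by
    rintro rfl
    rw [zero_pow hp0.ne'] at hy
    exact hu0 hy.symm
  obtain ⟨χ, h1, h2, h3⟩ := exists_character_of_pow_mem K hζ hζK hy0 (by rw [hy]; exact hu)
  exact ⟨y, χ, hy, h1, h2, h3⟩

end Qbar

end Fermat.Agent.GP.Flat.KummerMap
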