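/-
GATE-P (S56 long shot) / [P-FLAT](iv) HEDGE, Step 2 (helper99; route = helper14 board 3945 = helper99
board 3954): the UNRAMIFIED KUMMER TWIST estimate, in abstract `Valuation Ω Γ₀` form.

Setting (multiplicative valuation `v`): `ζ ^ p = 1`, `lam = ζ - 1`, `w ^ p = u₀`, `ν ^ p = η₀`
with `v (ν - 1) ≤ v lam`; uniformiser `z = (w - 1) ^ a * π ^ B` of `K(w)` and its twist
`z' = (w ν - 1) ^ a * π ^ B`; `Q = ∏ (X - r i)` the minimal polynomial of `z` over the unramified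
base, the `p` conjugates `(ζ ^ j w - 1) ^ a * π ^ B` being among the roots.  Then
`v (Q(z')) < v p * v lam`, i.e. `X ↦ z'` kills `Q` modulo `𝔞^{> p/(p-1)}`, as soon as
`v p < v (w - 1) ^ p` (Kummer depth `m < e`).  Mathlib only.
-/
import Mathlib

set_option autoImplicit false

namespace Fermat.Agent.GP.Flat.KummerTwist

open Polynomial

variable {Ω : Type*} [Field Ω] {Γ₀ : Type*} [LinearOrderedCommGroupWithZero Γ₀]
  (v : Valuation Ω Γ₀)

/-- `|X^(A+1) - Y^(A+1)| ≤ |X - Y| c^A` if `|X|, |Y| ≤ c`. -/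
theorem val_pow_sub_pow_le {X Y : Ω} {c : Γ₀} (hX : v X ≤ c) (hY : v Y ≤ c) (A : ℕ) :
    v (X ^ (A + 1) - Y ^ (A + 1)) ≤ v (X - Y) * c ^ A := by
  rw [← geom_sum₂_mul X Y (A + 1), map_mul, mul_comm]
  refine mul_le_mul' le_rfl ?_
  refine v.map_sum_le fun i hi => ?_
  rw [map_mul, map_pow, map_pow]
  have hi' : i ≤ A := by
    have := Finset.mem_range.mp hi
    omega
  calc v X ^ i * v Y ^ (A + 1 - 1 - i) ≤ c ^ i * c ^ (A + 1 - 1 - i) :=
        mul_le_mul' (pow_le_pow_left' hX i) (pow_le_pow_left' hY _)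
    _ = c ^ A := by
        rw [← pow_add]
        congr 1
        omega

/-- A root of unity has valuation one. -/
theorem val_eq_one_of_pow_eq_one {ζ : Ω} {n : ℕ} (hn : n ≠ 0) (hζ : ζ ^ n = 1) : v ζ = 1 := by
  have h : v ζ ^ n = 1 := by rw [← map_pow, hζ, map_one]
  rcases lt_trichotomy (v ζ) 1 with h1 | h1 | h1
  · exact absurd h (ne_of_lt (pow_lt_one₀ zero_le h1 hn))
  · exact h1
  · exact absurd h (ne_of_gt (one_lt_pow₀ h1 hn))

/-- `|ζ^j - 1| ≤ |ζ - 1|` for a root of unity `ζ`. -/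
theorem val_pow_sub_one_le {ζ : Ω} (hζ1 : v ζ = 1) (j : ℕ) : v (ζ ^ j - 1) ≤ v (ζ - 1) := by
  rcases j with _ | j
  · simp
  · have := val_pow_sub_pow_le v (X := ζ) (Y := 1) (c := 1) hζ1.le (by simp) j
    simpa using this


/-! ### Case (B): `u₀ = 1 + a π^m`, uniformiser `(w - 1)^(A+1) π^B` -/

section CaseB

variable {ζ w ν π : Ω}

/-- The twisted and the conjugate Kummer generators have the same distance to `1` as `w`. -/
theorem val_twist_sub_one (hw : v w = 1) (hν : v (ν - 1) ≤ v (ζ - 1))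
    (hlt : v (ζ - 1) < v (w - 1)) : v (w * ν - 1) = v (w - 1) := by
  have h : w * ν - 1 = (w - 1) + w * (ν - 1) := by ring
  rw [h]
  refine Valuation.map_add_eq_of_lt_left v ?_
  rw [map_mul, hw, one_mul]
  exact lt_of_le_of_lt hν hlt

theorem val_conj_sub_one (hζ1 : v ζ = 1) (hw : v w = 1) (hlt : v (ζ - 1) < v (w - 1)) (j : ℕ) :
    v (ζ ^ j * w - 1) = v (w - 1) := by
  have h : ζ ^ j * w - 1 = (w - 1) + w * (ζ ^ j - 1) := by ring
  rw [h]
  refine Valuation.map_add_eq_of_lt_left v ?_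
  rw [map_mul, hw, one_mul]
  exact lt_of_le_of_lt (val_pow_sub_one_le v hζ1 j) hlt

/-- Distance between the twisted generator and the `j`-th conjugate generator. -/
theorem val_twist_sub_conj_le (hζ1 : v ζ = 1) (hw : v w = 1) (hν : v (ν - 1) ≤ v (ζ - 1)) (j : ℕ) :
    v ((w * ν - 1) - (ζ ^ j * w - 1)) ≤ v (ζ - 1) := by
  have h : (w * ν - 1) - (ζ ^ j * w - 1) = w * ((ν - 1) - (ζ ^ j - 1)) := by ring
  rw [h, map_mul, hw, one_mul]
  exact (v.map_sub _ _).trans (max_le hν (val_pow_sub_one_le v hζ1 j))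

/-- **Step 2, one factor, case (B).**  `z' - z_j` for `z' = (wν - 1)^(A+1) π^B`,
`z_j = (ζ^j w - 1)^(A+1) π^B`. -/
theorem val_twistUnif_sub_conj_le (hζ1 : v ζ = 1) (hw : v w = 1) (hν : v (ν - 1) ≤ v (ζ - 1))
    (hlt : v (ζ - 1) < v (w - 1)) (A : ℕ) (B : ℤ) (j : ℕ) :
    v ((w * ν - 1) ^ (A + 1) * π ^ B - (ζ ^ j * w - 1) ^ (A + 1) * π ^ B) ≤
      v (ζ - 1) * v (w - 1) ^ A * v π ^ B := by
  rw [← sub_mul, map_mul, map_zpow₀]
  refine mul_le_mul' ?_ le_rfl
  refine (val_pow_sub_pow_le v (c := v (w - 1)) (val_twist_sub_one v hw hν hlt).le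
    (val_conj_sub_one v hζ1 hw hlt j).le A).trans ?_
  exact mul_le_mul' (val_twist_sub_conj_le v hζ1 hw hν j) le_rfl

end CaseB


/-! ### The product estimate -/

section Product

variable {ι : Type*} [Fintype ι] [DecidableEq ι]

/-- If all roots are at distance `≤ c` from `x` and `n` distinguished ones at distance `≤ d`,
then `|∏ (x - r i)| ≤ c^(card ι - n) d^n`. -/
theorem val_prod_sub_le {n : ℕ} (r : ι → Ω) (x : Ω) (g : Fin n → ι)
    (hg : Function.Injective g) {c d : Γ₀} (hc : ∀ i, v (x - r i) ≤ c)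
    (hd : ∀ j, v (x - r (g j)) ≤ d) :
    v (∏ i, (x - r i)) ≤ c ^ (Fintype.card ι - n) * d ^ n := by
  classical
  set s : Finset ι := Finset.univ.image g with hs
  have hcard : s.card = n := by
    rw [hs, Finset.card_image_of_injective _ hg, Finset.card_univ, Fintype.card_fin]
  rw [map_prod, ← Finset.prod_mul_prod_compl s, mul_comm]
  refine mul_le_mul' ?_ ?_
  · calc ∏ i ∈ sᶜ, v (x - r i) ≤ ∏ _i ∈ sᶜ, c := Finset.prod_le_prod' fun i _ => hc i
      _ = c ^ (Fintype.card ι - n) := by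
        rw [Finset.prod_const, Finset.card_compl, hcard]
  · rw [hs, Finset.prod_image (fun a _ b _ h => hg h)]
    calc ∏ j, v (x - r (g j)) ≤ ∏ _j : Fin n, d := Finset.prod_le_prod' fun j _ => hd j
      _ = d ^ n := by rw [Finset.prod_const, Finset.card_univ, Fintype.card_fin]

/-- The arithmetic in the value group. -/
theorem key_ineq {P L b q Z d : Γ₀} {n p A : ℕ} (hp : 2 ≤ p) (hpn : p ≤ n)
    (hZ : Z = b ^ (A + 1) * q) (hd : d = L * b ^ A * q) (hcard : Z ^ n = P)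
    (hL : L ^ (p - 1) = P) (hP : P ≠ 0) (hdeep : P < b ^ p) :
    Z ^ (n - p) * d ^ p < P * L := by
  have hp1 : 1 ≤ p := by omega
  have hL0 : L ≠ 0 := by
    rintro rfl
    rw [zero_pow (by omega)] at hL
    exact hP hL.symm
  have hdb : d * b = L * Z := by
    rw [hd, hZ, pow_succ]
    ac_rfl
  have h1 : Z ^ (n - p) * d ^ p * b ^ p = P * L * P := by
    calc Z ^ (n - p) * d ^ p * b ^ p = Z ^ (n - p) * (d * b) ^ p := by rw [mul_pow, mul_assoc]
      _ = Z ^ (n - p) * Z ^ p * L ^ p := by rw [hdb, mul_pow]; ac_rfl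
      _ = Z ^ n * L ^ p := by rw [← pow_add, Nat.sub_add_cancel hpn]
      _ = P * (L ^ (p - 1) * L) := by rw [hcard, ← pow_succ, Nat.sub_add_cancel hp1]
      _ = P * L * P := by rw [hL]; ac_rfl
  have hPL : 0 < P * L := by
    rw [pos_iff_ne_zero]
    exact mul_ne_zero hP hL0
  have h2 : P * L * P < P * L * b ^ p := mul_lt_mul_of_pos_left hdeep hPL
  rw [← h1] at h2
  exact lt_of_mul_lt_mul_right h2 zero_le


/-- `|ζ - 1| < |w - 1|` follows from the depth hypothesis `|p| < |w - 1|^p`. -/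
theorem val_lam_lt_of_deep {p : ℕ} (hp : 2 ≤ p) {ζ w : Ω} (hζ1 : v ζ = 1)
    (hlam : v (ζ - 1) ^ (p - 1) = v (p : Ω)) (hdeep : v (p : Ω) < v (w - 1) ^ p) :
    v (ζ - 1) < v (w - 1) := by
  by_contra hcon
  rw [not_lt] at hcon
  have hL1 : v (ζ - 1) ≤ 1 := by
    refine (v.map_sub _ _).trans (max_le hζ1.le ?_)
    rw [map_one]
  have h1 : v (w - 1) ^ p ≤ v (ζ - 1) ^ p := pow_le_pow_left' hcon p
  have h2 : v (ζ - 1) ^ p = v (p : Ω) * v (ζ - 1) := by
    rw [← hlam, ← pow_succ, Nat.sub_add_cancel (by omega)]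
  have h3 : v (p : Ω) * v (ζ - 1) ≤ v (p : Ω) := by
    calc v (p : Ω) * v (ζ - 1) ≤ v (p : Ω) * 1 := mul_le_mul' le_rfl hL1
      _ = v (p : Ω) := mul_one _
  exact absurd (lt_of_lt_of_le hdeep (h1.trans (h2.le.trans h3))) (lt_irrefl _)

/-- **Step 2, case (B)** (`u₀ = 1 + a π^m`, `p ∤ m < e`).  The twisted uniformiser
`z' = (wν - 1)^(A+1) π^B` satisfies `|∏ (z' - r i)| < |p| |ζ - 1|`, where the `r i` are the roots of
the minimal polynomial of `z = (w - 1)^(A+1) π^B` over the unramified base: `p` of them are the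
Kummer conjugates, all have valuation `≤ |z|`, and `|z|^(number of roots) = |p|`. -/
theorem val_prod_twist_lt_caseB {p : ℕ} (hp : 2 ≤ p) (hp0 : (p : Ω) ≠ 0)
    {ζ w ν π : Ω} (hζ : ζ ^ p = 1) (hlam : v (ζ - 1) ^ (p - 1) = v (p : Ω))
    (hw : v w = 1) (hν : v (ν - 1) ≤ v (ζ - 1)) (hdeep : v (p : Ω) < v (w - 1) ^ p)
    (A : ℕ) (B : ℤ) (r : ι → Ω) (g : Fin p → ι) (hg : Function.Injective g)
    (hrg : ∀ j : Fin p, r (g j) = (ζ ^ (j : ℕ) * w - 1) ^ (A + 1) * π ^ B)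
    (hr : ∀ i, v (r i) ≤ v (w - 1) ^ (A + 1) * v π ^ B)
    (hcard : (v (w - 1) ^ (A + 1) * v π ^ B) ^ Fintype.card ι = v (p : Ω)) :
    v (∏ i, ((w * ν - 1) ^ (A + 1) * π ^ B - r i)) < v (p : Ω) * v (ζ - 1) := by
  have hζ1 : v ζ = 1 := val_eq_one_of_pow_eq_one v (by omega) hζ
  have hlt : v (ζ - 1) < v (w - 1) := val_lam_lt_of_deep v hp hζ1 hlam hdeep
  have hz' : v ((w * ν - 1) ^ (A + 1) * π ^ B) = v (w - 1) ^ (A + 1) * v π ^ B := by
    rw [map_mul, map_pow, map_zpow₀, val_twist_sub_one v hw hν hlt]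
  have hpn : p ≤ Fintype.card ι := by
    have := Fintype.card_le_of_injective g hg
    rwa [Fintype.card_fin] at this
  refine lt_of_le_of_lt (val_prod_sub_le v r _ g hg
    (c := v (w - 1) ^ (A + 1) * v π ^ B) (d := v (ζ - 1) * v (w - 1) ^ A * v π ^ B)
    (fun i => (v.map_sub _ _).trans (max_le hz'.le (hr i))) (fun j => ?_)) ?_
  · rw [hrg j]
    exact val_twistUnif_sub_conj_le v hζ1 hw hν hlt A B j
  · exact key_ineq hp hpn rfl rfl hcard hlam ((Valuation.ne_zero_iff v).mpr hp0) hdeep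

/-- **Step 2, case (A)** (`p ∤ v_K(u₀)`, uniformiser `z = w^(A+1) π^B`). -/
theorem val_prod_twist_lt_caseA {p : ℕ} (hp : 2 ≤ p) (hp0 : (p : Ω) ≠ 0) (hp1 : v (p : Ω) < 1)
    {ζ w ν π : Ω} (hζ : ζ ^ p = 1) (hlam : v (ζ - 1) ^ (p - 1) = v (p : Ω))
    (hν : v (ν - 1) ≤ v (ζ - 1))
    (A : ℕ) (B : ℤ) (r : ι → Ω) (g : Fin p → ι) (hg : Function.Injective g)
    (hrg : ∀ j : Fin p, r (g j) = (ζ ^ (j : ℕ) * w) ^ (A + 1) * π ^ B)
    (hr : ∀ i, v (r i) ≤ v w ^ (A + 1) * v π ^ B)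
    (hcard : (v w ^ (A + 1) * v π ^ B) ^ Fintype.card ι = v (p : Ω)) :
    v (∏ i, ((w * ν) ^ (A + 1) * π ^ B - r i)) < v (p : Ω) * v (ζ - 1) := by
  have hζ1 : v ζ = 1 := val_eq_one_of_pow_eq_one v (by omega) hζ
  have hL1 : v (ζ - 1) ≤ 1 := by
    refine (v.map_sub _ _).trans (max_le hζ1.le ?_)
    rw [map_one]
  have hν1 : v ν = 1 := by
    have hP : v (p : Ω) ≠ 0 := (Valuation.ne_zero_iff v).mpr hp0
    have hLlt : v (ζ - 1) < 1 := by
      rcases lt_or_eq_of_le hL1 with h | h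
      · exact h
      · rw [h, one_pow] at hlam
        exact absurd hlam.symm (ne_of_lt hp1)
    have h : ν = 1 + (ν - 1) := by ring
    rw [h]
    have := Valuation.map_add_eq_of_lt_left v (x := (1 : Ω)) (y := ν - 1)
      (by rw [map_one]; exact lt_of_le_of_lt hν hLlt)
    rw [this, map_one]
  have hz' : v ((w * ν) ^ (A + 1) * π ^ B) = v w ^ (A + 1) * v π ^ B := by
    rw [map_mul, map_pow, map_zpow₀, map_mul, hν1, mul_one]
  have hpn : p ≤ Fintype.card ι := by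
    have := Fintype.card_le_of_injective g hg
    rwa [Fintype.card_fin] at this
  set Z : Γ₀ := v w ^ (A + 1) * v π ^ B with hZ
  set L : Γ₀ := v (ζ - 1) with hL
  set P : Γ₀ := v (p : Ω) with hPdef
  have hP : P ≠ 0 := (Valuation.ne_zero_iff v).mpr hp0
  have hL0 : L ≠ 0 := by
    intro h
    rw [h, zero_pow (by omega)] at hlam
    exact hP hlam.symm
  refine lt_of_le_of_lt (val_prod_sub_le v r _ g hg (c := Z) (d := Z * L)
    (fun i => (v.map_sub _ _).trans (max_le hz'.le (hr i))) (fun j => ?_)) ?_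
  · rw [hrg j]
    have h : (w * ν) ^ (A + 1) * π ^ B - (ζ ^ (j : ℕ) * w) ^ (A + 1) * π ^ B =
        w ^ (A + 1) * π ^ B * (ν ^ (A + 1) - (ζ ^ (j : ℕ)) ^ (A + 1)) := by ring
    rw [h, map_mul, map_mul, map_pow, map_zpow₀]
    refine mul_le_mul' le_rfl ?_
    have hζj : v (ζ ^ (j : ℕ)) = 1 := by rw [map_pow, hζ1, one_pow]
    refine (val_pow_sub_pow_le v (c := 1) hν1.le hζj.le A).trans ?_
    rw [one_pow, mul_one]
    have h2 : ν - ζ ^ (j : ℕ) = (ν - 1) - (ζ ^ (j : ℕ) - 1) := by ring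
    rw [h2]
    exact (v.map_sub _ _).trans (max_le hν (val_pow_sub_one_le v hζ1 j))
  · have h1 : Z ^ (Fintype.card ι - p) * (Z * L) ^ p = P * L * P := by
      calc Z ^ (Fintype.card ι - p) * (Z * L) ^ p
          = Z ^ (Fintype.card ι - p) * Z ^ p * L ^ p := by rw [mul_pow Z L p, mul_assoc]
        _ = Z ^ Fintype.card ι * L ^ p := by rw [← pow_add, Nat.sub_add_cancel hpn]
        _ = P * (L ^ (p - 1) * L) := by
            rw [hcard, ← pow_succ, Nat.sub_add_cancel (by omega)]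
        _ = P * L * P := by rw [hlam]; ac_rfl
    rw [h1]
    have hPL : 0 < P * L := by
      rw [pos_iff_ne_zero]
      exact mul_ne_zero hP hL0
    calc P * L * P < P * L * 1 := mul_lt_mul_of_pos_left hp1 hPL
      _ = P * L := mul_one _

end Product

/-- Evaluation of a split polynomial. -/
theorem eval_prod_X_sub_C {ι : Type*} [Fintype ι] (r : ι → Ω) (x : Ω) :
    (∏ i, (X - C (r i))).eval x = ∏ i, (x - r i) := by
  rw [eval_prod]
  simp

end Fermat.Agent.GP.Flat.KummerTwist
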