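/-
GATE-P (S56 long shot) / [P-FLAT](iv) HEDGE, Steps 3–4 (helper99; route = helper14 board 3945 =
helper99 board 3954): the FORMAL EXTENSION STEP and the degree argument, in hypothesis form.

All fields are intermediate fields `F ≤ M ≤ Ω` of one algebraically closed valued field `Ω`
(`F` = the unramified base `K₀`), `𝒪_M = M ∩ {v ≤ 1}`, and every "ring hom modulo `𝔞^{>m}`" is a
ring hom into the single ring `S = {v ≤ 1} ⧸ {v < γ}` (`γ = v p * v (ζ - 1)`), together with the
predicate "its values are classes of elements of `𝒪_E`".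

* `PProp` : Fontaine's property (P_m) for `L` (to be supplied by LemmaF + Lift).
* `MonoData A B` : `B = A[X]/(R)`, `R` monic (monogenicity of rings of integers).
* `exists_extension` : Step 3, a hom `𝒪_{L'} → S` with values in `𝒪_{E'}` extends to `𝒪_L → S` with
  values in `𝒪_E`, `E = E'(y)`, `[E : F] ≤ [E' : F] deg R`.
* `kummerTwist_le` : Step 4, (P_m) for `L`, `𝒪_{L'} = 𝒪_F[z]` with minimal polynomial `Q`,
  `z' ∈ 𝒪_{E'}` with `v (Q(z')) < γ` and `[E' : F] deg R ≤ [L : F]` force `E' ≤ L`.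
Mathlib only.
-/
import Mathlib

set_option autoImplicit false

namespace Fermat.Agent.GP.Flat.KummerTwistExt

open Polynomial IntermediateField

variable {F Ω : Type*} [Field F] [Field Ω] [Algebra F Ω]
  {Γ₀ : Type*} [LinearOrderedCommGroupWithZero Γ₀] (v : Valuation Ω Γ₀)

/-- The ring of `v`-integers of an intermediate field. -/
def intRing (M : IntermediateField F Ω) : Subring Ω := M.toSubalgebra.toSubring ⊓ v.integer

theorem mem_intRing {M : IntermediateField F Ω} {x : Ω} :
    x ∈ intRing v M ↔ x ∈ M ∧ v x ≤ 1 := by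
  rw [intRing, Subring.mem_inf, Valuation.mem_integer_iff]
  rfl

theorem intRing_le (M : IntermediateField F Ω) : intRing v M ≤ v.integer := inf_le_right

/-- `𝒪_M → {v ≤ 1}`. -/
def incl (M : IntermediateField F Ω) : intRing v M →+* v.integer :=
  Subring.inclusion (intRing_le v M)

theorem coe_incl {M : IntermediateField F Ω} (a : intRing v M) : ((incl v M a : v.integer) : Ω) = a :=
  rfl

theorem intRing_mono {M N : IntermediateField F Ω} (h : M ≤ N) : intRing v M ≤ intRing v N :=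
  fun _ hx => (mem_intRing v).mpr ⟨h ((mem_intRing v).mp hx).1, ((mem_intRing v).mp hx).2⟩

/-- The ideal `{v < γ}` of the valuation ring of `Ω`. -/
def aIdeal (γ : Γ₀) (hγ : γ ≠ 0) : Ideal v.integer where
  carrier := {x | v (x : Ω) < γ}
  zero_mem' := by
    show v ((0 : v.integer) : Ω) < γ
    rw [ZeroMemClass.coe_zero, map_zero]
    exact zero_lt_iff.mpr hγ
  add_mem' := fun {a b} ha hb => by
    show v ((a + b : v.integer) : Ω) < γ
    rw [Subring.coe_add]
    exact lt_of_le_of_lt (v.map_add _ _) (max_lt ha hb)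
  smul_mem' := fun c x hx => by
    show v ((c • x : v.integer) : Ω) < γ
    rw [smul_eq_mul, Subring.coe_mul, map_mul]
    calc v (c : Ω) * v (x : Ω) ≤ 1 * v (x : Ω) :=
          mul_le_mul' ((Valuation.mem_integer_iff v _).mp c.2) le_rfl
      _ = v (x : Ω) := one_mul _
      _ < γ := hx

theorem mem_aIdeal {γ : Γ₀} {hγ : γ ≠ 0} {x : v.integer} :
    x ∈ aIdeal v γ hγ ↔ v (x : Ω) < γ := Iff.rfl

/-- The quotient ring `S`. -/
abbrev SQuot (γ : Γ₀) (hγ : γ ≠ 0) : Type _ := v.integer ⧸ aIdeal v γ hγ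

theorem sQuot_nontrivial {γ : Γ₀} (hγ : γ ≠ 0) (hγ1 : γ ≤ 1) : Nontrivial (SQuot v γ hγ) := by
  refine Ideal.Quotient.nontrivial_iff.mpr fun h => ?_
  have h1 : (1 : v.integer) ∈ aIdeal v γ hγ := by rw [h]; trivial
  rw [mem_aIdeal, OneMemClass.coe_one, map_one] at h1
  exact absurd (lt_of_lt_of_le h1 hγ1) (lt_irrefl _)

/-- `𝒪_M → S`. -/
def toS (γ : Γ₀) (hγ : γ ≠ 0) (M : IntermediateField F Ω) : intRing v M →+* SQuot v γ hγ :=
  (Ideal.Quotient.mk (aIdeal v γ hγ)).comp (incl v M)

theorem toS_eq_of_coe_eq {γ : Γ₀} {hγ : γ ≠ 0} {M N : IntermediateField F Ω}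
    (a : intRing v M) (b : intRing v N) (h : (a : Ω) = (b : Ω)) :
    toS v γ hγ M a = toS v γ hγ N b := by
  unfold toS
  rw [RingHom.comp_apply, RingHom.comp_apply]
  congr 1
  exact Subtype.ext h

theorem toS_range_mono {γ : Γ₀} {hγ : γ ≠ 0} {M N : IntermediateField F Ω} (h : M ≤ N) :
    (toS v γ hγ M).range ≤ (toS v γ hγ N).range := by
  rintro _ ⟨a, rfl⟩
  exact ⟨⟨a, intRing_mono v h a.2⟩, toS_eq_of_coe_eq v _ _ rfl⟩

theorem toS_eq_zero_iff {γ : Γ₀} {hγ : γ ≠ 0} {M : IntermediateField F Ω} (a : intRing v M) :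
    toS v γ hγ M a = 0 ↔ v (a : Ω) < γ := by
  unfold toS
  rw [RingHom.comp_apply, Ideal.Quotient.eq_zero_iff_mem, mem_aIdeal]
  rfl

/-- **Fontaine's property (P_m)** for `L`, all fields inside `Ω`: a ring hom `𝒪_L → S` which is
the identity on `𝒪_F` and takes values in the classes of `𝒪_E` forces `L ≤ E`. -/
def PProp (γ : Γ₀) (hγ : γ ≠ 0) (L : IntermediateField F Ω) : Prop :=
  ∀ E : IntermediateField F Ω, FiniteDimensional F E →
    ∀ η : intRing v L →+* SQuot v γ hγ,
      (∀ x, η x ∈ (toS v γ hγ E).range) →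
      (∀ (x : intRing v L) (a : intRing v (⊥ : IntermediateField F Ω)), (x : Ω) = (a : Ω) →
        η x = toS v γ hγ ⊥ a) →
      L ≤ E

/-- Monogenicity data: `B = A[X]/(R)` compatibly with the inclusions into `Ω`. -/
structure MonoData (A B : Subring Ω) where
  R : A[X]
  monic : R.Monic
  e : AdjoinRoot R ≃+* B
  e_of : ∀ a : A, ((e (AdjoinRoot.of R a) : B) : Ω) = (a : Ω)

namespace MonoData

variable {v}
variable {A B : Subring Ω} (D : MonoData A B) {T : Type*} [CommRing T]

/-- The induced hom out of `B`. -/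
noncomputable def lift (i : A →+* T) (t : T) (ht : D.R.eval₂ i t = 0) : B →+* T :=
  (AdjoinRoot.lift i t ht).comp D.e.symm.toRingHom

theorem lift_of (i : A →+* T) (t : T) (ht : D.R.eval₂ i t = 0) (a : A) (b : B)
    (h : (b : Ω) = (a : Ω)) : D.lift i t ht b = i a := by
  have hb : b = D.e (AdjoinRoot.of D.R a) := Subtype.ext (h.trans (D.e_of a).symm)
  unfold lift
  rw [RingHom.comp_apply, hb]
  simp

theorem lift_mem (i : A →+* T) (t : T) (ht : D.R.eval₂ i t = 0) (U : Subring T)
    (hi : ∀ a, i a ∈ U) (htU : t ∈ U) (b : B) : D.lift i t ht b ∈ U := by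
  obtain ⟨q, hq⟩ := AdjoinRoot.mk_surjective (D.e.symm b)
  unfold lift
  rw [RingHom.comp_apply, RingEquiv.toRingHom_eq_coe, RingEquiv.coe_toRingHom, ← hq,
    AdjoinRoot.lift_mk, Polynomial.eval₂_eq_sum_range]
  exact Subring.sum_mem _ fun n _ => Subring.mul_mem _ (hi _) (Subring.pow_mem _ htU _)

end MonoData


/-- Integrality: a root in `Ω` of a monic polynomial with `v`-integral coefficients is
`v`-integral. -/
theorem val_le_one_of_root {O : Subring Ω} (hO : O ≤ v.integer) (P : O[X]) (hP : P.Monic)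
    (y : Ω) (hy : P.eval₂ O.subtype y = 0) : v y ≤ 1 := by
  rw [← Valuation.mem_integer_iff]
  refine (Valuation.integer.integers v).mem_of_integral
    ⟨P.map (Subring.inclusion hO), hP.map _, ?_⟩
  rw [Polynomial.eval₂_map]
  exact hy

/-- **Step 3 (formal extension step).** -/
theorem exists_extension [IsAlgClosed Ω] {γ : Γ₀} (hγ : γ ≠ 0) (hγ1 : γ ≤ 1)
    {L' L E' : IntermediateField F Ω} [FiniteDimensional F E']
    (D : MonoData (intRing v L') (intRing v L)) (hdeg : 0 < D.R.natDegree)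
    (η₁ : intRing v L' →+* SQuot v γ hγ) (hη₁ : ∀ x, η₁ x ∈ (toS v γ hγ E').range) :
    ∃ E : IntermediateField F Ω, E' ≤ E ∧ FiniteDimensional F E ∧
      Module.finrank F E ≤ Module.finrank F E' * D.R.natDegree ∧
      ∃ η : intRing v L →+* SQuot v γ hγ,
        (∀ x, η x ∈ (toS v γ hγ E).range) ∧
        ∀ (a : intRing v L') (b : intRing v L), (b : Ω) = (a : Ω) → η b = η₁ a := by
  classical
  have : Nontrivial (SQuot v γ hγ) := sQuot_nontrivial v hγ hγ1
  -- lift the image polynomial to a monic polynomial over `𝒪_{E'}`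
  have hlifts : D.R.map η₁ ∈ Polynomial.lifts (toS v γ hγ E') := by
    rw [Polynomial.lifts_iff_coeff_lifts]
    intro n
    rw [Polynomial.coeff_map]
    exact hη₁ _
  obtain ⟨R', hR'map, hR'deg, hR'monic⟩ :=
    Polynomial.lifts_and_natDegree_eq_and_monic hlifts (D.monic.map η₁)
  have hR'deg' : R'.natDegree = D.R.natDegree := by
    rw [hR'deg, D.monic.natDegree_map]
  -- a root `y` in `Ω`
  have hΩmonic : (R'.map (intRing v E').subtype).Monic := hR'monic.map _
  have hΩdeg : (R'.map (intRing v E').subtype).degree ≠ 0 := by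
    rw [Polynomial.degree_eq_natDegree hΩmonic.ne_zero, hR'monic.natDegree_map, hR'deg']
    exact_mod_cast hdeg.ne'
  obtain ⟨y, hy⟩ := IsAlgClosed.exists_root _ hΩdeg
  rw [Polynomial.IsRoot.def, Polynomial.eval_map] at hy
  have hy1 : v y ≤ 1 := val_le_one_of_root v (intRing_le v E') R' hR'monic y hy
  -- the field `E = E'(y)`
  let toE' : intRing v E' →+* E' :=
    { toFun := fun x => ⟨(x : Ω), ((mem_intRing v).mp x.2).1⟩
      map_one' := rfl
      map_mul' := fun _ _ => rfl
      map_zero' := rfl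
      map_add' := fun _ _ => rfl }
  have htoE' : (algebraMap E' Ω).comp toE' = (intRing v E').subtype := RingHom.ext fun _ => rfl
  have hyint : IsIntegral E' y := by
    refine ⟨R'.map toE', hR'monic.map _, ?_⟩
    rw [Polynomial.eval₂_map, htoE']
    exact hy
  let E0 : IntermediateField E' Ω := E'⟮y⟯
  let E : IntermediateField F Ω := E0.restrictScalars F
  have hE'E : E' ≤ E := fun x hx => by
    show x ∈ E0
    exact E0.algebraMap_mem ⟨x, hx⟩
  have hyE : y ∈ E := IntermediateField.mem_adjoin_simple_self E' y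
  have hfinE0 : FiniteDimensional E' E0 := IntermediateField.adjoin.finiteDimensional hyint
  have hfinE : FiniteDimensional F E := by
    exact FiniteDimensional.trans F E' E0
  have hrank : Module.finrank F E ≤ Module.finrank F E' * D.R.natDegree := by
    have hfree1 : Module.Free E' E0 := Module.Free.of_divisionRing E' E0
    have hfree2 : Module.Free F E' := Module.Free.of_divisionRing F E'
    have h1 : Module.finrank F E = Module.finrank F E' * Module.finrank E' E0 :=
      (Module.finrank_mul_finrank F E' E0).symm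
    have h2 : Module.finrank E' E0 = (minpoly E' y).natDegree :=
      IntermediateField.adjoin.finrank hyint
    have h3 : (minpoly E' y).natDegree ≤ D.R.natDegree := by
      rw [← hR'deg', ← (hR'monic.natDegree_map toE')]
      refine Polynomial.natDegree_le_of_dvd (minpoly.dvd E' y ?_) (hR'monic.map toE').ne_zero
      rw [Polynomial.aeval_def, Polynomial.eval₂_map, htoE']
      exact hy
    rw [h1, h2]
    exact Nat.mul_le_mul le_rfl h3
  -- the hom
  let yI : v.integer := ⟨y, (Valuation.mem_integer_iff v y).mpr hy1⟩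
  let t : SQuot v γ hγ := Ideal.Quotient.mk _ yI
  have ht : D.R.eval₂ η₁ t = 0 := by
    rw [← Polynomial.eval_map, ← hR'map, Polynomial.eval_map]
    have hcomp : toS v γ hγ E' = (Ideal.Quotient.mk (aIdeal v γ hγ)).comp (incl v E') := rfl
    rw [hcomp]
    show R'.eval₂ ((Ideal.Quotient.mk (aIdeal v γ hγ)).comp (incl v E'))
      ((Ideal.Quotient.mk (aIdeal v γ hγ)) yI) = 0
    rw [← Polynomial.hom_eval₂]
    have h0 : R'.eval₂ (incl v E') yI = 0 := by
      apply Subtype.ext
      have := Polynomial.hom_eval₂ R' (incl v E') v.integer.subtype yI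
      rw [Subring.coe_subtype] at this
      rw [this]
      exact hy
    rw [h0, map_zero]
  refine ⟨E, hE'E, hfinE, hrank, D.lift η₁ t ht, fun x => ?_, fun a b hab => ?_⟩
  · refine D.lift_mem η₁ t ht _ (fun a => toS_range_mono v hE'E (hη₁ a)) ?_ x
    exact ⟨⟨y, (mem_intRing v).mpr ⟨hyE, hy1⟩⟩, rfl⟩
  · exact D.lift_of η₁ t ht a b hab


/-- **Step 4.**  (P_m) for `L`; `𝒪_{L'} = 𝒪_F[z]` with minimal polynomial `Q = D₀.R`;
`𝒪_L = 𝒪_{L'}[Π]` with minimal polynomial `D.R`; `z' ∈ 𝒪_{E'}` an approximate root,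
`v (Q(z')) < γ` (Step 2); degrees `[E' : F] deg R ≤ [L : F]`.  Then `E' ≤ L`. -/
theorem kummerTwist_le [IsAlgClosed Ω] {γ : Γ₀} (hγ : γ ≠ 0) (hγ1 : γ ≤ 1)
    {L' L E' : IntermediateField F Ω} [FiniteDimensional F E'] [FiniteDimensional F L]
    (hP : PProp v γ hγ L)
    (D₀ : MonoData (intRing v (⊥ : IntermediateField F Ω)) (intRing v L'))
    (D : MonoData (intRing v L') (intRing v L)) (hdeg : 0 < D.R.natDegree)
    (z' : Ω) (hz'E : z' ∈ E') (hz'1 : v z' ≤ 1)
    (hQz' : v (D₀.R.eval₂ (intRing v (⊥ : IntermediateField F Ω)).subtype z') < γ)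
    (hfin : Module.finrank F E' * D.R.natDegree ≤ Module.finrank F L) :
    E' ≤ L := by
  classical
  let zI : intRing v E' := ⟨z', (mem_intRing v).mpr ⟨hz'E, hz'1⟩⟩
  let t : SQuot v γ hγ := toS v γ hγ E' zI
  -- the hom `η₁ : 𝒪_{L'} → S`, `z ↦ z'`
  have ht : D₀.R.eval₂ (toS v γ hγ (⊥ : IntermediateField F Ω)) t = 0 := by
    have hcomp : toS v γ hγ (⊥ : IntermediateField F Ω) =
        (toS v γ hγ E').comp (Subring.inclusion (intRing_mono v (bot_le : ⊥ ≤ E'))) :=
      RingHom.ext fun a => toS_eq_of_coe_eq v _ _ rfl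
    rw [hcomp]
    show D₀.R.eval₂ ((toS v γ hγ E').comp (Subring.inclusion (intRing_mono v (bot_le : ⊥ ≤ E'))))
      (toS v γ hγ E' zI) = 0
    rw [← Polynomial.hom_eval₂, toS_eq_zero_iff]
    have := Polynomial.hom_eval₂ D₀.R (Subring.inclusion (intRing_mono v (bot_le : ⊥ ≤ E')))
      (intRing v E').subtype zI
    rw [Subring.coe_subtype] at this
    rw [this]
    exact hQz'
  let η₁ : intRing v L' →+* SQuot v γ hγ := D₀.lift (toS v γ hγ ⊥) t ht
  have hη₁ : ∀ x, η₁ x ∈ (toS v γ hγ E').range := fun x =>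
    D₀.lift_mem _ t ht _ (fun a => toS_range_mono v bot_le ⟨a, rfl⟩) ⟨zI, rfl⟩ x
  obtain ⟨E, hE'E, hfinE, hrank, η, hηE, hηη₁⟩ := exists_extension v hγ hγ1 D hdeg η₁ hη₁
  have hLE : L ≤ E := by
    refine hP E hfinE η hηE fun x a hxa => ?_
    have haL' : (a : Ω) ∈ intRing v L' := intRing_mono v bot_le a.2
    rw [hηη₁ ⟨(a : Ω), haL'⟩ x hxa]
    exact D₀.lift_of _ t ht a ⟨(a : Ω), haL'⟩ rfl
  have hEL : L = E :=
    IntermediateField.eq_of_le_of_finrank_le hLE (hrank.trans hfin)
  rw [hEL]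
  exact hE'E

end Fermat.Agent.GP.Flat.KummerTwistExt
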