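/-
GATE-P (S56 long shot) / [P-FLAT](iv) HEDGE, assembly of Step 2 + Steps 3–4 (helper99).

`kummerTwist_mem_caseB / caseA` : in the abstract setting of `KummerTwistExt` (intermediate fields
`F ≤ L' ≤ L` of one algebraically closed valued field `Ω`, `F` = unramified base), Fontaine's (P_m)
for `L` + monogenicity of `𝒪_{L'}/𝒪_F` (generator the Kummer uniformiser `z`, root list of its
minimal polynomial) and of `𝒪_L/𝒪_{L'}` + the Kummer depth hypothesis `v p < v (w - 1) ^ p`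
force the twisting element `ν` (any `ν` with `v (ν - 1) ≤ v (ζ - 1)`, `K(wν)` of degree at most
`[L':F]` over `F`) to lie in `L`.  Applied to a `p`-th root `ν` of an unramified Kummer class this
contradicts `L/K` totally ramified: so the depth hypothesis fails, i.e. `u₀ ∈ (1 + p𝒪_K)(K^×)^p`.

`pProp_of_mono` : the ring-hom form `PProp` of (P_m) follows from the MONOGENIC form (an integral
`β` with `v (P(β)) < γ`, `P` the minimal polynomial of a generator `Π` of `𝒪_L` over `𝒪_F`, forces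
`L ≤ F(β)`), which is the shape pinned by helper15 (board 4059).
Mathlib only.
-/
import Fermat.Agent.GP.Flat.KummerTwist
import Fermat.Agent.GP.Flat.KummerTwistExt

set_option autoImplicit false

namespace Fermat.Agent.GP.Flat.KummerTwistMain

open Polynomial IntermediateField
open Fermat.Agent.GP.Flat.KummerTwist Fermat.Agent.GP.Flat.KummerTwistExt

variable {F Ω : Type*} [Field F] [Field Ω] [Algebra F Ω]
  {Γ₀ : Type*} [LinearOrderedCommGroupWithZero Γ₀] (v : Valuation Ω Γ₀)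

/-- The threshold `γ = v p * v (ζ - 1)` is nonzero and `≤ 1`. -/
theorem gamma_ne_zero {p : ℕ} (hp : 2 ≤ p) (hp0 : (p : Ω) ≠ 0) {ζ : Ω}
    (hlam : v (ζ - 1) ^ (p - 1) = v (p : Ω)) : v (p : Ω) * v (ζ - 1) ≠ 0 := by
  have hP : v (p : Ω) ≠ 0 := (Valuation.ne_zero_iff v).mpr hp0
  refine mul_ne_zero hP fun h => ?_
  rw [h, zero_pow (by omega)] at hlam
  exact hP hlam.symm

theorem gamma_le_one {p : ℕ} (hp : 2 ≤ p) {ζ : Ω} (hζ : ζ ^ p = 1) (hp1 : v (p : Ω) ≤ 1) :
    v (p : Ω) * v (ζ - 1) ≤ 1 := by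
  have hζ1 : v ζ = 1 := val_eq_one_of_pow_eq_one v (by omega) hζ
  have hL1 : v (ζ - 1) ≤ 1 := by
    refine (v.map_sub _ _).trans (max_le hζ1.le ?_)
    rw [map_one]
  calc v (p : Ω) * v (ζ - 1) ≤ 1 * 1 := mul_le_mul' hp1 hL1
    _ = 1 := one_mul _

/-- **Assembly, case (B).** -/
theorem kummerTwist_le_caseB [IsAlgClosed Ω] {p : ℕ} (hp : 2 ≤ p) (hp0 : (p : Ω) ≠ 0)
    (hp1 : v (p : Ω) ≤ 1) {ζ w ν π : Ω} (hζ : ζ ^ p = 1)
    (hlam : v (ζ - 1) ^ (p - 1) = v (p : Ω))
    (hw : v w = 1) (hν : v (ν - 1) ≤ v (ζ - 1)) (hdeep : v (p : Ω) < v (w - 1) ^ p)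
    (A : ℕ) (B : ℤ) (hπ : v π ^ B * v (w - 1) ^ (A + 1) ≤ 1)
    {L' L E' : IntermediateField F Ω} [FiniteDimensional F E'] [FiniteDimensional F L]
    (hP : PProp v (v (p : Ω) * v (ζ - 1)) (gamma_ne_zero v hp hp0 hlam) L)
    (D₀ : MonoData (intRing v (⊥ : IntermediateField F Ω)) (intRing v L'))
    (D : MonoData (intRing v L') (intRing v L)) (hdeg : 0 < D.R.natDegree)
    {ι : Type*} [Fintype ι] [DecidableEq ι] (r : ι → Ω)
    (hroots : D₀.R.map (intRing v (⊥ : IntermediateField F Ω)).subtype = ∏ i, (X - C (r i)))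
    (g : Fin p → ι) (hg : Function.Injective g)
    (hrg : ∀ j : Fin p, r (g j) = (ζ ^ (j : ℕ) * w - 1) ^ (A + 1) * π ^ B)
    (hr : ∀ i, v (r i) ≤ v (w - 1) ^ (A + 1) * v π ^ B)
    (hcard : (v (w - 1) ^ (A + 1) * v π ^ B) ^ Fintype.card ι = v (p : Ω))
    (hz'E : (w * ν - 1) ^ (A + 1) * π ^ B ∈ E')
    (hfin : Module.finrank F E' * D.R.natDegree ≤ Module.finrank F L) :
    E' ≤ L := by
  have hζ1 : v ζ = 1 := val_eq_one_of_pow_eq_one v (by omega) hζ
  have hlt : v (ζ - 1) < v (w - 1) := val_lam_lt_of_deep v hp hζ1 hlam hdeep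
  have hz'1 : v ((w * ν - 1) ^ (A + 1) * π ^ B) ≤ 1 := by
    rw [map_mul, map_pow, map_zpow₀, val_twist_sub_one v hw hν hlt, mul_comm]
    exact hπ
  refine kummerTwist_le v (gamma_ne_zero v hp hp0 hlam) (gamma_le_one v hp hζ hp1) hP D₀ D hdeg
    _ hz'E hz'1 ?_ hfin
  rw [← Polynomial.eval_map, hroots, eval_prod_X_sub_C]
  exact val_prod_twist_lt_caseB v hp hp0 hζ hlam hw hν hdeep A B r g hg hrg hr hcard

/-- **Assembly, case (A).** -/
theorem kummerTwist_le_caseA [IsAlgClosed Ω] {p : ℕ} (hp : 2 ≤ p) (hp0 : (p : Ω) ≠ 0)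
    (hp1 : v (p : Ω) < 1) {ζ w ν π : Ω} (hζ : ζ ^ p = 1)
    (hlam : v (ζ - 1) ^ (p - 1) = v (p : Ω)) (hν : v (ν - 1) ≤ v (ζ - 1))
    (A : ℕ) (B : ℤ) (hπ : v w ^ (A + 1) * v π ^ B ≤ 1)
    {L' L E' : IntermediateField F Ω} [FiniteDimensional F E'] [FiniteDimensional F L]
    (hP : PProp v (v (p : Ω) * v (ζ - 1)) (gamma_ne_zero v hp hp0 hlam) L)
    (D₀ : MonoData (intRing v (⊥ : IntermediateField F Ω)) (intRing v L'))
    (D : MonoData (intRing v L') (intRing v L)) (hdeg : 0 < D.R.natDegree)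
    {ι : Type*} [Fintype ι] [DecidableEq ι] (r : ι → Ω)
    (hroots : D₀.R.map (intRing v (⊥ : IntermediateField F Ω)).subtype = ∏ i, (X - C (r i)))
    (g : Fin p → ι) (hg : Function.Injective g)
    (hrg : ∀ j : Fin p, r (g j) = (ζ ^ (j : ℕ) * w) ^ (A + 1) * π ^ B)
    (hr : ∀ i, v (r i) ≤ v w ^ (A + 1) * v π ^ B)
    (hcard : (v w ^ (A + 1) * v π ^ B) ^ Fintype.card ι = v (p : Ω))
    (hz'E : (w * ν) ^ (A + 1) * π ^ B ∈ E')
    (hfin : Module.finrank F E' * D.R.natDegree ≤ Module.finrank F L) :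
    E' ≤ L := by
  have hζ1 : v ζ = 1 := val_eq_one_of_pow_eq_one v (by omega) hζ
  have hL1 : v (ζ - 1) ≤ 1 := by
    refine (v.map_sub _ _).trans (max_le hζ1.le ?_)
    rw [map_one]
  have hν1 : v ν ≤ 1 := by
    have h : ν = (ν - 1) + 1 := by ring
    rw [h]
    refine (v.map_add _ _).trans (max_le (hν.trans hL1) ?_)
    rw [map_one]
  have hz'1 : v ((w * ν) ^ (A + 1) * π ^ B) ≤ 1 := by
    rw [map_mul, map_pow, map_zpow₀, map_mul, mul_pow, mul_assoc, mul_comm (v ν ^ (A + 1)),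
      ← mul_assoc]
    calc v w ^ (A + 1) * v π ^ B * v ν ^ (A + 1) ≤ 1 * 1 :=
          mul_le_mul' hπ (pow_le_one' hν1 _)
      _ = 1 := one_mul _
  refine kummerTwist_le v (gamma_ne_zero v hp hp0 hlam) (gamma_le_one v hp hζ hp1.le) hP D₀ D hdeg
    _ hz'E hz'1 ?_ hfin
  rw [← Polynomial.eval_map, hroots, eval_prod_X_sub_C]
  exact val_prod_twist_lt_caseA v hp hp0 hp1 hζ hlam hν A B r g hg hrg hr hcard


/-- The generator of a `MonoData` is a root of its polynomial. -/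
theorem monoData_eval₂_gen {A B : Subring Ω} (D : MonoData A B) (hAB : A ≤ B) :
    D.R.eval₂ (Subring.inclusion hAB) (D.e (AdjoinRoot.root D.R)) = 0 := by
  have h1 : (Subring.inclusion hAB) = (D.e : AdjoinRoot D.R →+* B).comp (AdjoinRoot.of D.R) :=
    RingHom.ext fun a => Subtype.ext (D.e_of a).symm
  rw [h1]
  have h2 := Polynomial.hom_eval₂ D.R (AdjoinRoot.of D.R) (D.e : AdjoinRoot D.R →+* B)
    (AdjoinRoot.root D.R)
  rw [AdjoinRoot.eval₂_root, map_zero] at h2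
  exact h2.symm

theorem monoData_le {A B : Subring Ω} (D : MonoData A B) : A ≤ B := fun a ha => by
  have h : ((D.e (AdjoinRoot.of D.R ⟨a, ha⟩) : B) : Ω) = a := D.e_of ⟨a, ha⟩
  rw [← h]
  exact (D.e _).2

/-- **(P_m), monogenic form ⟹ ring-hom form.**  If `𝒪_L = 𝒪_F[Π]` with minimal polynomial `P`, and
every integral `β` with `v (P(β)) < γ` satisfies `L ≤ F(β)` (helper15's pinned shape of (P_m)),
then `PProp v γ hγ L`. -/
theorem pProp_of_mono {γ : Γ₀} (hγ : γ ≠ 0) {L : IntermediateField F Ω}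
    (DL : MonoData (intRing v (⊥ : IntermediateField F Ω)) (intRing v L))
    (hmono : ∀ β : Ω, v β ≤ 1 →
      v (DL.R.eval₂ (intRing v (⊥ : IntermediateField F Ω)).subtype β) < γ → L ≤ F⟮β⟯) :
    PProp v γ hγ L := by
  intro E _ η hηE hηF
  obtain ⟨b, hb⟩ := hηE (DL.e (AdjoinRoot.root DL.R))
  have hbE : (b : Ω) ∈ E := ((mem_intRing v).mp b.2).1
  have hb1 : v (b : Ω) ≤ 1 := ((mem_intRing v).mp b.2).2
  refine (hmono (b : Ω) hb1 ?_).trans (adjoin_simple_le_iff.mpr hbE)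
  have hbotE : intRing v (⊥ : IntermediateField F Ω) ≤ intRing v E := intRing_mono v bot_le
  -- evaluate in `𝒪_E`, push to `S`
  have h1 : ((DL.R.eval₂ (Subring.inclusion hbotE) b : intRing v E) : Ω) =
      DL.R.eval₂ (intRing v (⊥ : IntermediateField F Ω)).subtype (b : Ω) := by
    have := Polynomial.hom_eval₂ DL.R (Subring.inclusion hbotE) (intRing v E).subtype b
    rw [Subring.coe_subtype] at this
    rw [this]
    rfl
  rw [← h1, ← toS_eq_zero_iff v (γ := γ) (hγ := hγ), Polynomial.hom_eval₂, hb]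
  have hcomp : (toS v γ hγ E).comp (Subring.inclusion hbotE) =
      η.comp (Subring.inclusion (monoData_le DL)) := RingHom.ext fun a => by
    rw [RingHom.comp_apply, RingHom.comp_apply, hηF (Subring.inclusion (monoData_le DL) a) a rfl]
    exact toS_eq_of_coe_eq v _ _ rfl
  rw [hcomp, ← Polynomial.hom_eval₂, monoData_eval₂_gen DL (monoData_le DL), map_zero]


/-- `MonoData` from a power basis (e.g. `helper87`'s `Monogenic.powerBasisOfCoord`) of `B` over `A`
for the inclusion algebra structure. -/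
noncomputable def monoDataOfPowerBasis {A B : Subring Ω} (hAB : A ≤ B)
    (pb : @PowerBasis A B _ _ (Subring.inclusion hAB).toAlgebra) : MonoData A B :=
  letI : Algebra A B := (Subring.inclusion hAB).toAlgebra
  { R := minpoly A pb.gen
    monic := minpoly.monic pb.isIntegral_gen
    e := (AdjoinRoot.equiv' (minpoly A pb.gen) pb
      (by rw [AdjoinRoot.aeval_eq, AdjoinRoot.mk_self]) (minpoly.aeval A pb.gen)).toRingEquiv
    e_of := fun a => by
      have h := (AdjoinRoot.equiv' (minpoly A pb.gen) pb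
        (by rw [AdjoinRoot.aeval_eq, AdjoinRoot.mk_self]) (minpoly.aeval A pb.gen)).commutes a
      rw [AdjoinRoot.algebraMap_eq] at h
      show ((AdjoinRoot.equiv' (minpoly A pb.gen) pb _ _ (AdjoinRoot.of _ a) : B) : Ω) = a
      rw [h]
      rfl }

end Fermat.Agent.GP.Flat.KummerTwistMain
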