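/-
GATE-P / S56 [P-FLAT] node S56-FLAT-LOCALCOND, file 3 (helper90): from the ordinary SHAPE of
`ρbar` at a place `A` (`FlatLocalCond.OrdShape`, an intrinsic statement about `ρbar.V`) to the
MATRIX binders of the ordinary count (helper47 `OrdLocal` / helper93 `OrdPlug`):

* `exists_gl_of_ordShape` : a matrix `g ∈ GL₂(k)` whose first column spans `(I_A - 1) k²` in the
  coordinates of a basis `b` of `ρbar.V` (the binders `hline`, `hg` of
  `ConnEt.exists_mem_ZB_of_flat` for every lift `t` with `rfst t = toMatRes ρbar b`).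
-/
import Mathlib
import Fermat.Agent.GP.Flat.FlatLocalCond
import Fermat.Agent.GP.Flat.OrdCocycle

set_option autoImplicit false

open Module

namespace Fermat.Agent.GP.Flat.OrdShapeToMat

open Fermat.Agent.GP.Flat.Cases Fermat.Agent.GP.Flat.FlatLocalCond
  Fermat.Agent.S53_helper35 Fermat.Agent.GP.Flat.OrdCocycle

variable {k : Type} [Field k]

/-- a nonzero vector of `k²` is the first column of an invertible matrix. -/
theorem exists_gl_gcol_zero_eq {c : Fin 2 → k} (hc : c ≠ 0) :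
    ∃ g : GL (Fin 2) k, gcol g 0 = c := by
  by_cases h0 : c 0 = 0
  · have h1 : c 1 ≠ 0 := by
      intro h1
      apply hc
      funext i
      fin_cases i
      · exact h0
      · exact h1
    have hdet : (!![c 0, 1; c 1, 0] : Matrix (Fin 2) (Fin 2) k).det ≠ 0 := by
      rw [Matrix.det_fin_two_of]
      simpa using h1
    refine ⟨Matrix.GeneralLinearGroup.mkOfDetNeZero _ hdet, ?_⟩
    funext i
    fin_cases i <;> rfl
  · have hdet : (!![c 0, 0; c 1, 1] : Matrix (Fin 2) (Fin 2) k).det ≠ 0 := by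
      rw [Matrix.det_fin_two_of]
      simpa using h0
    refine ⟨Matrix.GeneralLinearGroup.mkOfDetNeZero _ hdet, ?_⟩
    funext i
    fin_cases i <;> rfl

variable (ρbar : ResidualGaloisRep k) (b : Module.Basis (Fin 2) k ρbar.V)

/-- the matrix of `ρbar σ` acts on coordinates. -/
theorem toMatRes_mulVec_equivFun (σ : AlgebraicClosure ℚ ≃ₐ[ℚ] AlgebraicClosure ℚ) (v : ρbar.V) :
    (toMatRes ρbar b σ).mulVec (b.equivFun v) = b.equivFun (ρbar.ρ σ v) := by
  rw [toMatRes_apply]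
  exact LinearMap.toMatrix_mulVec_repr b b (ρbar.ρ σ) v

/-- **matrix form of the ordinary shape**: there is `g ∈ GL₂(k)` whose first column spans
`(I_A - 1) k²` in the coordinates of `b`. -/
theorem exists_gl_of_ordShape (A : ValuationSubring (AlgebraicClosure ℚ)) (h : OrdShape ρbar A) :
    ∃ g : GL (Fin 2) k,
      (∀ σ ∈ A.inertiaSubgroupIn ℚ, ∀ w : Fin 2 → k, ∃ c : k,
        (toMatRes ρbar b σ).mulVec w - w = c • gcol g 0) ∧
      (∃ σ₀ ∈ A.inertiaSubgroupIn ℚ, ∃ w₀ : Fin 2 → k,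
        (toMatRes ρbar b σ₀).mulVec w₀ - w₀ = gcol g 0) := by
  obtain ⟨h1, -, -, -⟩ := h
  -- a nonzero generator `ρ s₀ v₀ - v₀`
  have hne : aug ρbar.ρ A ≠ ⊥ := by
    intro hbot
    rw [hbot, finrank_bot] at h1
    exact zero_ne_one h1
  obtain ⟨s₀, hs₀, v₀, hv₀⟩ : ∃ s₀ ∈ A.inertiaSubgroupIn ℚ, ∃ v₀ : ρbar.V,
      ρbar.ρ s₀ v₀ - v₀ ≠ 0 := by
    by_contra hcon
    apply hne
    rw [eq_bot_iff]
    refine aug_le ρbar.ρ fun s hs v => ?_
    by_cases h0 : ρbar.ρ s v - v = 0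
    · rw [h0]
      exact Submodule.zero_mem _
    · exact absurd ⟨s, hs, v, h0⟩ hcon
  set u₀ : ρbar.V := ρbar.ρ s₀ v₀ - v₀ with hu₀
  have hu₀mem : u₀ ∈ aug ρbar.ρ A := sub_mem_aug ρbar.ρ hs₀ v₀
  have hspan : ∀ x ∈ aug ρbar.ρ A, ∃ c : k, c • u₀ = x := by
    intro x hx
    obtain ⟨c, hc⟩ := (finrank_eq_one_iff_of_nonzero' (⟨u₀, hu₀mem⟩ : aug ρbar.ρ A)
      (fun h0 => hv₀ (congrArg Subtype.val h0))).1 h1 ⟨x, hx⟩
    exact ⟨c, congrArg Subtype.val hc⟩
  -- coordinates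
  have hcol : b.equivFun u₀ ≠ 0 := by
    intro h0
    exact hv₀ (b.equivFun.map_eq_zero_iff.1 h0)
  obtain ⟨g, hg⟩ := exists_gl_gcol_zero_eq (k := k) hcol
  refine ⟨g, fun σ hσ w => ?_, s₀, hs₀, b.equivFun v₀, ?_⟩
  · obtain ⟨c, hc⟩ := hspan _ (sub_mem_aug ρbar.ρ hσ (b.equivFun.symm w))
    refine ⟨c, ?_⟩
    have e1 := toMatRes_mulVec_equivFun ρbar b σ (b.equivFun.symm w)
    rw [LinearEquiv.apply_symm_apply] at e1
    rw [hg, e1, ← map_smul, hc, map_sub, LinearEquiv.apply_symm_apply]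
  · rw [hg, toMatRes_mulVec_equivFun, ← map_sub]

end Fermat.Agent.GP.Flat.OrdShapeToMat
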