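/-
GATE-P (S56) / [P-FLAT] node S56-FLAT-ORD-LOCALCOND (helper90) = part (c) of the ORD branch
(helper47 board 4403/4439).

**The ORDINARY branch of the flat local condition at `p`** in helper35's `LocalCond` contract:

  `OrdShape ρbar (padicPlace p) → LocalCond ρbar b p N emb p (DetIsCyclotomic ∧ IsFlatAt) d`

on helper44's `OrdHlcCond.localCond_of_ZB_of_exists` with
`ZB' := OrdLocalGen.ZBg (padicPlace p) r̄ g (OrdBdd.BddN (padicPlace p) p hζ)` (helper47, with the
finite-level consumer form `OrdKb.KBsub` of the Kummer-depth bound), the basis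
`g` from `OrdShapeToMat.exists_gl_of_ordShape`, ordinarity of flat lifts from helper93's
`ConnEt.isOrdinaryAt_ofMat_of_isFlatAt_of_one`.

Remaining binders (both named by helper47):
* `hKB` : the Kummer-depth bound (iv) `KBsub P p (kerMu P p t)` for every flat lift `t` of `r̄` with
  cyclotomic determinant (helper14 KBQB / KbOrd);
* `hN`  : the `N`-valued members of `ZBg … BddN` embed into `k²` (helper47 `OrdN.hN_of_gen`), for
  every `g` with the listed properties (all of them are given to the supplier).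
-/
import Fermat.Agent.GP.Flat.OrdHlcCond
import Fermat.Agent.GP.Flat.OrdKb
import Fermat.Agent.GP.Flat.OrdShapeToMat
import Fermat.Agent.GP.Flat.ConnEt.OrdPlug
import Fermat.Agent.GP.Tan.CondIsEquiv
import Fermat.Agent.GP.Loc.GlobH0
import Fermat.Agent.GP.Loc.PadicPlace

set_option autoImplicit false
set_option linter.unusedSectionVars false

namespace Fermat.Agent.GP.Flat.OrdLocalCond

open IsLocalRing Fermat.Agent.S53_helper35 Matrix Module Fermat.Agent.GP.Tan.Cocycle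
  Fermat.Agent.GC.Prof Fermat.Agent.GC.Places Fermat.Agent.GC.Local.KR
  Fermat.Agent.GP.Core Fermat.Agent.GP.Flat.SSHlcPinned Fermat.Agent.GP.Flat.SSHlcCond
  Fermat.Agent.GP.Loc.StrictOrdDim Fermat.Agent.GP.Flat.OrdCount Fermat.Agent.GP.Flat.OrdCocycle
  Fermat.Agent.GP.Flat.OrdLocal Fermat.Agent.GP.Flat.OrdLocalGen Fermat.Agent.GP.Flat.OrdFrame
  Fermat.Agent.GP.Flat.OrdBdd Fermat.Agent.GP.Flat.OrdKb Fermat.Agent.GP.Flat.OrdHlcCond
  Fermat.Agent.GP.Flat.FlatLocalCond Fermat.Agent.GP.Flat.OrdShapeToMat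

local notation "Qb" => AlgebraicClosure ℚ

/-! ### finiteness of `ZBg` from `hN` -/

section Fin

variable {k : Type} [Field k] (P : ValuationSubring Qb)
  (r : GQ →* Matrix (Fin 2) (Fin 2) k) (g : GL (Fin 2) k) (W : Submodule k (DP P → k))

/-- `ZBg` is finite-dimensional as soon as its `N`-valued members embed into `k²`
(the internal step `hfinZB` of `OrdLocalGen.card_Lmax_le`, exported). -/
theorem finite_ZBg {q : ℕ} (hq : q.Prime) (hA : (q : Qb) ∈ P.nonunits)
    (hut : ∀ σ : DP P, conjBy g (rD P r) σ 1 0 = 0)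
    (hN : ∃ ℓ : ↥(ZBg P r g W ⊓ LinearMap.ker (LinearMap.fst k (DP P → k) (DP P → k))) →ₗ[k]
      (Fin 2 → k), Function.Injective ℓ) :
    Module.Finite k (ZBg P r g W) := by
  obtain ⟨ℓ, hℓ⟩ := hN
  obtain ⟨hfin1, -⟩ := finrank_map_fst_ZBg_le_one P r g W hq hA hut
  have hfinN : Module.Finite k
      ↥(ZBg P r g W ⊓ LinearMap.ker (LinearMap.fst k (DP P → k) (DP P → k))) :=
    Module.Finite.of_injective ℓ hℓ
  set F : ZBg P r g W →ₗ[k] (DP P → k) :=
    (LinearMap.fst k (DP P → k) (DP P → k)) ∘ₗ (ZBg P r g W).subtype with hF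
  have hr : LinearMap.range F = (ZBg P r g W).map (LinearMap.fst k (DP P → k) (DP P → k)) := by
    rw [hF, LinearMap.range_comp, Submodule.range_subtype]
  have hin : ∀ x : LinearMap.ker F, ((x : ZBg P r g W) : (DP P → k) × (DP P → k)) ∈
      ZBg P r g W ⊓ LinearMap.ker (LinearMap.fst k (DP P → k) (DP P → k)) := by
    rintro ⟨⟨x, hx⟩, hx'⟩
    exact ⟨hx, LinearMap.mem_ker.1 hx'⟩
  let ι : LinearMap.ker F →ₗ[k]
      ↥(ZBg P r g W ⊓ LinearMap.ker (LinearMap.fst k (DP P → k) (DP P → k))) :=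
    ((ZBg P r g W).subtype ∘ₗ (LinearMap.ker F).subtype).codRestrict _ hin
  have hι : Function.Injective ι := by
    intro x y hxy
    have h := congrArg Subtype.val hxy
    have h' : ((x : ZBg P r g W) : (DP P → k) × (DP P → k)) =
        ((y : ZBg P r g W) : (DP P → k) × (DP P → k)) := h
    exact Subtype.ext (Subtype.ext h')
  have hk : Module.Finite k (LinearMap.ker F) := Module.Finite.of_injective ι hι
  have hq' : Module.Finite k (ZBg P r g W ⧸ LinearMap.ker F) := by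
    have e := F.quotKerEquivRange
    have : Module.Finite k (LinearMap.range F) := by rw [hr]; exact hfin1
    exact Module.Finite.equiv e.symm
  exact Module.Finite.of_submodule_quotient (LinearMap.ker F)

end Fin

/-! ### the ordinary branch -/

section Contract

variable {𝒪 : Type} [CommRing 𝒪] [IsLocalRing 𝒪]
  (ρbar : ResidualGaloisRep (ResidueField 𝒪))
  (b : Module.Basis (Fin 2) (ResidueField 𝒪) ρbar.V)
  (p : ℕ) [Fact p.Prime]
  {N : Rep (ZMod p) S53_helper35.GQ}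
  {emb : N →+ Matrix (Fin 2) (Fin 2) (ResidueField 𝒪)}
  [IsDiscrete (levelQ p) (Rep.res (localGaloisToGlobal p) N)]

/-- `det r̄ = 1` on `ordG = I_P ∩ Fix(μ_p)` (frozen `DetIsCyclotomic` at `n = 1`, `a = 1`). -/
theorem det_toMatRes_eq_one_of_mem_ordG
    (hdet : (GaloisRepAdic.ofResidualGaloisRep ρbar).DetIsCyclotomic p)
    (P : ValuationSubring Qb) (σ : DP P) (hσ : σ ∈ ordG P p) :
    (toMatRes ρbar b (σ : GQ)).det = 1 := by
  have h := Fermat.Agent.GP.Loc.GlobH0.det_eq_natCast ρbar p hdet (σ : GQ) 1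
    (fun μ hμ => by rw [pow_one]; exact hσ.2 μ hμ)
  rw [toMatRes_apply, LinearMap.det_toMatrix, h, Nat.cast_one]

/-- **S56-FLAT-ORD-LOCALCOND.**  The ordinary branch of the flat local condition at `p`. -/
theorem localCond_ord [Finite (ResidueField 𝒪)] (hp2 : p ≠ 2)
    (hdet : (GaloisRepAdic.ofResidualGaloisRep ρbar).DetIsCyclotomic p)
    (h : GlobModel N (toMatRes ρbar b) emb)
    {ζ : Qb} (hζ : IsPrimitiveRoot ζ p)
    (d : ℕ) (hk : Nat.card (ResidueField 𝒪) = p ^ d)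
    (hKB : ∀ (t : GQ →* Matrix (Fin 2) (Fin 2) (DualNumber (ResidueField 𝒪))) (ht : MatCont t),
      rfst t = toMatRes ρbar b → (ofMat t ht).DetIsCyclotomic p → (ofMat t ht).IsFlatAt p →
      KBsub (padicPlace p) p (kerMu (padicPlace p) p t))
    (hN : ∀ g : GL (Fin 2) (ResidueField 𝒪),
      (∀ σ ∈ (padicPlace p).inertiaSubgroupIn ℚ, ∀ w : Fin 2 → ResidueField 𝒪,
        ∃ c : ResidueField 𝒪, (toMatRes ρbar b σ).mulVec w - w = c • gcol g 0) →
      (∃ σ₀ ∈ (padicPlace p).inertiaSubgroupIn ℚ, ∃ w₀ : Fin 2 → ResidueField 𝒪,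
        (toMatRes ρbar b σ₀).mulVec w₀ - w₀ = gcol g 0) →
      (∀ σ : DP (padicPlace p), conjBy g (rD (padicPlace p) (toMatRes ρbar b)) σ 1 0 = 0) →
      (∀ σ : DP (padicPlace p), (σ : GQ) ∈ (padicPlace p).inertiaSubgroupIn ℚ →
        conjBy g (rD (padicPlace p) (toMatRes ρbar b)) σ 1 1 = 1) →
      (∀ σ ∈ ordG (padicPlace p) p,
        conjBy g (rD (padicPlace p) (toMatRes ρbar b)) σ 0 0 = 1) →
      (∃ L : IntermediateField ℚ Qb, FiniteDimensional ℚ L ∧
        ∀ s : GQ, (∀ y ∈ L, s y = y) → toMatRes ρbar b s = 1) →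
      KBsub (padicPlace p) p (kerMu (padicPlace p) p (toMatRes ρbar b)) →
      ∃ ℓ : ↥(ZBg (padicPlace p) (toMatRes ρbar b) g (BddN (padicPlace p) p hζ) ⊓
          LinearMap.ker (LinearMap.fst (ResidueField 𝒪) (DP (padicPlace p) → ResidueField 𝒪)
            (DP (padicPlace p) → ResidueField 𝒪))) →ₗ[ResidueField 𝒪]
          (Fin 2 → ResidueField 𝒪), Function.Injective ℓ)
    (hord : OrdShape ρbar (padicPlace p)) :
    LocalCond ρbar b p N emb p (fun ρ => ρ.DetIsCyclotomic p ∧ ρ.IsFlatAt p) d := by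
  classical
  have hpr : p.Prime := Fact.out
  have hPl : (padicPlace p).LiesOverPrime p :=
    Fermat.Agent.GP.Loc.PadicPlace.padicPlace_liesOverPrime p
  have hchar : CharP (ResidueField 𝒪) p :=
    Fermat.Agent.GP.Flat.CasesFrozen.charP_of_detIsCyclotomic ρbar p hdet
  have h2 : (2 : ResidueField 𝒪) ≠ 0 :=
    Fermat.Agent.GP.Loc.GlobH0.two_ne_zero_of_detIsCyclotomic ρbar p hp2 hdet
  have hp3 : 3 ≤ p := by
    have := hpr.two_le
    omega
  obtain ⟨g, hline, hg⟩ := exists_gl_of_ordShape ρbar b (padicPlace p) hord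
  have hdet1 : ∀ σ ∈ ordG (padicPlace p) p, (toMatRes ρbar b (σ : GQ)).det = 1 :=
    fun σ hσ => det_toMatRes_eq_one_of_mem_ordG ρbar b p hdet _ σ hσ
  -- the per-lift statement
  have hlift : ∀ (t : GQ →* Matrix (Fin 2) (Fin 2) (DualNumber (ResidueField 𝒪)))
      (ht : MatCont t), rfst t = toMatRes ρbar b →
      (∃ ρ : GaloisRepAdic (DualNumber (ResidueField 𝒪)),
        (ρ.DetIsCyclotomic p ∧ ρ.IsFlatAt p) ∧ ρ.IsEquiv (ofMat t ht)) →
      (∀ σ : DP (padicPlace p), conjBy g (rD (padicPlace p) (toMatRes ρbar b)) σ 1 0 = 0) ∧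
      (∀ σ : DP (padicPlace p), (σ : GQ) ∈ (padicPlace p).inertiaSubgroupIn ℚ →
        conjBy g (rD (padicPlace p) (toMatRes ρbar b)) σ 1 1 = 1) ∧
      ∃ (X : Matrix (Fin 2) (Fin 2) (ResidueField 𝒪))
        (x : (DP (padicPlace p) → ResidueField 𝒪) × (DP (padicPlace p) → ResidueField 𝒪)),
        X.trace = 0 ∧
        x ∈ ZBg (padicPlace p) (toMatRes ρbar b) g (BddN (padicPlace p) p hζ) ∧
        ∀ σ : DP (padicPlace p), tanCocycle t (σ : GQ) =
          bval g x σ + cob (rD (padicPlace p) (toMatRes ρbar b)) X σ := by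
    rintro t ht hfst ⟨ρ, ⟨hρdet, hρflat⟩, hρe⟩
    have hdet' : (ofMat t ht).DetIsCyclotomic p := detIsCyclotomic_of_isEquiv hρe hρdet
    have hflat' : (ofMat t ht).IsFlatAt p :=
      Fermat.Agent.GP.Tan.isFlatAt_of_isEquiv hρe hρflat
    have htr := trace_tanCocycle_eq_zero_of_detIsCyclotomic t ht p hpr.pos hdet'
    have hne : ∃ σ₀ ∈ (padicPlace p).inertiaSubgroupIn ℚ, ∃ w : Fin 2 → ResidueField 𝒪,
        (rfst t σ₀).mulVec w - w ≠ 0 := by
      obtain ⟨σ₀, hσ₀, w₀, hw₀⟩ := hg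
      exact ⟨σ₀, hσ₀, w₀, by rw [hfst, hw₀]; exact ConnEt.gcol_zero_ne_zero g⟩
    have hordt : (ofMat t ht).IsOrdinaryAt p :=
      ConnEt.isOrdinaryAt_ofMat_of_isFlatAt_of_one hpr hp3 t ht hflat' (padicPlace p) hPl
        (gcol g 0) (by rw [hfst]; exact hline) hne
    have key := exists_mem_ZBg_bdd_of_ordinary' (padicPlace p) g p hζ h2 t ht hordt htr hPl
      (by rw [hfst]; exact hg) (hKB t ht hfst hdet' hflat') (by rw [hfst]; exact hdet1)
    rw [hfst] at key
    exact key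
  refine localCond_of_ZB_of_exists ρbar b p p h _ d hk ?_
  rintro ⟨t₀, ht₀, hfst₀, hP₀⟩
  obtain ⟨hut, hI, -⟩ := hlift t₀ ht₀ hfst₀ hP₀
  have h00 : ∀ σ ∈ ordG (padicPlace p) p,
      conjBy g (rD (padicPlace p) (toMatRes ρbar b)) σ 0 0 = 1 := by
    intro σ hσ
    rw [conjBy_zero_zero_eq_det g (rD (padicPlace p) (toMatRes ρbar b)) σ (hut σ) (hI σ hσ.1)]
    exact hdet1 σ hσ
  have hrL : ∃ L : IntermediateField ℚ Qb, FiniteDimensional ℚ L ∧
      ∀ s : GQ, (∀ y ∈ L, s y = y) → toMatRes ρbar b s = 1 := by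
    obtain ⟨L, hL, hL1⟩ := exists_eq_one_of_matCont t₀ ht₀
    refine ⟨L, hL, fun s hs => ?_⟩
    rw [← hfst₀]
    show mfst (t₀ s) = 1
    rw [hL1 s hs, mfst_one]
  obtain ⟨ρ₀, ⟨hρdet, hρflat⟩, hρe⟩ := hP₀
  have hKB₀ : KBsub (padicPlace p) p (kerMu (padicPlace p) p (toMatRes ρbar b)) := by
    have := KBsub_rfst (padicPlace p) p t₀ (hKB t₀ ht₀ hfst₀ (detIsCyclotomic_of_isEquiv hρe hρdet)
      (Fermat.Agent.GP.Tan.isFlatAt_of_isEquiv hρe hρflat))
    rw [hfst₀] at this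
    exact this
  have hN' := hN g hline hg hut hI h00 hrL hKB₀
  have hfinZ : Module.Finite (ResidueField 𝒪)
      (ZBg (padicPlace p) (toMatRes ρbar b) g (BddN (padicPlace p) p hζ)) :=
    finite_ZBg (padicPlace p) (toMatRes ρbar b) g _ hpr hPl hut hN'
  refine ⟨g, ZBg (padicPlace p) (toMatRes ρbar b) g (BddN (padicPlace p) p hζ), ?_, ?_, ?_⟩
  · have hfm : Module.Finite (ResidueField 𝒪)
        ↥(((ZBg (padicPlace p) (toMatRes ρbar b) g (BddN (padicPlace p) p hζ)).map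
          (bval g)).map (quoMap (rDq p (toMatRes ρbar b)))) := by
      rw [← Submodule.map_comp]
      exact Module.Finite.map _ _
    exact Module.finite_of_finite (ResidueField 𝒪)
  · exact card_Lmax_le_bdd' (padicPlace p) (toMatRes ρbar b) g p hζ hpr hPl hKB₀ hut hI h00 hrL
      hN' (quoMap (rDq p (toMatRes ρbar b))) (quoMap_cob (rDq p (toMatRes ρbar b)))
  · intro t ht hfst hP
    obtain ⟨-, -, X, x, hX, hx, hc⟩ := hlift t ht hfst hP
    exact ⟨X, x, hX, hx, hc⟩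

end Contract

end Fermat.Agent.GP.Flat.OrdLocalCond
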