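/-
GATE-P (S56) / [P-FLAT] node S56-FLAT-ORD-LOCALCOND-GEN (helper90; named by helper46 board 4504).

`OrdLocalCond.localCond_ord` with the binder `hN` DISCHARGED by helper47's `OrdN.hN_of_gen`:

* `exists_sigma1_psi` : the `(σ₁, hψ)` step — an inertia element `σ₁` with `σ₁ ζ = ζ ^ c`,
  `c ≢ 0, 1 mod p` (helper93 `OrdFrame.exists_sigma1`) has `ψ(σ₁) = det r̄(σ₁) = c ≠ 1`
  (frozen `DetIsCyclotomic` at level one) for every basis `g` in which `r̄|D_P` is upper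
  triangular with trivial inertia action on the quotient;
* `localCond_ord_of_gen` : the ordinary branch of the flat local condition with binders
  `hKB` (helper14 KbOrd) and `hgen` (helper46 `OrdHGen.hgen_of_frame`, generator form of the
  one-character chain count on the frame `(ordG, ordK)`).
-/
import Fermat.Agent.GP.Flat.OrdLocalCond
import Fermat.Agent.GP.Flat.OrdN
import Fermat.Agent.GP.Flat.OrdFrameInst

set_option autoImplicit false
set_option linter.unusedSectionVars false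

namespace Fermat.Agent.GP.Flat.OrdLocalCond

open IsLocalRing Fermat.Agent.S53_helper35 Matrix Module Fermat.Agent.GP.Tan.Cocycle
  Fermat.Agent.GC.Prof Fermat.Agent.GC.Places Fermat.Agent.GC.Local.KR
  Fermat.Agent.GP.Core Fermat.Agent.GP.Flat.SSHlcPinned Fermat.Agent.GP.Flat.SSHlcCond
  Fermat.Agent.GP.Loc.StrictOrdDim Fermat.Agent.GP.Flat.OrdCount Fermat.Agent.GP.Flat.OrdCocycle
  Fermat.Agent.GP.Flat.OrdLocal Fermat.Agent.GP.Flat.OrdLocalGen Fermat.Agent.GP.Flat.OrdFrame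
  Fermat.Agent.GP.Flat.OrdBdd Fermat.Agent.GP.Flat.OrdKb Fermat.Agent.GP.Flat.OrdHlcCond
  Fermat.Agent.GP.Flat.OrdN
  Fermat.Agent.GP.Flat.FlatLocalCond Fermat.Agent.GP.Flat.OrdShapeToMat

local notation "Qb" => AlgebraicClosure ℚ

section Sigma

variable {k : Type} [Field k] (ρbar : ResidualGaloisRep k) (b : Module.Basis (Fin 2) k ρbar.V)
  (p : ℕ) [Fact p.Prime]

/-- `det r̄(σ) = c` when `σ ζ = ζ ^ c` (frozen `DetIsCyclotomic` at level one). -/
theorem det_toMatRes_eq_natCast_of_apply_zeta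
    (hdet : (GaloisRepAdic.ofResidualGaloisRep ρbar).DetIsCyclotomic p)
    {ζ : Qb} (hζ : IsPrimitiveRoot ζ p) (σ : GQ) (c : ℕ) (hσζ : σ ζ = ζ ^ c) :
    (toMatRes ρbar b σ).det = (c : k) := by
  have hpr : p.Prime := Fact.out
  have : NeZero p := ⟨hpr.ne_zero⟩
  have h := Fermat.Agent.GP.Loc.GlobH0.det_eq_natCast ρbar p hdet σ c (fun μ hμ => by
    obtain ⟨j, -, rfl⟩ := hζ.eq_pow_of_pow_eq_one hμ
    rw [map_pow, hσζ, ← pow_mul, ← pow_mul, mul_comm])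
  rw [toMatRes_apply, LinearMap.det_toMatrix, h]

/-- **the `(σ₁, hψ)` step**: for every basis `g` with `hut`, `hI`, there is an inertia element
`σ₁` acting on `ζ` through `c ≢ 1`, with `ψ(σ₁) = c ≠ 1`. -/
theorem exists_sigma1_psi (hp2 : p ≠ 2)
    (hdet : (GaloisRepAdic.ofResidualGaloisRep ρbar).DetIsCyclotomic p)
    (P : ValuationSubring Qb) (hP : (p : Qb) ∈ P.nonunits)
    {ζ : Qb} (hζ : IsPrimitiveRoot ζ p) :
    ∃ σ₁ : DP P, (σ₁ : GQ) ∈ P.inertiaSubgroupIn ℚ ∧ ∃ c : ℕ, σ₁ • ζ = ζ ^ c ∧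
      (c : ZMod p) ≠ 0 ∧ (c : ZMod p) ≠ 1 ∧
      ∀ g : GL (Fin 2) k,
        (∀ σ : DP P, conjBy g (rD P (toMatRes ρbar b)) σ 1 0 = 0) →
        (∀ σ : DP P, (σ : GQ) ∈ P.inertiaSubgroupIn ℚ →
          conjBy g (rD P (toMatRes ρbar b)) σ 1 1 = 1) →
        psi g (rD P (toMatRes ρbar b)) σ₁ = (c : k) ∧ psi g (rD P (toMatRes ρbar b)) σ₁ ≠ 1 := by
  have hpr : p.Prime := Fact.out
  have hchar : CharP k p := Fermat.Agent.GP.Flat.CasesFrozen.charP_of_detIsCyclotomic ρbar p hdet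
  obtain ⟨σ₁, hσ₁, c, hσζ, hc0, hc1⟩ := exists_sigma1 P hpr hP hζ hp2
  refine ⟨σ₁, hσ₁, c, hσζ, hc0, hc1, fun g hut hI => ?_⟩
  have hσinv : ((σ₁⁻¹ : DP P) : GQ) ∈ P.inertiaSubgroupIn ℚ := inv_mem hσ₁
  have hψ : psi g (rD P (toMatRes ρbar b)) σ₁ = (c : k) := by
    rw [psi_def, hI σ₁⁻¹ hσinv, mul_one,
      conjBy_zero_zero_eq_det g (rD P (toMatRes ρbar b)) σ₁ (hut σ₁) (hI σ₁ hσ₁)]
    exact det_toMatRes_eq_natCast_of_apply_zeta ρbar b p hdet hζ (σ₁ : GQ) c hσζ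
  refine ⟨hψ, ?_⟩
  rw [hψ]
  intro h1
  apply hc1
  have h2 : ((c : ℕ) : k) = ((1 : ℕ) : k) := by rw [h1, Nat.cast_one]
  have h3 := (CharP.natCast_eq_natCast k p).1 h2
  have h4 := (ZMod.natCast_eq_natCast_iff c 1 p).2 h3
  rw [h4, Nat.cast_one]

end Sigma

section Contract

variable {𝒪 : Type} [CommRing 𝒪] [IsLocalRing 𝒪]
  (ρbar : ResidualGaloisRep (ResidueField 𝒪))
  (b : Module.Basis (Fin 2) (ResidueField 𝒪) ρbar.V)
  (p : ℕ) [Fact p.Prime]
  {N : Rep (ZMod p) S53_helper35.GQ}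
  {emb : N →+ Matrix (Fin 2) (Fin 2) (ResidueField 𝒪)}
  [IsDiscrete (levelQ p) (Rep.res (localGaloisToGlobal p) N)]

/-- **S56-FLAT-ORD-LOCALCOND, generator form.**  The ordinary branch of the flat local condition
at `p`; remaining binders: `hKB` (Kummer-depth bound for flat lifts, helper14 KbOrd) and `hgen`
(the one-character chain count on `(ordG, ordK)` in generator form, helper46 `OrdHGen`). -/
theorem localCond_ord_of_gen [Finite (ResidueField 𝒪)] (hp2 : p ≠ 2)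
    (hdet : (GaloisRepAdic.ofResidualGaloisRep ρbar).DetIsCyclotomic p)
    (h : GlobModel N (toMatRes ρbar b) emb)
    {ζ : Qb} (hζ : IsPrimitiveRoot ζ p)
    (d : ℕ) (hk : Nat.card (ResidueField 𝒪) = p ^ d)
    (hKB : ∀ (t : GQ →* Matrix (Fin 2) (Fin 2) (DualNumber (ResidueField 𝒪))) (ht : MatCont t),
      rfst t = toMatRes ρbar b → (ofMat t ht).DetIsCyclotomic p → (ofMat t ht).IsFlatAt p →
      KBsub (padicPlace p) p (kerMu (padicPlace p) p t))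
    (hgen : ∀ g : GL (Fin 2) (ResidueField 𝒪),
      (∀ σ : DP (padicPlace p), conjBy g (rD (padicPlace p) (toMatRes ρbar b)) σ 1 0 = 0) →
      (∀ σ : DP (padicPlace p), (σ : GQ) ∈ (padicPlace p).inertiaSubgroupIn ℚ →
        conjBy g (rD (padicPlace p) (toMatRes ρbar b)) σ 1 1 = 1) →
      (∀ σ ∈ ordG (padicPlace p) p,
        conjBy g (rD (padicPlace p) (toMatRes ρbar b)) σ 0 0 = 1) →
      ∀ σ₁ : DP (padicPlace p), (σ₁ : GQ) ∈ (padicPlace p).inertiaSubgroupIn ℚ →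
      ∀ c : ℕ, σ₁ • ζ = ζ ^ c → (c : ZMod p) ≠ 0 → (c : ZMod p) ≠ 1 →
      psi g (rD (padicPlace p) (toMatRes ρbar b)) σ₁ = (c : ResidueField 𝒪) →
      ∃ F₀ : DP (padicPlace p) → ResidueField 𝒪, ∀ F : DP (padicPlace p) → ResidueField 𝒪,
        F ∈ BddN (padicPlace p) p hζ →
        (∀ d h : DP (padicPlace p), h ∈ ordG (padicPlace p) p →
          F (d * h * d⁻¹) = psi g (rD (padicPlace p) (toMatRes ρbar b)) d * F h) →
        ∃ c : ResidueField 𝒪, ∀ h ∈ ordG (padicPlace p) p, F h = c * F₀ h)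
    (hord : OrdShape ρbar (padicPlace p)) :
    LocalCond ρbar b p N emb p (fun ρ => ρ.DetIsCyclotomic p ∧ ρ.IsFlatAt p) d := by
  have hPl : ((p : ℕ) : Qb) ∈ (padicPlace p).nonunits :=
    Fermat.Agent.GP.Loc.PadicPlace.padicPlace_liesOverPrime p
  refine localCond_ord ρbar b p hp2 hdet h hζ d hk hKB ?_ hord
  intro g _ _ hut hI h00 _ _
  obtain ⟨σ₁, hσ₁, c, hσζ, hc0, hc1, hpsi⟩ :=
    exists_sigma1_psi ρbar b p hp2 hdet (padicPlace p) hPl hζ
  obtain ⟨hψc, hψ1⟩ := hpsi g hut hI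
  exact hN_of_gen (padicPlace p) (toMatRes ρbar b) g p hζ (BddN (padicPlace p) p hζ) hut hI h00
    σ₁ hσ₁ hψ1 (hgen g hut hI h00 σ₁ hσ₁ c hσζ hc0 hc1 hψc)

end Contract

end Fermat.Agent.GP.Flat.OrdLocalCond
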