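/-
GATE-P (S56) / [P-FLAT] node S56-FLAT-ORD-LOCALCOND, file 3 (helper90): the binder `hKB` of
`localCond_ord` / `localCond_ord_of_gen` DISCHARGED by helper14's `KbOrd.kbsub_of_isFlatAt`
(+ helper15's `Pm.hlift` for its one binder `KbFlat.LiftAll`).

* `liftAll_of_pm` : `KbFlat.LiftAll A p` for every `A | p`;
* `hKB_flat` : the Kummer-depth bound `KBsub P p (kerMu P p t)` for every flat lift `t` of `r̄` with
  cyclotomic determinant, `P := padicPlace p`;
* `localCond_ord_of_hgen` : the ordinary branch of the flat local condition at `p` with the ONE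
  remaining binder `hgen` (helper46 `OrdHGen`).
-/
import Fermat.Agent.GP.Flat.OrdLocalCondGen
import Fermat.Agent.GP.Flat.KbOrd
import Fermat.Agent.GP.Flat.Pm

set_option autoImplicit false

namespace Fermat.Agent.GP.Flat.OrdLocalCond

open IsLocalRing Fermat.Agent.S53_helper35 Matrix Module Fermat.Agent.GP.Tan.Cocycle
  Fermat.Agent.GC.Prof Fermat.Agent.GC.Places Fermat.Agent.GC.Local.KR
  Fermat.Agent.GP.Core Fermat.Agent.GP.Flat.SSHlcPinned Fermat.Agent.GP.Flat.SSHlcCond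
  Fermat.Agent.GP.Loc.StrictOrdDim Fermat.Agent.GP.Flat.OrdCount Fermat.Agent.GP.Flat.OrdCocycle
  Fermat.Agent.GP.Flat.OrdLocal Fermat.Agent.GP.Flat.OrdLocalGen Fermat.Agent.GP.Flat.OrdFrame
  Fermat.Agent.GP.Flat.OrdBdd Fermat.Agent.GP.Flat.OrdKb Fermat.Agent.GP.Flat.OrdHlcCond
  Fermat.Agent.GP.Flat.OrdN
  Fermat.Agent.GP.Flat.FlatLocalCond Fermat.Agent.GP.Flat.OrdShapeToMat

local notation "Qb" => AlgebraicClosure ℚ

/-- `LiftAll` is a theorem (helper15 `Pm.hlift`). -/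
theorem liftAll_of_pm (A : ValuationSubring Qb) {p : ℕ} (hp : p.Prime)
    (hA : (p : Qb) ∈ A.nonunits) : Fermat.Agent.GP.Flat.KbFlat.LiftAll A p :=
  fun _ _ _ _ _ _ hkill => Fermat.Agent.GP.Flat.Pm.hlift hp A hA hkill

section KB

variable {k : Type} [Field k] [Finite k] (ρbar : ResidualGaloisRep k)
  (b : Module.Basis (Fin 2) k ρbar.V) (p : ℕ) [Fact p.Prime]

/-- the binder `hKB` of `localCond_ord` / `localCond_ord_of_gen` is a theorem. -/
theorem hKB_flat (hp2 : p ≠ 2)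
    (hdet : (GaloisRepAdic.ofResidualGaloisRep ρbar).DetIsCyclotomic p) :
    ∀ (t : GQ →* Matrix (Fin 2) (Fin 2) (DualNumber k)) (ht : MatCont t),
      rfst t = toMatRes ρbar b → (ofMat t ht).DetIsCyclotomic p → (ofMat t ht).IsFlatAt p →
      KBsub (padicPlace p) p (kerMu (padicPlace p) p t) := by
  intro t ht _ hdet' hflat'
  have hpr : p.Prime := Fact.out
  have hPl : ((p : ℕ) : Qb) ∈ (padicPlace p).nonunits :=
    Fermat.Agent.GP.Loc.PadicPlace.padicPlace_liesOverPrime p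
  have hchar : CharP k p := Fermat.Agent.GP.Flat.CasesFrozen.charP_of_detIsCyclotomic ρbar p hdet
  have hp3 : 3 ≤ p := by
    have := hpr.two_le
    omega
  exact Fermat.Agent.GP.Flat.KbOrd.kbsub_of_isFlatAt (padicPlace p) hpr hPl hp3 t ht hflat' hdet'
    (liftAll_of_pm (padicPlace p) hpr hPl)

end KB

section Contract

variable {𝒪 : Type} [CommRing 𝒪] [IsLocalRing 𝒪]
  (ρbar : ResidualGaloisRep (ResidueField 𝒪))
  (b : Module.Basis (Fin 2) (ResidueField 𝒪) ρbar.V)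
  (p : ℕ) [Fact p.Prime]
  {N : Rep (ZMod p) S53_helper35.GQ}
  {emb : N →+ Matrix (Fin 2) (Fin 2) (ResidueField 𝒪)}
  [IsDiscrete (levelQ p) (Rep.res (localGaloisToGlobal p) N)]

/-- **The ordinary branch of the flat local condition at `p`**, ONE remaining binder: `hgen`
(the one-character chain count on `(ordG, ordK)` in generator form, helper46 `OrdHGen`). -/
theorem localCond_ord_of_hgen [Finite (ResidueField 𝒪)] (hp2 : p ≠ 2)
    (hdet : (GaloisRepAdic.ofResidualGaloisRep ρbar).DetIsCyclotomic p)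
    (h : GlobModel N (toMatRes ρbar b) emb)
    {ζ : Qb} (hζ : IsPrimitiveRoot ζ p)
    (d : ℕ) (hk : Nat.card (ResidueField 𝒪) = p ^ d)
    (hgen : ∀ g : GL (Fin 2) (ResidueField 𝒪),
      (∀ σ : DP (padicPlace p), conjBy g (rD (padicPlace p) (toMatRes ρbar b)) σ 1 0 = 0) →
      (∀ σ : DP (padicPlace p), (σ : GQ) ∈ (padicPlace p).inertiaSubgroupIn ℚ →
        conjBy g (rD (padicPlace p) (toMatRes ρbar b)) σ 1 1 = 1) →
      (∀ σ ∈ ordG (padicPlace p) p,
        conjBy g (rD (padicPlace p) (toMatRes ρbar b)) σ 0 0 = 1) →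
      ∀ σ₁ : DP (padicPlace p), (σ₁ : GQ) ∈ (padicPlace p).inertiaSubgroupIn ℚ →
      ∀ c : ℕ, σ₁ • ζ = ζ ^ c → (c : ZMod p) ≠ 0 → (c : ZMod p) ≠ 1 →
      psi g (rD (padicPlace p) (toMatRes ρbar b)) σ₁ = (c : ResidueField 𝒪) →
      ∃ F₀ : DP (padicPlace p) → ResidueField 𝒪, ∀ F : DP (padicPlace p) → ResidueField 𝒪,
        F ∈ BddN (padicPlace p) p hζ →
        (∀ d h : DP (padicPlace p), h ∈ ordG (padicPlace p) p →
          F (d * h * d⁻¹) = psi g (rD (padicPlace p) (toMatRes ρbar b)) d * F h) →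
        ∃ c : ResidueField 𝒪, ∀ h ∈ ordG (padicPlace p) p, F h = c * F₀ h)
    (hord : OrdShape ρbar (padicPlace p)) :
    LocalCond ρbar b p N emb p (fun ρ => ρ.DetIsCyclotomic p ∧ ρ.IsFlatAt p) d :=
  localCond_ord_of_gen ρbar b p hp2 hdet h hζ d hk (hKB_flat ρbar b p hp2 hdet) hgen hord

end Contract

end Fermat.Agent.GP.Flat.OrdLocalCond
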