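/-
[P-FLAT](iv) of the S56 long shot, node S56-FLAT-PM-HPM part 3 (helper5): **the (iv) chain with NO
binder left.**  `PmBoundFrozenGen` with `hlift` discharged by helper15's `Pm.hlift`
(`GP/Flat/Pm.lean` = Fontaine's lifting lemma in the frozen shape).

For `A | p` (`p ≥ 3`) a valuation subring of `ℚ̄`, `H` a finite flat cocommutative Hopf algebra over
`ℤ_(p)` whose points are killed by `p`, `N ⊴ G_ℚ` open = the kernel of `G_ℚ` on the point values, in
helper26's henselian model `O = locRing A N`, `G = inertiaQuot A N`, `O₀ = baseSubring A N`: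

* `hPm_final` : the stabiliser form of Fontaine's `(P_m)` (binder `hPm` of `DvrInst.ad_mul_le_model`,
  `KbMain.kb_qb`, `KbModel.*`);
* `hPmO_final` : the binder `hPmO` of `PmRoot.ad_mul_le_of_pm` / `KummerCorFinal` / `KummerCorNF`;
* `ad_mul_le_final` : Fontaine's ramification bound `(p - 1) (A' + ∑_{σ ≠ 1} a σ) ≤ p |G|`
  (`u_{L/K} ≤ p/(p-1)` in lower-numbering form) for the field of points.
-/
import Mathlib
import Fermat.Agent.GP.Flat.PmBoundFrozenGen
import Fermat.Agent.GP.Flat.Pm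

set_option autoImplicit false
set_option linter.unusedVariables false
set_option linter.unusedSectionVars false

open scoped Pointwise
open Polynomial IsLocalRing WithConv
open Fermat.Agent.Common_helper32 Fermat.Agent.S13.Global Fermat.Agent.GL.Local.InertiaField
  Fermat.Agent.GL.Local
open Fermat.Agent.GP.Flat.DvrInst

namespace Fermat.Agent.GP.Flat.PmBoundFrozen

variable (A : ValuationSubring Qb) (N : Subgroup GQ) [hN : N.Normal]
variable {p : ℕ} (hp : p.Prime) (hA : (p : Qb) ∈ A.nonunits)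

include hp hA in
/-- **The stabiliser form of `(P_m)` in the model, no binder.** -/
theorem hPm_final (hp3 : 3 ≤ p) (hopen : IsOpen (N : Set GQ)) [Fintype (inertiaQuot A N)]
    {H : Type} [CommRing H] [HopfAlgebra (GaloisRep.ratLocalizedAt p) H]
    [Module.Finite (GaloisRep.ratLocalizedAt p) H] [Module.Flat (GaloisRep.ratLocalizedAt p) H]
    [Coalgebra.IsCocomm (GaloisRep.ratLocalizedAt p) H]
    (hkill : ∀ f : WithConv (H →ₐ[GaloisRep.ratLocalizedAt p] Qb), f ^ p = 1)
    (hNfix : ∀ σ ∈ N, ∀ (f : H →ₐ[GaloisRep.ratLocalizedAt p] Qb) (h : H), σ (f h) = f h)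
    (hNker : ∀ σ : GQ,
      (∀ (f : H →ₐ[GaloisRep.ratLocalizedAt p] Qb) (h : H), σ (f h) = f h) → σ ∈ N)
    (π : locRing A N) (hπ1 : toQb A N π ∈ A.nonunits)
    (hπe : A.valuation (p : Qb) = A.valuation (toQb A N π) ^ Fintype.card (inertiaQuot A N)) :
    ∀ (q : (baseSubring A N)[X]) (β : Qb), q.Monic →
      q.natDegree = Fintype.card (inertiaQuot A N) →
      (q.map ((ιO A N).comp (baseSubring A N).subtype)).eval β = 0 →
      A.valuation β ^ Fintype.card (inertiaQuot A N) = A.valuation (p : Qb) →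
      A.valuation (((PmBound.orbitPoly₀ (baseSubring A N) (hinv A N) π).map
        ((ιO A N).comp (baseSubring A N).subtype)).eval β) ^ (p - 1) < A.valuation (p : Qb) ^ p →
      ∀ σ : GQ, σ ∈ A.decompositionSubgroup ℚ →
        (∀ t : locRing A N, t ∈ baseSubring A N → σ (toQb A N t) = toQb A N t) →
        σ β = β → σ ∈ N :=
  hPm_of_lift' A N hp hA hp3 hopen hkill hNfix hNker π hπ1 hπe (Pm.hlift hp A hA hkill)

include hp hA in
/-- **The binder `hPmO` in the model, no binder.** -/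
theorem hPmO_final (hp3 : 3 ≤ p) (hopen : IsOpen (N : Set GQ)) [Fintype (inertiaQuot A N)]
    {H : Type} [CommRing H] [HopfAlgebra (GaloisRep.ratLocalizedAt p) H]
    [Module.Finite (GaloisRep.ratLocalizedAt p) H] [Module.Flat (GaloisRep.ratLocalizedAt p) H]
    [Coalgebra.IsCocomm (GaloisRep.ratLocalizedAt p) H]
    (hkill : ∀ f : WithConv (H →ₐ[GaloisRep.ratLocalizedAt p] Qb), f ^ p = 1)
    (hNfix : ∀ σ ∈ N, ∀ (f : H →ₐ[GaloisRep.ratLocalizedAt p] Qb) (h : H), σ (f h) = f h)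
    (hNker : ∀ σ : GQ,
      (∀ (f : H →ₐ[GaloisRep.ratLocalizedAt p] Qb) (h : H), σ (f h) = f h) → σ ∈ N)
    (π : locRing A N) (hπ1 : toQb A N π ∈ A.nonunits)
    (hπe : A.valuation (p : Qb) = A.valuation (toQb A N π) ^ Fintype.card (inertiaQuot A N)) :
    ∀ (q : (baseSubring A N)[X]) (β : Qb), q.Monic →
      q.natDegree = Fintype.card (inertiaQuot A N) →
      (q.map ((ιO A N).comp (baseSubring A N).subtype)).eval β = 0 →
      A.valuation β ^ Fintype.card (inertiaQuot A N) = A.valuation (p : Qb) →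
      A.valuation (((PmBound.orbitPoly₀ (baseSubring A N) (hinv A N) π).map
        ((ιO A N).comp (baseSubring A N).subtype)).eval β) ^ (p - 1) < A.valuation (p : Qb) ^ p →
      ∃ x : locRing A N, ιO A N x = β :=
  hPmO_model' A N hp hA hp3 hopen hkill hNfix hNker π hπ1 hπe (Pm.hlift hp A hA hkill)

include hp hA in
/-- **Fontaine's ramification bound for the field of points of a finite flat group scheme over
`ℤ_(p)` killed by `p`, no binder.** -/
theorem ad_mul_le_final (hp3 : 3 ≤ p) (hopen : IsOpen (N : Set GQ))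
    [Fintype (inertiaQuot A N)] [DecidableEq (inertiaQuot A N)]
    {H : Type} [CommRing H] [HopfAlgebra (GaloisRep.ratLocalizedAt p) H]
    [Module.Finite (GaloisRep.ratLocalizedAt p) H] [Module.Flat (GaloisRep.ratLocalizedAt p) H]
    [Coalgebra.IsCocomm (GaloisRep.ratLocalizedAt p) H]
    (hkill : ∀ f : WithConv (H →ₐ[GaloisRep.ratLocalizedAt p] Qb), f ^ p = 1)
    (hNfix : ∀ σ ∈ N, ∀ (f : H →ₐ[GaloisRep.ratLocalizedAt p] Qb) (h : H), σ (f h) = f h)
    (hNker : ∀ σ : GQ,
      (∀ (f : H →ₐ[GaloisRep.ratLocalizedAt p] Qb) (h : H), σ (f h) = f h) → σ ∈ N)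
    (π : locRing A N) (hπ : Irreducible π) (hπ1 : toQb A N π ∈ A.nonunits)
    (hπe : A.valuation (p : Qb) = A.valuation (toQb A N π) ^ Fintype.card (inertiaQuot A N))
    (ε₀ : (locRing A N)ˣ)
    (hε : ((p : ℕ) : locRing A N) = ε₀ * π ^ Fintype.card (inertiaQuot A N))
    (a : inertiaQuot A N → ℕ) (t : inertiaQuot A N → (locRing A N)ˣ)
    (ha : ∀ σ : inertiaQuot A N, σ ≠ 1 → σ • π - π = t σ * π ^ a σ)
    (A' : ℕ) (hA2 : 2 ≤ A') (hAle : ∀ σ : inertiaQuot A N, σ ≠ 1 → a σ ≤ A')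
    (hAex : ∃ σ : inertiaQuot A N, σ ≠ 1 ∧ a σ = A') :
    (p - 1) * (A' + ∑ σ ∈ Finset.univ.erase (1 : inertiaQuot A N), a σ) ≤
      p * Fintype.card (inertiaQuot A N) :=
  ad_mul_le_frozen' A N hp hA hp3 hopen hkill hNfix hNker π hπ hπ1 hπe ε₀ hε a t ha A' hA2 hAle
    hAex (Pm.hlift hp A hA hkill)

end Fermat.Agent.GP.Flat.PmBoundFrozen
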