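/-
[P-FLAT](iv) of the S56 long shot, consumer side, part 4 (helper5): the hypothesis `hPmO` of
`PmRoot.ad_mul_le_of_pm` from Fontaine's `(P_m)` in GALOIS form, by the orbit count.

Setting of `PmRoot` (`O` a DVR, `G` finite acting, `O₀ ≤ O`, `π`, `ι : O → M`, `v` a valuation on
`M`) plus a group `Gal` acting on the field `M` (think `Gal = G_ℚ`, `M = ℚ̄`) with two subgroups
`Dec` (think: the decomposition group of `A`) and `N'` (think: the kernel of `G_ℚ` on the points of the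
finite flat group scheme), such that

* `hLfix` : `Dec ⊓ N'` fixes `ι O` pointwise;
* `hLmem` : an element `β` with `v β ≤ 1` fixed by `Dec ⊓ N'` lies in `ι O`
  (`O = A ∩ L`, `L` the fixed field of `Dec ⊓ N'`: this is the DEFINITION of `L`, no Galois
  correspondence and no closedness is needed);
* `hidx` : `|G| ≤ [S : S ⊓ N']` for `S = Dec ⊓ fixing (ι O₀)` (the inertia group `I ≤ S` has image
  `G` in `Gal / N'`);
* `hpm` : `(P_m)` in the pinned monogenic form (board 4059) for `P = f = orbitPoly₀`, with conclusion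
  `σ ∈ N'`.

Then `hPmO` holds (`hPmO_of_fixes`), hence the bound (`ad_mul_le_of_fixes`).
-/
import Mathlib
import Fermat.Agent.GP.Flat.PmRoot

set_option autoImplicit false
set_option linter.unusedSectionVars false

namespace Fermat.Agent.GP.Flat.PmRoot

open Polynomial IsLocalRing
open Fermat.Agent.GP.Flat.PmBound

section Integral

variable {R : Type*} [CommRing R] {M : Type*} [Field M] {Γ₀ : Type*}
  [LinearOrderedCommGroupWithZero Γ₀] (v : Valuation M Γ₀)

/-- A root of a monic polynomial with coefficients of valuation `≤ 1` has valuation `≤ 1`. -/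
theorem val_le_one_of_monic_root (j : R →+* M) (hj : ∀ t : R, v (j t) ≤ 1) (q : R[X])
    (hq : q.Monic) {β : M} (hβ : (q.map j).eval β = 0) : v β ≤ 1 := by
  let j' : R →+* v.integer := j.codRestrict v.integer fun t => hj t
  have hcomp : (algebraMap v.integer M).comp j' = j := by
    ext t
    rfl
  have hint : IsIntegral v.integer β := by
    refine ⟨q.map j', hq.map j', ?_⟩
    rw [eval₂_map, hcomp, eval₂_eq_eval_map]
    exact hβ
  exact (Valuation.integer.integers v).isIntegral_iff_v_le_one.mp hint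

end Integral

section Galois

variable {O : Type*} [CommRing O] [IsDomain O] [IsDiscreteValuationRing O]
variable {G : Type*} [Group G] [Fintype G] [MulSemiringAction G O]
variable {M : Type*} [Field M] {Γ₀ : Type*} [LinearOrderedCommGroupWithZero Γ₀]
  (v : Valuation M Γ₀) (ι : O →+* M)
variable {Gal : Type*} [Group Gal] [MulSemiringAction Gal M]
variable (O₀ : Subring O)

/-- The subgroup of `Gal` fixing `ι O₀` pointwise. -/
def fixing : Subgroup Gal where
  carrier := {σ | ∀ t : O₀, σ • ι (t : O) = ι (t : O)}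
  mul_mem' := by
    intro σ τ hσ hτ t
    rw [mul_smul, hτ t, hσ t]
  one_mem' := fun t => one_smul _ _
  inv_mem' := by
    intro σ hσ t
    rw [inv_smul_eq_iff, hσ t]

theorem mem_fixing {σ : Gal} :
    σ ∈ fixing (Gal := Gal) ι O₀ ↔ ∀ t : O₀, σ • ι (t : O) = ι (t : O) := Iff.rfl

variable (hinv : ∀ x : O, (∀ g : G, g • x = x) → x ∈ O₀)

/-- **`(P_m)` in Galois form + orbit count ⟹ `hPmO`.** -/
theorem hPmO_of_fixes (Dec N' : Subgroup Gal)
    (hvO : ∀ x : O, v (ι x) ≤ 1)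
    (hLfix : ∀ σ ∈ Dec ⊓ N', ∀ x : O, σ • ι x = ι x)
    (hLmem : ∀ β : M, v β ≤ 1 → (∀ σ ∈ Dec ⊓ N', σ • β = β) → ∃ x : O, ι x = β)
    (hidx : Fintype.card G ≤ N'.relIndex (Dec ⊓ fixing ι O₀))
    (p : ℕ) (π : O)
    (hpm : ∀ β : M, v β ^ Fintype.card G = v (p : M) →
      v (((orbitPoly₀ O₀ hinv π).map (ι.comp O₀.subtype)).eval β) ^ (p - 1) < v (p : M) ^ p →
      ∀ σ ∈ Dec, (∀ t : O₀, σ • ι (t : O) = ι (t : O)) → σ • β = β → σ ∈ N')
    (q : O₀[X]) (β : M) (hqm : q.Monic) (hqd : q.natDegree = Fintype.card G)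
    (hβ : (q.map (ι.comp O₀.subtype)).eval β = 0)
    (h1 : v β ^ Fintype.card G = v (p : M))
    (h2 : v (((orbitPoly₀ O₀ hinv π).map (ι.comp O₀.subtype)).eval β) ^ (p - 1)
      < v (p : M) ^ p) :
    ∃ x : O, ι x = β := by
  classical
  set j : O₀ →+* M := ι.comp O₀.subtype with hj
  set Sg : Subgroup Gal := Dec ⊓ fixing ι O₀ with hSg
  set gM : M[X] := q.map j with hgM
  have hgM0 : gM ≠ 0 := (hqm.map j).ne_zero
  have hgMd : gM.natDegree = Fintype.card G := by rw [hgM, hqm.natDegree_map, hqd]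
  -- `gM` is `Sg`-invariant
  have hgfix : ∀ σ : Sg, σ • gM = gM := by
    intro σ
    have hσ : ∀ t : O₀, (σ : Gal) • ι (t : O) = ι (t : O) := (Subgroup.mem_inf.mp σ.2).2
    have hcomp : (MulSemiringAction.toRingHom Sg M σ).comp j = j := by
      ext t
      exact hσ t
    rw [Polynomial.smul_eq_map, hgM, Polynomial.map_map, hcomp]
  -- the orbit count
  have hstab : MulAction.stabilizer Sg β ≤ N'.subgroupOf Sg := by
    intro σ hσ
    rw [Subgroup.mem_subgroupOf]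
    have hσ' : (σ : Gal) • β = β := hσ
    exact hpm β h1 h2 σ (Subgroup.mem_inf.mp σ.2).1 (Subgroup.mem_inf.mp σ.2).2 hσ'
  have hidx' : gM.natDegree ≤ (N'.subgroupOf Sg).index := by
    rw [hgMd]
    exact hidx
  have hT := le_stabilizer_of_natDegree_le_index gM hgM0 hgfix hβ (N'.subgroupOf Sg) hidx' hstab
  -- `β` is fixed by `Dec ⊓ N'`
  have hfixβ : ∀ σ ∈ Dec ⊓ N', σ • β = β := by
    intro σ hσ
    have hσS : σ ∈ Sg := by
      refine Subgroup.mem_inf.mpr ⟨(Subgroup.mem_inf.mp hσ).1, fun t => hLfix σ hσ (t : O)⟩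
    have hmem : (⟨σ, hσS⟩ : Sg) ∈ N'.subgroupOf Sg := by
      rw [Subgroup.mem_subgroupOf]
      exact (Subgroup.mem_inf.mp hσ).2
    exact hT hmem
  have hβ1 : v β ≤ 1 :=
    val_le_one_of_monic_root v j (fun t => hvO (t : O)) q hqm hβ
  exact hLmem β hβ1 hfixβ

/-- **The ramification bound from `(P_m)` in Galois form.** -/
theorem ad_mul_le_of_fixes [IsAlgClosed M] [Finite (ResidueField O)] [DecidableEq G]
    (hfix : ∀ (g : G) (x : O), x ∈ O₀ → g • x = x)
    (hres : ∀ x : O, ∃ y ∈ O₀, x - y ∈ maximalIdeal O)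
    (hι : Function.Injective ι)
    (hvO : ∀ x : O, v (ι x) ≤ 1) (π : O) (hπ : Irreducible π) (hvπ : v (ι π) < 1)
    (p : ℕ) (hvp : v (p : M) = v (ι π) ^ Fintype.card G)
    (ϖ₀ : O₀) (ε₀ : Oˣ) (hϖ₀e : (ϖ₀ : O) = ε₀ * π ^ Fintype.card G)
    (a : G → ℕ) (t : G → Oˣ) (ha : ∀ σ : G, σ ≠ 1 → σ • π - π = t σ * π ^ a σ)
    (A : ℕ) (hA2 : 2 ≤ A) (hAle : ∀ σ : G, σ ≠ 1 → a σ ≤ A)
    (hAex : ∃ σ : G, σ ≠ 1 ∧ a σ = A)
    (Dec N' : Subgroup Gal)
    (hLfix : ∀ σ ∈ Dec ⊓ N', ∀ x : O, σ • ι x = ι x)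
    (hLmem : ∀ β : M, v β ≤ 1 → (∀ σ ∈ Dec ⊓ N', σ • β = β) → ∃ x : O, ι x = β)
    (hidx : Fintype.card G ≤ N'.relIndex (Dec ⊓ fixing ι O₀))
    (hpm : ∀ β : M, v β ^ Fintype.card G = v (p : M) →
      v (((orbitPoly₀ O₀ hinv π).map (ι.comp O₀.subtype)).eval β) ^ (p - 1) < v (p : M) ^ p →
      ∀ σ ∈ Dec, (∀ t : O₀, σ • ι (t : O) = ι (t : O)) → σ • β = β → σ ∈ N') :
    (p - 1) * (A + ∑ σ ∈ Finset.univ.erase (1 : G), a σ) ≤ p * Fintype.card G :=
  ad_mul_le_of_pm v ι O₀ hinv hfix hres hι hvO π hπ hvπ p hvp ϖ₀ ε₀ hϖ₀e a t ha A hA2 hAle hAex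
    (hPmO_of_fixes v ι O₀ hinv Dec N' hvO hLfix hLmem hidx p π hpm)

end Galois

end Fermat.Agent.GP.Flat.PmRoot
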