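/-
GATE-P / S56 [P-FLAT] S56-FLAT-SSCHAINCOUNT (helper75): **the chain count**, abstract.

Frame of `GP/Flat/SSChainVec` with a uniformiser `π` of `K` (`hdisc`), `v π ^ e = v p`,
`v (ζ - 1) = v π ^ m` (so `m (p - 1) = e`, top level `e + m = m p`).  The chain is
`Hc i := HLev (v π ^ (e + i))`, `0 ≤ i ≤ m`; `Hc 0 = HLev (v p)` is helper50's `BOUNDED`.

* `step_pdiv`   : `i < m`, `p ∣ e + i`  ⟹ `Hc i ⊆ Hc (i + 1)` (nothing happens);
* `step_fibre`  : equal leading coefficients at the level `e + i` ⟹ difference in `Hc (i + 1)`;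
* `step_vanish` : vanishing leading coefficients at the level `e + i` ⟹ `h ∈ Hc (i + 1)`;
* `top_zero`    : `h ∈ Hc m` with leading coefficients in `℘ κ` at the top level ⟹ `h = 0`;
* `eq_zero_of_vanish` : all graded pieces vanish from the level `e + i` on ⟹ `Hc i = 0`;
* `card_le_of_single` : all graded pieces vanish except at ONE level `e + i₀` (`i₀ < m`) ⟹
  `Nat.card (HLev (v p)) ≤ Nat.card (range of the leading-coefficient map at the level e + i₀)`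
  (also in the `hSub` form);
* `card_eq_one_of_vanish` : all graded pieces vanish ⟹ `HLev (v p) = {0}`.
-/
import Fermat.Agent.GP.Flat.SSChainVec
import Fermat.Agent.GP.Flat.SSInstNum

set_option autoImplicit false
set_option linter.unusedSectionVars false

namespace Fermat.Agent.GP.Flat.SSChainCount

open Fermat.Agent.GP.Ram.KummerBreak Fermat.Agent.GP.Flat.SSChain Fermat.Agent.GP.Flat.SSChainVec
  Fermat.Agent.GP.Flat.SSInstNum

variable {Ω : Type*} [Field Ω] {Γ₀ : Type*} [LinearOrderedCommGroupWithZero Γ₀]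
  (v : Valuation Ω Γ₀) {p : ℕ} [hp : Fact p.Prime]
  {𝔊 : Type*} [Group 𝔊] [MulSemiringAction 𝔊 Ω] {Dd GK : Subgroup 𝔊} {K : Subfield Ω} {ζ : Ω}
  {N : Type*} [AddCommGroup N] {act : 𝔊 → N →+ N}
  (hK : ∀ x, x ∈ K ↔ ∀ g ∈ GK, g • x = x) (hζ : IsPrimitiveRoot ζ p) (hζK : ζ ∈ K)
  (horb : ∀ x : Ω, (Set.range fun g : GK => g • x).Finite)
  {κ : Type*} [Field κ] (res : Ω → κ) (hres : IsRes v K res)
  {π : Ω} (hπK : π ∈ K) (hπ0 : π ≠ 0) (hπ1 : v π < 1)
  (hdisc : ∀ x ∈ K, x ≠ 0 → ∃ n : ℤ, v x = v π ^ n)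
  {e m : ℕ} (he : v π ^ e = v (p : Ω)) (hm : v (ζ - 1) = v π ^ m) (hlam : v (ζ - 1) < 1)

include hK hζ hζK horb hres hπK hπ0 hπ1 hdisc he hm hlam

/-- `m (p - 1) = e`. -/
theorem mul_eq_e : m * (p - 1) = e := by
  have h1 := val_p_eq v hζ
  rw [hm, ← he, ← pow_mul] at h1
  rcases lt_trichotomy e (m * (p - 1)) with h | h | h
  · have := (pow_lt_pow_iff v hπ0 hπ1).mpr h
    rw [h1] at this
    exact absurd this (lt_irrefl _)
  · exact h.symm
  · have := (pow_lt_pow_iff v hπ0 hπ1).mpr h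
    rw [h1] at this
    exact absurd this (lt_irrefl _)

theorem m_pos : 0 < m := by
  rcases Nat.eq_zero_or_pos m with h0 | h0
  · rw [h0, pow_zero] at hm
    rw [hm] at hlam
    exact absurd hlam (lt_irrefl _)
  · exact h0

theorem e_pos : 0 < e := by
  rw [← mul_eq_e v hK hζ hζK horb res hres hπK hπ0 hπ1 hdisc he hm hlam]
  exact Nat.mul_pos (m_pos v hK hζ hζK horb res hres hπK hπ0 hπ1 hdisc he hm hlam)
    (Nat.sub_pos_of_lt hp.out.one_lt)

/-- `e + m = m p`: the top level. -/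
theorem e_add_m : e + m = m * p := by
  rw [← mul_eq_e v hK hζ hζK horb res hres hπK hπ0 hπ1 hdisc he hm hlam]
  have hp1 : p - 1 + 1 = p := Nat.sub_add_cancel hp.out.one_le
  calc m * (p - 1) + m = m * (p - 1 + 1) := by ring
    _ = m * p := by rw [hp1]

theorem val_top : v π ^ (e + m) = v (ζ - 1) ^ p := by
  rw [e_add_m v hK hζ hζK horb res hres hπK hπ0 hπ1 hdisc he hm hlam, hm, ← pow_mul]

theorem val_pow_lt_one (i : ℕ) : v π ^ (e + i) < 1 :=
  pow_lt_one₀ zero_le hπ1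
    (by have := e_pos v hK hζ hζK horb res hres hπK hπ0 hπ1 hdisc he hm hlam; omega)

/-- nothing happens at the levels divisible by `p` below the top. -/
theorem step_pdiv (hperf : ∀ a ∈ K, v a ≤ 1 → ∃ b ∈ K, v b ≤ 1 ∧ v (b ^ p - a) < 1)
    {i : ℕ} (hi : i < m) (hdiv : p ∣ e + i) {h : 𝔊 → N}
    (hh : h ∈ HLev (p := p) v Dd GK K ζ act (v π ^ (e + i))) :
    h ∈ HLev (p := p) v Dd GK K ζ act (v π ^ (e + i + 1)) := by
  have hme := mul_eq_e v hK hζ hζK horb res hres hπK hπ0 hπ1 hdisc he hm hlam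
  have hepos := e_pos v hK hζ hζK horb res hres hπK hπ0 hπ1 hdisc he hm hlam
  have htop := e_add_m v hK hζ hζK horb res hres hπK hπ0 hπ1 hdisc he hm hlam
  have hp1 : 0 < p - 1 := Nat.sub_pos_of_lt hp.out.one_lt
  obtain ⟨j, hj⟩ := hdiv
  have hjp : e + i = j * p := by rw [hj, mul_comm]
  have hj0 : 0 < j := by
    rcases Nat.eq_zero_or_pos j with h0 | h0
    · rw [h0, zero_mul] at hjp; omega
    · exact h0
  have hjm : j < m := by
    have h1 : j * p < m * p := by rw [← hjp, ← htop]; omega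
    exact lt_of_mul_lt_mul_right h1 (Nat.zero_le p)
  have hje : j * (p - 1) < e := by
    rw [← hme]
    exact Nat.mul_lt_mul_of_pos_right hjm hp1
  rw [hjp] at hh ⊢
  exact mem_hLev_succ v hK hζ hζK horb hπ0 hπ1 hdisc hh.1 fun ℓ =>
    slev_of_pdiv_pow v K hπ0 hπ1 he hK hζ hζK hperf hπK hj0 hje (hh.2 ℓ)

/-- fibres of the leading-coefficient map are cosets of the next step. -/
theorem step_fibre {i : ℕ} {h h' : 𝔊 → N}
    (hh : h ∈ HLev (p := p) v Dd GK K ζ act (v π ^ (e + i)))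
    (hh' : h' ∈ HLev (p := p) v Dd GK K ζ act (v π ^ (e + i)))
    (heq : ∀ ℓ : N →+ ZMod p, lcFun v GK K ζ res (π ^ (e + i)) h ℓ =
      lcFun v GK K ζ res (π ^ (e + i)) h' ℓ) :
    -h' + h ∈ HLev (p := p) v Dd GK K ζ act (v π ^ (e + i + 1)) := by
  have hϖ1 : v (π ^ (e + i)) < 1 := by
    rw [v.map_pow]
    exact val_pow_lt_one v hK hζ hζK horb res hres hπK hπ0 hπ1 hdisc he hm hlam i
  have hhϖ : h ∈ HLev (p := p) v Dd GK K ζ act (v (π ^ (e + i))) := by rw [v.map_pow]; exact hh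
  have hh'ϖ : h' ∈ HLev (p := p) v Dd GK K ζ act (v (π ^ (e + i))) := by
    rw [v.map_pow]; exact hh'
  refine mem_hLev_succ v hK hζ hζK horb hπ0 hπ1 hdisc (hh'.1.neg.add hh.1) fun ℓ => ?_
  have := lcFun_fibre v hK hζ hζK horb res (K.pow_mem hπK (e + i)) (pow_ne_zero _ hπ0) hϖ1 hres
    hhϖ hh'ϖ heq ℓ
  rwa [v.map_pow] at this

/-- vanishing leading coefficients ⟹ next step of the chain. -/
theorem step_vanish {i : ℕ} {h : 𝔊 → N}
    (hh : h ∈ HLev (p := p) v Dd GK K ζ act (v π ^ (e + i)))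
    (hvan : ∀ ℓ : N →+ ZMod p, lcFun v GK K ζ res (π ^ (e + i)) h ℓ = 0) :
    h ∈ HLev (p := p) v Dd GK K ζ act (v π ^ (e + i + 1)) := by
  have hϖ0 : π ^ (e + i) ≠ 0 := pow_ne_zero _ hπ0
  have hϖ1 : v (π ^ (e + i)) < 1 := by
    rw [v.map_pow]
    exact val_pow_lt_one v hK hζ hζK horb res hres hπK hπ0 hπ1 hdisc he hm hlam i
  have hhϖ : h ∈ HLev (p := p) v Dd GK K ζ act (v (π ^ (e + i))) := by rw [v.map_pow]; exact hh
  refine mem_hLev_succ v hK hζ hζK horb hπ0 hπ1 hdisc hh.1 fun ℓ => ?_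
  obtain ⟨a, haK, ha, hae⟩ := lcFun_spec v hK hζ hζK horb res (K.pow_mem hπK (e + i)) hϖ0 hϖ1
    hhϖ ℓ
  have ha0 : v a < 1 := (hres.2.2 a haK (LC.val_le_one v hϖ0 ha)).mp (hae.symm.trans (hvan ℓ))
  have := lc_ker v hK hζ hζK hϖ0 ha ha0
  rwa [v.map_pow] at this

/-- **the top level**: leading coefficients in `℘ κ` ⟹ `h = 0`. -/
theorem top_zero (hsurj : ∀ z : κ, ∃ x ∈ K, v x ≤ 1 ∧ res x = z)
    (hiso : ∀ g ∈ GK, ∀ x : Ω, v (g • x) = v x)
    (hsep : ∀ n : N, (∀ ℓ : N →+ ZMod p, ℓ n = 0) → n = 0) {h : 𝔊 → N}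
    (hh : h ∈ HLev (p := p) v Dd GK K ζ act (v π ^ (e + m)))
    (hvan : ∀ ℓ : N →+ ZMod p, ∃ z : κ, lcFun v GK K ζ res ((ζ - 1) ^ p) h ℓ = z ^ p - z) :
    h = 0 := by
  rw [val_top v hK hζ hζK horb res hres hπK hπ0 hπ1 hdisc he hm hlam] at hh
  have hl0 : (ζ - 1) ^ p ≠ 0 := pow_ne_zero _ (Fermat.Agent.GP.Ram.UnitFiltTop.lam_ne_zero hζ)
  have hlK : (ζ - 1) ^ p ∈ K := K.pow_mem (K.sub_mem hζK K.one_mem) p
  have hl1 : v ((ζ - 1) ^ p) < 1 := by
    rw [v.map_pow]; exact pow_lt_one₀ zero_le hlam hp.out.ne_zero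
  have hhϖ : h ∈ HLev (p := p) v Dd GK K ζ act (v ((ζ - 1) ^ p)) := by rw [v.map_pow]; exact hh
  refine eq_zero_of_slev_top v hK hζ hζK horb hlam hiso hsep hh.1 fun ℓ => ?_
  obtain ⟨a, haK, ha, hae⟩ := lcFun_spec v hK hζ hζK horb res hlK hl0 hl1 hhϖ ℓ
  obtain ⟨z, hz⟩ := hvan ℓ
  obtain ⟨x, hxK, hx1, rfl⟩ := hsurj z
  have hxp : v (x ^ p - x) ≤ 1 :=
    v.map_sub_le (by rw [v.map_pow]; exact pow_le_one₀ zero_le hx1) hx1
  refine lc_top_ker v hK hζ hζK hlam ha hxK hx1 ?_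
  refine (hres.eq_iff v haK (K.sub_mem (K.pow_mem hxK p) hxK) (LC.val_le_one v hl0 ha) hxp).mp ?_
  rw [hres.artinSchreier v hxK hx1, ← hae]
  exact hz

section Count

variable (hperf : ∀ a ∈ K, v a ≤ 1 → ∃ b ∈ K, v b ≤ 1 ∧ v (b ^ p - a) < 1)
  (hsurj : ∀ z : κ, ∃ x ∈ K, v x ≤ 1 ∧ res x = z)
  (hiso : ∀ g ∈ GK, ∀ x : Ω, v (g • x) = v x)
  (hsep : ∀ n : N, (∀ ℓ : N →+ ZMod p, ℓ n = 0) → n = 0)

include hperf hsurj hiso hsep

/-- if all graded pieces vanish from the level `e + i` on, then `Hc i = 0`. -/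
theorem eq_zero_of_vanish {i : ℕ} (hi : i ≤ m)
    (hvan : ∀ j, i ≤ j → j < m → ¬ p ∣ e + j →
      ∀ h ∈ HLev (p := p) v Dd GK K ζ act (v π ^ (e + j)), ∀ ℓ : N →+ ZMod p,
        lcFun v GK K ζ res (π ^ (e + j)) h ℓ = 0)
    (htop : ∀ h ∈ HLev (p := p) v Dd GK K ζ act (v π ^ (e + m)), ∀ ℓ : N →+ ZMod p,
      ∃ z : κ, lcFun v GK K ζ res ((ζ - 1) ^ p) h ℓ = z ^ p - z)
    {h : 𝔊 → N} (hh : h ∈ HLev (p := p) v Dd GK K ζ act (v π ^ (e + i))) : h = 0 := by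
  have key : ∀ d : ℕ, i + d ≤ m → h ∈ HLev (p := p) v Dd GK K ζ act (v π ^ (e + (i + d))) := by
    intro d
    induction d with
    | zero => intro _; exact hh
    | succ d ih =>
      intro hd
      have hlt : i + d < m := by omega
      have hprev := ih (by omega)
      have hstep : h ∈ HLev (p := p) v Dd GK K ζ act (v π ^ (e + (i + d) + 1)) := by
        by_cases hdiv : p ∣ e + (i + d)
        · exact step_pdiv v hK hζ hζK horb res hres hπK hπ0 hπ1 hdisc he hm hlam hperf hlt hdiv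
            hprev
        · exact step_vanish v hK hζ hζK horb res hres hπK hπ0 hπ1 hdisc he hm hlam hprev
            (hvan (i + d) (by omega) hlt hdiv h hprev)
      have : e + (i + d) + 1 = e + (i + (d + 1)) := by omega
      rwa [this] at hstep
  have hmem := key (m - i) (by omega)
  have : i + (m - i) = m := by omega
  rw [this] at hmem
  exact top_zero v hK hζ hζK horb res hres hπK hπ0 hπ1 hdisc he hm hlam hsurj hiso hsep hmem
    (htop h hmem)

/-- **the chain count, single level**: if all graded pieces vanish except at the level `e + i₀`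
(`i₀ < m`), the leading-coefficient map at that level is injective on `HLev (v p)`. -/
theorem injOn_of_single {i₀ : ℕ} (hi₀ : i₀ < m)
    (hvan : ∀ j, j < m → j ≠ i₀ → ¬ p ∣ e + j →
      ∀ h ∈ HLev (p := p) v Dd GK K ζ act (v π ^ (e + j)), ∀ ℓ : N →+ ZMod p,
        lcFun v GK K ζ res (π ^ (e + j)) h ℓ = 0)
    (htop : ∀ h ∈ HLev (p := p) v Dd GK K ζ act (v π ^ (e + m)), ∀ ℓ : N →+ ZMod p,
      ∃ z : κ, lcFun v GK K ζ res ((ζ - 1) ^ p) h ℓ = z ^ p - z) :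
    (∀ h ∈ HLev (p := p) v Dd GK K ζ act (v (p : Ω)),
      h ∈ HLev (p := p) v Dd GK K ζ act (v π ^ (e + i₀))) ∧
    ∀ h ∈ HLev (p := p) v Dd GK K ζ act (v (p : Ω)),
      ∀ h' ∈ HLev (p := p) v Dd GK K ζ act (v (p : Ω)),
      (∀ ℓ : N →+ ZMod p, lcFun v GK K ζ res (π ^ (e + i₀)) h ℓ =
        lcFun v GK K ζ res (π ^ (e + i₀)) h' ℓ) → h = h' := by
  have hup : ∀ h ∈ HLev (p := p) v Dd GK K ζ act (v (p : Ω)),
      h ∈ HLev (p := p) v Dd GK K ζ act (v π ^ (e + i₀)) := by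
    intro h hh
    have key : ∀ d : ℕ, d ≤ i₀ → h ∈ HLev (p := p) v Dd GK K ζ act (v π ^ (e + d)) := by
      intro d
      induction d with
      | zero => intro _; rw [add_zero, he]; exact hh
      | succ d ih =>
        intro hd
        have hlt : d < m := by omega
        have hprev := ih (by omega)
        by_cases hdiv : p ∣ e + d
        · exact step_pdiv v hK hζ hζK horb res hres hπK hπ0 hπ1 hdisc he hm hlam hperf hlt hdiv
            hprev
        · exact step_vanish v hK hζ hζK horb res hres hπK hπ0 hπ1 hdisc he hm hlam hprev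
            (hvan d hlt (by omega) hdiv h hprev)
    exact key i₀ le_rfl
  refine ⟨hup, fun h hh h' hh' heq => ?_⟩
  have hdiff := step_fibre v hK hζ hζK horb res hres hπK hπ0 hπ1 hdisc he hm hlam
    (hup h hh) (hup h' hh') heq
  have hzero := eq_zero_of_vanish v hK hζ hζK horb res hres hπK hπ0 hπ1 hdisc he hm hlam hperf
    hsurj hiso hsep (i := i₀ + 1) (by omega)
    (fun j hj hjm hnd => hvan j hjm (by omega) hnd) htop
    (by rw [← add_assoc]; exact hdiff)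
  have : h = h' + (-h' + h) := by abel
  rw [this, hzero, add_zero]

/-- **the chain count, single level, cardinality form.** -/
theorem card_le_of_single {i₀ : ℕ} (hi₀ : i₀ < m)
    (hvan : ∀ j, j < m → j ≠ i₀ → ¬ p ∣ e + j →
      ∀ h ∈ HLev (p := p) v Dd GK K ζ act (v π ^ (e + j)), ∀ ℓ : N →+ ZMod p,
        lcFun v GK K ζ res (π ^ (e + j)) h ℓ = 0)
    (htop : ∀ h ∈ HLev (p := p) v Dd GK K ζ act (v π ^ (e + m)), ∀ ℓ : N →+ ZMod p,
      ∃ z : κ, lcFun v GK K ζ res ((ζ - 1) ^ p) h ℓ = z ^ p - z)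
    (T : Set ((N →+ ZMod p) → κ)) (hTfin : T.Finite)
    (hT : ∀ h ∈ HLev (p := p) v Dd GK K ζ act (v π ^ (e + i₀)),
      (fun ℓ => lcFun v GK K ζ res (π ^ (e + i₀)) h ℓ) ∈ T) :
    Finite ↥(HLev (p := p) v Dd GK K ζ act (v (p : Ω))) ∧
      Nat.card ↥(HLev (p := p) v Dd GK K ζ act (v (p : Ω))) ≤ Nat.card ↥T := by
  obtain ⟨hup, hinj⟩ := injOn_of_single v hK hζ hζK horb res hres hπK hπ0 hπ1 hdisc he hm hlam
    hperf hsurj hiso hsep hi₀ hvan htop
  let f : ↥(HLev (p := p) v Dd GK K ζ act (v (p : Ω))) → ↥T := fun h =>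
    ⟨fun ℓ => lcFun v GK K ζ res (π ^ (e + i₀)) h.1 ℓ, hT h.1 (hup h.1 h.2)⟩
  have hf : Function.Injective f := by
    intro h h' hhh'
    apply Subtype.ext
    refine hinj h.1 h.2 h'.1 h'.2 fun ℓ => ?_
    have := congrArg Subtype.val hhh'
    exact congrFun this ℓ
  have hfinT : Finite ↥T := hTfin.to_subtype
  exact ⟨Finite.of_injective f hf, Nat.card_le_card_of_injective f hf⟩

/-- `card_le_of_single` for the additive subgroup `hSub (v p)` (the shape of helper84's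
`SSEnd.localCond_ss_of_count`). -/
theorem card_hSub_le_of_single {i₀ : ℕ} (hi₀ : i₀ < m)
    (hvan : ∀ j, j < m → j ≠ i₀ → ¬ p ∣ e + j →
      ∀ h ∈ HLev (p := p) v Dd GK K ζ act (v π ^ (e + j)), ∀ ℓ : N →+ ZMod p,
        lcFun v GK K ζ res (π ^ (e + j)) h ℓ = 0)
    (htop : ∀ h ∈ HLev (p := p) v Dd GK K ζ act (v π ^ (e + m)), ∀ ℓ : N →+ ZMod p,
      ∃ z : κ, lcFun v GK K ζ res ((ζ - 1) ^ p) h ℓ = z ^ p - z)
    (T : Set ((N →+ ZMod p) → κ)) (hTfin : T.Finite)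
    (hT : ∀ h ∈ HLev (p := p) v Dd GK K ζ act (v π ^ (e + i₀)),
      (fun ℓ => lcFun v GK K ζ res (π ^ (e + i₀)) h ℓ) ∈ T)
    (hγ : v (p : Ω) < 1) :
    Finite ↥(hSub v hK hζ hζK horb (Dd := Dd) (act := act) hγ) ∧
      Nat.card ↥(hSub v hK hζ hζK horb (Dd := Dd) (act := act) hγ) ≤ Nat.card ↥T := by
  obtain ⟨h1, h2⟩ := card_le_of_single v hK hζ hζK horb res hres hπK hπ0 hπ1 hdisc he hm hlam
    hperf hsurj hiso hsep hi₀ hvan htop T hTfin hT
  let eqv : ↥(hSub v hK hζ hζK horb (Dd := Dd) (act := act) hγ) ≃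
      ↥(HLev (p := p) v Dd GK K ζ act (v (p : Ω))) :=
    Equiv.subtypeEquivRight fun x => mem_hSub v hK hζ hζK horb hγ x
  exact ⟨Finite.of_equiv _ eqv.symm, (Nat.card_congr eqv).le.trans h2⟩

/-- **all graded pieces vanish** ⟹ `HLev (v p) = {0}`. -/
theorem eq_zero_of_all_vanish
    (hvan : ∀ j, j < m → ¬ p ∣ e + j →
      ∀ h ∈ HLev (p := p) v Dd GK K ζ act (v π ^ (e + j)), ∀ ℓ : N →+ ZMod p,
        lcFun v GK K ζ res (π ^ (e + j)) h ℓ = 0)
    (htop : ∀ h ∈ HLev (p := p) v Dd GK K ζ act (v π ^ (e + m)), ∀ ℓ : N →+ ZMod p,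
      ∃ z : κ, lcFun v GK K ζ res ((ζ - 1) ^ p) h ℓ = z ^ p - z)
    {h : 𝔊 → N} (hh : h ∈ HLev (p := p) v Dd GK K ζ act (v (p : Ω))) : h = 0 :=
  eq_zero_of_vanish v hK hζ hζK horb res hres hπK hπ0 hπ1 hdisc he hm hlam hperf hsurj hiso hsep
    (i := 0) (Nat.zero_le m) (fun j _ hjm hnd => hvan j hjm hnd) htop
    (by rw [add_zero, he]; exact hh)

end Count

end Fermat.Agent.GP.Flat.SSChainCount
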