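/-
GATE-P / S56 [P-FLAT] S56-FLAT-SSCHAINCOUNT part 2 (helper75): the chain count of
`GP/Flat/SSChainCount` **cut by an additive subgroup `S`** of `𝔊 → N` (in the application
`S = {h | ∀ g, (h g).trace = 0}`): the vanishing hypotheses are only required for `h ∈ S`.

* `eq_zero_of_vanish_cut`, `injOn_of_single_cut`, `card_le_of_single_cut` (for `↥(hSub (v p) ⊓ S)`),
  `eq_zero_of_all_vanish_cut`, `card_eq_one_of_all_vanish_cut`.
-/
import Fermat.Agent.GP.Flat.SSChainCount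

set_option autoImplicit false
set_option linter.unusedSectionVars false

namespace Fermat.Agent.GP.Flat.SSChainCount

open Fermat.Agent.GP.Ram.KummerBreak Fermat.Agent.GP.Flat.SSChain Fermat.Agent.GP.Flat.SSChainVec
  Fermat.Agent.GP.Flat.SSInstNum

variable {Ω : Type*} [Field Ω] {Γ₀ : Type*} [LinearOrderedCommGroupWithZero Γ₀]
  (v : Valuation Ω Γ₀) {p : ℕ} [hp : Fact p.Prime]
  {𝔊 : Type*} [Group 𝔊] [MulSemiringAction 𝔊 Ω] {Dd GK : Subgroup 𝔊} {K : Subfield Ω} {ζ : Ω}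
  {N : Type*} [AddCommGroup N] {act : 𝔊 → N →+ N}
  (hK : ∀ x, x ∈ K ↔ ∀ g ∈ GK, g • x = x) (hζ : IsPrimitiveRoot ζ p) (hζK : ζ ∈ K)
  (horb : ∀ x : Ω, (Set.range fun g : GK => g • x).Finite)
  {κ : Type*} [Field κ] (res : Ω → κ) (hres : IsRes v K res)
  {π : Ω} (hπK : π ∈ K) (hπ0 : π ≠ 0) (hπ1 : v π < 1)
  (hdisc : ∀ x ∈ K, x ≠ 0 → ∃ n : ℤ, v x = v π ^ n)
  {e m : ℕ} (he : v π ^ e = v (p : Ω)) (hm : v (ζ - 1) = v π ^ m) (hlam : v (ζ - 1) < 1)
  (hperf : ∀ a ∈ K, v a ≤ 1 → ∃ b ∈ K, v b ≤ 1 ∧ v (b ^ p - a) < 1)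
  (hsurj : ∀ z : κ, ∃ x ∈ K, v x ≤ 1 ∧ res x = z)
  (hiso : ∀ g ∈ GK, ∀ x : Ω, v (g • x) = v x)
  (hsep : ∀ n : N, (∀ ℓ : N →+ ZMod p, ℓ n = 0) → n = 0)
  (S : AddSubgroup (𝔊 → N))

include hK hζ hζK horb hres hπK hπ0 hπ1 hdisc he hm hlam hperf hsurj hiso hsep

/-- if all graded pieces of `S` vanish from the level `e + i` on, then `Hc i ∩ S = 0`. -/
theorem eq_zero_of_vanish_cut {i : ℕ} (hi : i ≤ m)
    (hvan : ∀ j, i ≤ j → j < m → ¬ p ∣ e + j →
      ∀ h ∈ HLev (p := p) v Dd GK K ζ act (v π ^ (e + j)), h ∈ S → ∀ ℓ : N →+ ZMod p,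
        lcFun v GK K ζ res (π ^ (e + j)) h ℓ = 0)
    (htop : ∀ h ∈ HLev (p := p) v Dd GK K ζ act (v π ^ (e + m)), h ∈ S → ∀ ℓ : N →+ ZMod p,
      ∃ z : κ, lcFun v GK K ζ res ((ζ - 1) ^ p) h ℓ = z ^ p - z)
    {h : 𝔊 → N} (hh : h ∈ HLev (p := p) v Dd GK K ζ act (v π ^ (e + i))) (hS : h ∈ S) :
    h = 0 := by
  have key : ∀ d : ℕ, i + d ≤ m → h ∈ HLev (p := p) v Dd GK K ζ act (v π ^ (e + (i + d))) := by
    intro d
    induction d with
    | zero => intro _; exact hh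
    | succ d ih =>
      intro hd
      have hlt : i + d < m := by omega
      have hprev := ih (by omega)
      have hstep : h ∈ HLev (p := p) v Dd GK K ζ act (v π ^ (e + (i + d) + 1)) := by
        by_cases hdiv : p ∣ e + (i + d)
        · exact step_pdiv v hK hζ hζK horb res hres hπK hπ0 hπ1 hdisc he hm hlam hperf hlt hdiv
            hprev
        · exact step_vanish v hK hζ hζK horb res hres hπK hπ0 hπ1 hdisc he hm hlam hprev
            (hvan (i + d) (by omega) hlt hdiv h hprev hS)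
      have : e + (i + d) + 1 = e + (i + (d + 1)) := by omega
      rwa [this] at hstep
  have hmem := key (m - i) (by omega)
  have : i + (m - i) = m := by omega
  rw [this] at hmem
  exact top_zero v hK hζ hζK horb res hres hπK hπ0 hπ1 hdisc he hm hlam hsurj hiso hsep hmem
    (htop h hmem hS)

/-- **single level, cut by `S`**: injectivity of the leading-coefficient map at the level
`e + i₀` on `HLev (v p) ∩ S`. -/
theorem injOn_of_single_cut {i₀ : ℕ} (hi₀ : i₀ < m)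
    (hvan : ∀ j, j < m → j ≠ i₀ → ¬ p ∣ e + j →
      ∀ h ∈ HLev (p := p) v Dd GK K ζ act (v π ^ (e + j)), h ∈ S → ∀ ℓ : N →+ ZMod p,
        lcFun v GK K ζ res (π ^ (e + j)) h ℓ = 0)
    (htop : ∀ h ∈ HLev (p := p) v Dd GK K ζ act (v π ^ (e + m)), h ∈ S → ∀ ℓ : N →+ ZMod p,
      ∃ z : κ, lcFun v GK K ζ res ((ζ - 1) ^ p) h ℓ = z ^ p - z) :
    (∀ h ∈ HLev (p := p) v Dd GK K ζ act (v (p : Ω)), h ∈ S →
      h ∈ HLev (p := p) v Dd GK K ζ act (v π ^ (e + i₀))) ∧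
    ∀ h ∈ HLev (p := p) v Dd GK K ζ act (v (p : Ω)), h ∈ S →
      ∀ h' ∈ HLev (p := p) v Dd GK K ζ act (v (p : Ω)), h' ∈ S →
      (∀ ℓ : N →+ ZMod p, lcFun v GK K ζ res (π ^ (e + i₀)) h ℓ =
        lcFun v GK K ζ res (π ^ (e + i₀)) h' ℓ) → h = h' := by
  have hup : ∀ h ∈ HLev (p := p) v Dd GK K ζ act (v (p : Ω)), h ∈ S →
      h ∈ HLev (p := p) v Dd GK K ζ act (v π ^ (e + i₀)) := by
    intro h hh hS
    have key : ∀ d : ℕ, d ≤ i₀ → h ∈ HLev (p := p) v Dd GK K ζ act (v π ^ (e + d)) := by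
      intro d
      induction d with
      | zero => intro _; rw [add_zero, he]; exact hh
      | succ d ih =>
        intro hd
        have hlt : d < m := by omega
        have hprev := ih (by omega)
        by_cases hdiv : p ∣ e + d
        · exact step_pdiv v hK hζ hζK horb res hres hπK hπ0 hπ1 hdisc he hm hlam hperf hlt hdiv
            hprev
        · exact step_vanish v hK hζ hζK horb res hres hπK hπ0 hπ1 hdisc he hm hlam hprev
            (hvan d hlt (by omega) hdiv h hprev hS)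
    exact key i₀ le_rfl
  refine ⟨hup, fun h hh hS h' hh' hS' heq => ?_⟩
  have hdiff := step_fibre v hK hζ hζK horb res hres hπK hπ0 hπ1 hdisc he hm hlam
    (hup h hh hS) (hup h' hh' hS') heq
  have hzero := eq_zero_of_vanish_cut v hK hζ hζK horb res hres hπK hπ0 hπ1 hdisc he hm hlam hperf
    hsurj hiso hsep S (i := i₀ + 1) (by omega)
    (fun j hj hjm hnd => hvan j hjm (by omega) hnd) htop
    (by rw [← add_assoc]; exact hdiff) (S.add_mem (S.neg_mem hS') hS)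
  have : h = h' + (-h' + h) := by abel
  rw [this, hzero, add_zero]

/-- **the chain count, single level, cut by `S`, cardinality form.** -/
theorem card_le_of_single_cut {i₀ : ℕ} (hi₀ : i₀ < m)
    (hvan : ∀ j, j < m → j ≠ i₀ → ¬ p ∣ e + j →
      ∀ h ∈ HLev (p := p) v Dd GK K ζ act (v π ^ (e + j)), h ∈ S → ∀ ℓ : N →+ ZMod p,
        lcFun v GK K ζ res (π ^ (e + j)) h ℓ = 0)
    (htop : ∀ h ∈ HLev (p := p) v Dd GK K ζ act (v π ^ (e + m)), h ∈ S → ∀ ℓ : N →+ ZMod p,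
      ∃ z : κ, lcFun v GK K ζ res ((ζ - 1) ^ p) h ℓ = z ^ p - z)
    (T : Set ((N →+ ZMod p) → κ)) (hTfin : T.Finite)
    (hT : ∀ h ∈ HLev (p := p) v Dd GK K ζ act (v π ^ (e + i₀)), h ∈ S →
      (fun ℓ => lcFun v GK K ζ res (π ^ (e + i₀)) h ℓ) ∈ T)
    (hγ : v (p : Ω) < 1) :
    Finite ↥(hSub v hK hζ hζK horb (Dd := Dd) (act := act) hγ ⊓ S) ∧
      Nat.card ↥(hSub v hK hζ hζK horb (Dd := Dd) (act := act) hγ ⊓ S) ≤ Nat.card ↥T := by
  obtain ⟨hup, hinj⟩ := injOn_of_single_cut v hK hζ hζK horb res hres hπK hπ0 hπ1 hdisc he hm hlam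
    hperf hsurj hiso hsep S hi₀ hvan htop
  let f : ↥(hSub v hK hζ hζK horb (Dd := Dd) (act := act) hγ ⊓ S) → ↥T := fun h =>
    ⟨fun ℓ => lcFun v GK K ζ res (π ^ (e + i₀)) h.1 ℓ, hT h.1 (hup h.1 h.2.1 h.2.2) h.2.2⟩
  have hf : Function.Injective f := by
    intro h h' hhh'
    apply Subtype.ext
    refine hinj h.1 h.2.1 h.2.2 h'.1 h'.2.1 h'.2.2 fun ℓ => ?_
    have := congrArg Subtype.val hhh'
    exact congrFun this ℓ
  have hfinT : Finite ↥T := hTfin.to_subtype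
  exact ⟨Finite.of_injective f hf, Nat.card_le_card_of_injective f hf⟩

/-- **all graded pieces of `S` vanish** ⟹ `HLev (v p) ∩ S = {0}`. -/
theorem eq_zero_of_all_vanish_cut
    (hvan : ∀ j, j < m → ¬ p ∣ e + j →
      ∀ h ∈ HLev (p := p) v Dd GK K ζ act (v π ^ (e + j)), h ∈ S → ∀ ℓ : N →+ ZMod p,
        lcFun v GK K ζ res (π ^ (e + j)) h ℓ = 0)
    (htop : ∀ h ∈ HLev (p := p) v Dd GK K ζ act (v π ^ (e + m)), h ∈ S → ∀ ℓ : N →+ ZMod p,
      ∃ z : κ, lcFun v GK K ζ res ((ζ - 1) ^ p) h ℓ = z ^ p - z)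
    {h : 𝔊 → N} (hh : h ∈ HLev (p := p) v Dd GK K ζ act (v (p : Ω))) (hS : h ∈ S) : h = 0 :=
  eq_zero_of_vanish_cut v hK hζ hζK horb res hres hπK hπ0 hπ1 hdisc he hm hlam hperf hsurj hiso hsep
    S (i := 0) (Nat.zero_le m) (fun j _ hjm hnd => hvan j hjm hnd) htop
    (by rw [add_zero, he]; exact hh) hS

/-- cardinality form of `eq_zero_of_all_vanish_cut`. -/
theorem card_eq_one_of_all_vanish_cut
    (hvan : ∀ j, j < m → ¬ p ∣ e + j →
      ∀ h ∈ HLev (p := p) v Dd GK K ζ act (v π ^ (e + j)), h ∈ S → ∀ ℓ : N →+ ZMod p,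
        lcFun v GK K ζ res (π ^ (e + j)) h ℓ = 0)
    (htop : ∀ h ∈ HLev (p := p) v Dd GK K ζ act (v π ^ (e + m)), h ∈ S → ∀ ℓ : N →+ ZMod p,
      ∃ z : κ, lcFun v GK K ζ res ((ζ - 1) ^ p) h ℓ = z ^ p - z)
    (hγ : v (p : Ω) < 1) :
    Finite ↥(hSub v hK hζ hζK horb (Dd := Dd) (act := act) hγ ⊓ S) ∧
      Nat.card ↥(hSub v hK hζ hζK horb (Dd := Dd) (act := act) hγ ⊓ S) = 1 := by
  have hsub : Subsingleton ↥(hSub v hK hζ hζK horb (Dd := Dd) (act := act) hγ ⊓ S) := by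
    refine ⟨fun a b => Subtype.ext ?_⟩
    rw [eq_zero_of_all_vanish_cut v hK hζ hζK horb res hres hπK hπ0 hπ1 hdisc he hm hlam hperf
        hsurj hiso hsep S hvan htop a.2.1 a.2.2,
      eq_zero_of_all_vanish_cut v hK hζ hζK horb res hres hπK hπ0 hπ1 hdisc he hm hlam hperf
        hsurj hiso hsep S hvan htop b.2.1 b.2.2]
  exact ⟨inferInstance, Nat.card_unique⟩

end Fermat.Agent.GP.Flat.SSChainCount
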