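/-
GATE-P / S56 [P-FLAT], node S56-FLAT-SSEND-TRACE (helper84): **the supersingular END, trace-cut
form, and the change of carrier for the count.**

`SSEnd.localCond_ss_of_count` bounds `#hSub` for `N = M₂(k)`; but the scalar line of `M₂(k)`
carries the unramified homomorphisms, so the right carrier is the TRACELESS part (tangent cocycles
of lifts with cyclotomic determinant are traceless).

* `trSub` : the additive subgroup of traceless matrix functions;
* **`localCond_ss_of_count_trace`** : the SS end with `H := hSub … ⊓ trSub`;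
* `hSubT` := `hSub ⊓ trSub`, and the **change of carrier** `card_hSubT_le_of_embedding` :
  for ANY model `ι : N' →+ M₂(k)` of the traceless matrices (injective, equivariant, image = trace
  zero; `N'` = `sl₂` as a subtype, as a Lie subalgebra, helper11's `N` with `emb`, …) the count
  `#hSub(N') ≤ c` gives `#hSubT ≤ c` (and finiteness);
* **`localCond_ss_of_count_model`** : the SS end with the count stated on `hSub` for the model `N'`.
NEW file; imports only.
-/
import Fermat.Agent.GP.Flat.SSEnd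

set_option autoImplicit false
set_option linter.unusedSectionVars false

namespace Fermat.Agent.GP.Flat.SSEndTrace

open IsLocalRing Fermat.Agent.S53_helper35 Matrix Fermat.Agent.GP.Tan.Cocycle
  Fermat.Agent.GC.Prof Fermat.Agent.GC.Places Fermat.Agent.GC.Local.KR
  Fermat.Agent.GP.Core Fermat.Agent.GP.Flat.SSHlcPinned Fermat.Agent.GP.Flat.FlatBranchEnds
  Fermat.Agent.GP.Flat.SSMember Fermat.Agent.GP.Flat.SSEnd
  Fermat.Agent.GP.Flat.SSChain Fermat.Agent.GP.Flat.SSChainVec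

/-- traceless matrix functions. -/
def trSub (𝔊 : Type*) (k : Type*) [Field k] : AddSubgroup (𝔊 → Matrix (Fin 2) (Fin 2) k) where
  carrier := {h | ∀ g, (h g).trace = 0}
  zero_mem' := fun g => by simp
  add_mem' := by
    intro h h' hh hh' g
    rw [Pi.add_apply, Matrix.trace_add, hh g, hh' g, add_zero]
  neg_mem' := by
    intro h hh g
    rw [Pi.neg_apply, Matrix.trace_neg, hh g, neg_zero]

theorem mem_trSub {𝔊 : Type*} {k : Type*} [Field k] (h : 𝔊 → Matrix (Fin 2) (Fin 2) k) :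
    h ∈ trSub 𝔊 k ↔ ∀ g, (h g).trace = 0 := Iff.rfl


/-! ### change of carrier -/

section Carrier

variable {Ω : Type*} [Field Ω] {Γ₀ : Type*} [LinearOrderedCommGroupWithZero Γ₀]
  (v : Valuation Ω Γ₀) {p : ℕ} [hp : Fact p.Prime]
  {𝔊 : Type*} [Group 𝔊] [MulSemiringAction 𝔊 Ω] (Dd GK : Subgroup 𝔊) (K : Subfield Ω) (ζ : Ω)
  {N N' : Type*} [AddCommGroup N] [AddCommGroup N'] (act : 𝔊 → N →+ N) (act' : 𝔊 → N' →+ N')
  (ι : N' →+ N)

/-- extension of additive functionals along an injective additive map into a `p`-torsion group. -/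
theorem exists_extend_functional (hι : Function.Injective ι) (hpN : ∀ x : N, p • x = 0)
    (ℓ' : N' →+ ZMod p) : ∃ ℓ : N →+ ZMod p, ∀ x, ℓ (ι x) = ℓ' x := by
  have hpN' : ∀ x : N', p • x = 0 := fun x => hι (by rw [map_nsmul, hpN, map_zero])
  let _ : Module (ZMod p) N := AddCommGroup.zmodModule hpN
  let _ : Module (ZMod p) N' := AddCommGroup.zmodModule hpN'
  obtain ⟨r, hr⟩ := LinearMap.exists_leftInverse_of_injective (ι.toZModLinearMap p)
    (LinearMap.ker_eq_bot.mpr hι)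
  refine ⟨ℓ'.comp r.toAddMonoidHom, fun x => ?_⟩
  have h1 := LinearMap.congr_fun hr x
  rw [LinearMap.comp_apply, LinearMap.id_apply, AddMonoidHom.coe_toZModLinearMap] at h1
  rw [AddMonoidHom.comp_apply, LinearMap.toAddMonoidHom_coe, h1]

variable {Dd GK K ζ act act'}

/-- **pull-back of `HLev` along a model**: an element of `HLev` for `N` with values in the range
of an injective equivariant `ι : N' →+ N` comes from an element of `HLev` for `N'`. -/
theorem exists_mem_HLev_of_range (hι : Function.Injective ι)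
    (hequiv : ∀ δ x, ι (act' δ x) = act δ (ι x)) (hpN : ∀ x : N, p • x = 0) {γ : Γ₀}
    {h : 𝔊 → N} (hh : h ∈ HLev (p := p) v Dd GK K ζ act γ) (hr : ∀ g, h g ∈ ι.range) :
    ∃ h' : 𝔊 → N', h' ∈ HLev (p := p) v Dd GK K ζ act' γ ∧ ∀ g, ι (h' g) = h g := by
  choose h' hh' using hr
  obtain ⟨⟨h1, h2, h3, s, h4⟩, hl⟩ := hh
  refine ⟨h', ⟨⟨fun g hg => ?_, fun g hg g' hg' => ?_, fun δ hδ g hg => ?_, s,
    fun g hg hfix => ?_⟩, fun ℓ' => ?_⟩, hh'⟩
  · apply hι; rw [hh', h1 g hg, map_zero]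
  · apply hι; rw [hh', h2 g hg g' hg', map_add, hh', hh']
  · apply hι; rw [hh', h3 δ hδ g hg, hequiv, hh']
  · apply hι; rw [hh', h4 g hg hfix, map_zero]
  · obtain ⟨ℓ, hℓ⟩ := exists_extend_functional ι hι hpN ℓ'
    have : chi ℓ' h' = chi ℓ h := by
      funext g
      show ℓ' (h' g) = ℓ (h g)
      rw [← hh' g, hℓ]
    rw [this]
    exact hl ℓ

/-- functions with values in the range of `ι`. -/
def rangeSub (𝔊 : Type*) {N N' : Type*} [AddCommGroup N] [AddCommGroup N'] (ι : N' →+ N) :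
    AddSubgroup (𝔊 → N) where
  carrier := {h | ∀ g, h g ∈ ι.range}
  zero_mem' := fun _ => ι.range.zero_mem
  add_mem' := fun hh hh' g => ι.range.add_mem (hh g) (hh' g)
  neg_mem' := fun hh g => ι.range.neg_mem (hh g)

variable (hK : ∀ x, x ∈ K ↔ ∀ g ∈ GK, g • x = x) (hζ : IsPrimitiveRoot ζ p) (hζK : ζ ∈ K)
  (horb : ∀ x : Ω, (Set.range fun g : GK => g • x).Finite)

/-- **change of carrier for the count**: `#(hSub(N) ⊓ rangeSub ι) ≤ #hSub(N')`. -/
theorem card_hSub_inf_rangeSub_le (hι : Function.Injective ι)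
    (hequiv : ∀ δ x, ι (act' δ x) = act δ (ι x)) (hpN : ∀ x : N, p • x = 0) {γ : Γ₀} (hγ : γ < 1)
    [Finite ↥(hSub v hK hζ hζK horb (Dd := Dd) (act := act') hγ)] :
    Finite ↥(hSub v hK hζ hζK horb (Dd := Dd) (act := act) hγ ⊓ rangeSub 𝔊 ι) ∧
      Nat.card ↥(hSub v hK hζ hζK horb (Dd := Dd) (act := act) hγ ⊓ rangeSub 𝔊 ι) ≤
        Nat.card ↥(hSub v hK hζ hζK horb (Dd := Dd) (act := act') hγ) := by
  have key : ∀ h : ↥(hSub v hK hζ hζK horb (Dd := Dd) (act := act) hγ ⊓ rangeSub 𝔊 ι),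
      ∃ h' : ↥(hSub v hK hζ hζK horb (Dd := Dd) (act := act') hγ),
        ∀ g, ι ((h' : 𝔊 → N') g) = (h : 𝔊 → N) g := by
    rintro ⟨h, hh, hr⟩
    obtain ⟨h', hh', e⟩ := exists_mem_HLev_of_range v ι hι hequiv hpN
      ((mem_hSub v hK hζ hζK horb hγ h).1 hh) hr
    exact ⟨⟨h', (mem_hSub v hK hζ hζK horb hγ h').2 hh'⟩, e⟩
  choose Ψ hΨ using key
  have hinj : Function.Injective Ψ := by
    intro h₁ h₂ e
    apply Subtype.ext
    funext g
    rw [← hΨ h₁ g, ← hΨ h₂ g, e]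
  exact ⟨Finite.of_injective Ψ hinj, Nat.card_le_card_of_injective Ψ hinj⟩

end Carrier

section End

variable {𝒪 : Type} [CommRing 𝒪] [IsLocalRing 𝒪]
  (ρbar : ResidualGaloisRep (ResidueField 𝒪))
  (b : Module.Basis (Fin 2) (ResidueField 𝒪) ρbar.V)
  (p : ℕ) [Fact p.Prime]
  {N : Rep (ZMod p) S53_helper35.GQ}
  {emb : N →+ Matrix (Fin 2) (Fin 2) (ResidueField 𝒪)}
  [IsDiscrete (levelQ p) (Rep.res (localGaloisToGlobal p) N)]

/-- **SUPERSINGULAR END, trace-cut form**: as `SSEnd.localCond_ss_of_count`, with the count on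
the traceless part `hSub … ⊓ trSub`. -/
theorem localCond_ss_of_count_trace
    (h : GlobModel N (toMatRes ρbar b) emb)
    (GK : Subgroup S53_helper35.GQ)
    (hnorm : ∀ δ ∈ (padicPlace p).decompositionSubgroup ℚ, ∀ g ∈ GK, δ * g * δ⁻¹ ∈ GK)
    (hR : ∀ g ∈ GK, toMatRes ρbar b g = 1)
    (hidx : ((GK.relIndex ((padicPlace p).decompositionSubgroup ℚ) : ℕ) : ResidueField 𝒪) ≠ 0)
    {Γ₀ : Type*} [LinearOrderedCommGroupWithZero Γ₀]
    (v : Valuation (AlgebraicClosure ℚ) Γ₀)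
    {K : Subfield (AlgebraicClosure ℚ)} {ζ : AlgebraicClosure ℚ}
    (hK : ∀ x, x ∈ K ↔ ∀ g ∈ GK, g • x = x) (hζ : IsPrimitiveRoot ζ p) (hζK : ζ ∈ K)
    (horb : ∀ x : AlgebraicClosure ℚ, (Set.range fun g : GK => g • x).Finite)
    {γ : Γ₀} (hγ : γ < 1)
    [Finite ↥(hSub v hK hζ hζK horb (Dd := (padicPlace p).decompositionSubgroup ℚ)
      (act := adAct (toMatRes ρbar b)) hγ ⊓ trSub S53_helper35.GQ (ResidueField 𝒪))]
    (d : ℕ)
    (hcount : Nat.card ↥(hSub v hK hζ hζK horb (Dd := (padicPlace p).decompositionSubgroup ℚ)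
      (act := adAct (toMatRes ρbar b)) hγ ⊓ trSub S53_helper35.GQ (ResidueField 𝒪)) ≤ p ^ d)
    (KB : ∀ (t : S53_helper35.GQ →* Matrix (Fin 2) (Fin 2) (DualNumber (ResidueField 𝒪)))
      (ht : MatCont t), rfst t = toMatRes ρbar b →
      (ofMat t ht).DetIsCyclotomic p → (ofMat t ht).IsFlatAt p →
      ∀ χ : S53_helper35.GQ → ZMod p, (∀ g ∈ GK, ∀ g' ∈ GK, χ (g * g') = χ g + χ g') →
      (∃ s : Finset (AlgebraicClosure ℚ), ∀ g ∈ GK, (∀ x ∈ s, g • x = x) → χ g = 0) →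
      (∀ σ ∈ GK, t σ = 1 → χ σ = 0) → Lev v GK K ζ γ χ) :
    LocalCond ρbar b p N emb p (fun ρ => ρ.DetIsCyclotomic p ∧ ρ.IsFlatAt p) d :=
  localCond_flat_of_H ρbar b p h GK hidx
    (hSub v hK hζ hζK horb (Dd := (padicPlace p).decompositionSubgroup ℚ)
      (act := adAct (toMatRes ρbar b)) hγ ⊓ trSub S53_helper35.GQ (ResidueField 𝒪)) d hcount
    (fun t ht hfst hdet hflat =>
      ⟨suppOn_tanCocycle_mem_hSub (toMatRes ρbar b) _ GK v hK hζ hζK horb hnorm hR hγ t ht hfst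
        (KB t ht hfst hdet hflat), fun g => by
          rw [suppOn_eq_cutoff]
          exact trace_cutoff_tanCocycle t GK ht p (Fact.out : p.Prime).pos hdet g⟩)

/-- **SUPERSINGULAR END, model form**: the count is stated on `hSub` for ANY model
`ι : N' →+ M₂(k)` of the traceless matrices (injective, equivariant for `adAct r̄`, every traceless
matrix in its range), `p = 0` in `k`. -/
theorem localCond_ss_of_count_model
    (h : GlobModel N (toMatRes ρbar b) emb)
    (hpk : (p : ResidueField 𝒪) = 0)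
    (GK : Subgroup S53_helper35.GQ)
    (hnorm : ∀ δ ∈ (padicPlace p).decompositionSubgroup ℚ, ∀ g ∈ GK, δ * g * δ⁻¹ ∈ GK)
    (hR : ∀ g ∈ GK, toMatRes ρbar b g = 1)
    (hidx : ((GK.relIndex ((padicPlace p).decompositionSubgroup ℚ) : ℕ) : ResidueField 𝒪) ≠ 0)
    {Γ₀ : Type*} [LinearOrderedCommGroupWithZero Γ₀]
    (v : Valuation (AlgebraicClosure ℚ) Γ₀)
    {K : Subfield (AlgebraicClosure ℚ)} {ζ : AlgebraicClosure ℚ}
    (hK : ∀ x, x ∈ K ↔ ∀ g ∈ GK, g • x = x) (hζ : IsPrimitiveRoot ζ p) (hζK : ζ ∈ K)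
    (horb : ∀ x : AlgebraicClosure ℚ, (Set.range fun g : GK => g • x).Finite)
    {γ : Γ₀} (hγ : γ < 1)
    {N' : Type*} [AddCommGroup N'] (act' : S53_helper35.GQ → N' →+ N')
    (ι : N' →+ Matrix (Fin 2) (Fin 2) (ResidueField 𝒪)) (hι : Function.Injective ι)
    (hequiv : ∀ δ x, ι (act' δ x) = adAct (toMatRes ρbar b) δ (ι x))
    (hrange : ∀ X : Matrix (Fin 2) (Fin 2) (ResidueField 𝒪), X.trace = 0 → X ∈ ι.range)
    [Finite ↥(hSub v hK hζ hζK horb (Dd := (padicPlace p).decompositionSubgroup ℚ)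
      (act := act') hγ)]
    (d : ℕ)
    (hcount : Nat.card ↥(hSub v hK hζ hζK horb (Dd := (padicPlace p).decompositionSubgroup ℚ)
      (act := act') hγ) ≤ p ^ d)
    (KB : ∀ (t : S53_helper35.GQ →* Matrix (Fin 2) (Fin 2) (DualNumber (ResidueField 𝒪)))
      (ht : MatCont t), rfst t = toMatRes ρbar b →
      (ofMat t ht).DetIsCyclotomic p → (ofMat t ht).IsFlatAt p →
      ∀ χ : S53_helper35.GQ → ZMod p, (∀ g ∈ GK, ∀ g' ∈ GK, χ (g * g') = χ g + χ g') →
      (∃ s : Finset (AlgebraicClosure ℚ), ∀ g ∈ GK, (∀ x ∈ s, g • x = x) → χ g = 0) →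
      (∀ σ ∈ GK, t σ = 1 → χ σ = 0) → Lev v GK K ζ γ χ) :
    LocalCond ρbar b p N emb p (fun ρ => ρ.DetIsCyclotomic p ∧ ρ.IsFlatAt p) d := by
  have hpN : ∀ X : Matrix (Fin 2) (Fin 2) (ResidueField 𝒪), p • X = 0 := by
    intro X
    ext i j
    rw [Matrix.smul_apply, nsmul_eq_mul, hpk, zero_mul, Matrix.zero_apply]
  obtain ⟨hfin, hle⟩ := card_hSub_inf_rangeSub_le v ι hK hζ hζK horb hι hequiv hpN hγ
    (Dd := (padicPlace p).decompositionSubgroup ℚ)
  have hsub : hSub v hK hζ hζK horb (Dd := (padicPlace p).decompositionSubgroup ℚ)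
        (act := adAct (toMatRes ρbar b)) hγ ⊓ trSub S53_helper35.GQ (ResidueField 𝒪) ≤
      hSub v hK hζ hζK horb (Dd := (padicPlace p).decompositionSubgroup ℚ)
        (act := adAct (toMatRes ρbar b)) hγ ⊓ rangeSub S53_helper35.GQ ι :=
    fun x hx => ⟨hx.1, fun g => hrange _ (hx.2 g)⟩
  have : Finite ↥(hSub v hK hζ hζK horb (Dd := (padicPlace p).decompositionSubgroup ℚ)
        (act := adAct (toMatRes ρbar b)) hγ ⊓ trSub S53_helper35.GQ (ResidueField 𝒪)) :=
    Finite.of_injective (AddSubgroup.inclusion hsub) (AddSubgroup.inclusion_injective hsub)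
  refine localCond_ss_of_count_trace ρbar b p h GK hnorm hR hidx v hK hζ hζK horb hγ d ?_ KB
  exact ((AddSubgroup.card_le_of_le hsub).trans hle).trans hcount

end End

end Fermat.Agent.GP.Flat.SSEndTrace
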