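/-
GATE-P / S56 [P-FLAT], node S56-FLAT-SSCONJ (helper84): **transport of the supersingular count
along embeddings and conjugation**, in the subtype shape of helper50's `SSAsm.card_ssLev_le`.

Frame of `GP/Flat/SSChainVec` (arbitrary `𝔊`, `Ω`, `v`, `Dd`, `GK`, `K`, `ζ`).

* `card_HLev_pred_le_of_embedding` : `ι : N' →+ N` injective and equivariant (`act' → act`), `N`
  killed by `p`, predicates `P` on `N`, `P'` on `N'` with `P (ι x) → P' x` and `P x → x ∈ range ι`: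
  `#{h ∈ HLev(N, act) γ | ∀ g, P (h g)} ≤ #{h' ∈ HLev(N', act') γ | ∀ g, P' (h' g)}` (+ finiteness);
* `card_HLev_trace_conj_le` : `N = N' = M₂(k)`, `R' δ = g' * R δ * g` with `g * g' = 1 = g' * g`,
  `act`, `act'` the adjoint actions of `R`, `R'` (stated through their `apply` formula, so that
  `SSMember.adAct` and `SSAsm.adAct` both fit), `P = P' =` trace zero:
  the count for `R'` gives the count for `R`;
* `card_hSub_inf_trSub_le` : from the subtype shape to the carrier `↥(hSub … ⊓ trSub)` of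
  `SSEndTrace.localCond_ss_of_count_trace` (any `act₁` with the same `apply` as `act`).
NEW file; imports only.
-/
import Fermat.Agent.GP.Flat.SSEndTrace

set_option autoImplicit false
set_option linter.unusedSectionVars false

namespace Fermat.Agent.GP.Flat.SSConj

open Matrix Fermat.Agent.GP.Flat.SSChain Fermat.Agent.GP.Flat.SSChainVec
  Fermat.Agent.GP.Flat.SSEndTrace

section General

variable {Ω : Type*} [Field Ω] {Γ₀ : Type*} [LinearOrderedCommGroupWithZero Γ₀]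
  (v : Valuation Ω Γ₀) {p : ℕ} [hp : Fact p.Prime]
  {𝔊 : Type*} [Group 𝔊] [MulSemiringAction 𝔊 Ω] {Dd GK : Subgroup 𝔊} {K : Subfield Ω} {ζ : Ω}
  {N N' : Type*} [AddCommGroup N] [AddCommGroup N'] {act : 𝔊 → N →+ N} {act' : 𝔊 → N' →+ N'}
  (ι : N' →+ N)

/-- **transport of a count along an embedding of coefficient groups.** -/
theorem card_HLev_pred_le_of_embedding (hι : Function.Injective ι)
    (hequiv : ∀ δ x, ι (act' δ x) = act δ (ι x)) (hpN : ∀ x : N, p • x = 0) {γ : Γ₀}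
    (P : N → Prop) (P' : N' → Prop) (hP : ∀ x, P (ι x) → P' x) (hPr : ∀ x, P x → x ∈ ι.range)
    [Finite {h' : 𝔊 → N' // h' ∈ HLev (p := p) v Dd GK K ζ act' γ ∧ ∀ g, P' (h' g)}] :
    Finite {h : 𝔊 → N // h ∈ HLev (p := p) v Dd GK K ζ act γ ∧ ∀ g, P (h g)} ∧
      Nat.card {h : 𝔊 → N // h ∈ HLev (p := p) v Dd GK K ζ act γ ∧ ∀ g, P (h g)} ≤
        Nat.card {h' : 𝔊 → N' // h' ∈ HLev (p := p) v Dd GK K ζ act' γ ∧ ∀ g, P' (h' g)} := by
  have key : ∀ h : {h : 𝔊 → N // h ∈ HLev (p := p) v Dd GK K ζ act γ ∧ ∀ g, P (h g)},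
      ∃ h' : {h' : 𝔊 → N' // h' ∈ HLev (p := p) v Dd GK K ζ act' γ ∧ ∀ g, P' (h' g)},
        ∀ g, ι (h'.1 g) = h.1 g := by
    rintro ⟨h, hh, hPh⟩
    obtain ⟨h', hh', e⟩ := exists_mem_HLev_of_range v ι hι hequiv hpN hh
      (fun g => hPr _ (hPh g))
    exact ⟨⟨h', hh', fun g => hP _ (by rw [e g]; exact hPh g)⟩, e⟩
  choose Ψ hΨ using key
  have hinj : Function.Injective Ψ := by
    intro h₁ h₂ e
    apply Subtype.ext
    funext g
    rw [← hΨ h₁ g, ← hΨ h₂ g, e]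
  exact ⟨Finite.of_injective Ψ hinj, Nat.card_le_card_of_injective Ψ hinj⟩

end General

section Conj

variable {Ω : Type*} [Field Ω] {Γ₀ : Type*} [LinearOrderedCommGroupWithZero Γ₀]
  (v : Valuation Ω Γ₀) {p : ℕ} [hp : Fact p.Prime]
  {𝔊 : Type*} [Group 𝔊] [MulSemiringAction 𝔊 Ω] {Dd GK : Subgroup 𝔊} {K : Subfield Ω} {ζ : Ω}
  {k : Type*} [Field k]

/-- conjugation `X ↦ g * X * g'` as an additive map. -/
def conjHom (g g' : Matrix (Fin 2) (Fin 2) k) :
    Matrix (Fin 2) (Fin 2) k →+ Matrix (Fin 2) (Fin 2) k :=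
  (AddMonoidHom.mulRight g').comp (AddMonoidHom.mulLeft g)

@[simp] theorem conjHom_apply (g g' X : Matrix (Fin 2) (Fin 2) k) :
    conjHom g g' X = g * X * g' := rfl

theorem conjHom_injective {g g' : Matrix (Fin 2) (Fin 2) k} (h' : g' * g = 1) :
    Function.Injective (conjHom g g') := by
  intro X Y e
  simp only [conjHom_apply] at e
  have h1 : ∀ Z : Matrix (Fin 2) (Fin 2) k, g' * (g * Z * g') * g = Z := by
    intro Z
    calc g' * (g * Z * g') * g = (g' * g) * Z * (g' * g) := by simp only [Matrix.mul_assoc]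
      _ = Z := by rw [h', Matrix.one_mul, Matrix.mul_one]
  rw [← h1 X, e, h1 Y]

theorem mem_range_conjHom {g g' : Matrix (Fin 2) (Fin 2) k} (h : g * g' = 1)
    (X : Matrix (Fin 2) (Fin 2) k) : X ∈ (conjHom g g').range :=
  ⟨g' * X * g, by
    rw [conjHom_apply]
    calc g * (g' * X * g) * g' = (g * g') * X * (g * g') := by simp only [Matrix.mul_assoc]
      _ = X := by rw [h, Matrix.one_mul, Matrix.mul_one]⟩

theorem trace_conjHom {g g' : Matrix (Fin 2) (Fin 2) k} (h' : g' * g = 1)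
    (X : Matrix (Fin 2) (Fin 2) k) : (conjHom g g' X).trace = X.trace := by
  rw [conjHom_apply, Matrix.trace_mul_comm, ← Matrix.mul_assoc, h', Matrix.one_mul]

/-- **conjugation invariance of the traceless count** (subtype shape of helper50's
`card_ssLev_le`): if `R' δ = g' * R δ * g` with `g`, `g'` mutually inverse, and `act`, `act'` are
the adjoint actions of `R`, `R'`, the count for `R'` bounds the count for `R`. -/
theorem card_HLev_trace_conj_le [CharP k p]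
    (R R' : 𝔊 →* Matrix (Fin 2) (Fin 2) k) {g g' : Matrix (Fin 2) (Fin 2) k}
    (hgg' : g * g' = 1) (hg'g : g' * g = 1) (hRR' : ∀ δ, R' δ = g' * R δ * g)
    {act act' : 𝔊 → Matrix (Fin 2) (Fin 2) k →+ Matrix (Fin 2) (Fin 2) k}
    (hact : ∀ δ X, act δ X = R δ * X * R δ⁻¹) (hact' : ∀ δ X, act' δ X = R' δ * X * R' δ⁻¹)
    {γ : Γ₀}
    [Finite {h' : 𝔊 → Matrix (Fin 2) (Fin 2) k //
      h' ∈ HLev (p := p) v Dd GK K ζ act' γ ∧ ∀ g, (h' g).trace = 0}] :
    Finite {h : 𝔊 → Matrix (Fin 2) (Fin 2) k //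
        h ∈ HLev (p := p) v Dd GK K ζ act γ ∧ ∀ g, (h g).trace = 0} ∧
      Nat.card {h : 𝔊 → Matrix (Fin 2) (Fin 2) k //
        h ∈ HLev (p := p) v Dd GK K ζ act γ ∧ ∀ g, (h g).trace = 0} ≤
      Nat.card {h' : 𝔊 → Matrix (Fin 2) (Fin 2) k //
        h' ∈ HLev (p := p) v Dd GK K ζ act' γ ∧ ∀ g, (h' g).trace = 0} := by
  have hpN : ∀ X : Matrix (Fin 2) (Fin 2) k, p • X = 0 := by
    intro X
    ext i j
    rw [Matrix.smul_apply, nsmul_eq_mul, CharP.cast_eq_zero, zero_mul, Matrix.zero_apply]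
  refine card_HLev_pred_le_of_embedding v (conjHom g g') (conjHom_injective hg'g)
    (fun δ X => ?_) hpN (fun X => X.trace = 0) (fun X => X.trace = 0)
    (fun X hX => by rwa [trace_conjHom hg'g] at hX)
    (fun X _ => mem_range_conjHom hgg' X)
  rw [hact, hact', conjHom_apply, conjHom_apply, hRR', hRR']
  calc g * (g' * R δ * g * X * (g' * R δ⁻¹ * g)) * g'
      = (g * g') * R δ * (g * X * g') * R δ⁻¹ * (g * g') := by simp only [Matrix.mul_assoc]
    _ = R δ * (g * X * g') * R δ⁻¹ := by rw [hgg', Matrix.one_mul, Matrix.mul_one]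

/-- the conjugate representation `δ ↦ g' * R δ * g` (`g`, `g'` mutually inverse). -/
def conjRep (R : 𝔊 →* Matrix (Fin 2) (Fin 2) k) (g g' : Matrix (Fin 2) (Fin 2) k)
    (hgg' : g * g' = 1) : 𝔊 →* Matrix (Fin 2) (Fin 2) k where
  toFun δ := g' * R δ * g
  map_one' := by
    have hg'g : g' * g = 1 := mul_eq_one_comm.mp hgg'
    rw [map_one, Matrix.mul_one, hg'g]
  map_mul' δ δ' := by
    rw [map_mul]
    calc g' * (R δ * R δ') * g = g' * R δ * 1 * (R δ' * g) := by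
          simp only [Matrix.mul_assoc, Matrix.one_mul]
      _ = g' * R δ * g * (g' * R δ' * g) := by rw [← hgg']; simp only [Matrix.mul_assoc]

@[simp] theorem conjRep_apply (R : 𝔊 →* Matrix (Fin 2) (Fin 2) k) (g g' : Matrix (Fin 2) (Fin 2) k)
    (hgg' : g * g' = 1) (δ : 𝔊) : conjRep R g g' hgg' δ = g' * R δ * g := rfl

/-- the conjugate representation by an element of `GL₂(k)`: `δ ↦ g⁻¹ * R δ * g` (the shape of
helper36's `SSGK.exists_matrix_form`). -/
def conjRepGL (R : 𝔊 →* Matrix (Fin 2) (Fin 2) k) (g : GL (Fin 2) k) :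
    𝔊 →* Matrix (Fin 2) (Fin 2) k :=
  conjRep R (g : Matrix (Fin 2) (Fin 2) k) ((g⁻¹ : GL (Fin 2) k) : Matrix (Fin 2) (Fin 2) k)
    (by rw [← Units.val_mul, mul_inv_cancel, Units.val_one])

@[simp] theorem conjRepGL_apply (R : 𝔊 →* Matrix (Fin 2) (Fin 2) k) (g : GL (Fin 2) k) (δ : 𝔊) :
    conjRepGL R g δ =
      ((g⁻¹ : GL (Fin 2) k) : Matrix (Fin 2) (Fin 2) k) * R δ * (g : Matrix (Fin 2) (Fin 2) k) :=
  rfl

/-- **conjugation invariance of the traceless count, `GL₂` form**: the count for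
`δ ↦ g⁻¹ * R δ * g` bounds the count for `R`. -/
theorem card_HLev_trace_conjGL_le [CharP k p]
    (R : 𝔊 →* Matrix (Fin 2) (Fin 2) k) (g : GL (Fin 2) k)
    {act act' : 𝔊 → Matrix (Fin 2) (Fin 2) k →+ Matrix (Fin 2) (Fin 2) k}
    (hact : ∀ δ X, act δ X = R δ * X * R δ⁻¹)
    (hact' : ∀ δ X, act' δ X = conjRepGL R g δ * X * conjRepGL R g δ⁻¹)
    {γ : Γ₀}
    [Finite {h' : 𝔊 → Matrix (Fin 2) (Fin 2) k //
      h' ∈ HLev (p := p) v Dd GK K ζ act' γ ∧ ∀ g, (h' g).trace = 0}] :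
    Finite {h : 𝔊 → Matrix (Fin 2) (Fin 2) k //
        h ∈ HLev (p := p) v Dd GK K ζ act γ ∧ ∀ g, (h g).trace = 0} ∧
      Nat.card {h : 𝔊 → Matrix (Fin 2) (Fin 2) k //
        h ∈ HLev (p := p) v Dd GK K ζ act γ ∧ ∀ g, (h g).trace = 0} ≤
      Nat.card {h' : 𝔊 → Matrix (Fin 2) (Fin 2) k //
        h' ∈ HLev (p := p) v Dd GK K ζ act' γ ∧ ∀ g, (h' g).trace = 0} :=
  card_HLev_trace_conj_le v R (conjRepGL R g)
    (g := (g : Matrix (Fin 2) (Fin 2) k)) (g' := ((g⁻¹ : GL (Fin 2) k) : Matrix (Fin 2) (Fin 2) k))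
    (by rw [← Units.val_mul, mul_inv_cancel, Units.val_one])
    (by rw [← Units.val_mul, inv_mul_cancel, Units.val_one])
    (fun δ => rfl) hact hact'

end Conj

section Bridge

variable {Ω : Type*} [Field Ω] {Γ₀ : Type*} [LinearOrderedCommGroupWithZero Γ₀]
  (v : Valuation Ω Γ₀) {p : ℕ} [hp : Fact p.Prime]
  {𝔊 : Type*} [Group 𝔊] [MulSemiringAction 𝔊 Ω] {Dd GK : Subgroup 𝔊} {K : Subfield Ω} {ζ : Ω}
  {k : Type*} [Field k]
  (hK : ∀ x, x ∈ K ↔ ∀ g ∈ GK, g • x = x) (hζ : IsPrimitiveRoot ζ p) (hζK : ζ ∈ K)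
  (horb : ∀ x : Ω, (Set.range fun g : GK => g • x).Finite)

/-- **from the subtype shape to the carrier of `SSEndTrace.localCond_ss_of_count_trace`**: two
actions with the same values give the same `HLev`; the subtype
`{h // h ∈ HLev … act γ ∧ traceless}` and `↥(hSub … (act := act₁) hγ ⊓ trSub)` have the same
elements. -/
theorem card_hSub_inf_trSub_le
    {act act₁ : 𝔊 → Matrix (Fin 2) (Fin 2) k →+ Matrix (Fin 2) (Fin 2) k}
    (hact : ∀ δ X, act₁ δ X = act δ X) {γ : Γ₀} (hγ : γ < 1)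
    [Finite {h : 𝔊 → Matrix (Fin 2) (Fin 2) k //
      h ∈ HLev (p := p) v Dd GK K ζ act γ ∧ ∀ g, (h g).trace = 0}] :
    Finite ↥(hSub v hK hζ hζK horb (Dd := Dd) (act := act₁) hγ ⊓ trSub 𝔊 k) ∧
      Nat.card ↥(hSub v hK hζ hζK horb (Dd := Dd) (act := act₁) hγ ⊓ trSub 𝔊 k) ≤
        Nat.card {h : 𝔊 → Matrix (Fin 2) (Fin 2) k //
          h ∈ HLev (p := p) v Dd GK K ζ act γ ∧ ∀ g, (h g).trace = 0} := by
  have hact' : act₁ = act := by
    funext δ
    ext X : 1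
    exact hact δ X
  subst hact'
  let Ψ : ↥(hSub v hK hζ hζK horb (Dd := Dd) (act := act₁) hγ ⊓ trSub 𝔊 k) →
      {h : 𝔊 → Matrix (Fin 2) (Fin 2) k //
        h ∈ HLev (p := p) v Dd GK K ζ act₁ γ ∧ ∀ g, (h g).trace = 0} :=
    fun h => ⟨h.1, (mem_hSub v hK hζ hζK horb hγ h.1).1 h.2.1, h.2.2⟩
  have hinj : Function.Injective Ψ := by
    intro h₁ h₂ e
    apply Subtype.ext
    exact congrArg Subtype.val e
  exact ⟨Finite.of_injective Ψ hinj, Nat.card_le_card_of_injective Ψ hinj⟩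

end Bridge

end Fermat.Agent.GP.Flat.SSConj
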