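/-
GATE-P / S56 [P-FLAT] S56-FLAT-SSTHETA part 1 (helper75): **the tame character of a discretely
valued frame**, abstract.

Frame of `GP/Flat/SSChainVec`: `𝔊` acts on the field `Ω`, `v` a valuation, `K` a subfield with a
residue map `res : Ω → κ` (`IsRes v K res`), `π ∈ K` a uniformiser (`hdisc`).

* `IsIso δ`   : `δ` is a `v`-isometry preserving `K` (elements of the decomposition group);
* `IsInert s` : moreover `s` acts trivially on the residue field (elements of the inertia group);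
* `theta res π δ := res (δ • π / π)`.

Results: `theta_mul` (crossed multiplicativity; multiplicative on inertia: `theta_mul_inert`),
`res_smul_pow_div` (`res (δ • π ^ i / π ^ i) = theta δ ^ i`, the factor of `lcFun_tw` at
`ϖ = π ^ i`), `res_inert_div` (`res (s • x / x) = theta s ^ r` for `v x = v π ^ r`),
`theta_pow_eq_one` (`theta s ^ e = 1` if `v π ^ e = v q`, `q` a nonzero integer),
`natCast_eq_theta_pow` (`(c : κ) = theta s ^ m` if `s • ζ = ζ ^ c`, `v (ζ - 1) = v π ^ m`),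
`theta_conj` (`theta (δ s δ⁻¹) = actκ (theta s)`), `val_smul_sub_lt` (`theta s = 1` ⟹ `s` moves
every element of `O_K` by a strictly smaller amount), `smul_eq_of_theta_eq_one` (`theta s = 1`,
`s ^ n • π = π`, `v n = 1` ⟹ `s • π = π`: the wild inertia is a `p`-group).
-/
import Fermat.Agent.GP.Flat.SSChainVec

set_option autoImplicit false
set_option linter.unusedSectionVars false

namespace Fermat.Agent.GP.Flat.SSTheta

open Finset
open Fermat.Agent.GP.Ram.KummerBreak Fermat.Agent.GP.Flat.SSChainVec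

variable {Ω : Type*} [Field Ω] {Γ₀ : Type*} [LinearOrderedCommGroupWithZero Γ₀]
  (v : Valuation Ω Γ₀) {𝔊 : Type*} [Group 𝔊] [MulSemiringAction 𝔊 Ω] (K : Subfield Ω)
  {κ : Type*} [Field κ] (res : Ω → κ)

/-- `δ` is a `v`-isometry preserving `K`. -/
def IsIso (δ : 𝔊) : Prop := (∀ x : Ω, v (δ • x) = v x) ∧ ∀ x ∈ K, δ • x ∈ K

/-- `s` is an isometry preserving `K` and acting trivially on the residue field of `K`. -/
def IsInert (s : 𝔊) : Prop := IsIso v K s ∧ ∀ x ∈ K, v x ≤ 1 → v (s • x - x) < 1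

/-- the tame character (a crossed homomorphism on the isometries, a character on inertia). -/
def theta (π : Ω) (δ : 𝔊) : κ := res (δ • π / π)

variable {v K}

theorem IsIso.one : IsIso v K (1 : 𝔊) := ⟨fun x => by rw [one_smul], fun x hx => by rwa [one_smul]⟩

theorem IsIso.mul {δ δ' : 𝔊} (h : IsIso v K δ) (h' : IsIso v K δ') : IsIso v K (δ * δ') :=
  ⟨fun x => by rw [mul_smul, h.1, h'.1], fun x hx => by rw [mul_smul]; exact h.2 _ (h'.2 x hx)⟩

theorem IsIso.inv {δ : 𝔊} (h : IsIso v K δ) (hinv : ∀ x ∈ K, δ⁻¹ • x ∈ K) : IsIso v K δ⁻¹ :=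
  ⟨fun x => by rw [← h.1 (δ⁻¹ • x), smul_inv_smul], hinv⟩

theorem IsIso.pow {δ : 𝔊} (h : IsIso v K δ) (n : ℕ) : IsIso v K (δ ^ n) := by
  induction n with
  | zero => rw [pow_zero]; exact IsIso.one
  | succ n ih => rw [pow_succ]; exact ih.mul h

theorem IsInert.one : IsInert v K (1 : 𝔊) :=
  ⟨IsIso.one, fun x _ _ => by rw [one_smul, sub_self, v.map_zero]; exact zero_lt_one⟩

theorem IsInert.mul {s t : 𝔊} (hs : IsInert v K s) (ht : IsInert v K t) :
    IsInert v K (s * t) := by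
  refine ⟨hs.1.mul ht.1, fun x hx hx1 => ?_⟩
  have h1 : (s * t) • x - x = s • (t • x - x) + (s • x - x) := by
    rw [mul_smul, smul_sub]; ring
  rw [h1]
  refine v.map_add_lt ?_ (hs.2 x hx hx1)
  rw [hs.1.1]
  exact ht.2 x hx hx1

theorem IsInert.pow {s : 𝔊} (hs : IsInert v K s) (n : ℕ) : IsInert v K (s ^ n) := by
  induction n with
  | zero => rw [pow_zero]; exact IsInert.one
  | succ n ih => rw [pow_succ]; exact ih.mul hs

/-! ### units of the form `δ • x / x` -/

theorem smul_ne_zero' (δ : 𝔊) {x : Ω} (hx0 : x ≠ 0) : δ • x ≠ 0 :=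
  fun h0 => hx0 ((smul_eq_zero_iff_eq δ).mp h0)

theorem smul_div_mem {δ : 𝔊} (hδ : IsIso v K δ) {x : Ω} (hxK : x ∈ K) : δ • x / x ∈ K :=
  K.div_mem (hδ.2 x hxK) hxK

theorem val_smul_div {δ : 𝔊} (hδ : IsIso v K δ) {x : Ω} (hx0 : x ≠ 0) : v (δ • x / x) = 1 := by
  rw [map_div₀, hδ.1, div_self ((Valuation.ne_zero_iff v).mpr hx0)]

section Res

variable {res} (hres : IsRes v K res)

include hres

theorem res_ne_zero {x : Ω} (hxK : x ∈ K) (hx : v x = 1) : res x ≠ 0 := by
  intro h0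
  have := (hres.2.2 x hxK (le_of_eq hx)).mp h0
  rw [hx] at this
  exact lt_irrefl _ this

theorem res_inv {x : Ω} (hxK : x ∈ K) (hx : v x = 1) : res x⁻¹ = (res x)⁻¹ := by
  have hx0 : x ≠ 0 := by
    intro h0; rw [h0, v.map_zero] at hx; exact zero_ne_one hx
  have hxi : v x⁻¹ = 1 := by rw [map_inv₀, hx, inv_one]
  have h1 := hres.2.1 x hxK x⁻¹ (K.inv_mem hxK) (le_of_eq hx) (le_of_eq hxi)
  rw [mul_inv_cancel₀ hx0, hres.one v] at h1
  exact eq_inv_of_mul_eq_one_right h1.symm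

theorem res_div {x y : Ω} (hxK : x ∈ K) (hyK : y ∈ K) (hx : v x ≤ 1) (hy : v y = 1) :
    res (x / y) = res x / res y := by
  have hyi : v y⁻¹ = 1 := by rw [map_inv₀, hy, inv_one]
  rw [div_eq_mul_inv, hres.2.1 x hxK y⁻¹ (K.inv_mem hyK) hx (le_of_eq hyi), res_inv hres hyK hy,
    div_eq_mul_inv]

theorem res_zpow {x : Ω} (hxK : x ∈ K) (hx : v x = 1) (r : ℤ) : res (x ^ r) = res x ^ r := by
  cases r with
  | ofNat n =>
    rw [Int.ofNat_eq_natCast, zpow_natCast, zpow_natCast]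
    exact hres.pow v hxK (le_of_eq hx) n
  | negSucc n =>
    rw [zpow_negSucc, zpow_negSucc,
      res_inv hres (K.pow_mem hxK _) (by rw [v.map_pow, hx, one_pow]),
      hres.pow v hxK (le_of_eq hx)]

/-- inertia fixes residues. -/
theorem res_inert {s : 𝔊} (hs : IsInert v K s) {x : Ω} (hxK : x ∈ K) (hx : v x ≤ 1) :
    res (s • x) = res x :=
  (hres.eq_iff v (hs.1.2 x hxK) hxK (by rw [hs.1.1]; exact hx) hx).mpr (hs.2 x hxK hx)

/-- inertia acts trivially on units modulo `1 + 𝔪`. -/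
theorem res_inert_div_unit {s : 𝔊} (hs : IsInert v K s) {u : Ω} (huK : u ∈ K) (hu : v u = 1) :
    res (s • u / u) = 1 := by
  rw [res_div hres (hs.1.2 u huK) huK (by rw [hs.1.1, hu]) hu,
    res_inert hres hs huK (le_of_eq hu), div_self (res_ne_zero hres huK hu)]

variable {π : Ω} (hπK : π ∈ K) (hπ0 : π ≠ 0)

include hπK hπ0

theorem theta_ne_zero {δ : 𝔊} (hδ : IsIso v K δ) : theta res π δ ≠ 0 :=
  res_ne_zero hres (smul_div_mem hδ hπK) (val_smul_div hδ hπ0)

theorem theta_one : theta res π (1 : 𝔊) = 1 := by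
  unfold theta
  rw [one_smul, div_self hπ0, hres.one v]

/-- **(T2)** `res (δ • π ^ i / π ^ i) = theta δ ^ i`. -/
theorem res_smul_pow_div {δ : 𝔊} (hδ : IsIso v K δ) (i : ℕ) :
    res (δ • π ^ i / π ^ i) = theta res π δ ^ i := by
  unfold theta
  rw [smul_pow', ← div_pow]
  exact hres.pow v (smul_div_mem hδ hπK) (le_of_eq (val_smul_div hδ hπ0)) i

/-- **(T1)** crossed multiplicativity: `theta (δ δ') = actκ (theta δ') * theta δ`. -/
theorem theta_mul {δ δ' : 𝔊} (hδ : IsIso v K δ) (hδ' : IsIso v K δ') (actκ : κ → κ)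
    (hresδ : ∀ x ∈ K, v x ≤ 1 → res (δ • x) = actκ (res x)) :
    theta res π (δ * δ') = actκ (theta res π δ') * theta res π δ := by
  unfold theta
  have hδπ0 : δ • π ≠ 0 := smul_ne_zero' δ hπ0
  have h1 : (δ * δ') • π / π = δ • (δ' • π / π) * (δ • π / π) := by
    rw [mul_smul, smul_div₀']
    field_simp
  have hu'K := smul_div_mem hδ' hπK
  have hu' := val_smul_div (v := v) hδ' hπ0
  rw [h1, hres.2.1 _ (hδ.2 _ hu'K) _ (smul_div_mem hδ hπK) (by rw [hδ.1, hu'])
    (le_of_eq (val_smul_div hδ hπ0)), hresδ _ hu'K (le_of_eq hu')]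

/-- `theta` is multiplicative on inertia. -/
theorem theta_mul_inert {s t : 𝔊} (hs : IsInert v K s) (ht : IsIso v K t) :
    theta res π (s * t) = theta res π s * theta res π t := by
  rw [theta_mul hres hπK hπ0 hs.1 ht id (fun x hxK hx => res_inert hres hs hxK hx), id, mul_comm]

theorem theta_pow_inert {s : 𝔊} (hs : IsInert v K s) (n : ℕ) :
    theta res π (s ^ n) = theta res π s ^ n := by
  induction n with
  | zero => rw [pow_zero, pow_zero]; exact theta_one hres hπK hπ0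
  | succ n ih =>
    rw [pow_succ', theta_mul_inert hres hπK hπ0 hs (hs.pow n).1, ih, pow_succ']

/-- **(T2')** for an inertia element and `v x = v π ^ r`: `res (s • x / x) = theta s ^ r`. -/
theorem res_inert_div {s : 𝔊} (hs : IsInert v K s) {x : Ω} (hxK : x ∈ K) (hx0 : x ≠ 0) {r : ℤ}
    (hr : v x = v π ^ r) : res (s • x / x) = theta res π s ^ r := by
  have hvπ0 : v π ≠ 0 := (Valuation.ne_zero_iff v).mpr hπ0
  have hπr0 : π ^ r ≠ 0 := zpow_ne_zero r hπ0
  set u := x / π ^ r with hu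
  have huK : u ∈ K := K.div_mem hxK (K.zpow_mem hπK r)
  have hvu : v u = 1 := by
    rw [hu, map_div₀, map_zpow₀, hr, div_self (zpow_ne_zero r hvπ0)]
  have hu0 : u ≠ 0 := div_ne_zero hx0 hπr0
  have hx : x = π ^ r * u := by rw [hu]; field_simp
  have hsπ0 : s • π ≠ 0 := smul_ne_zero' s hπ0
  have hsu0 : s • u ≠ 0 := smul_ne_zero' s hu0
  have h1 : s • x / x = (s • π / π) ^ r * (s • u / u) := by
    rw [hx, smul_mul', smul_zpow₀', div_zpow]
    field_simp
  have hwK := smul_div_mem hs.1 hπK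
  have hw := val_smul_div (v := v) hs.1 hπ0
  rw [h1, hres.2.1 _ (K.zpow_mem hwK r) _ (smul_div_mem hs.1 huK)
    (by rw [map_zpow₀, hw, one_zpow]) (le_of_eq (val_smul_div hs.1 hu0)),
    res_zpow hres hwK hw, res_inert_div_unit hres hs huK hvu, mul_one]
  rfl

/-- **(T3)** `theta s ^ e = 1` on inertia, if `v π ^ e = v q` for a nonzero integer `q`. -/
theorem theta_pow_eq_one {s : 𝔊} (hs : IsInert v K s) {q e : ℕ} (hq0 : (q : Ω) ≠ 0)
    (he : v π ^ e = v (q : Ω)) : theta res π s ^ e = 1 := by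
  have h1 := res_inert_div hres hπK hπ0 hs (natCast_mem K q) hq0 (r := (e : ℤ))
    (by rw [zpow_natCast]; exact he.symm)
  rw [zpow_natCast] at h1
  rw [← h1]
  have h2 : s • (q : Ω) = q := map_natCast (MulSemiringAction.toRingHom 𝔊 Ω s) q
  rw [h2, div_self hq0, hres.one v]

/-- **(T4)** the cyclotomic character is a power of the tame character: if `s • ζ = ζ ^ c` and
`v (ζ - 1) = v π ^ m < 1` then `(c : κ) = theta s ^ m`. -/
theorem natCast_eq_theta_pow {s : 𝔊} (hs : IsInert v K s) {ζ : Ω} (hζK : ζ ∈ K) (hζ1 : ζ ≠ 1)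
    (hlam : v (ζ - 1) < 1) {c m : ℕ} (hsζ : s • ζ = ζ ^ c) (hm : v (ζ - 1) = v π ^ m) :
    (c : κ) = theta res π s ^ m := by
  have hl0 : ζ - 1 ≠ 0 := sub_ne_zero.mpr hζ1
  have hlK : ζ - 1 ∈ K := K.sub_mem hζK K.one_mem
  have h1 := res_inert_div hres hπK hπ0 hs hlK hl0 (r := (m : ℤ))
    (by rw [zpow_natCast]; exact hm)
  rw [zpow_natCast] at h1
  rw [← h1]
  have hvζ : v ζ = 1 := by
    have : ζ = 1 + (ζ - 1) := by ring
    rw [this]; exact v.map_one_add_of_lt hlam
  -- `s • (ζ - 1) / (ζ - 1) = ∑_{j < c} ζ ^ j`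
  have h2 : s • (ζ - 1) / (ζ - 1) = ∑ j ∈ range c, ζ ^ j := by
    rw [smul_sub, smul_one, hsζ, ← geom_sum_mul, mul_div_assoc, div_self hl0, mul_one]
  have hgK : ∑ j ∈ range c, ζ ^ j ∈ K := K.sum_mem fun j _ => K.pow_mem hζK j
  have hg1 : v (∑ j ∈ range c, ζ ^ j) ≤ 1 := val_geom_sum_le_one v (le_of_eq hvζ) c
  have hcong : v (∑ j ∈ range c, ζ ^ j - (c : Ω)) < 1 := by
    have h3 : ∑ j ∈ range c, ζ ^ j - (c : Ω) = ∑ j ∈ range c, (ζ ^ j - 1) := by
      rw [sum_sub_distrib, sum_const, card_range, nsmul_eq_mul, mul_one]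
    rw [h3]
    refine v.map_sum_lt zero_lt_one.ne' fun j _ => ?_
    exact lt_of_le_of_lt (val_pow_sub_one_le v (le_of_eq hvζ) j) hlam
  rw [h2, (hres.eq_iff v hgK (natCast_mem K c) hg1 (val_natCast_le_one v c)).mpr hcong,
    hres.natCast v]

/-- independence of the uniformiser, on inertia. -/
theorem theta_eq_of_unit {s : 𝔊} (hs : IsInert v K s) {u : Ω} (huK : u ∈ K) (hu : v u = 1) :
    theta res (π * u) s = theta res π s := by
  unfold theta
  have hu0 : u ≠ 0 := by
    intro h0; rw [h0, v.map_zero] at hu; exact zero_ne_one hu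
  have hsπ0 : s • π ≠ 0 := smul_ne_zero' s hπ0
  have h1 : s • (π * u) / (π * u) = (s • π / π) * (s • u / u) := by
    rw [smul_mul']; field_simp
  rw [h1, hres.2.1 _ (smul_div_mem hs.1 hπK) _ (smul_div_mem hs.1 huK)
    (le_of_eq (val_smul_div hs.1 hπ0)) (le_of_eq (val_smul_div hs.1 hu0)),
    res_inert_div_unit hres hs huK hu, mul_one]

/-- **conjugation**: `theta (δ s δ⁻¹) = actκ (theta s)` for `s` in inertia, `δ` an isometry
with residual action `actκ`. -/
theorem theta_conj {s δ : 𝔊} (hs : IsInert v K s) (hδ : IsIso v K δ)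
    (hδinv : ∀ x ∈ K, δ⁻¹ • x ∈ K) (actκ : κ → κ)
    (hresδ : ∀ x ∈ K, v x ≤ 1 → res (δ • x) = actκ (res x)) :
    theta res π (δ * s * δ⁻¹) = actκ (theta res π s) := by
  have hδi : IsIso v K δ⁻¹ := hδ.inv hδinv
  set u := δ⁻¹ • π / π with hu
  have huK : u ∈ K := smul_div_mem hδi hπK
  have hvu : v u = 1 := val_smul_div hδi hπ0
  have hπ' : δ⁻¹ • π = π * u := by rw [hu]; field_simp
  have h1 : theta res π (δ * s * δ⁻¹) = res (δ • (s • (π * u) / (π * u))) := by
    unfold theta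
    congr 1
    rw [← hπ', smul_div₀', smul_inv_smul, mul_smul, mul_smul]
  have hwK : s • (π * u) / (π * u) ∈ K := smul_div_mem hs.1 (K.mul_mem hπK huK)
  have hπu0 : π * u ≠ 0 := by
    rw [← hπ']; exact smul_ne_zero' _ hπ0
  have hw : v (s • (π * u) / (π * u)) = 1 := val_smul_div hs.1 hπu0
  rw [h1, hresδ _ hwK (le_of_eq hw)]
  congr 1
  exact theta_eq_of_unit hres hπK hπ0 hs huK hvu

/-! ### the kernel of `theta` is wild -/

variable (hπ1 : v π < 1) (hdisc : ∀ x ∈ K, x ≠ 0 → ∃ n : ℤ, v x = v π ^ n)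

include hπ1 hdisc

/-- if `theta s = 1` then `s` moves every nonzero element of `K` by a strictly smaller amount. -/
theorem val_smul_sub_lt {s : 𝔊} (hs : IsInert v K s) (hθ : theta res π s = 1) {x : Ω}
    (hxK : x ∈ K) (hx0 : x ≠ 0) : v (s • x - x) < v x := by
  obtain ⟨r, hr⟩ := hdisc x hxK hx0
  have h1 := res_inert_div hres hπK hπ0 hs hxK hx0 hr
  rw [hθ, one_zpow] at h1
  have h2 := (hres.eq_iff v (smul_div_mem hs.1 hxK) K.one_mem
    (le_of_eq (val_smul_div hs.1 hx0)) (le_of_eq v.map_one)).mp (h1.trans (hres.one v).symm)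
  have hvx0 : 0 < v x := v.pos_iff.mpr hx0
  have h3 : s • x - x = (s • x / x - 1) * x := by field_simp
  rw [h3, map_mul]
  calc v (s • x / x - 1) * v x < 1 * v x := mul_lt_mul_of_pos_right h2 hvx0
    _ = v x := one_mul _

/-- **the kernel of `theta` is a `p`-group**: if `theta s = 1`, `s ^ n • π = π` and `n` is a unit
then `s • π = π`. -/
theorem smul_eq_of_theta_eq_one {s : 𝔊} (hs : IsInert v K s) (hθ : theta res π s = 1) {n : ℕ}
    (hn : v (n : Ω) = 1) (hsn : s ^ n • π = π) : s • π = π := by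
  by_contra hne
  set x := s • π - π with hx
  have hx0 : x ≠ 0 := sub_ne_zero.mpr hne
  have hxK : x ∈ K := K.sub_mem (hs.1.2 π hπK) hπK
  have hsx : v (s • x - x) < v x := val_smul_sub_lt hres hπK hπ0 hπ1 hdisc hs hθ hxK hx0
  have key : ∀ j : ℕ, v (s ^ j • π - π - (j : Ω) * x) < v x := by
    intro j
    induction j with
    | zero =>
      rw [pow_zero, one_smul, sub_self, Nat.cast_zero, zero_mul, sub_zero, v.map_zero]
      exact v.pos_iff.mpr hx0
    | succ j ih =>
      have h1 : s ^ (j + 1) • π - π - ((j + 1 : ℕ) : Ω) * x =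
          s • (s ^ j • π - π - (j : Ω) * x) + (j : Ω) * (s • x - x) := by
        have h2 : s • ((j : Ω)) = (j : Ω) := map_natCast (MulSemiringAction.toRingHom 𝔊 Ω s) j
        rw [pow_succ', mul_smul, smul_sub, smul_sub, smul_mul', h2, hx]
        push_cast
        ring
      rw [h1]
      refine v.map_add_lt (by rw [hs.1.1]; exact ih) ?_
      rw [map_mul]
      calc v (j : Ω) * v (s • x - x) ≤ 1 * v (s • x - x) :=
            mul_le_mul' (val_natCast_le_one v j) le_rfl
        _ = v (s • x - x) := one_mul _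
        _ < v x := hsx
  have := key n
  rw [hsn, sub_self, zero_sub, Valuation.map_neg, map_mul, hn, one_mul] at this
  exact lt_irrefl _ this

end Res

end Fermat.Agent.GP.Flat.SSTheta
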