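/-
GATE-P / S56 [P-FLAT] S56-FLAT-SSCOUNT-ABS (helper75): **the abstract supersingular count.**

Frame of `GP/Flat/SSChainCount` with `N = M₂(k)` (`k` a finite field of characteristic `p`),
`τ ∈ Dd` a tame inertia element (`act τ⁻¹` diagonal on `M₂(k)`: root lines scaled by `t₁`, `t₂`,
diagonal entries fixed; residual action `id`), `φ ∈ Dd` a Frobenius (`act φ⁻¹` antidiagonal: root
lines swapped with factors `f₁`, `f₂`, diagonal entries swapped; residual action `z ↦ z ^ p`),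
`F = 𝔽_{p²}` embedded in `k` and in `κ` with `θ̄(τ) = ι_κ μ`, `c_τ t₁ = ι_k μ₁`, `c_τ t₂ = ι_k μ₂`.

* `lam_add`, `lam_tw` : the leading-coefficient map `Λ_h ℓ = lcFun (π ^ (e + j)) h ℓ` is additive
  and twisted-equivariant with factor `θ̄(δ) ^ (e + j)`;
* `lam_eq_zero` : a level matching neither root line carries nothing (helper25
  `eq_zero_on_diag` + `eq_zero_of_tw_mismatch`);
* `top_in_AS` : the top level carries nothing on trace-zero `h` (helper25 `eq_zero_of_top`);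
* `card_le` : **if exactly the level `e + i₀` matches (the line `(0,1)`), then
  `Nat.card ↥(hSub (v p) ⊓ traceZero) ≤ Nat.card k`**;
* `card_eq_one` : if no level matches, `hSub (v p) ⊓ traceZero` is trivial.
-/
import Fermat.Agent.GP.Flat.SSChainCountCut
import Fermat.Agent.GP.Flat.SSTheta
import Fermat.Agent.GP.Flat.EigenCountTop
import Fermat.Agent.GP.Flat.KummerInst

set_option autoImplicit false
set_option linter.unusedSectionVars false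

namespace Fermat.Agent.GP.Flat.SSCountAbs

open Fermat.Agent.GP.Ram.KummerBreak Fermat.Agent.GP.Flat.SSChain Fermat.Agent.GP.Flat.SSChainVec
  Fermat.Agent.GP.Flat.SSInstNum Fermat.Agent.GP.Flat.SSChainCount Fermat.Agent.GP.Flat.SSTheta
  Fermat.Agent.GP.Flat.EigenCount

variable {Ω : Type*} [Field Ω] {Γ₀ : Type*} [LinearOrderedCommGroupWithZero Γ₀]
  (v : Valuation Ω Γ₀) {p : ℕ} [hp : Fact p.Prime]
  {𝔊 : Type*} [Group 𝔊] [MulSemiringAction 𝔊 Ω] {Dd GK : Subgroup 𝔊} {K : Subfield Ω} {ζ : Ω}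
  {k : Type*} [Field k] [Finite k] [CharP k p]
  {act : 𝔊 → Matrix (Fin 2) (Fin 2) k →+ Matrix (Fin 2) (Fin 2) k}
  (hK : ∀ x, x ∈ K ↔ ∀ g ∈ GK, g • x = x) (hζ : IsPrimitiveRoot ζ p) (hζK : ζ ∈ K)
  (horb : ∀ x : Ω, (Set.range fun g : GK => g • x).Finite)
  {κ : Type*} [Field κ] [Finite κ] [CharP κ p] (res : Ω → κ) (hres : IsRes v K res)
  {π : Ω} (hπK : π ∈ K) (hπ0 : π ≠ 0) (hπ1 : v π < 1)
  (hdisc : ∀ x ∈ K, x ≠ 0 → ∃ n : ℤ, v x = v π ^ n)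
  {e m : ℕ} (he : v π ^ e = v (p : Ω)) (hm : v (ζ - 1) = v π ^ m) (hlam : v (ζ - 1) < 1)

/-- the trace-zero maps. -/
def traceZero (𝔊 : Type*) (k : Type*) [Field k] :
    AddSubgroup (𝔊 → Matrix (Fin 2) (Fin 2) k) where
  carrier := {h | ∀ g, (h g).trace = 0}
  zero_mem' := fun g => by simp
  add_mem' := fun {a b} ha hb g => by
    show (a g + b g).trace = 0
    rw [Matrix.trace_add, ha g, hb g, add_zero]
  neg_mem' := fun {a} ha g => by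
    show (-(a g)).trace = 0
    rw [Matrix.trace_neg, ha g, neg_zero]

theorem mem_traceZero {h : 𝔊 → Matrix (Fin 2) (Fin 2) k} :
    h ∈ traceZero 𝔊 k ↔ ∀ g, (h g).trace = 0 := Iff.rfl

include hK hζ hζK horb hres hπK hπ0 hπ1 hdisc he hm hlam

/-- the uniqueness binder `U` of `lcFun_*` at the level `e + j`, `j < m`, `p ∤ e + j`. -/
theorem U_level {j : ℕ} (hj : j < m) (hnd : ¬ p ∣ e + j) (χ : 𝔊 → ZMod p) (a a' : Ω)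
    (ha : LC v GK K ζ (π ^ (e + j)) χ a) (ha' : LC v GK K ζ (π ^ (e + j)) χ a') :
    v (a - a') < 1 := by
  have hme := mul_eq_e v hK hζ hζK horb res hres hπK hπ0 hπ1 hdisc he hm hlam
  have hepos := e_pos v hK hζ hζK horb res hres hπK hπ0 hπ1 hdisc he hm hlam
  have htop := e_add_m v hK hζ hζK horb res hres hπK hπ0 hπ1 hdisc he hm hlam
  have hp1 : 0 < p - 1 := Nat.sub_pos_of_lt hp.out.one_lt
  have hlt : (e + j) * (p - 1) < e * p := by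
    calc (e + j) * (p - 1) < (e + m) * (p - 1) := Nat.mul_lt_mul_of_pos_right (by omega) hp1
      _ = m * (p - 1) * p := by rw [htop]; ring
      _ = e * p := by rw [hme]
  exact lc_unique_pow v K hπ0 hπ1 hdisc he hK hζ hζK (by omega) hnd hlt ha ha'

/-- additivity of the leading-coefficient map in the functional. -/
theorem lam_add {j : ℕ} (hj : j < m) (hnd : ¬ p ∣ e + j)
    {h : 𝔊 → Matrix (Fin 2) (Fin 2) k}
    (hh : h ∈ HLev (p := p) v Dd GK K ζ act (v π ^ (e + j)))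
    (ℓ ℓ' : Matrix (Fin 2) (Fin 2) k →+ ZMod p) :
    lcFun v GK K ζ res (π ^ (e + j)) h (ℓ + ℓ') =
      lcFun v GK K ζ res (π ^ (e + j)) h ℓ + lcFun v GK K ζ res (π ^ (e + j)) h ℓ' := by
  have hϖ1 : v (π ^ (e + j)) < 1 := by
    rw [v.map_pow]
    exact val_pow_lt_one v hK hζ hζK horb res hres hπK hπ0 hπ1 hdisc he hm hlam j
  have hhϖ : h ∈ HLev (p := p) v Dd GK K ζ act (v (π ^ (e + j))) := by rw [v.map_pow]; exact hh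
  exact lcFun_add_fun v hK hζ hζK horb res (K.pow_mem hπK (e + j)) (pow_ne_zero _ hπ0) hϖ1 hres
    (U_level v hK hζ hζK horb res hres hπK hπ0 hπ1 hdisc he hm hlam hj hnd) hhϖ ℓ ℓ'

/-- twisted equivariance of the leading-coefficient map, with the factor `θ̄(δ) ^ (e + j)`. -/
theorem lam_tw {j : ℕ} (hj : j < m) (hnd : ¬ p ∣ e + j)
    {h : 𝔊 → Matrix (Fin 2) (Fin 2) k}
    (hh : h ∈ HLev (p := p) v Dd GK K ζ act (v π ^ (e + j))) (δ : 𝔊)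
    (hδD : δ ∈ Dd) (hisoδ : ∀ x : Ω, v (δ • x) = v x) (hδG : ∀ g ∈ GK, δ⁻¹ * g * δ ∈ GK)
    {c : ℕ} (hδζ : δ • ζ = ζ ^ c) (actκ : κ → κ)
    (hresδ : ∀ x ∈ K, v x ≤ 1 → res (δ • x) = actκ (res x))
    (ℓ : Matrix (Fin 2) (Fin 2) k →+ ZMod p) :
    lcFun v GK K ζ res (π ^ (e + j)) h (twA c (act δ⁻¹) ℓ) =
      actκ (lcFun v GK K ζ res (π ^ (e + j)) h ℓ) * theta res π δ ^ (e + j) := by
  have hϖ1 : v (π ^ (e + j)) < 1 := by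
    rw [v.map_pow]
    exact val_pow_lt_one v hK hζ hζK horb res hres hπK hπ0 hπ1 hdisc he hm hlam j
  have hhϖ : h ∈ HLev (p := p) v Dd GK K ζ act (v (π ^ (e + j))) := by rw [v.map_pow]; exact hh
  have hδiso : IsIso v K δ := ⟨hisoδ, fun x hx => smul_mem_K hK hζ hζK horb δ hδG hx⟩
  have h1 := lcFun_tw v hK hζ hζK horb res (K.pow_mem hπK (e + j)) (pow_ne_zero _ hπ0) hϖ1 hres
    (U_level v hK hζ hζK horb res hres hπK hπ0 hπ1 hdisc he hm hlam hj hnd) hhϖ δ hδD hisoδ hδG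
    hδζ actκ hresδ ℓ
  rw [res_smul_pow_div hres hπK hπ0 hδiso (e + j)] at h1
  exact h1

/-! ### The data `τ`, `φ`, `F` -/

section Data

variable {τ φ : 𝔊} (hτD : τ ∈ Dd) (hisoτ : ∀ x : Ω, v (τ • x) = v x)
  (hτG : ∀ g ∈ GK, τ⁻¹ * g * τ ∈ GK) {cτ : ℕ} (hτζ : τ • ζ = ζ ^ cτ)
  (hresτ : ∀ x ∈ K, v x ≤ 1 → res (τ • x) = id (res x))
  {t₁ t₂ : k} (hAτ₁ : ∀ n, act τ⁻¹ n 0 1 = t₁ * n 0 1) (hAτ₂ : ∀ n, act τ⁻¹ n 1 0 = t₂ * n 1 0)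
  (hAτ00 : ∀ n, act τ⁻¹ n 0 0 = n 0 0) (hAτ11 : ∀ n, act τ⁻¹ n 1 1 = n 1 1)
  {F : Type*} [Field F] [Fintype F] [CharP F p] [Algebra F k] [Algebra F κ]
  (hF : Fintype.card F = p ^ 2) {μ μ₁ μ₂ : F}
  (hμ : algebraMap F κ μ = theta res π τ)
  (hμ₁ : algebraMap F k μ₁ = (cτ : k) * t₁) (hμ₂ : algebraMap F k μ₂ = (cτ : k) * t₂)

include hτD hisoτ hτG hτζ hresτ hAτ₁ hAτ₂ hAτ00 hAτ11 hF hμ hμ₁ hμ₂

/-- **a level matching neither root line carries nothing.** -/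
theorem lam_eq_zero {j : ℕ} (hj : j < m) (hnd : ¬ p ∣ e + j)
    (hdiag : (cτ : κ) ≠ theta res π τ ^ (e + j))
    (h1 : μ ^ (e + j) ≠ μ₁) (h1' : μ ^ (e + j) ≠ μ₁ ^ p) (h2 : μ ^ (e + j) ≠ μ₂)
    (h2' : μ ^ (e + j) ≠ μ₂ ^ p) {h : 𝔊 → Matrix (Fin 2) (Fin 2) k}
    (hh : h ∈ HLev (p := p) v Dd GK K ζ act (v π ^ (e + j)))
    (ℓ : Matrix (Fin 2) (Fin 2) k →+ ZMod p) :
    lcFun v GK K ζ res (π ^ (e + j)) h ℓ = 0 := by
  obtain ⟨ℓ₀, hℓ₀⟩ := KummerInst.exists_addMonoidHom_apply_ne_zero (p := p) (M := k)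
    (fun x => by rw [nsmul_eq_mul, CharP.cast_eq_zero k p, zero_mul]) (one_ne_zero (α := k))
  have hℓ₀' : ℓ₀ ≠ 0 := fun h0 => hℓ₀ (by rw [h0]; rfl)
  have hadd := lam_add v hK hζ hζK horb res hres hπK hπ0 hπ1 hdisc he hm hlam hj hnd hh
  have htw : ∀ ℓ, lcFun v GK K ζ res (π ^ (e + j)) h (twA cτ (act τ⁻¹) ℓ) =
      lcFun v GK K ζ res (π ^ (e + j)) h ℓ * theta res π τ ^ (e + j) := fun ℓ =>
    lam_tw v hK hζ hζK horb res hres hπK hπ0 hπ1 hdisc he hm hlam hj hnd hh τ hτD hisoτ hτG hτζ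
      id hresτ ℓ
  have hzero : ∀ ℓ ∈ diagFun k p, lcFun v GK K ζ res (π ^ (e + j)) h ℓ = 0 := fun ℓ hℓ =>
    eq_zero_on_diag cτ (act τ⁻¹) hAτ00 hAτ11 hdiag _ hadd htw hℓ
  have hν : algebraMap F κ (μ ^ (e + j)) = theta res π τ ^ (e + j) := by rw [map_pow, hμ]
  exact eq_zero_of_tw_mismatch hF hℓ₀' (act τ⁻¹) cτ hAτ₁ hAτ₂ hμ₁ hμ₂ hν h1 h1' h2 h2' _ hadd
    hzero htw ℓ

variable (hφD : φ ∈ Dd) (hisoφ : ∀ x : Ω, v (φ • x) = v x)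
  (hφG : ∀ g ∈ GK, φ⁻¹ * g * φ ∈ GK) {cφ : ℕ} (hφζ : φ • ζ = ζ ^ cφ)
  (hresφ : ∀ x ∈ K, v x ≤ 1 → res (φ • x) = (fun z => z ^ p) (res x))
  {f₁ f₂ : k} (hAφ₁ : ∀ n, act φ⁻¹ n 0 1 = f₁ * n 1 0) (hAφ₂ : ∀ n, act φ⁻¹ n 1 0 = f₂ * n 0 1)
  (hAφ00 : ∀ n, act φ⁻¹ n 0 0 = n 1 1) (hAφ11 : ∀ n, act φ⁻¹ n 1 1 = n 0 0)

include hφD hisoφ hφG hφζ hresφ hAφ₁ hAφ₂ hAφ00 hAφ11

/-- **the top level carries nothing on trace-zero maps** (`p` odd). -/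
theorem top_in_AS (hp2 : p ≠ 2) (ht₁ : (cτ : k) * (t₁ - 1) ≠ 0) (ht₂ : (cτ : k) * (t₂ - 1) ≠ 0)
    (hcφ : (cφ : k) ≠ 0) {h : 𝔊 → Matrix (Fin 2) (Fin 2) k}
    (hh : h ∈ HLev (p := p) v Dd GK K ζ act (v π ^ (e + m))) (hS : h ∈ traceZero 𝔊 k)
    (ℓ : Matrix (Fin 2) (Fin 2) k →+ ZMod p) :
    ∃ z : κ, lcFun v GK K ζ res ((ζ - 1) ^ p) h ℓ = z ^ p - z := by
  obtain ⟨ℓ₀, hℓ₀⟩ := KummerInst.exists_addMonoidHom_apply_ne_zero (p := p) (M := k)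
    (fun x => by rw [nsmul_eq_mul, CharP.cast_eq_zero k p, zero_mul]) (one_ne_zero (α := k))
  have hℓ₀' : ℓ₀ ≠ 0 := fun h0 => hℓ₀ (by rw [h0]; rfl)
  rw [val_top v hK hζ hζK horb res hres hπK hπ0 hπ1 hdisc he hm hlam] at hh
  -- the Artin–Schreier subgroup
  let AS : AddSubgroup κ :=
    ((frobenius κ p : κ →+* κ).toAddMonoidHom - AddMonoidHom.id κ).range
  have hAS : ∀ x : κ, x ∈ AS ↔ ∃ z : κ, x = z ^ p - z := by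
    intro x
    constructor
    · rintro ⟨z, rfl⟩
      exact ⟨z, rfl⟩
    · rintro ⟨z, rfl⟩
      exact ⟨z, rfl⟩
  have hmk : ∀ a b : κ, (∃ z : κ, a - b = z ^ p - z) →
      (QuotientAddGroup.mk a : κ ⧸ AS) = QuotientAddGroup.mk b := by
    intro a b hab
    rw [QuotientAddGroup.eq]
    obtain ⟨z, hz⟩ := hab
    rw [hAS]
    exact ⟨-z, by
      have hodd : Odd p := hp.out.odd_of_ne_two hp2
      rw [hodd.neg_pow]
      have : -a + b = -(a - b) := by ring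
      rw [this, hz]; ring⟩
  let Λ : (Matrix (Fin 2) (Fin 2) k →+ ZMod p) → κ ⧸ AS := fun ℓ =>
    QuotientAddGroup.mk (lcFun v GK K ζ res ((ζ - 1) ^ p) h ℓ)
  have hΛadd : ∀ ℓ ℓ', Λ (ℓ + ℓ') = Λ ℓ + Λ ℓ' := by
    intro ℓ ℓ'
    show (QuotientAddGroup.mk _ : κ ⧸ AS) = QuotientAddGroup.mk _ + QuotientAddGroup.mk _
    rw [← QuotientAddGroup.mk_add]
    exact hmk _ _ (top_add_fun v hK hζ hζK horb res hres hlam hh ℓ ℓ')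
  have hΛτ : ∀ ℓ, Λ (twA cτ (act τ⁻¹) ℓ) = cτ • Λ ℓ := by
    intro ℓ
    show (QuotientAddGroup.mk _ : κ ⧸ AS) = cτ • QuotientAddGroup.mk _
    rw [← QuotientAddGroup.mk_nsmul]
    refine hmk _ _ ?_
    obtain ⟨z, hz⟩ := top_tw v hK hζ hζK horb res hres hlam hh τ hτD hisoτ hτG hτζ id hresτ ℓ
    refine ⟨z, ?_⟩
    rw [← hz, nsmul_eq_mul, id, mul_comm]
    rfl
  have hΛφ : ∀ ℓ, Λ (twA cφ (act φ⁻¹) ℓ) = cφ • Λ ℓ := by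
    intro ℓ
    show (QuotientAddGroup.mk _ : κ ⧸ AS) = cφ • QuotientAddGroup.mk _
    obtain ⟨z, hz⟩ := top_tw v hK hζ hζK horb res hres hlam hh φ hφD hisoφ hφG hφζ
      (fun z => z ^ p) hresφ ℓ
    have h1 : (QuotientAddGroup.mk (lcFun v GK K ζ res ((ζ - 1) ^ p) h (tw act cφ φ ℓ)) : κ ⧸ AS) =
        QuotientAddGroup.mk (cφ • (lcFun v GK K ζ res ((ζ - 1) ^ p) h ℓ) ^ p) := by
      refine hmk _ _ ⟨z, ?_⟩
      rw [← hz, nsmul_eq_mul, mul_comm]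
    have h2 : (QuotientAddGroup.mk ((lcFun v GK K ζ res ((ζ - 1) ^ p) h ℓ) ^ p) : κ ⧸ AS) =
        QuotientAddGroup.mk (lcFun v GK K ζ res ((ζ - 1) ^ p) h ℓ) := hmk _ _ ⟨_, rfl⟩
    show (QuotientAddGroup.mk (lcFun v GK K ζ res ((ζ - 1) ^ p) h (tw act cφ φ ℓ)) : κ ⧸ AS) = _
    rw [h1, QuotientAddGroup.mk_nsmul, h2]
  -- the scalar line: the character vanishes identically on trace-zero maps
  have hl0 : (ζ - 1) ^ p ≠ 0 := pow_ne_zero _ (Fermat.Agent.GP.Ram.UnitFiltTop.lam_ne_zero hζ)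
  have hlK : (ζ - 1) ^ p ∈ K := K.pow_mem (K.sub_mem hζK K.one_mem) p
  have hl1 : v ((ζ - 1) ^ p) < 1 := by
    rw [v.map_pow]; exact pow_lt_one₀ zero_le hlam hp.out.ne_zero
  have hhϖ : h ∈ HLev (p := p) v Dd GK K ζ act (v ((ζ - 1) ^ p)) := by rw [v.map_pow]; exact hh
  have hΛscal : ∀ w, Λ (diagLine ℓ₀ 1 w) = 0 := by
    intro w
    obtain ⟨a, haK, ha, hae⟩ := lcFun_spec v hK hζ hζK horb res hlK hl0 hl1 hhϖ (diagLine ℓ₀ 1 w)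
    have hchi : chi (diagLine ℓ₀ 1 w) h = fun _ => (0 : ZMod p) := by
      funext g
      show diagLine ℓ₀ 1 w (h g) = 0
      rw [diagLine_apply, mul_one, ← map_add, ← mul_add]
      have : (h g) 0 0 + (h g) 1 1 = (h g).trace := by
        rw [Matrix.trace_fin_two]
      rw [this, hS g, mul_zero, map_zero]
    rw [hchi] at ha
    have h0 : LC v GK K ζ ((ζ - 1) ^ p) (fun _ : 𝔊 => (0 : ZMod p)) 0 := by
      refine ⟨1, 1, ⟨one_ne_zero, fun g _ => ?_⟩, K.one_mem, one_ne_zero, ?_, ?_⟩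
      · rw [smul_one, Fermat.Agent.GP.Flat.SSKummer.zpw_zero, one_mul]
      · rw [one_pow, mul_one, sub_self, v.map_zero]; exact zero_le
      · rw [one_pow, mul_one, sub_self, zero_div, sub_zero, v.map_zero]; exact zero_lt_one
    obtain ⟨x, hxK, hx1, hx⟩ := lc_top_unique v hK hζ hζK hlam h0 ha
    rw [sub_zero] at hx
    have hxp : v (x ^ p - x) ≤ 1 :=
      v.map_sub_le (by rw [v.map_pow]; exact pow_le_one₀ zero_le hx1) hx1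
    have h3 := (hres.eq_iff v haK (K.sub_mem (K.pow_mem hxK p) hxK)
      (LC.val_le_one v hl0 ha) hxp).mpr hx
    rw [hres.artinSchreier v hxK hx1] at h3
    show (QuotientAddGroup.mk (lcFun v GK K ζ res ((ζ - 1) ^ p) h (diagLine ℓ₀ 1 w)) : κ ⧸ AS) = 0
    rw [hae, h3, QuotientAddGroup.eq_zero_iff, hAS]
    exact ⟨res x, rfl⟩
  have hfin := eq_zero_of_top hp2 hℓ₀' (act τ⁻¹) (act φ⁻¹) cτ cφ hAτ₁ hAτ₂ ht₁ ht₂ hAφ00 hAφ11 hcφ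
    Λ hΛadd hΛscal hΛτ hΛφ ℓ
  have hmem : lcFun v GK K ζ res ((ζ - 1) ^ p) h ℓ ∈ AS :=
    (QuotientAddGroup.eq_zero_iff _).mp hfin
  exact (hAS _).mp hmem

omit hK hζ hζK horb hres hπK hπ0 hπ1 hdisc he hm hlam hτD hisoτ hτG hτζ hresτ hAτ₁ hAτ₂ hAτ00 hAτ11
  hF hμ hμ₁ hμ₂ hφD hisoφ hφG hφζ hresφ hAφ₁ hAφ₂ hAφ00 hAφ11 in
/-- additive forms separate the points of `M₂(k)`. -/
theorem hsep_matrix (n : Matrix (Fin 2) (Fin 2) k)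
    (h : ∀ ℓ : Matrix (Fin 2) (Fin 2) k →+ ZMod p, ℓ n = 0) : n = 0 := by
  refine KummerInst.eq_zero_of_forall_addMonoidHom (p := p) (fun x => ?_) h
  ext i j
  rw [Matrix.smul_apply, nsmul_eq_mul, CharP.cast_eq_zero k p, zero_mul]
  rfl

variable (hperf : ∀ a ∈ K, v a ≤ 1 → ∃ b ∈ K, v b ≤ 1 ∧ v (b ^ p - a) < 1)
  (hsurj : ∀ z : κ, ∃ x ∈ K, v x ≤ 1 ∧ res x = z)
  (hiso : ∀ g ∈ GK, ∀ x : Ω, v (g • x) = v x)

include hperf hsurj hiso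

/-- **the abstract supersingular count**: exactly the level `e + i₀` matches (on the root line
`(0,1)`) ⟹ at most `#k` trace-zero bounded equivariant homomorphisms. -/
theorem card_le (hp2 : p ≠ 2) (ht₁ : (cτ : k) * (t₁ - 1) ≠ 0) (ht₂ : (cτ : k) * (t₂ - 1) ≠ 0)
    (hcφ : (cφ : k) ≠ 0) (hs : (cφ : k) * f₁ ≠ 0) {i₀ : ℕ} (hi₀ : i₀ < m)
    (hnd₀ : ¬ p ∣ e + i₀)
    (hdiag : ∀ j, j < m → (cτ : κ) ≠ theta res π τ ^ (e + j))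
    (hmis : ∀ j, j < m → j ≠ i₀ → ¬ p ∣ e + j →
      μ ^ (e + j) ≠ μ₁ ∧ μ ^ (e + j) ≠ μ₁ ^ p ∧ μ ^ (e + j) ≠ μ₂ ∧ μ ^ (e + j) ≠ μ₂ ^ p)
    (hmatch : μ ^ (e + i₀) = μ₁) (hgen : Subring.closure ({μ₁} : Set F) = ⊤)
    (hγ : v (p : Ω) < 1) :
    Finite ↥(hSub v hK hζ hζK horb (Dd := Dd) (act := act) hγ ⊓ traceZero 𝔊 k) ∧
      Nat.card ↥(hSub v hK hζ hζK horb (Dd := Dd) (act := act) hγ ⊓ traceZero 𝔊 k) ≤
        Nat.card k := by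
  obtain ⟨ℓ₀, hℓ₀⟩ := KummerInst.exists_addMonoidHom_apply_ne_zero (p := p) (M := k)
    (fun x => by rw [nsmul_eq_mul, CharP.cast_eq_zero k p, zero_mul]) (one_ne_zero (α := k))
  have hℓ₀' : ℓ₀ ≠ 0 := fun h0 => hℓ₀ (by rw [h0]; rfl)
  have hφiso : IsIso v K φ := ⟨hisoφ, fun x hx => smul_mem_K hK hζ hζK horb φ hφG hx⟩
  set ετ : κ := theta res π τ ^ (e + i₀) with hετ
  set εφ : κ := theta res π φ ^ (e + i₀) with hεφ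
  have hεφ0 : εφ ≠ 0 := pow_ne_zero _ (theta_ne_zero hres hπK hπ0 hφiso)
  let T : Set ((Matrix (Fin 2) (Fin 2) k →+ ZMod p) → κ) :=
    {Λ | (∀ ℓ ℓ', Λ (ℓ + ℓ') = Λ ℓ + Λ ℓ') ∧ (∀ ℓ ∈ diagFun k p, Λ ℓ = 0) ∧
      (∀ ℓ, Λ (twA cτ (act τ⁻¹) ℓ) = Λ ℓ * ετ) ∧ (∀ ℓ, Λ (twA cφ (act φ⁻¹) ℓ) = Λ ℓ ^ p * εφ)}
  have hfinfun : Finite ((Matrix (Fin 2) (Fin 2) k →+ ZMod p) → κ) := by
    have : NeZero p := ⟨hp.out.ne_zero⟩
    have : Finite (Matrix (Fin 2) (Fin 2) k →+ ZMod p) := DFunLike.finite _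
    infer_instance
  have hTfin : T.Finite := Set.toFinite T
  have hTcard : Nat.card ↥T ≤ Nat.card k := by
    have hμκ : algebraMap F κ μ₁ = ετ := by rw [← hmatch, map_pow, hμ]
    exact card_le_of_tw hF hℓ₀' (act τ⁻¹) (act φ⁻¹) cτ cφ hAτ₁ hAφ₁ hAφ₂ hs hεφ0 hgen hμ₁ hμκ T
      (fun Λ hΛ => hΛ.1) (fun Λ hΛ => hΛ.2.1) (fun Λ hΛ => hΛ.2.2.1) (fun Λ hΛ => hΛ.2.2.2)
  have hvan : ∀ j, j < m → j ≠ i₀ → ¬ p ∣ e + j →
      ∀ h ∈ HLev (p := p) v Dd GK K ζ act (v π ^ (e + j)), h ∈ traceZero 𝔊 k →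
        ∀ ℓ : Matrix (Fin 2) (Fin 2) k →+ ZMod p,
          lcFun v GK K ζ res (π ^ (e + j)) h ℓ = 0 := by
    intro j hj hji hnd h hh _ ℓ
    obtain ⟨h1, h1', h2, h2'⟩ := hmis j hj hji hnd
    exact lam_eq_zero v hK hζ hζK horb res hres hπK hπ0 hπ1 hdisc he hm hlam hτD hisoτ hτG hτζ
      hresτ hAτ₁ hAτ₂ hAτ00 hAτ11 hF hμ hμ₁ hμ₂ hj hnd (hdiag j hj) h1 h1' h2 h2' hh ℓ
  have htop : ∀ h ∈ HLev (p := p) v Dd GK K ζ act (v π ^ (e + m)), h ∈ traceZero 𝔊 k →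
      ∀ ℓ : Matrix (Fin 2) (Fin 2) k →+ ZMod p,
        ∃ z : κ, lcFun v GK K ζ res ((ζ - 1) ^ p) h ℓ = z ^ p - z := by
    intro h hh hS ℓ
    exact top_in_AS v hK hζ hζK horb res hres hπK hπ0 hπ1 hdisc he hm hlam hτD hisoτ hτG hτζ
      hresτ hAτ₁ hAτ₂ hAτ00 hAτ11 hF hμ hμ₁ hμ₂ hφD hisoφ hφG hφζ hresφ hAφ₁ hAφ₂ hAφ00 hAφ11
      hp2 ht₁ ht₂ hcφ hh hS ℓ
  have hT : ∀ h ∈ HLev (p := p) v Dd GK K ζ act (v π ^ (e + i₀)), h ∈ traceZero 𝔊 k →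
      (fun ℓ => lcFun v GK K ζ res (π ^ (e + i₀)) h ℓ) ∈ T := by
    intro h hh _
    have hadd := lam_add v hK hζ hζK horb res hres hπK hπ0 hπ1 hdisc he hm hlam hi₀ hnd₀ hh
    have htwτ : ∀ ℓ, lcFun v GK K ζ res (π ^ (e + i₀)) h (twA cτ (act τ⁻¹) ℓ) =
        lcFun v GK K ζ res (π ^ (e + i₀)) h ℓ * ετ := fun ℓ =>
      lam_tw v hK hζ hζK horb res hres hπK hπ0 hπ1 hdisc he hm hlam hi₀ hnd₀ hh τ hτD hisoτ hτG
        hτζ id hresτ ℓ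
    have htwφ : ∀ ℓ, lcFun v GK K ζ res (π ^ (e + i₀)) h (twA cφ (act φ⁻¹) ℓ) =
        lcFun v GK K ζ res (π ^ (e + i₀)) h ℓ ^ p * εφ := fun ℓ =>
      lam_tw v hK hζ hζK horb res hres hπK hπ0 hπ1 hdisc he hm hlam hi₀ hnd₀ hh φ hφD hisoφ hφG
        hφζ (fun z => z ^ p) hresφ ℓ
    refine ⟨hadd, fun ℓ hℓ => ?_, htwτ, htwφ⟩
    exact eq_zero_on_diag cτ (act τ⁻¹) hAτ00 hAτ11 (hdiag i₀ hi₀) _ hadd htwτ hℓ
  obtain ⟨hfin, hcard⟩ := card_le_of_single_cut v hK hζ hζK horb res hres hπK hπ0 hπ1 hdisc he hm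
    hlam hperf hsurj hiso hsep_matrix (traceZero 𝔊 k) hi₀ hvan htop T hTfin hT hγ
  exact ⟨hfin, hcard.trans hTcard⟩

/-- **no level matches** ⟹ the trace-zero bounded equivariant homomorphisms vanish. -/
theorem card_eq_one (hp2 : p ≠ 2) (ht₁ : (cτ : k) * (t₁ - 1) ≠ 0) (ht₂ : (cτ : k) * (t₂ - 1) ≠ 0)
    (hcφ : (cφ : k) ≠ 0)
    (hdiag : ∀ j, j < m → (cτ : κ) ≠ theta res π τ ^ (e + j))
    (hmis : ∀ j, j < m → ¬ p ∣ e + j →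
      μ ^ (e + j) ≠ μ₁ ∧ μ ^ (e + j) ≠ μ₁ ^ p ∧ μ ^ (e + j) ≠ μ₂ ∧ μ ^ (e + j) ≠ μ₂ ^ p)
    (hγ : v (p : Ω) < 1) :
    Finite ↥(hSub v hK hζ hζK horb (Dd := Dd) (act := act) hγ ⊓ traceZero 𝔊 k) ∧
      Nat.card ↥(hSub v hK hζ hζK horb (Dd := Dd) (act := act) hγ ⊓ traceZero 𝔊 k) = 1 := by
  have hvan : ∀ j, j < m → ¬ p ∣ e + j →
      ∀ h ∈ HLev (p := p) v Dd GK K ζ act (v π ^ (e + j)), h ∈ traceZero 𝔊 k →
        ∀ ℓ : Matrix (Fin 2) (Fin 2) k →+ ZMod p,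
          lcFun v GK K ζ res (π ^ (e + j)) h ℓ = 0 := by
    intro j hj hnd h hh _ ℓ
    obtain ⟨h1, h1', h2, h2'⟩ := hmis j hj hnd
    exact lam_eq_zero v hK hζ hζK horb res hres hπK hπ0 hπ1 hdisc he hm hlam hτD hisoτ hτG hτζ
      hresτ hAτ₁ hAτ₂ hAτ00 hAτ11 hF hμ hμ₁ hμ₂ hj hnd (hdiag j hj) h1 h1' h2 h2' hh ℓ
  have htop : ∀ h ∈ HLev (p := p) v Dd GK K ζ act (v π ^ (e + m)), h ∈ traceZero 𝔊 k →
      ∀ ℓ : Matrix (Fin 2) (Fin 2) k →+ ZMod p,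
        ∃ z : κ, lcFun v GK K ζ res ((ζ - 1) ^ p) h ℓ = z ^ p - z := by
    intro h hh hS ℓ
    exact top_in_AS v hK hζ hζK horb res hres hπK hπ0 hπ1 hdisc he hm hlam hτD hisoτ hτG hτζ
      hresτ hAτ₁ hAτ₂ hAτ00 hAτ11 hF hμ hμ₁ hμ₂ hφD hisoφ hφG hφζ hresφ hAφ₁ hAφ₂ hAφ00 hAφ11
      hp2 ht₁ ht₂ hcφ hh hS ℓ
  exact card_eq_one_of_all_vanish_cut v hK hζ hζK horb res hres hπK hπ0 hπ1 hdisc he hm hlam hperf
    hsurj hiso hsep_matrix (traceZero 𝔊 k) hvan htop hγ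

end Data

end Fermat.Agent.GP.Flat.SSCountAbs
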