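/-
GATE-P / S56 [P-FLAT] S56-FLAT-SSTHETA part 2 (helper75): **the tame character in the `ℚ̄`-frame
of `GP/Flat/SSInst`** (`GK = D_A ⊓ N`, `K = fK A N`, `κ = ResidueField (locRing A N)`).

* `isIso_of_mem_decomp`, `isInert_of_mem_inertia` : elements of `D_A` / `I_A` are isometries /
  inertia elements of the frame, so all of `GP/Flat/SSTheta` applies with
  `thetaK A N π δ := SSTheta.theta (resK A N) π δ = resK A N (δ • π / π)`;
* `thetaK_eq_of_mem` : `thetaK` only depends on the class modulo `N`;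
* `mem_of_thetaK_eq_one` **(T5)** : if `e = |I_A N / N|` is prime to `p`, an inertia element with
  `thetaK s = 1` lies in `N`;
* `exists_generator` : then `I_A N / N` is cyclic, generated by some `s₀ ∈ I_A` with
  `thetaK s₀` a primitive `e`-th root of unity of `κ`;
* `exists_pow_conj` **(T6)**, Mathlib only: `t₀ ∈ κ` a primitive `e`-th root of unity, `c₀ ∈ k` with
  `c₀ ^ e = 1` (`k`, `κ` fields of the same characteristic `p`, `p ∤ e`) ⟹ `c₀` is conjugate to a
  power `t₀ ^ a`: every integer polynomial vanishing at `t₀ ^ a` vanishes at `c₀`.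
-/
import Mathlib
import Fermat.Agent.GP.Flat.SSInst
import Fermat.Agent.GP.Flat.SSTheta
import Fermat.Agent.GP.Flat.DvrInst.Base

set_option autoImplicit false
set_option linter.unusedSectionVars false

open scoped Pointwise
open IsLocalRing Polynomial
open Fermat.Agent.Common_helper32 Fermat.Agent.GL.Local.InertiaField Fermat.Agent.GL.Local
  Fermat.Agent.GP.Flat.DvrInst Fermat.Agent.GP.Flat.SSChainVec Fermat.Agent.GP.Flat.SSInst
  Fermat.Agent.GP.Flat.SSTheta

namespace Fermat.Agent.GP.Flat.SSInstTheta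

variable (A : ValuationSubring Qb) (N : Subgroup GQ) [hN : N.Normal]

/-- elements of the decomposition group are isometries of the frame. -/
theorem isIso_of_mem_decomp {δ : GQ} (hδ : δ ∈ A.decompositionSubgroup ℚ) :
    IsIso A.valuation (fK A N) δ :=
  ⟨fun x => hiso A hδ x, fun _ hx => smul_mem_fK A N hδ hx⟩

/-- elements of the inertia group are inertia elements of the frame. -/
theorem isInert_of_mem_inertia {s : GQ} (hs : s ∈ A.inertiaSubgroupIn ℚ) :
    IsInert A.valuation (fK A N) s := by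
  refine ⟨isIso_of_mem_decomp A N (inertia_le_decomp hs), fun x _ hx1 => ?_⟩
  have := ((mem_inertiaSubgroupIn_iff_forall A s).mp hs).2 x ((A.valuation_le_one_iff x).mp hx1)
  exact (A.mem_nonunits_iff).mp this

/-- the tame character of the frame. -/
noncomputable def thetaK (π : Qb) (δ : GQ) : ResidueField (locRing A N) :=
  theta (resK A N) π δ

theorem thetaK_def (π : Qb) (δ : GQ) : thetaK A N π δ = resK A N (δ • π / π) := rfl

/-- `thetaK` only depends on the class modulo `N` (on the decomposition group). -/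
theorem thetaK_eq_of_mem {π : Qb} (hπK : π ∈ fK A N) {δ δ' : GQ}
    (hδ : δ ∈ A.decompositionSubgroup ℚ) (hδ' : δ' ∈ A.decompositionSubgroup ℚ)
    (h : δ⁻¹ * δ' ∈ N) : thetaK A N π δ' = thetaK A N π δ := by
  have hg : δ⁻¹ * δ' ∈ gK A N :=
    ⟨Subgroup.mul_mem _ (Subgroup.inv_mem _ hδ) hδ', h⟩
  have h1 : (δ⁻¹ * δ') • π = π := (hK A N π).mp hπK _ hg
  have h2 : δ' • π = δ • π := by
    have : δ' = δ * (δ⁻¹ * δ') := by group
    rw [this, mul_smul, h1]
  rw [thetaK_def, thetaK_def, h2]

section Prime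

variable {p : ℕ} [hp : Fact p.Prime] (hA : (p : Qb) ∈ A.nonunits) (hopen : IsOpen (N : Set GQ))

include hA hopen

/-- **(T5) faithfulness**: if `e = |I_A N / N|` is prime to `p`, an inertia element in the kernel
of the tame character lies in `N`. -/
theorem mem_of_thetaK_eq_one {π : Qb} (hπK : π ∈ fK A N) (hπ0 : π ≠ 0)
    (hπ1 : A.valuation π < 1)
    (hπe : A.valuation π ^ Nat.card (inertiaQuot A N) = A.valuation (p : Qb))
    (hdisc : ∀ x ∈ fK A N, x ≠ 0 → ∃ n : ℤ, A.valuation x = A.valuation π ^ n)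
    (he : ¬ p ∣ Nat.card (inertiaQuot A N)) {s : GQ} (hs : s ∈ A.inertiaSubgroupIn ℚ)
    (hθ : thetaK A N π s = 1) : s ∈ N := by
  have hfin : Finite (inertiaQuot A N) := finite_inertiaQuot A N hopen
  let _ : Fintype (inertiaQuot A N) := Fintype.ofFinite _
  have hvp : A.valuation (p : Qb) < 1 := (A.mem_nonunits_iff).mp hA
  set e := Nat.card (inertiaQuot A N) with he_def
  -- `s ^ e ∈ N`
  have hse : s ^ e ∈ N := by
    have h1 : (mkI A N s hs) ^ e = 1 := by
      rw [he_def]; exact pow_card_eq_one'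
    have h2 : ((mkI A N s hs) ^ e : inertiaQuot A N).1 = QuotientGroup.mk' N (s ^ e) := by
      rw [map_pow]; rfl
    rw [h1] at h2
    have h3 : QuotientGroup.mk' N (s ^ e) = 1 := h2.symm
    rwa [QuotientGroup.mk'_apply, QuotientGroup.eq_one_iff] at h3
  have hsD : s ∈ A.decompositionSubgroup ℚ := inertia_le_decomp hs
  have hseπ : s ^ e • π = π :=
    (hK A N π).mp hπK _ ⟨Subgroup.pow_mem _ hsD e, hse⟩
  have hve : A.valuation ((e : ℕ) : Qb) = 1 :=
    Fermat.Agent.GP.Ram.KummerBreak.val_natCast_eq_one_of_coprime A.valuation hvp he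
  have hsπ : s • π = π :=
    smul_eq_of_theta_eq_one (isRes_resK A N) hπK hπ0 hπ1 hdisc (isInert_of_mem_inertia A N hs)
      hθ hve hseπ
  -- faithfulness on the uniformiser
  have hinj := smul_injective_of_valuation_pow_eq A N hp.out hA (π := (⟨π, hπK⟩ : locField A N))
    hπ1 (by rw [← Nat.card_eq_fintype_card]; exact hπe)
  have h4 : mkI A N s hs = 1 := by
    apply hinj
    show mkI A N s hs • (⟨π, hπK⟩ : locField A N) = (1 : inertiaQuot A N) • ⟨π, hπK⟩
    rw [one_smul]
    apply Subtype.ext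
    rw [coe_mkI_smul]
    exact hsπ
  have h5 : QuotientGroup.mk' N s = 1 := congrArg Subtype.val h4
  rwa [QuotientGroup.mk'_apply, QuotientGroup.eq_one_iff] at h5

/-- **the tame inertia quotient is cyclic, and `thetaK` of a generator is a primitive `e`-th root
of unity.** -/
theorem exists_generator {π : Qb} (hπK : π ∈ fK A N) (hπ0 : π ≠ 0)
    (hπ1 : A.valuation π < 1)
    (hπe : A.valuation π ^ Nat.card (inertiaQuot A N) = A.valuation (p : Qb))
    (hdisc : ∀ x ∈ fK A N, x ≠ 0 → ∃ n : ℤ, A.valuation x = A.valuation π ^ n)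
    (he : ¬ p ∣ Nat.card (inertiaQuot A N)) :
    ∃ s₀ ∈ A.inertiaSubgroupIn ℚ,
      IsPrimitiveRoot (thetaK A N π s₀) (Nat.card (inertiaQuot A N)) ∧
      ∀ s ∈ A.inertiaSubgroupIn ℚ, ∃ j : ℕ, s⁻¹ * s₀ ^ j ∈ N := by
  have hfin : Finite (inertiaQuot A N) := finite_inertiaQuot A N hopen
  have hres := isRes_resK A N
  -- the character on the quotient
  have hmul : ∀ g h : inertiaQuot A N,
      thetaK A N π (lift A N (g * h)) = thetaK A N π (lift A N g) * thetaK A N π (lift A N h) := by
    intro g h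
    have h1 : thetaK A N π (lift A N (g * h)) = thetaK A N π (lift A N g * lift A N h) := by
      refine thetaK_eq_of_mem A N hπK
        (Subgroup.mul_mem _ (lift_mem_decomp A N g) (lift_mem_decomp A N h))
        (lift_mem_decomp A N (g * h)) ?_
      rw [← QuotientGroup.eq (s := N)]
      have := mk_lift A N (g * h)
      rw [QuotientGroup.mk'_apply] at this
      rw [this]
      have h2 : QuotientGroup.mk' N (lift A N g * lift A N h) = (g * h : inertiaQuot A N).1 := by
        rw [map_mul, mk_lift, mk_lift]; rfl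
      exact h2
    rw [h1]
    exact theta_mul_inert hres hπK hπ0 (isInert_of_mem_inertia A N (lift_mem A N g))
      (isIso_of_mem_decomp A N (lift_mem_decomp A N h))
  have hone : thetaK A N π (lift A N (1 : inertiaQuot A N)) = 1 := by
    have h1 : thetaK A N π (lift A N (1 : inertiaQuot A N)) = thetaK A N π (1 : GQ) := by
      refine thetaK_eq_of_mem A N hπK (Subgroup.one_mem _) (lift_mem_decomp A N 1) ?_
      rw [inv_one, one_mul, ← QuotientGroup.eq_one_iff, ← QuotientGroup.mk'_apply, mk_lift]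
      rfl
    rw [h1]
    exact theta_one hres hπK hπ0
  let f : inertiaQuot A N →* ResidueField (locRing A N) :=
    { toFun := fun g => thetaK A N π (lift A N g)
      map_one' := hone
      map_mul' := hmul }
  have hf : Function.Injective f := by
    rw [injective_iff_map_eq_one]
    intro g hg
    have h1 : lift A N g ∈ N :=
      mem_of_thetaK_eq_one A N hA hopen hπK hπ0 hπ1 hπe hdisc he (lift_mem A N g) hg
    apply Subtype.ext
    rw [← mk_lift A N g, QuotientGroup.mk'_apply]
    exact (QuotientGroup.eq_one_iff _).mpr h1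
  have hcyc : IsCyclic (inertiaQuot A N) := isCyclic_of_injective_ringHom f hf
  obtain ⟨g₀, hg₀⟩ := hcyc.exists_generator
  refine ⟨lift A N g₀, lift_mem A N g₀, ?_, ?_⟩
  · have h1 : orderOf g₀ = Nat.card (inertiaQuot A N) :=
      orderOf_eq_card_of_forall_mem_zpowers hg₀
    have h2 : orderOf (f g₀) = orderOf g₀ := orderOf_injective f hf g₀
    have h3 : IsPrimitiveRoot (f g₀) (orderOf (f g₀)) := IsPrimitiveRoot.orderOf (f g₀)
    rw [h2, h1] at h3
    exact h3
  · intro s hs
    obtain ⟨j, hj⟩ : ∃ j : ℕ, g₀ ^ j = mkI A N s hs := by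
      have hmem := hg₀ (mkI A N s hs)
      rw [← mem_powers_iff_mem_zpowers] at hmem
      exact hmem
    refine ⟨j, ?_⟩
    rw [← QuotientGroup.eq (s := N)]
    have h1 : ((g₀ ^ j : inertiaQuot A N)).1 = QuotientGroup.mk' N (lift A N g₀ ^ j) := by
      rw [map_pow, mk_lift]; rfl
    rw [hj] at h1
    exact h1

end Prime

/-! ### (T6): roots of unity in two finite fields of the same characteristic are conjugate -/

section Conj

/-- **(T6)** `k`, `κ` finite fields of characteristic `p`, `t₀ ∈ κ` a primitive `e`-th root of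
unity, `c₀ ∈ k` with `c₀ ^ e = 1`: then `c₀` is conjugate to some power `t₀ ^ a`, i.e. they have the
same integer polynomial relations (no embedding of `κ` into `k` is chosen). -/
theorem exists_pow_conj {p : ℕ} [Fact p.Prime] {k κ : Type*} [Field k] [Field κ] [CharP k p]
    [CharP κ p] [Finite k] [Finite κ] {e : ℕ} (he0 : e ≠ 0) {t₀ : κ} (ht₀ : IsPrimitiveRoot t₀ e)
    {c₀ : k} (hc₀ : c₀ ^ e = 1) :
    ∃ a : ℕ, a < e ∧ ∀ P : ℤ[X], aeval (t₀ ^ a) P = 0 ↔ aeval c₀ P = 0 := by
  have : NeZero e := ⟨he0⟩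
  let _ : Algebra (ZMod p) k := ZMod.algebra k p
  let _ : Algebra (ZMod p) κ := ZMod.algebra κ p
  have hk : Algebra.IsAlgebraic (ZMod p) k := Algebra.IsAlgebraic.of_finite (ZMod p) k
  have hκ : Algebra.IsAlgebraic (ZMod p) κ := Algebra.IsAlgebraic.of_finite (ZMod p) κ
  let ιk : k →ₐ[ZMod p] AlgebraicClosure (ZMod p) := IsAlgClosed.lift
  let ικ : κ →ₐ[ZMod p] AlgebraicClosure (ZMod p) := IsAlgClosed.lift
  have hιk : Function.Injective ιk := ιk.toRingHom.injective
  have hικ : Function.Injective ικ := ικ.toRingHom.injective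
  have h1 : IsPrimitiveRoot (ικ t₀) e := ht₀.map_of_injective hικ
  have h2 : (ιk c₀) ^ e = 1 := by rw [← map_pow, hc₀, map_one]
  obtain ⟨a, hae, ha⟩ := h1.eq_pow_of_pow_eq_one h2
  refine ⟨a, hae, fun P => ?_⟩
  have e1 : ικ (aeval (t₀ ^ a) P) = aeval (ικ (t₀ ^ a)) P :=
    (Polynomial.aeval_algHom_apply (ικ.toRingHom.toIntAlgHom) (t₀ ^ a) P).symm
  have e2 : ιk (aeval c₀ P) = aeval (ιk c₀) P :=
    (Polynomial.aeval_algHom_apply (ιk.toRingHom.toIntAlgHom) c₀ P).symm
  have e3 : ικ (t₀ ^ a) = ιk c₀ := by rw [map_pow, ha]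
  constructor
  · intro h
    apply hιk
    rw [e2, ← e3, ← e1, h, map_zero, map_zero]
  · intro h
    apply hικ
    rw [e1, e3, ← e2, h, map_zero, map_zero]

end Conj

end Fermat.Agent.GP.Flat.SSInstTheta
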