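/-
GATE-P / S56 [P-FLAT] S56-FLAT-SSINSTFRAME (helper75): **the frame-side data of the supersingular
count in the `ℚ̄`-instance**, packaged in one statement.

For `A | p`, `N` open normal in `G_ℚ` fixing `ζ`, with `e = |I_A N / N|` prime to `p`:
a uniformiser `π` of `K = fK A N` (`v π ^ e = v p`, `hdisc`), `m` with `e = m (p - 1)`
(`v (ζ - 1) = v π ^ m`), a generator `s₀ ∈ I_A` of the tame quotient with
`θ̄(s₀) = resK (s₀ • π / π)` a primitive `e`-th root of unity and `(w₀ : κ) = θ̄(s₀) ^ m`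
(`s₀ ζ = ζ ^ w₀`), a Frobenius `φ ∈ D_A` (`φ ζ = ζ ^ wφ`), the residual actions of `s₀` and `φ`,
and `s₀ ^ j ∈ N ↔ e ∣ j`.  These are the frame-side binders of helper50's
`SSAsm.card_ssLev_le_of_orders`; the remaining ones (`hK`, `horb`, `hres`, `hsurj`, `hperf`,
`hiso`, normalisation) are `GP/Flat/SSInst` verbatim.
-/
import Mathlib
import Fermat.Agent.GP.Flat.SSInstTheta
import Fermat.Agent.GP.Flat.SSInstNum

set_option autoImplicit false
set_option linter.unusedSectionVars false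

open scoped Pointwise
open IsLocalRing
open Fermat.Agent.Common_helper32 Fermat.Agent.GL.Local.InertiaField Fermat.Agent.GL.Local
  Fermat.Agent.GP.Flat.DvrInst Fermat.Agent.GP.Flat.SSChainVec Fermat.Agent.GP.Flat.SSInst
  Fermat.Agent.GP.Flat.SSTheta Fermat.Agent.GP.Flat.SSInstTheta

namespace Fermat.Agent.GP.Flat.SSInstFrame

variable (A : ValuationSubring Qb) (N : Subgroup GQ) [hN : N.Normal]
  {p : ℕ} [hp : Fact p.Prime]

/-- every automorphism raises a primitive `p`-th root of unity to a power. -/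
theorem exists_pow_of_primitiveRoot {ζ : Qb} (hζ : IsPrimitiveRoot ζ p) (σ : GQ) :
    ∃ n : ℕ, σ • ζ = ζ ^ n := by
  have : NeZero p := ⟨hp.out.ne_zero⟩
  have h1 : (σ ζ) ^ p = 1 := by rw [← map_pow, hζ.pow_eq_one, map_one]
  obtain ⟨n, -, hn⟩ := hζ.eq_pow_of_pow_eq_one h1
  exact ⟨n, hn.symm⟩

/-- powers of an inertia element in `N` have trivial tame character. -/
theorem thetaK_eq_one_of_mem {π : Qb} (hπK : π ∈ fK A N) (hπ0 : π ≠ 0) {s : GQ}
    (hsD : s ∈ A.decompositionSubgroup ℚ) (hsN : s ∈ N) : thetaK A N π s = 1 := by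
  have h1 : thetaK A N π s = thetaK A N π (1 : GQ) :=
    thetaK_eq_of_mem A N hπK (Subgroup.one_mem _) hsD (by rw [inv_one, one_mul]; exact hsN)
  rw [h1]
  exact theta_one (isRes_resK A N) hπK hπ0

/-- **the frame-side data.** -/
theorem exists_frame (hA : (p : Qb) ∈ A.nonunits) (hopen : IsOpen (N : Set GQ))
    (he : ¬ p ∣ Nat.card (inertiaQuot A N)) {ζ : Qb} (hζ : IsPrimitiveRoot ζ p)
    (hζN : ∀ σ ∈ N, σ ζ = ζ) :
    ∃ (π : Qb) (m : ℕ) (s₀ φ : GQ) (w₀ wφ : ℕ),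
      π ∈ fK A N ∧ π ≠ 0 ∧ A.valuation π < 1 ∧
      (∀ x ∈ fK A N, x ≠ 0 → ∃ n : ℤ, A.valuation x = A.valuation π ^ n) ∧
      A.valuation π ^ Nat.card (inertiaQuot A N) = A.valuation (p : Qb) ∧
      Nat.card (inertiaQuot A N) = m * (p - 1) ∧ 0 < m ∧
      A.valuation (ζ - 1) = A.valuation π ^ m ∧
      s₀ ∈ A.inertiaSubgroupIn ℚ ∧ φ ∈ A.decompositionSubgroup ℚ ∧
      (∀ a ∈ A, φ a - a ^ p ∈ A.nonunits) ∧
      s₀ • ζ = ζ ^ w₀ ∧ φ • ζ = ζ ^ wφ ∧
      (∀ x ∈ fK A N, A.valuation x ≤ 1 → resK A N (s₀ • x) = resK A N x) ∧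
      (∀ x ∈ fK A N, A.valuation x ≤ 1 → resK A N (φ • x) = resK A N x ^ p) ∧
      IsPrimitiveRoot (resK A N (s₀ • π / π)) (Nat.card (inertiaQuot A N)) ∧
      ((w₀ : ℕ) : ResidueField (locRing A N)) = resK A N (s₀ • π / π) ^ m ∧
      (∀ s ∈ A.inertiaSubgroupIn ℚ, ∃ j : ℕ, s⁻¹ * s₀ ^ j ∈ N) ∧
      (∀ j : ℕ, s₀ ^ j ∈ N ↔ Nat.card (inertiaQuot A N) ∣ j) := by
  have hres := isRes_resK A N
  have hζK : ζ ∈ fK A N := zeta_mem_fK A N hζN
  have hlam : A.valuation (ζ - 1) < 1 := SSInst.hlam A hA hζ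
  obtain ⟨π, hπK, hπ0, hπ1, hπe, hdisc⟩ := exists_unif_fK A N hp.out hA hopen
  obtain ⟨m, hm, hme⟩ := SSInstNum.exists_top A.valuation (fK A N) hπ0 hπ1 hdisc hπe hζ hζK
  have hm0 : 0 < m := by
    rcases Nat.eq_zero_or_pos m with h0 | h0
    · rw [h0, pow_zero] at hm
      rw [hm] at hlam
      exact absurd hlam (lt_irrefl _)
    · exact h0
  obtain ⟨s₀, hs₀, hprim, hgen⟩ := exists_generator A N hA hopen hπK hπ0 hπ1 hπe hdisc he
  obtain ⟨φ, hφD, hfr⟩ := exists_frobenius A hp.out hA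
  obtain ⟨w₀, hw₀⟩ := exists_pow_of_primitiveRoot hζ s₀
  obtain ⟨wφ, hwφ⟩ := exists_pow_of_primitiveRoot hζ φ
  have hs₀in : IsInert A.valuation (fK A N) s₀ := isInert_of_mem_inertia A N hs₀
  have hs₀D : s₀ ∈ A.decompositionSubgroup ℚ := inertia_le_decomp hs₀
  refine ⟨π, m, s₀, φ, w₀, wφ, hπK, hπ0, hπ1, hdisc, hπe, hme.symm, hm0, hm, hs₀, hφD, hfr, hw₀,
    hwφ, ?_, ?_, hprim, ?_, hgen, ?_⟩
  · intro x hxK hx1
    exact resK_inertia A N hs₀ x hxK hx1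
  · intro x hxK hx1
    exact resK_frobenius A N hφD hfr x hxK hx1
  · exact natCast_eq_theta_pow hres hπK hπ0 hs₀in hζK (hζ.ne_one hp.out.one_lt) hlam hw₀ hm
  · intro j
    constructor
    · intro hj
      have h1 : thetaK A N π (s₀ ^ j) = 1 :=
        thetaK_eq_one_of_mem A N hπK hπ0 (Subgroup.pow_mem _ hs₀D j) hj
      have h2 : thetaK A N π (s₀ ^ j) = thetaK A N π s₀ ^ j :=
        theta_pow_inert hres hπK hπ0 hs₀in j
      rw [h2] at h1
      exact hprim.dvd_of_pow_eq_one j h1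
    · rintro ⟨q, rfl⟩
      have hfin : Finite (inertiaQuot A N) := finite_inertiaQuot A N hopen
      have h1 : (mkI A N s₀ hs₀) ^ Nat.card (inertiaQuot A N) = 1 := pow_card_eq_one'
      have h2 : ((mkI A N s₀ hs₀) ^ Nat.card (inertiaQuot A N) : inertiaQuot A N).1 =
          QuotientGroup.mk' N (s₀ ^ Nat.card (inertiaQuot A N)) := by
        rw [map_pow]; rfl
      rw [h1] at h2
      have h3 : QuotientGroup.mk' N (s₀ ^ Nat.card (inertiaQuot A N)) = 1 := h2.symm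
      rw [QuotientGroup.mk'_apply, QuotientGroup.eq_one_iff] at h3
      rw [pow_mul]
      exact Subgroup.pow_mem _ h3 q

end Fermat.Agent.GP.Flat.SSInstFrame
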