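/-
GATE-P / S56 [P-FLAT], node S56-FLAT-SSPLUG (helper84, second seat of helper50 on the SS PLUG):
**the supersingular branch `hss` of `FlatLocalCond.localCond_flat_of_branches`, with ONE binder:
the count for adapted bases.**

`A := padicPlace p`, `NK := SSGK.ssN ρbar.ρ p = ker ρbar ⊓ Fix μ_p`, `GK := SSInst.gK A NK = ssGK`,
`K := SSInst.fK A NK`, `v := A.valuation`, `ζ` a primitive `p`-th root of unity in `ℚ̄`.

Plugged in:
* helper36 `LocalCondBasis.localCond_of_adapted` (WLOG the basis is adapted), `SSGK` frame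
  (`ssGK_eq_gK`, `relIndex_ssGK_ne_zero_of_levelTwo`, `zeta_mem_fK_ssN`);
* helper75 `SSInst` (`hK`, `horb`, `conj_mem_gK'`);
* helper14 `KbSSFlat.kb_ss_flat` (the `(iv)`-binder, binder-free);
* helper84 `SSEndTrace.localCond_ss_of_count_trace`, `SSConj.card_hSub_inf_trSub_le`.

Binder left: `hcount` — for every adapted basis `b'`, the conclusion of helper50's
`SSAsm.card_ssLev_le_of_orders` at the frame above with `R := toMatRes ρbar b'`.
NEW file; imports only.
-/
import Fermat.Agent.GP.Flat.SSConj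
import Fermat.Agent.GP.Flat.KbSSFlat
import Fermat.Agent.GP.Flat.LocalCondBasis
import Fermat.Agent.GP.Flat.FlatLocalCond
import Fermat.Agent.GP.Flat.SSAsm.Final

set_option autoImplicit false
set_option linter.unusedSectionVars false

namespace Fermat.Agent.GP.Flat.SSPlug

open IsLocalRing Fermat.Agent.S53_helper35 Matrix Fermat.Agent.GP.Tan.Cocycle
  Fermat.Agent.GC.Prof Fermat.Agent.GC.Places Fermat.Agent.GC.Local.KR
  Fermat.Agent.GP.Core Fermat.Agent.GP.Flat.SSHlcPinned
  Fermat.Agent.GP.Flat.SSChain Fermat.Agent.GP.Flat.SSChainVec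
  Fermat.Agent.GP.Flat.SSGK Fermat.Agent.GP.Flat.LocalCondBasis
  Fermat.Agent.GP.Flat.FlatLocalCond

section Plug

variable {𝒪 : Type} [CommRing 𝒪] [IsLocalRing 𝒪]
  (ρbar : ResidualGaloisRep (ResidueField 𝒪))
  (b : Module.Basis (Fin 2) (ResidueField 𝒪) ρbar.V)
  (p : ℕ) [Fact p.Prime]
  {N : Rep (ZMod p) S53_helper35.GQ}
  {emb : N →+ Matrix (Fin 2) (Fin 2) (ResidueField 𝒪)}
  [IsDiscrete (levelQ p) (Rep.res (localGaloisToGlobal p) N)]

/-- the supersingular shape contains the level-two shape of `SSGK`. -/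
theorem levelTwo_of_ssShape {A : ValuationSubring (AlgebraicClosure ℚ)}
    (h : SSShape ρbar p A) : LevelTwo ρbar p A := h.2.2.2

/-- **the supersingular branch for ONE basis**: the flat local condition at `p` in the basis `b`
from the count in the basis `b` (helper50's conclusion shape at the `SSInst` frame of
`ssN ρbar.ρ p`), `ρbar` of level-two shape at `padicPlace p`. -/
theorem localCond_ss_of_levelTwo [Finite (ResidueField 𝒪)] [CharP (ResidueField 𝒪) p]
    (hp3 : 3 ≤ p) (hmodel : GlobModel N (toMatRes ρbar b) emb)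
    (hL : LevelTwo ρbar p (padicPlace p))
    (d : ℕ) (hk : Nat.card (ResidueField 𝒪) = p ^ d)
    {ζ : AlgebraicClosure ℚ} (hζ : IsPrimitiveRoot ζ p)
    (hcount :
      Finite {h : S53_helper35.GQ → Matrix (Fin 2) (Fin 2) (ResidueField 𝒪) //
        h ∈ HLev (p := p) (padicPlace p).valuation ((padicPlace p).decompositionSubgroup ℚ)
          (SSInst.gK (padicPlace p) (ssN ρbar.ρ p)) (SSInst.fK (padicPlace p) (ssN ρbar.ρ p)) ζ
          (Fermat.Agent.GP.Flat.SSAsm.adAct (toMatRes ρbar b))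
          ((padicPlace p).valuation (p : AlgebraicClosure ℚ)) ∧ ∀ g, (h g).trace = 0} ∧
      Nat.card {h : S53_helper35.GQ → Matrix (Fin 2) (Fin 2) (ResidueField 𝒪) //
        h ∈ HLev (p := p) (padicPlace p).valuation ((padicPlace p).decompositionSubgroup ℚ)
          (SSInst.gK (padicPlace p) (ssN ρbar.ρ p)) (SSInst.fK (padicPlace p) (ssN ρbar.ρ p)) ζ
          (Fermat.Agent.GP.Flat.SSAsm.adAct (toMatRes ρbar b))
          ((padicPlace p).valuation (p : AlgebraicClosure ℚ)) ∧ ∀ g, (h g).trace = 0} ≤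
        Nat.card (ResidueField 𝒪)) :
    LocalCond ρbar b p N emb p (fun ρ => ρ.DetIsCyclotomic p ∧ ρ.IsFlatAt p) d := by
  have hpp : p.Prime := Fact.out
  have hp2 : p ≠ 2 := by omega
  have hA : (p : AlgebraicClosure ℚ) ∈ (padicPlace p).nonunits :=
    Fermat.Agent.GP.Loc.PadicPlace.padicPlace_liesOverPrime p
  have hγ : (padicPlace p).valuation (p : AlgebraicClosure ℚ) < 1 :=
    (ValuationSubring.mem_nonunits_iff (A := padicPlace p)).mp hA
  obtain ⟨hfin, hle⟩ := hcount
  obtain ⟨hfin', hle'⟩ := SSConj.card_hSub_inf_trSub_le (padicPlace p).valuation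
    (SSInst.hK (padicPlace p) (ssN ρbar.ρ p)) hζ
    (zeta_mem_fK_ssN ρbar p (padicPlace p) hζ.pow_eq_one)
    (SSInst.horb (padicPlace p) (ssN ρbar.ρ p))
    (Dd := (padicPlace p).decompositionSubgroup ℚ)
    (act := Fermat.Agent.GP.Flat.SSAsm.adAct (toMatRes ρbar b))
    (act₁ := SSMember.adAct (toMatRes ρbar b)) (fun δ X => rfl) hγ
  refine SSEndTrace.localCond_ss_of_count_trace ρbar b p hmodel
    (SSInst.gK (padicPlace p) (ssN ρbar.ρ p))
    (fun δ hδ => SSInst.conj_mem_gK' (padicPlace p) (ssN ρbar.ρ p) hδ)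
    (fun g hg => ?_) ?_ (padicPlace p).valuation
    (SSInst.hK (padicPlace p) (ssN ρbar.ρ p)) hζ
    (zeta_mem_fK_ssN ρbar p (padicPlace p) hζ.pow_eq_one)
    (SSInst.horb (padicPlace p) (ssN ρbar.ρ p)) hγ d ?_
    (KbSSFlat.kb_ss_flat ρbar b (padicPlace p) hpp hA hp3 hζ)
  · -- `r̄ = 1` on `GK`
    rw [← ssGK_eq_gK] at hg
    exact toMatRes_eq_one_of_mem b hg
  · -- the index
    rw [← ssGK_eq_gK]
    exact relIndex_ssGK_ne_zero_of_levelTwo hp2 hL
  · -- the count
    exact (hle'.trans hle).trans (le_of_eq hk)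

/-- **S56-FLAT-SSPLUG**: the branch `hss` of `FlatLocalCond.localCond_flat_of_branches` (and of
helper44's `FlatHlocp.hlocp_flat_of_ends`), from the count for adapted bases. -/
theorem hss_of_count [Finite (ResidueField 𝒪)] [CharP (ResidueField 𝒪) p]
    (hp3 : 3 ≤ p) (hmodel : GlobModel N (toMatRes ρbar b) emb)
    (d : ℕ) (hk : Nat.card (ResidueField 𝒪) = p ^ d)
    {ζ : AlgebraicClosure ℚ} (hζ : IsPrimitiveRoot ζ p)
    (hcount : ∀ b' : Module.Basis (Fin 2) (ResidueField 𝒪) ρbar.V,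
      IsAdapted ρbar p (padicPlace p) b' →
      Finite {h : S53_helper35.GQ → Matrix (Fin 2) (Fin 2) (ResidueField 𝒪) //
        h ∈ HLev (p := p) (padicPlace p).valuation ((padicPlace p).decompositionSubgroup ℚ)
          (SSInst.gK (padicPlace p) (ssN ρbar.ρ p)) (SSInst.fK (padicPlace p) (ssN ρbar.ρ p)) ζ
          (Fermat.Agent.GP.Flat.SSAsm.adAct (toMatRes ρbar b'))
          ((padicPlace p).valuation (p : AlgebraicClosure ℚ)) ∧ ∀ g, (h g).trace = 0} ∧
      Nat.card {h : S53_helper35.GQ → Matrix (Fin 2) (Fin 2) (ResidueField 𝒪) //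
        h ∈ HLev (p := p) (padicPlace p).valuation ((padicPlace p).decompositionSubgroup ℚ)
          (SSInst.gK (padicPlace p) (ssN ρbar.ρ p)) (SSInst.fK (padicPlace p) (ssN ρbar.ρ p)) ζ
          (Fermat.Agent.GP.Flat.SSAsm.adAct (toMatRes ρbar b'))
          ((padicPlace p).valuation (p : AlgebraicClosure ℚ)) ∧ ∀ g, (h g).trace = 0} ≤
        Nat.card (ResidueField 𝒪)) :
    SSShape ρbar p (padicPlace p) →
      LocalCond ρbar b p N emb p (fun ρ => ρ.DetIsCyclotomic p ∧ ρ.IsFlatAt p) d := by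
  intro hshape
  have hL : LevelTwo ρbar p (padicPlace p) := levelTwo_of_ssShape ρbar p hshape
  refine localCond_of_adapted ρbar b p N emb hmodel hL p _ d ?_
  intro b' emb' hmodel' hb'
  exact localCond_ss_of_levelTwo ρbar b' p hp3 hmodel' hL d hk hζ (hcount b' hb')

end Plug

end Fermat.Agent.GP.Flat.SSPlug
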