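/-
GATE-P / S56 [P-FLAT], node S56-FLAT-SSPLUG-FINAL (helper84; ruling helper98 4608):
**the supersingular branch of the flat local condition, BINDER-FREE**, and with it **R3-FL**.

* `localCond_ss` : `SSShape ρbar p (padicPlace p) → LocalCond ρbar b p N emb p (DetIsCyclotomic ∧
  IsFlatAt) d` for a `ρbar` with cyclotomic determinant, `p` odd, `#k = p ^ d`, any model
  `(N, emb)` of `ad⁰` — `SSPlug.hss_of_count` with `hcount := SSData.card_ss_le` (helper36; on
  helper50's `SSAsm.card_ssLev_le_of_orders`);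
* `hss` : the same in the exact shape of the binder `hss` of helper90's
  `FlatLocalCond.localCond_flat_of_ss`;
* `localCond_flat` : **R3-FL** — the flat local condition at `p` in helper35's `LocalCond` contract,
  no hypothesis on `ρbar` beyond the frozen ones (`hp2`, `hdet`, `hsplit`).
NEW file; imports only.
-/
import Fermat.Agent.GP.Flat.SSPlug
import Fermat.Agent.GP.Flat.SSDataOrd
import Fermat.Agent.GP.Flat.FlatLocalCondTop

set_option autoImplicit false
set_option linter.unusedSectionVars false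

namespace Fermat.Agent.GP.Flat.SSPlugFinal

open IsLocalRing Fermat.Agent.S53_helper35 Matrix Fermat.Agent.GP.Tan.Cocycle
  Fermat.Agent.GC.Prof Fermat.Agent.GC.Places Fermat.Agent.GC.Local.KR
  Fermat.Agent.GP.Core Fermat.Agent.GP.Flat.SSHlcPinned
  Fermat.Agent.GP.Flat.FlatLocalCond

section Final

variable {𝒪 : Type} [CommRing 𝒪] [IsLocalRing 𝒪]
  (ρbar : ResidualGaloisRep (ResidueField 𝒪))
  (b : Module.Basis (Fin 2) (ResidueField 𝒪) ρbar.V)
  (p : ℕ) [Fact p.Prime]
  {N : Rep (ZMod p) S53_helper35.GQ}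
  {emb : N →+ Matrix (Fin 2) (Fin 2) (ResidueField 𝒪)}
  [IsDiscrete (levelQ p) (Rep.res (localGaloisToGlobal p) N)]

/-- a primitive `p`-th root of unity in `ℚ̄`. -/
theorem exists_primitiveRoot_Qbar : ∃ ζ : AlgebraicClosure ℚ, IsPrimitiveRoot ζ p := by
  have hpp : p.Prime := Fact.out
  have : NeZero (p : AlgebraicClosure ℚ) := ⟨by exact_mod_cast hpp.ne_zero⟩
  exact HasEnoughRootsOfUnity.exists_primitiveRoot (AlgebraicClosure ℚ) p

/-- **the supersingular branch, binder-free.** -/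
theorem localCond_ss [Finite (ResidueField 𝒪)] (hp2 : p ≠ 2)
    (hdet : (GaloisRepAdic.ofResidualGaloisRep ρbar).DetIsCyclotomic p)
    (hmodel : GlobModel N (toMatRes ρbar b) emb)
    (d : ℕ) (hk : Nat.card (ResidueField 𝒪) = p ^ d) :
    SSShape ρbar p (padicPlace p) →
      LocalCond ρbar b p N emb p (fun ρ => ρ.DetIsCyclotomic p ∧ ρ.IsFlatAt p) d := by
  have hpp : p.Prime := Fact.out
  have hp3 : 3 ≤ p := by
    have := hpp.two_le
    omega
  have : CharP (ResidueField 𝒪) p :=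
    Fermat.Agent.GP.Flat.CasesFrozen.charP_of_detIsCyclotomic ρbar p hdet
  obtain ⟨ζ, hζ⟩ := exists_primitiveRoot_Qbar p
  have hA : (p : AlgebraicClosure ℚ) ∈ (padicPlace p).nonunits :=
    Fermat.Agent.GP.Loc.PadicPlace.padicPlace_liesOverPrime p
  exact SSPlug.hss_of_count ρbar b p hp3 hmodel d hk hζ
    (fun b' hb' => Fermat.Agent.GP.Flat.SSData.card_ss_le hp3 hdet hA hb' hζ)

/-- the binder `hss` of helper90's `FlatLocalCond.localCond_flat_of_ss`, VERBATIM. -/
theorem hss [Finite (ResidueField 𝒪)] (hp2 : p ≠ 2)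
    (hdet : (GaloisRepAdic.ofResidualGaloisRep ρbar).DetIsCyclotomic p)
    (hmodel : GlobModel N (toMatRes ρbar b) emb)
    (d : ℕ) (hk : Nat.card (ResidueField 𝒪) = p ^ d) :
    (GaloisRepAdic.ofResidualGaloisRep ρbar).IsFlatAt p →
      SSShape ρbar p (padicPlace p) →
      LocalCond ρbar b p N emb p (fun ρ => ρ.DetIsCyclotomic p ∧ ρ.IsFlatAt p) d :=
  fun _ => localCond_ss ρbar b p hp2 hdet hmodel d hk

end Final

section R3FL

variable {𝒪 : Type} [CommRing 𝒪] [IsDomain 𝒪] [IsDiscreteValuationRing 𝒪]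
  [IsAdicComplete (maximalIdeal 𝒪) 𝒪]
  (ρbar : ResidualGaloisRep (ResidueField 𝒪))
  (b : Module.Basis (Fin 2) (ResidueField 𝒪) ρbar.V)
  (p : ℕ) [Fact p.Prime]
  {N : Rep (ZMod p) S53_helper35.GQ}
  {emb : N →+ Matrix (Fin 2) (Fin 2) (ResidueField 𝒪)}
  [IsDiscrete (levelQ p) (Rep.res (localGaloisToGlobal p) N)]

/-- **R3-FL, binder-free**: the flat local condition at `p` in helper35's `LocalCond` contract,
for any model `(N, emb)` of `ad⁰ ρbar` and `#k = p ^ d`. -/
theorem localCond_flat [Finite (ResidueField 𝒪)] (hp2 : p ≠ 2)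
    (hdet : (GaloisRepAdic.ofResidualGaloisRep ρbar).DetIsCyclotomic p)
    (hsplit : ∀ σ : Fermat.Agent.Common_helper32.GQ, ∃ α β : ResidueField 𝒪,
      LinearMap.charpoly (ρbar.ρ σ) =
        (Polynomial.X - Polynomial.C α) * (Polynomial.X - Polynomial.C β))
    (hmodel : GlobModel N (toMatRes ρbar b) emb)
    (d : ℕ) (hk : Nat.card (ResidueField 𝒪) = p ^ d) :
    LocalCond ρbar b p N emb p (fun ρ => ρ.DetIsCyclotomic p ∧ ρ.IsFlatAt p) d :=
  localCond_flat_of_ss ρbar b p hp2 hdet hsplit hmodel d hk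
    (hss ρbar b p hp2 hdet hmodel d hk)

end R3FL

end Fermat.Agent.GP.Flat.SSPlugFinal
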